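/-
Program M, node B, abstract layer (helper4): coset families with an explicit cocycle, and their
transfer operators `Hom(Γ₁, M) → Hom(Γ₂, M)` between two different groups `Γ₁, Γ₂ → G`.

A `CosetFam emb₁ emb₂ ι` is a finite family `rep : ι → G` together with an explicit cocycle
`rep i * emb₂ γ = emb₁ (coc γ i) * rep (next γ i)` (`γ : Γ₂`, `coc γ i : Γ₁`, `next γ` a permutation
of `ι`), multiplicative in `γ`.  No distinctness of the cosets `emb₁ Γ₁ * rep i` is required, so
that families can be composed freely.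

* `CosetFam.transfer : (Additive Γ₁ →+ M) →+ (Additive Γ₂ →+ M)`, `(transfer φ) γ = ∑ i, φ (coc γ i)`.
* `CosetFam.ofHom` (one element: precomposition with a homomorphism), `CosetFam.ofReps`
  (helper15's one-group `CosetReps`, same transfer), `CosetSys` / `CosetSys.toFam` (two-group
  stable and distinct systems, cocycle by choice).
* `CosetFam.comp` (product family) and `transfer_compFam`.
* the comparison theorem `transfer_apply_of_reps` and its corollaries
  `transfer_eq_of_bijective`, `transfer_eq_of_card`, `transfer_eq_card_smul`.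
* `transfer_apply_eq_zero_of_pred` (parabolicity).
-/
import Mathlib
import Fermat.Agent.Jac.Transfer

set_option autoImplicit false

namespace Fermat.Agent.LR

open Fermat.Agent.Jac

/-- A finite family of elements `rep i` of an ambient group `G` with an explicit cocycle
`rep i * emb₂ γ = emb₁ (coc γ i) * rep (next γ i)`. -/
structure CosetFam {Γ₁ Γ₂ G : Type*} [Group Γ₁] [Group Γ₂] [Group G]
    (emb₁ : Γ₁ →* G) (emb₂ : Γ₂ →* G) (ι : Type*) where
  /-- the elements of the family -/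
  rep : ι → G
  /-- the `Γ₁`-component of `rep i * γ` -/
  coc : Γ₂ → ι → Γ₁
  /-- the index of `rep i * γ` -/
  next : Γ₂ → ι → ι
  rel : ∀ (γ : Γ₂) (i : ι), rep i * emb₂ γ = emb₁ (coc γ i) * rep (next γ i)
  next_one : ∀ i, next 1 i = i
  next_mul : ∀ (γ γ' : Γ₂) (i : ι), next (γ * γ') i = next γ' (next γ i)
  coc_mul : ∀ (γ γ' : Γ₂) (i : ι), coc (γ * γ') i = coc γ i * coc γ' (next γ i)

namespace CosetFam

variable {Γ₁ Γ₂ Γ₃ G : Type*} [Group Γ₁] [Group Γ₂] [Group Γ₃] [Group G]
  {emb₁ : Γ₁ →* G} {emb₂ : Γ₂ →* G} {emb₃ : Γ₃ →* G} {ι κ : Type*}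

section Basic

variable (F : CosetFam emb₁ emb₂ ι)

theorem coc_one (i : ι) : F.coc 1 i = 1 := by
  have h := F.coc_mul 1 1 i
  rw [mul_one, F.next_one] at h
  have h' : F.coc 1 i * 1 = F.coc 1 i * F.coc 1 i := by rw [mul_one]; exact h
  exact (mul_left_cancel h').symm

/-- the permutation of the index set induced by `γ` -/
def nextEquiv (γ : Γ₂) : Equiv.Perm ι where
  toFun := F.next γ
  invFun := F.next γ⁻¹
  left_inv i := by rw [← F.next_mul, mul_inv_cancel, F.next_one]
  right_inv i := by rw [← F.next_mul, inv_mul_cancel, F.next_one]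

@[simp] theorem nextEquiv_apply (γ : Γ₂) (i : ι) : F.nextEquiv γ i = F.next γ i := rfl

theorem next_pow (γ : Γ₂) (r : ℕ) (i : ι) : F.next (γ ^ r) i = (F.next γ)^[r] i := by
  induction r with
  | zero => simp [F.next_one]
  | succ r ih => rw [pow_succ, F.next_mul, ih, Function.iterate_succ_apply']

theorem nextEquiv_pow (γ : Γ₂) (r : ℕ) : F.nextEquiv (γ ^ r) = F.nextEquiv γ ^ r := by
  ext i
  rw [nextEquiv_apply, F.next_pow, ← Equiv.Perm.iterate_eq_pow]
  rfl

/-- the cosets `emb₁ Γ₁ * rep i` are pairwise distinct (and `emb₁` is injective) -/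
def Distinct : Prop :=
  Function.Injective emb₁ ∧ ∀ (i j : ι) (γ : Γ₁), F.rep i = emb₁ γ * F.rep j → i = j

variable {F}

/-- uniqueness of the decomposition `rep i * γ = γ' * rep j` in a distinct family -/
theorem eq_of_rel (hF : F.Distinct) {γ : Γ₂} {γ' : Γ₁} {i j : ι}
    (h : F.rep i * emb₂ γ = emb₁ γ' * F.rep j) : j = F.next γ i ∧ γ' = F.coc γ i := by
  have h1 := F.rel γ i
  rw [h] at h1
  have h2 : F.rep j = emb₁ (γ'⁻¹ * F.coc γ i) * F.rep (F.next γ i) := by
    rw [map_mul, map_inv, mul_assoc, ← h1, inv_mul_cancel_left]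
  have hj : j = F.next γ i := hF.2 _ _ _ h2
  refine ⟨hj, ?_⟩
  rw [← hj] at h1
  exact hF.1 (mul_right_cancel h1)

end Basic

section Transfer

variable [Fintype ι] {M : Type*} [AddCommGroup M] (F : CosetFam emb₁ emb₂ ι)

/-- The transfer operator `Hom(Γ₁, M) → Hom(Γ₂, M)` attached to the family `F`. -/
noncomputable def transfer : (Additive Γ₁ →+ M) →+ (Additive Γ₂ →+ M) where
  toFun φ :=
    { toFun := fun γ => ∑ i, φ (Additive.ofMul (F.coc (Additive.toMul γ) i))
      map_zero' := by simp [F.coc_one]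
      map_add' := fun γ γ' => by
        simp only [toMul_add, F.coc_mul, ofMul_mul, map_add, Finset.sum_add_distrib]
        congr 1
        exact Equiv.sum_comp (F.nextEquiv (Additive.toMul γ))
          (fun i => φ (Additive.ofMul (F.coc (Additive.toMul γ') i))) }
  map_zero' := by ext; simp
  map_add' φ ψ := by ext; simp [Finset.sum_add_distrib]

theorem transfer_apply (φ : Additive Γ₁ →+ M) (γ : Γ₂) :
    F.transfer φ (Additive.ofMul γ) = ∑ i, φ (Additive.ofMul (F.coc γ i)) := rfl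

/-- naturality of the transfer in the coefficient group -/
theorem transfer_comp {M' : Type*} [AddCommGroup M'] (f : M →+ M') (φ : Additive Γ₁ →+ M) :
    F.transfer (f.comp φ) = f.comp (F.transfer φ) := by
  ext γ
  simp [transfer, map_sum]

theorem transfer_smul {R : Type*} [Monoid R] [DistribMulAction R M] (r : R)
    (φ : Additive Γ₁ →+ M) : F.transfer (r • φ) = r • F.transfer φ := by
  ext γ
  simp [transfer, Finset.smul_sum]

end Transfer

section OfHom

/-- The one-element family attached to an element `w : G` intertwining `emb₂` and `emb₁ ∘ c`;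
its transfer is the precomposition with `c`. -/
def ofHom (c : Γ₂ →* Γ₁) (w : G) (h : ∀ γ, w * emb₂ γ = emb₁ (c γ) * w) :
    CosetFam emb₁ emb₂ Unit where
  rep _ := w
  coc γ _ := c γ
  next _ i := i
  rel γ _ := h γ
  next_one _ := rfl
  next_mul _ _ _ := rfl
  coc_mul γ γ' _ := map_mul c γ γ'

@[simp] theorem ofHom_rep (c : Γ₂ →* Γ₁) (w : G) (h : ∀ γ, w * emb₂ γ = emb₁ (c γ) * w)
    (u : Unit) : (ofHom c w h).rep u = w := rfl

@[simp] theorem ofHom_coc (c : Γ₂ →* Γ₁) (w : G) (h : ∀ γ, w * emb₂ γ = emb₁ (c γ) * w)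
    (γ : Γ₂) (u : Unit) : (ofHom c w h).coc γ u = c γ := rfl

theorem ofHom_distinct (c : Γ₂ →* Γ₁) (w : G) (h : ∀ γ, w * emb₂ γ = emb₁ (c γ) * w)
    (hinj : Function.Injective emb₁) : (ofHom c w h).Distinct :=
  ⟨hinj, fun _ _ _ _ => rfl⟩

theorem transfer_ofHom {M : Type*} [AddCommGroup M] (c : Γ₂ →* Γ₁) (w : G)
    (h : ∀ γ, w * emb₂ γ = emb₁ (c γ) * w) (φ : Additive Γ₁ →+ M) (γ : Γ₂) :
    (ofHom c w h).transfer φ (Additive.ofMul γ) = φ (Additive.ofMul (c γ)) := by
  rw [transfer_apply]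
  simp

theorem transfer_ofHom_eq {M : Type*} [AddCommGroup M] (c : Γ₂ →* Γ₁) (w : G)
    (h : ∀ γ, w * emb₂ γ = emb₁ (c γ) * w) (φ : Additive Γ₁ →+ M) :
    (ofHom c w h).transfer φ = φ.comp (MonoidHom.toAdditive c) := by
  refine AddMonoidHom.ext fun γ' => ?_
  obtain ⟨γ, rfl⟩ := Additive.ofMul.surjective γ'
  rw [transfer_ofHom]
  rfl

end OfHom

section OfReps

variable {Γ : Type*} [Group Γ] {emb : Γ →* G}

/-- helper15's one-group coset systems as families -/
noncomputable def ofReps (D : CosetReps emb ι) : CosetFam emb emb ι where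
  rep := D.rep
  coc := D.coc
  next := D.next
  rel := D.rel
  next_one := D.next_one
  next_mul := D.next_mul
  coc_mul := D.coc_mul

@[simp] theorem ofReps_rep (D : CosetReps emb ι) (i : ι) : (ofReps D).rep i = D.rep i := rfl

@[simp] theorem ofReps_coc (D : CosetReps emb ι) (γ : Γ) (i : ι) :
    (ofReps D).coc γ i = D.coc γ i := rfl

@[simp] theorem ofReps_next (D : CosetReps emb ι) (γ : Γ) (i : ι) :
    (ofReps D).next γ i = D.next γ i := rfl

theorem ofReps_distinct (D : CosetReps emb ι) : (ofReps D).Distinct :=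
  ⟨D.emb_injective, D.distinct⟩

theorem transfer_ofReps [Fintype ι] {M : Type*} [AddCommGroup M] (D : CosetReps emb ι) :
    ((ofReps D).transfer : (Additive Γ →+ M) →+ _) = D.transfer :=
  AddMonoidHom.ext fun _ => AddMonoidHom.ext fun _ => rfl

end OfReps

section Comp

/-- The product family: `rep (i, k) = F.rep i * F'.rep k`.  Its transfer is the composite
`F'.transfer ∘ F.transfer` (the operator applied first has its elements on the left). -/
def comp (F : CosetFam emb₁ emb₂ ι) (F' : CosetFam emb₂ emb₃ κ) : CosetFam emb₁ emb₃ (ι × κ) where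
  rep x := F.rep x.1 * F'.rep x.2
  coc γ x := F.coc (F'.coc γ x.2) x.1
  next γ x := (F.next (F'.coc γ x.2) x.1, F'.next γ x.2)
  rel γ x := by
    rw [mul_assoc, F'.rel, ← mul_assoc, F.rel, mul_assoc]
  next_one x := by
    simp only [F'.coc_one, F.next_one, F'.next_one]
  next_mul γ γ' x := by
    simp only [F'.coc_mul, F.next_mul, F'.next_mul]
  coc_mul γ γ' x := by
    simp only [F'.coc_mul, F.coc_mul]

@[simp] theorem comp_rep (F : CosetFam emb₁ emb₂ ι) (F' : CosetFam emb₂ emb₃ κ) (x : ι × κ) :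
    (F.comp F').rep x = F.rep x.1 * F'.rep x.2 := rfl

@[simp] theorem comp_coc (F : CosetFam emb₁ emb₂ ι) (F' : CosetFam emb₂ emb₃ κ) (γ : Γ₃)
    (x : ι × κ) : (F.comp F').coc γ x = F.coc (F'.coc γ x.2) x.1 := rfl

theorem transfer_compFam [Fintype ι] [Fintype κ] {M : Type*} [AddCommGroup M]
    (F : CosetFam emb₁ emb₂ ι) (F' : CosetFam emb₂ emb₃ κ) (φ : Additive Γ₁ →+ M) :
    (F.comp F').transfer φ = F'.transfer (F.transfer φ) := by
  refine AddMonoidHom.ext fun γ' => ?_
  obtain ⟨γ, rfl⟩ := Additive.ofMul.surjective γ'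
  rw [transfer_apply, transfer_apply, Fintype.sum_prod_type_right]
  refine Finset.sum_congr rfl fun k _ => ?_
  rw [transfer_apply]
  rfl

end Comp

section Compare

variable [Fintype ι] [Fintype κ] {M : Type*} [AddCommGroup M]

omit [Fintype ι] [Fintype κ] in
/-- Key step of the comparison theorem: if every `F.rep i` lies in `z * emb₁ Γ₁ * D.rep (e i)`
with `D` distinct and `z` central, the cocycle of `F` is cohomologous to the pull back of the
cocycle of `D`. -/
theorem coc_eq_of_reps (F : CosetFam emb₁ emb₂ ι) (D : CosetFam emb₁ emb₂ κ) (hD : D.Distinct)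
    (z : G) (hz : ∀ γ, z * emb₁ γ = emb₁ γ * z) (e : ι → κ) (g : ι → Γ₁)
    (h : ∀ i, F.rep i = z * emb₁ (g i) * D.rep (e i)) (γ : Γ₂) (i : ι) :
    e (F.next γ i) = D.next γ (e i) ∧
      F.coc γ i = g i * D.coc γ (e i) * (g (F.next γ i))⁻¹ := by
  have h1 := F.rel γ i
  rw [h i, h (F.next γ i)] at h1
  have h2 : D.rep (e i) * emb₂ γ =
      emb₁ ((g i)⁻¹ * F.coc γ i * g (F.next γ i)) * D.rep (e (F.next γ i)) := by
    have h3 : z * (emb₁ (g i) * (D.rep (e i) * emb₂ γ)) =
        z * (emb₁ (F.coc γ i) * emb₁ (g (F.next γ i)) * D.rep (e (F.next γ i))) := by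
      calc z * (emb₁ (g i) * (D.rep (e i) * emb₂ γ))
          = z * emb₁ (g i) * D.rep (e i) * emb₂ γ := by simp only [mul_assoc]
        _ = emb₁ (F.coc γ i) * (z * emb₁ (g (F.next γ i)) * D.rep (e (F.next γ i))) := h1
        _ = (emb₁ (F.coc γ i) * z) * (emb₁ (g (F.next γ i)) * D.rep (e (F.next γ i))) := by
            simp only [mul_assoc]
        _ = (z * emb₁ (F.coc γ i)) * (emb₁ (g (F.next γ i)) * D.rep (e (F.next γ i))) := by
            rw [hz]
        _ = _ := by simp only [mul_assoc]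
    have h4 := mul_left_cancel h3
    rw [map_mul, map_mul, map_inv]
    calc D.rep (e i) * emb₂ γ = (emb₁ (g i))⁻¹ * (emb₁ (g i) * (D.rep (e i) * emb₂ γ)) := by
          rw [inv_mul_cancel_left]
      _ = _ := by rw [h4]; simp only [mul_assoc]
  obtain ⟨hn, hc⟩ := eq_of_rel hD h2
  refine ⟨hn, ?_⟩
  rw [← hc]
  group

omit [Fintype κ] in
/-- **Comparison theorem.** If every `F.rep i` lies in `z * emb₁ Γ₁ * D.rep (e i)` with `D`
distinct and `z` commuting with `emb₁ Γ₁`, then the transfer of `F` is computed by the cocycle of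
`D`, pulled back along `e`. -/
theorem transfer_apply_of_reps (F : CosetFam emb₁ emb₂ ι) (D : CosetFam emb₁ emb₂ κ)
    (hD : D.Distinct) (z : G) (hz : ∀ γ, z * emb₁ γ = emb₁ γ * z) (e : ι → κ) (g : ι → Γ₁)
    (h : ∀ i, F.rep i = z * emb₁ (g i) * D.rep (e i)) (φ : Additive Γ₁ →+ M) (γ : Γ₂) :
    F.transfer φ (Additive.ofMul γ) = ∑ i, φ (Additive.ofMul (D.coc γ (e i))) := by
  rw [transfer_apply]
  have hc : ∀ i, φ (Additive.ofMul (F.coc γ i)) =
      φ (Additive.ofMul (g i)) + φ (Additive.ofMul (D.coc γ (e i))) -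
        φ (Additive.ofMul (g (F.next γ i))) := by
    intro i
    rw [(coc_eq_of_reps F D hD z hz e g h γ i).2]
    simp only [ofMul_mul, ofMul_inv, map_add, map_neg]
    abel
  rw [Finset.sum_congr rfl fun i _ => hc i, Finset.sum_sub_distrib, Finset.sum_add_distrib]
  have h2 : ∑ i, φ (Additive.ofMul (g (F.next γ i))) = ∑ i, φ (Additive.ofMul (g i)) :=
    Equiv.sum_comp (F.nextEquiv γ) (fun i => φ (Additive.ofMul (g i)))
  rw [h2]
  abel

/-- comparison with a bijective matching of the cosets: equal transfers -/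
theorem transfer_eq_of_bijective (F : CosetFam emb₁ emb₂ ι) (D : CosetFam emb₁ emb₂ κ)
    (hD : D.Distinct) (z : G) (hz : ∀ γ, z * emb₁ γ = emb₁ γ * z) (e : ι → κ) (g : ι → Γ₁)
    (h : ∀ i, F.rep i = z * emb₁ (g i) * D.rep (e i)) (he : Function.Bijective e) :
    (F.transfer : (Additive Γ₁ →+ M) →+ _) = D.transfer := by
  refine AddMonoidHom.ext fun φ => AddMonoidHom.ext fun γ' => ?_
  obtain ⟨γ, rfl⟩ := Additive.ofMul.surjective γ'
  rw [transfer_apply_of_reps F D hD z hz e g h, transfer_apply]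
  exact he.sum_comp (fun k => φ (Additive.ofMul (D.coc γ k)))

omit [Fintype ι] [Fintype κ] in
/-- the matching `e` of the comparison theorem is injective as soon as the cosets of `F` are
pairwise distinct -/
theorem injective_of_reps (F : CosetFam emb₁ emb₂ ι) (D : CosetFam emb₁ emb₂ κ)
    (hF : ∀ (i j : ι) (γ : Γ₁), F.rep i = emb₁ γ * F.rep j → i = j)
    (z : G) (hz : ∀ γ, z * emb₁ γ = emb₁ γ * z) (e : ι → κ) (g : ι → Γ₁)
    (h : ∀ i, F.rep i = z * emb₁ (g i) * D.rep (e i)) : Function.Injective e := by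
  intro i j hij
  refine hF i j (g i * (g j)⁻¹) ?_
  rw [h i, h j, hij, map_mul, map_inv]
  calc z * emb₁ (g i) * D.rep (e j)
      = emb₁ (g i) * (emb₁ (g j))⁻¹ * (emb₁ (g j) * z) * D.rep (e j) := by
        rw [hz]; simp only [mul_assoc, inv_mul_cancel_left]
    _ = _ := by rw [← hz]; simp only [mul_assoc]

/-- comparison of two families with pairwise distinct cosets and the same number of elements -/
theorem transfer_eq_of_card (F : CosetFam emb₁ emb₂ ι) (D : CosetFam emb₁ emb₂ κ)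
    (hD : D.Distinct) (hF : ∀ (i j : ι) (γ : Γ₁), F.rep i = emb₁ γ * F.rep j → i = j)
    (hcard : Fintype.card ι = Fintype.card κ)
    (z : G) (hz : ∀ γ, z * emb₁ γ = emb₁ γ * z) (e : ι → κ) (g : ι → Γ₁)
    (h : ∀ i, F.rep i = z * emb₁ (g i) * D.rep (e i)) :
    (F.transfer : (Additive Γ₁ →+ M) →+ _) = D.transfer :=
  transfer_eq_of_bijective F D hD z hz e g h
    ((Fintype.bijective_iff_injective_and_card e).2
      ⟨injective_of_reps F D hF z hz e g h, hcard⟩)

/-- comparison with a one-element family: all the elements of `F` lie in the single coset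
`z * emb₁ Γ₁ * w`; the transfer is `card ι` times the precomposition with `c`. -/
theorem transfer_eq_card_smul (F : CosetFam emb₁ emb₂ ι) (hinj : Function.Injective emb₁)
    (c : Γ₂ →* Γ₁) (w : G) (hw : ∀ γ, w * emb₂ γ = emb₁ (c γ) * w)
    (z : G) (hz : ∀ γ, z * emb₁ γ = emb₁ γ * z) (g : ι → Γ₁)
    (h : ∀ i, F.rep i = z * emb₁ (g i) * w) (φ : Additive Γ₁ →+ M) :
    F.transfer φ = Fintype.card ι • φ.comp (MonoidHom.toAdditive c) := by
  refine AddMonoidHom.ext fun γ' => ?_
  obtain ⟨γ, rfl⟩ := Additive.ofMul.surjective γ'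
  rw [transfer_apply_of_reps F (ofHom c w hw) (ofHom_distinct c w hw hinj) z hz (fun _ => ())
    g h]
  simp only [ofHom_coc, Finset.sum_const, Finset.card_univ, AddMonoidHom.smul_apply]
  rfl

end Compare

section Pred

variable [Fintype ι] {M : Type*} [AddCommGroup M]

/-- For torsion free `M`: if `φ` kills a class `P₁` of elements of `Γ₁`, then `transfer φ` kills
every class `P₂` of elements of `Γ₂` which is stable under powers and whose conjugates (in the
ambient group) lying in `Γ₁` belong to `P₁`. -/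
theorem transfer_apply_eq_zero_of_pred (F : CosetFam emb₁ emb₂ ι)
    (htf : ∀ (n : ℕ) (x : M), n ≠ 0 → n • x = 0 → x = 0)
    (P₁ : Γ₁ → Prop) (P₂ : Γ₂ → Prop) (hpow : ∀ γ, P₂ γ → ∀ r : ℕ, P₂ (γ ^ r))
    (hconj : ∀ (γ : Γ₂) (c : Γ₁) (g : G), P₂ γ → emb₁ c = g * emb₂ γ * g⁻¹ → P₁ c)
    (φ : Additive Γ₁ →+ M) (hφ : ∀ γ, P₁ γ → φ (Additive.ofMul γ) = 0) (γ : Γ₂) (hγ : P₂ γ) :
    F.transfer φ (Additive.ofMul γ) = 0 := by
  classical
  set r := orderOf (F.nextEquiv γ) with hr
  have hr0 : r ≠ 0 := (orderOf_pos (F.nextEquiv γ)).ne'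
  have hnext : ∀ i, F.next (γ ^ r) i = i := by
    intro i
    have h1 : F.nextEquiv (γ ^ r) = 1 := by rw [F.nextEquiv_pow, hr, pow_orderOf_eq_one]
    have := congrArg (fun e : Equiv.Perm ι => e i) h1
    simpa using this
  have hP : ∀ i, P₁ (F.coc (γ ^ r) i) := by
    intro i
    refine hconj (γ ^ r) _ (F.rep i) (hpow γ hγ r) ?_
    have h := F.rel (γ ^ r) i
    rw [hnext i] at h
    rw [h]
    group
  have h0 : F.transfer φ (Additive.ofMul (γ ^ r)) = 0 := by
    rw [transfer_apply]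
    exact Finset.sum_eq_zero fun i _ => hφ _ (hP i)
  rw [ofMul_pow, map_nsmul] at h0
  exact htf r _ hr0 h0

end Pred

end CosetFam

/-- A finite system of representatives `rep i` of pairwise distinct cosets `emb₁ Γ₁ * rep i` whose
union is stable under right multiplication by `emb₂ Γ₂` (two-group version of helper15's
`CosetReps`). -/
structure CosetSys {Γ₁ Γ₂ G : Type*} [Group Γ₁] [Group Γ₂] [Group G]
    (emb₁ : Γ₁ →* G) (emb₂ : Γ₂ →* G) (ι : Type*) where
  /-- the representatives -/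
  rep : ι → G
  emb_injective : Function.Injective emb₁
  stable : ∀ (γ : Γ₂) (i : ι), ∃ (γ' : Γ₁) (j : ι), rep i * emb₂ γ = emb₁ γ' * rep j
  distinct : ∀ (i j : ι) (γ : Γ₁), rep i = emb₁ γ * rep j → i = j

namespace CosetSys

variable {Γ₁ Γ₂ G : Type*} [Group Γ₁] [Group Γ₂] [Group G]
  {emb₁ : Γ₁ →* G} {emb₂ : Γ₂ →* G} {ι : Type*} (D : CosetSys emb₁ emb₂ ι)

/-- the `Γ₁`-component of `rep i * γ` -/
noncomputable def coc (γ : Γ₂) (i : ι) : Γ₁ := (D.stable γ i).choose

/-- the index of the coset of `rep i * γ` -/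
noncomputable def next (γ : Γ₂) (i : ι) : ι := (D.stable γ i).choose_spec.choose

theorem rel (γ : Γ₂) (i : ι) : D.rep i * emb₂ γ = emb₁ (D.coc γ i) * D.rep (D.next γ i) :=
  (D.stable γ i).choose_spec.choose_spec

theorem eq_of_rel {γ : Γ₂} {γ' : Γ₁} {i j : ι} (h : D.rep i * emb₂ γ = emb₁ γ' * D.rep j) :
    j = D.next γ i ∧ γ' = D.coc γ i := by
  have h1 := D.rel γ i
  rw [h] at h1
  have h2 : D.rep j = emb₁ (γ'⁻¹ * D.coc γ i) * D.rep (D.next γ i) := by
    rw [map_mul, map_inv, mul_assoc, ← h1, inv_mul_cancel_left]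
  have hj : j = D.next γ i := D.distinct _ _ _ h2
  refine ⟨hj, ?_⟩
  rw [← hj] at h1
  exact D.emb_injective (mul_right_cancel h1)

theorem next_eq_of_rel {γ : Γ₂} {γ' : Γ₁} {i j : ι}
    (h : D.rep i * emb₂ γ = emb₁ γ' * D.rep j) : D.next γ i = j := (D.eq_of_rel h).1.symm

theorem coc_eq_of_rel {γ : Γ₂} {γ' : Γ₁} {i j : ι}
    (h : D.rep i * emb₂ γ = emb₁ γ' * D.rep j) : D.coc γ i = γ' := (D.eq_of_rel h).2.symm

theorem rel_mul (γ γ' : Γ₂) (i : ι) :
    D.rep i * emb₂ (γ * γ') =
      emb₁ (D.coc γ i * D.coc γ' (D.next γ i)) * D.rep (D.next γ' (D.next γ i)) := by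
  rw [map_mul, ← mul_assoc, D.rel γ i, mul_assoc, D.rel γ' (D.next γ i), ← mul_assoc, map_mul]

/-- the family (with cocycle obtained by choice) of a stable and distinct system -/
noncomputable def toFam : CosetFam emb₁ emb₂ ι where
  rep := D.rep
  coc := D.coc
  next := D.next
  rel := D.rel
  next_one i := D.next_eq_of_rel (γ' := 1) (by simp)
  next_mul γ γ' i := D.next_eq_of_rel (D.rel_mul γ γ' i)
  coc_mul γ γ' i := D.coc_eq_of_rel (D.rel_mul γ γ' i)

@[simp] theorem toFam_rep (i : ι) : D.toFam.rep i = D.rep i := rfl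

theorem toFam_distinct : D.toFam.Distinct := ⟨D.emb_injective, D.distinct⟩

end CosetSys

end Fermat.Agent.LR
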