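/-
Program M, node B (helper4): the degeneracy maps between `Hom(Γ₀(N), M)` and `Hom(Γ₀(N q), M)`,
first pair: restriction `A1` and corestriction `B1`.

* `inclHom N q : Γ₀(N q) →* Γ₀(N)`, `resFam`, `A1 N q M` (restriction, `A1_apply`);
* `exists_conj_diag`, `mem_gamma0_mul_of_conj` : `Γ₀(N q) = Γ₀(N) ∩ δ⁻¹ Γ₀(N) δ`, `δ = diag(q, 1)`;
* `gx`, `sx` : the decomposition `heckeRep q x = g_x δ s_x` (`x : P¹(𝔽_q)`) of the representatives of
  `T_q` at level `N` (`q ∤ N`), from `RepsDecomp.TReps_decomp`;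
* `corSys : CosetSys (embG (N q)) (embG N) (OnePoint (ZMod q))` : the `s_x` represent `Γ₀(N q) \ Γ₀(N)`;
  `corFam`, `B1 N q hq hqN M` (corestriction);
* `sx_infty_mem`, `sx_coe_not_mem`, `exists_eq_mul_sx` (covering), `exists_eq_mul_sx_coe`;
* parabolicity: `A1_mem_parabolicHoms`, `B1_mem_parabolicHoms`; naturality `A1_comp`, `B1_comp`.
-/
import Mathlib
import Fermat.Agent.Jac.HeckeReps
import Fermat.Agent.Jac.HeckeRepsDecomp
import Fermat.Agent.LR.CosetFam

set_option autoImplicit false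
set_option linter.unusedSectionVars false
set_option linter.unusedSimpArgs false
set_option linter.style.haveILetI false
set_option linter.unusedVariables false

namespace Fermat.Agent.LR.Deg

open Matrix.SpecialLinearGroup CongruenceSubgroup ModularForm Fermat.Agent.Jac
open scoped MatrixGroups
open P2MW.S_ModularForm_heckeT_slash_eq_self_of_mem_Gamma0.ModularForm.HeckeSlashInvariance
open ModularCurve.Period

section Incl

variable (N q : ℕ)

theorem gamma0_mul_le : Gamma0 (N * q) ≤ Gamma0 N := by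
  intro A hA
  rw [Gamma0_mem, ZMod.intCast_zmod_eq_zero_iff_dvd] at hA ⊢
  exact (Int.natCast_dvd_natCast.mpr (Dvd.intro q rfl)).trans hA

/-- the inclusion `Γ₀(N q) → Γ₀(N)` -/
def inclHom : Gamma0 (N * q) →* Gamma0 N := Subgroup.inclusion (gamma0_mul_le N q)

@[simp] theorem coe_inclHom (γ : Gamma0 (N * q)) :
    ((inclHom N q γ : Gamma0 N) : SL(2, ℤ)) = (γ : SL(2, ℤ)) := rfl

theorem embG_inclHom (γ : Gamma0 (N * q)) : embG N (inclHom N q γ) = embG (N * q) γ := rfl

theorem inclHom_injective : Function.Injective (inclHom N q) :=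
  Subgroup.inclusion_injective _

/-- the one-element family of the restriction -/
noncomputable def resFam : CosetFam (embG N) (embG (N * q)) Unit :=
  CosetFam.ofHom (inclHom N q) 1 (fun γ => by rw [one_mul, mul_one, embG_inclHom])

/-- **Restriction** `A1 : Hom(Γ₀(N), M) → Hom(Γ₀(N q), M)`. -/
noncomputable def A1 (M : Type*) [AddCommGroup M] :
    (Additive (Gamma0 N) →+ M) →+ (Additive (Gamma0 (N * q)) →+ M) :=
  (resFam N q).transfer

theorem A1_apply {M : Type*} [AddCommGroup M] (φ : Additive (Gamma0 N) →+ M)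
    (γ : Gamma0 (N * q)) :
    A1 N q M φ (Additive.ofMul γ) = φ (Additive.ofMul (inclHom N q γ)) :=
  CosetFam.transfer_ofHom _ _ _ φ γ

theorem A1_eq_comp {M : Type*} [AddCommGroup M] (φ : Additive (Gamma0 N) →+ M) :
    A1 N q M φ = φ.comp (MonoidHom.toAdditive (inclHom N q)) :=
  CosetFam.transfer_ofHom_eq _ _ _ φ

theorem A1_comp {M M' : Type*} [AddCommGroup M] [AddCommGroup M'] (f : M →+ M')
    (φ : Additive (Gamma0 N) →+ M) : A1 N q M' (f.comp φ) = f.comp (A1 N q M φ) :=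
  CosetFam.transfer_comp _ f φ

/-- an element of `Γ₀(N q)` from an element of `Γ₀(N)` whose matrix lies in `Γ₀(N q)` -/
def liftGamma0 (s : Gamma0 N) (hs : (s : SL(2, ℤ)) ∈ Gamma0 (N * q)) : Gamma0 (N * q) :=
  ⟨(s : SL(2, ℤ)), hs⟩

@[simp] theorem inclHom_liftGamma0 (s : Gamma0 N) (hs : (s : SL(2, ℤ)) ∈ Gamma0 (N * q)) :
    inclHom N q (liftGamma0 N q s hs) = s := rfl

theorem embG_liftGamma0 (s : Gamma0 N) (hs : (s : SL(2, ℤ)) ∈ Gamma0 (N * q)) :
    embG (N * q) (liftGamma0 N q s hs) = embG N s := rfl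

/-- `δ Γ₀(N q) δ⁻¹ ⊆ Γ₀(N)` for `δ = diag(q, 1)`. -/
theorem exists_conj_diag (hq : q ≠ 0) (γ' : Gamma0 (N * q)) :
    ∃ g : Gamma0 N, heckeDiagMatrix q * embG (N * q) γ' = embG N g * heckeDiagMatrix q := by
  obtain ⟨c, hc⟩ := gamma0_dvd (N * q) γ'
  have hdet := det_eq (γ' : SL(2, ℤ))
  have hdet' : (γ' : SL(2, ℤ)) 0 0 * (γ' : SL(2, ℤ)) 1 1 -
      (q * (γ' : SL(2, ℤ)) 0 1) * (N * c) = 1 := by
    rw [hc] at hdet
    push_cast at hdet
    linear_combination hdet
  refine ⟨RepsDecomp.mkGamma0 N ((γ' : SL(2, ℤ)) 0 0) (q * (γ' : SL(2, ℤ)) 0 1) (N * c)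
    ((γ' : SL(2, ℤ)) 1 1) hdet' (dvd_mul_right _ _), ?_⟩
  rw [embG_apply]
  refine gl_ext_of_val (val_mul_fin_two (val_heckeDiagMatrix hq) (val_mapGL _))
    (val_mul_fin_two (RepsDecomp.val_embG_mkGamma0 N _ _ _ _ _ _) (val_heckeDiagMatrix hq))
    ?_ ?_ ?_ ?_
  · push_cast; ring
  · push_cast; ring
  · rw [hc]; push_cast; ring
  · push_cast; ring

/-- `Γ₀(N) ∩ δ⁻¹ Γ₀(N) δ ⊆ Γ₀(N q)` for `δ = diag(q, 1)`. -/
theorem mem_gamma0_mul_of_conj (hq : q ≠ 0) {s g : Gamma0 N}
    (h : heckeDiagMatrix q * embG N s = embG N g * heckeDiagMatrix q) :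
    (s : SL(2, ℤ)) ∈ Gamma0 (N * q) := by
  have hL := val_mul_fin_two (val_heckeDiagMatrix hq) (val_mapGL (s : SL(2, ℤ)))
  have hR := val_mul_fin_two (val_mapGL (g : SL(2, ℤ))) (val_heckeDiagMatrix hq)
  rw [embG_apply, embG_apply] at h
  rw [h, hR] at hL
  have h10 := congrFun (congrFun hL 1) 0
  simp only [Matrix.of_apply, Matrix.cons_val', Matrix.cons_val_zero, Matrix.cons_val_one,
    Matrix.cons_val_fin_one, mul_zero, add_zero, zero_mul, zero_add, one_mul] at h10
  have h10' : (g : SL(2, ℤ)) 1 0 * q = (s : SL(2, ℤ)) 1 0 := by exact_mod_cast h10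
  obtain ⟨c, hc⟩ := gamma0_dvd N g
  rw [Gamma0_mem, ZMod.intCast_zmod_eq_zero_iff_dvd]
  refine ⟨c, ?_⟩
  rw [← h10', hc]
  push_cast
  ring

end Incl

section Cor

variable (N q : ℕ) [NeZero N] (hq : q.Prime) (hqN : ¬ q ∣ N)

/-- the left factor of the decomposition `heckeRep q x = g_x δ s_x` -/
noncomputable def gx (x : OnePoint (ZMod q)) : Gamma0 N :=
  (RepsDecomp.TReps_decomp N hq hqN x).choose

/-- the right factor of the decomposition `heckeRep q x = g_x δ s_x`: a representative of the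
coset of `Γ₀(N q) \ Γ₀(N)` attached to `x : P¹(𝔽_q)` -/
noncomputable def sx (x : OnePoint (ZMod q)) : Gamma0 N :=
  (RepsDecomp.TReps_decomp N hq hqN x).choose_spec.choose

theorem heckeRep_eq (x : OnePoint (ZMod q)) :
    heckeRep q x = embG N (gx N q hq hqN x) * heckeDiagMatrix q * embG N (sx N q hq hqN x) := by
  exact (RepsDecomp.TReps_decomp N hq hqN x).choose_spec.choose_spec

/-- `δ s_x = g_x⁻¹ heckeRep x` -/
theorem diag_mul_sx (x : OnePoint (ZMod q)) :
    heckeDiagMatrix q * embG N (sx N q hq hqN x) =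
      (embG N (gx N q hq hqN x))⁻¹ * heckeRep q x := by
  rw [heckeRep_eq N q hq hqN x, mul_assoc, inv_mul_cancel_left]

/-- **The coset system of `Γ₀(N q) \ Γ₀(N)`**, indexed by `P¹(𝔽_q)`. -/
noncomputable def corSys : CosetSys (embG (N * q)) (embG N) (OnePoint (ZMod q)) where
  rep x := embG N (sx N q hq hqN x)
  emb_injective := embG_injective (N * q)
  stable γ x := by
    set D := TReps N hq hqN with hD
    set x' := D.next γ x with hx'
    have hrel := D.rel γ x
    rw [TReps_rep, TReps_rep, heckeRep_eq N q hq hqN x, heckeRep_eq N q hq hqN x'] at hrel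
    set s : Gamma0 N := sx N q hq hqN x * γ * (sx N q hq hqN x')⁻¹ with hs
    set g : Gamma0 N := (gx N q hq hqN x)⁻¹ * D.coc γ x * gx N q hq hqN x' with hg
    have hconj : heckeDiagMatrix q * embG N s = embG N g * heckeDiagMatrix q := by
      rw [hs, hg]
      simp only [map_mul, map_inv]
      have h1 : heckeDiagMatrix q * (embG N (sx N q hq hqN x) * embG N γ) =
          (embG N (gx N q hq hqN x))⁻¹ * (embG N (D.coc γ x) * (embG N (gx N q hq hqN x') *
            heckeDiagMatrix q * embG N (sx N q hq hqN x'))) := by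
        rw [← hrel]
        simp only [mul_assoc, inv_mul_cancel_left]
      calc heckeDiagMatrix q * (embG N (sx N q hq hqN x) * embG N γ *
            (embG N (sx N q hq hqN x'))⁻¹)
          = heckeDiagMatrix q * (embG N (sx N q hq hqN x) * embG N γ) *
            (embG N (sx N q hq hqN x'))⁻¹ := by simp only [mul_assoc]
        _ = _ := by rw [h1]; simp only [mul_assoc, mul_inv_cancel, mul_one]
    have hmem := mem_gamma0_mul_of_conj N q hq.ne_zero hconj
    refine ⟨liftGamma0 N q s hmem, x', ?_⟩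
    rw [embG_liftGamma0, hs]
    simp only [map_mul, map_inv, mul_assoc, inv_mul_cancel, mul_one]
  distinct x y γ' h := by
    obtain ⟨g, hg⟩ := exists_conj_diag N q hq.ne_zero γ'
    refine (TReps N hq hqN).distinct x y
      (gx N q hq hqN x * g * (gx N q hq hqN y)⁻¹) ?_
    rw [TReps_rep, TReps_rep, heckeRep_eq N q hq hqN x, heckeRep_eq N q hq hqN y, h]
    simp only [map_mul, map_inv]
    calc embG N (gx N q hq hqN x) * heckeDiagMatrix q *
          (embG (N * q) γ' * embG N (sx N q hq hqN y))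
        = embG N (gx N q hq hqN x) * (heckeDiagMatrix q * embG (N * q) γ') *
          embG N (sx N q hq hqN y) := by simp only [mul_assoc]
      _ = _ := by rw [hg]; simp only [mul_assoc, inv_mul_cancel_left]

@[simp] theorem corSys_rep (x : OnePoint (ZMod q)) :
    (corSys N q hq hqN).rep x = embG N (sx N q hq hqN x) := rfl

/-- the corestriction family -/
noncomputable def corFam : CosetFam (embG (N * q)) (embG N) (OnePoint (ZMod q)) :=
  (corSys N q hq hqN).toFam

@[simp] theorem corFam_rep (x : OnePoint (ZMod q)) :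
    (corFam N q hq hqN).rep x = embG N (sx N q hq hqN x) := rfl

theorem corFam_distinct : (corFam N q hq hqN).Distinct := (corSys N q hq hqN).toFam_distinct

/-- **Corestriction** `B1 : Hom(Γ₀(N q), M) → Hom(Γ₀(N), M)`. -/
noncomputable def B1 (M : Type*) [AddCommGroup M] :
    (Additive (Gamma0 (N * q)) →+ M) →+ (Additive (Gamma0 N) →+ M) :=
  haveI : NeZero q := ⟨hq.ne_zero⟩
  (corFam N q hq hqN).transfer

theorem B1_eq {M : Type*} [AddCommGroup M] :
    B1 N q hq hqN M = (haveI : NeZero q := ⟨hq.ne_zero⟩; (corFam N q hq hqN).transfer) := rfl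

theorem B1_comp {M M' : Type*} [AddCommGroup M] [AddCommGroup M'] (f : M →+ M')
    (ψ : Additive (Gamma0 (N * q)) →+ M) :
    B1 N q hq hqN M' (f.comp ψ) = f.comp (B1 N q hq hqN M ψ) := by
  haveI : NeZero q := ⟨hq.ne_zero⟩
  exact CosetFam.transfer_comp _ f ψ

/-- the representative of the point at infinity lies in `Γ₀(N q)` (identity coset) -/
theorem sx_infty_mem : ((sx N q hq hqN OnePoint.infty : Gamma0 N) : SL(2, ℤ)) ∈ Gamma0 (N * q) := by
  have h := heckeRep_eq N q hq hqN OnePoint.infty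
  rw [heckeRep_infty] at h
  refine mem_gamma0_mul_of_conj N q hq.ne_zero (g := (gx N q hq hqN OnePoint.infty)⁻¹) ?_
  rw [map_inv, eq_inv_mul_iff_mul_eq, ← mul_assoc]
  exact h.symm

/-- the representatives of the finite points do not lie in `Γ₀(N q)` -/
theorem sx_coe_not_mem (j : ZMod q) :
    ((sx N q hq hqN (j : OnePoint (ZMod q)) : Gamma0 N) : SL(2, ℤ)) ∉ Gamma0 (N * q) := by
  intro hmem
  obtain ⟨g, hg⟩ := exists_conj_diag N q hq.ne_zero
    (liftGamma0 N q (sx N q hq hqN (j : OnePoint (ZMod q))) hmem)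
  rw [embG_liftGamma0] at hg
  have h := heckeRep_eq N q hq hqN (j : OnePoint (ZMod q))
  have h2 : (TReps N hq hqN).rep (j : OnePoint (ZMod q)) =
      embG N (gx N q hq hqN (j : OnePoint (ZMod q)) * g) * (TReps N hq hqN).rep OnePoint.infty := by
    rw [TReps_rep, TReps_rep, heckeRep_infty, h, mul_assoc, hg, map_mul, mul_assoc]
  exact OnePoint.coe_ne_infty j ((TReps N hq hqN).distinct _ _ _ h2)

/-- **Covering**: every element of `Γ₀(N)` lies in a coset `Γ₀(N q) s_x`. -/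
theorem exists_eq_mul_sx (γ : Gamma0 N) :
    ∃ (x : OnePoint (ZMod q)) (γ' : Gamma0 (N * q)),
      γ = inclHom N q γ' * sx N q hq hqN x := by
  have h := (corFam N q hq hqN).rel γ OnePoint.infty
  set x := (corFam N q hq hqN).next γ OnePoint.infty with hx
  set c := (corFam N q hq hqN).coc γ OnePoint.infty with hc
  rw [corFam_rep, corFam_rep] at h
  refine ⟨x, (liftGamma0 N q _ (sx_infty_mem N q hq hqN))⁻¹ * c, ?_⟩
  apply embG_injective N
  rw [map_mul, embG_inclHom, map_mul, map_inv, embG_liftGamma0, mul_assoc, ← h,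
    inv_mul_cancel_left]

/-- an element of `Γ₀(N)` lies in a coset `Γ₀(N q) s_x` with `x = ∞` only if it lies in
`Γ₀(N q)` -/
theorem mem_of_eq_mul_sx_infty {γ : Gamma0 N} {γ' : Gamma0 (N * q)}
    (h : γ = inclHom N q γ' * sx N q hq hqN OnePoint.infty) :
    (γ : SL(2, ℤ)) ∈ Gamma0 (N * q) := by
  rw [h, Subgroup.coe_mul, coe_inclHom]
  exact (Gamma0 (N * q)).mul_mem γ'.2 (sx_infty_mem N q hq hqN)

/-- **Covering of the big cell**: every element of `Γ₀(N) ∖ Γ₀(N q)` lies in a coset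
`Γ₀(N q) s_j`, `j : ZMod q`. -/
theorem exists_eq_mul_sx_coe (γ : Gamma0 N) (hγ : (γ : SL(2, ℤ)) ∉ Gamma0 (N * q)) :
    ∃ (j : ZMod q) (γ' : Gamma0 (N * q)),
      γ = inclHom N q γ' * sx N q hq hqN (j : OnePoint (ZMod q)) := by
  obtain ⟨x, γ', h⟩ := exists_eq_mul_sx N q hq hqN γ
  induction x using OnePoint.rec with
  | infty => exact absurd (mem_of_eq_mul_sx_infty N q hq hqN h) hγ
  | coe j => exact ⟨j, γ', h⟩

end Cor

section Parabolic

variable (N q : ℕ) [NeZero N]

theorem A1_mem_parabolicHoms (R : Type*) [Semiring R] {M : Type*} [AddCommGroup M] [Module R M]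
    {φ : Additive (Gamma0 N) →+ M} (hφ : φ ∈ parabolicHoms R (Gamma0 N) M) :
    A1 N q M φ ∈ parabolicHoms R (Gamma0 (N * q)) M := by
  rw [mem_parabolicHoms_iff] at hφ ⊢
  intro γ hγ
  rw [A1_apply]
  exact hφ (inclHom N q γ) hγ

/-- the transfer of a family between two levels preserves parabolic homomorphisms
(torsion free coefficients) -/
theorem transfer_mem_parabolicHoms' {N₁ N₂ : ℕ} {ι : Type*} [Fintype ι]
    (F : CosetFam (embG N₁) (embG N₂) ι) (R : Type*) [Semiring R]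
    {M : Type*} [AddCommGroup M] [Module R M]
    (htf : ∀ (n : ℕ) (x : M), n ≠ 0 → n • x = 0 → x = 0)
    {φ : Additive (Gamma0 N₁) →+ M} (hφ : φ ∈ parabolicHoms R (Gamma0 N₁) M) :
    F.transfer φ ∈ parabolicHoms R (Gamma0 N₂) M := by
  rw [mem_parabolicHoms_iff] at hφ ⊢
  intro γ hγ
  refine F.transfer_apply_eq_zero_of_pred htf
    (fun γ : Gamma0 N₁ => ((γ : SL(2, ℤ)) : Matrix (Fin 2) (Fin 2) ℤ).trace ^ 2 = 4)
    (fun γ : Gamma0 N₂ => ((γ : SL(2, ℤ)) : Matrix (Fin 2) (Fin 2) ℤ).trace ^ 2 = 4)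
    ?_ ?_ φ (fun γ h => hφ γ h) γ hγ
  · intro γ h r
    have : (((γ ^ r : Gamma0 N₂) : SL(2, ℤ)) : Matrix (Fin 2) (Fin 2) ℤ) =
        ((γ : SL(2, ℤ)) : Matrix (Fin 2) (Fin 2) ℤ) ^ r := by
      rw [Subgroup.coe_pow, Matrix.SpecialLinearGroup.coe_pow]
    rw [this]
    exact trace_pow_sq_eq_four _ (γ : SL(2, ℤ)).det_coe h r
  · intro γ c g h hc
    have h1 : ((embG N₁ c : GL (Fin 2) ℝ) : Matrix (Fin 2) (Fin 2) ℝ).trace =
        ((embG N₂ γ : GL (Fin 2) ℝ) : Matrix (Fin 2) (Fin 2) ℝ).trace := by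
      rw [hc, Units.val_mul, Units.val_mul, Matrix.trace_units_conj]
    rw [embG_apply, embG_apply, val_mapGL, val_mapGL, Matrix.trace_fin_two_of,
      Matrix.trace_fin_two_of] at h1
    have h2 : ((c : SL(2, ℤ)) : Matrix (Fin 2) (Fin 2) ℤ).trace =
        ((γ : SL(2, ℤ)) : Matrix (Fin 2) (Fin 2) ℤ).trace := by
      rw [Matrix.trace_fin_two, Matrix.trace_fin_two]
      exact_mod_cast h1
    show ((c : SL(2, ℤ)) : Matrix (Fin 2) (Fin 2) ℤ).trace ^ 2 = 4
    rw [h2]
    exact h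

theorem B1_mem_parabolicHoms (hq : q.Prime) (hqN : ¬ q ∣ N) (R : Type*) [Semiring R]
    {M : Type*} [AddCommGroup M] [Module R M]
    (htf : ∀ (n : ℕ) (x : M), n ≠ 0 → n • x = 0 → x = 0)
    {ψ : Additive (Gamma0 (N * q)) →+ M} (hψ : ψ ∈ parabolicHoms R (Gamma0 (N * q)) M) :
    B1 N q hq hqN M ψ ∈ parabolicHoms R (Gamma0 N) M := by
  haveI : NeZero q := ⟨hq.ne_zero⟩
  exact transfer_mem_parabolicHoms' _ R htf hψ

end Parabolic

end Fermat.Agent.LR.Deg
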