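/-
Program M, node B (helper4): the second pair of degeneracy maps and the identity `j ∘ i = Δ`.

* `B1_A1 : B1 (A1 φ) = (q + 1) • φ` (`cor ∘ res = index`);
* `ALData N q` : an Atkin–Lehner datum at `q` for the level `N q`: `γ₀ ∈ Γ₀(N)` and an endomorphism
  `wq` of `Γ₀(N q)` induced by the conjugation by `W = γ₀ · diag(q, 1)`, whose square is inner;
* `wOp` (the involution `ψ ↦ ψ ∘ wq` of `Hom(Γ₀(N q), M)`), `wOp_wOp`;
* `A2 := wOp ∘ A1`, `B2 := B1 ∘ wOp`;
* `B1_A2 = B2_A1 = T_q` (`heckeTransfer N q`), `B2_A2 = q + 1`;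
* parabolicity and naturality in the coefficients.
-/
import Mathlib
import Fermat.Agent.LR.DegMaps

set_option autoImplicit false
set_option linter.unusedSectionVars false
set_option linter.unusedSimpArgs false
set_option linter.style.haveILetI false
set_option linter.unusedVariables false

namespace Fermat.Agent.LR.Deg

open Matrix.SpecialLinearGroup CongruenceSubgroup ModularForm Fermat.Agent.Jac
open scoped MatrixGroups
open P2MW.S_ModularForm_heckeT_slash_eq_self_of_mem_Gamma0.ModularForm.HeckeSlashInvariance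
open ModularCurve.Period

section First

variable (N q : ℕ) [NeZero N] (hq : q.Prime) (hqN : ¬ q ∣ N)

/-- **`cor ∘ res = q + 1`.** -/
theorem B1_A1 {M : Type*} [AddCommGroup M] (φ : Additive (Gamma0 N) →+ M) :
    B1 N q hq hqN M (A1 N q M φ) = (q + 1) • φ := by
  haveI : NeZero q := ⟨hq.ne_zero⟩
  rw [B1_eq, A1, ← CosetFam.transfer_compFam]
  rw [CosetFam.transfer_eq_card_smul ((resFam N q).comp (corFam N q hq hqN)) (embG_injective N)
    (MonoidHom.id _) 1 (fun γ => by simp) 1 (fun γ => by simp)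
    (fun x => sx N q hq hqN x.2) (fun x => by simp [resFam]) φ]
  rw [Fintype.card_prod, Fintype.card_unit, one_mul, RepsDecomp.card_onePoint_zmod]
  rfl

end First

/-- An Atkin–Lehner datum at `q` for the level `N q`: an element `γ₀ ∈ Γ₀(N)` and an endomorphism
`wq` of `Γ₀(N q)` induced by the conjugation by `W = γ₀ · diag(q, 1)`, whose square is an inner
automorphism. -/
structure ALData (N q : ℕ) where
  /-- the element of `Γ₀(N)` with `W = γ₀ · diag(q, 1)` -/
  γ₀ : Gamma0 N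
  /-- the conjugation by `W` on `Γ₀(N q)` -/
  wq : Gamma0 (N * q) →* Gamma0 (N * q)
  hwq : ∀ γ' : Gamma0 (N * q), embG N γ₀ * heckeDiagMatrix q * embG (N * q) γ' =
    embG (N * q) (wq γ') * (embG N γ₀ * heckeDiagMatrix q)
  hinv : ∀ γ' : Gamma0 (N * q), ∃ u : Gamma0 (N * q), wq (wq γ') = u * γ' * u⁻¹

namespace ALData

variable {N q : ℕ} (A : ALData N q)

/-- the Atkin–Lehner matrix `W = γ₀ · diag(q, 1)` -/
noncomputable def W : GL (Fin 2) ℝ := embG N A.γ₀ * heckeDiagMatrix q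

theorem W_mul (γ' : Gamma0 (N * q)) :
    A.W * embG (N * q) γ' = embG (N * q) (A.wq γ') * A.W := A.hwq γ'

/-- the one-element family of the Atkin–Lehner involution -/
noncomputable def wFam : CosetFam (embG (N * q)) (embG (N * q)) Unit :=
  CosetFam.ofHom A.wq A.W A.W_mul

/-- the Atkin–Lehner involution `ψ ↦ ψ ∘ wq` on `Hom(Γ₀(N q), M)` -/
noncomputable def wOp (M : Type*) [AddCommGroup M] :
    (Additive (Gamma0 (N * q)) →+ M) →+ (Additive (Gamma0 (N * q)) →+ M) :=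
  A.wFam.transfer

theorem wOp_apply {M : Type*} [AddCommGroup M] (ψ : Additive (Gamma0 (N * q)) →+ M)
    (γ' : Gamma0 (N * q)) : A.wOp M ψ (Additive.ofMul γ') = ψ (Additive.ofMul (A.wq γ')) :=
  CosetFam.transfer_ofHom _ _ _ ψ γ'

theorem wOp_comp {M M' : Type*} [AddCommGroup M] [AddCommGroup M'] (f : M →+ M')
    (ψ : Additive (Gamma0 (N * q)) →+ M) : A.wOp M' (f.comp ψ) = f.comp (A.wOp M ψ) :=
  CosetFam.transfer_comp _ f ψ

/-- `w ∘ w = id` -/
theorem wOp_wOp {M : Type*} [AddCommGroup M] (ψ : Additive (Gamma0 (N * q)) →+ M) :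
    A.wOp M (A.wOp M ψ) = ψ := by
  refine AddMonoidHom.ext fun γ => ?_
  obtain ⟨γ', rfl⟩ := Additive.ofMul.surjective γ
  rw [wOp_apply, wOp_apply]
  obtain ⟨u, hu⟩ := A.hinv γ'
  rw [hu]
  simp only [ofMul_mul, ofMul_inv, map_add, map_neg]
  abel

theorem wOp_mem_parabolicHoms (R : Type*) [Semiring R] {M : Type*} [AddCommGroup M]
    [Module R M] {ψ : Additive (Gamma0 (N * q)) →+ M}
    (hψ : ψ ∈ parabolicHoms R (Gamma0 (N * q)) M) :
    A.wOp M ψ ∈ parabolicHoms R (Gamma0 (N * q)) M := by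
  rw [mem_parabolicHoms_iff] at hψ ⊢
  intro γ hγ
  rw [wOp_apply]
  refine hψ (A.wq γ) ?_
  have hc : embG (N * q) (A.wq γ) = A.W * embG (N * q) γ * (A.W)⁻¹ := by
    rw [A.W_mul, mul_inv_cancel_right]
  have h1 : ((embG (N * q) (A.wq γ) : GL (Fin 2) ℝ) : Matrix (Fin 2) (Fin 2) ℝ).trace =
      ((embG (N * q) γ : GL (Fin 2) ℝ) : Matrix (Fin 2) (Fin 2) ℝ).trace := by
    rw [hc, Units.val_mul, Units.val_mul, Matrix.trace_units_conj]
  rw [embG_apply, embG_apply, val_mapGL, val_mapGL, Matrix.trace_fin_two_of,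
    Matrix.trace_fin_two_of] at h1
  have h2 : ((A.wq γ : SL(2, ℤ)) : Matrix (Fin 2) (Fin 2) ℤ).trace =
      ((γ : SL(2, ℤ)) : Matrix (Fin 2) (Fin 2) ℤ).trace := by
    rw [Matrix.trace_fin_two, Matrix.trace_fin_two]
    exact_mod_cast h1
  rw [h2]
  exact hγ

section Second

variable [NeZero N] (hq : q.Prime) (hqN : ¬ q ∣ N)

/-- the second degeneracy map `A2 = w ∘ A1 : Hom(Γ₀(N), M) → Hom(Γ₀(N q), M)`
(`φ ↦ φ ∘ (conjugation by diag(q, 1))`, up to an inner automorphism of `Γ₀(N)`) -/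
noncomputable def A2 (M : Type*) [AddCommGroup M] :
    (Additive (Gamma0 N) →+ M) →+ (Additive (Gamma0 (N * q)) →+ M) :=
  (A.wOp M).comp (A1 N q M)

/-- the second degeneracy map `B2 = B1 ∘ w : Hom(Γ₀(N q), M) → Hom(Γ₀(N), M)` -/
noncomputable def B2 (M : Type*) [AddCommGroup M] :
    (Additive (Gamma0 (N * q)) →+ M) →+ (Additive (Gamma0 N) →+ M) :=
  (B1 N q hq hqN M).comp (A.wOp M)

theorem A2_apply' {M : Type*} [AddCommGroup M] (φ : Additive (Gamma0 N) →+ M) :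
    A.A2 M φ = A.wOp M (A1 N q M φ) := rfl

theorem B2_apply' {M : Type*} [AddCommGroup M] (ψ : Additive (Gamma0 (N * q)) →+ M) :
    A.B2 hq hqN M ψ = B1 N q hq hqN M (A.wOp M ψ) := rfl

theorem A2_apply {M : Type*} [AddCommGroup M] (φ : Additive (Gamma0 N) →+ M)
    (γ' : Gamma0 (N * q)) :
    A.A2 M φ (Additive.ofMul γ') = φ (Additive.ofMul (inclHom N q (A.wq γ'))) := by
  rw [A2_apply', wOp_apply, A1_apply]

theorem A2_comp {M M' : Type*} [AddCommGroup M] [AddCommGroup M'] (f : M →+ M')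
    (φ : Additive (Gamma0 N) →+ M) : A.A2 M' (f.comp φ) = f.comp (A.A2 M φ) := by
  rw [A2_apply', A2_apply', A1_comp, wOp_comp]

theorem B2_comp {M M' : Type*} [AddCommGroup M] [AddCommGroup M'] (f : M →+ M')
    (ψ : Additive (Gamma0 (N * q)) →+ M) :
    A.B2 hq hqN M' (f.comp ψ) = f.comp (A.B2 hq hqN M ψ) := by
  rw [B2_apply', B2_apply', wOp_comp, B1_comp]

/-- **`B1 ∘ w ∘ A1 = T_q`.** -/
theorem B1_wOp_A1 {M : Type*} [AddCommGroup M] (φ : Additive (Gamma0 N) →+ M) :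
    B1 N q hq hqN M (A.wOp M (A1 N q M φ)) = heckeTransfer N ⟨q, hq⟩ M φ := by
  haveI : NeZero q := ⟨hq.ne_zero⟩
  rw [B1_eq, wOp, A1, ← CosetFam.transfer_compFam, ← CosetFam.transfer_compFam]
  rw [heckeTransfer_of_not_dvd (l := ⟨q, hq⟩) M hqN, ← CosetFam.transfer_ofReps]
  have key := CosetFam.transfer_eq_of_bijective (M := M)
    ((resFam N q).comp (A.wFam.comp (corFam N q hq hqN)))
    (CosetFam.ofReps (TReps N hq hqN)) (CosetFam.ofReps_distinct _) 1 (fun γ => by simp)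
    (fun x => x.2.2) (fun x => A.γ₀ * (gx N q hq hqN x.2.2)⁻¹)
    (fun x => by
      simp only [CosetFam.comp_rep, corFam_rep, CosetFam.ofReps_rep, TReps_rep, one_mul, map_mul,
        map_inv]
      show (resFam N q).rep x.1 * (A.wFam.rep x.2.1 * embG N (sx N q hq hqN x.2.2)) = _
      rw [resFam, wFam, CosetFam.ofHom_rep, CosetFam.ofHom_rep, one_mul, W, mul_assoc,
        diag_mul_sx N q hq hqN x.2.2, mul_assoc])
    ⟨fun a b hab => by
      obtain ⟨u1, u2, x⟩ := a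
      obtain ⟨v1, v2, y⟩ := b
      simp only at hab
      subst hab
      rfl, fun x => ⟨((), (), x), rfl⟩⟩
  rw [key]

theorem B1_A2 {M : Type*} [AddCommGroup M] (φ : Additive (Gamma0 N) →+ M) :
    B1 N q hq hqN M (A.A2 M φ) = heckeTransfer N ⟨q, hq⟩ M φ := by
  rw [A2_apply', B1_wOp_A1]

theorem B2_A1 {M : Type*} [AddCommGroup M] (φ : Additive (Gamma0 N) →+ M) :
    A.B2 hq hqN M (A1 N q M φ) = heckeTransfer N ⟨q, hq⟩ M φ := by
  rw [B2_apply', B1_wOp_A1]

theorem B2_A2 {M : Type*} [AddCommGroup M] (φ : Additive (Gamma0 N) →+ M) :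
    A.B2 hq hqN M (A.A2 M φ) = (q + 1) • φ := by
  rw [B2_apply', A2_apply', wOp_wOp, B1_A1]

theorem A2_mem_parabolicHoms (R : Type*) [Semiring R] {M : Type*} [AddCommGroup M]
    [Module R M] {φ : Additive (Gamma0 N) →+ M} (hφ : φ ∈ parabolicHoms R (Gamma0 N) M) :
    A.A2 M φ ∈ parabolicHoms R (Gamma0 (N * q)) M :=
  A.wOp_mem_parabolicHoms R (A1_mem_parabolicHoms N q R hφ)

theorem B2_mem_parabolicHoms (R : Type*) [Semiring R] {M : Type*} [AddCommGroup M]
    [Module R M] (htf : ∀ (n : ℕ) (x : M), n ≠ 0 → n • x = 0 → x = 0)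
    {ψ : Additive (Gamma0 (N * q)) →+ M} (hψ : ψ ∈ parabolicHoms R (Gamma0 (N * q)) M) :
    A.B2 hq hqN M ψ ∈ parabolicHoms R (Gamma0 N) M :=
  B1_mem_parabolicHoms N q hq hqN R htf (A.wOp_mem_parabolicHoms R hψ)

end Second

end ALData

end Fermat.Agent.LR.Deg
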