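/-
Program M, node B (helper20): matrix lemmas for the Hecke-equivariance of the degeneracy maps.
-/
import Mathlib
import Fermat.Agent.Jac.HeckeReps
import Fermat.Agent.Jac.HeckeRepsDecomp

set_option autoImplicit false
set_option linter.unusedSectionVars false
set_option linter.unusedSimpArgs false
set_option linter.style.haveILetI false
set_option linter.unusedTactic false

namespace Fermat.Agent.LR.DegMat

open Matrix.SpecialLinearGroup CongruenceSubgroup ModularForm Fermat.Agent.Jac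
open Fermat.Agent.Jac.RepsDecomp
open scoped MatrixGroups
open P2MW.S_ModularForm_heckeT_slash_eq_self_of_mem_Gamma0.ModularForm.HeckeSlashInvariance

/-- the shape of the Hecke representatives: upper triangular, integral, `a * d = l` -/
theorem exists_val_heckeRep {l : ℕ} (hl : l ≠ 0) (u : OnePoint (ZMod l)) :
    ∃ a b d : ℕ, a * d = l ∧
      ((heckeRep l u : GL (Fin 2) ℝ) : Matrix (Fin 2) (Fin 2) ℝ) =
        !![(a : ℝ), (b : ℝ); 0, (d : ℝ)] := by
  induction u using OnePoint.rec with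
  | infty =>
    refine ⟨l, 0, 1, mul_one _, ?_⟩
    rw [heckeRep_infty, val_heckeDiagMatrix hl]
    simp
  | coe j =>
    refine ⟨1, j.val, l, one_mul _, ?_⟩
    rw [heckeRep_coe, val_heckeMatrix hl]
    simp

/-- entry `(1,0)` of an identity `A * g = g' * A'` with `A`, `A'` upper triangular -/
theorem one_zero_of_upper_mul_eq {A A' : GL (Fin 2) ℝ} {a b d a' b' d' : ℤ}
    (hA : (A : Matrix (Fin 2) (Fin 2) ℝ) = !![(a : ℝ), (b : ℝ); 0, (d : ℝ)])
    (hA' : (A' : Matrix (Fin 2) (Fin 2) ℝ) = !![(a' : ℝ), (b' : ℝ); 0, (d' : ℝ)])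
    (g g' : SL(2, ℤ)) (h : A * mapGL ℝ g = mapGL ℝ g' * A') :
    d * g 1 0 = g' 1 0 * a' := by
  have h1 := congrArg (fun X : GL (Fin 2) ℝ => (X : Matrix (Fin 2) (Fin 2) ℝ) 1 0) h
  simp only [Units.val_mul, hA, hA', val_mapGL, Matrix.mul_apply, Fin.sum_univ_two,
    Matrix.of_apply, Matrix.cons_val', Matrix.cons_val_zero, Matrix.cons_val_one,
    Matrix.cons_val_fin_one] at h1
  simp at h1
  exact_mod_cast h1

theorem not_dvd_of_mul_eq_prime {q l a d : ℕ} (hq : q.Prime) (hl : l.Prime) (hlq : l ≠ q)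
    (had : a * d = l) : ¬ (q : ℤ) ∣ (a : ℤ) ∧ ¬ (q : ℤ) ∣ (d : ℤ) := by
  constructor
  · intro h
    have h1 : q ∣ a := by exact_mod_cast h
    have h2 : q ∣ l := had ▸ Dvd.dvd.mul_right h1 d
    exact hlq ((Nat.prime_dvd_prime_iff_eq hq hl).mp h2).symm
  · intro h
    have h1 : q ∣ d := by exact_mod_cast h
    have h2 : q ∣ l := had ▸ Dvd.dvd.mul_left h1 a
    exact hlq ((Nat.prime_dvd_prime_iff_eq hq hl).mp h2).symm

theorem gamma0_mul_dvd_right (N q : ℕ) (γ : Gamma0 (N * q)) : (q : ℤ) ∣ (γ : SL(2, ℤ)) 1 0 := by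
  have h := gamma0_dvd (N * q) γ
  push_cast at h
  exact (Dvd.intro_left _ rfl).trans h

theorem gamma0_mul_dvd_left (N q : ℕ) (γ : Gamma0 (N * q)) : (N : ℤ) ∣ (γ : SL(2, ℤ)) 1 0 := by
  have h := gamma0_dvd (N * q) γ
  push_cast at h
  exact (Dvd.intro _ rfl).trans h

/-- **(b)** If `α_u r = γ' α_u'` with `r ∈ Γ₀(N)`, `γ' ∈ Γ₀(N q)` and `l ≠ q`, then `q ∣ r₁₀`. -/
theorem dvd_of_heckeRep_mul_eq {N q l : ℕ} (hq : q.Prime) (hl : l.Prime) (hlq : l ≠ q)
    (u u' : OnePoint (ZMod l)) (r : Gamma0 N) (γ' : Gamma0 (N * q))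
    (h : heckeRep l u * embG N r = embG (N * q) γ' * heckeRep l u') :
    (q : ℤ) ∣ (r : SL(2, ℤ)) 1 0 := by
  obtain ⟨a, b, d, had, hA⟩ := exists_val_heckeRep hl.ne_zero u
  obtain ⟨a', b', d', had', hA'⟩ := exists_val_heckeRep hl.ne_zero u'
  have h1 := one_zero_of_upper_mul_eq (a := a) (b := b) (d := d) (a' := a') (b' := b') (d' := d')
    (by simpa using hA) (by simpa using hA') (r : SL(2, ℤ)) (γ' : SL(2, ℤ)) h
  have hq' : Prime (q : ℤ) := Nat.prime_iff_prime_int.mp hq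
  have h2 : (q : ℤ) ∣ (d : ℤ) * (r : SL(2, ℤ)) 1 0 := by
    rw [h1]
    exact Dvd.dvd.mul_right (gamma0_mul_dvd_right N q γ') _
  exact (hq'.dvd_or_dvd h2).resolve_left (not_dvd_of_mul_eq_prime hq hl hlq had).2

/-- an element of `Γ₀(N)` whose lower left entry is divisible by `q` (`q ∤ N` prime), as an element
of `Γ₀(N q)` -/
def toGamma0Mul {N q : ℕ} (hq : q.Prime) (hqN : ¬ q ∣ N) (g : Gamma0 N)
    (h : (q : ℤ) ∣ (g : SL(2, ℤ)) 1 0) : Gamma0 (N * q) :=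
  ⟨(g : SL(2, ℤ)), by
    rw [Gamma0_mem, ZMod.intCast_zmod_eq_zero_iff_dvd]
    push_cast
    have hcop : IsCoprime (N : ℤ) (q : ℤ) :=
      Nat.isCoprime_iff_coprime.mpr ((Nat.Prime.coprime_iff_not_dvd hq).mpr hqN).symm
    exact hcop.mul_dvd (gamma0_dvd N g) h⟩

@[simp] theorem embG_toGamma0Mul {N q : ℕ} (hq : q.Prime) (hqN : ¬ q ∣ N) (g : Gamma0 N)
    (h : (q : ℤ) ∣ (g : SL(2, ℤ)) 1 0) :
    embG (N * q) (toGamma0Mul hq hqN g h) = embG N g := rfl

@[simp] theorem coe_toGamma0Mul {N q : ℕ} (hq : q.Prime) (hqN : ¬ q ∣ N) (g : Gamma0 N)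
    (h : (q : ℤ) ∣ (g : SL(2, ℤ)) 1 0) :
    ((toGamma0Mul hq hqN g h : Gamma0 (N * q)) : SL(2, ℤ)) = (g : SL(2, ℤ)) := rfl

/-- **(b')** If `β'_j r = γ' β'_j'` with `r ∈ Γ₀(N)`, `γ' ∈ Γ₀(N q)` (`β'` the representatives
`[l, 0; -N q j, 1]` of `U_l^*` at level `N q`), then `q ∣ r₁₀`. -/
theorem dvd_of_starMatrix_mul_eq {N q l : ℕ} [NeZero l] (j j' : ℕ) (r : Gamma0 N)
    (γ' : Gamma0 (N * q))
    (h : starMatrix (N * q) l j * embG N r = embG (N * q) γ' * starMatrix (N * q) l j') :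
    (q : ℤ) ∣ (r : SL(2, ℤ)) 1 0 := by
  have h1 := congrArg (fun X : GL (Fin 2) ℝ => (X : Matrix (Fin 2) (Fin 2) ℝ) 1 0) h
  simp only [Units.val_mul, val_starMatrix, embG_apply, val_mapGL, Matrix.mul_apply,
    Fin.sum_univ_two, Matrix.of_apply, Matrix.cons_val', Matrix.cons_val_zero, Matrix.cons_val_one,
    Matrix.cons_val_fin_one] at h1
  simp at h1
  obtain ⟨c, hc⟩ := gamma0_mul_dvd_right N q γ'
  have h2 : ((r : SL(2, ℤ)) 1 0 : ℤ) = (γ' : SL(2, ℤ)) 1 0 * l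
      - (γ' : SL(2, ℤ)) 1 1 * ((N : ℤ) * q * j') + (N : ℤ) * q * j * (r : SL(2, ℤ)) 0 0 := by
    have : (((r : SL(2, ℤ)) 1 0 : ℤ) : ℝ) = (((γ' : SL(2, ℤ)) 1 0 * l
      - (γ' : SL(2, ℤ)) 1 1 * ((N : ℤ) * q * j') + (N : ℤ) * q * j * (r : SL(2, ℤ)) 0 0 : ℤ) : ℝ) := by
      push_cast
      linear_combination h1
    exact_mod_cast this
  rw [h2, hc]
  exact ⟨c * l - (γ' : SL(2, ℤ)) 1 1 * ((N : ℤ) * j') + (N : ℤ) * j * (r : SL(2, ℤ)) 0 0, by ring⟩

/-- the representatives of `U_l^*` at level `N q` and at level `N` define the same left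
`Γ₀(N)`-cosets, up to the permutation `a ↦ q a` -/
theorem starMatrix_mul_level (N q l : ℕ) [NeZero l] (a b : ℕ) (t : ℤ)
    (ht : (b : ℤ) - q * a = l * t) :
    starMatrix (N * q) l a =
      embG N (mkGamma0 N 1 0 (N * t) 1 (by ring) (dvd_mul_right _ _)) * starMatrix N l b := by
  have ht' : (b : ℝ) - q * a = l * t := by exact_mod_cast ht
  refine gl_ext_of_val (val_starMatrix (N * q) l a)
    (val_mul_fin_two (val_embG_mkGamma0 N _ _ _ _ _ _) (val_starMatrix N l b)) ?_ ?_ ?_ ?_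
  · push_cast; ring
  · push_cast; ring
  · push_cast; linear_combination (N : ℝ) * ht'
  · push_cast; ring

/-- `δ [1, j; 0, l] = [1, t; 0, 1] [1, j'; 0, l] δ` for `δ = diag(q, 1)` and `q j = j' + l t` -/
theorem heckeDiag_mul_heckeMatrix (N : ℕ) {q l : ℕ} (hq : q ≠ 0) (hl : l ≠ 0) (j j' : ℕ) (t : ℤ)
    (ht : (q : ℤ) * j = j' + l * t) :
    heckeDiagMatrix q * heckeMatrix l j =
      embG N (mkGamma0 N 1 t 0 1 (by ring) (dvd_zero _)) * heckeMatrix l j' * heckeDiagMatrix q := by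
  have ht' : (q : ℝ) * j = j' + l * t := by exact_mod_cast ht
  refine gl_ext_of_val (val_mul_fin_two (val_heckeDiagMatrix hq) (val_heckeMatrix hl j))
    (val_mul_fin_two (val_mul_fin_two (val_embG_mkGamma0 N _ _ _ _ _ _) (val_heckeMatrix hl j'))
      (val_heckeDiagMatrix hq)) ?_ ?_ ?_ ?_
  · push_cast; ring
  · push_cast; linear_combination ht'
  · push_cast; ring
  · push_cast; ring

theorem heckeDiag_mul_heckeDiag {q l : ℕ} (hq : q ≠ 0) (hl : l ≠ 0) :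
    heckeDiagMatrix q * heckeDiagMatrix l = heckeDiagMatrix l * heckeDiagMatrix q := by
  refine gl_ext_of_val (val_mul_fin_two (val_heckeDiagMatrix hq) (val_heckeDiagMatrix hl))
    (val_mul_fin_two (val_heckeDiagMatrix hl) (val_heckeDiagMatrix hq)) ?_ ?_ ?_ ?_ <;> ring

/-- `δ [l, 0; -N q j, 1] = [l, 0; -N j, 1] δ` for `δ = diag(q, 1)` -/
theorem heckeDiag_mul_starMatrix (N : ℕ) {q : ℕ} (hq : q ≠ 0) (l : ℕ) [NeZero l] (j : ℕ) :
    heckeDiagMatrix q * starMatrix (N * q) l j = starMatrix N l j * heckeDiagMatrix q := by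
  refine gl_ext_of_val (val_mul_fin_two (val_heckeDiagMatrix hq) (val_starMatrix (N * q) l j))
    (val_mul_fin_two (val_starMatrix N l j) (val_heckeDiagMatrix hq)) ?_ ?_ ?_ ?_
  · push_cast; ring
  · push_cast; ring
  · push_cast; ring
  · push_cast; ring

/-- conjugating the representatives of `T_l` by `δ = diag(q, 1)`, up to `Γ₀(N)` on the left -/
theorem exists_heckeDiag_mul_heckeRep (N : ℕ) {q l : ℕ} (hq : q ≠ 0) [NeZero l]
    (u : OnePoint (ZMod l)) :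
    ∃ (τ : Gamma0 N) (u₂ : OnePoint (ZMod l)),
      heckeDiagMatrix q * heckeRep l u = embG N τ * heckeRep l u₂ * heckeDiagMatrix q := by
  have hl : l ≠ 0 := NeZero.ne l
  induction u using OnePoint.rec with
  | infty =>
    refine ⟨1, OnePoint.infty, ?_⟩
    rw [heckeRep_infty, map_one, one_mul]
    exact heckeDiag_mul_heckeDiag hq hl
  | coe j =>
    set j' : ZMod l := (q : ZMod l) * j with hj'
    obtain ⟨t, ht⟩ : (l : ℤ) ∣ (q : ℤ) * j.val - j'.val := by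
      rw [← ZMod.intCast_zmod_eq_zero_iff_dvd]
      push_cast
      rw [ZMod.natCast_zmod_val, ZMod.natCast_zmod_val, hj', sub_self]
    refine ⟨mkGamma0 N 1 t 0 1 (by ring) (dvd_zero _), ((j' : ZMod l) : OnePoint (ZMod l)), ?_⟩
    rw [heckeRep_coe, heckeRep_coe]
    exact heckeDiag_mul_heckeMatrix N hq hl j.val j'.val t (by linear_combination ht)

/-- **(d)**, divisibility part. Let `W = γ₀ δ` with `γ₀ ∈ Γ₀(N)`, `q ∣ (γ₀)₁₁`, `δ = diag(q, 1)`
(an Atkin–Lehner matrix at `q`). If `W A = g A' W` with integral `A`, `A'`, `q ∤ A'₀₀`, `q ∣ A'₁₀`,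
then `q ∣ g₁₀`. -/
theorem dvd_one_zero_of_conj {N q : ℕ} (hq : q.Prime) (γ0 : Gamma0 N)
    (hγ0 : (q : ℤ) ∣ (γ0 : SL(2, ℤ)) 1 1)
    {A A' : GL (Fin 2) ℝ} {a b c d a' b' c' d' : ℤ}
    (hA : (A : Matrix (Fin 2) (Fin 2) ℝ) = !![(a : ℝ), (b : ℝ); (c : ℝ), (d : ℝ)])
    (hA' : (A' : Matrix (Fin 2) (Fin 2) ℝ) = !![(a' : ℝ), (b' : ℝ); (c' : ℝ), (d' : ℝ)])
    (ha' : ¬ (q : ℤ) ∣ a') (hc' : (q : ℤ) ∣ c') (g : SL(2, ℤ))
    (h : (embG N γ0 * heckeDiagMatrix q) * A =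
      mapGL ℝ g * A' * (embG N γ0 * heckeDiagMatrix q)) :
    (q : ℤ) ∣ g 1 0 := by
  have hq0 : q ≠ 0 := hq.ne_zero
  have hq' : Prime (q : ℤ) := Nat.prime_iff_prime_int.mp hq
  have h1 := congrArg (fun X : GL (Fin 2) ℝ => (X : Matrix (Fin 2) (Fin 2) ℝ) 1 1) h
  simp only [Units.val_mul, hA, hA', embG_apply, val_mapGL, val_heckeDiagMatrix hq0,
    Matrix.mul_apply, Fin.sum_univ_two, Matrix.of_apply, Matrix.cons_val', Matrix.cons_val_zero,
    Matrix.cons_val_one, Matrix.cons_val_fin_one] at h1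
  simp at h1
  obtain ⟨e, he⟩ := hγ0
  obtain ⟨f, hf⟩ := hc'
  set x00 := (γ0 : SL(2, ℤ)) 0 0
  set x01 := (γ0 : SL(2, ℤ)) 0 1
  set x10 := (γ0 : SL(2, ℤ)) 1 0
  set x11 := (γ0 : SL(2, ℤ)) 1 1
  have hdet : x00 * x11 - x01 * x10 = 1 := det_eq (γ0 : SL(2, ℤ))
  -- the integral identity
  have h2 : g 1 0 * a' * x01 =
      x10 * q * b + x11 * d - (g 1 0 * b' + g 1 1 * d') * x11 - g 1 1 * c' * x01 := by
    have : ((g 1 0 * a' * x01 : ℤ) : ℝ) =
        ((x10 * q * b + x11 * d - (g 1 0 * b' + g 1 1 * d') * x11 - g 1 1 * c' * x01 : ℤ) : ℝ) := by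
      push_cast
      linear_combination -h1
    exact_mod_cast this
  have h3 : (q : ℤ) ∣ g 1 0 * a' * x01 := by
    rw [h2, he, hf]
    exact ⟨x10 * b + e * d - (g 1 0 * b' + g 1 1 * d') * e - g 1 1 * f * x01, by ring⟩
  have hx01 : ¬ (q : ℤ) ∣ x01 := by
    rintro ⟨k, hk⟩
    have : (q : ℤ) ∣ 1 := ⟨x00 * e - k * x10, by rw [← hdet, he, hk]; ring⟩
    exact hq'.not_isUnit (isUnit_of_dvd_one this)
  rcases hq'.dvd_or_dvd h3 with h4 | h4
  · rcases hq'.dvd_or_dvd h4 with h5 | h5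
    · exact h5
    · exact absurd h5 ha'
  · exact absurd h4 hx01

/-- **(d)**, `T_l` case (`l ∤ N q`): the Atkin–Lehner matrix `W = γ₀ δ` at `q` permutes the left
`Γ₀(N q)`-cosets of the representatives of `T_l`. -/
theorem exists_conj_heckeRep {N q l : ℕ} [NeZero N] (hq : q.Prime) (hqN : ¬ q ∣ N) (hl : l.Prime)
    (hlN : ¬ l ∣ N) (hlq : l ≠ q) (γ0 : Gamma0 N) (hγ0 : (q : ℤ) ∣ (γ0 : SL(2, ℤ)) 1 1)
    (u : OnePoint (ZMod l)) :
    ∃ (γ'' : Gamma0 (N * q)) (v : OnePoint (ZMod l)),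
      (embG N γ0 * heckeDiagMatrix q) * heckeRep l u =
        embG (N * q) γ'' * heckeRep l v * (embG N γ0 * heckeDiagMatrix q) := by
  haveI : NeZero l := ⟨hl.ne_zero⟩
  obtain ⟨τ, u₂, h1⟩ := exists_heckeDiag_mul_heckeRep N hq.ne_zero u
  have h2 := (TReps N hl hlN).rel γ0⁻¹ u₂
  rw [TReps_rep, TReps_rep] at h2
  set g' := (TReps N hl hlN).coc γ0⁻¹ u₂ with hg'
  set v := (TReps N hl hlN).next γ0⁻¹ u₂ with hv
  have h3 : (embG N γ0 * heckeDiagMatrix q) * heckeRep l u =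
      embG N (γ0 * τ * g') * heckeRep l v * (embG N γ0 * heckeDiagMatrix q) := by
    calc (embG N γ0 * heckeDiagMatrix q) * heckeRep l u
        = embG N γ0 * (heckeDiagMatrix q * heckeRep l u) := by rw [mul_assoc]
      _ = embG N γ0 * (embG N τ * heckeRep l u₂ * heckeDiagMatrix q) := by rw [h1]
      _ = embG N γ0 * embG N τ * (heckeRep l u₂ * embG N γ0⁻¹) *
            (embG N γ0 * heckeDiagMatrix q) := by
          rw [map_inv]; group
      _ = embG N γ0 * embG N τ * (embG N g' * heckeRep l v) *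
            (embG N γ0 * heckeDiagMatrix q) := by rw [h2]
      _ = _ := by rw [map_mul, map_mul]; group
  obtain ⟨a, b, d, had, hA⟩ := exists_val_heckeRep hl.ne_zero u
  obtain ⟨a', b', d', had', hA'⟩ := exists_val_heckeRep hl.ne_zero v
  have hdiv : (q : ℤ) ∣ ((γ0 * τ * g' : Gamma0 N) : SL(2, ℤ)) 1 0 := by
    refine dvd_one_zero_of_conj hq γ0 hγ0 (a := a) (b := b) (c := 0) (d := d)
      (a' := a') (b' := b') (c' := 0) (d' := d') (by simpa using hA) (by simpa using hA')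
      (by exact_mod_cast (not_dvd_of_mul_eq_prime hq hl hlq had').1) (dvd_zero _) _ ?_
    rw [← embG_apply]
    exact h3
  exact ⟨toGamma0Mul hq hqN _ hdiv, v, by rw [embG_toGamma0Mul]; exact h3⟩

/-- **(d)**, `U_l^*` case (`l ∣ N`): the Atkin–Lehner matrix `W = γ₀ δ` at `q` permutes the left
`Γ₀(N q)`-cosets of the representatives `[l, 0; -N q j, 1]` of `U_l^*` at level `N q`. -/
theorem exists_conj_starMatrix {N q l : ℕ} [NeZero N] [NeZero l] (hq : q.Prime) (hqN : ¬ q ∣ N)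
    (hlN : l ∣ N) (γ0 : Gamma0 N) (hγ0 : (q : ℤ) ∣ (γ0 : SL(2, ℤ)) 1 1) (j : ZMod l) :
    ∃ (γ'' : Gamma0 (N * q)) (j' : ZMod l),
      (embG N γ0 * heckeDiagMatrix q) * starMatrix (N * q) l j.val =
        embG (N * q) γ'' * starMatrix (N * q) l j'.val * (embG N γ0 * heckeDiagMatrix q) := by
  have hql : Nat.Coprime q l := by
    rw [Nat.Prime.coprime_iff_not_dvd hq]
    exact fun h => hqN (h.trans hlN)
  have h1 := heckeDiag_mul_starMatrix N hq.ne_zero l j.val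
  have h2 := (UStarReps N hlN).rel γ0⁻¹ j
  rw [UStarReps_rep_eq, UStarReps_rep_eq] at h2
  set g' := (UStarReps N hlN).coc γ0⁻¹ j with hg'
  set j₁ := (UStarReps N hlN).next γ0⁻¹ j with hj₁
  set j₂ : ZMod l := (q : ZMod l)⁻¹ * j₁ with hj₂
  obtain ⟨t, ht⟩ : (l : ℤ) ∣ (j₁.val : ℤ) - q * j₂.val := by
    rw [← ZMod.intCast_zmod_eq_zero_iff_dvd]
    push_cast
    rw [ZMod.natCast_zmod_val, ZMod.natCast_zmod_val, hj₂, ← mul_assoc,
      ZMod.coe_mul_inv_eq_one q hql, one_mul, sub_self]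
  have h3 := starMatrix_mul_level N q l j₂.val j₁.val t ht
  set h := mkGamma0 N 1 0 (N * t) 1 (by ring) (dvd_mul_right _ _) with hh
  have h4 : starMatrix N l j₁.val = embG N h⁻¹ * starMatrix (N * q) l j₂.val := by
    rw [h3, map_inv, inv_mul_cancel_left]
  have h5 : (embG N γ0 * heckeDiagMatrix q) * starMatrix (N * q) l j.val =
      embG N (γ0 * g' * h⁻¹) * starMatrix (N * q) l j₂.val *
        (embG N γ0 * heckeDiagMatrix q) := by
    calc (embG N γ0 * heckeDiagMatrix q) * starMatrix (N * q) l j.val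
        = embG N γ0 * (heckeDiagMatrix q * starMatrix (N * q) l j.val) := by rw [mul_assoc]
      _ = embG N γ0 * (starMatrix N l j.val * heckeDiagMatrix q) := by rw [h1]
      _ = embG N γ0 * (starMatrix N l j.val * embG N γ0⁻¹) *
            (embG N γ0 * heckeDiagMatrix q) := by
          rw [map_inv]; group
      _ = embG N γ0 * (embG N g' * starMatrix N l j₁.val) *
            (embG N γ0 * heckeDiagMatrix q) := by rw [h2]
      _ = embG N γ0 * (embG N g' * (embG N h⁻¹ * starMatrix (N * q) l j₂.val)) *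
            (embG N γ0 * heckeDiagMatrix q) := by rw [h4]
      _ = _ := by rw [map_mul, map_mul]; group
  have hdiv : (q : ℤ) ∣ ((γ0 * g' * h⁻¹ : Gamma0 N) : SL(2, ℤ)) 1 0 := by
    refine dvd_one_zero_of_conj hq γ0 hγ0 (a := l) (b := 0) (c := -(((N * q : ℕ) : ℤ) * j.val))
      (d := 1) (a' := l) (b' := 0) (c' := -(((N * q : ℕ) : ℤ) * j₂.val)) (d' := 1)
      (by rw [val_starMatrix (N * q) l j.val]; push_cast; rfl)
      (by rw [val_starMatrix (N * q) l j₂.val]; push_cast; rfl)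
      ?_ ?_ _ ?_
    · intro hdvd
      have : q ∣ l := by exact_mod_cast hdvd
      exact hqN (this.trans hlN)
    · push_cast
      exact Dvd.dvd.neg_right ⟨(N : ℤ) * j₂.val, by ring⟩
    · rw [← embG_apply]
      exact h5
  exact ⟨toGamma0Mul hq hqN _ hdiv, j₂, by rw [embG_toGamma0Mul]; exact h5⟩

end Fermat.Agent.LR.DegMat
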