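/-
Program M, node B, part (II) (helper20): Hecke-equivariance of the degeneracy maps
`A1, A2 : Hom(Γ₀(N), M) → Hom(Γ₀(N q), M)` and `B1, B2 : Hom(Γ₀(N q), M) → Hom(Γ₀(N), M)`
for all primes `l ≠ q` (`T_l` for `l ∤ N q`, `U_l^*` for `l ∣ N`).
-/
import Mathlib
import Fermat.Agent.LR.DegDelta
import Fermat.Agent.LR.DegHeckeMat

set_option autoImplicit false
set_option linter.unusedSectionVars false
set_option linter.unusedSimpArgs false
set_option linter.style.haveILetI false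
set_option linter.unusedVariables false

namespace Fermat.Agent.LR.DegHecke

open Fermat.Agent.LR.Deg

open Matrix.SpecialLinearGroup CongruenceSubgroup ModularForm Fermat.Agent.Jac
open Fermat.Agent.LR.DegMat
open scoped MatrixGroups
open P2MW.S_ModularForm_heckeT_slash_eq_self_of_mem_Gamma0.ModularForm.HeckeSlashInvariance
open ModularCurve.Period

section Equivariance

variable (N q : ℕ) [NeZero N] [NeZero (N * q)] (hq : q.Prime) (hqN : ¬ q ∣ N)
variable {M : Type*} [AddCommGroup M]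

theorem not_dvd_left_of_not_dvd_mul {l : ℕ} (h : ¬ l ∣ N * q) : ¬ l ∣ N :=
  fun h' => h (Dvd.dvd.mul_right h' q)

/-- `T_l ∘ A1 = A1 ∘ T_l`, `l ∤ N q` -/
theorem T_A1 (l : Nat.Primes) (hl : ¬ (l : ℕ) ∣ N * q) (φ : Additive (Gamma0 N) →+ M) :
    heckeTransfer (N * q) l M (A1 N q M φ) = A1 N q M (heckeTransfer N l M φ) := by
  haveI : NeZero (l : ℕ) := ⟨l.2.ne_zero⟩
  have hlN : ¬ (l : ℕ) ∣ N := not_dvd_left_of_not_dvd_mul N q hl
  rw [heckeTransfer_of_not_dvd M hl, heckeTransfer_of_not_dvd M hlN,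
    ← CosetFam.transfer_ofReps, ← CosetFam.transfer_ofReps, A1,
    ← CosetFam.transfer_compFam, ← CosetFam.transfer_compFam]
  have hD : ((CosetFam.ofReps (TReps N l.2 hlN)).comp (resFam N q)).Distinct := by
    refine ⟨embG_injective N, ?_⟩
    rintro ⟨u, _⟩ ⟨v, _⟩ γ h
    simp only [CosetFam.comp_rep, CosetFam.ofReps_rep, resFam, CosetFam.ofHom_rep, mul_one] at h
    rw [(TReps N l.2 hlN).distinct u v γ h]
  have key := CosetFam.transfer_eq_of_bijective (M := M)
    ((resFam N q).comp (CosetFam.ofReps (TReps (N * q) l.2 hl)))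
    ((CosetFam.ofReps (TReps N l.2 hlN)).comp (resFam N q)) hD 1 (fun γ => by simp)
    (fun x => (x.2, ())) (fun _ => 1)
    (fun x => by
      simp only [CosetFam.comp_rep, CosetFam.ofReps_rep, resFam, CosetFam.ofHom_rep, TReps_rep,
        one_mul, mul_one, map_one])
    ⟨fun a b hab => by
      obtain ⟨_, u⟩ := a
      obtain ⟨_, v⟩ := b
      simp only [Prod.mk.injEq] at hab
      rw [hab.1], fun x => ⟨((), x.1), rfl⟩⟩
  rw [key]

/-- two elements of `Γ₀(N)` of the form `s_x`, `s_y` whose quotient lies in `Γ₀(N q)` have the same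
index -/
theorem eq_of_sx_mul_inv_dvd {x y : OnePoint (ZMod q)}
    (h : (q : ℤ) ∣ ((sx N q hq hqN x * (sx N q hq hqN y)⁻¹ : Gamma0 N) : SL(2, ℤ)) 1 0) :
    x = y := by
  refine (corSys N q hq hqN).distinct x y (toGamma0Mul hq hqN _ h) ?_
  rw [corSys_rep, corSys_rep, embG_toGamma0Mul, map_mul, map_inv, inv_mul_cancel_right]

/-- `T_l ∘ B1 = B1 ∘ T_l`, `l ∤ N q` -/
theorem T_B1 (l : Nat.Primes) (hl : ¬ (l : ℕ) ∣ N * q)
    (ψ : Additive (Gamma0 (N * q)) →+ M) :
    heckeTransfer N l M (B1 N q hq hqN M ψ) = B1 N q hq hqN M (heckeTransfer (N * q) l M ψ) := by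
  haveI : NeZero (l : ℕ) := ⟨l.2.ne_zero⟩
  haveI : NeZero q := ⟨hq.ne_zero⟩
  have hlN : ¬ (l : ℕ) ∣ N := not_dvd_left_of_not_dvd_mul N q hl
  have hlq : (l : ℕ) ≠ q := fun h => hl (h ▸ Dvd.intro_left N rfl)
  rw [heckeTransfer_of_not_dvd M hl, heckeTransfer_of_not_dvd M hlN,
    ← CosetFam.transfer_ofReps, ← CosetFam.transfer_ofReps, B1_eq,
    ← CosetFam.transfer_compFam, ← CosetFam.transfer_compFam]
  set TN := TReps N l.2 hlN with hTN
  set TNq := TReps (N * q) l.2 hl with hTNq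
  have TN_rep : ∀ u, TN.rep u = heckeRep l u := fun u => rfl
  have TNq_rep : ∀ u, TNq.rep u = heckeRep l u := fun u => rfl
  -- the family of `T_l ∘ B1` is distinct
  have hD : ((corFam N q hq hqN).comp (CosetFam.ofReps TN)).Distinct := by
    refine ⟨embG_injective (N * q), ?_⟩
    rintro ⟨x, u⟩ ⟨y, v⟩ γ h
    simp only [CosetFam.comp_rep, CosetFam.ofReps_rep, corFam_rep, TN_rep] at h
    have huv : u = v := by
      refine TN.distinct u v ((sx N q hq hqN x)⁻¹ * inclHom N q γ * sx N q hq hqN y) ?_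
      rw [TN_rep, TN_rep, map_mul, map_mul, map_inv, embG_inclHom, mul_assoc, mul_assoc,
        eq_inv_mul_iff_mul_eq]
      exact h
    subst huv
    have hxy : x = y := by
      refine (corSys N q hq hqN).distinct x y γ ?_
      rw [corSys_rep, corSys_rep]
      rw [← mul_assoc] at h
      exact mul_right_cancel h
    rw [hxy]
  -- the cosets of the family of `B1 ∘ T_l` are distinct, by (b)
  have hF : ∀ (i j : OnePoint (ZMod l) × OnePoint (ZMod q)) (γ : Gamma0 (N * q)),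
      ((CosetFam.ofReps TNq).comp (corFam N q hq hqN)).rep i =
        embG (N * q) γ * ((CosetFam.ofReps TNq).comp (corFam N q hq hqN)).rep j → i = j := by
    rintro ⟨u, x⟩ ⟨v, y⟩ γ h
    simp only [CosetFam.comp_rep, CosetFam.ofReps_rep, corFam_rep, TNq_rep] at h
    have h1 : heckeRep l u * embG N (sx N q hq hqN x * (sx N q hq hqN y)⁻¹) =
        embG (N * q) γ * heckeRep l v := by
      rw [map_mul, map_inv, ← mul_assoc, h, mul_assoc, mul_assoc, mul_inv_cancel, mul_one]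
    have hxy : x = y :=
      eq_of_sx_mul_inv_dvd N q hq hqN (dvd_of_heckeRep_mul_eq hq l.2 hlq u v _ γ h1)
    subst hxy
    have huv : u = v := by
      refine TNq.distinct u v γ ?_
      rw [TNq_rep, TNq_rep]
      rw [← mul_assoc] at h
      exact mul_right_cancel h
    rw [huv]
  -- the matching
  have hmatch : ∀ i : OnePoint (ZMod l) × OnePoint (ZMod q),
      ∃ (k : OnePoint (ZMod q) × OnePoint (ZMod l)) (g : Gamma0 (N * q)),
        ((CosetFam.ofReps TNq).comp (corFam N q hq hqN)).rep i =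
          1 * embG (N * q) g * ((corFam N q hq hqN).comp (CosetFam.ofReps TN)).rep k := by
    rintro ⟨u, x⟩
    obtain ⟨x', γ', hγ'⟩ := exists_eq_mul_sx N q hq hqN (TN.coc (sx N q hq hqN x) u)
    refine ⟨(x', TN.next (sx N q hq hqN x) u), γ', ?_⟩
    simp only [CosetFam.comp_rep, CosetFam.ofReps_rep, corFam_rep, TNq_rep, TN_rep, one_mul]
    have hrel := TN.rel (sx N q hq hqN x) u
    rw [TN_rep, TN_rep] at hrel
    rw [hrel, hγ', map_mul, embG_inclHom, mul_assoc]
  choose e g hg using hmatch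
  have key := CosetFam.transfer_eq_of_card (M := M)
    ((CosetFam.ofReps TNq).comp (corFam N q hq hqN))
    ((corFam N q hq hqN).comp (CosetFam.ofReps TN)) hD hF
    (by rw [Fintype.card_prod, Fintype.card_prod, mul_comm]) 1 (fun γ => by simp) e g hg
  rw [key]

include hq hqN in
/-- `T_l ∘ w = w ∘ T_l` at level `N q`, `l ∤ N q` -/
theorem T_wOp (A : ALData N q) (hγ₀ : (q : ℤ) ∣ (A.γ₀ : SL(2, ℤ)) 1 1)
    (hsurj : Function.Surjective A.wq) (l : Nat.Primes) (hl : ¬ (l : ℕ) ∣ N * q)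
    (ψ : Additive (Gamma0 (N * q)) →+ M) :
    heckeTransfer (N * q) l M (A.wOp M ψ) = A.wOp M (heckeTransfer (N * q) l M ψ) := by
  haveI : NeZero (l : ℕ) := ⟨l.2.ne_zero⟩
  have hlN : ¬ (l : ℕ) ∣ N := not_dvd_left_of_not_dvd_mul N q hl
  have hlq : (l : ℕ) ≠ q := fun h => hl (h ▸ Dvd.intro_left N rfl)
  rw [heckeTransfer_of_not_dvd M hl, ← CosetFam.transfer_ofReps, ALData.wOp,
    ← CosetFam.transfer_compFam, ← CosetFam.transfer_compFam]
  set TNq := TReps (N * q) l.2 hl with hTNq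
  have TNq_rep : ∀ u, TNq.rep u = heckeRep l u := fun u => rfl
  have hD : ((CosetFam.ofReps TNq).comp A.wFam).Distinct := by
    refine ⟨embG_injective (N * q), ?_⟩
    rintro ⟨u, _⟩ ⟨v, _⟩ γ h
    simp only [CosetFam.comp_rep, CosetFam.ofReps_rep, ALData.wFam, CosetFam.ofHom_rep] at h
    rw [← mul_assoc] at h
    rw [TNq.distinct u v γ (mul_right_cancel h)]
  have hF : ∀ (i j : Unit × OnePoint (ZMod l)) (γ : Gamma0 (N * q)),
      (A.wFam.comp (CosetFam.ofReps TNq)).rep i =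
        embG (N * q) γ * (A.wFam.comp (CosetFam.ofReps TNq)).rep j → i = j := by
    rintro ⟨_, u⟩ ⟨_, v⟩ γ h
    simp only [CosetFam.comp_rep, CosetFam.ofReps_rep, ALData.wFam, CosetFam.ofHom_rep] at h
    obtain ⟨γ₂, rfl⟩ := hsurj γ
    rw [← mul_assoc, ← A.W_mul γ₂, mul_assoc] at h
    rw [TNq.distinct u v γ₂ (mul_left_cancel h)]
  have hmatch : ∀ i : Unit × OnePoint (ZMod l),
      ∃ (k : OnePoint (ZMod l) × Unit) (g : Gamma0 (N * q)),
        (A.wFam.comp (CosetFam.ofReps TNq)).rep i =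
          1 * embG (N * q) g * ((CosetFam.ofReps TNq).comp A.wFam).rep k := by
    rintro ⟨_, u⟩
    obtain ⟨γ'', v, h⟩ := exists_conj_heckeRep hq hqN l.2 hlN hlq A.γ₀ hγ₀ u
    refine ⟨(v, ()), γ'', ?_⟩
    simp only [CosetFam.comp_rep, CosetFam.ofReps_rep, ALData.wFam, CosetFam.ofHom_rep, TNq_rep,
      one_mul]
    rw [ALData.W, h, mul_assoc]
  choose e g hg using hmatch
  have key := CosetFam.transfer_eq_of_card (M := M)
    (A.wFam.comp (CosetFam.ofReps TNq)) ((CosetFam.ofReps TNq).comp A.wFam) hD hF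
    (by rw [Fintype.card_prod, Fintype.card_prod, mul_comm]) 1 (fun γ => by simp) e g hg
  rw [key]

include hq hqN in
/-- `T_l ∘ A2 = A2 ∘ T_l`, `l ∤ N q` -/
theorem T_A2 (A : ALData N q) (hγ₀ : (q : ℤ) ∣ (A.γ₀ : SL(2, ℤ)) 1 1)
    (hsurj : Function.Surjective A.wq) (l : Nat.Primes) (hl : ¬ (l : ℕ) ∣ N * q)
    (φ : Additive (Gamma0 N) →+ M) :
    heckeTransfer (N * q) l M (A.A2 M φ) = A.A2 M (heckeTransfer N l M φ) := by
  rw [ALData.A2_apply', T_wOp N q hq hqN A hγ₀ hsurj l hl, T_A1 N q l hl, ← ALData.A2_apply']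

/-- `T_l ∘ B2 = B2 ∘ T_l`, `l ∤ N q` -/
theorem T_B2 (A : ALData N q) (hγ₀ : (q : ℤ) ∣ (A.γ₀ : SL(2, ℤ)) 1 1)
    (hsurj : Function.Surjective A.wq) (l : Nat.Primes) (hl : ¬ (l : ℕ) ∣ N * q)
    (ψ : Additive (Gamma0 (N * q)) →+ M) :
    heckeTransfer N l M (A.B2 hq hqN M ψ) = A.B2 hq hqN M (heckeTransfer (N * q) l M ψ) := by
  rw [ALData.B2_apply', T_B1 N q hq hqN l hl, T_wOp N q hq hqN A hγ₀ hsurj l hl,
    ← ALData.B2_apply']

/-! ### The case `l ∣ N` (`U_l^*` at both levels) -/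

include hq hqN in
theorem coprime_of_dvd_left {l : ℕ} (hlN : l ∣ N) : Nat.Coprime q l := by
  rw [Nat.Prime.coprime_iff_not_dvd hq]
  exact fun h => hqN (h.trans hlN)

include hq hqN in
/-- the representatives of `U_l^*` at level `N q` in terms of those at level `N` -/
theorem exists_starMatrix_eq {l : ℕ} [NeZero l] (hlN : l ∣ N) (j : ZMod l) :
    ∃ g : Gamma0 N, starMatrix (N * q) l j.val =
      embG N g * starMatrix N l ((q : ZMod l) * j).val := by
  obtain ⟨t, ht⟩ : (l : ℤ) ∣ ((((q : ZMod l) * j).val : ℕ) : ℤ) - q * j.val := by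
    rw [← ZMod.intCast_zmod_eq_zero_iff_dvd]
    push_cast
    rw [ZMod.natCast_zmod_val, ZMod.natCast_zmod_val, sub_self]
  exact ⟨_, starMatrix_mul_level N q l j.val ((q : ZMod l) * j).val t ht⟩

include hq hqN in
theorem mul_left_injective_of_dvd {l : ℕ} [NeZero l] (hlN : l ∣ N) :
    Function.Injective (fun j : ZMod l => (q : ZMod l) * j) := by
  intro j j' h
  have hu : (q : ZMod l) * (q : ZMod l)⁻¹ = 1 :=
    ZMod.coe_mul_inv_eq_one q (coprime_of_dvd_left N q hq hqN hlN)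
  have h1 := congrArg (fun x => ((q : ZMod l))⁻¹ * x) h
  simp only [← mul_assoc] at h1
  rwa [mul_comm ((q : ZMod l))⁻¹, hu, one_mul, one_mul] at h1

include hq hqN in
/-- `U_l^* ∘ A1 = A1 ∘ U_l^*`, `l ∣ N` -/
theorem U_A1 (l : Nat.Primes) (hlN : (l : ℕ) ∣ N) (φ : Additive (Gamma0 N) →+ M) :
    heckeTransfer (N * q) l M (A1 N q M φ) = A1 N q M (heckeTransfer N l M φ) := by
  haveI : NeZero (l : ℕ) := ⟨l.2.ne_zero⟩
  have hl : (l : ℕ) ∣ N * q := Dvd.dvd.mul_right hlN q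
  rw [heckeTransfer_of_dvd M hl, heckeTransfer_of_dvd M hlN,
    ← CosetFam.transfer_ofReps, ← CosetFam.transfer_ofReps, A1,
    ← CosetFam.transfer_compFam, ← CosetFam.transfer_compFam]
  set UN := UStarReps N hlN with hUN
  set UNq := UStarReps (N * q) hl with hUNq
  have UN_rep : ∀ j, UN.rep j = starMatrix N l j.val := fun j => UStarReps_rep_eq N hlN j
  have UNq_rep : ∀ j, UNq.rep j = starMatrix (N * q) l j.val :=
    fun j => UStarReps_rep_eq (N * q) hl j
  have hD : ((CosetFam.ofReps UN).comp (resFam N q)).Distinct := by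
    refine ⟨embG_injective N, ?_⟩
    rintro ⟨u, _⟩ ⟨v, _⟩ γ h
    simp only [CosetFam.comp_rep, CosetFam.ofReps_rep, resFam, CosetFam.ofHom_rep, mul_one] at h
    rw [UN.distinct u v γ h]
  choose g hg using exists_starMatrix_eq N q hq hqN (l := l) hlN
  have key := CosetFam.transfer_eq_of_bijective (M := M)
    ((resFam N q).comp (CosetFam.ofReps UNq)) ((CosetFam.ofReps UN).comp (resFam N q)) hD 1
    (fun γ => by simp) (fun x => ((q : ZMod l) * x.2, ())) (fun x => g x.2)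
    (fun x => by
      simp only [CosetFam.comp_rep, CosetFam.ofReps_rep, resFam, CosetFam.ofHom_rep, one_mul,
        mul_one, UN_rep, UNq_rep]
      exact hg x.2)
    ((Fintype.bijective_iff_injective_and_card _).2 ⟨by
        rintro ⟨_, u⟩ ⟨_, v⟩ h
        simp only [Prod.mk.injEq, and_true] at h
        rw [mul_left_injective_of_dvd N q hq hqN hlN h],
      by rw [Fintype.card_prod, Fintype.card_prod, mul_comm]⟩)
  rw [key]

/-- `U_l^* ∘ B1 = B1 ∘ U_l^*`, `l ∣ N` -/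
theorem U_B1 (l : Nat.Primes) (hlN : (l : ℕ) ∣ N) (ψ : Additive (Gamma0 (N * q)) →+ M) :
    heckeTransfer N l M (B1 N q hq hqN M ψ) = B1 N q hq hqN M (heckeTransfer (N * q) l M ψ) := by
  haveI : NeZero (l : ℕ) := ⟨l.2.ne_zero⟩
  haveI : NeZero q := ⟨hq.ne_zero⟩
  have hl : (l : ℕ) ∣ N * q := Dvd.dvd.mul_right hlN q
  rw [heckeTransfer_of_dvd M hl, heckeTransfer_of_dvd M hlN,
    ← CosetFam.transfer_ofReps, ← CosetFam.transfer_ofReps, B1_eq,
    ← CosetFam.transfer_compFam, ← CosetFam.transfer_compFam]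
  set UN := UStarReps N hlN with hUN
  set UNq := UStarReps (N * q) hl with hUNq
  have UN_rep : ∀ j, UN.rep j = starMatrix N l j.val := fun j => UStarReps_rep_eq N hlN j
  have UNq_rep : ∀ j, UNq.rep j = starMatrix (N * q) l j.val :=
    fun j => UStarReps_rep_eq (N * q) hl j
  -- the family of `U_l^* ∘ B1` is distinct
  have hD : ((corFam N q hq hqN).comp (CosetFam.ofReps UN)).Distinct := by
    refine ⟨embG_injective (N * q), ?_⟩
    rintro ⟨x, u⟩ ⟨y, v⟩ γ h
    simp only [CosetFam.comp_rep, CosetFam.ofReps_rep, corFam_rep] at h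
    have huv : u = v := by
      refine UN.distinct u v ((sx N q hq hqN x)⁻¹ * inclHom N q γ * sx N q hq hqN y) ?_
      rw [map_mul, map_mul, map_inv, embG_inclHom, mul_assoc, mul_assoc,
        eq_inv_mul_iff_mul_eq]
      exact h
    subst huv
    have hxy : x = y := by
      refine (corSys N q hq hqN).distinct x y γ ?_
      rw [corSys_rep, corSys_rep]
      rw [← mul_assoc] at h
      exact mul_right_cancel h
    rw [hxy]
  -- the cosets of the family of `B1 ∘ U_l^*` are distinct, by (b')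
  have hF : ∀ (i j : ZMod l × OnePoint (ZMod q)) (γ : Gamma0 (N * q)),
      ((CosetFam.ofReps UNq).comp (corFam N q hq hqN)).rep i =
        embG (N * q) γ * ((CosetFam.ofReps UNq).comp (corFam N q hq hqN)).rep j → i = j := by
    rintro ⟨u, x⟩ ⟨v, y⟩ γ h
    simp only [CosetFam.comp_rep, CosetFam.ofReps_rep, corFam_rep, UNq_rep] at h
    have h1 : starMatrix (N * q) l u.val * embG N (sx N q hq hqN x * (sx N q hq hqN y)⁻¹) =
        embG (N * q) γ * starMatrix (N * q) l v.val := by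
      rw [map_mul, map_inv, ← mul_assoc, h, mul_assoc, mul_assoc, mul_inv_cancel, mul_one]
    have hxy : x = y :=
      eq_of_sx_mul_inv_dvd N q hq hqN (dvd_of_starMatrix_mul_eq u.val v.val _ γ h1)
    subst hxy
    have huv : u = v := by
      refine UNq.distinct u v γ ?_
      rw [UNq_rep, UNq_rep]
      rw [← mul_assoc] at h
      exact mul_right_cancel h
    rw [huv]
  -- the matching
  have hmatch : ∀ i : ZMod l × OnePoint (ZMod q),
      ∃ (k : OnePoint (ZMod q) × ZMod l) (g : Gamma0 (N * q)),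
        ((CosetFam.ofReps UNq).comp (corFam N q hq hqN)).rep i =
          1 * embG (N * q) g * ((corFam N q hq hqN).comp (CosetFam.ofReps UN)).rep k := by
    rintro ⟨u, x⟩
    obtain ⟨h₀, hh₀⟩ := exists_starMatrix_eq N q hq hqN (l := l) hlN u
    obtain ⟨x', γ', hγ'⟩ := exists_eq_mul_sx N q hq hqN
      (h₀ * UN.coc (sx N q hq hqN x) ((q : ZMod l) * u))
    refine ⟨(x', UN.next (sx N q hq hqN x) ((q : ZMod l) * u)), γ', ?_⟩
    simp only [CosetFam.comp_rep, CosetFam.ofReps_rep, corFam_rep, UNq_rep, one_mul]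
    have hrel := UN.rel (sx N q hq hqN x) ((q : ZMod l) * u)
    rw [UN_rep] at hrel
    rw [hh₀, mul_assoc, hrel, ← mul_assoc, ← map_mul, hγ', map_mul, embG_inclHom, mul_assoc]
  choose e g hg using hmatch
  have key := CosetFam.transfer_eq_of_card (M := M)
    ((CosetFam.ofReps UNq).comp (corFam N q hq hqN))
    ((corFam N q hq hqN).comp (CosetFam.ofReps UN)) hD hF
    (by rw [Fintype.card_prod, Fintype.card_prod, mul_comm]) 1 (fun γ => by simp) e g hg
  rw [key]

include hq hqN in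
/-- `U_l^* ∘ w = w ∘ U_l^*` at level `N q`, `l ∣ N` -/
theorem U_wOp (A : ALData N q) (hγ₀ : (q : ℤ) ∣ (A.γ₀ : SL(2, ℤ)) 1 1)
    (hsurj : Function.Surjective A.wq) (l : Nat.Primes) (hlN : (l : ℕ) ∣ N)
    (ψ : Additive (Gamma0 (N * q)) →+ M) :
    heckeTransfer (N * q) l M (A.wOp M ψ) = A.wOp M (heckeTransfer (N * q) l M ψ) := by
  haveI : NeZero (l : ℕ) := ⟨l.2.ne_zero⟩
  have hl : (l : ℕ) ∣ N * q := Dvd.dvd.mul_right hlN q
  rw [heckeTransfer_of_dvd M hl, ← CosetFam.transfer_ofReps, ALData.wOp,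
    ← CosetFam.transfer_compFam, ← CosetFam.transfer_compFam]
  set UNq := UStarReps (N * q) hl with hUNq
  have UNq_rep : ∀ j, UNq.rep j = starMatrix (N * q) l j.val :=
    fun j => UStarReps_rep_eq (N * q) hl j
  have hD : ((CosetFam.ofReps UNq).comp A.wFam).Distinct := by
    refine ⟨embG_injective (N * q), ?_⟩
    rintro ⟨u, _⟩ ⟨v, _⟩ γ h
    simp only [CosetFam.comp_rep, CosetFam.ofReps_rep, ALData.wFam, CosetFam.ofHom_rep] at h
    rw [← mul_assoc] at h
    rw [UNq.distinct u v γ (mul_right_cancel h)]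
  have hF : ∀ (i j : Unit × ZMod l) (γ : Gamma0 (N * q)),
      (A.wFam.comp (CosetFam.ofReps UNq)).rep i =
        embG (N * q) γ * (A.wFam.comp (CosetFam.ofReps UNq)).rep j → i = j := by
    rintro ⟨_, u⟩ ⟨_, v⟩ γ h
    simp only [CosetFam.comp_rep, CosetFam.ofReps_rep, ALData.wFam, CosetFam.ofHom_rep] at h
    obtain ⟨γ₂, rfl⟩ := hsurj γ
    rw [← mul_assoc, ← A.W_mul γ₂, mul_assoc] at h
    rw [UNq.distinct u v γ₂ (mul_left_cancel h)]
  have hmatch : ∀ i : Unit × ZMod l,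
      ∃ (k : ZMod l × Unit) (g : Gamma0 (N * q)),
        (A.wFam.comp (CosetFam.ofReps UNq)).rep i =
          1 * embG (N * q) g * ((CosetFam.ofReps UNq).comp A.wFam).rep k := by
    rintro ⟨_, u⟩
    obtain ⟨γ'', v, h⟩ := exists_conj_starMatrix hq hqN hlN A.γ₀ hγ₀ u
    refine ⟨(v, ()), γ'', ?_⟩
    simp only [CosetFam.comp_rep, CosetFam.ofReps_rep, ALData.wFam, CosetFam.ofHom_rep, UNq_rep,
      one_mul]
    rw [ALData.W, h, mul_assoc]
  choose e g hg using hmatch
  have key := CosetFam.transfer_eq_of_card (M := M)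
    (A.wFam.comp (CosetFam.ofReps UNq)) ((CosetFam.ofReps UNq).comp A.wFam) hD hF
    (by rw [Fintype.card_prod, Fintype.card_prod, mul_comm]) 1 (fun γ => by simp) e g hg
  rw [key]

/-! ### All primes `l ≠ q` -/

include hq in
theorem not_dvd_mul_of_ne {l : Nat.Primes} (hlq : (l : ℕ) ≠ q) (hlN : ¬ (l : ℕ) ∣ N) :
    ¬ (l : ℕ) ∣ N * q := by
  intro h
  rcases (Nat.Prime.dvd_mul l.2).mp h with h | h
  · exact hlN h
  · exact hlq ((Nat.prime_dvd_prime_iff_eq l.2 hq).mp h)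

include hq hqN in
/-- **`heckeTransfer` commutes with `A1`** for every prime `l ≠ q`. -/
theorem heckeTransfer_A1 (l : Nat.Primes) (hlq : (l : ℕ) ≠ q) (φ : Additive (Gamma0 N) →+ M) :
    heckeTransfer (N * q) l M (A1 N q M φ) = A1 N q M (heckeTransfer N l M φ) := by
  by_cases hlN : (l : ℕ) ∣ N
  · exact U_A1 N q hq hqN l hlN φ
  · exact T_A1 N q l (not_dvd_mul_of_ne N q hq hlq hlN) φ

/-- **`heckeTransfer` commutes with `B1`** for every prime `l ≠ q`. -/
theorem heckeTransfer_B1 (l : Nat.Primes) (hlq : (l : ℕ) ≠ q)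
    (ψ : Additive (Gamma0 (N * q)) →+ M) :
    heckeTransfer N l M (B1 N q hq hqN M ψ) = B1 N q hq hqN M (heckeTransfer (N * q) l M ψ) := by
  by_cases hlN : (l : ℕ) ∣ N
  · exact U_B1 N q hq hqN l hlN ψ
  · exact T_B1 N q hq hqN l (not_dvd_mul_of_ne N q hq hlq hlN) ψ

include hq hqN in
/-- **`heckeTransfer` at level `N q` commutes with the Atkin–Lehner involution at `q`** for every
prime `l ≠ q`. -/
theorem heckeTransfer_wOp (A : ALData N q) (hγ₀ : (q : ℤ) ∣ (A.γ₀ : SL(2, ℤ)) 1 1)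
    (hsurj : Function.Surjective A.wq) (l : Nat.Primes) (hlq : (l : ℕ) ≠ q)
    (ψ : Additive (Gamma0 (N * q)) →+ M) :
    heckeTransfer (N * q) l M (A.wOp M ψ) = A.wOp M (heckeTransfer (N * q) l M ψ) := by
  by_cases hlN : (l : ℕ) ∣ N
  · exact U_wOp N q hq hqN A hγ₀ hsurj l hlN ψ
  · exact T_wOp N q hq hqN A hγ₀ hsurj l (not_dvd_mul_of_ne N q hq hlq hlN) ψ

include hq hqN in
/-- **`heckeTransfer` commutes with `A2`** for every prime `l ≠ q`. -/
theorem heckeTransfer_A2 (A : ALData N q) (hγ₀ : (q : ℤ) ∣ (A.γ₀ : SL(2, ℤ)) 1 1)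
    (hsurj : Function.Surjective A.wq) (l : Nat.Primes) (hlq : (l : ℕ) ≠ q)
    (φ : Additive (Gamma0 N) →+ M) :
    heckeTransfer (N * q) l M (A.A2 M φ) = A.A2 M (heckeTransfer N l M φ) := by
  rw [ALData.A2_apply', heckeTransfer_wOp N q hq hqN A hγ₀ hsurj l hlq,
    heckeTransfer_A1 N q hq hqN l hlq, ← ALData.A2_apply']

/-- **`heckeTransfer` commutes with `B2`** for every prime `l ≠ q`. -/
theorem heckeTransfer_B2 (A : ALData N q) (hγ₀ : (q : ℤ) ∣ (A.γ₀ : SL(2, ℤ)) 1 1)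
    (hsurj : Function.Surjective A.wq) (l : Nat.Primes) (hlq : (l : ℕ) ≠ q)
    (ψ : Additive (Gamma0 (N * q)) →+ M) :
    heckeTransfer N l M (A.B2 hq hqN M ψ) = A.B2 hq hqN M (heckeTransfer (N * q) l M ψ) := by
  rw [ALData.B2_apply', heckeTransfer_B1 N q hq hqN l hlq,
    heckeTransfer_wOp N q hq hqN A hγ₀ hsurj l hlq, ← ALData.B2_apply']

end Equivariance

end Fermat.Agent.LR.DegHecke
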