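/-
Program M (S41, level raising), node B, part "Atkin–Lehner at `q`" (helper28).

For coprime `N`, `q` with Bezout data `q x − N z = 1` the matrix `W = [q x, 1; N q z, q]`
(determinant `q`) normalises `Γ₀(N q)`.  We construct

* `Bez N q` : the Bezout data, `nonempty_bez`;
* `alGL β : GL (Fin 2) ℝ` : the matrix `W`;
* `wq β : Gamma0 (N * q) ≃* Gamma0 (N * q)` : conjugation by `W`, with
  `embG_wq : embG (N * q) (wq β γ) = W * embG (N * q) γ * W⁻¹`;
* `gam1 β : Gamma0 (N * q)` with `W * W = q • gam1` and `wq_wq : wq (wq γ) = gam1 * γ * gam1⁻¹`;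
* `wHom β M : (Additive Γ' →+ M) →+ (Additive Γ' →+ M)`, `y ↦ y ∘ wq`, an involution
  (`wHom_wHom`) preserving parabolic homomorphisms.
-/
import Mathlib
import Fermat.Agent.Jac.HeckeReps
import Fermat.Agent.Jac.HeckeRepsDecomp

set_option autoImplicit false
set_option linter.unusedSectionVars false
set_option linter.unusedSimpArgs false
set_option linter.unnecessarySeqFocus false
set_option linter.unreachableTactic false
set_option linter.unusedTactic false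

namespace Fermat.Agent.LR.ALQ

open Matrix.SpecialLinearGroup CongruenceSubgroup ModularForm
open scoped MatrixGroups
open Fermat.Agent.Jac Fermat.Agent.Jac.RepsDecomp
open P2MW.S_ModularForm_heckeT_slash_eq_self_of_mem_Gamma0.ModularForm.HeckeSlashInvariance

/-- Bezout data `q x − N z = 1`. -/
structure Bez (N q : ℕ) where
  /-- coefficient of `q` -/
  x : ℤ
  /-- coefficient of `-N` -/
  z : ℤ
  h : (q : ℤ) * x - (N : ℤ) * z = 1

theorem nonempty_bez {N q : ℕ} (h : Nat.Coprime q N) : Nonempty (Bez N q) := by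
  obtain ⟨u, v, huv⟩ := Nat.Coprime.isCoprime h
  exact ⟨⟨u, -v, by linear_combination huv⟩⟩

variable {N q : ℕ} [NeZero N] [NeZero q] (β : Bez N q)

theorem Bez.hR : ((q : ℝ) * (β.x : ℝ) - (N : ℝ) * (β.z : ℝ)) = 1 := by
  exact_mod_cast β.h

/-- the Atkin–Lehner matrix `W = [q x, 1; N q z, q]` at `q` of level `N q` -/
noncomputable def alGL : GL (Fin 2) ℝ :=
  Matrix.GeneralLinearGroup.mkOfDetNeZero
    !![(q : ℝ) * (β.x : ℝ), 1; (N : ℝ) * (q : ℝ) * (β.z : ℝ), (q : ℝ)] (by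
    rw [Matrix.det_fin_two_of]
    have hq : (q : ℝ) ≠ 0 := by exact_mod_cast NeZero.ne q
    have : (q : ℝ) * (β.x : ℝ) * (q : ℝ) - 1 * ((N : ℝ) * (q : ℝ) * (β.z : ℝ)) = q := by
      linear_combination (q : ℝ) * β.hR
    rw [this]
    exact hq)

@[simp] theorem val_alGL :
    ((alGL β : GL (Fin 2) ℝ) : Matrix (Fin 2) (Fin 2) ℝ) =
      !![(q : ℝ) * (β.x : ℝ), 1; (N : ℝ) * (q : ℝ) * (β.z : ℝ), (q : ℝ)] := rfl

/-- the quotient `c / (N q)` of the lower left entry -/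
def cq (γ : Gamma0 (N * q)) : ℤ := (γ : SL(2, ℤ)) 1 0 / ((N * q : ℕ) : ℤ)

theorem c_eq (γ : Gamma0 (N * q)) :
    (γ : SL(2, ℤ)) 1 0 = (N : ℤ) * (q : ℤ) * cq γ := by
  obtain ⟨c, hc⟩ := gamma0_dvd (N * q) γ
  have hNq : ((N * q : ℕ) : ℤ) ≠ 0 := by exact_mod_cast NeZero.ne (N * q)
  rw [cq, hc, Int.mul_ediv_cancel_left _ hNq]
  push_cast
  ring

theorem det_eq' (γ : Gamma0 (N * q)) :
    (γ : SL(2, ℤ)) 0 0 * (γ : SL(2, ℤ)) 1 1 -
      (γ : SL(2, ℤ)) 0 1 * ((N : ℤ) * (q : ℤ) * cq γ) = 1 := by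
  rw [← c_eq]
  have := det_eq (γ : SL(2, ℤ))
  linarith

/-- the conjugate `W γ W⁻¹` of `γ ∈ Γ₀(N q)` -/
def alSL (γ : Gamma0 (N * q)) : SL(2, ℤ) :=
  ⟨!![(q : ℤ) * β.x * (γ : SL(2, ℤ)) 0 0 + N * q * cq γ - N * q * β.x * β.z * (γ : SL(2, ℤ)) 0 1
        - N * β.z * (γ : SL(2, ℤ)) 1 1,
      -(β.x * (γ : SL(2, ℤ)) 0 0) - N * cq γ + q * β.x ^ 2 * (γ : SL(2, ℤ)) 0 1
        + β.x * (γ : SL(2, ℤ)) 1 1;
      N * q * (β.z * (γ : SL(2, ℤ)) 0 0 + q * cq γ - N * β.z ^ 2 * (γ : SL(2, ℤ)) 0 1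
        - β.z * (γ : SL(2, ℤ)) 1 1),
      -(N * β.z * (γ : SL(2, ℤ)) 0 0) - N * q * cq γ + N * q * β.x * β.z * (γ : SL(2, ℤ)) 0 1
        + q * β.x * (γ : SL(2, ℤ)) 1 1], by
    rw [Matrix.det_fin_two_of]
    have h1 := det_eq' γ
    have h2 := β.h
    linear_combination ((q : ℤ) * β.x - N * β.z) ^ 2 * h1 + ((q : ℤ) * β.x - N * β.z + 1) * h2⟩

@[simp] theorem alSL_zero_zero (γ : Gamma0 (N * q)) :
    (alSL β γ) 0 0 = (q : ℤ) * β.x * (γ : SL(2, ℤ)) 0 0 + N * q * cq γ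
      - N * q * β.x * β.z * (γ : SL(2, ℤ)) 0 1 - N * β.z * (γ : SL(2, ℤ)) 1 1 := rfl
@[simp] theorem alSL_zero_one (γ : Gamma0 (N * q)) :
    (alSL β γ) 0 1 = -(β.x * (γ : SL(2, ℤ)) 0 0) - N * cq γ + q * β.x ^ 2 * (γ : SL(2, ℤ)) 0 1
        + β.x * (γ : SL(2, ℤ)) 1 1 := rfl
@[simp] theorem alSL_one_zero (γ : Gamma0 (N * q)) :
    (alSL β γ) 1 0 = N * q * (β.z * (γ : SL(2, ℤ)) 0 0 + q * cq γ
      - N * β.z ^ 2 * (γ : SL(2, ℤ)) 0 1 - β.z * (γ : SL(2, ℤ)) 1 1) := rfl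
@[simp] theorem alSL_one_one (γ : Gamma0 (N * q)) :
    (alSL β γ) 1 1 = -(N * β.z * (γ : SL(2, ℤ)) 0 0) - N * q * cq γ
      + N * q * β.x * β.z * (γ : SL(2, ℤ)) 0 1 + q * β.x * (γ : SL(2, ℤ)) 1 1 := rfl

theorem alSL_mem (γ : Gamma0 (N * q)) : alSL β γ ∈ Gamma0 (N * q) := by
  rw [Gamma0_mem, alSL_one_zero]
  rw [ZMod.intCast_zmod_eq_zero_iff_dvd]
  push_cast
  exact dvd_mul_right _ _

theorem mapGL_alSL_mul (γ : Gamma0 (N * q)) :
    mapGL ℝ (alSL β γ) * alGL β = alGL β * mapGL ℝ (γ : SL(2, ℤ)) := by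
  have hc : (((γ : SL(2, ℤ)) 1 0 : ℤ) : ℝ) = (N : ℝ) * (q : ℝ) * (cq γ : ℝ) := by
    exact_mod_cast c_eq γ
  have hR := β.hR
  refine gl_ext_of_val (val_mul_fin_two (val_mapGL _) (val_alGL β))
    (val_mul_fin_two (val_alGL β) (val_mapGL _)) ?_ ?_ ?_ ?_
  · simp only [alSL_zero_zero, alSL_zero_one, alSL_one_zero, alSL_one_one]
    push_cast
    rw [hc]
    linear_combination ((q : ℝ) * β.x * ((γ : SL(2, ℤ)) 0 0 : ℤ) + N * q * (cq γ : ℝ)) * hR
  · simp only [alSL_zero_zero, alSL_zero_one, alSL_one_zero, alSL_one_one]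
    push_cast
    linear_combination ((q : ℝ) * β.x * ((γ : SL(2, ℤ)) 0 1 : ℤ) + ((γ : SL(2, ℤ)) 1 1 : ℤ)) * hR
  · simp only [alSL_zero_zero, alSL_zero_one, alSL_one_zero, alSL_one_one]
    push_cast
    rw [hc]
    linear_combination ((N : ℝ) * q * β.z * ((γ : SL(2, ℤ)) 0 0 : ℤ)
      + q * (N * q * (cq γ : ℝ))) * hR
  · simp only [alSL_zero_zero, alSL_zero_one, alSL_one_zero, alSL_one_one]
    push_cast
    linear_combination ((N : ℝ) * q * β.z * ((γ : SL(2, ℤ)) 0 1 : ℤ)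
      + q * ((γ : SL(2, ℤ)) 1 1 : ℤ)) * hR


/-- conjugation by `W` as a map `Γ₀(N q) → Γ₀(N q)` -/
def wqFun (γ : Gamma0 (N * q)) : Gamma0 (N * q) := ⟨alSL β γ, alSL_mem β γ⟩

theorem embG_wqFun (γ : Gamma0 (N * q)) :
    embG (N * q) (wqFun β γ) = alGL β * embG (N * q) γ * (alGL β)⁻¹ := by
  rw [embG_apply, embG_apply, ← mapGL_alSL_mul, mul_inv_cancel_right]
  rfl

/-- conjugation by `W` as a monoid homomorphism -/
def wqHom : Gamma0 (N * q) →* Gamma0 (N * q) where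
  toFun := wqFun β
  map_one' := by
    apply embG_injective (N * q)
    rw [embG_wqFun, map_one]
    group
  map_mul' γ γ' := by
    apply embG_injective (N * q)
    rw [map_mul, embG_wqFun, embG_wqFun, embG_wqFun, map_mul]
    group

theorem embG_wqHom (γ : Gamma0 (N * q)) :
    embG (N * q) (wqHom β γ) = alGL β * embG (N * q) γ * (alGL β)⁻¹ := embG_wqFun β γ

/-- the element `γ₁ = W² / q` of `Γ₀(N q)` -/
def gam1 : Gamma0 (N * q) :=
  ⟨mkSL ((q : ℤ) * β.x ^ 2 + N * β.z) (β.x + 1) (N * q * β.z * (β.x + 1)) (N * β.z + q) (by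
      have h2 := β.h
      linear_combination ((q : ℤ) * β.x - N * β.z + 1) * h2),
    mkSL_mem_Gamma0 (N * q) _ _ _ _ _ (by
      push_cast
      exact ⟨β.z * (β.x + 1), by ring⟩)⟩

/-- the scalar matrix `q` -/
noncomputable def scalQ (q : ℕ) [NeZero q] : GL (Fin 2) ℝ :=
  Matrix.GeneralLinearGroup.mkOfDetNeZero !![(q : ℝ), 0; 0, (q : ℝ)] (by
    rw [Matrix.det_fin_two_of]
    have hq : (q : ℝ) ≠ 0 := by exact_mod_cast NeZero.ne q
    simpa using hq)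

@[simp] theorem val_scalQ (q : ℕ) [NeZero q] :
    ((scalQ q : GL (Fin 2) ℝ) : Matrix (Fin 2) (Fin 2) ℝ) = !![(q : ℝ), 0; 0, (q : ℝ)] := rfl

theorem scalQ_comm (q : ℕ) [NeZero q] (A : GL (Fin 2) ℝ) : scalQ q * A = A * scalQ q := by
  apply Units.ext
  rw [Units.val_mul, Units.val_mul, val_scalQ]
  ext i j
  fin_cases i <;> fin_cases j <;> simp [Matrix.mul_apply, Fin.sum_univ_two] <;> ring

theorem alGL_mul_alGL : alGL β * alGL β = scalQ q * embG (N * q) (gam1 β) := by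
  have hR := β.hR
  rw [embG_apply]
  refine gl_ext_of_val (val_mul_fin_two (val_alGL β) (val_alGL β))
    (val_mul_fin_two (val_scalQ q) (val_mapGL _)) ?_ ?_ ?_ ?_
  all_goals
    simp only [gam1, mkSL_zero_zero, mkSL_zero_one, mkSL_one_zero, mkSL_one_one]
    push_cast
    ring

theorem wqHom_wqHom (γ : Gamma0 (N * q)) :
    wqHom β (wqHom β γ) = gam1 β * γ * (gam1 β)⁻¹ := by
  apply embG_injective (N * q)
  rw [embG_wqHom, embG_wqHom, map_mul, map_mul, map_inv]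
  have h := alGL_mul_alGL β
  have hc := scalQ_comm q (embG (N * q) γ)
  calc alGL β * (alGL β * embG (N * q) γ * (alGL β)⁻¹) * (alGL β)⁻¹
      = (alGL β * alGL β) * embG (N * q) γ * (alGL β * alGL β)⁻¹ := by group
    _ = scalQ q * embG (N * q) (gam1 β) * embG (N * q) γ *
          (scalQ q * embG (N * q) (gam1 β))⁻¹ := by rw [h]
    _ = embG (N * q) (gam1 β) * (scalQ q * embG (N * q) γ) * (scalQ q)⁻¹ *
          (embG (N * q) (gam1 β))⁻¹ := by
        rw [scalQ_comm q (embG (N * q) (gam1 β))]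
        group
    _ = embG (N * q) (gam1 β) * embG (N * q) γ * (embG (N * q) (gam1 β))⁻¹ := by
        rw [hc]
        group

theorem wqHom_injective : Function.Injective (wqHom β) := by
  intro γ γ' h
  apply embG_injective (N * q)
  have h1 := congrArg (embG (N * q)) h
  rw [embG_wqHom, embG_wqHom] at h1
  exact mul_left_cancel (mul_right_cancel h1)

theorem wqHom_surjective : Function.Surjective (wqHom β) := by
  intro γ
  refine ⟨wqHom β ((gam1 β)⁻¹ * γ * gam1 β), ?_⟩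
  rw [wqHom_wqHom]
  group

/-- **the Atkin–Lehner automorphism** of `Γ₀(N q)` at `q`: conjugation by `W` -/
noncomputable def wq : Gamma0 (N * q) ≃* Gamma0 (N * q) :=
  MulEquiv.ofBijective (wqHom β) ⟨wqHom_injective β, wqHom_surjective β⟩

@[simp] theorem wq_apply (γ : Gamma0 (N * q)) : wq β γ = wqHom β γ := rfl

theorem embG_wq (γ : Gamma0 (N * q)) :
    embG (N * q) (wq β γ) = alGL β * embG (N * q) γ * (alGL β)⁻¹ := embG_wqFun β γ

theorem wq_wq (γ : Gamma0 (N * q)) : wq β (wq β γ) = gam1 β * γ * (gam1 β)⁻¹ :=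
  wqHom_wqHom β γ

theorem wq_symm_apply (γ : Gamma0 (N * q)) :
    (wq β).symm γ = wq β ((gam1 β)⁻¹ * γ * gam1 β) := by
  rw [MulEquiv.symm_apply_eq, wq_wq]
  group

theorem embG_wq_symm (γ : Gamma0 (N * q)) :
    embG (N * q) ((wq β).symm γ) = (alGL β)⁻¹ * embG (N * q) γ * alGL β := by
  have h := embG_wq β ((wq β).symm γ)
  rw [MulEquiv.apply_symm_apply] at h
  rw [h]
  group

theorem trace_wq (γ : Gamma0 (N * q)) :
    (((wq β γ : Gamma0 (N * q)) : SL(2, ℤ)) : Matrix (Fin 2) (Fin 2) ℤ).trace =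
      (((γ : Gamma0 (N * q)) : SL(2, ℤ)) : Matrix (Fin 2) (Fin 2) ℤ).trace := by
  show ((alSL β γ : SL(2, ℤ)) : Matrix (Fin 2) (Fin 2) ℤ).trace = _
  rw [Matrix.trace_fin_two, Matrix.trace_fin_two]
  have h2 := β.h
  show (alSL β γ) 0 0 + (alSL β γ) 1 1 = (γ : SL(2, ℤ)) 0 0 + (γ : SL(2, ℤ)) 1 1
  rw [alSL_zero_zero, alSL_one_one]
  linear_combination ((γ : SL(2, ℤ)) 0 0 + (γ : SL(2, ℤ)) 1 1) * h2

section Hom

open ModularCurve.Period

variable (M : Type*) [AddCommGroup M]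

/-- the Atkin–Lehner operator `y ↦ y ∘ wq` on `Hom(Γ₀(N q), M)` -/
noncomputable def wHom : (Additive (Gamma0 (N * q)) →+ M) →+ (Additive (Gamma0 (N * q)) →+ M) where
  toFun y := y.comp (MonoidHom.toAdditive (wq β).toMonoidHom)
  map_zero' := by ext; simp
  map_add' y y' := by ext; simp

variable {M}

@[simp] theorem wHom_apply (y : Additive (Gamma0 (N * q)) →+ M) (γ : Gamma0 (N * q)) :
    wHom β M y (Additive.ofMul γ) = y (Additive.ofMul (wq β γ)) := rfl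

/-- `w` is an involution on `Hom(Γ₀(N q), M)` -/
theorem wHom_wHom (y : Additive (Gamma0 (N * q)) →+ M) : wHom β M (wHom β M y) = y := by
  refine AddMonoidHom.ext fun γ' => ?_
  obtain ⟨γ, rfl⟩ := Additive.ofMul.surjective γ'
  rw [wHom_apply, wHom_apply, wq_wq, ofMul_mul, ofMul_mul, ofMul_inv, map_add, map_add, map_neg]
  abel

theorem wHom_apply_symm (y : Additive (Gamma0 (N * q)) →+ M) (γ : Gamma0 (N * q)) :
    wHom β M y (Additive.ofMul ((wq β).symm γ)) = y (Additive.ofMul γ) := by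
  rw [wHom_apply, MulEquiv.apply_symm_apply]

theorem wq_gam1 : wq β (gam1 β) = gam1 β := by
  apply embG_injective (N * q)
  rw [embG_wq]
  have h2 := alGL_mul_alGL β
  have h3 : embG (N * q) (gam1 β) = (scalQ q)⁻¹ * (alGL β * alGL β) := by
    rw [h2]; group
  rw [h3]
  have hc := scalQ_comm q (alGL β)
  have hc' : alGL β * (scalQ q)⁻¹ = (scalQ q)⁻¹ * alGL β := by
    rw [eq_inv_mul_iff_mul_eq, ← mul_assoc, hc, mul_assoc, mul_inv_cancel, mul_one]
  calc alGL β * ((scalQ q)⁻¹ * (alGL β * alGL β)) * (alGL β)⁻¹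
      = (alGL β * (scalQ q)⁻¹) * alGL β := by group
    _ = (scalQ q)⁻¹ * (alGL β * alGL β) := by rw [hc']; group

/-- `y ∘ wq⁻¹ = y ∘ wq` -/
theorem apply_wq_symm (y : Additive (Gamma0 (N * q)) →+ M) (γ : Gamma0 (N * q)) :
    y (Additive.ofMul ((wq β).symm γ)) = y (Additive.ofMul (wq β γ)) := by
  rw [wq_symm_apply, map_mul (wq β), map_mul (wq β), map_inv (wq β), wq_gam1, ofMul_mul, ofMul_mul,
    ofMul_inv, map_add, map_add, map_neg]
  abel

theorem wHom_mem_parabolicHoms (R : Type*) [Semiring R] [Module R M]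
    {y : Additive (Gamma0 (N * q)) →+ M} (hy : y ∈ parabolicHoms R (Gamma0 (N * q)) M) :
    wHom β M y ∈ parabolicHoms R (Gamma0 (N * q)) M := by
  rw [mem_parabolicHoms_iff] at hy ⊢
  intro γ hγ
  rw [wHom_apply]
  refine hy _ ?_
  rw [trace_wq]
  exact hγ

/-- naturality of `w` in the coefficients -/
theorem wHom_comp {M' : Type*} [AddCommGroup M'] (f : M →+ M')
    (y : Additive (Gamma0 (N * q)) →+ M) : wHom β M' (f.comp y) = f.comp (wHom β M y) := rfl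

theorem wHom_smul {R : Type*} [Monoid R] [DistribMulAction R M] (r : R)
    (y : Additive (Gamma0 (N * q)) →+ M) : wHom β M (r • y) = r • wHom β M y := rfl

theorem wHom_injective : Function.Injective (wHom β M) := fun y y' h => by
  rw [← wHom_wHom β y, h, wHom_wHom]

/-- the Atkin–Lehner involution `w_q` on the lattice `Λ(N q) = Hom_par(Γ₀(N q), ℤ)` -/
noncomputable def wLam : Lam (N * q) →ₗ[ℤ] Lam (N * q) :=
  (wHom β ℤ).toIntLinearMap.restrict (fun _ hy => wHom_mem_parabolicHoms β ℤ hy)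

@[simp] theorem coe_wLam_apply (lam : Lam (N * q)) :
    ((wLam β lam : Lam (N * q)) : Additive (Gamma0 (N * q)) →+ ℤ) = wHom β ℤ lam := rfl

@[simp] theorem wLam_wLam (lam : Lam (N * q)) : wLam β (wLam β lam) = lam := by
  apply Subtype.ext
  rw [coe_wLam_apply, coe_wLam_apply, wHom_wHom]

end Hom


section Decomp

/-- the inclusion `Γ₀(N q) → Γ₀(N)` -/
def inclQ (N q : ℕ) : Gamma0 (N * q) →* Gamma0 N where
  toFun γ := ⟨(γ : SL(2, ℤ)), by
    have h := gamma0_dvd (N * q) γ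
    rw [Gamma0_mem, ZMod.intCast_zmod_eq_zero_iff_dvd]
    have : (N : ℤ) ∣ ((N * q : ℕ) : ℤ) := ⟨q, by push_cast; ring⟩
    exact this.trans h⟩
  map_one' := rfl
  map_mul' _ _ := rfl

@[simp] theorem coe_inclQ (γ : Gamma0 (N * q)) : ((inclQ N q γ : Gamma0 N) : SL(2, ℤ)) = γ := rfl

@[simp] theorem embG_inclQ (γ : Gamma0 (N * q)) : embG N (inclQ N q γ) = embG (N * q) γ := rfl

/-- `γ₀ = [x, 1; N z, q] ∈ Γ₀(N)` with `W = γ₀ · diag(q, 1)` -/
def gam0 : Gamma0 N :=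
  mkGamma0 N β.x 1 (N * β.z) q (by linear_combination β.h) (dvd_mul_right _ _)

theorem alGL_eq_gam0_mul : alGL β = embG N (gam0 β) * heckeDiagMatrix q := by
  refine gl_ext_of_val (val_alGL β)
    (val_mul_fin_two (val_embG_mkGamma0 N _ _ _ _ _ _) (val_heckeDiagMatrix (NeZero.ne q)))
    ?_ ?_ ?_ ?_ <;> push_cast <;> ring

/-- the `δ`-conjugate `[a, q b; c / q, d] ∈ Γ₀(N)` of `[a, b; c, d] ∈ Γ₀(N q)`, `δ = diag(q,1)` -/
def cDeltaFun (γ : Gamma0 (N * q)) : Gamma0 N :=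
  mkGamma0 N ((γ : SL(2, ℤ)) 0 0) (q * (γ : SL(2, ℤ)) 0 1) (N * cq γ) ((γ : SL(2, ℤ)) 1 1)
    (by linear_combination det_eq' γ) (dvd_mul_right _ _)

theorem embG_cDeltaFun (γ : Gamma0 (N * q)) :
    embG N (cDeltaFun γ) =
      heckeDiagMatrix q * embG (N * q) γ * (heckeDiagMatrix q)⁻¹ := by
  rw [eq_mul_inv_iff_mul_eq]
  have hc : (((γ : SL(2, ℤ)) 1 0 : ℤ) : ℝ) = (N : ℝ) * (q : ℝ) * (cq γ : ℝ) := by
    exact_mod_cast c_eq γ
  rw [embG_apply (N * q)]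
  refine gl_ext_of_val
    (val_mul_fin_two (val_embG_mkGamma0 N _ _ _ _ _ _) (val_heckeDiagMatrix (NeZero.ne q)))
    (val_mul_fin_two (val_heckeDiagMatrix (NeZero.ne q)) (val_mapGL _)) ?_ ?_ ?_ ?_
  · push_cast; ring
  · push_cast; ring
  · push_cast; rw [hc]; ring
  · push_cast; ring

/-- conjugation by `δ = diag(q, 1)` as a homomorphism `Γ₀(N q) → Γ₀(N)` -/
def cDelta : Gamma0 (N * q) →* Gamma0 N where
  toFun := cDeltaFun
  map_one' := by
    apply embG_injective N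
    rw [embG_cDeltaFun, map_one, map_one]
    group
  map_mul' γ γ' := by
    apply embG_injective N
    rw [map_mul, embG_cDeltaFun, embG_cDeltaFun, embG_cDeltaFun, map_mul]
    group

theorem embG_cDelta (γ : Gamma0 (N * q)) :
    embG N (cDelta (N := N) (q := q) γ) =
      heckeDiagMatrix q * embG (N * q) γ * (heckeDiagMatrix q)⁻¹ := embG_cDeltaFun γ

/-- `wq γ = γ₀ · (δ γ δ⁻¹) · γ₀⁻¹` inside `Γ₀(N)` -/
theorem inclQ_wq (γ : Gamma0 (N * q)) :
    inclQ N q (wq β γ) = gam0 β * cDelta γ * (gam0 β)⁻¹ := by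
  apply embG_injective N
  rw [embG_inclQ, embG_wq, map_mul, map_mul, map_inv, embG_cDelta, alGL_eq_gam0_mul]
  group

/-- On `Hom(Γ₀(N), M)`: `φ ∘ incl ∘ wq = φ ∘ c_δ` (inner automorphisms act trivially). -/
theorem apply_inclQ_wq {M : Type*} [AddCommGroup M] (φ : Additive (Gamma0 N) →+ M)
    (γ : Gamma0 (N * q)) :
    φ (Additive.ofMul (inclQ N q (wq β γ))) = φ (Additive.ofMul (cDelta γ)) := by
  rw [inclQ_wq, ofMul_mul, ofMul_mul, ofMul_inv, map_add, map_add, map_neg]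
  abel

/-- `h_k = [q x, 1; N (z − q k x), 1 − N k] ∈ Γ₀(N)` with `β*_k · W = q · h_k` -/
def hk (k : ℕ) : Gamma0 N :=
  mkGamma0 N ((q : ℤ) * β.x) 1 (N * (β.z - q * k * β.x)) (1 - N * k)
    (by linear_combination β.h) (dvd_mul_right _ _)

theorem starMatrix_mul_alGL (k : ℕ) :
    starMatrix (N * q) q k * alGL β = scalQ q * embG N (hk β k) := by
  refine gl_ext_of_val (val_mul_fin_two (val_starMatrix (N * q) q k) (val_alGL β))
    (val_mul_fin_two (val_scalQ q) (val_embG_mkGamma0 N _ _ _ _ _ _)) ?_ ?_ ?_ ?_ <;>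
    push_cast <;> ring

theorem not_dvd_hk (hq1 : q ≠ 1) (k : ℕ) : ¬ (q : ℤ) ∣ ((hk β k : Gamma0 N) : SL(2, ℤ)) 1 0 := by
  intro h
  have h1 : ((hk β k : Gamma0 N) : SL(2, ℤ)) 1 0 = N * (β.z - q * k * β.x) := rfl
  rw [h1] at h
  have h2 : (q : ℤ) ∣ 1 := by
    have h3 : (q : ℤ) ∣ (q : ℤ) * β.x - ((N : ℤ) * (β.z - q * k * β.x) + q * (N * k * β.x)) :=
      Dvd.dvd.sub (dvd_mul_right _ _) (Dvd.dvd.add h (dvd_mul_right _ _))
    have h4 : (q : ℤ) * β.x - ((N : ℤ) * (β.z - q * k * β.x) + q * (N * k * β.x)) = 1 := by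
      linear_combination β.h
    rwa [h4] at h3
  have h5 : q ∣ 1 := by exact_mod_cast h2
  exact hq1 (Nat.dvd_one.mp h5)

end Decomp

end Fermat.Agent.LR.ALQ
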