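/-
Program M, node B (helper4): the degeneracy maps on the lattices `Λ(N) = Hom_par(Γ₀(N), ℤ)`.

* `ALData.ofBez β` : the Atkin–Lehner datum of helper28's `ALQ.wq β`; `alData N q hq hqN` (a choice);
* `A1Lam A2Lam : Lam N →ₗ[ℤ] Lam (N * q)`, `B1Lam B2Lam : Lam (N * q) →ₗ[ℤ] Lam N`, `iLam`, `jLam`;
* `B1Lam_A1Lam`, `B2Lam_A2Lam` (`= q + 1`), `B1Lam_A2Lam`, `B2Lam_A1Lam` (`= TLam N q`),
  `jLam_iLam`;
* pointwise descriptions `A1Lam_apply_of_coe_eq` (restriction) and `A2Lam_apply_of_conj`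
  (restriction composed with the conjugation `[a, b; c, d] ↦ [a, q b; c / q, d]`).
-/
import Mathlib
import Fermat.Agent.LR.DegDelta
import Fermat.Agent.LR.AtkinLehnerQ

set_option autoImplicit false
set_option linter.unusedSectionVars false
set_option linter.unusedSimpArgs false
set_option linter.style.haveILetI false
set_option linter.unusedVariables false

namespace Fermat.Agent.LR.Deg

open Matrix.SpecialLinearGroup CongruenceSubgroup ModularForm Fermat.Agent.Jac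
open scoped MatrixGroups
open P2MW.S_ModularForm_heckeT_slash_eq_self_of_mem_Gamma0.ModularForm.HeckeSlashInvariance
open ModularCurve.Period

section OfBez

variable {N q : ℕ} [NeZero N] [NeZero q] (β : ALQ.Bez N q)

/-- the Atkin–Lehner datum attached to Bezout data (helper28's `ALQ.wq β`) -/
noncomputable def ALData.ofBez : ALData N q where
  γ₀ := ALQ.gam0 β
  wq := (ALQ.wq β).toMonoidHom
  hwq γ' := by
    rw [← ALQ.alGL_eq_gam0_mul]
    show ALQ.alGL β * embG (N * q) γ' = embG (N * q) (ALQ.wq β γ') * ALQ.alGL β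
    rw [ALQ.embG_wq, inv_mul_cancel_right]
  hinv γ' := ⟨ALQ.gam1 β, ALQ.wq_wq β γ'⟩

@[simp] theorem ALData.ofBez_wq (γ' : Gamma0 (N * q)) :
    (ALData.ofBez β).wq γ' = ALQ.wq β γ' := rfl

theorem ALData.ofBez_W : (ALData.ofBez β).W = ALQ.alGL β :=
  (ALQ.alGL_eq_gam0_mul β).symm

theorem ALData.ofBez_wOp {M : Type*} [AddCommGroup M] :
    (ALData.ofBez β).wOp M = ALQ.wHom β M := by
  refine AddMonoidHom.ext fun ψ => AddMonoidHom.ext fun γ => ?_
  obtain ⟨γ', rfl⟩ := Additive.ofMul.surjective γ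
  rw [ALData.wOp_apply, ALQ.wHom_apply]
  rfl

/-- `A2 = w ∘ A1` is exactly `φ ↦ φ ∘ c_δ`, `c_δ [a, b; c, d] = [a, q b; c / q, d]`. -/
theorem ALData.ofBez_A2_apply {M : Type*} [AddCommGroup M] (φ : Additive (Gamma0 N) →+ M)
    (γ' : Gamma0 (N * q)) :
    (ALData.ofBez β).A2 M φ (Additive.ofMul γ') = φ (Additive.ofMul (ALQ.cDelta γ')) := by
  rw [ALData.A2_apply]
  exact ALQ.apply_inclQ_wq β φ γ'

end OfBez

section Canonical

variable (N q : ℕ) [NeZero N] (hq : q.Prime) (hqN : ¬ q ∣ N)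

/-- a Bezout datum for `q ∤ N` (by choice) -/
noncomputable def bez : ALQ.Bez N q :=
  Classical.choice (ALQ.nonempty_bez ((Nat.Prime.coprime_iff_not_dvd hq).mpr hqN))

/-- the Atkin–Lehner datum at `q` of level `N q` (by choice of Bezout coefficients) -/
noncomputable def alData : ALData N q :=
  haveI : NeZero q := ⟨hq.ne_zero⟩
  ALData.ofBez (bez N q hq hqN)

theorem alData_eq :
    alData N q hq hqN = (haveI : NeZero q := ⟨hq.ne_zero⟩; ALData.ofBez (bez N q hq hqN)) := rfl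

end Canonical

section LamMaps

variable {N q : ℕ} [NeZero N] (A : ALData N q) (hq : q.Prime) (hqN : ¬ q ∣ N)

variable (N q) in
/-- the restriction on the lattices -/
noncomputable def A1Lam : Lam N →ₗ[ℤ] Lam (N * q) :=
  ((A1 N q ℤ).toIntLinearMap.domRestrict (Lam N)).codRestrict (Lam (N * q))
    (fun x => A1_mem_parabolicHoms N q ℤ x.2)

/-- the second degeneracy map on the lattices -/
noncomputable def ALData.A2Lam : Lam N →ₗ[ℤ] Lam (N * q) :=
  ((A.A2 ℤ).toIntLinearMap.domRestrict (Lam N)).codRestrict (Lam (N * q))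
    (fun x => A.A2_mem_parabolicHoms ℤ x.2)

variable (N q) in
/-- the corestriction on the lattices -/
noncomputable def B1Lam : Lam (N * q) →ₗ[ℤ] Lam N :=
  ((B1 N q hq hqN ℤ).toIntLinearMap.domRestrict (Lam (N * q))).codRestrict (Lam N)
    (fun x => B1_mem_parabolicHoms N q hq hqN ℤ int_torsionFree x.2)

/-- the second corestriction on the lattices -/
noncomputable def ALData.B2Lam : Lam (N * q) →ₗ[ℤ] Lam N :=
  ((A.B2 hq hqN ℤ).toIntLinearMap.domRestrict (Lam (N * q))).codRestrict (Lam N)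
    (fun x => A.B2_mem_parabolicHoms hq hqN ℤ int_torsionFree x.2)

@[simp] theorem coe_A1Lam (x : Lam N) :
    ((A1Lam N q x : Lam (N * q)) : Additive (Gamma0 (N * q)) →+ ℤ) = A1 N q ℤ x := rfl

@[simp] theorem ALData.coe_A2Lam (x : Lam N) :
    ((A.A2Lam x : Lam (N * q)) : Additive (Gamma0 (N * q)) →+ ℤ) = A.A2 ℤ x := rfl

@[simp] theorem coe_B1Lam (y : Lam (N * q)) :
    ((B1Lam N q hq hqN y : Lam N) : Additive (Gamma0 N) →+ ℤ) = B1 N q hq hqN ℤ y := rfl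

@[simp] theorem ALData.coe_B2Lam (y : Lam (N * q)) :
    ((A.B2Lam hq hqN y : Lam N) : Additive (Gamma0 N) →+ ℤ) = A.B2 hq hqN ℤ y := rfl

/-- `i = (A1, A2) : Λ(N)² → Λ(N q)` -/
noncomputable def ALData.iLam : Lam N × Lam N →ₗ[ℤ] Lam (N * q) :=
  (A1Lam N q).coprod A.A2Lam

/-- `j = (B1, B2) : Λ(N q) → Λ(N)²` -/
noncomputable def ALData.jLam : Lam (N * q) →ₗ[ℤ] Lam N × Lam N :=
  (B1Lam N q hq hqN).prod (A.B2Lam hq hqN)

theorem ALData.iLam_apply (x y : Lam N) : A.iLam (x, y) = A1Lam N q x + A.A2Lam y := by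
  simp [ALData.iLam]

theorem ALData.jLam_apply (z : Lam (N * q)) :
    A.jLam hq hqN z = (B1Lam N q hq hqN z, A.B2Lam hq hqN z) := rfl

theorem ALData.jLam_eq_zero_iff (z : Lam (N * q)) :
    A.jLam hq hqN z = 0 ↔ B1Lam N q hq hqN z = 0 ∧ A.B2Lam hq hqN z = 0 := by
  rw [ALData.jLam_apply, Prod.mk_eq_zero]

private theorem natCast_succ_zsmul {G : Type*} [AddCommGroup G] (q : ℕ) (a : G) :
    ((q : ℤ) + 1) • a = (q + 1) • a := by
  rw [show ((q : ℤ) + 1) = ((q + 1 : ℕ) : ℤ) by push_cast; rfl, natCast_zsmul]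

theorem B1Lam_A1Lam (x : Lam N) : B1Lam N q hq hqN (A1Lam N q x) = ((q : ℤ) + 1) • x := by
  apply Subtype.ext
  rw [coe_B1Lam, coe_A1Lam, B1_A1, Submodule.coe_smul, natCast_succ_zsmul]

theorem ALData.B2Lam_A2Lam (x : Lam N) : A.B2Lam hq hqN (A.A2Lam x) = ((q : ℤ) + 1) • x := by
  apply Subtype.ext
  rw [ALData.coe_B2Lam, ALData.coe_A2Lam, ALData.B2_A2, Submodule.coe_smul, natCast_succ_zsmul]

theorem ALData.B1Lam_A2Lam (x : Lam N) : B1Lam N q hq hqN (A.A2Lam x) = TLam N ⟨q, hq⟩ x := by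
  apply Subtype.ext
  rw [coe_B1Lam, ALData.coe_A2Lam, ALData.B1_A2]
  rfl

theorem ALData.B2Lam_A1Lam (x : Lam N) : A.B2Lam hq hqN (A1Lam N q x) = TLam N ⟨q, hq⟩ x := by
  apply Subtype.ext
  rw [ALData.coe_B2Lam, coe_A1Lam, ALData.B2_A1]
  rfl

/-- **`j ∘ i = [[q + 1, T_q], [T_q, q + 1]]`.** -/
theorem ALData.jLam_iLam (x y : Lam N) :
    A.jLam hq hqN (A.iLam (x, y)) =
      (((q : ℤ) + 1) • x + TLam N ⟨q, hq⟩ y, TLam N ⟨q, hq⟩ x + ((q : ℤ) + 1) • y) := by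
  rw [ALData.iLam_apply, ALData.jLam_apply, map_add, map_add, B1Lam_A1Lam, A.B1Lam_A2Lam,
    A.B2Lam_A1Lam, A.B2Lam_A2Lam]

/-- `A1` is the restriction, pointwise. -/
theorem A1Lam_apply_of_coe_eq (a : Lam N) (γ : Gamma0 (N * q)) (γ₁ : Gamma0 N)
    (h : (γ₁ : SL(2, ℤ)) = γ) :
    (A1Lam N q a).1 (Additive.ofMul γ) = a.1 (Additive.ofMul γ₁) := by
  show A1 N q ℤ a (Additive.ofMul γ) = _
  rw [A1_apply]
  congr 2
  exact Subtype.ext h.symm

end LamMaps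

section Conj

variable {N q : ℕ} [NeZero N] [NeZero q] (β : ALQ.Bez N q)

/-- `A2` is the restriction composed with `[a, b; c, d] ↦ [a, q b; c / q, d]`, pointwise. -/
theorem ALData.ofBez_A2Lam_apply_of_conj (b : Lam N) (γ : Gamma0 (N * q)) (γ₂ : Gamma0 N)
    (h : (γ₂ : SL(2, ℤ)) 0 0 = (γ : SL(2, ℤ)) 0 0 ∧
      (γ₂ : SL(2, ℤ)) 0 1 = q * (γ : SL(2, ℤ)) 0 1 ∧
      q * (γ₂ : SL(2, ℤ)) 1 0 = (γ : SL(2, ℤ)) 1 0 ∧
      (γ₂ : SL(2, ℤ)) 1 1 = (γ : SL(2, ℤ)) 1 1) :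
    ((ALData.ofBez β).A2Lam b).1 (Additive.ofMul γ) = b.1 (Additive.ofMul γ₂) := by
  show (ALData.ofBez β).A2 ℤ b (Additive.ofMul γ) = _
  rw [ALData.ofBez_A2_apply]
  congr 2
  apply Subtype.ext
  apply Matrix.SpecialLinearGroup.ext
  obtain ⟨h00, h01, h10, h11⟩ := h
  have hq0 : (q : ℤ) ≠ 0 := by exact_mod_cast NeZero.ne q
  have hc := ALQ.c_eq γ
  intro i j
  fin_cases i <;> fin_cases j
  · exact h00.symm
  · exact h01.symm
  · show (N : ℤ) * ALQ.cq γ = (γ₂ : SL(2, ℤ)) 1 0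
    have : (q : ℤ) * ((N : ℤ) * ALQ.cq γ) = q * (γ₂ : SL(2, ℤ)) 1 0 := by
      rw [h10, hc]; ring
    exact mul_left_cancel₀ hq0 this
  · exact h11.symm

end Conj

end Fermat.Agent.LR.Deg
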