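/-
Program M (S41, level raising), node B, part (V) core (helper28): the "big cell" of
`Γ₀(N q) \ Γ₀(N)` and the identity `U_q^{*2} = 1` on the kernel of the two degeneracy maps.

With `W` the Atkin–Lehner matrix of `LR/AtkinLehnerQ.lean` and `β*_k = [q, 0; -N q k, 1]` the
representatives of `U_q^*` at level `N q` (`Jac.UStarReps`), we have `β*_k · W = q · h_k` with
`h_k ∈ Γ₀(N) ∖ Γ₀(N q)`.  The `h_k`, `k : ZMod q`, represent the `q` non-trivial cosets of
`Γ₀(N q) \ Γ₀(N)` and form a coset system `bigReps` of `Γ₀(N q)` whose transfer is `w ∘ U_q^*`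
(`bigReps_transfer`).  Consequently, for ANY additive map `B : Hom(Γ₀(N q), M) → Hom(Γ₀(N), M)`
with `res (B y) = y + w (U_q^* y)` (the corestriction, see `usq_eq_self`):
`B y = 0 → B (w y) = 0 → U_q^* (U_q^* y) = y`.
-/
import Mathlib
import Fermat.Agent.LR.AtkinLehnerQ

set_option autoImplicit false
set_option linter.unusedSectionVars false
set_option linter.unusedSimpArgs false
set_option linter.style.haveILetI false

namespace Fermat.Agent.LR.BigCell

open Matrix.SpecialLinearGroup CongruenceSubgroup ModularForm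
open scoped MatrixGroups
open Fermat.Agent.Jac Fermat.Agent.Jac.RepsDecomp Fermat.Agent.LR.ALQ

variable {N q : ℕ} [NeZero N] [NeZero q] (β : Bez N q)

/-- the coset system of `U_q^*` at level `N q` -/
noncomputable abbrev UQ (N q : ℕ) [NeZero N] [NeZero q] : CosetReps (embG (N * q)) (ZMod q) :=
  UStarReps (N * q) (Dvd.intro_left N rfl)

theorem scalQ_mul_left_cancel {A B : GL (Fin 2) ℝ} (h : scalQ q * A = scalQ q * B) : A = B :=
  mul_left_cancel h

/-- **the big-cell relation**: `h_k · γ' = u*_k(wq γ') · h_{σ k}` -/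
theorem hk_mul (γ : Gamma0 (N * q)) (k : ZMod q) :
    embG N (hk β k.val) * embG (N * q) γ =
      embG (N * q) ((UQ N q).coc (wq β γ) k) * embG N (hk β ((UQ N q).next (wq β γ) k).val) := by
  apply scalQ_mul_left_cancel (q := q)
  have hrel := (UQ N q).rel (wq β γ) k
  rw [UStarReps_rep_eq, UStarReps_rep_eq, embG_wq] at hrel
  have h1 := starMatrix_mul_alGL β k.val
  have h2 := starMatrix_mul_alGL β ((UQ N q).next (wq β γ) k).val
  calc scalQ q * (embG N (hk β k.val) * embG (N * q) γ)
      = (scalQ q * embG N (hk β k.val)) * embG (N * q) γ := by group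
    _ = starMatrix (N * q) q k.val * alGL β * embG (N * q) γ := by rw [h1]
    _ = starMatrix (N * q) q k.val * (alGL β * embG (N * q) γ * (alGL β)⁻¹) * alGL β := by group
    _ = embG (N * q) ((UQ N q).coc (wq β γ) k) *
          starMatrix (N * q) q ((UQ N q).next (wq β γ) k).val * alGL β := by rw [hrel]
    _ = embG (N * q) ((UQ N q).coc (wq β γ) k) *
          (starMatrix (N * q) q ((UQ N q).next (wq β γ) k).val * alGL β) := by group
    _ = embG (N * q) ((UQ N q).coc (wq β γ) k) *
          (scalQ q * embG N (hk β ((UQ N q).next (wq β γ) k).val)) := by rw [h2]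
    _ = scalQ q * (embG (N * q) ((UQ N q).coc (wq β γ) k) *
          embG N (hk β ((UQ N q).next (wq β γ) k).val)) := by
        rw [← mul_assoc, ← scalQ_comm q, mul_assoc]

/-- the `h_k` lie in pairwise distinct left cosets of `Γ₀(N q)` -/
theorem hk_distinct (k j : ZMod q) (γ : Gamma0 (N * q))
    (h : embG N (hk β k.val) = embG (N * q) γ * embG N (hk β j.val)) : k = j := by
  refine (UQ N q).distinct k j γ ?_
  rw [UStarReps_rep_eq, UStarReps_rep_eq]
  have h1 := starMatrix_mul_alGL β k.val
  have h2 := starMatrix_mul_alGL β j.val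
  have e1 : starMatrix (N * q) q k.val = scalQ q * embG N (hk β k.val) * (alGL β)⁻¹ := by
    rw [← h1]; group
  have e2 : starMatrix (N * q) q j.val = scalQ q * embG N (hk β j.val) * (alGL β)⁻¹ := by
    rw [← h2]; group
  rw [e1, e2, h, ← mul_assoc, ← mul_assoc, scalQ_comm q (embG (N * q) γ)]
  group

/-- **the big cell** of `Γ₀(N q) \ Γ₀(N)` as a coset system of `Γ₀(N q)` -/
noncomputable def bigReps : CosetReps (embG (N * q)) (ZMod q) where
  rep k := embG N (hk β k.val)
  emb_injective := embG_injective (N * q)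
  stable γ k := ⟨(UQ N q).coc (wq β γ) k, (UQ N q).next (wq β γ) k, hk_mul β γ k⟩
  distinct k j γ h := hk_distinct β k j γ h

@[simp] theorem bigReps_rep (k : ZMod q) : (bigReps β).rep k = embG N (hk β k.val) := rfl

variable {M : Type*} [AddCommGroup M]

/-- the transfer of the big cell is `w ∘ U_q^*` -/
theorem bigReps_transfer (y : Additive (Gamma0 (N * q)) →+ M) :
    (bigReps β).transfer y = wHom β M ((UQ N q).transfer y) := by
  refine AddMonoidHom.ext fun γ' => ?_
  obtain ⟨γ, rfl⟩ := Additive.ofMul.surjective γ'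
  rw [(bigReps β).transfer_apply_of_rel y γ _ _ (fun k => hk_mul β γ k), wHom_apply,
    CosetReps.transfer_apply]

/-- `U_q^*` of `heckeTransfer` at level `N q` is the transfer of `UQ` -/
theorem heckeTransfer_eq_UQ (hq : q.Prime) :
    haveI : NeZero (N * q) := ⟨Nat.mul_ne_zero (NeZero.ne N) (NeZero.ne q)⟩
    (heckeTransfer (N * q) ⟨q, hq⟩ M : (Additive (Gamma0 (N * q)) →+ M) →+ _) =
      (UQ N q).transfer :=
  heckeTransfer_of_dvd (N := N * q) (l := ⟨q, hq⟩) M (Dvd.intro_left N rfl)

/-- **`U_q^{*2} = 1` on the kernel of both degeneracy maps**, abstract form: `B` is any additive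
map with `res (B y) = y + w (U_q^* y)` (the corestriction `Hom(Γ₀(N q), M) → Hom(Γ₀(N), M)`); the
second degeneracy map is `B ∘ w`. -/
theorem usq_eq_self {H : Type*} [AddCommGroup H]
    (B : (Additive (Gamma0 (N * q)) →+ M) →+ H)
    (res : H →+ (Additive (Gamma0 (N * q)) →+ M))
    (hstar : ∀ y, res (B y) = y + wHom β M ((UQ N q).transfer y))
    (y : Additive (Gamma0 (N * q)) →+ M) (h1 : B y = 0) (h2 : B (wHom β M y) = 0) :
    (UQ N q).transfer ((UQ N q).transfer y) = y := by
  set U := ((UQ N q).transfer : (Additive (Gamma0 (N * q)) →+ M) →+ _) with hU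
  have e1 : y + wHom β M (U y) = 0 := by rw [← hstar y, h1, map_zero]
  have e2 : wHom β M y + wHom β M (U (wHom β M y)) = 0 := by
    rw [← hstar (wHom β M y), h2, map_zero]
  -- `U y = - w y`
  have e3 : U y = -wHom β M y := by
    have := congrArg (wHom β M) e1
    rw [map_add, wHom_wHom, map_zero] at this
    exact eq_neg_of_add_eq_zero_right this
  -- `U (w y) = - y`
  have e4 : U (wHom β M y) = -y := by
    have := congrArg (wHom β M) e2
    rw [map_add, wHom_wHom, wHom_wHom, map_zero] at this
    exact eq_neg_of_add_eq_zero_right this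
  rw [e3, map_neg, e4, neg_neg]

end Fermat.Agent.LR.BigCell
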