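/-
Program M (S41, level raising), node B, part (V) (helper28): `res ∘ cor = 1 + w ∘ U_q^*` and
`U_q^{*2} = 1` on the kernel of the two degeneracy maps, for ANY realisation of the corestriction
`Hom(Γ₀(N q), M) → Hom(Γ₀(N), M)` as the transfer of a distinct coset family `C` of
`Γ₀(N q) \ Γ₀(N)` (`q + 1` elements covering `Γ₀(N)`).

* `fullFam β` : the family `{1} ∪ {h_k : k ∈ ZMod q}` of `Γ₀(N q)` with explicit cocycle;
  `fullFam_transfer : (fullFam β).transfer y = y + w (U_q^* y)`.
* `res_cor` : `(C.transfer y) ∘ incl = y + w (U_q^* y)`.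
* `usq_of_cor` : `C.transfer y = 0 → C.transfer (w y) = 0 → U_q^* (U_q^* y) = y`.
-/
import Mathlib
import Fermat.Agent.LR.CosetFam
import Fermat.Agent.LR.BigCell

set_option autoImplicit false
set_option linter.unusedSectionVars false
set_option linter.unusedSimpArgs false
set_option linter.style.haveILetI false

namespace Fermat.Agent.LR.DegUq

open Matrix.SpecialLinearGroup CongruenceSubgroup ModularForm
open scoped MatrixGroups
open Fermat.Agent.Jac Fermat.Agent.Jac.RepsDecomp Fermat.Agent.LR.ALQ Fermat.Agent.LR.BigCell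
open Fermat.Agent.LR

variable {N q : ℕ} [NeZero N] [NeZero q] (β : Bez N q)

/-- `h_k ∉ Γ₀(N q)` -/
theorem hk_ne (hq1 : q ≠ 1) (k : ℕ) (γ : Gamma0 (N * q)) :
    embG N (hk β k) ≠ embG (N * q) γ := by
  intro h
  rw [← embG_inclQ] at h
  have h1 : hk β k = inclQ N q γ := embG_injective N h
  have h2 : ((hk β k : Gamma0 N) : SL(2, ℤ)) 1 0 = (γ : SL(2, ℤ)) 1 0 := by rw [h1]; rfl
  refine not_dvd_hk β hq1 k ?_
  rw [h2]
  have : (q : ℤ) ∣ ((N * q : ℕ) : ℤ) := ⟨N, by push_cast; ring⟩
  exact this.trans (gamma0_dvd (N * q) γ)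

/-- the family `{1} ∪ {h_k}` of `Γ₀(N q)`, with its explicit cocycle -/
noncomputable def fullFam : CosetFam (embG (N * q)) (embG (N * q)) (Option (ZMod q)) where
  rep a := a.elim 1 (fun k => embG N (hk β k.val))
  coc γ a := a.elim γ (fun k => (bigReps β).coc γ k)
  next γ a := a.map ((bigReps β).next γ)
  rel γ a := by
    cases a with
    | none => simp
    | some k => exact (bigReps β).rel γ k
  next_one a := by
    cases a with
    | none => rfl
    | some k => simp
  next_mul γ γ' a := by
    cases a with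
    | none => rfl
    | some k => simp [CosetReps.next_mul]
  coc_mul γ γ' a := by
    cases a with
    | none => rfl
    | some k => simp [CosetReps.coc_mul]

@[simp] theorem fullFam_rep_none : (fullFam β).rep none = 1 := rfl
@[simp] theorem fullFam_rep_some (k : ZMod q) :
    (fullFam β).rep (some k) = embG N (hk β k.val) := rfl

variable {M : Type*} [AddCommGroup M]

theorem fullFam_transfer (y : Additive (Gamma0 (N * q)) →+ M) :
    (fullFam β).transfer y = y + wHom β M ((UQ N q).transfer y) := by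
  refine AddMonoidHom.ext fun γ' => ?_
  obtain ⟨γ, rfl⟩ := Additive.ofMul.surjective γ'
  rw [CosetFam.transfer_apply, Fintype.sum_option, AddMonoidHom.add_apply, ← bigReps_transfer,
    CosetReps.transfer_apply]
  rfl

/-- the cosets of `fullFam` are pairwise distinct -/
theorem fullFam_distinct (hq1 : q ≠ 1) (a b : Option (ZMod q)) (γ : Gamma0 (N * q))
    (h : (fullFam β).rep a = embG (N * q) γ * (fullFam β).rep b) : a = b := by
  cases a with
  | none =>
    cases b with
    | none => rfl
    | some j =>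
      exfalso
      rw [fullFam_rep_none, fullFam_rep_some] at h
      refine hk_ne β hq1 j.val γ⁻¹ ?_
      rw [map_inv]
      exact eq_inv_of_mul_eq_one_right h.symm
  | some k =>
    cases b with
    | none =>
      exfalso
      rw [fullFam_rep_none, fullFam_rep_some, mul_one] at h
      exact hk_ne β hq1 k.val γ h
    | some j =>
      rw [fullFam_rep_some, fullFam_rep_some] at h
      rw [hk_distinct β k j γ h]

/-- the elements of `Γ₀(N)` underlying `fullFam` -/
def fullElt (a : Option (ZMod q)) : Gamma0 N := a.elim 1 (fun k => hk β k.val)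

theorem fullFam_rep_eq (a : Option (ZMod q)) : (fullFam β).rep a = embG N (fullElt β a) := by
  cases a with
  | none => simp [fullElt]
  | some k => rfl

theorem card_option_zmod : Fintype.card (Option (ZMod q)) = q + 1 := by
  rw [Fintype.card_option, ZMod.card]

section Cor

variable {κ : Type*} [Fintype κ] (C : CosetFam (embG (N * q)) (embG N) κ)

theorem one_mul_embG (γ : Gamma0 (N * q)) :
    (1 : GL (Fin 2) ℝ) * embG (N * q) γ = embG N (inclQ N q γ) * 1 := by
  rw [one_mul, mul_one, embG_inclQ]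

/-- **`res ∘ cor = 1 + w ∘ U_q^*`** for any distinct family `C` of `q + 1` representatives of
`Γ₀(N q) \ Γ₀(N)` covering `Γ₀(N)`. -/
theorem res_cor (hq1 : q ≠ 1) (hC : C.Distinct) (hcard : Fintype.card κ = q + 1)
    (hcov : ∀ g : Gamma0 N, ∃ (x : κ) (γ' : Gamma0 (N * q)),
      embG N g = embG (N * q) γ' * C.rep x)
    (y : Additive (Gamma0 (N * q)) →+ M) :
    (C.transfer y).comp (MonoidHom.toAdditive (inclQ N q)) =
      y + wHom β M ((UQ N q).transfer y) := by
  classical
  rw [← fullFam_transfer]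
  set D' := C.comp (CosetFam.ofHom (inclQ N q) (1 : GL (Fin 2) ℝ) one_mul_embG) with hD'
  have hD'tr : D'.transfer y = (C.transfer y).comp (MonoidHom.toAdditive (inclQ N q)) := by
    rw [hD', CosetFam.transfer_compFam, CosetFam.transfer_ofHom_eq]
  rw [← hD'tr]
  have hD'dist : D'.Distinct := by
    refine ⟨hC.1, ?_⟩
    rintro ⟨i, ⟨⟩⟩ ⟨j, ⟨⟩⟩ γ h
    have h' : C.rep i = embG (N * q) γ * C.rep j := by
      simpa [hD'] using h
    rw [hC.2 i j γ h']
  choose ex eg hcov' using fun a : Option (ZMod q) => hcov (fullElt β a)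
  symm
  refine congrArg (fun T : (Additive (Gamma0 (N * q)) →+ M) →+ _ => T y)
    (CosetFam.transfer_eq_of_card (M := M) (fullFam β) D' hD'dist (fullFam_distinct β hq1) ?_ 1
    (fun γ => by rw [one_mul, mul_one]) (fun a => (ex a, ())) eg ?_)
  · rw [card_option_zmod, Fintype.card_prod, hcard, Fintype.card_unit, mul_one]
  · intro a
    rw [fullFam_rep_eq, hcov' a, one_mul]
    simp [hD']

/-- **`U_q^{*2} = 1` on the kernel of both degeneracy maps** `B1 = cor = C.transfer` and
`B2 = B1 ∘ w`. -/
theorem usq_of_cor (hq1 : q ≠ 1) (hC : C.Distinct) (hcard : Fintype.card κ = q + 1)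
    (hcov : ∀ g : Gamma0 N, ∃ (x : κ) (γ' : Gamma0 (N * q)),
      embG N g = embG (N * q) γ' * C.rep x)
    (y : Additive (Gamma0 (N * q)) →+ M) (h1 : C.transfer y = 0)
    (h2 : C.transfer (wHom β M y) = 0) :
    (UQ N q).transfer ((UQ N q).transfer y) = y := by
  let res : (Additive (Gamma0 N) →+ M) →+ (Additive (Gamma0 (N * q)) →+ M) :=
    { toFun := fun φ => φ.comp (MonoidHom.toAdditive (inclQ N q))
      map_zero' := rfl
      map_add' := fun _ _ => rfl }
  exact usq_eq_self β (C.transfer : (Additive (Gamma0 (N * q)) →+ M) →+ _) res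
    (fun y => res_cor β C hq1 hC hcard hcov y) y h1 h2

/-- the same with `heckeTransfer` (`q` prime) -/
theorem heckeTransfer_sq_of_cor (hq : q.Prime) (hC : C.Distinct)
    (hcard : Fintype.card κ = q + 1)
    (hcov : ∀ g : Gamma0 N, ∃ (x : κ) (γ' : Gamma0 (N * q)),
      embG N g = embG (N * q) γ' * C.rep x)
    (y : Additive (Gamma0 (N * q)) →+ M) (h1 : C.transfer y = 0)
    (h2 : C.transfer (wHom β M y) = 0) :
    haveI : NeZero (N * q) := ⟨Nat.mul_ne_zero (NeZero.ne N) (NeZero.ne q)⟩
    heckeTransfer (N * q) ⟨q, hq⟩ M (heckeTransfer (N * q) ⟨q, hq⟩ M y) = y := by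
  haveI : NeZero (N * q) := ⟨Nat.mul_ne_zero (NeZero.ne N) (NeZero.ne q)⟩
  rw [heckeTransfer_eq_UQ hq]
  exact usq_of_cor β C hq.ne_one hC hcard hcov y h1 h2

end Cor

end Fermat.Agent.LR.DegUq
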