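/-
Program M (S41, level raising), node B, part (V), final form (helper28).

* `alData β : Deg.ALData N q` : the Atkin–Lehner datum of `LR/DegDelta.lean` attached to Bezout
  data `β : Bez N q` (`LR/AtkinLehnerQ.lean`); `wOp_alData : (alData β).wOp M = wHom β M`;
  `nonempty_alData`.
* `A1_B1 : A1 (B1 ψ) = ψ + w (U_q^* ψ)`.
* `heckeTransfer_q_sq : B1 ψ = 0 → B2 ψ = 0 → U_q^* (U_q^* ψ) = ψ`, where
  `U_q^* = heckeTransfer (N * q) ⟨q, hq⟩ M`, `B2 = B1 ∘ w`.
* `A2_apply_cDelta` : `A2 φ = φ ∘ c_δ` exactly (`c_δ` = conjugation by `diag(q, 1)`).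
-/
import Mathlib
import Fermat.Agent.LR.DegDelta
import Fermat.Agent.LR.DegUq

set_option autoImplicit false
set_option linter.unusedSectionVars false
set_option linter.unusedSimpArgs false
set_option linter.style.haveILetI false

namespace Fermat.Agent.LR.DegUqMain

open Matrix.SpecialLinearGroup CongruenceSubgroup ModularForm
open scoped MatrixGroups
open Fermat.Agent.Jac Fermat.Agent.Jac.RepsDecomp Fermat.Agent.LR.ALQ Fermat.Agent.LR.BigCell
open Fermat.Agent.LR Fermat.Agent.LR.Deg Fermat.Agent.LR.DegUq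

variable {N q : ℕ} [NeZero N] [NeZero q] (β : Bez N q)

/-- the Atkin–Lehner datum attached to Bezout data `q x − N z = 1` -/
noncomputable def alData : ALData N q where
  γ₀ := gam0 β
  wq := (wq β).toMonoidHom
  hwq γ' := by
    rw [← alGL_eq_gam0_mul]
    show alGL β * embG (N * q) γ' = embG (N * q) (wq β γ') * alGL β
    rw [embG_wq]
    group
  hinv γ' := ⟨gam1 β, wq_wq β γ'⟩

@[simp] theorem alData_wq_apply (γ : Gamma0 (N * q)) : (alData β).wq γ = wq β γ := rfl

@[simp] theorem alData_γ₀ : (alData β).γ₀ = gam0 β := rfl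

theorem alData_W : (alData β).W = alGL β := (alGL_eq_gam0_mul β).symm

variable {M : Type*} [AddCommGroup M]

theorem wOp_alData : (alData β).wOp M = wHom β M := by
  refine AddMonoidHom.ext fun ψ => AddMonoidHom.ext fun γ' => ?_
  obtain ⟨γ, rfl⟩ := Additive.ofMul.surjective γ'
  rw [ALData.wOp_apply, wHom_apply]
  rfl

theorem nonempty_alData {N q : ℕ} [NeZero N] [NeZero q] (h : Nat.Coprime q N) :
    Nonempty (ALData N q) := by
  obtain ⟨β⟩ := nonempty_bez h
  exact ⟨alData β⟩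

theorem inclHom_eq_inclQ (γ : Gamma0 (N * q)) : inclHom N q γ = inclQ N q γ := rfl

/-- `A2 φ = φ ∘ c_δ` exactly, `c_δ` the conjugation by `δ = diag(q, 1)` -/
theorem A2_apply_cDelta (φ : Additive (Gamma0 N) →+ M) (γ : Gamma0 (N * q)) :
    (alData β).A2 M φ (Additive.ofMul γ) = φ (Additive.ofMul (cDelta γ)) := by
  rw [ALData.A2_apply, alData_wq_apply, inclHom_eq_inclQ, apply_inclQ_wq]

section V

variable (hq : q.Prime) (hqN : ¬ q ∣ N)

theorem hcov_corFam (g : Gamma0 N) :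
    ∃ (x : OnePoint (ZMod q)) (γ' : Gamma0 (N * q)),
      embG N g = embG (N * q) γ' * (corFam N q hq hqN).rep x := by
  obtain ⟨x, γ', h⟩ := exists_eq_mul_sx N q hq hqN g
  refine ⟨x, γ', ?_⟩
  rw [h, map_mul, embG_inclHom, corFam_rep]

/-- **`res ∘ cor = 1 + w ∘ U_q^*`** -/
theorem A1_B1 (ψ : Additive (Gamma0 (N * q)) →+ M) :
    A1 N q M (B1 N q hq hqN M ψ) =
      ψ + wHom β M (heckeTransfer (N * q) ⟨q, hq⟩ M ψ) := by
  rw [A1_eq_comp, B1_eq, heckeTransfer_eq_UQ hq]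
  exact res_cor β (corFam N q hq hqN) hq.ne_one (corFam_distinct N q hq hqN)
    (card_onePoint_zmod q) (hcov_corFam hq hqN) ψ

/-- **`U_q^{*2} = 1` on `ker B1 ∩ ker B2`** (coefficient-general form). -/
theorem heckeTransfer_q_sq (ψ : Additive (Gamma0 (N * q)) →+ M)
    (h1 : B1 N q hq hqN M ψ = 0) (h2 : (alData β).B2 hq hqN M ψ = 0) :
    heckeTransfer (N * q) ⟨q, hq⟩ M (heckeTransfer (N * q) ⟨q, hq⟩ M ψ) = ψ := by
  rw [ALData.B2_apply', wOp_alData, B1_eq] at h2
  rw [B1_eq] at h1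
  exact heckeTransfer_sq_of_cor β (corFam N q hq hqN) hq (corFam_distinct N q hq hqN)
    (card_onePoint_zmod q) (hcov_corFam hq hqN) ψ h1 h2

/-- on the kernel of `B1`: `U_q^* ψ = − w ψ` -/
theorem heckeTransfer_q_eq_neg_w (ψ : Additive (Gamma0 (N * q)) →+ M)
    (h1 : B1 N q hq hqN M ψ = 0) :
    heckeTransfer (N * q) ⟨q, hq⟩ M ψ = -wHom β M ψ := by
  have e1 := A1_B1 β hq hqN ψ
  rw [h1, map_zero] at e1
  have := congrArg (wHom β M) e1
  rw [map_add, wHom_wHom, map_zero] at this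
  exact eq_neg_of_add_eq_zero_right this.symm

end V

end Fermat.Agent.LR.DegUqMain
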