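/-
Program M (S41, level raising), node B, part (V), export shape requested by the node lead
(helper28): `U_q^{*2} = 1` on `ker B1 ∩ ker (B1 ∘ w)` with `w = wHom β M` of
`LR/AtkinLehnerQ.lean`, and the `Lam`-level version.
-/
import Mathlib
import Fermat.Agent.LR.DegUqMain

set_option autoImplicit false
set_option linter.unusedSectionVars false
set_option linter.style.haveILetI false

namespace Fermat.Agent.LR.DegUqExport

open Matrix.SpecialLinearGroup CongruenceSubgroup ModularForm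
open scoped MatrixGroups
open Fermat.Agent.Jac Fermat.Agent.LR.ALQ Fermat.Agent.LR.Deg Fermat.Agent.LR.DegUqMain

variable {N q : ℕ} [NeZero N] [NeZero q] (β : Bez N q) (hq : q.Prime) (hqN : ¬ q ∣ N)
  {M : Type*} [AddCommGroup M]

/-- **`U_q^{*2} = 1` on `ker B1 ∩ ker (B1 ∘ w)`**, `w = wHom β M`. -/
theorem heckeTransfer_q_sq_of_wHom (ψ : Additive (Gamma0 (N * q)) →+ M)
    (h1 : B1 N q hq hqN M ψ = 0) (h2 : B1 N q hq hqN M (wHom β M ψ) = 0) :
    heckeTransfer (N * q) ⟨q, hq⟩ M (heckeTransfer (N * q) ⟨q, hq⟩ M ψ) = ψ := by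
  refine heckeTransfer_q_sq β hq hqN ψ h1 ?_
  rw [ALData.B2_apply', wOp_alData]
  exact h2

/-- the same for an arbitrary Atkin–Lehner datum whose operator is `wHom β M` -/
theorem heckeTransfer_q_sq_of_ALData (A : ALData N q) (hA : A.wOp M = wHom β M)
    (ψ : Additive (Gamma0 (N * q)) →+ M)
    (h1 : B1 N q hq hqN M ψ = 0) (h2 : A.B2 hq hqN M ψ = 0) :
    heckeTransfer (N * q) ⟨q, hq⟩ M (heckeTransfer (N * q) ⟨q, hq⟩ M ψ) = ψ := by
  refine heckeTransfer_q_sq_of_wHom β hq hqN ψ h1 ?_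
  rw [← hA]
  exact h2

/-- **`Lam`-level version**: `(TLam (N q) q)² z = z` for `z ∈ Λ(N q)` killed by `B1` and
`B1 ∘ w`. -/
theorem TLam_q_sq (z : Lam (N * q))
    (h1 : B1 N q hq hqN ℤ (z : Additive (Gamma0 (N * q)) →+ ℤ) = 0)
    (h2 : B1 N q hq hqN ℤ (wHom β ℤ (z : Additive (Gamma0 (N * q)) →+ ℤ)) = 0) :
    TLam (N * q) ⟨q, hq⟩ (TLam (N * q) ⟨q, hq⟩ z) = z := by
  apply Subtype.ext
  rw [coe_TLam_apply, coe_TLam_apply]
  exact heckeTransfer_q_sq_of_wHom β hq hqN _ h1 h2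

end Fermat.Agent.LR.DegUqExport
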