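/-
Program M, node B (helper4, with helper20's `DegHecke` and helper28's `DegUqExport`): the complete
package of the degeneracy maps on the lattices `Λ(N) = Hom_par(Γ₀(N), ℤ)`, `Λ(N q)`, in the shape
consumed by `LR/S41Main.s41_of_nodes`, for the chosen Atkin–Lehner datum `alData N q hq hqN`.

* `A1L A2L : Lam N →ₗ[ℤ] Lam (N * q)`, `B1L B2L : Lam (N * q) →ₗ[ℤ] Lam N`;
* (I)  `B1L_A1L`, `B2L_A2L` (`= q + 1`), `B1L_A2L`, `B2L_A1L` (`= TLam N q`);
* (II) `A1L_TLam`, `A2L_TLam`, `B1L_TLam`, `B2L_TLam` : equivariance for EVERY prime `l ≠ q`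
  (`T_l` for `l ∤ N q`, `U_l^*` at both levels for `l ∣ N`);
* (V)  `TLam_q_sq` : `(TLam (N q) q)² x = x` if `B1L x = 0` and `B2L x = 0`;
* `node_B` : the bundle.
-/
import Mathlib
import Fermat.Agent.LR.DegLam
import Fermat.Agent.LR.DegHecke
import Fermat.Agent.LR.DegUqExport

set_option autoImplicit false
set_option linter.unusedSectionVars false
set_option linter.unusedSimpArgs false
set_option linter.style.haveILetI false
set_option linter.unusedVariables false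

namespace Fermat.Agent.LR.DegMain

open Matrix.SpecialLinearGroup CongruenceSubgroup ModularForm Fermat.Agent.Jac
open scoped MatrixGroups
open Fermat.Agent.LR.Deg

section OfBez

variable {N q : ℕ} [NeZero N] [NeZero q] (β : ALQ.Bez N q)

theorem ofBez_dvd_γ₀ : (q : ℤ) ∣ ((ALData.ofBez β).γ₀ : SL(2, ℤ)) 1 1 := by
  show (q : ℤ) ∣ (q : ℤ)
  exact dvd_refl _

theorem ofBez_wq_surjective : Function.Surjective (ALData.ofBez β).wq :=
  (ALQ.wq β).surjective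

end OfBez

section Main

variable (N q : ℕ) [NeZero N] [NeZero (N * q)] (hq : q.Prime) (hqN : ¬ q ∣ N)

/-- the restriction `Λ(N) → Λ(N q)` -/
noncomputable def A1L : Lam N →ₗ[ℤ] Lam (N * q) := A1Lam N q

/-- the second degeneracy map `Λ(N) → Λ(N q)`, `φ ↦ φ ∘ (conjugation by diag(q, 1))` -/
noncomputable def A2L : Lam N →ₗ[ℤ] Lam (N * q) := (alData N q hq hqN).A2Lam

/-- the corestriction `Λ(N q) → Λ(N)` -/
noncomputable def B1L : Lam (N * q) →ₗ[ℤ] Lam N := B1Lam N q hq hqN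

/-- the second corestriction `Λ(N q) → Λ(N)` -/
noncomputable def B2L : Lam (N * q) →ₗ[ℤ] Lam N := (alData N q hq hqN).B2Lam hq hqN

theorem A1L_eq : A1L N q = A1Lam N q := rfl
theorem A2L_eq : A2L N q hq hqN = (alData N q hq hqN).A2Lam := rfl
theorem B1L_eq : B1L N q hq hqN = B1Lam N q hq hqN := rfl
theorem B2L_eq : B2L N q hq hqN = (alData N q hq hqN).B2Lam hq hqN := rfl

theorem B1L_A1L (x : Lam N) : B1L N q hq hqN (A1L N q x) = ((q : ℤ) + 1) • x :=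
  B1Lam_A1Lam hq hqN x

theorem B2L_A2L (x : Lam N) : B2L N q hq hqN (A2L N q hq hqN x) = ((q : ℤ) + 1) • x :=
  (alData N q hq hqN).B2Lam_A2Lam hq hqN x

theorem B1L_A2L (x : Lam N) : B1L N q hq hqN (A2L N q hq hqN x) = TLam N ⟨q, hq⟩ x :=
  (alData N q hq hqN).B1Lam_A2Lam hq hqN x

theorem B2L_A1L (x : Lam N) : B2L N q hq hqN (A1L N q x) = TLam N ⟨q, hq⟩ x :=
  (alData N q hq hqN).B2Lam_A1Lam hq hqN x

theorem alData_dvd_γ₀ : (q : ℤ) ∣ ((alData N q hq hqN).γ₀ : SL(2, ℤ)) 1 1 := by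
  haveI : NeZero q := ⟨hq.ne_zero⟩
  exact ofBez_dvd_γ₀ (bez N q hq hqN)

theorem alData_wq_surjective : Function.Surjective (alData N q hq hqN).wq := by
  haveI : NeZero q := ⟨hq.ne_zero⟩
  exact ofBez_wq_surjective (bez N q hq hqN)

include hq hqN in
/-- (II) for `A1`, every prime `l ≠ q` -/
theorem A1L_TLam (l : Nat.Primes) (hl : (l : ℕ) ≠ q) (x : Lam N) :
    A1L N q (TLam N l x) = TLam (N * q) l (A1L N q x) := by
  apply Subtype.ext
  exact (DegHecke.heckeTransfer_A1 N q hq hqN l hl (x : Additive (Gamma0 N) →+ ℤ)).symm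

/-- (II) for `A2`, every prime `l ≠ q` -/
theorem A2L_TLam (l : Nat.Primes) (hl : (l : ℕ) ≠ q) (x : Lam N) :
    A2L N q hq hqN (TLam N l x) = TLam (N * q) l (A2L N q hq hqN x) := by
  apply Subtype.ext
  exact (DegHecke.heckeTransfer_A2 N q hq hqN (alData N q hq hqN) (alData_dvd_γ₀ N q hq hqN)
    (alData_wq_surjective N q hq hqN) l hl (x : Additive (Gamma0 N) →+ ℤ)).symm

/-- (II) for `B1`, every prime `l ≠ q` -/
theorem B1L_TLam (l : Nat.Primes) (hl : (l : ℕ) ≠ q) (y : Lam (N * q)) :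
    B1L N q hq hqN (TLam (N * q) l y) = TLam N l (B1L N q hq hqN y) := by
  apply Subtype.ext
  exact (DegHecke.heckeTransfer_B1 N q hq hqN l hl
    (y : Additive (Gamma0 (N * q)) →+ ℤ)).symm

/-- (II) for `B2`, every prime `l ≠ q` -/
theorem B2L_TLam (l : Nat.Primes) (hl : (l : ℕ) ≠ q) (y : Lam (N * q)) :
    B2L N q hq hqN (TLam (N * q) l y) = TLam N l (B2L N q hq hqN y) := by
  apply Subtype.ext
  exact (DegHecke.heckeTransfer_B2 N q hq hqN (alData N q hq hqN) (alData_dvd_γ₀ N q hq hqN)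
    (alData_wq_surjective N q hq hqN) l hl (y : Additive (Gamma0 (N * q)) →+ ℤ)).symm

/-- (V): `U_q^{*2} = 1` on `ker B1 ∩ ker B2` -/
theorem TLam_q_sq (y : Lam (N * q)) (h1 : B1L N q hq hqN y = 0) (h2 : B2L N q hq hqN y = 0) :
    TLam (N * q) ⟨q, hq⟩ (TLam (N * q) ⟨q, hq⟩ y) = y := by
  haveI : NeZero q := ⟨hq.ne_zero⟩
  apply Subtype.ext
  have h1' : B1 N q hq hqN ℤ (y : Additive (Gamma0 (N * q)) →+ ℤ) = 0 := by
    have := congrArg (fun z : Lam N => (z : Additive (Gamma0 N) →+ ℤ)) h1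
    exact this
  have h2' : (ALData.ofBez (bez N q hq hqN)).B2 hq hqN ℤ
      (y : Additive (Gamma0 (N * q)) →+ ℤ) = 0 := by
    have := congrArg (fun z : Lam N => (z : Additive (Gamma0 N) →+ ℤ)) h2
    exact this
  exact DegUqExport.heckeTransfer_q_sq_of_ALData (bez N q hq hqN) hq hqN
    (ALData.ofBez (bez N q hq hqN)) (ALData.ofBez_wOp (bez N q hq hqN))
    (y : Additive (Gamma0 (N * q)) →+ ℤ) h1' h2'

/-- the kernel of `j = (B1, B2)` is stable under `TLam (N q) l` for every prime `l ≠ q` -/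
theorem ker_stable (l : Nat.Primes) (hl : (l : ℕ) ≠ q) (y : Lam (N * q))
    (h1 : B1L N q hq hqN y = 0) (h2 : B2L N q hq hqN y = 0) :
    B1L N q hq hqN (TLam (N * q) l y) = 0 ∧ B2L N q hq hqN (TLam (N * q) l y) = 0 := by
  rw [B1L_TLam N q hq hqN l hl, B2L_TLam N q hq hqN l hl, h1, h2, map_zero]
  exact ⟨rfl, rfl⟩

include hqN in
/-- **Node B, the bundle** in the shape of the hypotheses of `S41Main.s41_of_nodes`
(with `P l := (l : ℕ) ≠ q`). -/
theorem node_B :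
    ∃ (A1 A2 : Lam N →ₗ[ℤ] Lam (N * q)) (B1 B2 : Lam (N * q) →ₗ[ℤ] Lam N),
      (∀ x, B1 (A1 x) = ((q : ℤ) + 1) • x) ∧ (∀ x, B2 (A2 x) = ((q : ℤ) + 1) • x) ∧
      (∀ x, B1 (A2 x) = TLam N ⟨q, hq⟩ x) ∧ (∀ x, B2 (A1 x) = TLam N ⟨q, hq⟩ x) ∧
      (∀ l : Nat.Primes, (l : ℕ) ≠ q → ∀ x, A1 (TLam N l x) = TLam (N * q) l (A1 x)) ∧
      (∀ l : Nat.Primes, (l : ℕ) ≠ q → ∀ x, A2 (TLam N l x) = TLam (N * q) l (A2 x)) ∧
      (∀ l : Nat.Primes, (l : ℕ) ≠ q → ∀ x, B1 (TLam (N * q) l x) = TLam N l (B1 x)) ∧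
      (∀ l : Nat.Primes, (l : ℕ) ≠ q → ∀ x, B2 (TLam (N * q) l x) = TLam N l (B2 x)) ∧
      (∀ x, B1 x = 0 → B2 x = 0 →
        TLam (N * q) ⟨q, hq⟩ (TLam (N * q) ⟨q, hq⟩ x) = x) :=
  ⟨A1L N q, A2L N q hq hqN, B1L N q hq hqN, B2L N q hq hqN,
    B1L_A1L N q hq hqN, B2L_A2L N q hq hqN, B1L_A2L N q hq hqN, B2L_A1L N q hq hqN,
    A1L_TLam N q hq hqN, A2L_TLam N q hq hqN, B1L_TLam N q hq hqN, B2L_TLam N q hq hqN,
    TLam_q_sq N q hq hqN⟩

end Main

end Fermat.Agent.LR.DegMain
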