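import Mathlib
import Fermat.Agent.S05.Kernel
import Fermat.Agent.S05.Sep
import Fermat.Agent.S05.Integral
import Fermat.Agent.S13.DFinal
import Fermat.Prelude.Def_EllipticCurve_FrobeniusTrace

/-!
# Program M, node E2 (valuation side): reduction of torsion points at a place of good reduction

`A` is a valuation subring of a field `K`, `WA` a Weierstrass curve over `A` with unit discriminant,
`WK = WA ⊗ K` the generic fibre and `Wk = WA ⊗ k` the special fibre (`k` the residue field).
We define the relation `RedTo P Q` ("the affine point `P` of `WK` has `A`-integral coordinates and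
reduces to the affine point `Q` of `Wk`") and prove, for `n` a unit of `A`:

* `exists_redTo_of_torsion`: every nonzero `n`-torsion point reduces to some point;
* `eq_of_redTo`: reduction is injective on `n`-torsion;
* `nsmul_eq_zero_of_redTo`: the reduction of an `n`-torsion point is `n`-torsion (division
  polynomials; no additivity of the reduction map is used);
* `exists_redTo_lift`: every nonzero `n`-torsion point of `Wk` is the reduction of an `n`-torsion
  point of `WK`, provided roots of polynomials with unit leading coefficient lift (`RootLift A`,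
  which holds when `K` is algebraically closed);
* `residue_decomp_apply`, `residue_frobenius_apply`: action of the decomposition group and of a
  Frobenius element on residues.
-/

set_option autoImplicit false

open WeierstrassCurve WeierstrassCurve.Affine IsLocalRing Polynomial

namespace Fermat.Agent.LR.RedFrob

variable {K : Type*} [Field K] (A : ValuationSubring K)

/-! ### Generic and special fibre -/

section Fibres

variable (WA : WeierstrassCurve A)

theorem integralCoeffs_map :
    S05.IntegralCoeffs A.valuation (WA.map (algebraMap A K)) where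
  a₁ := by simp [A.valuation_le_one]
  a₂ := by simp [A.valuation_le_one]
  a₃ := by simp [A.valuation_le_one]
  a₄ := by simp [A.valuation_le_one]
  a₆ := by simp [A.valuation_le_one]

theorem valuation_Δ_map (hΔ : IsUnit WA.Δ) :
    A.valuation (WA.map (algebraMap A K)).Δ = 1 := by
  rw [WeierstrassCurve.map_Δ]
  exact (A.valuation_eq_one_iff _).mp hΔ

theorem Δ_map_residue_ne_zero (hΔ : IsUnit WA.Δ) : (WA.map (residue A)).Δ ≠ 0 := by
  rw [WeierstrassCurve.map_Δ]
  exact (hΔ.map (residue A)).ne_zero

theorem Δ_map_ne_zero (hΔ : IsUnit WA.Δ) : (WA.map (algebraMap A K)).Δ ≠ 0 := by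
  intro h
  have := valuation_Δ_map A WA hΔ
  rw [h, map_zero] at this
  exact zero_ne_one this

end Fibres

/-! ### The reduction relation -/

variable (WA : WeierstrassCurve A) (WK : WeierstrassCurve K)
  (Wk : WeierstrassCurve (ResidueField A))

/-- `P` is an affine point of the generic fibre with `A`-integral coordinates `(x, y)`, and `Q` is
the affine point `(x̄, ȳ)` of the special fibre. -/
def RedTo (P : WK.toAffine.Point) (Q : Wk.toAffine.Point) : Prop :=
  ∃ (x y : A) (h : WK.toAffine.Nonsingular (x : K) (y : K))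
    (h' : Wk.toAffine.Nonsingular (residue A x) (residue A y)),
    P = Point.some _ _ h ∧ Q = Point.some _ _ h'

variable {A WA WK Wk}

theorem RedTo.ne_zero_left {P : WK.toAffine.Point} {Q : Wk.toAffine.Point}
    (h : RedTo A WK Wk P Q) : P ≠ 0 := by
  obtain ⟨x, y, hxy, -, rfl, -⟩ := h
  exact Point.some_ne_zero hxy

theorem RedTo.ne_zero_right {P : WK.toAffine.Point} {Q : Wk.toAffine.Point}
    (h : RedTo A WK Wk P Q) : Q ≠ 0 := by
  obtain ⟨x, y, -, hxy, -, rfl⟩ := h
  exact Point.some_ne_zero hxy

/-- Equation over `K` for integral coordinates descends to `A` and reduces. -/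
theorem nonsingular_residue (hK : WK = WA.map (algebraMap A K)) (hk : Wk = WA.map (residue A))
    (hΔ : IsUnit WA.Δ) {x y : A} (h : WK.toAffine.Equation (x : K) (y : K)) :
    Wk.toAffine.Nonsingular (residue A x) (residue A y) := by
  subst hK hk
  have hinj : Function.Injective (algebraMap A K) := Subtype.val_injective
  have hA : WA.toAffine.Equation x y :=
    (WeierstrassCurve.Affine.map_equation (W := WA.toAffine) hinj x y).mp h
  have hk' : (WA.map (residue A)).toAffine.Equation (residue A x) (residue A y) :=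
    WeierstrassCurve.Affine.Equation.map (W := WA.toAffine) (residue A) hA
  exact (equation_iff_nonsingular_of_Δ_ne_zero (Δ_map_residue_ne_zero A WA hΔ)).mp hk'

section Torsion

variable [DecidableEq K]

/-- Torsion points of order prime to the residue characteristic have integral coordinates. -/
theorem mem_of_nsmul_eq_zero (hK : WK = WA.map (algebraMap A K)) {n : ℕ}
    (hn : A.valuation (n : K) = 1) {x y : K} (h : WK.toAffine.Nonsingular x y)
    (hP : n • (Point.some x y h) = 0) : x ∈ A ∧ y ∈ A := by
  subst hK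
  have hW := integralCoeffs_map A WA
  have hx : A.valuation x ≤ 1 := by
    by_contra hx
    push Not at hx
    have h0 := S05.eq_zero_of_inKer_of_nsmul_eq_zero hW
      (P := Point.some x y h) (Or.inr ⟨x, y, h, rfl, hx⟩) hn hP
    exact Point.some_ne_zero h h0
  have hy : A.valuation y ≤ 1 := S05.y_integral hW h.1 hx
  exact ⟨(A.valuation_le_one_iff x).mp hx, (A.valuation_le_one_iff y).mp hy⟩

/-- Every nonzero `n`-torsion point (`n` a unit of `A`) reduces to a point of the special fibre. -/
theorem exists_redTo_of_torsion (hK : WK = WA.map (algebraMap A K))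
    (hk : Wk = WA.map (residue A)) (hΔ : IsUnit WA.Δ) {n : ℕ} (hn : A.valuation (n : K) = 1)
    {P : WK.toAffine.Point} (hP0 : P ≠ 0) (hP : n • P = 0) :
    ∃ Q : Wk.toAffine.Point, RedTo A WK Wk P Q := by
  rcases P with _ | ⟨x, y, h⟩
  · exact absurd rfl hP0
  · obtain ⟨hx, hy⟩ := mem_of_nsmul_eq_zero hK hn h hP
    have h' := nonsingular_residue (x := ⟨x, hx⟩) (y := ⟨y, hy⟩) hK hk hΔ h.1
    exact ⟨Point.some _ _ h', ⟨x, hx⟩, ⟨y, hy⟩, h, h', rfl, rfl⟩

/-- Reduction is injective on `n`-torsion (`n` a unit of `A`). -/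
theorem eq_of_redTo (hK : WK = WA.map (algebraMap A K)) (hΔ : IsUnit WA.Δ) {n : ℕ}
    (hn : A.valuation (n : K) = 1) {P P' : WK.toAffine.Point} {Q : Wk.toAffine.Point}
    (h : RedTo A WK Wk P Q) (h' : RedTo A WK Wk P' Q) (hP : n • P = 0) (hP' : n • P' = 0) :
    P = P' := by
  obtain ⟨x, y, hxy, hq, rfl, hQ⟩ := h
  obtain ⟨x', y', hxy', hq', rfl, hQ'⟩ := h'
  rw [hQ] at hQ'
  have hres : residue A x = residue A x' ∧ residue A y = residue A y' := by
    simpa using hQ'
  subst hK
  have hW := integralCoeffs_map A WA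
  have hΔ' := valuation_Δ_map A WA hΔ
  have hsmall : ∀ a b : A, residue A a = residue A b → A.valuation ((b : K) - (a : K)) < 1 := by
    intro a b hab
    have h0 : residue A (b - a) = 0 := by rw [map_sub, hab, sub_self]
    have hmem : b - a ∈ maximalIdeal A := (residue_eq_zero_iff _).mp h0
    have := (A.valuation_lt_one_iff (b - a)).mp hmem
    simpa using this
  have hker : S05.InKer A.valuation (WA.map (algebraMap A K))
      (Point.some _ _ hxy' - Point.some _ _ hxy) :=
    S05.sub_inKer_of_congr hW hxy hxy' (A.valuation_le_one x) (A.valuation_le_one y)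
      (hsmall x x' hres.1) (hsmall y y' hres.2)
      (S05.partial_unit_of_disc_unit hW hΔ' hxy.1 (A.valuation_le_one x) (A.valuation_le_one y))
  have hsub : n • (Point.some _ _ hxy' - Point.some _ _ hxy) = 0 := by
    rw [smul_sub, hP, hP', sub_zero]
  have := S05.eq_zero_of_inKer_of_nsmul_eq_zero hW hker hn hsub
  exact (sub_eq_zero.mp this).symm

variable [DecidableEq (ResidueField A)]

/-- The reduction of an `n`-torsion point is `n`-torsion (via the division polynomial `ΨSq n`). -/
theorem nsmul_eq_zero_of_redTo (hK : WK = WA.map (algebraMap A K))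
    (hk : Wk = WA.map (residue A)) {n : ℕ} {P : WK.toAffine.Point} {Q : Wk.toAffine.Point}
    (h : RedTo A WK Wk P Q) (hP : n • P = 0) : n • Q = 0 := by
  obtain ⟨x, y, hxy, hq, rfl, rfl⟩ := h
  subst hK hk
  have h1 : ((WA.map (algebraMap A K)).ΨSq (n : ℤ)).eval (x : K) = 0 := by
    have := (S13.torsionIffΨSq (WA.map (algebraMap A K)).toAffine (n : ℤ) _ _ hxy).mp
      (by rw [natCast_zsmul]; exact hP)
    exact this
  rw [WeierstrassCurve.map_ΨSq] at h1
  have h2 : (WA.ΨSq (n : ℤ)).eval x = 0 := by
    have hinj : Function.Injective (algebraMap A K) := Subtype.val_injective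
    apply hinj
    rw [map_zero, ← h1]
    exact (Polynomial.eval_map_apply (algebraMap A K) x).symm
  have h3 : ((WA.map (residue A)).ΨSq (n : ℤ)).eval (residue A x) = 0 := by
    rw [WeierstrassCurve.map_ΨSq, Polynomial.eval_map_apply, h2, map_zero]
  have := (S13.torsionIffΨSq (WA.map (residue A)).toAffine (n : ℤ) _ _ hq).mpr h3
  rw [natCast_zsmul] at this
  exact this

end Torsion

/-! ### Lifting torsion points -/

/-- Roots in the residue field of polynomials over `A` with unit leading coefficient lift to roots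
in `A` (true when `K` is algebraically closed). -/
def RootLift (A : ValuationSubring K) : Prop :=
  ∀ f : A[X], IsUnit f.leadingCoeff → ∀ ξ : ResidueField A, (f.map (residue A)).IsRoot ξ →
    ∃ x : A, f.IsRoot x ∧ residue A x = ξ

section Lift

variable [DecidableEq K] [DecidableEq (ResidueField A)]

/-- Every nonzero `n`-torsion point of the special fibre is the reduction of an `n`-torsion point
of the generic fibre (`n` a unit of `A`). -/
theorem exists_redTo_lift (hlift : RootLift A) (hK : WK = WA.map (algebraMap A K))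
    (hk : Wk = WA.map (residue A)) (hΔ : IsUnit WA.Δ) {n : ℕ} (hn : IsUnit (n : A))
    {Q : Wk.toAffine.Point} (hQ0 : Q ≠ 0) (hQ : n • Q = 0) :
    ∃ P : WK.toAffine.Point, RedTo A WK Wk P Q ∧ n • P = 0 := by
  rcases Q with _ | ⟨ξ, η, hq⟩
  · exact absurd rfl hQ0
  subst hK hk
  have hinj : Function.Injective (algebraMap A K) := Subtype.val_injective
  have hn0 : ((n : ℤ) : A) ≠ 0 := by
    have : (n : A) ≠ 0 := hn.ne_zero
    exact_mod_cast this
  -- lift `ξ` to a root of `ΨSq n` over `A`
  have hξ : ((WA.ΨSq (n : ℤ)).map (residue A)).IsRoot ξ := by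
    have := (S13.torsionIffΨSq (WA.map (residue A)).toAffine (n : ℤ) _ _ hq).mp
      (by rw [natCast_zsmul]; exact hQ)
    rw [WeierstrassCurve.map_ΨSq] at this
    exact this
  have hlead : IsUnit (WA.ΨSq (n : ℤ)).leadingCoeff := by
    rw [WeierstrassCurve.leadingCoeff_ΨSq WA hn0]
    have : (((n : ℤ) : A)) = (n : A) := by norm_cast
    rw [this]
    exact hn.pow 2
  obtain ⟨x, hx, hxξ⟩ := hlift _ hlead ξ hξ
  -- lift `η` to a root of the monic quadratic `Y² + (a₁ x + a₃) Y - (x³ + a₂ x² + a₄ x + a₆)`
  obtain ⟨b, hb⟩ : ∃ b : A, b = WA.a₁ * x + WA.a₃ := ⟨_, rfl⟩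
  obtain ⟨c, hc⟩ : ∃ c : A, c = -(x ^ 3 + WA.a₂ * x ^ 2 + WA.a₄ * x + WA.a₆) := ⟨_, rfl⟩
  have hgmonic : (X ^ 2 + (C b * X + C c) : A[X]).Monic :=
    monic_X_pow_add (lt_of_le_of_lt degree_linear_le (by norm_num))
  have hb' : residue A b = residue A WA.a₁ * ξ + residue A WA.a₃ := by
    rw [hb, map_add, map_mul, hxξ]
  have hc' : residue A c = -(ξ ^ 3 + residue A WA.a₂ * ξ ^ 2 + residue A WA.a₄ * ξ +
      residue A WA.a₆) := by
    rw [hc, map_neg, map_add, map_add, map_add, map_mul, map_mul, map_pow, map_pow, hxξ]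
  have hη : ((X ^ 2 + (C b * X + C c) : A[X]).map (residue A)).IsRoot η := by
    have heq := (WeierstrassCurve.Affine.equation_iff _ _).mp hq.1
    simp only [WeierstrassCurve.map_a₁, WeierstrassCurve.map_a₂, WeierstrassCurve.map_a₃,
      WeierstrassCurve.map_a₄, WeierstrassCurve.map_a₆] at heq
    rw [Polynomial.IsRoot.def, Polynomial.eval_map, eval₂_add, eval₂_add, eval₂_mul, eval₂_pow,
      eval₂_X, eval₂_C, eval₂_C, hb', hc']
    linear_combination heq
  obtain ⟨y, hy, hyη⟩ := hlift _ (by rw [hgmonic.leadingCoeff]; exact isUnit_one) η hη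
  -- the lifted point
  have hEqA : WA.toAffine.Equation x y := by
    rw [WeierstrassCurve.Affine.equation_iff]
    have := hy
    rw [Polynomial.IsRoot.def, eval_add, eval_add, eval_mul, eval_pow, eval_X, eval_C, eval_C,
      hb, hc] at this
    linear_combination this
  have hEqK : (WA.map (algebraMap A K)).toAffine.Equation (x : K) (y : K) :=
    WeierstrassCurve.Affine.Equation.map (W := WA.toAffine) (algebraMap A K) hEqA
  have hNsK : (WA.map (algebraMap A K)).toAffine.Nonsingular (x : K) (y : K) :=
    (equation_iff_nonsingular_of_Δ_ne_zero (Δ_map_ne_zero A WA hΔ)).mp hEqK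
  have hq' : (WA.map (residue A)).toAffine.Nonsingular (residue A x) (residue A y) := by
    rw [hxξ, hyη]; exact hq
  refine ⟨Point.some _ _ hNsK, ⟨x, y, hNsK, hq', rfl, ?_⟩, ?_⟩
  · simp only [hxξ, hyη]
  · have h3 : ((WA.map (algebraMap A K)).ΨSq (n : ℤ)).eval (x : K) = 0 := by
      rw [WeierstrassCurve.map_ΨSq]
      have : (algebraMap A K) x = (x : K) := rfl
      rw [← this, Polynomial.eval_map_apply, hx, map_zero]
    have := (S13.torsionIffΨSq (WA.map (algebraMap A K)).toAffine (n : ℤ) _ _ hNsK).mpr h3
    rw [natCast_zsmul] at this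
    exact this

end Lift

/-! ### Decomposition group and Frobenius on residues -/

section Frobenius

variable {K₀ : Type*} [Field K₀] [Algebra K₀ K]

theorem mem_of_mem_decomposition {σ : K ≃ₐ[K₀] K} (hσ : σ ∈ A.decompositionSubgroup K₀) {a : K}
    (ha : a ∈ A) : σ a ∈ A :=
  ((⟨σ, hσ⟩ : A.decompositionSubgroup K₀) • (⟨a, ha⟩ : A)).2

theorem residue_decomp_apply {σ : K ≃ₐ[K₀] K} (hσ : σ ∈ A.decompositionSubgroup K₀) (a : A) :
    residue A ⟨σ a, mem_of_mem_decomposition hσ a.2⟩ =
      (⟨σ, hσ⟩ : A.decompositionSubgroup K₀) • residue A a :=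
  IsLocalRing.ResidueField.residue_smul (A.decompositionSubgroup K₀) ⟨σ, hσ⟩ a

theorem residue_frobenius_apply {σ : K ≃ₐ[K₀] K} {q : ℕ} (hσ : A.IsFrobeniusAt σ q) (a : A) :
    residue A ⟨σ a, mem_of_mem_decomposition hσ.mem_decompositionSubgroup a.2⟩ =
      residue A a ^ q := by
  rw [residue_decomp_apply]
  exact hσ.smul_residue_eq _

end Frobenius

end Fermat.Agent.LR.RedFrob
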