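import Mathlib
import Fermat.Prelude.Def_FLTPrelim_Modularity

/-!
# Program M, node E2 (pieces P7, P8, E2c): the finite field side

`F` a finite field with `q` elements, `k ⊇ F` a field, `W` a Weierstrass curve over `F` and
`Wk` its base change to `k`.

* `exists_algebraMap_eq_of_pow_card_eq` : the solutions of `x ^ q = x` in `k` are the elements
  of `F`;
* `exists_rational_of_frob_fixed` (P7) : a nonsingular point of `Wk` with Frobenius-fixed
  coordinates comes from a nonsingular point of `W` over `F`;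
* `card_fixed_add_card_anti` : for `k` algebraically closed and `Δ ≠ 0`, the numbers of affine
  points `(x, y)` of `Wk` with `(x ^ q, y ^ q) = (x, y)`, resp. `= (x, negY x y)`, add up to `2 q`
  (the "twist count").
-/

set_option autoImplicit false

noncomputable section

open WeierstrassCurve WeierstrassCurve.Affine Polynomial

namespace Fermat.Agent.LR.RedFrob

/-! ### Frobenius-fixed elements -/

section FrobFixed

variable (F k : Type*) [Field F] [Fintype F] [Field k] [Algebra F k]

/-- The solutions of `x ^ #F = x` in an extension field `k` of `F` are the elements of `F`. -/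
theorem exists_algebraMap_eq_of_pow_card_eq {x : k} (hx : x ^ Fintype.card F = x) :
    ∃ x0 : F, algebraMap F k x0 = x := by
  classical
  set q := Fintype.card F with hq
  have hq1 : 1 < q := Fintype.one_lt_card
  have hP : (X ^ q - X : k[X]) ≠ 0 := FiniteField.X_pow_card_sub_X_ne_zero k hq1
  set S : Finset k := Finset.univ.image (algebraMap F k) with hS
  have hScard : S.card = q := by
    rw [hS, Finset.card_image_of_injective _ (algebraMap F k).injective, Finset.card_univ]
  have hsub : S ⊆ (X ^ q - X : k[X]).roots.toFinset := by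
    intro z hz
    obtain ⟨a, -, rfl⟩ := Finset.mem_image.mp hz
    rw [Multiset.mem_toFinset, Polynomial.mem_roots hP, Polynomial.IsRoot.def]
    simp only [Polynomial.eval_sub, Polynomial.eval_pow, Polynomial.eval_X]
    rw [← map_pow, hq, FiniteField.pow_card, sub_self]
  have hle : (X ^ q - X : k[X]).roots.toFinset.card ≤ S.card := by
    rw [hScard]
    calc (X ^ q - X : k[X]).roots.toFinset.card ≤ Multiset.card (X ^ q - X : k[X]).roots :=
          Multiset.toFinset_card_le _
      _ ≤ (X ^ q - X : k[X]).natDegree := Polynomial.card_roots' _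
      _ = q := FiniteField.X_pow_card_sub_X_natDegree_eq k hq1
  have heq := Finset.eq_of_subset_of_card_le hsub hle
  have hxmem : x ∈ (X ^ q - X : k[X]).roots.toFinset := by
    rw [Multiset.mem_toFinset, Polynomial.mem_roots hP, Polynomial.IsRoot.def]
    simp only [Polynomial.eval_sub, Polynomial.eval_pow, Polynomial.eval_X]
    rw [hx, sub_self]
  rw [← heq] at hxmem
  obtain ⟨a, -, ha⟩ := Finset.mem_image.mp hxmem
  exact ⟨a, ha⟩

/-- **P7.**  A nonsingular point of the base change to `k` whose coordinates are fixed by the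
`#F`-power Frobenius comes from a nonsingular point over `F`. -/
theorem exists_rational_of_frob_fixed (W : WeierstrassCurve F) (x y : k)
    (hxy : (W.map (algebraMap F k)).toAffine.Nonsingular x y)
    (hx : x ^ Fintype.card F = x) (hy : y ^ Fintype.card F = y) :
    ∃ (x0 y0 : F) (_ : W.toAffine.Nonsingular x0 y0),
      algebraMap F k x0 = x ∧ algebraMap F k y0 = y := by
  obtain ⟨x0, rfl⟩ := exists_algebraMap_eq_of_pow_card_eq F k hx
  obtain ⟨y0, rfl⟩ := exists_algebraMap_eq_of_pow_card_eq F k hy
  exact ⟨x0, y0, (WeierstrassCurve.Affine.map_nonsingular (W := W.toAffine)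
    (algebraMap F k).injective x0 y0).mp hxy, rfl, rfl⟩

end FrobFixed

/-! ### The fibre of the `x`-coordinate -/

section Fibre

variable {k : Type*} [Field k] [DecidableEq k] (Wk : Affine k)

/-- The (at most two) `y` with `(x, y)` on the curve. -/
def yFib (x : k) : Finset k :=
  haveI := Classical.propDecidable (∃ y, Wk.Equation x y)
  if h : ∃ y, Wk.Equation x y then {h.choose, Wk.negY x h.choose} else ∅

theorem mem_yFib {x y : k} : y ∈ yFib Wk x ↔ Wk.Equation x y := by
  unfold yFib
  split_ifs with h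
  · rw [Finset.mem_insert, Finset.mem_singleton]
    constructor
    · rintro (rfl | rfl)
      · exact h.choose_spec
      · exact (Wk.equation_neg _ _).mpr h.choose_spec
    · intro hy
      exact Y_eq_of_X_eq hy h.choose_spec rfl
  · simp only [Finset.notMem_empty, false_iff]
    exact fun hy => h ⟨y, hy⟩

omit [DecidableEq k] in
theorem exists_equation_of_isAlgClosed [IsAlgClosed k] (x : k) : ∃ y, Wk.Equation x y := by
  set g : k[X] := X ^ 2 + (C (Wk.a₁ * x + Wk.a₃) * X +
    C (-(x ^ 3 + Wk.a₂ * x ^ 2 + Wk.a₄ * x + Wk.a₆))) with hg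
  have hmon : g.Monic := by
    refine Polynomial.monic_X_pow_add (lt_of_le_of_lt (b := (1 : WithBot ℕ)) ?_ (by norm_num))
    compute_degree
  have hdeg : g.degree ≠ 0 := by
    rw [Polynomial.degree_eq_natDegree hmon.ne_zero]
    have : g.natDegree = 2 := by
      rw [hg]
      compute_degree!
    rw [this]
    norm_num
  obtain ⟨y, hy⟩ := IsAlgClosed.exists_root g hdeg
  refine ⟨y, ?_⟩
  rw [WeierstrassCurve.Affine.equation_iff]
  simp only [hg, Polynomial.IsRoot.def, Polynomial.eval_add, Polynomial.eval_pow,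
    Polynomial.eval_X, Polynomial.eval_mul, Polynomial.eval_C] at hy
  linear_combination hy

/-- The fibre has two elements counted with multiplicity. -/
theorem card_yFib_add [IsAlgClosed k] (x : k) :
    (yFib Wk x).card + ((yFib Wk x).filter (fun y => y = Wk.negY x y)).card = 2 := by
  have h := exists_equation_of_isAlgClosed Wk x
  unfold yFib
  rw [dif_pos h]
  set y1 := h.choose with hy1
  by_cases hc : y1 = Wk.negY x y1
  · rw [← hc, Finset.pair_eq_singleton, Finset.filter_singleton, if_pos hc,
      Finset.card_singleton]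
  · have hc' : ¬ Wk.negY x y1 = Wk.negY x (Wk.negY x y1) := by
      rw [negY_negY]; exact fun h' => hc h'.symm
    rw [Finset.card_pair hc, Finset.filter_insert, if_neg hc, Finset.filter_singleton,
      if_neg hc', Finset.card_empty]

end Fibre

/-! ### The twist count -/

section Twist

variable (F k : Type*) [Field F] [Fintype F] [Field k] [Algebra F k] [DecidableEq k]
  (W : WeierstrassCurve F)

omit [DecidableEq k] in
/-- The Frobenius preserves the curve (which is defined over `F`). -/
theorem equation_frob {x y : k} (h : (W.map (algebraMap F k)).toAffine.Equation x y) :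
    (W.map (algebraMap F k)).toAffine.Equation (x ^ Fintype.card F) (y ^ Fintype.card F) := by
  have h1 : ((W.map (algebraMap F k)).map
      ((FiniteField.frobeniusAlgHom F k : k →ₐ[F] k) : k →+* k)).toAffine.Equation
      (x ^ Fintype.card F) (y ^ Fintype.card F) :=
    WeierstrassCurve.Affine.Equation.map (W := (W.map (algebraMap F k)).toAffine)
      ((FiniteField.frobeniusAlgHom F k : k →ₐ[F] k) : k →+* k) h
  rw [WeierstrassCurve.map_map, AlgHom.comp_algebraMap] at h1
  exact h1

/-- Frobenius-fixed `y` over `x`. -/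
def fibP (x : k) : Finset k :=
  (yFib (W.map (algebraMap F k)).toAffine x).filter (fun y => y ^ Fintype.card F = y)

/-- Frobenius-antifixed `y` over `x`. -/
def fibM (x : k) : Finset k :=
  (yFib (W.map (algebraMap F k)).toAffine x).filter
    (fun y => y ^ Fintype.card F = (W.map (algebraMap F k)).toAffine.negY x y)

theorem card_fibP_add_card_fibM [IsAlgClosed k] {x : k} (hx : x ^ Fintype.card F = x) :
    (fibP F k W x).card + (fibM F k W x).card = 2 := by
  set Wk := (W.map (algebraMap F k)).toAffine with hWk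
  rw [← card_yFib_add Wk x, fibP, fibM, ← Finset.card_union_add_card_inter,
    ← Finset.filter_or, ← Finset.filter_and]
  congr 1
  · congr 1
    refine Finset.filter_true_of_mem fun y hy => ?_
    rw [mem_yFib] at hy
    have h2 := equation_frob F k W hy
    rw [hx] at h2
    exact Y_eq_of_X_eq h2 hy rfl
  · congr 1
    refine Finset.filter_congr fun y hy => ?_
    rw [mem_yFib] at hy
    constructor
    · rintro ⟨h1, h2⟩
      exact h1.symm.trans h2
    · intro h1
      have h2 := equation_frob F k W hy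
      rw [hx] at h2
      have h3 : y ^ Fintype.card F = y := by
        rcases Y_eq_of_X_eq h2 hy rfl with h3 | h3
        · exact h3
        · rw [h3, ← h1]
      exact ⟨h3, by rw [h3]; exact h1⟩

/-- The image of `F` in `k`. -/
def ratX : Finset k := Finset.univ.image (algebraMap F k)

theorem card_ratX : (ratX F k).card = Fintype.card F := by
  rw [ratX, Finset.card_image_of_injective _ (algebraMap F k).injective, Finset.card_univ]

theorem mem_ratX {x : k} : x ∈ ratX F k ↔ x ^ Fintype.card F = x := by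
  constructor
  · intro hx
    obtain ⟨a, -, rfl⟩ := Finset.mem_image.mp hx
    rw [← map_pow, FiniteField.pow_card]
  · intro hx
    obtain ⟨a, rfl⟩ := exists_algebraMap_eq_of_pow_card_eq F k hx
    exact Finset.mem_image_of_mem _ (Finset.mem_univ _)

/-- Affine points `(x, y)` of `Wk` with `(x ^ q, y ^ q) = (x, y)`. -/
def fixedPairs : Finset (k × k) :=
  (ratX F k).biUnion fun x => (fibP F k W x).image (Prod.mk x)

/-- Affine points `(x, y)` of `Wk` with `(x ^ q, y ^ q) = (x, negY x y)`. -/
def antiPairs : Finset (k × k) :=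
  (ratX F k).biUnion fun x => (fibM F k W x).image (Prod.mk x)

theorem mem_fixedPairs {z : k × k} : z ∈ fixedPairs F k W ↔
    (W.map (algebraMap F k)).toAffine.Equation z.1 z.2 ∧ z.1 ^ Fintype.card F = z.1 ∧
      z.2 ^ Fintype.card F = z.2 := by
  obtain ⟨x, y⟩ := z
  simp only [fixedPairs, Finset.mem_biUnion, Finset.mem_image, Prod.mk.injEq, fibP,
    Finset.mem_filter, mem_yFib, mem_ratX]
  constructor
  · rintro ⟨x', hx', y', ⟨h1, h2⟩, rfl, rfl⟩
    exact ⟨h1, hx', h2⟩
  · rintro ⟨h1, hx, h2⟩
    exact ⟨x, hx, y, ⟨h1, h2⟩, rfl, rfl⟩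

theorem mem_antiPairs {z : k × k} : z ∈ antiPairs F k W ↔
    (W.map (algebraMap F k)).toAffine.Equation z.1 z.2 ∧ z.1 ^ Fintype.card F = z.1 ∧
      z.2 ^ Fintype.card F = (W.map (algebraMap F k)).toAffine.negY z.1 z.2 := by
  obtain ⟨x, y⟩ := z
  simp only [antiPairs, Finset.mem_biUnion, Finset.mem_image, Prod.mk.injEq, fibM,
    Finset.mem_filter, mem_yFib, mem_ratX]
  constructor
  · rintro ⟨x', hx', y', ⟨h1, h2⟩, rfl, rfl⟩
    exact ⟨h1, hx', h2⟩
  · rintro ⟨h1, hx, h2⟩
    exact ⟨x, hx, y, ⟨h1, h2⟩, rfl, rfl⟩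

omit [Field k] in
theorem card_biUnion_image_mk (X : Finset k) (T : k → Finset k) :
    (X.biUnion fun x => (T x).image (Prod.mk x)).card = ∑ x ∈ X, (T x).card := by
  rw [Finset.card_biUnion]
  · refine Finset.sum_congr rfl fun x _ => ?_
    exact Finset.card_image_of_injective _ (Prod.mk_right_injective x)
  · intro x _ x' _ hne
    rw [Function.onFun, Finset.disjoint_left]
    intro z hz hz'
    obtain ⟨y, -, rfl⟩ := Finset.mem_image.mp hz
    obtain ⟨y', -, h'⟩ := Finset.mem_image.mp hz'
    exact hne (congrArg Prod.fst h').symm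

/-- **The twist count.** -/
theorem card_fixed_add_card_anti [IsAlgClosed k] :
    (fixedPairs F k W).card + (antiPairs F k W).card = 2 * Fintype.card F := by
  rw [fixedPairs, antiPairs, card_biUnion_image_mk, card_biUnion_image_mk,
    ← Finset.sum_add_distrib]
  rw [Finset.sum_congr rfl fun x hx =>
    card_fibP_add_card_fibM F k W ((mem_ratX F k).mp hx)]
  rw [Finset.sum_const, card_ratX, smul_eq_mul, mul_comm]

end Twist

/-! ### Counting points through their coordinates -/

section XY

variable {R : Type*} [CommRing R] {W' : Affine R}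

/-- The coordinates of a point. -/
def xyOpt : W'.Point → Option (R × R)
  | .zero => none
  | .some x y _ => some (x, y)

theorem xyOpt_injective : Function.Injective (xyOpt (W' := W')) := by
  rintro (_ | ⟨x₁, y₁, h₁⟩) (_ | ⟨x₂, y₂, h₂⟩) h <;>
    simp only [xyOpt, Option.some.injEq, Prod.mk.injEq, reduceCtorEq] at h
  · rfl
  · obtain ⟨rfl, rfl⟩ := h; rfl

theorem natCard_eq_ncard_xyOpt (S : Set W'.Point) : Nat.card S = (xyOpt '' S).ncard := by
  rw [Set.ncard_image_of_injective _ xyOpt_injective]
  exact Nat.card_coe_set_eq S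

theorem ncard_insert_none_image_some [DecidableEq R] (T : Finset (R × R)) :
    (insert none (some '' (T : Set (R × R))) : Set (Option (R × R))).ncard = T.card + 1 := by
  rw [Set.ncard_insert_of_notMem (by simp) (Set.Finite.image _ T.finite_toSet),
    Set.ncard_image_of_injective _ (Option.some_injective _), Set.ncard_coe_finset]

end XY

/-! ### The Frobenius on points, its fixed and antifixed subgroups -/

section Groups

variable (F k : Type*) [Field F] [Fintype F] [Field k] [Algebra F k] [DecidableEq k]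
  (W : WeierstrassCurve F)

/-- The Frobenius endomorphism of the group of `k`-points. -/
def frobPt : (W.toAffine⁄k).Point →+ (W.toAffine⁄k).Point :=
  Point.map (W' := W.toAffine) (FiniteField.frobeniusAlgHom F k)

/-- The Frobenius-fixed points. -/
def fixedSub : AddSubgroup (W.toAffine⁄k).Point :=
  (frobPt F k W - AddMonoidHom.id _).ker

/-- The Frobenius-antifixed points. -/
def antiSub : AddSubgroup (W.toAffine⁄k).Point :=
  (frobPt F k W + AddMonoidHom.id _).ker

theorem mem_fixedSub {Q : (W.toAffine⁄k).Point} : Q ∈ fixedSub F k W ↔ frobPt F k W Q = Q := by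
  rw [fixedSub, AddMonoidHom.mem_ker, AddMonoidHom.sub_apply, AddMonoidHom.id_apply, sub_eq_zero]

theorem mem_antiSub {Q : (W.toAffine⁄k).Point} : Q ∈ antiSub F k W ↔ frobPt F k W Q = -Q := by
  rw [antiSub, AddMonoidHom.mem_ker, AddMonoidHom.add_apply, AddMonoidHom.id_apply,
    add_eq_zero_iff_eq_neg]

theorem some_mem_fixedSub {x y : k} (h : (W.toAffine⁄k).Nonsingular x y) :
    Point.some x y h ∈ fixedSub F k W ↔ x ^ Fintype.card F = x ∧ y ^ Fintype.card F = y := by
  rw [mem_fixedSub, frobPt, Point.map_some, Point.some.injEq]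
  rfl

theorem some_mem_antiSub {x y : k} (h : (W.toAffine⁄k).Nonsingular x y) :
    Point.some x y h ∈ antiSub F k W ↔
      x ^ Fintype.card F = x ∧ y ^ Fintype.card F = (W.toAffine⁄k).negY x y := by
  rw [mem_antiSub, frobPt, Point.map_some, Point.neg_some, Point.some.injEq]
  rfl

theorem xyOpt_image_fixedSub (hΔ : (W.map (algebraMap F k)).Δ ≠ 0) :
    xyOpt '' (fixedSub F k W : Set (W.toAffine⁄k).Point) =
      insert none (some '' (fixedPairs F k W : Set (k × k))) := by
  ext o
  constructor
  · rintro ⟨Q, hQ, rfl⟩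
    rcases Q with _ | ⟨x, y, h⟩
    · exact Set.mem_insert _ _
    · refine Set.mem_insert_of_mem _ ⟨(x, y), ?_, rfl⟩
      have := (some_mem_fixedSub F k W h).mp hQ
      exact (mem_fixedPairs F k W).mpr ⟨h.1, this.1, this.2⟩
  · rintro (rfl | ⟨⟨x, y⟩, hz, rfl⟩)
    · exact ⟨0, zero_mem _, rfl⟩
    · obtain ⟨h1, h2, h3⟩ := (mem_fixedPairs F k W).mp hz
      have hns : (W.toAffine⁄k).Nonsingular x y :=
        (WeierstrassCurve.Affine.equation_iff_nonsingular_of_Δ_ne_zero hΔ).mp h1
      exact ⟨Point.some x y hns, (some_mem_fixedSub F k W hns).mpr ⟨h2, h3⟩, rfl⟩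

theorem xyOpt_image_antiSub (hΔ : (W.map (algebraMap F k)).Δ ≠ 0) :
    xyOpt '' (antiSub F k W : Set (W.toAffine⁄k).Point) =
      insert none (some '' (antiPairs F k W : Set (k × k))) := by
  ext o
  constructor
  · rintro ⟨Q, hQ, rfl⟩
    rcases Q with _ | ⟨x, y, h⟩
    · exact Set.mem_insert _ _
    · refine Set.mem_insert_of_mem _ ⟨(x, y), ?_, rfl⟩
      have := (some_mem_antiSub F k W h).mp hQ
      exact (mem_antiPairs F k W).mpr ⟨h.1, this.1, this.2⟩
  · rintro (rfl | ⟨⟨x, y⟩, hz, rfl⟩)
    · exact ⟨0, zero_mem _, rfl⟩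
    · obtain ⟨h1, h2, h3⟩ := (mem_antiPairs F k W).mp hz
      have hns : (W.toAffine⁄k).Nonsingular x y :=
        (WeierstrassCurve.Affine.equation_iff_nonsingular_of_Δ_ne_zero hΔ).mp h1
      exact ⟨Point.some x y hns, (some_mem_antiSub F k W hns).mpr ⟨h2, h3⟩, rfl⟩

theorem natCard_fixedSub (hΔ : (W.map (algebraMap F k)).Δ ≠ 0) :
    Nat.card (fixedSub F k W) = (fixedPairs F k W).card + 1 := by
  rw [← ncard_insert_none_image_some, ← xyOpt_image_fixedSub F k W hΔ, ← natCard_eq_ncard_xyOpt]
  rfl

theorem natCard_antiSub (hΔ : (W.map (algebraMap F k)).Δ ≠ 0) :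
    Nat.card (antiSub F k W) = (antiPairs F k W).card + 1 := by
  rw [← ncard_insert_none_image_some, ← xyOpt_image_antiSub F k W hΔ, ← natCard_eq_ncard_xyOpt]
  rfl

/-- The rational points are in bijection with the Frobenius-fixed points. -/
theorem natCard_point_eq (hΔ : (W.map (algebraMap F k)).Δ ≠ 0) :
    Nat.card W.toAffine.Point = (fixedPairs F k W).card + 1 := by
  have hinj : Function.Injective
      (Option.map (Prod.map (algebraMap F k) (algebraMap F k)) ∘ xyOpt (W' := W.toAffine)) :=
    (Option.map_injective (Function.Injective.prodMap (algebraMap F k).injective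
      (algebraMap F k).injective)).comp xyOpt_injective
  rw [← ncard_insert_none_image_some, ← Nat.card_congr (Equiv.Set.univ W.toAffine.Point),
    Nat.card_coe_set_eq, ← Set.ncard_image_of_injective _ hinj]
  congr 1
  ext o
  constructor
  · rintro ⟨Q, -, rfl⟩
    rcases Q with _ | ⟨x, y, h⟩
    · exact Set.mem_insert _ _
    · refine Set.mem_insert_of_mem _ ⟨(algebraMap F k x, algebraMap F k y), ?_, rfl⟩
      refine (mem_fixedPairs F k W).mpr ⟨?_, ?_, ?_⟩
      · exact WeierstrassCurve.Affine.Equation.map (W := W.toAffine) (algebraMap F k) h.1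
      · change algebraMap F k x ^ Fintype.card F = algebraMap F k x
        rw [← map_pow, FiniteField.pow_card]
      · change algebraMap F k y ^ Fintype.card F = algebraMap F k y
        rw [← map_pow, FiniteField.pow_card]
  · rintro (rfl | ⟨⟨x, y⟩, hz, rfl⟩)
    · exact ⟨0, Set.mem_univ _, rfl⟩
    · obtain ⟨h1, h2, h3⟩ := (mem_fixedPairs F k W).mp hz
      have hns : (W.map (algebraMap F k)).toAffine.Nonsingular x y :=
        (WeierstrassCurve.Affine.equation_iff_nonsingular_of_Δ_ne_zero hΔ).mp h1
      obtain ⟨x0, y0, h0, rfl, rfl⟩ := exists_rational_of_frob_fixed F k W x y hns h2 h3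
      exact ⟨Point.some x0 y0 h0, Set.mem_univ _, rfl⟩

omit [Fintype F] in
/-- An element of order `p` in a subgroup of the points whose cardinality is divisible by `p`. -/
theorem exists_some_mem_of_dvd_natCard {p : ℕ} [Fact p.Prime] (G : AddSubgroup (W.toAffine⁄k).Point)
    (hpos : Nat.card G ≠ 0) (hdvd : p ∣ Nat.card G) :
    ∃ (x y : k) (hq : (W.toAffine⁄k).Nonsingular x y),
      Point.some x y hq ∈ G ∧ p • Point.some x y hq = 0 := by
  have : Finite G := Nat.finite_of_card_ne_zero hpos
  obtain ⟨⟨Q, hQG⟩, hQ⟩ := exists_prime_addOrderOf_dvd_card' p hdvd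
  have hpQ : p • Q = 0 := by
    have h1 := addOrderOf_nsmul_eq_zero (⟨Q, hQG⟩ : G)
    rw [hQ] at h1
    exact congrArg Subtype.val h1
  rcases Q with _ | ⟨x, y, hq⟩
  · exfalso
    have h0 : (⟨Point.zero, hQG⟩ : G) = 0 := rfl
    rw [h0, addOrderOf_zero] at hQ
    exact (Fact.out : p.Prime).one_lt.ne hQ
  · exact ⟨x, y, hq, hQG, hpQ⟩

/-- **P8, `k`-form.**  If `p ∣ #W(F)` then there is a point of order `p` of `Wk` with
Frobenius-fixed coordinates. -/
theorem exists_fixed_of_dvd {p : ℕ} [Fact p.Prime] (hΔ : (W.map (algebraMap F k)).Δ ≠ 0)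
    (hdvd : p ∣ Nat.card W.toAffine.Point) :
    ∃ (x y : k) (hq : (W.toAffine⁄k).Nonsingular x y), p • Point.some x y hq = 0 ∧
      x ^ Fintype.card F = x ∧ y ^ Fintype.card F = y := by
  have hcard : Nat.card (fixedSub F k W) = Nat.card W.toAffine.Point := by
    rw [natCard_fixedSub F k W hΔ, natCard_point_eq F k W hΔ]
  obtain ⟨x, y, hq, hmem, htors⟩ := exists_some_mem_of_dvd_natCard (p := p) F k W
    (fixedSub F k W) (by rw [natCard_fixedSub F k W hΔ]; exact Nat.succ_ne_zero _)
    (by rw [hcard]; exact hdvd)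
  obtain ⟨hx, hy⟩ := (some_mem_fixedSub F k W hq).mp hmem
  exact ⟨x, y, hq, htors, hx, hy⟩

/-- **P8, `k`-form, converse.**  A nonzero `p`-torsion point of `Wk` with Frobenius-fixed
coordinates forces `p ∣ #W(F)`. -/
theorem dvd_of_fixed {p : ℕ} [Fact p.Prime] (hΔ : (W.map (algebraMap F k)).Δ ≠ 0)
    {x y : k} (hq : (W.toAffine⁄k).Nonsingular x y) (htors : p • Point.some x y hq = 0)
    (hx : x ^ Fintype.card F = x) (hy : y ^ Fintype.card F = y) :
    p ∣ Nat.card W.toAffine.Point := by
  have hcard : Nat.card (fixedSub F k W) = Nat.card W.toAffine.Point := by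
    rw [natCard_fixedSub F k W hΔ, natCard_point_eq F k W hΔ]
  rw [← hcard]
  have hmem : Point.some x y hq ∈ fixedSub F k W := (some_mem_fixedSub F k W hq).mpr ⟨hx, hy⟩
  have hord : addOrderOf (Point.some x y hq) = p := by
    refine addOrderOf_eq_prime htors ?_
    exact Point.some_ne_zero hq
  rw [← hord]
  exact AddSubgroup.addOrderOf_dvd_natCard _ hmem

/-- **Twist count, `k`-form.**  `#{Q : Frob Q = -Q} + #W(F) = 2 q + 2`. -/
theorem natCard_antiSub_add [IsAlgClosed k] (hΔ : (W.map (algebraMap F k)).Δ ≠ 0) :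
    Nat.card (antiSub F k W) + Nat.card W.toAffine.Point = 2 * Fintype.card F + 2 := by
  rw [natCard_antiSub F k W hΔ, natCard_point_eq F k W hΔ, ← card_fixed_add_card_anti F k W]
  ring

/-- **E2c, `k`-form.**  If `p ∣ #{Q : Frob Q = -Q}` then there is a point of order `p` of `Wk`
with Frobenius-antifixed coordinates. -/
theorem exists_anti_of_dvd {p : ℕ} [Fact p.Prime] (hΔ : (W.map (algebraMap F k)).Δ ≠ 0)
    (hdvd : p ∣ Nat.card (antiSub F k W)) :
    ∃ (x y : k) (hq : (W.toAffine⁄k).Nonsingular x y), p • Point.some x y hq = 0 ∧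
      x ^ Fintype.card F = x ∧ y ^ Fintype.card F = (W.toAffine⁄k).negY x y := by
  obtain ⟨x, y, hq, hmem, htors⟩ := exists_some_mem_of_dvd_natCard (p := p) F k W
    (antiSub F k W) (by rw [natCard_antiSub F k W hΔ]; exact Nat.succ_ne_zero _) hdvd
  obtain ⟨hx, hy⟩ := (some_mem_antiSub F k W hq).mp hmem
  exact ⟨x, y, hq, htors, hx, hy⟩

end Groups

/-! ### The integral model form -/

section Final

set_option linter.style.haveILetI false

variable (W : WeierstrassCurve ℤ) {l p : ℕ} [Fact l.Prime] [Fact p.Prime]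

omit [Fact l.Prime] [Fact p.Prime] in
theorem apOfModel_eq :
    W.apOfModel l = (l : ℤ) + 1 - (Nat.card (W.reductionMod l).toAffine.Point : ℤ) := by
  rw [WeierstrassCurve.apOfModel, WeierstrassCurve.traceOfFrobenius, WeierstrassCurve.card,
    Nat.card_zmod]

omit [Fact l.Prime] [Fact p.Prime] in
theorem dvd_sub_apOfModel_iff :
    (p : ℤ) ∣ (l : ℤ) + 1 - W.apOfModel l ↔ p ∣ Nat.card (W.reductionMod l).toAffine.Point := by
  rw [apOfModel_eq, sub_sub_cancel, Int.natCast_dvd_natCast]

omit [Fact l.Prime] in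
theorem apOfModel_zmod_eq_iff :
    ((W.apOfModel l : ℤ) : ZMod p) = (l : ZMod p) + 1 ↔ (p : ℤ) ∣ (l : ℤ) + 1 - W.apOfModel l := by
  rw [← ZMod.intCast_zmod_eq_zero_iff_dvd]
  push_cast
  rw [sub_eq_zero]
  exact eq_comm

variable (k : Type*) [Field k] [CharP k l] [DecidableEq k]

/-- Transport of an existence statement along an equality of curves. -/
theorem exists_transport {W1 W2 : WeierstrassCurve k} (e : W1 = W2) (p l : ℕ)
    (c : WeierstrassCurve k → k → k → k)
    (h : ∃ (x y : k) (hq : W1.toAffine.Nonsingular x y),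
      p • Point.some x y hq = 0 ∧ x ^ l = x ∧ y ^ l = c W1 x y) :
    ∃ (x y : k) (hq : W2.toAffine.Nonsingular x y),
      p • Point.some x y hq = 0 ∧ x ^ l = x ∧ y ^ l = c W2 x y := by
  subst e
  exact h

omit [Fact l.Prime] [Fact p.Prime] [DecidableEq k] in
theorem reductionMod_map_eq :
    letI := ZMod.algebra k l
    (W.reductionMod l).map (algebraMap (ZMod l) k) = W.map (Int.castRingHom k) := by
  letI := ZMod.algebra k l
  rw [WeierstrassCurve.reductionMod, WeierstrassCurve.map_map]
  congr 1
  exact RingHom.ext_int _ _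

omit [Fact p.Prime] [DecidableEq k] in
theorem Δ_ne_zero_of_good (hgood : W.IsGoodPrimeFor l) :
    letI := ZMod.algebra k l
    ((W.reductionMod l).map (algebraMap (ZMod l) k)).Δ ≠ 0 := by
  letI := ZMod.algebra k l
  rw [WeierstrassCurve.map_Δ, WeierstrassCurve.reductionMod, WeierstrassCurve.map_Δ]
  intro h0
  have h1 : ((W.Δ : ℤ) : ZMod l) = 0 := by
    have := (algebraMap (ZMod l) k).injective (a₁ := ((W.Δ : ℤ) : ZMod l)) (a₂ := 0)
    apply this
    rw [map_zero]
    exact h0
  rw [ZMod.intCast_zmod_eq_zero_iff_dvd] at h1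
  exact hgood h1

/-- **P8 (fixed points, final form).**  `l` a good prime, `k` a field of characteristic `l`:
if `p ∣ l + 1 - a_l` then `W` has a point of order `p` over `k` with Frobenius-fixed
coordinates. -/
theorem exists_fixed_torsion_of_dvd (hgood : W.IsGoodPrimeFor l)
    (h : (p : ℤ) ∣ (l : ℤ) + 1 - W.apOfModel l) :
    ∃ (ξ η : k) (hq : (W.map (Int.castRingHom k)).toAffine.Nonsingular ξ η),
      p • Point.some ξ η hq = 0 ∧ ξ ^ l = ξ ∧ η ^ l = η := by
  letI := ZMod.algebra k l
  have h1 := exists_fixed_of_dvd (ZMod l) k (W.reductionMod l) (p := p)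
    (Δ_ne_zero_of_good W k hgood) ((dvd_sub_apOfModel_iff W).mp h)
  rw [ZMod.card l] at h1
  exact exists_transport k (reductionMod_map_eq W k) p l (fun _ _ y => y) h1

/-- **P8 (fixed points, converse).** -/
theorem dvd_of_fixed_torsion (hgood : W.IsGoodPrimeFor l) {ξ η : k}
    (hq : (W.map (Int.castRingHom k)).toAffine.Nonsingular ξ η)
    (htors : p • Point.some ξ η hq = 0) (hξ : ξ ^ l = ξ) (hη : η ^ l = η) :
    (p : ℤ) ∣ (l : ℤ) + 1 - W.apOfModel l := by
  letI := ZMod.algebra k l
  rw [dvd_sub_apOfModel_iff]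
  obtain ⟨x, y, hq', h1, h2, h3⟩ := exists_transport k (reductionMod_map_eq W k).symm p l
    (fun _ _ y => y) ⟨ξ, η, hq, htors, hξ, hη⟩
  rw [← ZMod.card l] at h2 h3
  exact dvd_of_fixed (ZMod l) k (W.reductionMod l) (Δ_ne_zero_of_good W k hgood) hq' h1 h2 h3

/-- **E2c (twist count, final form).**  `l` a good prime, `k` an algebraically closed field of
characteristic `l`: if `p ∣ l + 1 + a_l` then `W` has a point of order `p` over `k` whose
coordinates satisfy `(ξ ^ l, η ^ l) = (ξ, negY ξ η)`. -/
theorem exists_anti_torsion_of_dvd [IsAlgClosed k] (hgood : W.IsGoodPrimeFor l)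
    (h : (p : ℤ) ∣ (l : ℤ) + 1 + W.apOfModel l) :
    ∃ (ξ η : k) (hq : (W.map (Int.castRingHom k)).toAffine.Nonsingular ξ η),
      p • Point.some ξ η hq = 0 ∧ ξ ^ l = ξ ∧
        η ^ l = (W.map (Int.castRingHom k)).toAffine.negY ξ η := by
  letI := ZMod.algebra k l
  have hΔ := Δ_ne_zero_of_good W k hgood
  have hcount := natCard_antiSub_add (ZMod l) k (W.reductionMod l) hΔ
  rw [ZMod.card l] at hcount
  have hdvd : p ∣ Nat.card (antiSub (ZMod l) k (W.reductionMod l)) := by
    rw [← Int.natCast_dvd_natCast]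
    have h2 : (Nat.card (antiSub (ZMod l) k (W.reductionMod l)) : ℤ) =
        (l : ℤ) + 1 + W.apOfModel l := by
      rw [apOfModel_eq]
      have := congrArg (fun n : ℕ => (n : ℤ)) hcount
      push_cast at this
      linarith
    rw [h2]
    exact h
  have h1 := exists_anti_of_dvd (ZMod l) k (W.reductionMod l) (p := p) hΔ hdvd
  rw [ZMod.card l] at h1
  exact exists_transport k (reductionMod_map_eq W k) p l (fun W' x y => W'.toAffine.negY x y) h1

/-- **P8 (original shape).** -/
theorem exists_torsion_reductionMod_iff :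
    (∃ Q : (W.reductionMod l).toAffine.Point, Q ≠ 0 ∧ p • Q = 0) ↔
      ((W.apOfModel l : ℤ) : ZMod p) = (l : ZMod p) + 1 := by
  rw [apOfModel_zmod_eq_iff, dvd_sub_apOfModel_iff]
  constructor
  · rintro ⟨Q, hQ0, hQ⟩
    rw [← addOrderOf_eq_prime hQ hQ0]
    exact addOrderOf_dvd_natCard Q
  · intro hdvd
    obtain ⟨Q, hQ⟩ := exists_prime_addOrderOf_dvd_card' p hdvd
    refine ⟨Q, ?_, ?_⟩
    · rintro rfl
      rw [addOrderOf_zero] at hQ
      exact (Fact.out : p.Prime).one_lt.ne hQ
    · rw [← hQ]; exact addOrderOf_nsmul_eq_zero Q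

end Final

end Fermat.Agent.LR.RedFrob
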