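import Mathlib
import Fermat.Agent.S13.AddSubIdCoord

/-!
# Program M, node E2 (pieces P5, P6): lifting roots from the residue field of a valuation
subring of an algebraically closed field.
-/

noncomputable section

namespace Fermat.Agent.LR.RedFrob

open Polynomial IsLocalRing

variable {K : Type*} [Field K]

/-- Auxiliary form of `exists_root_lift` for monic polynomials (induction on the degree). -/
theorem exists_root_lift_monic [IsAlgClosed K] (A : ValuationSubring K) :
    ∀ (n : ℕ) (f : Polynomial A), f.Monic → f.natDegree = n →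
      ∀ ξ : ResidueField A, (f.map (residue A)).IsRoot ξ →
        ∃ x : A, f.IsRoot x ∧ residue A x = ξ := by
  intro n
  induction n with
  | zero =>
    intro f hf hdeg ξ hξ
    exfalso
    have hf' : f.Monic := hf
    have h1 : f = 1 := hf'.natDegree_eq_zero.mp hdeg
    rw [h1, Polynomial.map_one] at hξ
    simp [IsRoot] at hξ
  | succ n ih =>
    intro f hf hdeg ξ hξ
    have hf' : f.Monic := hf
    -- a root in `K`
    have hinj : Function.Injective (algebraMap A K) := Subtype.val_injective
    have hdegK : (f.map (algebraMap A K)).degree ≠ 0 := by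
      rw [Polynomial.degree_map_eq_of_injective hinj, Polynomial.degree_eq_natDegree hf'.ne_zero,
        hdeg]
      exact_mod_cast Nat.succ_ne_zero n
    obtain ⟨a, ha⟩ := IsAlgClosed.exists_root _ hdegK
    -- it lies in `A`
    have hint : IsIntegral A a := ⟨f, hf', by
      rwa [IsRoot.def, Polynomial.eval_map, ← Polynomial.aeval_def] at ha⟩
    obtain ⟨x0, hx0⟩ := IsIntegrallyClosed.isIntegral_iff.mp hint
    have hroot : f.IsRoot x0 := by
      rw [IsRoot.def]
      apply hinj
      rw [← hx0, IsRoot.def, Polynomial.eval_map, Polynomial.eval₂_hom] at ha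
      rw [map_zero]
      exact ha
    -- factor
    have hfac : (X - C x0) * (f /ₘ (X - C x0)) = f :=
      Polynomial.mul_divByMonic_eq_iff_isRoot.mpr hroot
    set g := f /ₘ (X - C x0) with hg
    have hgm : g.Monic := (Polynomial.monic_X_sub_C x0).of_mul_monic_left (by rw [hfac]; exact hf')
    have hgdeg : g.natDegree = n := by
      have := congrArg Polynomial.natDegree hfac
      rw [(Polynomial.monic_X_sub_C x0).natDegree_mul hgm, Polynomial.natDegree_X_sub_C, hdeg] at this
      omega
    rw [← hfac, Polynomial.map_mul, Polynomial.IsRoot.def, Polynomial.eval_mul] at hξ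
    rcases mul_eq_zero.mp hξ with h | h
    · refine ⟨x0, hroot, ?_⟩
      simp only [Polynomial.map_sub, Polynomial.map_X, Polynomial.map_C, Polynomial.eval_sub,
        Polynomial.eval_X, Polynomial.eval_C] at h
      exact (sub_eq_zero.mp h).symm
    · obtain ⟨x, hx, hxξ⟩ := ih g hgm hgdeg ξ h
      refine ⟨x, ?_, hxξ⟩
      rw [← hfac, Polynomial.IsRoot.def, Polynomial.eval_mul, hx, mul_zero]

/-- **P6 (root lifting).**  `K` algebraically closed, `A` a valuation subring, `f ∈ A[X]` with
unit leading coefficient: every root of the reduction of `f` in the residue field is the residue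
of a root of `f` in `A`. -/
theorem exists_root_lift [IsAlgClosed K] (A : ValuationSubring K) (f : Polynomial A)
    (hlead : IsUnit f.leadingCoeff) (ξ : ResidueField A)
    (hξ : (f.map (residue A)).IsRoot ξ) : ∃ x : A, f.IsRoot x ∧ residue A x = ξ := by
  obtain ⟨u, hu⟩ := hlead
  have hmon : (C (↑u⁻¹ : A) * f).Monic := by
    rw [Polynomial.Monic, Polynomial.leadingCoeff_mul', Polynomial.leadingCoeff_C, ← hu,
      Units.inv_mul]
    rw [Polynomial.leadingCoeff_C, ← hu, Units.inv_mul]
    exact one_ne_zero
  have hξ' : ((C (↑u⁻¹ : A) * f).map (residue A)).IsRoot ξ := by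
    rw [Polynomial.map_mul, Polynomial.IsRoot.def, Polynomial.eval_mul, hξ, mul_zero]
  obtain ⟨x, hx, hxξ⟩ := exists_root_lift_monic A _ _ hmon rfl ξ hξ'
  refine ⟨x, ?_, hxξ⟩
  rw [Polynomial.IsRoot.def, Polynomial.eval_mul, Polynomial.eval_C] at hx
  rcases mul_eq_zero.mp hx with h | h
  · exact absurd h (Units.ne_zero _)
  · exact h

/-- **P5 (base change of `ΨSq`).** -/
theorem eval_ΨSq_map {R S : Type*} [CommRing R] [CommRing S] (W : WeierstrassCurve R)
    (f : R →+* S) (n : ℤ) (x : R) :
    ((W.map f).ΨSq n).eval (f x) = f ((W.ΨSq n).eval x) := by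
  rw [WeierstrassCurve.map_ΨSq, Polynomial.eval_map, Polynomial.eval₂_hom]

/-- Lifting the `y`-coordinate: the Weierstrass equation is a monic quadratic in `y`. -/
theorem exists_y_lift [IsAlgClosed K] (A : ValuationSubring K) (W : WeierstrassCurve A)
    (x : A) (η : ResidueField A)
    (h : (W.map (residue A)).toAffine.Equation (residue A x) η) :
    ∃ y : A, W.toAffine.Equation x y ∧ residue A y = η := by
  set b : A := W.a₁ * x + W.a₃ with hb
  set c : A := -(x ^ 3 + W.a₂ * x ^ 2 + W.a₄ * x + W.a₆) with hc
  set g : Polynomial A := X ^ 2 + (C b * X + C c) with hg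
  have hmon : g.Monic := by
    refine Polynomial.monic_X_pow_add (lt_of_le_of_lt (b := (1 : WithBot ℕ)) ?_ (by norm_num))
    compute_degree
  have hroot : (g.map (residue A)).IsRoot η := by
    rw [WeierstrassCurve.Affine.equation_iff] at h
    simp only [WeierstrassCurve.map_a₁, WeierstrassCurve.map_a₂, WeierstrassCurve.map_a₃,
      WeierstrassCurve.map_a₄, WeierstrassCurve.map_a₆] at h
    simp only [hg, hb, hc, Polynomial.IsRoot.def, Polynomial.map_add, Polynomial.map_pow,
      Polynomial.map_X, Polynomial.map_mul, Polynomial.map_C, Polynomial.eval_add,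
      Polynomial.eval_pow, Polynomial.eval_X, Polynomial.eval_mul, Polynomial.eval_C, map_add,
      map_mul, map_neg, map_pow, Polynomial.map_neg, Polynomial.eval_neg]
    linear_combination h
  obtain ⟨y, hy, hyη⟩ := exists_root_lift_monic A _ g hmon rfl η hroot
  refine ⟨y, ?_, hyη⟩
  rw [WeierstrassCurve.Affine.equation_iff]
  simp only [hg, hb, hc, Polynomial.IsRoot.def, Polynomial.eval_add, Polynomial.eval_pow,
    Polynomial.eval_X, Polynomial.eval_mul, Polynomial.eval_C] at hy
  linear_combination hy

/-- **P6 (point lifting, equation form).**  `W` a Weierstrass curve over a valuation subring `A`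
of an algebraically closed field, `n` a unit of `A`: every point `(ξ, η)` of the reduction with
`ΨSq_n(ξ) = 0` is the reduction of a point `(x, y)` of `W` over `A` with `ΨSq_n(x) = 0`. -/
theorem exists_point_lift [IsAlgClosed K] (A : ValuationSubring K) (W : WeierstrassCurve A)
    (n : ℤ) (hn : IsUnit (n : A)) (ξ η : ResidueField A)
    (h : (W.map (residue A)).toAffine.Equation ξ η)
    (hΨ : ((W.map (residue A)).ΨSq n).eval ξ = 0) :
    ∃ x y : A, W.toAffine.Equation x y ∧ (W.ΨSq n).eval x = 0 ∧
      residue A x = ξ ∧ residue A y = η := by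
  have hlead : IsUnit (W.ΨSq n).leadingCoeff := by
    rw [W.leadingCoeff_ΨSq hn.ne_zero]
    exact hn.pow 2
  have hroot : ((W.ΨSq n).map (residue A)).IsRoot ξ := by
    rw [← WeierstrassCurve.map_ΨSq]
    exact hΨ
  obtain ⟨x, hx, hxξ⟩ := exists_root_lift A _ hlead ξ hroot
  subst hxξ
  obtain ⟨y, hy, hyη⟩ := exists_y_lift A W x η h
  exact ⟨x, y, hy, hx, rfl, hyη⟩

/-- Nonsingularity can be checked after applying a ring homomorphism. -/
theorem nonsingular_of_map {R S : Type*} [CommRing R] [CommRing S] (f : R →+* S)
    (W : WeierstrassCurve R) {x y : R} (heq : W.toAffine.Equation x y)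
    (h : (W.map f).toAffine.Nonsingular (f x) (f y)) : W.toAffine.Nonsingular x y := by
  simp only [WeierstrassCurve.Affine.Nonsingular, WeierstrassCurve.Affine.map_polynomialX,
    WeierstrassCurve.Affine.map_polynomialY, Polynomial.map_mapRingHom_evalEval] at h ⊢
  refine ⟨heq, ?_⟩
  rcases h.2 with h1 | h1
  · exact Or.inl fun h0 => h1 (by rw [h0, map_zero])
  · exact Or.inr fun h0 => h1 (by rw [h0, map_zero])

open WeierstrassCurve.Affine in
/-- **P5 + P6 (torsion point lifting, integral model form).**  `W` a Weierstrass curve over `ℤ`,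
`A` a valuation subring of an algebraically closed field `K`, `n` a unit of `A`.  Every nonzero
`n`-torsion point `(ξ, η)` of `W` over the residue field is the coordinatewise reduction of a
nonzero `n`-torsion point `(x, y)` of `W` over `K` with coordinates in `A`. -/
theorem exists_torsion_lift [IsAlgClosed K] [DecidableEq K] (A : ValuationSubring K)
    [DecidableEq (ResidueField A)] (W : WeierstrassCurve ℤ) (n : ℕ) (hn : IsUnit (n : A))
    (ξ η : ResidueField A)
    (h : (W.map (Int.castRingHom (ResidueField A))).toAffine.Nonsingular ξ η)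
    (hn0 : n • Point.some ξ η h = 0) :
    ∃ (x y : A) (hxy : (W.map (Int.castRingHom K)).toAffine.Nonsingular (x : K) (y : K)),
      n • Point.some (x : K) (y : K) hxy = 0 ∧ residue A x = ξ ∧ residue A y = η := by
  set WA : WeierstrassCurve A := W.map (Int.castRingHom A) with hWA
  have hk : WA.map (residue A) = W.map (Int.castRingHom (ResidueField A)) := by
    rw [hWA, WeierstrassCurve.map_map]
    congr 1
  have hK : WA.map (algebraMap A K) = W.map (Int.castRingHom K) := by
    rw [hWA, WeierstrassCurve.map_map]
    congr 1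
  have hinj : Function.Injective (algebraMap A K) := Subtype.val_injective
  -- `ΨSq_n(ξ) = 0`
  have hΨ : ((W.map (Int.castRingHom (ResidueField A))).ΨSq (n : ℤ)).eval ξ = 0 := by
    rw [Fermat.Agent.S13.AddSub.eval_ΨSq_eq_zero_iff _
      (Fermat.Agent.S13.addSubIdentities_of_star _) h (n : ℤ), natCast_zsmul]
    exact hn0
  have hnA : IsUnit (((n : ℤ) : A)) := by
    rw [Int.cast_natCast]; exact hn
  obtain ⟨x, y, hxy, hx, hxξ, hyη⟩ := exists_point_lift A WA (n : ℤ) hnA ξ η
    (by rw [hk]; exact h.1) (by rw [hk]; exact hΨ)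
  have hnsA : WA.toAffine.Nonsingular x y := by
    refine nonsingular_of_map (residue A) WA hxy ?_
    rw [hxξ, hyη]
    convert h using 2
  have hnsK : (W.map (Int.castRingHom K)).toAffine.Nonsingular (x : K) (y : K) := by
    have := (WeierstrassCurve.Affine.map_nonsingular (W := WA.toAffine) hinj x y).mpr hnsA
    rw [← hK]
    exact this
  refine ⟨x, y, hnsK, ?_, hxξ, hyη⟩
  rw [← natCast_zsmul, ← Fermat.Agent.S13.AddSub.eval_ΨSq_eq_zero_iff _
    (Fermat.Agent.S13.addSubIdentities_of_star _) hnsK (n : ℤ), ← hK]
  have := eval_ΨSq_map WA (algebraMap A K) (n : ℤ) x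
  rw [hx, map_zero] at this
  exact this

end Fermat.Agent.LR.RedFrob
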