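import Fermat.Agent.LR.RedFrobCore
import Fermat.Agent.LR.RedFrobLift

/-!
# Program M, node E2 (assembly, count in hypothesis form)

`W` an integral Weierstrass model, `l` a good prime, `p ≠ l` a prime, `A` a valuation subring of
`ℚ̄` over `l`, `φ` a Frobenius element at `A`.  The residue field `k` of `A` is an algebraically
closed field of characteristic `l`; the point counts over `𝔽_l ⊂ k` (nodes E2b / E2c) are taken
here in the shape `CountFix` / `CountAnti`: for every field `K` of characteristic `l` in which
monic quadratics have roots, there is a nonzero `p`-torsion point `(x, y)` of `W_K` with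
`x ^ l = x` and `y ^ l = y` (resp. `y ^ l = negY x y`).

* `rootLift_of_isAlgClosed` : `RootLift A` for valuation subrings of algebraically closed fields;
* `charP_residueField`, `exists_quadratic_root_residueField` : the residue field has
  characteristic `l`, and monic quadratics over it have roots;
* `exists_fixed_of_count`, `exists_antifixed_of_count` : the two Frobenius links.
-/

set_option autoImplicit false

open WeierstrassCurve WeierstrassCurve.Affine IsLocalRing Polynomial

namespace Fermat.Agent.LR.RedFrob

section General

variable {K : Type*} [Field K]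

/-- Root lifting holds for valuation subrings of algebraically closed fields. -/
theorem rootLift_of_isAlgClosed [IsAlgClosed K] (A : ValuationSubring K) : RootLift A :=
  fun f hlead ξ hξ => exists_root_lift A f hlead ξ hξ

/-- The residue field of a valuation subring over `l` has characteristic `l`. -/
theorem charP_residueField (A : ValuationSubring K) {l : ℕ} (hl : l.Prime)
    (hA : A.LiesOverPrime l) : CharP (ResidueField A) l := by
  have h0 : ((l : ℕ) : ResidueField A) = 0 := by
    have h1 : residue A ((l : ℕ) : A) = 0 :=
      (residue_eq_zero_iff _).mpr (natCast_mem_maximalIdeal A hA)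
    rwa [map_natCast] at h1
  exact ringChar.of_eq (CharP.ringChar_of_prime_eq_zero hl h0)

/-- Monic quadratics over the residue field of a valuation subring of an algebraically closed
field have roots. -/
theorem exists_quadratic_root_residueField [IsAlgClosed K] (A : ValuationSubring K)
    (b c : ResidueField A) : ∃ y : ResidueField A, y ^ 2 + b * y = c := by
  obtain ⟨b', rfl⟩ := residue_surjective b
  obtain ⟨c', rfl⟩ := residue_surjective c
  set g : Polynomial A := X ^ 2 + (C b' * X + C (-c')) with hg
  have hmon : g.Monic := by
    refine Polynomial.monic_X_pow_add (lt_of_le_of_lt (b := (1 : WithBot ℕ)) ?_ (by norm_num))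
    compute_degree
  have hinj : Function.Injective (algebraMap A K) := Subtype.val_injective
  have hdegK : (g.map (algebraMap A K)).degree ≠ 0 := by
    rw [Polynomial.degree_map_eq_of_injective hinj, Polynomial.degree_eq_natDegree hmon.ne_zero]
    have : g.natDegree = 2 := by
      rw [hg]; compute_degree!
    rw [this]; norm_num
  obtain ⟨a, ha⟩ := IsAlgClosed.exists_root _ hdegK
  have hint : IsIntegral A a := ⟨g, hmon, by
    rwa [IsRoot.def, Polynomial.eval_map, ← Polynomial.aeval_def] at ha⟩
  obtain ⟨y0, hy0⟩ := IsIntegrallyClosed.isIntegral_iff.mp hint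
  have hroot : g.eval y0 = 0 := by
    apply hinj
    rw [← hy0, IsRoot.def, Polynomial.eval_map, Polynomial.eval₂_hom] at ha
    rw [map_zero]
    exact ha
  refine ⟨residue A y0, ?_⟩
  simp only [hg, Polynomial.eval_add, Polynomial.eval_pow, Polynomial.eval_X, Polynomial.eval_mul,
    Polynomial.eval_C] at hroot
  have h2 := congrArg (residue A) hroot
  simp only [map_add, map_mul, map_pow, map_neg, map_zero] at h2
  linear_combination h2

end General

/-! ### The count hypotheses and the Frobenius links -/

/-- Shape of the fixed-point count (node E2b): over every field of characteristic `l` in which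
monic quadratics have roots there is a nonzero `p`-torsion point of `W` with `𝔽_l`-rational
coordinates. -/
def CountFix (W : WeierstrassCurve ℤ) (l p : ℕ) : Prop :=
  ∀ (k : Type) [Field k] [CharP k l] [DecidableEq k], (∀ b c : k, ∃ y : k, y ^ 2 + b * y = c) →
    ∃ (x y : k) (h : (W.map (Int.castRingHom k)).toAffine.Nonsingular x y),
      p • Point.some x y h = 0 ∧ x ^ l = x ∧ y ^ l = y

/-- Shape of the twist count (node E2c): a nonzero `p`-torsion point `(x, y)` with `x ∈ 𝔽_l`
on which the `l`-Frobenius acts as negation. -/
def CountAnti (W : WeierstrassCurve ℤ) (l p : ℕ) : Prop :=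
  ∀ (k : Type) [Field k] [CharP k l] [DecidableEq k], (∀ b c : k, ∃ y : k, y ^ 2 + b * y = c) →
    ∃ (x y : k) (h : (W.map (Int.castRingHom k)).toAffine.Nonsingular x y),
      p • Point.some x y h = 0 ∧ x ^ l = x ∧
        y ^ l = (W.map (Int.castRingHom k)).toAffine.negY x y

section Link

local notation "Qb" => AlgebraicClosure ℚ

variable [DecidableEq Qb]
variable (W : WeierstrassCurve ℤ) {l p : ℕ} (hl : l.Prime) (hp : p.Prime) (hlp : l ≠ p)
  (hgood : W.IsGoodPrimeFor l) (A : ValuationSubring Qb) (hA : A.LiesOverPrime l)
  (φ : Qb ≃ₐ[ℚ] Qb) (hφ : A.IsFrobeniusAt φ l)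

omit [DecidableEq Qb] in
/-- The special fibre, in the two shapes used. -/
theorem specialFibre_eq :
    W.map (Int.castRingHom (ResidueField A)) = (W.map (Int.castRingHom A)).map (residue A) := by
  rw [WeierstrassCurve.map_map]
  exact congrArg _ (RingHom.ext_int _ _)

include hl hp hlp hgood hA hφ in
/-- **Fixed link.**  A Frobenius-rational nonzero `p`-torsion point of the special fibre gives a
nonzero `φ`-fixed point of `E[p](ℚ̄)`. -/
theorem exists_fixed_of_count (hcount : CountFix W l p) :
    ∃ P : Submodule.torsionBy ℤ ((W.map (Int.castRingHom ℚ))⁄Qb).Point p, P ≠ 0 ∧ φ • P = P := by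
  classical
  have := charP_residueField A hl hA
  obtain ⟨x, y, h, htors, hx, hy⟩ :=
    hcount (ResidueField A) (exists_quadratic_root_residueField A)
  exact (exists_torsion_of_residue_point W hl hp hlp hgood A hA φ hφ (rootLift_of_isAlgClosed A)
    _ (specialFibre_eq W A) h htors hx).1 hy

include hl hp hlp hgood hA hφ in
/-- **Anti-fixed link.**  A nonzero `p`-torsion point of the special fibre on which the
`l`-Frobenius acts as negation gives a nonzero point `P` of `E[p](ℚ̄)` with `φ • P = -P`. -/
theorem exists_antifixed_of_count (hcount : CountAnti W l p) :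
    ∃ P : Submodule.torsionBy ℤ ((W.map (Int.castRingHom ℚ))⁄Qb).Point p,
      P ≠ 0 ∧ φ • P = -P := by
  classical
  have := charP_residueField A hl hA
  obtain ⟨x, y, h, htors, hx, hy⟩ :=
    hcount (ResidueField A) (exists_quadratic_root_residueField A)
  exact (exists_torsion_of_residue_point W hl hp hlp hgood A hA φ hφ (rootLift_of_isAlgClosed A)
    _ (specialFibre_eq W A) h htors hx).2 hy

end Link

end Fermat.Agent.LR.RedFrob
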