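/-
Program M (statement S41, level raising): the mod-`p` eigenclass of a normalized eigenform `f` of
level `N` in the lattice `Λ = Lam N = Hom_par(Γ₀(N), ℤ)`.  This produces the input `hy` of the
abstract level-raising lemma (`LR/AbstractGen.exists_new_class_gen`).
-/
import Fermat.Agent.Jac.LamAnn
import Fermat.Agent.Jac.Socle
import Fermat.Agent.Res.EigenSystem

set_option autoImplicit false
set_option linter.style.haveILetI false

open CuspForm ModularFormClass CongruenceSubgroup ModularCurve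
open Fermat.Agent.Jac

namespace Fermat.Agent.LR.EigenClass

noncomputable section

local notation "Zb" => integralClosure ℤ ℂ

/-- If `a ^ 2 ≡ c ^ 2` modulo a prime ideal then `a ≡ ε c` for a sign `ε`. -/
theorem exists_sign {A : Type*} [CommRing A] (𝔪 : Ideal A) [𝔪.IsPrime] (a : A) (c : ℤ)
    (h : a ^ 2 - (c : A) ^ 2 ∈ 𝔪) :
    ∃ ε : ℤ, (ε = 1 ∨ ε = -1) ∧ a - ((ε * c : ℤ) : A) ∈ 𝔪 := by
  have hfac : a ^ 2 - (c : A) ^ 2 = (a - c) * (a + c) := by ring
  rw [hfac] at h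
  rcases Ideal.IsPrime.mem_or_mem inferInstance h with h1 | h1
  · exact ⟨1, Or.inl rfl, by simpa using h1⟩
  · refine ⟨-1, Or.inr rfl, ?_⟩
    have : a - ((-1 * c : ℤ) : A) = a + c := by push_cast; ring
    rw [this]; exact h1

/-- The residue field of a maximal ideal containing `p` has characteristic `p`. -/
theorem charP_quotient {A : Type*} [CommRing A] (𝔪 : Ideal A) [h𝔪 : 𝔪.IsMaximal] {p : ℕ}
    (hp : p.Prime) (hpm : (p : A) ∈ 𝔪) : CharP (A ⧸ 𝔪) p := by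
  haveI : Nontrivial (A ⧸ 𝔪) := Ideal.Quotient.nontrivial_iff.mpr h𝔪.ne_top
  have h0 : ((p : ℕ) : A ⧸ 𝔪) = 0 := by
    rw [← map_natCast (Ideal.Quotient.mk 𝔪), Ideal.Quotient.eq_zero_iff_mem]
    exact hpm
  exact (CharP.charP_iff_prime_eq_zero hp).mpr h0

/-- **Socle of a lattice modulo `p`.**  A lattice `Λ` with an action of a commutative ring `R`, a
maximal ideal `𝔐 ∋ p` containing the annihilator of `Λ`: there is `y ∈ Λ`, nonzero modulo `p`,
with `𝔐 y ⊆ p Λ`. -/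
theorem exists_lattice_class {R Λ : Type*} [CommRing R] [AddCommGroup Λ] [Module R Λ]
    [Module.Finite ℤ Λ] (𝔐 : Ideal R) (hmax : 𝔐.IsMaximal) (p : ℕ) (hp : p ≠ 0)
    (hpM : (p : R) ∈ 𝔐) (hann : Module.annihilator R Λ ≤ 𝔐) :
    ∃ y : Λ, (¬ ∃ z : Λ, y = (p : ℤ) • z) ∧ ∀ t ∈ 𝔐, ∃ z : Λ, t • y = (p : ℤ) • z := by
  haveI : Module.Finite R Λ := Module.Finite.of_restrictScalars_finite ℤ R Λ
  haveI := finite_quotient_span_natCast_smul_top (R := R) (Λ := Λ) p hp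
  have hI : Ideal.span {(p : R)} ≤ 𝔐 := by
    rw [Ideal.span_le]; rintro _ rfl; exact hpM
  have h1 := torsionBySet_quotient_smul_top_ne_bot (Λ := Λ) 𝔐 hmax hann _ hI
  rw [Submodule.ne_bot_iff] at h1
  obtain ⟨x, hx, hx0⟩ := h1
  obtain ⟨y, rfl⟩ := Submodule.Quotient.mk_surjective _ x
  have hmem : ∀ v : Λ, v ∈ Ideal.span {(p : R)} • (⊤ : Submodule R Λ) ↔
      ∃ z : Λ, v = (p : ℤ) • z := by
    intro v
    rw [Submodule.ideal_span_singleton_smul, Submodule.mem_smul_pointwise_iff_exists]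
    constructor
    · rintro ⟨z, -, rfl⟩
      exact ⟨z, by rw [natCast_zsmul, Nat.cast_smul_eq_nsmul]⟩
    · rintro ⟨z, rfl⟩
      exact ⟨z, Submodule.mem_top, by rw [natCast_zsmul, Nat.cast_smul_eq_nsmul]⟩
  refine ⟨y, fun h => hx0 ?_, fun t ht => ?_⟩
  · rw [Submodule.Quotient.mk_eq_zero, hmem]; exact h
  · rw [Submodule.mem_torsionBySet_iff] at hx
    have := hx ⟨t, ht⟩
    rw [← hmem, ← Submodule.Quotient.mk_eq_zero, Submodule.Quotient.mk_smul]
    exact this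

/-- **The mod-`p` eigenclass.**  For a normalized eigenform `f` of level `N` and a maximal ideal
`𝔪` of `ℤ̄` over `p` there is `y ∈ Lam N`, nonzero modulo `p`, such that `T_l y ≡ n y` modulo `p`
for every prime `l` and every integer `n` with `a_l(f) ≡ n` modulo `𝔪`. -/
theorem exists_eigenclass_all {N : ℕ} [NeZero N]
    (hcomm : ∀ l l', Commute (TLam N l) (TLam N l')) {f : CuspForm (Gamma0 N) 2}
    (hf : f.IsNormalizedEigenform) {p : ℕ} (hp : p.Prime) (𝔪 : Ideal Zb) (hmax : 𝔪.IsMaximal)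
    (hpm : (p : Zb) ∈ 𝔪) :
    ∃ y : Lam N, (¬ ∃ z : Lam N, y = (p : ℤ) • z) ∧
      ∀ (l : Nat.Primes) (n : ℤ) (a : Zb), (a : ℂ) = qCoeff ⇑f l → a - (n : Zb) ∈ 𝔪 →
        ∃ z : Lam N, TLam N l y - n • y = (p : ℤ) • z := by
  classical
  haveI := hmax
  letI : Field (Zb ⧸ 𝔪) := Ideal.Quotient.field 𝔪
  let φ : Zb →+* (Zb ⧸ 𝔪) := Ideal.Quotient.mk 𝔪
  haveI : CharP (Zb ⧸ 𝔪) p := charP_quotient 𝔪 hp hpm
  obtain ⟨a, ha, hM, -, hEig, hpM⟩ :=
    Fermat.Agent.Res.EigenSystem.exists_eigenPackage_of_isNormalizedEigenform hf φ hp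
  have hT := hcomm
  letI := heckeModuleOf (TLam N) hT
  haveI := finite_Lam N
  have hann := annihilator_Lam_le_of_isEigenformIdeal N hT hEig
  obtain ⟨y, hy0, hy⟩ := exists_lattice_class (eigenIdeal fun ℓ => φ (a ℓ)) hM p hp.ne_zero
    hpM hann
  refine ⟨y, hy0, fun l n a' ha' hn => ?_⟩
  have hmem : (heckeGen l - MvPolynomial.C n : HeckeAlg) ∈ eigenIdeal fun ℓ => φ (a ℓ) := by
    rw [mem_eigenIdeal_iff, map_sub, aeval_heckeGen, MvPolynomial.aeval_C]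
    have hal : a l = a' := Subtype.ext (by rw [ha l, ha'])
    rw [hal]
    rw [eq_intCast, ← map_intCast φ n, ← map_sub]
    exact Ideal.Quotient.eq_zero_iff_mem.mpr hn
  obtain ⟨z, hz⟩ := hy _ hmem
  refine ⟨z, ?_⟩
  rw [← hz, heckeModuleOf_smul_def, map_sub, heckeEvalOf_heckeGen, heckeEvalOf_C,
    LinearMap.sub_apply, Module.End.intCast_apply]

/-- The mod-`p` eigenclass, consumer shape (F-TOP): a set `S` of primes and integer targets `c`. -/
theorem exists_eigenclass {N : ℕ} [NeZero N]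
    (hcomm : ∀ l l', Commute (TLam N l) (TLam N l')) {p : ℕ} (hp : p.Prime)
    (f : CuspForm (Gamma0 N) 2) (hf : f.IsNormalizedEigenform)
    (𝔪 : Ideal (integralClosure ℤ ℂ)) (hmax : 𝔪.IsMaximal)
    (hpm : (p : integralClosure ℤ ℂ) ∈ 𝔪)
    (S : Set Nat.Primes) (c : Nat.Primes → ℤ)
    (hc : ∀ l ∈ S, ∃ a : integralClosure ℤ ℂ, (a : ℂ) = ModularFormClass.qCoeff f l ∧
      a - ((c l : ℤ) : integralClosure ℤ ℂ) ∈ 𝔪) :
    ∃ y : Lam N, (¬ ∃ z : Lam N, y = (p : ℤ) • z) ∧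
      ∀ l ∈ S, ∃ z : Lam N, TLam N l y - c l • y = (p : ℤ) • z := by
  obtain ⟨y, hy0, hy⟩ := exists_eigenclass_all hcomm hf hp 𝔪 hmax hpm
  refine ⟨y, hy0, fun l hl => ?_⟩
  obtain ⟨a, ha, hac⟩ := hc l hl
  exact hy l (c l) a ha hac

end

end Fermat.Agent.LR.EigenClass
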