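import Mathlib
import Fermat.Agent.Jac.LamPsiInj
import Fermat.Agent.S49.DeligneSerre
import Fermat.Agent.S49.CommonEigen
import Fermat.Agent.S49.Assemble
import Fermat.Agent.X0.S21.Final
import Fermat.Prelude.Def_FreyPackage_LevelRaising

/-!
# Program M (S41, level raising), node F-INTERFACE

The frozen S41 conclusion from a "kernel class": a parabolic homomorphism `f ∈ ker j ⊆ Λ(M)`
(`Λ(M) = Hom_par(Γ₀(M), ℤ)`, `M = N q'`), nonzero modulo `p`, which is an eigenvector modulo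
`p · ker j` of the good Hecke operators with eigenvalues `a_l`, where `U_q² = 1` on `ker j`.

Tools: the Deligne–Serre lifting lemma (`S49.deligneSerre`), Eichler–Shimura in the Fricke-twisted
form (`Jac.exists_eigenHom_pair`, `S21`), common eigenvectors (`S49.exists_common_eigenvector`) and
`S49.exists_normalizedEigenform_of_eigenvector`.
-/

set_option autoImplicit false
set_option linter.unusedSectionVars false
set_option linter.style.haveILetI false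

namespace Fermat.Agent.LR.S41Of

open Matrix.SpecialLinearGroup CongruenceSubgroup ModularForm
open ModularCurve ModularCurve.Period CuspForm ModularFormClass
open Fermat.Agent.Jac Fermat.Agent.S49 Fermat.Agent.X0.S21
open scoped MatrixGroups

variable (M : ℕ) [NeZero M]

/-! ### The Eichler–Shimura comparison `Φ : S₂ × S₂ → Hom(Γ₀(M), ℂ)` -/

/-- `Φ(f, g) = (1 + ι) eigenHom f + (1 - ι) eigenHom g`. -/
noncomputable def phi :
    (CuspForm (Gamma0 M) 2 × CuspForm (Gamma0 M) 2) →ₗ[ℂ] (Additive (Gamma0 M) →+ ℂ) :=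
  LinearMap.coprod
    ((LinearMap.id + charInvolution M ℂ ℂ) ∘ₗ eigenHomLin M)
    ((LinearMap.id - charInvolution M ℂ ℂ) ∘ₗ eigenHomLin M)

theorem phi_apply (f g : CuspForm (Gamma0 M) 2) :
    phi M (f, g) = eigenHom M f + charInvolution M ℂ ℂ (eigenHom M f) +
      (eigenHom M g - charInvolution M ℂ ℂ (eigenHom M g)) := by
  simp [phi, LinearMap.coprod_apply]

theorem phi_mem_parabolicHoms (w : CuspForm (Gamma0 M) 2 × CuspForm (Gamma0 M) 2) :
    phi M w ∈ parabolicHoms ℂ (Gamma0 M) ℂ := by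
  obtain ⟨f, g⟩ := w
  rw [phi_apply]
  have hf := eigenHom_mem_parabolicHoms (N := M) f
  have hg := eigenHom_mem_parabolicHoms (N := M) g
  exact (parabolicHoms ℂ (Gamma0 M) ℂ).add_mem
    ((parabolicHoms ℂ (Gamma0 M) ℂ).add_mem hf (charInvolution_mem_parabolicHoms M ℂ ℂ hf))
    ((parabolicHoms ℂ (Gamma0 M) ℂ).sub_mem hg (charInvolution_mem_parabolicHoms M ℂ ℂ hg))

/-- Eichler–Shimura: `Φ` is onto the parabolic homomorphisms. -/
theorem exists_phi_eq {φ : Additive (Gamma0 M) →+ ℂ} (hφ : φ ∈ parabolicHoms ℂ (Gamma0 M) ℂ) :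
    ∃ w, phi M w = φ := by
  obtain ⟨f, g, h⟩ := exists_eigenHom_pair M hφ
  exact ⟨(f, g), by rw [phi_apply, h]⟩

/-- `Φ (f, g)` is the Fricke twist of `periodHomPair (f, g)`. -/
theorem phi_eq_comp (f g : CuspForm (Gamma0 M) 2) :
    phi M (f, g) =
      (periodHomPair M (f, g)).comp (MonoidHom.toAdditive (frickeEquiv M).toMonoidHom) := by
  refine AddMonoidHom.ext fun γ' => ?_
  obtain ⟨γ, rfl⟩ := Additive.ofMul.surjective γ'
  rw [phi_apply]
  show _ = periodHomPair M (f, g) (Additive.ofMul (frickeEquiv M γ))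
  rw [periodHomPair_apply]
  simp only [AddMonoidHom.add_apply, AddMonoidHom.sub_apply, charInvolution_apply, toMul_ofMul,
    eigenHom_apply]
  have h2 : jConjGamma0 M (frickeEquiv M γ) = frickeEquiv M (jConjGamma0 M γ) :=
    jEquiv_frickeEquiv M γ
  rw [h2]

theorem phi_injective : Function.Injective (phi M) := by
  rw [← LinearMap.ker_eq_bot, LinearMap.ker_eq_bot']
  rintro ⟨f, g⟩ h
  apply periodHomPair_injective M
  rw [map_zero]
  refine AddMonoidHom.ext fun γ' => ?_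
  obtain ⟨γ, rfl⟩ := Additive.ofMul.surjective γ'
  have h1 := congrArg (fun ψ : Additive (Gamma0 M) →+ ℂ => ψ (Additive.ofMul (frickeEquiv M γ))) h
  simp only [phi_eq_comp, AddMonoidHom.zero_apply] at h1
  have h2 : ((periodHomPair M (f, g)).comp (MonoidHom.toAdditive (frickeEquiv M).toMonoidHom))
      (Additive.ofMul (frickeEquiv M γ)) =
      periodHomPair M (f, g) (Additive.ofMul (frickeEquiv M (frickeEquiv M γ))) := rfl
  rw [h2, frickeEquiv_frickeEquiv] at h1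
  simpa using h1

/-- `Φ` intertwines `heckeFam × heckeFam` with `heckeTransfer`. -/
theorem heckeTransfer_phi (l : Nat.Primes) (w : CuspForm (Gamma0 M) 2 × CuspForm (Gamma0 M) 2) :
    heckeTransfer M l ℂ (phi M w) = phi M (heckeFam M l w.1, heckeFam M l w.2) := by
  obtain ⟨f, g⟩ := w
  rw [phi_apply, phi_apply, map_add, map_add, map_sub, heckeTransfer_charInvolution,
    heckeTransfer_charInvolution, heckeTransfer_eigenHom_heckeFam, heckeTransfer_eigenHom_heckeFam]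

/-- The Hecke transfers commute on parabolic homomorphisms (via `Φ` and `heckeFam_commute`). -/
theorem heckeTransfer_comm_of_parabolic (l l' : Nat.Primes) {φ : Additive (Gamma0 M) →+ ℂ}
    (hφ : φ ∈ parabolicHoms ℂ (Gamma0 M) ℂ) :
    heckeTransfer M l ℂ (heckeTransfer M l' ℂ φ) = heckeTransfer M l' ℂ (heckeTransfer M l ℂ φ) := by
  obtain ⟨w, rfl⟩ := exists_phi_eq M hφ
  rw [heckeTransfer_phi, heckeTransfer_phi, heckeTransfer_phi, heckeTransfer_phi]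
  have h1 : heckeFam M l (heckeFam M l' w.1) = heckeFam M l' (heckeFam M l w.1) :=
    congrArg (fun T : Module.End ℂ (CuspForm (Gamma0 M) 2) => T w.1) (heckeFam_commute l l').eq
  have h2 : heckeFam M l (heckeFam M l' w.2) = heckeFam M l' (heckeFam M l w.2) :=
    congrArg (fun T : Module.End ℂ (CuspForm (Gamma0 M) 2) => T w.2) (heckeFam_commute l l').eq
  rw [h1, h2]

/-! ### The lattice `Λ(M)` inside `Hom(Γ₀(M), ℂ)` -/

/-- the inclusion `Λ(M) → Hom(Γ₀(M), ℂ)`, as a `ℤ`-linear map -/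
noncomputable def castLam : Lam M →ₗ[ℤ] (Additive (Gamma0 M) →+ ℂ) :=
  (lamCastHom M).toIntLinearMap ∘ₗ (Lam M).subtype

@[simp] theorem castLam_apply (x : Lam M) (γ : Additive (Gamma0 M)) :
    castLam M x γ = (((x : Additive (Gamma0 M) →+ ℤ) γ : ℤ) : ℂ) := rfl

theorem castLam_mem_parabolicHoms (x : Lam M) : castLam M x ∈ parabolicHoms ℂ (Gamma0 M) ℂ := by
  intro γ hγ
  have h := x.2 γ hγ
  rw [castLam_apply, h, Int.cast_zero]

theorem heckeTransfer_castLam (l : Nat.Primes) (x : Lam M) :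
    heckeTransfer M l ℂ (castLam M x) = castLam M (TLam M l x) :=
  heckeTransfer_lamCastHom M l (x : Additive (Gamma0 M) →+ ℤ)

/-- a class that is not divisible by `p` has a value not divisible by `p` -/
theorem exists_not_dvd_apply {p : ℕ} (hp : p.Prime) (f : Lam M)
    (hfp : ¬ ∃ y : Lam M, f = (p : ℤ) • y) :
    ∃ γ : Additive (Gamma0 M), ¬ (p : ℤ) ∣ (f : Additive (Gamma0 M) →+ ℤ) γ := by
  by_contra hcon
  have hall : ∀ γ : Additive (Gamma0 M), (p : ℤ) ∣ (f : Additive (Gamma0 M) →+ ℤ) γ := by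
    intro γ
    by_contra h
    exact hcon ⟨γ, h⟩
  have hp0 : (p : ℤ) ≠ 0 := by exact_mod_cast hp.ne_zero
  let y : Additive (Gamma0 M) →+ ℤ :=
    { toFun := fun γ => (f : Additive (Gamma0 M) →+ ℤ) γ / (p : ℤ)
      map_zero' := by simp
      map_add' := fun γ δ => by
        show (f : Additive (Gamma0 M) →+ ℤ) (γ + δ) / (p : ℤ) = _
        rw [map_add, Int.add_ediv_of_dvd_left (hall γ)] }
  have hy : y ∈ Lam M := by
    intro γ hγ
    show (f : Additive (Gamma0 M) →+ ℤ) (Additive.ofMul γ) / (p : ℤ) = 0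
    rw [f.2 γ hγ, Int.zero_ediv]
  refine hfp ⟨⟨y, hy⟩, Subtype.ext ?_⟩
  refine AddMonoidHom.ext fun γ => ?_
  show (f : Additive (Gamma0 M) →+ ℤ) γ = (p : ℤ) • ((f : Additive (Gamma0 M) →+ ℤ) γ / (p : ℤ))
  rw [smul_eq_mul, Int.mul_ediv_cancel' (hall γ)]

/-- evaluation at `γ`, as a `ℂ`-linear functional -/
noncomputable def evalLin (γ : Additive (Gamma0 M)) : (Additive (Gamma0 M) →+ ℂ) →ₗ[ℂ] ℂ where
  toFun φ := φ γ
  map_add' _ _ := rfl
  map_smul' _ _ := rfl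

@[simp] theorem evalLin_apply (γ : Additive (Gamma0 M)) (φ : Additive (Gamma0 M) →+ ℂ) :
    evalLin M γ φ = φ γ := rfl

/-- an integer prime to `p` is a unit modulo a maximal ideal above `p` -/
theorem intCast_not_mem_of_not_dvd {p : ℕ} (hp : p.Prime) {𝔪 : Ideal (integralClosure ℤ ℂ)}
    (h𝔪 : 𝔪.IsMaximal) (hp𝔪 : (p : integralClosure ℤ ℂ) ∈ 𝔪) {m : ℤ} (hm : ¬ (p : ℤ) ∣ m) :
    ((m : ℤ) : integralClosure ℤ ℂ) ∉ 𝔪 := by
  intro hmem
  have hcop : IsCoprime (p : ℤ) m :=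
    (Nat.prime_iff_prime_int.mp hp).irreducible.coprime_iff_not_dvd.mpr hm
  obtain ⟨u, v, huv⟩ := hcop
  have e : (1 : integralClosure ℤ ℂ) =
      (u : integralClosure ℤ ℂ) * (p : integralClosure ℤ ℂ) +
        (v : integralClosure ℤ ℂ) * ((m : ℤ) : integralClosure ℤ ℂ) := by
    have := congrArg (Int.cast : ℤ → integralClosure ℤ ℂ) huv
    push_cast at this
    exact this.symm
  exact h𝔪.ne_top ((Ideal.eq_top_iff_one _).mpr
    (e ▸ 𝔪.add_mem (𝔪.mul_mem_left _ hp𝔪) (𝔪.mul_mem_left _ hmem)))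

/-! ### The main theorem -/

/-- **F-INTERFACE.** A class `f ∈ K ⊆ Λ(M)`, not divisible by `p`, which is an eigenvector modulo
`p K` of the Hecke operators `T_l` (`good l`) with eigenvalues `a l`, where `K` is stable under
these `T_l` and `T_q² = 1` on `K`, produces a normalised eigenform `g` of level `M` with
`a_l(g) ≡ a l` modulo a maximal ideal above `p` (`good l`) and `a_q(g)² = 1`. -/
theorem exists_eigenform_of_kernel_class {p : ℕ} (hp : p.Prime) (q : Nat.Primes)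
    (good : Nat.Primes → Prop) (a : Nat.Primes → ℤ) (Kj : Submodule ℤ (Lam M))
    (hstab : ∀ l, good l → ∀ x ∈ Kj, TLam M l x ∈ Kj)
    (hUsq : ∀ x ∈ Kj, TLam M q (TLam M q x) = x)
    (f : Lam M) (hfK : f ∈ Kj) (hfp : ¬ ∃ y : Lam M, f = (p : ℤ) • y)
    (hcong : ∀ l, good l → ∃ y ∈ Kj, TLam M l f - a l • f = (p : ℤ) • y) :
    ∃ (g : CuspForm (Gamma0 M) 2) (𝔪' : Ideal (integralClosure ℤ ℂ)),
      g.IsNormalizedEigenform ∧ 𝔪'.IsMaximal ∧ (p : integralClosure ℤ ℂ) ∈ 𝔪' ∧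
      (∀ l : Nat.Primes, good l → ∃ c : integralClosure ℤ ℂ, (c : ℂ) = qCoeff g l ∧
        c - ((a l : ℤ) : integralClosure ℤ ℂ) ∈ 𝔪') ∧
      qCoeff g q ^ 2 = 1 := by
  classical
  haveI := finite_Lam M
  haveI hfdprod := finiteDimensional_prod_cuspForm_two M
  obtain ⟨𝔪, h𝔪max, hp𝔪⟩ := FLTPrelim.exists_maximalIdeal_natCast_prime_mem hp
  obtain ⟨γ₀, hγ₀⟩ := exists_not_dvd_apply M hp f hfp
  -- the complex span of the lattice
  let V : Submodule ℂ (Additive (Gamma0 M) →+ ℂ) :=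
    Submodule.span ℂ (castLam M '' (Kj : Set (Lam M)))
  have hVP : V ≤ parabolicHoms ℂ (Gamma0 M) ℂ := Submodule.span_le.mpr (by
    rintro _ ⟨x, -, rfl⟩
    exact castLam_mem_parabolicHoms M x)
  have hVrange : V ≤ LinearMap.range (phi M) := fun v hv => exists_phi_eq M (hVP hv)
  haveI : FiniteDimensional ℂ V := Submodule.finiteDimensional_of_le hVrange
  have hVstab : ∀ l, good l → ∀ v ∈ V, heckeTransferLin M l v ∈ V := by
    intro l hl v hv
    have h1 : V ≤ V.comap (heckeTransferLin M l) := Submodule.span_le.mpr (by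
      rintro _ ⟨x, hx, rfl⟩
      show heckeTransferLin M l (castLam M x) ∈ V
      rw [heckeTransferLin_apply, heckeTransfer_castLam]
      exact Submodule.subset_span ⟨_, hstab l hl x hx, rfl⟩)
    exact h1 hv
  have hVsq : ∀ v ∈ V, heckeTransferLin M q (heckeTransferLin M q v) = v := by
    have h1 : V ≤ LinearMap.eqLocus (heckeTransferLin M q ∘ₗ heckeTransferLin M q)
        LinearMap.id := Submodule.span_le.mpr (by
      rintro _ ⟨x, hx, rfl⟩
      show heckeTransferLin M q (heckeTransferLin M q (castLam M x)) = castLam M x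
      rw [heckeTransferLin_apply, heckeTransferLin_apply, heckeTransfer_castLam,
        heckeTransfer_castLam, hUsq x hx])
    exact fun v hv => h1 hv
  -- the operators on `V`
  let T : {l : Nat.Primes // good l} → Module.End ℂ V := fun i =>
    (heckeTransferLin M i.1).restrict (hVstab i.1 i.2)
  have hTcomm : ∀ i j, Commute (T i) (T j) := by
    intro i j
    show T i * T j = T j * T i
    refine LinearMap.ext fun v => Subtype.ext ?_
    exact heckeTransfer_comm_of_parabolic M i.1 j.1 (hVP v.2)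
  -- the lattice in `V`
  let cK : Kj →ₗ[ℤ] V :=
    { toFun := fun x => ⟨castLam M x, Submodule.subset_span ⟨x, x.2, rfl⟩⟩
      map_add' := fun x y => Subtype.ext (by
        show castLam M ((x + y : Kj) : Lam M) = castLam M x + castLam M y
        rw [Submodule.coe_add, map_add])
      map_smul' := fun n x => Subtype.ext (by
        show castLam M ((n • x : Kj) : Lam M) = n • castLam M x
        rw [Submodule.coe_smul, map_zsmul]) }
  have hcK : ∀ x : Kj, ((cK x : V) : Additive (Gamma0 M) →+ ℂ) = castLam M x := fun _ => rfl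
  let L : Submodule ℤ V := LinearMap.range cK
  have hLfg : L.FG := by
    haveI : IsNoetherian ℤ (Lam M) := isNoetherian_of_isNoetherianRing_of_finite ℤ (Lam M)
    haveI : Module.Finite ℤ Kj := Module.Finite.iff_fg.mpr (IsNoetherian.noetherian Kj)
    show (LinearMap.range cK).FG
    rw [LinearMap.range_eq_map]
    exact Submodule.FG.map cK Module.Finite.fg_top
  have hLspan : Submodule.span ℂ (L : Set V) = ⊤ := by
    apply Submodule.map_injective_of_injective V.injective_subtype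
    rw [Submodule.map_span, Submodule.map_subtype_top]
    show Submodule.span ℂ (V.subtype '' (L : Set V)) =
      Submodule.span ℂ (castLam M '' (Kj : Set (Lam M)))
    congr 1
    ext φ
    constructor
    · rintro ⟨_, ⟨x, rfl⟩, rfl⟩
      exact ⟨x, x.2, rfl⟩
    · rintro ⟨x, hx, rfl⟩
      exact ⟨cK ⟨x, hx⟩, ⟨⟨x, hx⟩, rfl⟩, rfl⟩
  have hLT : ∀ i, ∀ x ∈ L, T i x ∈ L := by
    rintro i _ ⟨x, rfl⟩
    refine ⟨⟨TLam M i.1 x, hstab i.1 i.2 x x.2⟩, Subtype.ext ?_⟩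
    show castLam M (TLam M i.1 x) = heckeTransfer M i.1 ℂ (castLam M x)
    rw [heckeTransfer_castLam]
  let ψ : V →ₗ[ℂ] ℂ := evalLin M γ₀ ∘ₗ V.subtype
  have hψ : ∀ x ∈ L, ∃ m : ℤ, ψ x = m := by
    rintro _ ⟨x, rfl⟩
    exact ⟨((x : Lam M) : Additive (Gamma0 M) →+ ℤ) γ₀, rfl⟩
  have hm₀ : (((f : Additive (Gamma0 M) →+ ℤ) γ₀ : ℤ) : integralClosure ℤ ℂ) ∉ 𝔪 :=
    intCast_not_mem_of_not_dvd hp h𝔪max hp𝔪 hγ₀
  have ha : ∀ i : {l : Nat.Primes // good l}, ∃ y ∈ L,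
      T i (cK ⟨f, hfK⟩) - ((a i.1 : ℤ) : ℂ) • cK ⟨f, hfK⟩ = (p : ℂ) • y := by
    intro i
    obtain ⟨y, hyK, hy⟩ := hcong i.1 i.2
    refine ⟨cK ⟨y, hyK⟩, ⟨⟨y, hyK⟩, rfl⟩, Subtype.ext ?_⟩
    show heckeTransfer M i.1 ℂ (castLam M f) - ((a i.1 : ℤ) : ℂ) • castLam M f =
      (p : ℂ) • castLam M y
    rw [heckeTransfer_castLam]
    have h1 := congrArg (castLam M) hy
    rw [map_sub, map_zsmul, map_zsmul] at h1
    rw [Int.cast_smul_eq_zsmul, h1, ← Int.cast_smul_eq_zsmul ℂ, Int.cast_natCast]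
  obtain ⟨v, lam, hv0, hv, hlam⟩ := deligneSerre T hTcomm L hLfg hLspan hLT ψ hψ p 𝔪
    h𝔪max.isPrime hp𝔪 (cK ⟨f, hfK⟩) ((f : Additive (Gamma0 M) →+ ℤ) γ₀) rfl hm₀
    (fun i => a i.1) ha
  have hvT : ∀ i : {l : Nat.Primes // good l},
      heckeTransfer M i.1 ℂ (v : Additive (Gamma0 M) →+ ℂ) =
        (lam i : ℂ) • (v : Additive (Gamma0 M) →+ ℂ) := fun i =>
    congrArg Subtype.val (hv i)
  -- back to cusp forms
  obtain ⟨w₁, hw₁⟩ := exists_phi_eq M (hVP v.2)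
  have hw₁0 : w₁ ≠ 0 := by
    rintro rfl
    apply hv0
    apply Subtype.ext
    rw [← hw₁, map_zero]
    rfl
  let F : Nat.Primes → Module.End ℂ (CuspForm (Gamma0 M) 2 × CuspForm (Gamma0 M) 2) := fun l =>
    LinearMap.prodMap (heckeFam M l) (heckeFam M l)
  have hFphi : ∀ l w, heckeTransfer M l ℂ (phi M w) = phi M (F l w) := fun l w =>
    heckeTransfer_phi M l w
  have hFcomm' : ∀ l l' w, F l (F l' w) = F l' (F l w) := fun l l' w =>
    Prod.ext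
      (congrArg (fun S : Module.End ℂ (CuspForm (Gamma0 M) 2) => S w.1) (heckeFam_commute l l').eq)
      (congrArg (fun S : Module.End ℂ (CuspForm (Gamma0 M) 2) => S w.2) (heckeFam_commute l l').eq)
  have hFcomm : ∀ l l', Commute (F l) (F l') := by
    intro l l'
    show F l * F l' = F l' * F l
    exact LinearMap.ext fun w => hFcomm' l l' w
  let 𝒲 : Submodule ℂ (CuspForm (Gamma0 M) 2 × CuspForm (Gamma0 M) 2) :=
    { carrier := {w | (∀ i : {l : Nat.Primes // good l}, F i.1 w = (lam i : ℂ) • w) ∧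
        F q (F q w) = w}
      zero_mem' := ⟨fun i => by rw [map_zero, smul_zero], by rw [map_zero, map_zero]⟩
      add_mem' := by
        rintro x y ⟨hx1, hx2⟩ ⟨hy1, hy2⟩
        exact ⟨fun i => by rw [map_add, hx1 i, hy1 i, smul_add],
          by rw [map_add, map_add, hx2, hy2]⟩
      smul_mem' := by
        rintro c x ⟨hx1, hx2⟩
        exact ⟨fun i => by rw [map_smul, hx1 i, smul_comm], by rw [map_smul, map_smul, hx2]⟩ }
  have hw₁𝒲 : w₁ ∈ 𝒲 := by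
    refine ⟨fun i => ?_, ?_⟩
    · apply phi_injective M
      rw [← hFphi, hw₁, hvT i, map_smul, hw₁]
    · apply phi_injective M
      rw [← hFphi, ← hFphi, hw₁]
      exact hVsq _ v.2
  have h𝒲ne : 𝒲 ≠ ⊥ := fun h => hw₁0 (by
    have h2 := hw₁𝒲
    rw [h] at h2
    exact (Submodule.mem_bot ℂ).mp h2)
  have hinv : ∀ l, ∀ x ∈ 𝒲, F l x ∈ 𝒲 := by
    rintro l x ⟨hx1, hx2⟩
    exact ⟨fun i => by rw [hFcomm' i.1 l x, hx1 i, map_smul],
      by rw [hFcomm' q l x, hFcomm' q l (F q x), hx2]⟩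
  obtain ⟨w, hw𝒲, hw0, hw⟩ := exists_common_eigenvector F hFcomm _ 𝒲 rfl h𝒲ne hinv
  choose μ hμ using hw
  have hμgood : ∀ i : {l : Nat.Primes // good l}, μ i.1 = (lam i : ℂ) := by
    intro i
    apply smul_left_injective ℂ hw0
    show μ i.1 • w = (lam i : ℂ) • w
    rw [← hμ i.1, hw𝒲.1 i]
  have hμq : μ q ^ 2 = 1 := by
    apply smul_left_injective ℂ hw0
    show (μ q ^ 2) • w = (1 : ℂ) • w
    have h1 := hw𝒲.2
    rw [hμ q, map_smul, hμ q, smul_smul] at h1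
    rw [one_smul, pow_two]
    exact h1
  -- a nonzero component
  have key : ∀ u : CuspForm (Gamma0 M) 2, u ≠ 0 → (∀ l, heckeFam M l u = μ l • u) →
      ∃ (g : CuspForm (Gamma0 M) 2) (𝔪' : Ideal (integralClosure ℤ ℂ)),
        g.IsNormalizedEigenform ∧ 𝔪'.IsMaximal ∧ (p : integralClosure ℤ ℂ) ∈ 𝔪' ∧
        (∀ l : Nat.Primes, good l → ∃ c : integralClosure ℤ ℂ, (c : ℂ) = qCoeff g l ∧
          c - ((a l : ℤ) : integralClosure ℤ ℂ) ∈ 𝔪') ∧
        qCoeff g q ^ 2 = 1 := by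
    intro u hu0 hu
    obtain ⟨g, hg, hgl⟩ := exists_normalizedEigenform_of_eigenvector u hu0 μ hu
    refine ⟨g, 𝔪, hg, h𝔪max, hp𝔪, fun l hl => ⟨lam ⟨l, hl⟩, ?_, hlam ⟨l, hl⟩⟩, ?_⟩
    · rw [hgl l]
      exact (hμgood ⟨l, hl⟩).symm
    · rw [hgl q]
      exact hμq
  by_cases h1 : w.1 = 0
  · have h2 : w.2 ≠ 0 := fun h2 => hw0 (Prod.ext h1 h2)
    exact key w.2 h2 fun l => congrArg Prod.snd (hμ l)
  · exact key w.1 h1 fun l => congrArg Prod.fst (hμ l)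

/-- the same with `K = ker B₁ ⊓ ker B₂`, in the output shape of
`LR.AbstractGen.exists_new_class_gen`. -/
theorem exists_eigenform_of_new_class {L₀ : Type*} [AddCommGroup L₀] {p : ℕ} (hp : p.Prime)
    (q : Nat.Primes) (good : Nat.Primes → Prop) (a : Nat.Primes → ℤ)
    (B₁ B₂ : Lam M →ₗ[ℤ] L₀)
    (hstab₁ : ∀ l, good l → ∀ x, B₁ x = 0 → B₂ x = 0 → B₁ (TLam M l x) = 0)
    (hstab₂ : ∀ l, good l → ∀ x, B₁ x = 0 → B₂ x = 0 → B₂ (TLam M l x) = 0)
    (hUsq : ∀ x, B₁ x = 0 → B₂ x = 0 → TLam M q (TLam M q x) = x)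
    (f : Lam M) (hf₁ : B₁ f = 0) (hf₂ : B₂ f = 0) (hfp : ¬ ∃ y : Lam M, f = (p : ℤ) • y)
    (hcong : ∀ l, good l → ∃ y : Lam M, B₁ y = 0 ∧ B₂ y = 0 ∧
      TLam M l f - a l • f = (p : ℤ) • y) :
    ∃ (g : CuspForm (Gamma0 M) 2) (𝔪' : Ideal (integralClosure ℤ ℂ)),
      g.IsNormalizedEigenform ∧ 𝔪'.IsMaximal ∧ (p : integralClosure ℤ ℂ) ∈ 𝔪' ∧
      (∀ l : Nat.Primes, good l → ∃ c : integralClosure ℤ ℂ, (c : ℂ) = qCoeff g l ∧
        c - ((a l : ℤ) : integralClosure ℤ ℂ) ∈ 𝔪') ∧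
      qCoeff g q ^ 2 = 1 := by
  refine exists_eigenform_of_kernel_class M hp q good a (LinearMap.ker B₁ ⊓ LinearMap.ker B₂)
    ?_ ?_ f ⟨hf₁, hf₂⟩ hfp ?_
  · rintro l hl x ⟨hx₁, hx₂⟩
    exact ⟨hstab₁ l hl x hx₁ hx₂, hstab₂ l hl x hx₁ hx₂⟩
  · rintro x ⟨hx₁, hx₂⟩
    exact hUsq x hx₁ hx₂
  · intro l hl
    obtain ⟨y, hy₁, hy₂, hy⟩ := hcong l hl
    exact ⟨y, ⟨hy₁, hy₂⟩, hy⟩

/-! ### The frozen S41 conclusion -/

/-- **The frozen S41 conclusion from a kernel class** at level `N q'`. -/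
theorem s41_of_kernel_class {W : WeierstrassCurve ℤ} {p N q' : ℕ} [NeZero (N * q')]
    (hp : p.Prime) (hq' : q'.Prime) (Kj : Submodule ℤ (Lam (N * q')))
    (hstab : ∀ l : Nat.Primes, W.IsGoodPrimeFor l → ¬ (l : ℕ) ∣ N * q' → (l : ℕ) ≠ p →
      ∀ x ∈ Kj, TLam (N * q') l x ∈ Kj)
    (hUsq : ∀ x ∈ Kj, TLam (N * q') ⟨q', hq'⟩ (TLam (N * q') ⟨q', hq'⟩ x) = x)
    (f : Lam (N * q')) (hfK : f ∈ Kj) (hfp : ¬ ∃ y : Lam (N * q'), f = (p : ℤ) • y)
    (hcong : ∀ l : Nat.Primes, W.IsGoodPrimeFor l → ¬ (l : ℕ) ∣ N * q' → (l : ℕ) ≠ p →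
      ∃ y ∈ Kj, TLam (N * q') l f - (W.apOfModel l) • f = (p : ℤ) • y) :
    ∃ (g : CuspForm (CongruenceSubgroup.Gamma0 (N * q')) 2) (𝔪' : Ideal (integralClosure ℤ ℂ)),
      g.IsNormalizedEigenform ∧ 𝔪'.IsMaximal ∧ (p : integralClosure ℤ ℂ) ∈ 𝔪' ∧
      (∀ ℓ : ℕ, ℓ.Prime → W.IsGoodPrimeFor ℓ → ¬ ℓ ∣ N * q' → ℓ ≠ p →
        ∃ a : integralClosure ℤ ℂ, (a : ℂ) = ModularFormClass.qCoeff g ℓ ∧
          a - ((W.apOfModel ℓ : ℤ) : integralClosure ℤ ℂ) ∈ 𝔪') ∧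
      g.IsNewAt q' := by
  obtain ⟨g, 𝔪', hg, hmax, hpm, hgood, hq⟩ := exists_eigenform_of_kernel_class (N * q') hp
    ⟨q', hq'⟩ (fun l => W.IsGoodPrimeFor l ∧ ¬ (l : ℕ) ∣ N * q' ∧ (l : ℕ) ≠ p)
    (fun l => W.apOfModel l) Kj (fun l hl => hstab l hl.1 hl.2.1 hl.2.2) hUsq f hfK hfp
    (fun l hl => hcong l hl.1 hl.2.1 hl.2.2)
  exact ⟨g, 𝔪', hg, hmax, hpm, fun ℓ hℓ h1 h2 h3 => hgood ⟨ℓ, hℓ⟩ ⟨h1, h2, h3⟩, hq⟩

/-- the frozen S41 conclusion from the output of `LR.AbstractGen.exists_new_class_gen`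
(`K = ker B₁ ⊓ ker B₂`). -/
theorem s41_of_new_class {L₀ : Type*} [AddCommGroup L₀] {W : WeierstrassCurve ℤ} {p N q' : ℕ}
    [NeZero (N * q')] (hp : p.Prime) (hq' : q'.Prime) (B₁ B₂ : Lam (N * q') →ₗ[ℤ] L₀)
    (hstab₁ : ∀ l : Nat.Primes, W.IsGoodPrimeFor l → ¬ (l : ℕ) ∣ N * q' → (l : ℕ) ≠ p →
      ∀ x, B₁ x = 0 → B₂ x = 0 → B₁ (TLam (N * q') l x) = 0)
    (hstab₂ : ∀ l : Nat.Primes, W.IsGoodPrimeFor l → ¬ (l : ℕ) ∣ N * q' → (l : ℕ) ≠ p →
      ∀ x, B₁ x = 0 → B₂ x = 0 → B₂ (TLam (N * q') l x) = 0)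
    (hUsq : ∀ x, B₁ x = 0 → B₂ x = 0 →
      TLam (N * q') ⟨q', hq'⟩ (TLam (N * q') ⟨q', hq'⟩ x) = x)
    (f : Lam (N * q')) (hf₁ : B₁ f = 0) (hf₂ : B₂ f = 0)
    (hfp : ¬ ∃ y : Lam (N * q'), f = (p : ℤ) • y)
    (hcong : ∀ l : Nat.Primes, W.IsGoodPrimeFor l → ¬ (l : ℕ) ∣ N * q' → (l : ℕ) ≠ p →
      ∃ y : Lam (N * q'), B₁ y = 0 ∧ B₂ y = 0 ∧
        TLam (N * q') l f - (W.apOfModel l) • f = (p : ℤ) • y) :
    ∃ (g : CuspForm (CongruenceSubgroup.Gamma0 (N * q')) 2) (𝔪' : Ideal (integralClosure ℤ ℂ)),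
      g.IsNormalizedEigenform ∧ 𝔪'.IsMaximal ∧ (p : integralClosure ℤ ℂ) ∈ 𝔪' ∧
      (∀ ℓ : ℕ, ℓ.Prime → W.IsGoodPrimeFor ℓ → ¬ ℓ ∣ N * q' → ℓ ≠ p →
        ∃ a : integralClosure ℤ ℂ, (a : ℂ) = ModularFormClass.qCoeff g ℓ ∧
          a - ((W.apOfModel ℓ : ℤ) : integralClosure ℤ ℂ) ∈ 𝔪') ∧
      g.IsNewAt q' := by
  refine s41_of_kernel_class hp hq' (LinearMap.ker B₁ ⊓ LinearMap.ker B₂) ?_ ?_ f ⟨hf₁, hf₂⟩ hfp ?_
  · rintro l h1 h2 h3 x ⟨hx₁, hx₂⟩
    exact ⟨hstab₁ l h1 h2 h3 x hx₁ hx₂, hstab₂ l h1 h2 h3 x hx₁ hx₂⟩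
  · rintro x ⟨hx₁, hx₂⟩
    exact hUsq x hx₁ hx₂
  · intro l h1 h2 h3
    obtain ⟨y, hy₁, hy₂, hy⟩ := hcong l h1 h2 h3
    exact ⟨y, ⟨hy₁, hy₂⟩, hy⟩

end Fermat.Agent.LR.S41Of
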