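import Mathlib
import Fermat.Agent.LR.S41Of

/-!
# Program M: the Hecke operators `TLam M l` on `Λ(M) = Hom_par(Γ₀(M), ℤ)` commute

Forms-side proof: `Λ(M) ↪ Hom_par(Γ₀(M), ℂ) ≅ S₂ × S₂` (Eichler–Shimura, `S41Of.phi`) intertwines
`TLam M l` with `heckeFam M l × heckeFam M l`, and the latter commute (`S49.heckeFam_commute`).
-/

set_option autoImplicit false
set_option linter.unusedSectionVars false

namespace Fermat.Agent.LR.TLamComm

open CongruenceSubgroup ModularCurve.Period
open Fermat.Agent.Jac Fermat.Agent.LR.S41Of

variable (M : ℕ) [NeZero M]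

theorem castLam_injective : Function.Injective (castLam M) := by
  intro x y h
  refine Subtype.ext (AddMonoidHom.ext fun γ => ?_)
  have h1 := congrArg (fun φ : Additive (Gamma0 M) →+ ℂ => φ γ) h
  simp only [castLam_apply] at h1
  exact Int.cast_injective h1

/-- `T_l T_l' = T_l' T_l` on `Λ(M)`, pointwise. -/
theorem TLam_TLam_comm (l l' : Nat.Primes) (x : Lam M) :
    TLam M l (TLam M l' x) = TLam M l' (TLam M l x) := by
  apply castLam_injective M
  rw [← heckeTransfer_castLam, ← heckeTransfer_castLam, ← heckeTransfer_castLam,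
    ← heckeTransfer_castLam]
  exact heckeTransfer_comm_of_parabolic M l l' (castLam_mem_parabolicHoms M x)

/-- The Hecke operators on `Λ(M)` commute (all primes, including `l ∣ M`). -/
theorem TLam_commute (l l' : Nat.Primes) : Commute (TLam M l) (TLam M l') := by
  show TLam M l * TLam M l' = TLam M l' * TLam M l
  exact LinearMap.ext fun x => TLam_TLam_comm M l l' x

end Fermat.Agent.LR.TLamComm
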