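import Mathlib
import Fermat.Prelude.Def_FLTPrelim_GaloisRep
import Fermat.Prelude.Def_FLTPrelim_Modularity

/-!
# Action of an admissible change of variables on the points of a Weierstrass curve

For a Weierstrass curve `W` over a field `F` and `C : WeierstrassCurve.VariableChange F`
(`C = (u, r, s, t)`), the map `(X, Y) ↦ (u² X + r, u³ Y + u² s X + t)` is an additive equivalence
from the group of nonsingular points of `C • W` to that of `W` (`pointEquiv`).

For `W` and `C` defined over a ring `R` and a field `K` over `R`, the base-changed equivalence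
`pointEquivBC` commutes with the action of `K ≃ₐ[S] K` on points (`pointEquivBC_smul`), induces a
Galois-equivariant equivalence on `n`-torsion (`torsionEquiv`, `torsionEquiv_smul`), and
irreducibility of the mod `n` Galois representation transfers
(`irreducible_of_variableChange`, `irreducible_variableChange_iff`,
`irreducible_of_smul_eq`).
-/

set_option autoImplicit false

namespace Fermat.Agent.LR.VarChangePoint

open WeierstrassCurve WeierstrassCurve.Affine

/-! ### Polynomial identities over a commutative ring -/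

section Ring

variable {F : Type*} [CommRing F] (W : WeierstrassCurve F) (C : VariableChange F)

theorem u_mul_inv_pow (n : ℕ) (z : F) : (C.u : F) ^ n * ((C.u⁻¹ : Fˣ) ^ n * z) = z := by
  rw [← mul_assoc, ← mul_pow, ← Units.val_mul, mul_inv_cancel, Units.val_one, one_pow, one_mul]

theorem u_mul_a₁ : (C.u : F) * (C • W).a₁ = W.a₁ + 2 * C.s := by
  have := u_mul_inv_pow C 1 (W.a₁ + 2 * C.s)
  rw [pow_one, pow_one] at this
  rw [variableChange_a₁, this]

theorem u_pow_mul_a₂ :
    (C.u : F) ^ 2 * (C • W).a₂ = W.a₂ - C.s * W.a₁ + 3 * C.r - C.s ^ 2 := by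
  rw [variableChange_a₂, u_mul_inv_pow]

theorem u_pow_mul_a₃ : (C.u : F) ^ 3 * (C • W).a₃ = W.a₃ + C.r * W.a₁ + 2 * C.t := by
  rw [variableChange_a₃, u_mul_inv_pow]

theorem u_pow_mul_a₄ : (C.u : F) ^ 4 * (C • W).a₄ =
    W.a₄ - C.s * W.a₃ + 2 * C.r * W.a₂ - (C.t + C.r * C.s) * W.a₁ + 3 * C.r ^ 2
      - 2 * C.s * C.t := by
  rw [variableChange_a₄, u_mul_inv_pow]

theorem u_pow_mul_a₆ : (C.u : F) ^ 6 * (C • W).a₆ =
    W.a₆ + C.r * W.a₄ + C.r ^ 2 * W.a₂ + C.r ^ 3 - C.t * W.a₃ - C.t ^ 2
      - C.r * C.t * W.a₁ := by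
  rw [variableChange_a₆, u_mul_inv_pow]

/-- The `x`-coordinate of the image of `(X, Y)`. -/
def vcX (X : F) : F := (C.u : F) ^ 2 * X + C.r

/-- The `y`-coordinate of the image of `(X, Y)`. -/
def vcY (X Y : F) : F := (C.u : F) ^ 3 * Y + (C.u : F) ^ 2 * C.s * X + C.t

/-- The `X`-coordinate of the preimage of `(x, y)`. -/
def vcXinv (x : F) : F := ((C.u⁻¹ : Fˣ) : F) ^ 2 * (x - C.r)

/-- The `Y`-coordinate of the preimage of `(x, y)`. -/
def vcYinv (x y : F) : F := ((C.u⁻¹ : Fˣ) : F) ^ 3 * (y - C.s * (x - C.r) - C.t)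

theorem vcX_vcXinv (x : F) : vcX C (vcXinv C x) = x := by
  rw [vcX, vcXinv, u_mul_inv_pow]; ring

theorem vcY_vcYinv (x y : F) : vcY C (vcXinv C x) (vcYinv C x y) = y := by
  rw [vcY, vcXinv, vcYinv, u_mul_inv_pow, mul_right_comm, u_mul_inv_pow]; ring

theorem inv_mul_u_pow (n : ℕ) (z : F) : ((C.u⁻¹ : Fˣ) : F) ^ n * ((C.u : F) ^ n * z) = z := by
  rw [← mul_assoc, ← mul_pow, ← Units.val_mul, inv_mul_cancel, Units.val_one, one_pow, one_mul]

theorem vcXinv_vcX (X : F) : vcXinv C (vcX C X) = X := by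
  rw [vcX, vcXinv, add_sub_cancel_right, inv_mul_u_pow]

theorem vcYinv_vcY (X Y : F) : vcYinv C (vcX C X) (vcY C X Y) = Y := by
  rw [vcX, vcY, vcYinv, add_sub_cancel_right]
  have : (C.u : F) ^ 3 * Y + (C.u : F) ^ 2 * C.s * X + C.t - C.s * ((C.u : F) ^ 2 * X) - C.t =
      (C.u : F) ^ 3 * Y := by ring
  rw [this, inv_mul_u_pow]

/-- The Weierstrass polynomial of `W` at the image point is `u⁶` times that of `C • W`. -/
theorem vc_polynomial (X Y : F) :
    vcY C X Y ^ 2 + W.a₁ * vcX C X * vcY C X Y + W.a₃ * vcY C X Y -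
        (vcX C X ^ 3 + W.a₂ * vcX C X ^ 2 + W.a₄ * vcX C X + W.a₆) =
      (C.u : F) ^ 6 * (Y ^ 2 + (C • W).a₁ * X * Y + (C • W).a₃ * Y -
        (X ^ 3 + (C • W).a₂ * X ^ 2 + (C • W).a₄ * X + (C • W).a₆)) := by
  simp only [vcX, vcY]
  linear_combination (-(C.u : F) ^ 5 * X * Y) * u_mul_a₁ W C - (C.u : F) ^ 3 * Y * u_pow_mul_a₃ W C
    + (C.u : F) ^ 4 * X ^ 2 * u_pow_mul_a₂ W C + (C.u : F) ^ 2 * X * u_pow_mul_a₄ W C
    + u_pow_mul_a₆ W C

/-- The partial derivative in `Y`. -/
theorem vc_polynomialY (X Y : F) :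
    2 * vcY C X Y + W.a₁ * vcX C X + W.a₃ =
      (C.u : F) ^ 3 * (2 * Y + (C • W).a₁ * X + (C • W).a₃) := by
  simp only [vcX, vcY]
  linear_combination (-(C.u : F) ^ 2 * X) * u_mul_a₁ W C - u_pow_mul_a₃ W C

/-- The partial derivative in `X`. -/
theorem vc_polynomialX (X Y : F) :
    W.a₁ * vcY C X Y - (3 * vcX C X ^ 2 + 2 * W.a₂ * vcX C X + W.a₄) +
        C.s * (2 * vcY C X Y + W.a₁ * vcX C X + W.a₃) =
      (C.u : F) ^ 4 * ((C • W).a₁ * Y - (3 * X ^ 2 + 2 * (C • W).a₂ * X + (C • W).a₄)) := by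
  simp only [vcX, vcY]
  linear_combination (-(C.u : F) ^ 3 * Y) * u_mul_a₁ W C
    + 2 * (C.u : F) ^ 2 * X * u_pow_mul_a₂ W C + u_pow_mul_a₄ W C

theorem vc_negY (X Y : F) :
    vcY C X ((C • W).toAffine.negY X Y) = W.toAffine.negY (vcX C X) (vcY C X Y) := by
  simp only [negY, vcX, vcY]
  linear_combination (-(C.u : F) ^ 2 * X) * u_mul_a₁ W C - u_pow_mul_a₃ W C

theorem vc_addX (X₁ X₂ ℓ : F) :
    vcX C ((C • W).toAffine.addX X₁ X₂ ℓ) =
      W.toAffine.addX (vcX C X₁) (vcX C X₂) ((C.u : F) * ℓ + C.s) := by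
  simp only [addX, vcX]
  linear_combination ((C.u : F) * ℓ) * u_mul_a₁ W C - u_pow_mul_a₂ W C

theorem vc_negAddY (X₁ X₂ Y₁ ℓ : F) :
    vcY C ((C • W).toAffine.addX X₁ X₂ ℓ) ((C • W).toAffine.negAddY X₁ X₂ Y₁ ℓ) =
      W.toAffine.negAddY (vcX C X₁) (vcX C X₂) (vcY C X₁ Y₁) ((C.u : F) * ℓ + C.s) := by
  simp only [negAddY, ← vc_addX]
  simp only [vcX, vcY]
  ring

theorem vc_addY (X₁ X₂ Y₁ ℓ : F) :
    vcY C ((C • W).toAffine.addX X₁ X₂ ℓ) ((C • W).toAffine.addY X₁ X₂ Y₁ ℓ) =
      W.toAffine.addY (vcX C X₁) (vcX C X₂) (vcY C X₁ Y₁) ((C.u : F) * ℓ + C.s) := by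
  simp only [addY]
  rw [vc_negY, vc_negAddY, vc_addX]

end Ring

/-! ### The map on points over a field -/

section Field

variable {F : Type*} [Field F] (W : WeierstrassCurve F) (C : VariableChange F)

theorem u_ne_zero : (C.u : F) ≠ 0 := C.u.ne_zero

theorem vc_equation (X Y : F) :
    W.toAffine.Equation (vcX C X) (vcY C X Y) ↔ (C • W).toAffine.Equation X Y := by
  rw [equation_iff', equation_iff', vc_polynomial]
  simp [u_ne_zero C]

theorem vc_nonsingular (X Y : F) :
    W.toAffine.Nonsingular (vcX C X) (vcY C X Y) ↔ (C • W).toAffine.Nonsingular X Y := by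
  rw [nonsingular_iff', nonsingular_iff', vc_equation]
  refine and_congr_right fun _ => ?_
  have hX := vc_polynomialX W C X Y
  have hY := vc_polynomialY W C X Y
  have hu4 : (C.u : F) ^ 4 ≠ 0 := pow_ne_zero _ (u_ne_zero C)
  have hu3 : (C.u : F) ^ 3 ≠ 0 := pow_ne_zero _ (u_ne_zero C)
  rw [← not_iff_not]
  simp only [ne_eq, not_or, not_not]
  constructor
  · rintro ⟨h1, h2⟩
    rw [h2] at hY
    rw [h1, h2] at hX
    refine ⟨?_, ?_⟩
    · have : (C.u : F) ^ 4 * ((C • W).a₁ * Y - (3 * X ^ 2 + 2 * (C • W).a₂ * X + (C • W).a₄)) = 0 := by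
        rw [← hX]; ring
      exact (mul_eq_zero.mp this).resolve_left hu4
    · exact (mul_eq_zero.mp hY.symm).resolve_left hu3
  · rintro ⟨h1, h2⟩
    rw [h2, mul_zero] at hY
    rw [h1, mul_zero, hY, mul_zero, add_zero] at hX
    exact ⟨hX, hY⟩

theorem vc_nonsingular_inv (x y : F) :
    (C • W).toAffine.Nonsingular (vcXinv C x) (vcYinv C x y) ↔ W.toAffine.Nonsingular x y := by
  rw [← vc_nonsingular, vcX_vcXinv, vcY_vcYinv]

theorem vcX_injective : Function.Injective (vcX C) := by
  intro a b h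
  simp only [vcX, add_left_inj] at h
  exact mul_left_cancel₀ (pow_ne_zero _ (u_ne_zero C)) h

theorem vcY_injective (X : F) : Function.Injective (vcY C X) := by
  intro a b h
  simp only [vcY, add_left_inj] at h
  exact mul_left_cancel₀ (pow_ne_zero _ (u_ne_zero C)) h

variable [DecidableEq F]

/-- Outside the case of a vertical line, slopes transform by `ℓ = u ℓ' + s`. -/
theorem vc_slope {X₁ X₂ Y₁ Y₂ : F} (h₁ : (C • W).toAffine.Equation X₁ Y₁)
    (h₂ : (C • W).toAffine.Equation X₂ Y₂)
    (hXY : ¬(X₁ = X₂ ∧ Y₁ = (C • W).toAffine.negY X₂ Y₂)) :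
    W.toAffine.slope (vcX C X₁) (vcX C X₂) (vcY C X₁ Y₁) (vcY C X₂ Y₂) =
      (C.u : F) * (C • W).toAffine.slope X₁ X₂ Y₁ Y₂ + C.s := by
  have hu := u_ne_zero C
  by_cases hx : X₁ = X₂
  · subst hx
    have hy : Y₁ ≠ (C • W).toAffine.negY X₁ Y₂ := fun h => hXY ⟨rfl, h⟩
    have hY12 : Y₁ = Y₂ := Y_eq_of_Y_ne h₁ h₂ rfl hy
    subst hY12
    have hy' : vcY C X₁ Y₁ ≠ W.toAffine.negY (vcX C X₁) (vcY C X₁ Y₁) := by
      rw [← vc_negY]
      exact fun h => hy (vcY_injective C X₁ h)
    rw [slope_of_Y_ne rfl hy, slope_of_Y_ne rfl hy']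
    have hD' : Y₁ - (C • W).toAffine.negY X₁ Y₁ ≠ 0 := sub_ne_zero.mpr hy
    have hD : vcY C X₁ Y₁ - W.toAffine.negY (vcX C X₁) (vcY C X₁ Y₁) ≠ 0 := sub_ne_zero.mpr hy'
    have hX := vc_polynomialX W C X₁ Y₁
    have hY := vc_polynomialY W C X₁ Y₁
    have e1 : vcY C X₁ Y₁ - W.toAffine.negY (vcX C X₁) (vcY C X₁ Y₁) =
        (C.u : F) ^ 3 * (Y₁ - (C • W).toAffine.negY X₁ Y₁) := by
      simp only [negY]
      linear_combination hY
    rw [div_eq_iff hD, e1]
    field_simp
    simp only [negY] at hD' ⊢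
    linear_combination (-1 : F) * hX + C.s * hY
  · have hx' : vcX C X₁ ≠ vcX C X₂ := fun h => hx (vcX_injective C h)
    rw [slope_of_X_ne hx, slope_of_X_ne hx']
    have h1 : X₁ - X₂ ≠ 0 := sub_ne_zero.mpr hx
    have h2 : vcX C X₁ - vcX C X₂ ≠ 0 := sub_ne_zero.mpr hx'
    rw [div_eq_iff h2]
    simp only [vcX, vcY]
    field_simp
    ring

/-- The map on points induced by `C`. -/
def pointFun : (C • W).toAffine.Point → W.toAffine.Point
  | .zero => .zero
  | .some X Y h => .some (vcX C X) (vcY C X Y) ((vc_nonsingular W C X Y).mpr h)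

omit [DecidableEq F] in
@[simp] theorem pointFun_zero : pointFun W C 0 = 0 := rfl

omit [DecidableEq F] in
@[simp] theorem pointFun_some {X Y : F} (h : (C • W).toAffine.Nonsingular X Y) :
    pointFun W C (.some X Y h) =
      .some (vcX C X) (vcY C X Y) ((vc_nonsingular W C X Y).mpr h) := rfl

/-- The inverse map on points. -/
def pointInvFun : W.toAffine.Point → (C • W).toAffine.Point
  | .zero => .zero
  | .some x y h => .some (vcXinv C x) (vcYinv C x y) ((vc_nonsingular_inv W C x y).mpr h)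

theorem pointFun_add (P Q : (C • W).toAffine.Point) :
    pointFun W C (P + Q) = pointFun W C P + pointFun W C Q := by
  rcases P with _ | ⟨X₁, Y₁, h₁⟩ <;> rcases Q with _ | ⟨X₂, Y₂, h₂⟩
  any_goals rfl
  by_cases hxy : X₁ = X₂ ∧ Y₁ = (C • W).toAffine.negY X₂ Y₂
  · rw [Point.add_of_Y_eq hxy.left hxy.right]
    simp only [pointFun_some]
    rw [Point.add_of_Y_eq (by rw [hxy.left]) (by rw [← vc_negY, hxy.right, hxy.left])]
    rfl
  · have hxy' : ¬(vcX C X₁ = vcX C X₂ ∧
        vcY C X₁ Y₁ = W.toAffine.negY (vcX C X₂) (vcY C X₂ Y₂)) := by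
      rintro ⟨e1, e2⟩
      have e1' := vcX_injective C e1
      subst e1'
      rw [← vc_negY] at e2
      exact hxy ⟨rfl, vcY_injective C X₁ e2⟩
    rw [Point.add_some hxy]
    simp only [pointFun_some]
    rw [Point.add_some hxy']
    simp only [vc_slope W C h₁.1 h₂.1 hxy, vc_addX, vc_addY]

/-- The additive equivalence `(C • W)(F) ≃+ W(F)`, `(X, Y) ↦ (u² X + r, u³ Y + u² s X + t)`. -/
def pointEquiv : (C • W).toAffine.Point ≃+ W.toAffine.Point where
  toFun := pointFun W C
  invFun := pointInvFun W C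
  left_inv P := by
    rcases P with _ | ⟨X, Y, h⟩
    · rfl
    · simp only [pointFun_some, pointInvFun, Point.some.injEq]
      exact ⟨vcXinv_vcX C X, vcYinv_vcY C X Y⟩
  right_inv P := by
    rcases P with _ | ⟨x, y, h⟩
    · rfl
    · simp only [pointInvFun, pointFun_some, Point.some.injEq]
      exact ⟨vcX_vcXinv C x, vcY_vcYinv C x y⟩
  map_add' := pointFun_add W C

@[simp] theorem pointEquiv_zero : pointEquiv W C 0 = 0 := rfl

@[simp] theorem pointEquiv_some {X Y : F} (h : (C • W).toAffine.Nonsingular X Y) :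
    pointEquiv W C (.some X Y h) =
      .some (vcX C X) (vcY C X Y) ((vc_nonsingular W C X Y).mpr h) := rfl

@[simp] theorem pointEquiv_symm_zero : (pointEquiv W C).symm 0 = 0 := rfl

theorem pointEquiv_symm_some {x y : F} (h : W.toAffine.Nonsingular x y) :
    (pointEquiv W C).symm (.some x y h) =
      .some (vcXinv C x) (vcYinv C x y) ((vc_nonsingular_inv W C x y).mpr h) := rfl

end Field

/-! ### Base change and the Galois action -/

section BaseChange

open scoped WeierstrassCurve.Affine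

/-- Transport of points along an equality of curves. -/
def pointCast {F : Type*} [Field F] [DecidableEq F] {W₁ W₂ : WeierstrassCurve F} (h : W₁ = W₂) :
    W₁.toAffine.Point ≃+ W₂.toAffine.Point := by
  subst h
  exact AddEquiv.refl _

theorem pointCast_zero {F : Type*} [Field F] [DecidableEq F] {W₁ W₂ : WeierstrassCurve F}
    (h : W₁ = W₂) : pointCast h 0 = 0 := by
  subst h; rfl

theorem pointCast_some {F : Type*} [Field F] [DecidableEq F] {W₁ W₂ : WeierstrassCurve F}
    (h : W₁ = W₂) {x y : F} (hxy : W₁.toAffine.Nonsingular x y) :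
    pointCast h (.some x y hxy) = .some x y (h ▸ hxy) := by
  subst h; rfl

universe r s v

variable {R : Type r} {S : Type s} {K : Type v} [CommRing R] [CommRing S] [Field K]
  [DecidableEq K] (W : Affine R) (C : VariableChange R) [Algebra R S] [Algebra R K] [Algebra S K]
  [IsScalarTower R S K]

omit [DecidableEq K] in
/-- The base change of a variable change acts on the base change of the curve. -/
theorem baseChange_smul :
    (C • W).baseChange K = (C.map (algebraMap R K)) • (W.baseChange K) :=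
  (map_variableChange W C (algebraMap R K)).symm

/-- The equivalence `pointEquiv` for a curve and a change of variables defined over `R`,
on `K`-points. -/
noncomputable def pointEquivBC : ((C • W)⁄K).Point ≃+ (W⁄K).Point :=
  (pointCast (baseChange_smul (K := K) W C)).trans
    (pointEquiv (W.baseChange K) (C.map (algebraMap R K)))

@[simp] theorem pointEquivBC_zero : pointEquivBC (K := K) W C 0 = 0 := by
  simp [pointEquivBC]

theorem pointEquivBC_some {X Y : K} (h : ((C • W)⁄K).Nonsingular X Y) :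
    ∃ h', pointEquivBC (K := K) W C (.some X Y h) =
      .some (vcX (C.map (algebraMap R K)) X) (vcY (C.map (algebraMap R K)) X Y) h' := by
  have h1 : ((C.map (algebraMap R K)) • (W.baseChange K)).toAffine.Nonsingular X Y :=
    baseChange_smul (K := K) W C ▸ h
  refine ⟨(vc_nonsingular (W.baseChange K) (C.map (algebraMap R K)) X Y).mpr h1, ?_⟩
  simp only [pointEquivBC, AddEquiv.trans_apply]
  rw [pointCast_some, pointEquiv_some]

theorem map_vcX {A B : Type*} [CommRing A] [CommRing B] (C : VariableChange A) (φ : A →+* B)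
    (X : A) : φ (vcX C X) = vcX (C.map φ) (φ X) := by
  simp [vcX]

theorem map_vcY {A B : Type*} [CommRing A] [CommRing B] (C : VariableChange A) (φ : A →+* B)
    (X Y : A) : φ (vcY C X Y) = vcY (C.map φ) (φ X) (φ Y) := by
  simp [vcY]

open WeierstrassCurve.Affine.Point in
/-- The change of variables by `C` defined over `R` commutes with the Galois action. -/
theorem pointEquivBC_smul (σ : K ≃ₐ[S] K) (P : ((C • W)⁄K).Point) :
    pointEquivBC (K := K) W C (σ • P) = σ • pointEquivBC (K := K) W C P := by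
  rcases P with _ | ⟨X, Y, h⟩
  · have h0 : σ • (0 : ((C • W)⁄K).Point) = 0 := smul_zero σ
    have h0' : σ • (0 : (W⁄K).Point) = 0 := smul_zero σ
    change pointEquivBC (K := K) W C (σ • (0 : ((C • W)⁄K).Point)) =
      σ • pointEquivBC (K := K) W C (0 : ((C • W)⁄K).Point)
    rw [h0, pointEquivBC_zero, h0']
  · obtain ⟨h', he⟩ := pointEquivBC_some (K := K) W C h
    rw [he, algEquiv_smul_def, algEquiv_smul_def, Point.map_some, Point.map_some]
    obtain ⟨h'', he'⟩ := pointEquivBC_some (K := K) W C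
      (((C • W).baseChange_nonsingular σ.toAlgHom.injective ..).mpr h)
    rw [he']
    have hC : (C.map (algebraMap R K)).map (σ.toAlgHom : K →+* K) = C.map (algebraMap R K) := by
      rw [VariableChange.map_map]
      congr 1
      ext x
      simp only [RingHom.comp_apply]
      rw [IsScalarTower.algebraMap_apply R S K]
      exact σ.commutes _
    congr 1
    · have := map_vcX (C.map (algebraMap R K)) (σ.toAlgHom : K →+* K) X
      rw [hC] at this
      exact this.symm
    · have := map_vcY (C.map (algebraMap R K)) (σ.toAlgHom : K →+* K) X Y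
      rw [hC] at this
      exact this.symm

theorem pointEquivBC_mem_torsionBy {n : ℕ} {P : ((C • W)⁄K).Point}
    (hP : P ∈ Submodule.torsionBy ℤ ((C • W)⁄K).Point n) :
    pointEquivBC (K := K) W C P ∈ Submodule.torsionBy ℤ (W⁄K).Point n := by
  rw [Submodule.mem_torsionBy_iff] at hP ⊢
  rw [← map_zsmul, hP, map_zero]

theorem pointEquivBC_symm_mem_torsionBy {n : ℕ} {P : (W⁄K).Point}
    (hP : P ∈ Submodule.torsionBy ℤ (W⁄K).Point n) :
    (pointEquivBC (K := K) W C).symm P ∈ Submodule.torsionBy ℤ ((C • W)⁄K).Point n := by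
  rw [Submodule.mem_torsionBy_iff] at hP ⊢
  rw [← map_zsmul, hP, map_zero]

/-- The change of variables on `n`-torsion points. -/
noncomputable def torsionEquiv (n : ℕ) :
    Submodule.torsionBy ℤ ((C • W)⁄K).Point n ≃+ Submodule.torsionBy ℤ (W⁄K).Point n where
  toFun P := ⟨pointEquivBC (K := K) W C P.1, pointEquivBC_mem_torsionBy W C P.2⟩
  invFun P := ⟨(pointEquivBC (K := K) W C).symm P.1, pointEquivBC_symm_mem_torsionBy W C P.2⟩
  left_inv P := Subtype.ext ((pointEquivBC (K := K) W C).symm_apply_apply P.1)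
  right_inv P := Subtype.ext ((pointEquivBC (K := K) W C).apply_symm_apply P.1)
  map_add' P Q := Subtype.ext (map_add (pointEquivBC (K := K) W C) P.1 Q.1)

@[simp] theorem coe_torsionEquiv (n : ℕ) (P : Submodule.torsionBy ℤ ((C • W)⁄K).Point n) :
    ((torsionEquiv (K := K) W C n P : Submodule.torsionBy ℤ (W⁄K).Point n) : (W⁄K).Point) =
      pointEquivBC (K := K) W C P.1 := rfl

@[simp] theorem coe_torsionEquiv_symm (n : ℕ) (P : Submodule.torsionBy ℤ (W⁄K).Point n) :
    (((torsionEquiv (K := K) W C n).symm P : Submodule.torsionBy ℤ ((C • W)⁄K).Point n) :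
      ((C • W)⁄K).Point) = (pointEquivBC (K := K) W C).symm P.1 := rfl

open WeierstrassCurve.Affine.Point in
/-- The change of variables commutes with the Galois action on torsion points. -/
theorem torsionEquiv_smul (n : ℕ) (σ : K ≃ₐ[S] K)
    (P : Submodule.torsionBy ℤ ((C • W)⁄K).Point n) :
    torsionEquiv (K := K) W C n (σ • P) = σ • torsionEquiv (K := K) W C n P :=
  Subtype.ext (pointEquivBC_smul W C σ P.1)

open WeierstrassCurve.Affine.Point in
theorem torsionEquiv_symm_smul (n : ℕ) (σ : K ≃ₐ[S] K)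
    (P : Submodule.torsionBy ℤ (W⁄K).Point n) :
    (torsionEquiv (K := K) W C n).symm (σ • P) = σ • (torsionEquiv (K := K) W C n).symm P := by
  apply (torsionEquiv (K := K) W C n).injective
  rw [torsionEquiv_smul, AddEquiv.apply_symm_apply, AddEquiv.apply_symm_apply]

open WeierstrassCurve.Affine.Point in
/-- The change of variables on `n`-torsion points as a `ZMod n`-linear equivalence. -/
noncomputable def torsionLinearEquiv (n : ℕ) :
    Submodule.torsionBy ℤ ((C • W)⁄K).Point n ≃ₗ[ZMod n]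
      Submodule.torsionBy ℤ (W⁄K).Point n :=
  { torsionEquiv (K := K) W C n with
    map_smul' := fun c x => ZMod.map_smul (torsionEquiv (K := K) W C n) c x }

@[simp] theorem torsionLinearEquiv_apply (n : ℕ)
    (P : Submodule.torsionBy ℤ ((C • W)⁄K).Point n) :
    torsionLinearEquiv (K := K) W C n P = torsionEquiv (K := K) W C n P := rfl

theorem card_torsion_variableChange (n : ℕ) :
    Nat.card (Submodule.torsionBy ℤ ((C • W)⁄K).Point n) =
      Nat.card (Submodule.torsionBy ℤ (W⁄K).Point n) :=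
  Nat.card_congr (torsionEquiv (K := K) W C n).toEquiv

open WeierstrassCurve.Affine.Point in
/-- Irreducibility of the mod `n` Galois representation is invariant under a change of variables
defined over the base. -/
theorem irreducible_of_variableChange (n : ℕ)
    (h : GaloisRepIsIrreducible (K := K) S W n) :
    GaloisRepIsIrreducible (K := K) S (C • W) n := by
  obtain ⟨hnt, hN⟩ := h
  refine ⟨(torsionEquiv (K := K) W C n).toEquiv.nontrivial, fun N' hN' => ?_⟩
  let e := torsionLinearEquiv (K := K) W C n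
  have hst : IsGaloisStable (W' := W) (K := K) S (N'.map e.toLinearMap) := by
    rintro σ x ⟨x', hx', rfl⟩
    refine ⟨σ • x', hN' σ x' hx', ?_⟩
    exact torsionEquiv_smul W C n σ x'
  rcases hN _ hst with h0 | h1
  · left
    exact (Submodule.map_eq_bot_iff (e := e)).mp h0
  · right
    rw [eq_top_iff]
    intro x _
    have : e x ∈ N'.map e.toLinearMap := by rw [h1]; trivial
    obtain ⟨x', hx', hxx⟩ := this
    have := e.injective hxx
    rwa [← this]

open WeierstrassCurve.Affine.Point in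
theorem irreducible_variableChange_iff (n : ℕ) :
    GaloisRepIsIrreducible (K := K) S (C • W) n ↔ GaloisRepIsIrreducible (K := K) S W n := by
  refine ⟨fun h => ?_, irreducible_of_variableChange W C n⟩
  have := irreducible_of_variableChange (S := S) (K := K) (C • W) C⁻¹ n h
  rwa [inv_smul_smul] at this

open WeierstrassCurve.Affine.Point in
/-- Form adapted to `IsIntegralModelOf`: if `C • W = W₂` then irreducibility transfers from `W`
to `W₂`. -/
theorem irreducible_of_smul_eq {W₂ : Affine R} (hW : C • W = W₂) (n : ℕ)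
    (h : GaloisRepIsIrreducible (K := K) S W n) : GaloisRepIsIrreducible (K := K) S W₂ n := by
  subst hW
  exact irreducible_of_variableChange W C n h

theorem card_torsion_of_smul_eq {W₂ : Affine R} (hW : C • W = W₂) (n : ℕ) :
    Nat.card (Submodule.torsionBy ℤ (W₂⁄K).Point n) =
      Nat.card (Submodule.torsionBy ℤ (W⁄K).Point n) := by
  subst hW
  exact card_torsion_variableChange W C n

end BaseChange

/-! ### The case of an integral model of an elliptic curve over `ℚ` -/

section IntegralModel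

open WeierstrassCurve.Affine.Point

/-- Irreducibility of the mod `n` representation of `E` passes to (the generic fibre of) any
integral model of `E`. -/
theorem irreducible_of_isIntegralModelOf {E : WeierstrassCurve ℚ} {W : WeierstrassCurve ℤ}
    (hW : W.IsIntegralModelOf E) (n : ℕ)
    (h : GaloisRepIsIrreducible (K := AlgebraicClosure ℚ) ℚ E n) :
    GaloisRepIsIrreducible (K := AlgebraicClosure ℚ) ℚ (W.map (Int.castRingHom ℚ)) n := by
  obtain ⟨C, hC⟩ := hW
  exact irreducible_of_smul_eq E C hC n h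

theorem irreducible_isIntegralModelOf_iff {E : WeierstrassCurve ℚ} {W : WeierstrassCurve ℤ}
    (hW : W.IsIntegralModelOf E) (n : ℕ) :
    GaloisRepIsIrreducible (K := AlgebraicClosure ℚ) ℚ (W.map (Int.castRingHom ℚ)) n ↔
      GaloisRepIsIrreducible (K := AlgebraicClosure ℚ) ℚ E n := by
  obtain ⟨C, hC⟩ := hW
  rw [← hC]
  exact irreducible_variableChange_iff E C n

/-- The Galois-equivariant equivalence between the `n`-torsion of an integral model and that of
the curve. -/
theorem exists_torsionEquiv_of_isIntegralModelOf {E : WeierstrassCurve ℚ} {W : WeierstrassCurve ℤ}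
    (hW : W.IsIntegralModelOf E) (n : ℕ) :
    ∃ e : Submodule.torsionBy ℤ ((W.map (Int.castRingHom ℚ))⁄(AlgebraicClosure ℚ)).Point n ≃ₗ[ZMod n]
        Submodule.torsionBy ℤ (E⁄(AlgebraicClosure ℚ)).Point n,
      ∀ (σ : AlgebraicClosure ℚ ≃ₐ[ℚ] AlgebraicClosure ℚ) (P), e (σ • P) = σ • e P := by
  obtain ⟨C, hC⟩ := hW
  rw [← hC]
  exact ⟨torsionLinearEquiv E C n, fun σ P => torsionEquiv_smul E C n σ P⟩

theorem card_torsion_of_isIntegralModelOf {E : WeierstrassCurve ℚ} {W : WeierstrassCurve ℤ}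
    (hW : W.IsIntegralModelOf E) (n : ℕ) :
    Nat.card (Submodule.torsionBy ℤ
        ((W.map (Int.castRingHom ℚ))⁄(AlgebraicClosure ℚ)).Point n) =
      Nat.card (Submodule.torsionBy ℤ (E⁄(AlgebraicClosure ℚ)).Point n) := by
  obtain ⟨C, hC⟩ := hW
  exact card_torsion_of_smul_eq E C hC n

end IntegralModel

end Fermat.Agent.LR.VarChangePoint
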