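import Fermat.Agent.LR.RedFrobVal
import Fermat.Prelude.Def_FLTPrelim_Modularity

/-!
# Program M, node E2 (assembly core): from Frobenius-(anti)fixed torsion points of the reduction
to Frobenius-(anti)fixed torsion points over `ℚ̄`

`W` is an integral Weierstrass model, `l` a prime of good reduction, `p ≠ l` a prime, `A` a
valuation subring of `ℚ̄` over `l` and `φ` a Frobenius element at `A`.  Given a nonzero
`p`-torsion point `(ξ, η)` of the special fibre `Wk` with `ξ ^ l = ξ` and `η ^ l = η`
(resp. `η ^ l = negY ξ η`), there is a nonzero `p`-torsion point `P` of `W` over `ℚ̄` with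
`φ • P = P` (resp. `φ • P = -P`).  The lifting of roots (`RootLift A`) is a hypothesis here.
-/

set_option autoImplicit false

open WeierstrassCurve WeierstrassCurve.Affine IsLocalRing Polynomial

namespace Fermat.Agent.LR.RedFrob

/-! ### Units of a valuation subring over `l` -/

section Units

variable {K : Type*} [Field K] (A : ValuationSubring K)

theorem natCast_mem_maximalIdeal {l : ℕ} (hA : A.LiesOverPrime l) :
    ((l : ℕ) : A) ∈ maximalIdeal A := by
  rw [A.valuation_lt_one_iff]
  have h : A.valuation ((l : ℕ) : K) < 1 := (A.mem_nonunits_iff).mp hA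
  simpa using h

theorem isUnit_intCast_of_isCoprime {l : ℕ} (hA : A.LiesOverPrime l) {n : ℤ}
    (h : IsCoprime n (l : ℤ)) : IsUnit ((n : ℤ) : A) := by
  obtain ⟨a, b, hab⟩ := h
  have h1 : ((a : ℤ) : A) * ((n : ℤ) : A) + ((b : ℤ) : A) * ((l : ℕ) : A) = 1 := by
    have := congrArg (fun z : ℤ => (z : A)) hab
    simpa using this
  have hl : ((b : ℤ) : A) * ((l : ℕ) : A) ∈ maximalIdeal A :=
    Ideal.mul_mem_left _ _ (natCast_mem_maximalIdeal A hA)
  have hu : IsUnit (((a : ℤ) : A) * ((n : ℤ) : A)) := by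
    rw [← IsLocalRing.notMem_maximalIdeal]
    intro hmem
    have : (1 : A) ∈ maximalIdeal A := by
      rw [← h1]; exact Ideal.add_mem _ hmem hl
    exact (Ideal.ne_top_iff_one _).mp (maximalIdeal.isMaximal A).ne_top this
  exact isUnit_of_mul_isUnit_right hu

theorem isUnit_natCast_of_prime_ne {l p : ℕ} (hl : l.Prime) (hp : p.Prime) (hlp : l ≠ p)
    (hA : A.LiesOverPrime l) : IsUnit ((p : ℕ) : A) := by
  have hc : IsCoprime (p : ℤ) (l : ℤ) := by
    rw [Int.isCoprime_iff_gcd_eq_one, Int.gcd_natCast_natCast]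
    exact (Nat.coprime_primes hp hl).mpr (Ne.symm hlp)
  have := isUnit_intCast_of_isCoprime A hA hc
  simpa using this

theorem isUnit_Δ_of_good (W : WeierstrassCurve ℤ) {l : ℕ} (hl : l.Prime)
    (hgood : W.IsGoodPrimeFor l) (hA : A.LiesOverPrime l) :
    IsUnit (W.map (Int.castRingHom A)).Δ := by
  rw [WeierstrassCurve.map_Δ]
  have hc : IsCoprime W.Δ (l : ℤ) := by
    rw [isCoprime_comm]
    exact (Nat.prime_iff_prime_int.mp hl).coprime_iff_not_dvd.mpr hgood
  exact isUnit_intCast_of_isCoprime A hA hc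

end Units

/-! ### The core theorem -/

section Core

local notation "Qb" => AlgebraicClosure ℚ

variable [DecidableEq Qb]

omit [DecidableEq Qb] in
/-- The generic fibre of an integral model as a base change from `ℚ` (the shape used by the
Prelude's Galois action) equals the generic fibre of its model over `A`. -/
theorem baseChange_eq_map (W : WeierstrassCurve ℤ) (A : ValuationSubring Qb) :
    ((W.map (Int.castRingHom ℚ))⁄Qb : WeierstrassCurve Qb) =
      (W.map (Int.castRingHom A)).map (algebraMap A Qb) := by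
  change (W.map (Int.castRingHom ℚ)).map (algebraMap ℚ Qb) = _
  rw [WeierstrassCurve.map_map, WeierstrassCurve.map_map]
  exact congrArg _ (RingHom.ext_int _ _)

variable (W : WeierstrassCurve ℤ) {l p : ℕ} (hl : l.Prime) (hp : p.Prime) (hlp : l ≠ p)
  (hgood : W.IsGoodPrimeFor l) (A : ValuationSubring Qb) (hA : A.LiesOverPrime l)
  (φ : Qb ≃ₐ[ℚ] Qb) (hφ : A.IsFrobeniusAt φ l) (hlift : RootLift A)
  [DecidableEq (ResidueField A)]
  (Wk : WeierstrassCurve (ResidueField A))
  (hk : Wk = (W.map (Int.castRingHom A)).map (residue A))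

include hl hp hlp hgood hA hφ hlift hk in
/-- **Core of node E2.** -/
theorem exists_torsion_of_residue_point {ξ η : ResidueField A}
    (h : Wk.toAffine.Nonsingular ξ η) (htors : p • Point.some ξ η h = 0) (hξ : ξ ^ l = ξ) :
    (η ^ l = η →
      ∃ P : Submodule.torsionBy ℤ ((W.map (Int.castRingHom ℚ))⁄Qb).Point p, P ≠ 0 ∧ φ • P = P) ∧
    (η ^ l = Wk.toAffine.negY ξ η →
      ∃ P : Submodule.torsionBy ℤ ((W.map (Int.castRingHom ℚ))⁄Qb).Point p,
        P ≠ 0 ∧ φ • P = -P) := by
  set WA : WeierstrassCurve A := W.map (Int.castRingHom A) with hWA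
  set WK : WeierstrassCurve Qb := ((W.map (Int.castRingHom ℚ))⁄Qb) with hWK
  have hK : WK = WA.map (algebraMap A Qb) := baseChange_eq_map W A
  have hΔ : IsUnit WA.Δ := isUnit_Δ_of_good A W hl hgood hA
  have hpA : IsUnit ((p : ℕ) : A) := isUnit_natCast_of_prime_ne A hl hp hlp hA
  have hpv : A.valuation ((p : ℕ) : Qb) = 1 := by
    have := (A.valuation_eq_one_iff _).mp hpA
    simpa using this
  -- lift the point
  obtain ⟨P0, hred, hP0⟩ := exists_redTo_lift (WK := WK) (Wk := Wk) hlift hK hk hΔ hpA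
    (Point.some_ne_zero h) htors
  obtain ⟨x, y, hxy, hq, hP0eq, hQeq⟩ := hred
  have hQ' : ξ = residue A x ∧ η = residue A y := by simpa using hQeq
  obtain ⟨hξx, hηy⟩ := hQ'
  -- the Galois conjugate
  have hσmem := hφ.mem_decompositionSubgroup
  have hφP0 : φ • P0 = Point.map φ.toAlgHom P0 := rfl
  obtain ⟨hxy', hφP0'⟩ : ∃ h' : WK.toAffine.Nonsingular (φ (x : Qb)) (φ (y : Qb)),
      φ • P0 = Point.some _ _ h' := by
    refine ⟨?_, ?_⟩
    · exact ((WeierstrassCurve.Affine.baseChange_nonsingular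
        (W := (W.map (Int.castRingHom ℚ)).toAffine) (f := φ.toAlgHom) φ.toAlgHom.injective
        (x : Qb) (y : Qb))).mpr hxy
    · rw [hφP0, hP0eq]; rfl
  set x' : A := ⟨φ (x : Qb), mem_of_mem_decomposition hσmem x.2⟩ with hx'
  set y' : A := ⟨φ (y : Qb), mem_of_mem_decomposition hσmem y.2⟩ with hy'
  have hrx : residue A x' = ξ := by
    rw [hx', residue_frobenius_apply hφ x, ← hξx, hξ]
  have hry : residue A y' = η ^ l := by
    rw [hy', residue_frobenius_apply hφ y, ← hηy]
  have hφtors : p • (φ • P0) = 0 := by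
    rw [hφP0, ← map_nsmul, hP0, map_zero]
  have hmemV : ∀ P : WK.toAffine.Point, p • P = 0 →
      P ∈ Submodule.torsionBy ℤ WK.toAffine.Point p := by
    intro P hP
    rw [Submodule.mem_torsionBy_iff, natCast_zsmul]
    exact hP
  have hP0ne : P0 ≠ 0 := by rw [hP0eq]; exact Point.some_ne_zero hxy
  constructor
  · -- fixed case
    intro hη
    have hq' : Wk.toAffine.Nonsingular (residue A x') (residue A y') := by
      rw [hrx, hry, hη]; exact h
    have hredφ : RedTo A WK Wk (φ • P0) (Point.some ξ η h) := by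
      refine ⟨x', y', hxy', hq', hφP0', ?_⟩
      simp only [hrx, hry, hη]
    have hred0 : RedTo A WK Wk P0 (Point.some ξ η h) :=
      ⟨x, y, hxy, hq, hP0eq, hQeq⟩
    have heq : φ • P0 = P0 := eq_of_redTo hK hΔ hpv hredφ hred0 hφtors hP0
    refine ⟨⟨P0, hmemV P0 hP0⟩, ?_, ?_⟩
    · intro h0
      exact hP0ne (congrArg Subtype.val h0)
    · exact Subtype.ext heq
  · -- anti-fixed case
    intro hη
    -- `-P0 = (x, negY x y)` reduces to `(ξ, negY ξ η)`
    have hnegmem : WK.toAffine.negY (x : Qb) (y : Qb) ∈ A := by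
      rw [hK]
      simp only [WeierstrassCurve.Affine.negY, WeierstrassCurve.map_a₁, WeierstrassCurve.map_a₃]
      exact sub_mem (sub_mem (neg_mem y.2) (mul_mem (WA.a₁).2 x.2)) (WA.a₃).2
    set yn : A := ⟨WK.toAffine.negY (x : Qb) (y : Qb), hnegmem⟩ with hyn
    have hryn : residue A yn = Wk.toAffine.negY ξ η := by
      have hyn' : yn = -y - WA.a₁ * x - WA.a₃ := by
        apply Subtype.ext
        rw [hyn]
        simp only [hK, WeierstrassCurve.Affine.negY, WeierstrassCurve.map_a₁,
          WeierstrassCurve.map_a₃]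
        rfl
      rw [hyn', hk]
      simp only [WeierstrassCurve.Affine.negY, WeierstrassCurve.map_a₁, WeierstrassCurve.map_a₃,
        map_sub, map_neg, map_mul, ← hξx, ← hηy]
    have hxyn : WK.toAffine.Nonsingular (x : Qb) (yn : Qb) :=
      (WeierstrassCurve.Affine.nonsingular_neg _ _).mpr hxy
    have hnegP0 : -P0 = Point.some _ _ hxyn := by
      rw [hP0eq, Point.neg_some]
    have hqn : Wk.toAffine.Nonsingular ξ (Wk.toAffine.negY ξ η) :=
      (WeierstrassCurve.Affine.nonsingular_neg _ _).mpr h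
    have hqn' : Wk.toAffine.Nonsingular (residue A x) (residue A yn) := by
      rw [← hξx, hryn]; exact hqn
    have hredneg : RedTo A WK Wk (-P0) (Point.some _ _ hqn) := by
      refine ⟨x, yn, hxyn, hqn', hnegP0, ?_⟩
      simp only [← hξx, hryn]
    have hq' : Wk.toAffine.Nonsingular (residue A x') (residue A y') := by
      rw [hrx, hry, hη]; exact hqn
    have hredφ : RedTo A WK Wk (φ • P0) (Point.some _ _ hqn) := by
      refine ⟨x', y', hxy', hq', hφP0', ?_⟩
      simp only [hrx, hry, hη]
    have hnegtors : p • (-P0) = 0 := by rw [smul_neg, hP0, neg_zero]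
    have heq : φ • P0 = -P0 := eq_of_redTo hK hΔ hpv hredφ hredneg hφtors hnegtors
    refine ⟨⟨P0, hmemV P0 hP0⟩, ?_, ?_⟩
    · intro h0
      exact hP0ne (congrArg Subtype.val h0)
    · exact Subtype.ext heq

end Core

end Fermat.Agent.LR.RedFrob
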