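import Mathlib

/-!
# Program M, node E3 (group theory): endomorphisms with eigenvalue `1` in dimension two

* `exists_common_fixed_or_range_le` (GT1): a multiplicatively closed set `S` of endomorphisms of a
  two-dimensional vector space, each of which fixes a nonzero vector, has a common nonzero fixed
  vector, or there is a proper subspace containing the ranges of all `g - 1`, `g ∈ S`.
* `eq_one_of_forall_exists_fixed` (GT2): if `ρ : G →* End V` is irreducible, `dim V = 2`, and every
  element of a normal subgroup `H` fixes a nonzero vector, then `ρ` is trivial on `H`.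
-/

set_option autoImplicit false

namespace Fermat.Agent.LR.EigenOne

open Module

variable {F V : Type*} [Field F] [AddCommGroup V] [Module F V]

/-- Two distinct lines meet trivially. -/
theorem inf_eq_bot_of_finrank_eq_one [FiniteDimensional F V] {A B : Submodule F V}
    (hA : finrank F A = 1) (hB : finrank F B = 1) (hAB : A ≠ B) : A ⊓ B = ⊥ := by
  by_contra hne
  have h1 : 0 < finrank F ↥(A ⊓ B) := by
    rw [Nat.pos_iff_ne_zero]
    intro h0
    exact hne (Submodule.finrank_eq_zero.mp h0)
  have hleA : finrank F ↥(A ⊓ B) ≤ finrank F A := Submodule.finrank_mono inf_le_left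
  have hleB : finrank F ↥(A ⊓ B) ≤ finrank F B := Submodule.finrank_mono inf_le_right
  have eA : A ⊓ B = A :=
    Submodule.eq_of_le_of_finrank_eq inf_le_left (by omega)
  have eB : A ⊓ B = B :=
    Submodule.eq_of_le_of_finrank_eq inf_le_right (by omega)
  exact hAB (eA.symm.trans eB)

/-- In dimension two, a nonzero endomorphism with nonzero kernel has kernel and range of
dimension one. -/
theorem finrank_ker_range_of_ne_zero [FiniteDimensional F V] (hV : finrank F V = 2)
    {N : End F V} (hN : N ≠ 0) (hker : ∃ v : V, v ≠ 0 ∧ N v = 0) :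
    finrank F (LinearMap.ker N) = 1 ∧ finrank F (LinearMap.range N) = 1 := by
  have hsum := LinearMap.finrank_range_add_finrank_ker N
  rw [hV] at hsum
  have hk : 0 < finrank F (LinearMap.ker N) := by
    rw [Nat.pos_iff_ne_zero]
    intro h0
    obtain ⟨v, hv, hNv⟩ := hker
    have : LinearMap.ker N = ⊥ := Submodule.finrank_eq_zero.mp h0
    have hvk : v ∈ LinearMap.ker N := hNv
    rw [this] at hvk
    exact hv ((Submodule.mem_bot F).mp hvk)
  have hr : 0 < finrank F (LinearMap.range N) := by
    rw [Nat.pos_iff_ne_zero]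
    intro h0
    have : LinearMap.range N = ⊥ := Submodule.finrank_eq_zero.mp h0
    exact hN (LinearMap.range_eq_bot.mp this)
  omega

/-- Pairwise alternative: two non-identity members `g, h` of a multiplicatively closed set of
endomorphisms with eigenvalue `1` have the same fixed line or the same range of `· - 1`. -/
theorem ker_eq_or_range_eq [FiniteDimensional F V] (hV : finrank F V = 2)
    {g h : End F V} (hg : ∃ v : V, v ≠ 0 ∧ g v = v) (hh : ∃ v : V, v ≠ 0 ∧ h v = v)
    (hgh : ∃ v : V, v ≠ 0 ∧ (g * h) v = v) (hg1 : g ≠ 1) (hh1 : h ≠ 1) :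
    LinearMap.ker (g - 1) = LinearMap.ker (h - 1) ∨
      LinearMap.range (g - 1) = LinearMap.range (h - 1) := by
  by_contra hcon
  push Not at hcon
  obtain ⟨hK, hI⟩ := hcon
  have hgN : g - 1 ≠ 0 := sub_ne_zero.mpr hg1
  have hhN : h - 1 ≠ 0 := sub_ne_zero.mpr hh1
  have hg' : ∃ v : V, v ≠ 0 ∧ (g - 1) v = 0 := by
    obtain ⟨v, hv, hgv⟩ := hg
    exact ⟨v, hv, by simp [hgv]⟩
  have hh' : ∃ v : V, v ≠ 0 ∧ (h - 1) v = 0 := by
    obtain ⟨v, hv, hhv⟩ := hh
    exact ⟨v, hv, by simp [hhv]⟩
  obtain ⟨hkg, hrg⟩ := finrank_ker_range_of_ne_zero hV hgN hg'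
  obtain ⟨hkh, hrh⟩ := finrank_ker_range_of_ne_zero hV hhN hh'
  have hKbot := inf_eq_bot_of_finrank_eq_one hkg hkh hK
  have hIbot := inf_eq_bot_of_finrank_eq_one hrg hrh hI
  obtain ⟨v, hv, hghv⟩ := hgh
  -- `x := (g - 1) (h v) = - (h - 1) v` lies in both ranges
  have hx : (g - 1) (h v) = -((h - 1) v) := by
    have : g (h v) = v := hghv
    simp only [LinearMap.sub_apply, Module.End.one_apply, this]
    abel
  have hxmem : (g - 1) (h v) ∈ LinearMap.range (g - 1) ⊓ LinearMap.range (h - 1) := by
    refine ⟨LinearMap.mem_range_self _ _, ?_⟩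
    rw [hx]
    exact Submodule.neg_mem _ (LinearMap.mem_range_self _ _)
  rw [hIbot, Submodule.mem_bot] at hxmem
  have hMv : (h - 1) v = 0 := by
    rw [hxmem] at hx
    exact neg_eq_zero.mp hx.symm
  have hhv : h v = v := by
    have := hMv
    simp only [LinearMap.sub_apply, Module.End.one_apply] at this
    exact sub_eq_zero.mp this
  have hNv : (g - 1) v = 0 := by
    rw [hhv] at hxmem
    exact hxmem
  have hvmem : v ∈ LinearMap.ker (g - 1) ⊓ LinearMap.ker (h - 1) := ⟨hNv, hMv⟩
  rw [hKbot, Submodule.mem_bot] at hvmem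
  exact hv hvmem

/-- **GT1.** A multiplicatively closed set of endomorphisms of a two-dimensional space, each fixing
a nonzero vector, has a common nonzero fixed vector, or the ranges of all `g - 1` lie in a common
proper subspace. -/
theorem exists_common_fixed_or_range_le [FiniteDimensional F V] (hV : finrank F V = 2)
    (S : Set (End F V)) (hmul : ∀ g ∈ S, ∀ h ∈ S, g * h ∈ S)
    (hfix : ∀ g ∈ S, ∃ v : V, v ≠ 0 ∧ g v = v) :
    (∃ v : V, v ≠ 0 ∧ ∀ g ∈ S, g v = v) ∨
      ∃ I : Submodule F V, I ≠ ⊤ ∧ ∀ g ∈ S, LinearMap.range (g - 1) ≤ I := by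
  have hVne : ∃ v : V, v ≠ 0 := by
    have : Nontrivial V := Module.nontrivial_of_finrank_pos (R := F) (by rw [hV]; norm_num)
    exact exists_ne 0
  -- the case where every member is the identity
  by_cases hall : ∀ g ∈ S, g = 1
  · left
    obtain ⟨v, hv⟩ := hVne
    exact ⟨v, hv, fun g hg => by rw [hall g hg]; rfl⟩
  push Not at hall
  obtain ⟨g₁, hg₁S, hg₁⟩ := hall
  have pair : ∀ g ∈ S, ∀ h ∈ S, g ≠ 1 → h ≠ 1 →
      LinearMap.ker (g - 1) = LinearMap.ker (h - 1) ∨
        LinearMap.range (g - 1) = LinearMap.range (h - 1) := fun g hg h hh hg1 hh1 =>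
    ker_eq_or_range_eq hV (hfix g hg) (hfix h hh) (hfix _ (hmul g hg h hh)) hg1 hh1
  by_cases hK : ∀ g ∈ S, g ≠ 1 → LinearMap.ker (g - 1) = LinearMap.ker (g₁ - 1)
  · -- all fixed lines agree: common fixed vector
    left
    obtain ⟨v, hv, hgv⟩ := hfix g₁ hg₁S
    refine ⟨v, hv, fun g hg => ?_⟩
    by_cases hg1 : g = 1
    · rw [hg1]; rfl
    · have hvk : v ∈ LinearMap.ker (g₁ - 1) := by
        simp [LinearMap.mem_ker, hgv]
      rw [← hK g hg hg1, LinearMap.mem_ker] at hvk
      simp only [LinearMap.sub_apply, Module.End.one_apply] at hvk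
      exact sub_eq_zero.mp hvk
  · -- some fixed line differs from that of `g₁`: then all ranges agree
    right
    push Not at hK
    obtain ⟨g₂, hg₂S, hg₂, hK₂⟩ := hK
    have hI₁₂ : LinearMap.range (g₂ - 1) = LinearMap.range (g₁ - 1) :=
      (pair g₂ hg₂S g₁ hg₁S hg₂ hg₁).resolve_left hK₂
    refine ⟨LinearMap.range (g₁ - 1), ?_, fun g hg => ?_⟩
    · -- the range is a line, not everything
      have hg' : ∃ v : V, v ≠ 0 ∧ (g₁ - 1) v = 0 := by
        obtain ⟨v, hv, hgv⟩ := hfix g₁ hg₁S
        exact ⟨v, hv, by simp [hgv]⟩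
      obtain ⟨-, hr⟩ := finrank_ker_range_of_ne_zero hV (sub_ne_zero.mpr hg₁) hg'
      intro htop
      rw [htop, finrank_top, hV] at hr
      omega
    · by_cases hg1 : g = 1
      · rw [hg1, sub_self, LinearMap.range_zero]; exact bot_le
      · by_contra hle
        have hne₁ : LinearMap.range (g - 1) ≠ LinearMap.range (g₁ - 1) := fun h => hle h.le
        have hne₂ : LinearMap.range (g - 1) ≠ LinearMap.range (g₂ - 1) := by
          rw [hI₁₂]; exact hne₁
        have e₁ := (pair g hg g₁ hg₁S hg1 hg₁).resolve_right hne₁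
        have e₂ := (pair g hg g₂ hg₂S hg1 hg₂).resolve_right hne₂
        exact hK₂ (e₂.symm.trans e₁)

/-- **GT2.** Let `ρ : G →* End V` be an irreducible representation on a two-dimensional space and
`H` a normal subgroup all of whose elements fix a nonzero vector. Then `ρ` is trivial on `H`. -/
theorem eq_one_of_forall_exists_fixed [FiniteDimensional F V] (hV : finrank F V = 2)
    {G : Type*} [Group G] (ρ : G →* End F V)
    (hirr : ∀ N : Submodule F V, (∀ g : G, ∀ x ∈ N, ρ g x ∈ N) → N = ⊥ ∨ N = ⊤)
    (H : Subgroup G) [hH : H.Normal] (hfix : ∀ h ∈ H, ∃ v : V, v ≠ 0 ∧ ρ h v = v) :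
    ∀ h ∈ H, ρ h = 1 := by
  have hVtop : (⊤ : Submodule F V) ≠ ⊥ := by
    intro h
    have : finrank F (⊤ : Submodule F V) = 0 := by rw [h]; exact finrank_bot F V
    rw [finrank_top, hV] at this
    omega
  rcases exists_common_fixed_or_range_le hV (ρ '' (H : Set G))
      (by
        rintro _ ⟨a, ha, rfl⟩ _ ⟨b, hb, rfl⟩
        exact ⟨a * b, H.mul_mem ha hb, map_mul ρ a b⟩)
      (by
        rintro _ ⟨a, ha, rfl⟩
        exact hfix a ha) with ⟨v, hv, hfixv⟩ | ⟨I, hI, hrange⟩
  · -- common fixed vector: the fixed space is stable and nonzero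
    let Fix : Submodule F V :=
      { carrier := {w | ∀ h ∈ H, ρ h w = w}
        add_mem' := fun {a b} ha hb h hh => by rw [map_add, ha h hh, hb h hh]
        zero_mem' := fun h _ => map_zero _
        smul_mem' := fun c a ha h hh => by rw [map_smul, ha h hh] }
    have hstab : ∀ g : G, ∀ x ∈ Fix, ρ g x ∈ Fix := by
      intro g x hx h hh
      have hconj : g⁻¹ * h * g ∈ H := by
        have := hH.conj_mem h hh g⁻¹
        simpa using this
      have h1 : ρ h (ρ g x) = ρ g (ρ (g⁻¹ * h * g) x) := by
        rw [← Module.End.mul_apply, ← Module.End.mul_apply, ← map_mul, ← map_mul]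
        congr 2
        group
      rw [h1, hx _ hconj]
    have hvFix : v ∈ Fix := fun h hh => hfixv _ ⟨h, hh, rfl⟩
    rcases hirr Fix hstab with hbot | htop
    · rw [hbot, Submodule.mem_bot] at hvFix
      exact absurd hvFix hv
    · intro h hh
      ext w
      have hw : w ∈ Fix := by rw [htop]; exact Submodule.mem_top
      exact hw h hh
  · -- all ranges in a proper subspace: their span is stable, hence zero
    let W0 : Submodule F V := ⨆ h : H, LinearMap.range (ρ (h : G) - 1)
    have hW0I : W0 ≤ I := iSup_le fun h => hrange _ ⟨h, h.2, rfl⟩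
    have hstab : ∀ g : G, ∀ x ∈ W0, ρ g x ∈ W0 := by
      intro g x hx
      induction hx using Submodule.iSup_induction' with
      | mem h y hy =>
          obtain ⟨z, rfl⟩ := hy
          have hconj : g * (h : G) * g⁻¹ ∈ H := hH.conj_mem h h.2 g
          have e : ρ (g * (h : G) * g⁻¹) (ρ g z) = ρ g (ρ (h : G) z) := by
            rw [← Module.End.mul_apply, ← Module.End.mul_apply, ← map_mul, ← map_mul]
            congr 2
            group
          have h1 : ρ g ((ρ (h : G) - 1) z) = (ρ (g * (h : G) * g⁻¹) - 1) (ρ g z) := by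
            simp only [LinearMap.sub_apply, Module.End.one_apply, map_sub, e]
          rw [h1]
          exact Submodule.mem_iSup_of_mem ⟨_, hconj⟩ (LinearMap.mem_range_self _ _)
      | zero => rw [map_zero]; exact Submodule.zero_mem _
      | add a b _ _ ha hb => rw [map_add]; exact Submodule.add_mem _ ha hb
    rcases hirr W0 hstab with hbot | htop
    · intro h hh
      have : LinearMap.range (ρ h - 1) ≤ W0 := le_iSup_of_le ⟨h, hh⟩ le_rfl
      rw [hbot, le_bot_iff, LinearMap.range_eq_bot] at this
      exact sub_eq_zero.mp this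
    · exfalso
      apply hI
      rw [eq_top_iff, ← htop]
      exact hW0I

end Fermat.Agent.LR.EigenOne
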