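import Fermat.Prelude.Def_FLTPrelim_ModularRep
import Fermat.Prelude.Def_GaloisRep_ComplexConjugation
import Fermat.Agent.Cheb.Cross.ChebExactMain
import Fermat.Agent.Pseudo.CycloPow
import Fermat.Agent.Res.FreyFiniteLevel
import Fermat.Agent.LR.EigenOne

/-!
# Program M, node E (glue): non-Eisenstein primes from irreducibility of `E[p]`

Hypothesis form.  `W` is an integral Weierstrass model, `WQ W` its base change to `ℚ`,
`Vp W p = (WQ W)[p](ℚ̄)`.  Inputs (exports of the other E-nodes, taken as hypotheses here):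

* `hcard : Nat.card (Vp W p) = p ^ 2`  (node E1);
* `hfix` / `hanti` : for a Frobenius element `φ` at a place over a good prime `l ≠ p`,
  `p ∣ l + 1 - a_l` gives a nonzero `φ`-fixed point of `Vp W p`, and `p ∣ l + 1 + a_l` gives a nonzero
  point with `φ • P = -P`  (node E2: reduction + point count, resp. the "twist count");
* `ρ` : a residual representation attached to the eigenform `f` (S29), over `ℤ̄ ⧸ 𝔪`.

Output `exists_prime_of_exports`: for every `m ≥ 1` and every finite set `T` there is a prime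
`l ∉ T`, `l ≡ 1 mod m`, good, `l ∤ N`, `l ≠ p`, with `p ∤ l + 1 - a_l`.

Proof: otherwise Chebotarev (exact form) shows that every `σ ∈ ker (cycloN m)` fixes a nonzero
vector of `V`; by `EigenOne.eq_one_of_forall_exists_fixed` the kernel acts trivially, so the image
of `G_ℚ` in `End V` is commutative.  Taking a Frobenius element equal to complex conjugation `c` on
the relevant finite level, S29 at that single Frobenius gives `a_l ≡ 0`, `l ≡ -1`, hence `c` has both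
a nonzero fixed and a nonzero anti-fixed vector; the `+1`-eigenspace of `c` is then a proper nonzero
Galois-stable subspace.
-/

set_option autoImplicit false
set_option linter.style.haveILetI false

open WeierstrassCurve WeierstrassCurve.Affine WeierstrassCurve.Affine.Point Polynomial
open scoped WeierstrassCurve.Affine

namespace Fermat.Agent.LR.NonEis

local notation "Qb" => AlgebraicClosure ℚ
local notation "GQ" => (AlgebraicClosure ℚ ≃ₐ[ℚ] AlgebraicClosure ℚ)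
local notation "Zbar" => integralClosure ℤ ℂ

/-- The base change to `ℚ` of an integral Weierstrass model. -/
abbrev WQ (W : WeierstrassCurve ℤ) : WeierstrassCurve ℚ := W.map (Int.castRingHom ℚ)

/-- The `p`-torsion of `WQ W` over `ℚ̄`. -/
abbrev Vp (W : WeierstrassCurve ℤ) (p : ℕ) : Type :=
  Submodule.torsionBy ℤ ((WQ W)⁄Qb).Point p

/-! ### Small general lemmas -/

/-- If `ρ` is trivial on the fixer of `L` and `σ`, `φ` agree on `L`, then `ρ σ = ρ φ`. -/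
theorem map_eq_of_agree {M : Type*} [Monoid M] (ρ : GQ →* M) {L : IntermediateField ℚ Qb}
    (hL : ∀ σ : GQ, (∀ x ∈ L, σ x = x) → ρ σ = 1) {σ φ : GQ} (h : ∀ x ∈ L, σ x = φ x) :
    ρ σ = ρ φ := by
  have h1 : ρ (φ⁻¹ * σ) = 1 := hL _ fun x hx => by
    rw [AlgEquiv.mul_apply, h x hx]
    exact φ.symm_apply_apply x
  have h2 : σ = φ * (φ⁻¹ * σ) := by group
  rw [h2, map_mul, h1, mul_one]

/-- An integer lying in a proper ideal of `ℤ̄` that contains `p` is divisible by `p`. -/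
theorem dvd_of_intCast_mem {p : ℕ} (hp : p.Prime) {𝔪 : Ideal Zbar} (hne : 𝔪 ≠ ⊤)
    (hpm : (p : Zbar) ∈ 𝔪) {n : ℤ} (hn : (n : Zbar) ∈ 𝔪) : (p : ℤ) ∣ n := by
  by_contra hdvd
  have hcop : IsCoprime (p : ℤ) n :=
    ((Nat.prime_iff_prime_int.mp hp).coprime_iff_not_dvd).mpr hdvd
  obtain ⟨u, v, huv⟩ := hcop
  apply hne
  rw [Ideal.eq_top_iff_one]
  have h1 : ((u * (p : ℤ) + v * n : ℤ) : Zbar) = 1 := by rw [huv]; simp
  rw [← h1]
  push_cast
  exact 𝔪.add_mem (𝔪.mul_mem_left _ hpm) (𝔪.mul_mem_left _ hn)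

/-- Cayley–Hamilton for an involution with determinant `-1` in dimension two: the trace is `0`. -/
theorem trace_coeff_eq_zero {κ V : Type*} [Field κ] [AddCommGroup V] [Module κ V]
    [Module.Finite κ V] [Nontrivial V] (M : Module.End κ V) (hM : M * M = 1) (t d : κ)
    (hchar : M.charpoly = X ^ 2 - C t * X + C d) (hd : d = -1) : t = 0 := by
  have hCH := LinearMap.aeval_self_charpoly M
  rw [hchar] at hCH
  simp only [map_add, map_sub, map_mul, map_pow, aeval_X, aeval_C] at hCH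
  rw [pow_two, hM, hd, map_neg, map_one] at hCH
  have h0 : algebraMap κ (Module.End κ V) t * M = 0 := by
    have : (1 : Module.End κ V) - algebraMap κ (Module.End κ V) t * M + -1 = 0 := hCH
    have h2 : algebraMap κ (Module.End κ V) t * M =
        -((1 : Module.End κ V) - algebraMap κ (Module.End κ V) t * M + -1) := by abel
    rw [h2, this, _root_.neg_zero]
  by_contra ht
  have hM0 : M = 0 := by
    have := congrArg (fun Z => algebraMap κ (Module.End κ V) t⁻¹ * Z) h0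
    simp only [mul_zero] at this
    rw [← mul_assoc, ← map_mul, inv_mul_cancel₀ ht, map_one, one_mul] at this
    exact this
  rw [hM0, mul_zero] at hM
  exact zero_ne_one hM

section Main

variable (W : WeierstrassCurve ℤ) {p N : ℕ}

/-- `finrank V = 2` from `|V| = p ^ 2`. -/
theorem finrank_Vp_eq_two [Fact p.Prime] (hcard : Nat.card (Vp W p) = p ^ 2) :
    Module.finrank (ZMod p) (Vp W p) = 2 := by
  have hp : p.Prime := Fact.out
  have : Finite (Vp W p) :=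
    Nat.finite_of_card_ne_zero (hcard ▸ pow_ne_zero 2 hp.pos.ne')
  have h := Module.natCard_eq_pow_finrank (K := ZMod p) (V := Vp W p)
  rw [hcard, Nat.card_zmod] at h
  exact (Nat.pow_right_injective hp.two_le h).symm

/-- The representation of `G_ℚ` on `Vp W p`. -/
noncomputable abbrev rhoV (p : ℕ) : GQ →* Module.End (ZMod p) (Vp W p) :=
  galoisRepModuleEnd (S := ℚ) (K := Qb) (WQ W) p

theorem rhoV_apply (σ : GQ) (x : Vp W p) : rhoV W p σ x = σ • x := rfl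

/-- The set of primes to avoid: `T`, and the primes dividing `N p m Δ`. -/
noncomputable def badSet (N p m : ℕ) (T : Finset ℕ) : Finset ℕ :=
  T ∪ (N * p * m * W.Δ.natAbs).primeFactors

theorem not_mem_badSet {m : ℕ} {T : Finset ℕ} (hN : 0 < N) (hp : p.Prime) (hm : 0 < m)
    (hΔ : W.Δ ≠ 0) {l : ℕ} (hl : l.Prime) (h : l ∉ badSet W N p m T) :
    l ∉ T ∧ ¬ l ∣ N ∧ l ≠ p ∧ ¬ l ∣ m ∧ W.IsGoodPrimeFor l := by
  rw [badSet, Finset.mem_union, not_or] at h
  obtain ⟨hT, hpf⟩ := h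
  have hne : N * p * m * W.Δ.natAbs ≠ 0 := by
    have h4 : W.Δ.natAbs ≠ 0 := Int.natAbs_ne_zero.mpr hΔ
    exact mul_ne_zero (mul_ne_zero (mul_ne_zero hN.ne' hp.ne_zero) hm.ne') h4
  have hnd : ¬ l ∣ N * p * m * W.Δ.natAbs := fun hd =>
    hpf (Nat.mem_primeFactors.mpr ⟨hl, hd, hne⟩)
  refine ⟨hT, fun hd => hnd ?_, fun hd => hnd ?_, fun hd => hnd ?_, fun hd => hnd ?_⟩
  · exact Dvd.dvd.mul_right (Dvd.dvd.mul_right (Dvd.dvd.mul_right hd _) _) _
  · exact Dvd.dvd.mul_right (Dvd.dvd.mul_right (hd ▸ Dvd.dvd.mul_left (dvd_refl l) _) _) _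
  · exact Dvd.dvd.mul_right (Dvd.dvd.mul_left hd _) _
  · exact Dvd.dvd.mul_left (Int.natCast_dvd.mp hd) _

/-- The exports of node E2 (reduction/Frobenius link and the twist count), as a hypothesis. -/
structure FrobLink (W : WeierstrassCurve ℤ) (p : ℕ) : Prop where
  fix : ∀ l : ℕ, l.Prime → l ≠ p → W.IsGoodPrimeFor l → ∀ A : ValuationSubring Qb,
    A.LiesOverPrime l → ∀ φ : GQ, A.IsFrobeniusAt φ l →
      (p : ℤ) ∣ (l : ℤ) + 1 - W.apOfModel l → ∃ P : Vp W p, P ≠ 0 ∧ φ • P = P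
  anti : ∀ l : ℕ, l.Prime → l ≠ p → W.IsGoodPrimeFor l → ∀ A : ValuationSubring Qb,
    A.LiesOverPrime l → ∀ φ : GQ, A.IsFrobeniusAt φ l →
      (p : ℤ) ∣ (l : ℤ) + 1 + W.apOfModel l → ∃ P : Vp W p, P ≠ 0 ∧ φ • P = -P

open Fermat.Agent.Pseudo.Cyclo in
/-- If no prime `l ≡ 1 mod m` outside `T` is non-Eisenstein, every element of the kernel of the
cyclotomic character modulo `m` fixes a nonzero vector of `Vp W p`. -/
theorem exists_fixed_of_cycloN_eq_one (hlink : FrobLink W p) [Finite (Vp W p)]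
    {m : ℕ} [NeZero m] {T : Finset ℕ} (hN : 0 < N) (hp : p.Prime) (hΔ : W.Δ ≠ 0)
    (hne : ∀ l : ℕ, l.Prime → l ∉ T → l ≡ 1 [MOD m] → W.IsGoodPrimeFor l → ¬ l ∣ N → l ≠ p →
      (p : ℤ) ∣ (l : ℤ) + 1 - W.apOfModel l)
    (σ : GQ) (hσ : cycloN m σ = 1) : ∃ v : Vp W p, v ≠ 0 ∧ rhoV W p σ v = v := by
  obtain ⟨LV, hLVfd, hLV⟩ :=
    Fermat.Agent.Res.FreyLevel.galoisFactorsThroughFiniteLevel_of_finite (WQ W) p
  obtain ⟨Lm, hLmfd, hLm⟩ := exists_finite_level_cycloN m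
  have hfd : FiniteDimensional ℚ ↥(LV ⊔ Lm) := IntermediateField.finiteDimensional_sup LV Lm
  obtain ⟨l, hl, hlT, A, φ, hA, hφ, hσφ⟩ :=
    Fermat.Agent.Cheb.chebExact (LV ⊔ Lm) hfd σ (badSet W N p m T)
  obtain ⟨hlT', hlN, hlp, hlm, hgood⟩ :=
    not_mem_badSet W hN hp (Nat.pos_of_ne_zero (NeZero.ne m)) hΔ hl hlT
  -- `l ≡ 1 mod m`
  have hcyc : cycloN m φ = 1 := by
    rw [← hLm σ φ fun x hx => hσφ x ((le_sup_right : Lm ≤ LV ⊔ Lm) hx), hσ]
  have hl1 : l ≡ 1 [MOD m] := by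
    have h1 := cycloN_frobenius m hl hlm A hA hφ
    rw [hcyc, Units.val_one] at h1
    rw [← ZMod.natCast_eq_natCast_iff, ← h1, Nat.cast_one]
  obtain ⟨P, hP0, hP⟩ := hlink.fix l hl hlp hgood A hA φ hφ (hne l hl hlT' hl1 hgood hlN hlp)
  refine ⟨P, hP0, ?_⟩
  have hρ : rhoV W p σ = rhoV W p φ :=
    map_eq_of_agree (rhoV W p) hLV fun x hx => hσφ x ((le_sup_left : LV ≤ LV ⊔ Lm) hx)
  rw [hρ, rhoV_apply, hP]

open Fermat.Agent.Pseudo.Cyclo in
/-- If no prime `l ≡ 1 mod m` outside `T` is non-Eisenstein and `Vp W p` is irreducible of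
dimension two, the image of `G_ℚ` in `End (Vp W p)` is commutative. -/
theorem rhoV_commute (hlink : FrobLink W p) (hcard : Nat.card (Vp W p) = p ^ 2)
    (hirr : GaloisRepIsIrreducible (K := Qb) ℚ (WQ W) p)
    {m : ℕ} [NeZero m] {T : Finset ℕ} (hN : 0 < N) (hp : p.Prime) (hΔ : W.Δ ≠ 0)
    (hne : ∀ l : ℕ, l.Prime → l ∉ T → l ≡ 1 [MOD m] → W.IsGoodPrimeFor l → ¬ l ∣ N → l ≠ p →
      (p : ℤ) ∣ (l : ℤ) + 1 - W.apOfModel l)
    (σ τ : GQ) : rhoV W p σ * rhoV W p τ = rhoV W p τ * rhoV W p σ := by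
  haveI : Fact p.Prime := ⟨hp⟩
  have hV : Module.finrank (ZMod p) (Vp W p) = 2 := finrank_Vp_eq_two W hcard
  haveI : Finite (Vp W p) :=
    Nat.finite_of_card_ne_zero (hcard ▸ pow_ne_zero 2 hp.pos.ne')
  haveI : FiniteDimensional (ZMod p) (Vp W p) := Module.Finite.of_finite
  have hirr' : ∀ M : Submodule (ZMod p) (Vp W p),
      (∀ g : GQ, ∀ x ∈ M, rhoV W p g x ∈ M) → M = ⊥ ∨ M = ⊤ :=
    fun M hM => hirr.2 M fun g x hx => hM g x hx
  have htriv := Fermat.Agent.LR.EigenOne.eq_one_of_forall_exists_fixed hV (rhoV W p) hirr'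
    (cycloN m).ker
    (fun h hh => exists_fixed_of_cycloN_eq_one W hlink hN hp hΔ hne h (MonoidHom.mem_ker.mp hh))
  have hcomm : σ * τ * σ⁻¹ * τ⁻¹ ∈ (cycloN m).ker := by
    rw [MonoidHom.mem_ker, map_mul, map_mul, map_mul, map_inv, map_inv, mul_inv_cancel_comm,
      mul_inv_cancel]
  have h1 := htriv _ hcomm
  have h2 : σ * τ = (σ * τ * σ⁻¹ * τ⁻¹) * (τ * σ) := by group
  rw [← map_mul, h2, map_mul, h1, one_mul, map_mul]

open Fermat.Agent.Pseudo.Cyclo in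
/-- Complex conjugation has a nonzero fixed vector and a nonzero anti-fixed vector in `Vp W p`:
take a Frobenius element `φ` agreeing with `c` on a large finite level; S29 at `φ` gives
`a_l(f) ≡ 0` and `l ≡ -1`, so `p` divides both `l + 1 - a_l` and `l + 1 + a_l`. -/
theorem exists_fixed_antifixed_complexConjugation (hlink : FrobLink W p) [Finite (Vp W p)]
    (hN : 0 < N) (hp : p.Prime) (hΔ : W.Δ ≠ 0)
    (f : CuspForm (CongruenceSubgroup.Gamma0 N) 2) (𝔪 : Ideal Zbar) [hmax : 𝔪.IsMaximal]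
    (hpm : (p : Zbar) ∈ 𝔪)
    (hcong : ∀ ℓ : ℕ, ℓ.Prime → W.IsGoodPrimeFor ℓ → ¬ ℓ ∣ N → ℓ ≠ p →
      ∃ a : Zbar, (a : ℂ) = ModularFormClass.qCoeff f ℓ ∧
        a - ((W.apOfModel ℓ : ℤ) : Zbar) ∈ 𝔪)
    {κ : Type} [Field κ] (ψ : Zbar →+* κ) (hψ : ∀ a : Zbar, ψ a = 0 ↔ a ∈ 𝔪)
    (ρ : ResidualGaloisRep κ) (hρ : ρ.IsAttachedTo f ψ) :
    (∃ v : Vp W p, v ≠ 0 ∧ rhoV W p complexConjugation v = v) ∧
      ∃ v : Vp W p, v ≠ 0 ∧ rhoV W p complexConjugation v = -v := by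
  haveI : NeZero p := ⟨hp.ne_zero⟩
  obtain ⟨LV, hLVfd, hLV⟩ :=
    Fermat.Agent.Res.FreyLevel.galoisFactorsThroughFiniteLevel_of_finite (WQ W) p
  obtain ⟨Lp, hLpfd, hLp⟩ := exists_finite_level_cycloN p
  obtain ⟨Lρ, hLρfd, hLρ⟩ := ρ.factorsThroughFiniteLevel
  have hfd1 : FiniteDimensional ℚ ↥(LV ⊔ Lp) := IntermediateField.finiteDimensional_sup LV Lp
  have hfd : FiniteDimensional ℚ ↥(LV ⊔ Lp ⊔ Lρ) :=
    IntermediateField.finiteDimensional_sup (LV ⊔ Lp) Lρ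
  obtain ⟨l, hl, hlT, A, φ, hA, hφ, hcφ⟩ :=
    Fermat.Agent.Cheb.chebExact (LV ⊔ Lp ⊔ Lρ) hfd complexConjugation (badSet W N p 1 ∅)
  obtain ⟨-, hlN, hlp, -, hgood⟩ := not_mem_badSet W hN hp Nat.one_pos hΔ hl hlT
  have hLV_le : LV ≤ LV ⊔ Lp ⊔ Lρ := le_sup_left.trans le_sup_left
  have hLp_le : Lp ≤ LV ⊔ Lp ⊔ Lρ := le_sup_right.trans le_sup_left
  have hLρ_le : Lρ ≤ LV ⊔ Lp ⊔ Lρ := le_sup_right
  -- `l ≡ -1 mod p`
  have hlp' : ¬ l ∣ p := fun h => hlp ((Nat.prime_dvd_prime_iff_eq hl hp).mp h)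
  have hl1 : (l : ZMod p) = -1 := by
    rw [← cycloN_frobenius p hl hlp' A hA hφ,
      ← hLp complexConjugation φ fun x hx => hcφ x (hLp_le hx), cycloN_complexConjugation]
  have hdvdN : p ∣ l + 1 := by
    rw [← ZMod.natCast_eq_zero_iff, Nat.cast_add, hl1, Nat.cast_one, neg_add_cancel]
  have hdvdZ : (p : ℤ) ∣ (l : ℤ) + 1 := by
    have := Int.natCast_dvd_natCast.mpr hdvdN
    simpa using this
  -- in the residue field `κ = ℤ̄ ⧸ 𝔪`
  have hpκ : ((p : ℕ) : κ) = 0 := by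
    rw [← map_natCast ψ, hψ]
    exact hpm
  have hlκ : ((l : ℕ) : κ) = -1 := by
    obtain ⟨k, hk⟩ := hdvdN
    have : (((l + 1 : ℕ)) : κ) = 0 := by rw [hk, Nat.cast_mul, hpκ, zero_mul]
    rw [Nat.cast_add, Nat.cast_one] at this
    exact eq_neg_of_add_eq_zero_left this
  have hlκ0 : ((l : ℕ) : κ) ≠ 0 := by
    rw [hlκ]; exact neg_ne_zero.mpr one_ne_zero
  obtain ⟨a, ha, hchar⟩ := hρ l hl hlN hlκ0 A hA φ hφ
  -- `ρ φ` is an involution
  have hρφ : ρ.ρ φ = ρ.ρ complexConjugation :=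
    (map_eq_of_agree ρ.ρ hLρ fun x hx => hcφ x (hLρ_le hx)).symm
  have hM : ρ.ρ φ * ρ.ρ φ = 1 := by
    rw [hρφ, ← map_mul, complexConjugation_mul_self, map_one]
  haveI : Nontrivial ρ.V :=
    Module.nontrivial_of_finrank_pos (R := κ) (by rw [ρ.finrank_eq]; norm_num)
  have ha0 : ψ a = 0 :=
    trace_coeff_eq_zero (ρ.ρ φ) hM _ _ hchar hlκ
  have ham : a ∈ 𝔪 := (hψ a).mp ha0
  -- transfer to `apOfModel`
  obtain ⟨a', ha', hmem⟩ := hcong l hl hgood hlN hlp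
  have haa : a' = a := Subtype.ext (ha'.trans ha.symm)
  rw [haa] at hmem
  have hapm : ((W.apOfModel l : ℤ) : Zbar) ∈ 𝔪 := by
    have : ((W.apOfModel l : ℤ) : Zbar) = a - (a - ((W.apOfModel l : ℤ) : Zbar)) := by ring
    rw [this]
    exact 𝔪.sub_mem ham hmem
  have hdvda : (p : ℤ) ∣ W.apOfModel l := dvd_of_intCast_mem hp hmax.ne_top hpm hapm
  obtain ⟨P₁, hP₁0, hP₁⟩ := hlink.fix l hl hlp hgood A hA φ hφ (dvd_sub hdvdZ hdvda)
  obtain ⟨P₂, hP₂0, hP₂⟩ := hlink.anti l hl hlp hgood A hA φ hφ (dvd_add hdvdZ hdvda)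
  have hρV : rhoV W p complexConjugation = rhoV W p φ :=
    map_eq_of_agree (rhoV W p) hLV fun x hx => hcφ x (hLV_le hx)
  exact ⟨⟨P₁, hP₁0, by rw [hρV, rhoV_apply, hP₁]⟩, ⟨P₂, hP₂0, by rw [hρV, rhoV_apply, hP₂]⟩⟩

/-- **Node E, hypothesis form.** Given the exports of E1 (`hcard`), E2 (`hlink`) and a residual
representation attached to `f` (S29), irreducibility of `Vp W p` produces, for every modulus `m` and
every finite set `T`, a good prime `l ∉ T`, `l ≡ 1 mod m`, `l ∤ N`, `l ≠ p`, with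
`p ∤ l + 1 - a_l` (a non-Eisenstein prime). -/
theorem exists_prime_of_exports (hlink : FrobLink W p) (hcard : Nat.card (Vp W p) = p ^ 2)
    (hirr : GaloisRepIsIrreducible (K := Qb) ℚ (WQ W) p)
    (hN : 0 < N) (hp : p.Prime) (hp2 : p ≠ 2) (hΔ : W.Δ ≠ 0)
    (f : CuspForm (CongruenceSubgroup.Gamma0 N) 2) (𝔪 : Ideal Zbar) [hmax : 𝔪.IsMaximal]
    (hpm : (p : Zbar) ∈ 𝔪)
    (hcong : ∀ ℓ : ℕ, ℓ.Prime → W.IsGoodPrimeFor ℓ → ¬ ℓ ∣ N → ℓ ≠ p →
      ∃ a : Zbar, (a : ℂ) = ModularFormClass.qCoeff f ℓ ∧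
        a - ((W.apOfModel ℓ : ℤ) : Zbar) ∈ 𝔪)
    {κ : Type} [Field κ] (ψ : Zbar →+* κ) (hψ : ∀ a : Zbar, ψ a = 0 ↔ a ∈ 𝔪)
    (ρ : ResidualGaloisRep κ) (hρ : ρ.IsAttachedTo f ψ)
    (m : ℕ) (hm : 0 < m) (T : Finset ℕ) :
    ∃ l : ℕ, l.Prime ∧ l ∉ T ∧ l ≡ 1 [MOD m] ∧ W.IsGoodPrimeFor l ∧ ¬ l ∣ N ∧ l ≠ p ∧
      ¬ (p : ℤ) ∣ (l : ℤ) + 1 - W.apOfModel l := by
  by_contra hcon
  push Not at hcon
  haveI : NeZero m := ⟨hm.ne'⟩
  haveI : Fact p.Prime := ⟨hp⟩
  haveI : Finite (Vp W p) :=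
    Nat.finite_of_card_ne_zero (hcard ▸ pow_ne_zero 2 hp.pos.ne')
  have hcomm := rhoV_commute W hlink hcard hirr (m := m) (T := T) hN hp hΔ hcon
  obtain ⟨⟨v₁, hv₁0, hv₁⟩, ⟨v₂, hv₂0, hv₂⟩⟩ :=
    exists_fixed_antifixed_complexConjugation W hlink hN hp hΔ f 𝔪 hpm hcong ψ hψ ρ hρ
  -- the `+1`-eigenspace of complex conjugation
  let Lp : Submodule (ZMod p) (Vp W p) := LinearMap.ker (rhoV W p complexConjugation - 1)
  have hmem : ∀ x : Vp W p, x ∈ Lp ↔ rhoV W p complexConjugation x = x := fun x => by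
    rw [LinearMap.mem_ker, LinearMap.sub_apply, Module.End.one_apply, sub_eq_zero]
  have hstab : IsGaloisStable ℚ Lp := by
    intro σ x hx
    rw [hmem] at hx ⊢
    have h1 : rhoV W p complexConjugation (rhoV W p σ x) =
        rhoV W p σ (rhoV W p complexConjugation x) := by
      rw [← Module.End.mul_apply, ← Module.End.mul_apply, hcomm complexConjugation σ]
    change rhoV W p complexConjugation (rhoV W p σ x) = rhoV W p σ x
    rw [h1, hx]
  rcases hirr.2 Lp hstab with hbot | htop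
  · have : v₁ ∈ Lp := (hmem v₁).mpr hv₁
    rw [hbot, Submodule.mem_bot] at this
    exact hv₁0 this
  · have : v₂ ∈ Lp := by rw [htop]; exact Submodule.mem_top
    rw [hmem, hv₂] at this
    -- `-v₂ = v₂`, so `2 • v₂ = 0`
    have h2 : (2 : ZMod p) • v₂ = 0 := by
      rw [two_smul]
      nth_rewrite 1 [← this]
      exact neg_add_cancel v₂
    rcases smul_eq_zero.mp h2 with h | h
    · have h2' : ((2 : ℕ) : ZMod p) = 0 := by exact_mod_cast h
      rw [ZMod.natCast_eq_zero_iff] at h2'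
      exact hp2 ((Nat.prime_dvd_prime_iff_eq hp Nat.prime_two).mp h2')
    · exact hv₂0 h

end Main

end Fermat.Agent.LR.NonEis
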