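import Fermat.Agent.LR.TwistCount
import Fermat.Agent.LR.RedFrobPlug
import Fermat.Agent.LR.NonEisCore

/-!
# Program M, node E2: the Frobenius link, unconditionally

The point counts of `LR/TwistCount.lean` in the hypothesis shapes `CountFix` / `CountAnti` of
`LR/RedFrobPlug.lean`, and the resulting `FrobLink W p` of `LR/NonEisCore.lean`.
-/

set_option autoImplicit false

namespace Fermat.Agent.LR.TwistPlug

open Fermat.Agent.LR

theorem countFix (W : WeierstrassCurve ℤ) {l p : ℕ} (hl : l.Prime) (hp : p.Prime)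
    (hgood : W.IsGoodPrimeFor l) (hdvd : (p : ℤ) ∣ (l : ℤ) + 1 - W.apOfModel l) :
    RedFrob.CountFix W l p := by
  intro k _ _ _ _
  have : Fact l.Prime := ⟨hl⟩
  exact TwistCount.exists_fixed_torsion_int W hgood hp hdvd

theorem countAnti (W : WeierstrassCurve ℤ) {l p : ℕ} (hl : l.Prime) (hp : p.Prime)
    (hgood : W.IsGoodPrimeFor l) (hdvd : (p : ℤ) ∣ (l : ℤ) + 1 + W.apOfModel l) :
    RedFrob.CountAnti W l p := by
  intro k _ _ _ hquad
  have : Fact l.Prime := ⟨hl⟩
  exact TwistCount.exists_antifixed_torsion_int W hgood hquad hp hdvd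

/-- **The Frobenius link** (node E2, unconditional). -/
theorem frobLink (W : WeierstrassCurve ℤ) {p : ℕ} (hp : p.Prime) : NonEis.FrobLink W p where
  fix _ hl hlp hgood A hA φ hφ hdvd :=
    RedFrob.exists_fixed_of_count W hl hp hlp hgood A hA φ hφ (countFix W hl hp hgood hdvd)
  anti _ hl hlp hgood A hA φ hφ hdvd :=
    RedFrob.exists_antifixed_of_count W hl hp hlp hgood A hA φ hφ (countAnti W hl hp hgood hdvd)

end Fermat.Agent.LR.TwistPlug
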