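import Fermat.Agent.LR.NonEisLe
import Fermat.Agent.LR.VarChangePoint

/-!
# Program M, node E: the non-Eisenstein prime, in the hypotheses of S41

`exists_prime_of_frobLink`: for an elliptic curve `E / ℚ` with integral model `W`, `E[p]`
irreducible, and an eigenform `f` congruent to `E` modulo `𝔪 ∣ p` (hypotheses of S41), every
modulus `m ≥ 1` and finite set `T` admit a good prime `l ∉ T`, `l ≡ 1 mod m`, `l ∤ N`, `l ≠ p` with
`p ∤ l + 1 - a_l(W)`.  The only remaining hypothesis is `FrobLink W p` (node E2).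
-/

set_option autoImplicit false

open WeierstrassCurve WeierstrassCurve.Affine WeierstrassCurve.Affine.Point
open scoped WeierstrassCurve.Affine

namespace Fermat.Agent.LR.NonEis

local notation "Qb" => AlgebraicClosure ℚ
local notation "Zbar" => integralClosure ℤ ℂ

/-- An integral model of an elliptic curve has nonzero discriminant. -/
theorem Δ_ne_zero_of_isIntegralModelOf (E : WeierstrassCurve ℚ) [E.IsElliptic]
    {W : WeierstrassCurve ℤ} (hW : W.IsIntegralModelOf E) : W.Δ ≠ 0 := by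
  obtain ⟨C, hC⟩ := hW
  intro h0
  have h1 : (C • E).Δ = 0 := by
    rw [hC, WeierstrassCurve.map_Δ, h0, _root_.map_zero]
  rw [WeierstrassCurve.variableChange_Δ] at h1
  have hE : E.Δ ≠ 0 := E.isUnit_Δ.ne_zero
  rcases mul_eq_zero.mp h1 with h | h
  · exact (pow_ne_zero 12 (Units.ne_zero _)) h
  · exact hE h

/-- **Node E** in the hypotheses of S41, given the Frobenius link of node E2. -/
theorem exists_prime_of_frobLink (E : WeierstrassCurve ℚ) [E.IsElliptic]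
    {W : WeierstrassCurve ℤ} (hW : W.IsIntegralModelOf E) {p N : ℕ} (hlink : FrobLink W p)
    (hp : p.Prime) (hp2 : p ≠ 2) (hN : 0 < N)
    (hirr : GaloisRepIsIrreducible (K := AlgebraicClosure ℚ) ℚ E p)
    (f : CuspForm (CongruenceSubgroup.Gamma0 N) 2) (𝔪 : Ideal Zbar)
    (hf : f.IsNormalizedEigenform) (hmax : 𝔪.IsMaximal) (hpm : (p : Zbar) ∈ 𝔪)
    (hcong : ∀ ℓ : ℕ, ℓ.Prime → W.IsGoodPrimeFor ℓ → ¬ ℓ ∣ N → ℓ ≠ p →
      ∃ a : Zbar, (a : ℂ) = ModularFormClass.qCoeff f ℓ ∧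
        a - ((W.apOfModel ℓ : ℤ) : Zbar) ∈ 𝔪)
    (m : ℕ) (hm : 0 < m) (T : Finset ℕ) :
    ∃ l : ℕ, l.Prime ∧ l ∉ T ∧ l ≡ 1 [MOD m] ∧ W.IsGoodPrimeFor l ∧ ¬ l ∣ N ∧ l ≠ p ∧
      ¬ (p : ℤ) ∣ (l : ℤ) + 1 - W.apOfModel l :=
  exists_prime_of_link W hlink
    (Fermat.Agent.LR.VarChangePoint.irreducible_of_isIntegralModelOf hW p hirr) hN hp hp2
    (Δ_ne_zero_of_isIntegralModelOf E hW) f 𝔪 hf hmax hpm hcong m hm T

end Fermat.Agent.LR.NonEis
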