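/-
Program M (statement S41, level raising), node A: the abstract level-raising lemma.

`K`, `L` are lattices (finite free `ℤ`-modules) with an action of a commutative ring `R`,
`i : K → L`, `j : L → K` are `R`-linear and adjoint for perfect pairings.  If some `r ∉ 𝔫` kills
the kernel of `i` modulo `p` (Ihara) and `j ∘ i` kills, modulo `p`, a nonzero class of `K / p`
that is annihilated by a power of the maximal ideal `𝔫`, then `ker j` contains an element which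
is nonzero modulo `p` and annihilated by `𝔫` modulo `p`.
Everything "modulo `p`" is expressed as `∃ z, _ = (p : ℤ) • z`.
-/
import Mathlib

set_option autoImplicit false

namespace Fermat.Agent.LR.Abstract

/-! ### Elementary lemmas on lattices -/

section Lattice

variable {K : Type*} [AddCommGroup K]

/-- A functional with values in `p ℤ` is `p` times a functional. -/
theorem exists_eq_smul_of_forall_dvd (p : ℤ) (ψ₀ : K →ₗ[ℤ] ℤ)
    (h : ∀ w, p ∣ ψ₀ w) : ∃ ψ : K →ₗ[ℤ] ℤ, ψ₀ = p • ψ := by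
  let ψ : K →+ ℤ :=
    { toFun := fun w => ψ₀ w / p
      map_zero' := by simp
      map_add' := fun a b => by
        rw [map_add, Int.add_ediv_of_dvd_left (h a)] }
  refine ⟨ψ.toIntLinearMap, ?_⟩
  ext w
  simp only [LinearMap.smul_apply, AddMonoidHom.coe_toIntLinearMap, smul_eq_mul]
  exact (Int.mul_ediv_cancel' (h w)).symm

/-- A nonzero element of a vector space over `ZMod p` is detected by an additive map to
`ZMod p`. -/
theorem exists_addHom_of_ne_zero_aux {Q : Type*} [AddCommGroup Q] (p : ℕ) [Fact p.Prime]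
    [Module (ZMod p) Q] {v : Q} (hv : v ≠ 0) : ∃ f : Q →+ ZMod p, f v ≠ 0 := by
  have hv' : v ∉ (⊥ : Submodule (ZMod p) Q) := by
    rw [Submodule.mem_bot]; exact hv
  obtain ⟨f, hfv, -⟩ := Submodule.exists_le_ker_of_notMem hv'
  exact ⟨f.toAddMonoidHom, hfv⟩

/-- A nonzero element of an abelian group killed by `p` is detected by an additive map to
`ZMod p`. -/
theorem exists_addHom_of_ne_zero {Q : Type*} [AddCommGroup Q] (p : ℕ) [Fact p.Prime]
    (hkill : ∀ x : Q, p • x = 0) {v : Q} (hv : v ≠ 0) : ∃ f : Q →+ ZMod p, f v ≠ 0 :=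
  @exists_addHom_of_ne_zero_aux Q _ p _ (AddCommGroup.zmodModule hkill) v hv

/-- Separation: if `J ⊇ p K` is a subgroup of a projective `ℤ`-module `K` and `v ∉ J`, there is a
functional `K → ℤ` with values in `p ℤ` on `J` and `p ∤ φ v`. -/
theorem exists_functional_of_notMem [Module.Projective ℤ K] (p : ℕ) [Fact p.Prime]
    (J : Submodule ℤ K) (hJ : ∀ x : K, (p : ℤ) • x ∈ J) {v : K} (hv : v ∉ J) :
    ∃ φ : K →ₗ[ℤ] ℤ, (∀ x ∈ J, (p : ℤ) ∣ φ x) ∧ ¬ (p : ℤ) ∣ φ v := by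
  classical
  have hkill : ∀ x : K ⧸ J, p • x = 0 := by
    intro x
    induction x using Submodule.Quotient.induction_on with
    | H x =>
      rw [← Submodule.Quotient.mk_smul, Submodule.Quotient.mk_eq_zero]
      have := hJ x
      rwa [natCast_zsmul] at this
  have hv' : (Submodule.Quotient.mk v : K ⧸ J) ≠ 0 := by
    rw [Ne, Submodule.Quotient.mk_eq_zero]
    exact hv
  obtain ⟨f, hfv⟩ := exists_addHom_of_ne_zero p hkill hv'
  let g : K →ₗ[ℤ] ZMod p := (f.toIntLinearMap).comp J.mkQ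
  let c : ℤ →ₗ[ℤ] ZMod p := (Int.castAddHom (ZMod p)).toIntLinearMap
  have hc : Function.Surjective c := fun a => ⟨(ZMod.cast a : ℤ), by simp [c]⟩
  obtain ⟨φ, hφ⟩ := Module.projective_lifting_property c g hc
  have hφ' : ∀ x, ((φ x : ℤ) : ZMod p) = f (Submodule.Quotient.mk x) := by
    intro x
    have := congrArg (fun l => l x) hφ
    simpa [c, g] using this
  refine ⟨φ, fun x hx => ?_, fun hdvd => hfv ?_⟩
  · rw [← ZMod.intCast_zmod_eq_zero_iff_dvd, hφ' x, (Submodule.Quotient.mk_eq_zero J).2 hx,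
      map_zero]
  · rw [← hφ' v, ZMod.intCast_zmod_eq_zero_iff_dvd]
    exact hdvd

/-- Krull intersection in the quotient `K / I`: if `p k ∈ I` and `k ∈ I + p ^ m K` for all `m`,
then `k ∈ I`. -/
theorem mem_of_forall_pow [Module.Finite ℤ K] (p : ℤ) (I : Submodule ℤ K) {k : K}
    (hpk : p • k ∈ I) (h : ∀ m : ℕ, ∃ y ∈ I, ∃ z : K, k = y + p ^ m • z) : k ∈ I := by
  rw [← Submodule.Quotient.mk_eq_zero]
  set c : K ⧸ I := Submodule.Quotient.mk k with hc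
  have hmem : c ∈ (⨅ m : ℕ, (Ideal.span {p}) ^ m • ⊤ : Submodule ℤ (K ⧸ I)) := by
    rw [Submodule.mem_iInf]
    intro m
    obtain ⟨y, hy, z, hz⟩ := h m
    have : c = p ^ m • (Submodule.Quotient.mk z : K ⧸ I) := by
      rw [hc, hz, Submodule.Quotient.mk_add, (Submodule.Quotient.mk_eq_zero I).2 hy, zero_add,
        Submodule.Quotient.mk_smul]
    rw [this]
    exact Submodule.smul_mem_smul (Ideal.pow_mem_pow (Ideal.mem_span_singleton_self p) m)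
      Submodule.mem_top
  obtain ⟨⟨r, hr⟩, hrc⟩ := (Ideal.mem_iInf_smul_pow_eq_bot_iff (Ideal.span {p}) c).1 hmem
  obtain ⟨b, rfl⟩ := Ideal.mem_span_singleton.1 hr
  have hpc : p • c = 0 := by
    rw [hc, ← Submodule.Quotient.mk_smul, Submodule.Quotient.mk_eq_zero]
    exact hpk
  rw [← hrc]
  change (p * b) • c = 0
  rw [mul_comm, mul_smul, hpc, smul_zero]

end Lattice

/-! ### The abstract level-raising lemma -/

section Main

variable {R : Type*} [CommRing R] {K L : Type*} [AddCommGroup K] [Module R K]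
  [AddCommGroup L] [Module R L]

/-- **Dual Ihara.**  If `r` kills the kernel of `i` modulo `p`, then `r` kills the cokernel of the
adjoint `j` modulo `p`. -/
theorem dual_ihara [Module.Free ℤ K] (p : ℕ) [Fact p.Prime]
    (i : K →ₗ[R] L) (j : L →ₗ[R] K)
    (BK : K →ₗ[ℤ] K →ₗ[ℤ] ℤ) (BL : L →ₗ[ℤ] L →ₗ[ℤ] ℤ)
    (hBK : Function.Surjective BK) (hBL : Function.Bijective BL)
    (hadj : ∀ x y, BL (i x) y = BK x (j y))
    (hself : ∀ (r : R) x y, BK (r • x) y = BK x (r • y))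
    (r : R) (hr : ∀ x : K, (∃ y : L, i x = (p : ℤ) • y) → ∃ z : K, r • x = (p : ℤ) • z)
    (k : K) : ∃ y : L, ∃ z : K, r • k = j y + (p : ℤ) • z := by
  by_contra hcon
  let jZ : L →ₗ[ℤ] K := j.toAddMonoidHom.toIntLinearMap
  let J : Submodule ℤ K := LinearMap.range jZ ⊔ LinearMap.range (LinearMap.lsmul ℤ K (p : ℤ))
  have hJmem : ∀ v : K, v ∈ J ↔ ∃ y : L, ∃ z : K, v = j y + (p : ℤ) • z := by
    intro v
    constructor
    · intro hv
      obtain ⟨a, ⟨y, rfl⟩, b, ⟨z, rfl⟩, rfl⟩ := Submodule.mem_sup.1 hv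
      exact ⟨y, z, rfl⟩
    · rintro ⟨y, z, rfl⟩
      exact Submodule.add_mem_sup ⟨y, rfl⟩ ⟨z, rfl⟩
  have hJp : ∀ x : K, (p : ℤ) • x ∈ J := fun x => (hJmem _).2 ⟨0, x, by simp⟩
  have hv : r • k ∉ J := fun h => hcon ((hJmem _).1 h)
  obtain ⟨φ, hφJ, hφv⟩ := exists_functional_of_notMem p J hJp hv
  obtain ⟨u, hu⟩ := hBK φ
  have hdvd : ∀ w : L, (p : ℤ) ∣ BL (i u) w := by
    intro w
    rw [hadj, hu]
    exact hφJ _ ((hJmem _).2 ⟨w, 0, by simp⟩)
  obtain ⟨ψ, hψ⟩ := exists_eq_smul_of_forall_dvd (p : ℤ) (BL (i u)) hdvd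
  obtain ⟨y, hy⟩ := hBL.2 ψ
  have hiu : i u = (p : ℤ) • y := by
    apply hBL.1
    rw [hψ, ← hy, map_smul]
  obtain ⟨z, hz⟩ := hr u ⟨y, hiu⟩
  apply hφv
  rw [← hu, ← hself, hz, map_smul, LinearMap.smul_apply, smul_eq_mul]
  exact dvd_mul_right _ _

/-- The socle step: a class which is nonzero modulo `p` and killed by `𝔫 ^ k` modulo `p` has a
multiple which is nonzero modulo `p` and killed by `𝔫` modulo `p`. -/
theorem exists_killed (𝔫 : Ideal R) (p : ℕ) (x : K) (hx : ¬ ∃ z : K, x = (p : ℤ) • z)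
    (hk : ∃ k : ℕ, ∀ r ∈ 𝔫 ^ k, ∃ z : K, r • x = (p : ℤ) • z) :
    ∃ r' : R, (¬ ∃ z : K, r' • x = (p : ℤ) • z) ∧ ∀ r ∈ 𝔫, ∃ z : K, r • (r' • x) = (p : ℤ) • z := by
  classical
  have h0 : Nat.find hk ≠ 0 := by
    intro h0
    have := Nat.find_spec hk
    rw [h0, pow_zero, Ideal.one_eq_top] at this
    obtain ⟨z, hz⟩ := this 1 Submodule.mem_top
    exact hx ⟨z, by rwa [one_smul] at hz⟩
  obtain ⟨k', hk'⟩ := Nat.exists_eq_succ_of_ne_zero h0
  have hmin : ¬ ∀ r ∈ 𝔫 ^ k', ∃ z : K, r • x = (p : ℤ) • z :=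
    Nat.find_min hk (by omega)
  push Not at hmin
  obtain ⟨r', hr', hr'x⟩ := hmin
  refine ⟨r', fun ⟨z, hz⟩ => hr'x z hz, fun r hr => ?_⟩
  have hspec := Nat.find_spec hk
  rw [hk', Nat.succ_eq_add_one, pow_succ'] at hspec
  obtain ⟨z, hz⟩ := hspec (r * r') (Ideal.mul_mem_mul hr hr')
  exact ⟨z, by rw [← hz, mul_smul]⟩

/-- **Abstract level-raising lemma**, with the class killed by `𝔫` itself. -/
theorem exists_kernel_class_of_killed (𝔫 : Ideal R) [h𝔫 : 𝔫.IsMaximal] (p : ℕ) [hp : Fact p.Prime]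
    [Module.Free ℤ K] [Module.Finite ℤ K]
    (i : K →ₗ[R] L) (j : L →ₗ[R] K)
    (BK : K →ₗ[ℤ] K →ₗ[ℤ] ℤ) (BL : L →ₗ[ℤ] L →ₗ[ℤ] ℤ)
    (hBK : Function.Surjective BK) (hBL : Function.Bijective BL)
    (hadj : ∀ x y, BL (i x) y = BK x (j y))
    (hself : ∀ (r : R) x y, BK (r • x) y = BK x (r • y))
    (ihara : ∃ r : R, r ∉ 𝔫 ∧
      ∀ x : K, (∃ y : L, i x = (p : ℤ) • y) → ∃ z : K, r • x = (p : ℤ) • z)
    (hΔ : ∃ x : K, (¬ ∃ z : K, x = (p : ℤ) • z) ∧ (∀ r ∈ 𝔫, ∃ z : K, r • x = (p : ℤ) • z) ∧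
      ∃ z : K, j (i x) = (p : ℤ) • z) :
    ∃ f : L, j f = 0 ∧ (¬ ∃ y : L, f = (p : ℤ) • y) ∧
      ∀ r ∈ 𝔫, ∃ y : L, j y = 0 ∧ r • f = (p : ℤ) • y := by
  obtain ⟨r₀, hr₀, hker⟩ := ihara
  obtain ⟨x, hx, hxn, k, hk⟩ := hΔ
  obtain ⟨s, n, hn, hsn⟩ := h𝔫.exists_inv hr₀
  have hp0 : (p : ℤ) ≠ 0 := by exact_mod_cast hp.out.ne_zero
  have hcancel : ∀ a b : K, (p : ℤ) • a = (p : ℤ) • b → a = b := fun a b h =>
    smul_right_injective K hp0 h
  -- the element `t = s r₀ ≡ 1 mod 𝔫`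
  set t : R := s * r₀ with ht
  have h1t : 1 - t = n := by rw [ht, ← hsn]; ring
  have htK : ∀ v : K, ∃ y : L, ∃ z : K, t • v = j y + (p : ℤ) • z := by
    intro v
    obtain ⟨y, z, h⟩ := dual_ihara p i j BK BL hBK hBL hadj hself r₀ hker v
    refine ⟨s • y, s • z, ?_⟩
    rw [ht, mul_smul, h, smul_add, map_smul, smul_comm s (p : ℤ) z]
  have htm : ∀ m : ℕ, ∀ v : K, ∃ y : L, ∃ z : K, t ^ m • v = j y + (p : ℤ) ^ m • z := by
    intro m
    induction m with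
    | zero => intro v; exact ⟨0, v, by simp⟩
    | succ m ih =>
      intro v
      obtain ⟨y, z, h⟩ := ih v
      obtain ⟨y', z', h'⟩ := htK z
      refine ⟨t • y + (p : ℤ) ^ m • y', z', ?_⟩
      rw [pow_succ', mul_smul, h, smul_add, smul_comm t ((p : ℤ) ^ m) z, h', smul_add, map_add,
        map_smul, map_zsmul, smul_smul, ← pow_succ, add_assoc]
  -- `w = i x` is nonzero modulo `p`
  set w : L := i x with hw
  have hwp : ¬ ∃ y : L, w = (p : ℤ) • y := by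
    rintro ⟨y, hy⟩
    obtain ⟨z, hz⟩ := hker x ⟨y, hy⟩
    obtain ⟨z', hz'⟩ := hxn n hn
    apply hx
    refine ⟨s • z + z', ?_⟩
    calc x = (s * r₀ + n) • x := by rw [hsn, one_smul]
      _ = (p : ℤ) • (s • z + z') := by
        rw [add_smul, mul_smul, hz, hz', smul_add, smul_comm s (p : ℤ) z]
  -- `𝔫 w ⊆ p L`, with explicit witnesses
  have hwn : ∀ r ∈ 𝔫, ∃ z : K, r • w = (p : ℤ) • i z := by
    intro r hr
    obtain ⟨z, hz⟩ := hxn r hr
    exact ⟨z, by rw [hw, ← map_smul, hz, map_zsmul]⟩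
  -- `𝔫 k ⊆ j L`
  have hkn : ∀ r ∈ 𝔫, ∃ y : L, r • k = j y := by
    intro r hr
    obtain ⟨z, hz⟩ := hwn r hr
    refine ⟨i z, hcancel _ _ ?_⟩
    rw [smul_comm, ← hk, ← map_smul, hz, map_zsmul]
  obtain ⟨yn, hyn⟩ := hkn n hn
  -- `k ∈ j L + p ^ m K` for all `m`
  have hkm : ∀ m : ℕ, ∃ y : L, ∃ z : K, k = j y + (p : ℤ) ^ m • z := by
    intro m
    obtain ⟨y, z, h⟩ := htm m k
    refine ⟨y + (∑ a ∈ Finset.range m, t ^ a) • yn, z, ?_⟩
    have h1 : (1 - t ^ m) • k = j ((∑ a ∈ Finset.range m, t ^ a) • yn) := by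
      rw [← geom_sum_mul_neg, h1t, mul_smul, hyn, map_smul]
    calc k = t ^ m • k + (1 - t ^ m) • k := by rw [sub_smul, one_smul]; abel
      _ = j (y + (∑ a ∈ Finset.range m, t ^ a) • yn) + (p : ℤ) ^ m • z := by
        rw [h, h1, map_add]; abel
  -- Krull: `k ∈ j L`
  let jZ : L →ₗ[ℤ] K := j.toAddMonoidHom.toIntLinearMap
  have hkI : k ∈ LinearMap.range jZ := by
    refine mem_of_forall_pow (p : ℤ) (LinearMap.range jZ) ⟨w, hk⟩ fun m => ?_
    obtain ⟨y, z, h⟩ := hkm m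
    exact ⟨j y, ⟨y, rfl⟩, z, h⟩
  obtain ⟨w', hw'⟩ := hkI
  have hw'' : j w' = k := hw'
  -- the element `f = w - p w'`
  refine ⟨w - (p : ℤ) • w', ?_, ?_, ?_⟩
  · rw [map_sub, map_zsmul, hw'', hk, sub_self]
  · rintro ⟨y, hy⟩
    exact hwp ⟨y + w', by rw [smul_add, ← hy]; abel⟩
  · intro r hr
    obtain ⟨z, hz⟩ := hwn r hr
    have hrf : r • (w - (p : ℤ) • w') = (p : ℤ) • (i z - r • w') := by
      rw [smul_sub, hz, smul_sub, smul_comm r (p : ℤ) w']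
    refine ⟨i z - r • w', hcancel _ _ ?_, hrf⟩
    rw [← map_zsmul, ← hrf, map_smul, map_sub, map_zsmul, hw'', hk, sub_self, smul_zero,
      smul_zero]

/-- **Abstract level-raising lemma.** -/
theorem exists_kernel_class (𝔫 : Ideal R) [𝔫.IsMaximal] (p : ℕ) [Fact p.Prime]
    [Module.Free ℤ K] [Module.Finite ℤ K]
    (i : K →ₗ[R] L) (j : L →ₗ[R] K)
    (BK : K →ₗ[ℤ] K →ₗ[ℤ] ℤ) (BL : L →ₗ[ℤ] L →ₗ[ℤ] ℤ)
    (hBK : Function.Surjective BK) (hBL : Function.Bijective BL)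
    (hadj : ∀ x y, BL (i x) y = BK x (j y))
    (hself : ∀ (r : R) x y, BK (r • x) y = BK x (r • y))
    (ihara : ∃ r : R, r ∉ 𝔫 ∧
      ∀ x : K, (∃ y : L, i x = (p : ℤ) • y) → ∃ z : K, r • x = (p : ℤ) • z)
    (hΔ : ∃ x : K, (¬ ∃ z : K, x = (p : ℤ) • z) ∧
      (∃ k : ℕ, ∀ r ∈ 𝔫 ^ k, ∃ z : K, r • x = (p : ℤ) • z) ∧ ∃ z : K, j (i x) = (p : ℤ) • z) :
    ∃ f : L, j f = 0 ∧ (¬ ∃ y : L, f = (p : ℤ) • y) ∧
      ∀ r ∈ 𝔫, ∃ y : L, j y = 0 ∧ r • f = (p : ℤ) • y := by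
  obtain ⟨x, hx, hxk, z, hz⟩ := hΔ
  obtain ⟨r', hr'x, hr'n⟩ := exists_killed 𝔫 p x hx hxk
  refine exists_kernel_class_of_killed 𝔫 p i j BK BL hBK hBL hadj hself ihara
    ⟨r' • x, hr'x, hr'n, r' • z, ?_⟩
  rw [map_smul, map_smul, hz, smul_comm]

end Main

end Fermat.Agent.LR.Abstract
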