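/-
Program M (statement S41, level raising), node A, second part: the abstract level-raising lemma
for `K = L₀ × L₀` with the two degeneracy pairs `(A₁, A₂)`, `(B₁, B₂)` and
`Δ = [[q + 1, T], [T, q + 1]]`.
-/
import Fermat.Agent.LR.AbstractLemma

set_option autoImplicit false

namespace Fermat.Agent.LR.Abstract

section Prod

variable {M : Type*} [AddCommGroup M]

/-- The orthogonal sum of a pairing with itself on `M × M`. -/
def prodPairing (B : M →ₗ[ℤ] M →ₗ[ℤ] ℤ) : (M × M) →ₗ[ℤ] (M × M) →ₗ[ℤ] ℤ :=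
  LinearMap.mk₂ ℤ (fun x y => B x.1 y.1 + B x.2 y.2)
    (fun x x' y => by simp only [Prod.fst_add, Prod.snd_add, map_add, LinearMap.add_apply]; ring)
    (fun c x y => by
      simp only [Prod.smul_fst, Prod.smul_snd, map_smul, LinearMap.smul_apply, smul_add])
    (fun x y y' => by simp only [Prod.fst_add, Prod.snd_add, map_add]; ring)
    (fun c x y => by simp only [Prod.smul_fst, Prod.smul_snd, map_smul, smul_add])

@[simp]
theorem prodPairing_apply (B : M →ₗ[ℤ] M →ₗ[ℤ] ℤ) (x y : M × M) :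
    prodPairing B x y = B x.1 y.1 + B x.2 y.2 := rfl

theorem prodPairing_surjective (B : M →ₗ[ℤ] M →ₗ[ℤ] ℤ) (hB : Function.Surjective B) :
    Function.Surjective (prodPairing B) := by
  intro φ
  obtain ⟨u₁, hu₁⟩ := hB (φ.comp (LinearMap.inl ℤ M M))
  obtain ⟨u₂, hu₂⟩ := hB (φ.comp (LinearMap.inr ℤ M M))
  refine ⟨(u₁, u₂), ?_⟩
  ext y
  · simp only [LinearMap.coe_comp, Function.comp_apply, LinearMap.coe_inl, prodPairing_apply,
      map_zero, add_zero, hu₁]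
  · simp only [LinearMap.coe_comp, Function.comp_apply, LinearMap.coe_inr, prodPairing_apply,
      map_zero, zero_add, hu₂]

theorem prodPairing_injective (B : M →ₗ[ℤ] M →ₗ[ℤ] ℤ) (hB : Function.Injective B) :
    Function.Injective (prodPairing B) := by
  intro x x' h
  have h1 : B x.1 = B x'.1 := by
    ext a
    have := congrArg (fun l : (M × M) →ₗ[ℤ] ℤ => l (a, 0)) h
    simpa using this
  have h2 : B x.2 = B x'.2 := by
    ext a
    have := congrArg (fun l : (M × M) →ₗ[ℤ] ℤ => l (0, a)) h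
    simpa using this
  exact Prod.ext (hB h1) (hB h2)

theorem prodPairing_bijective (B : M →ₗ[ℤ] M →ₗ[ℤ] ℤ) (hB : Function.Bijective B) :
    Function.Bijective (prodPairing B) :=
  ⟨prodPairing_injective B hB.1, prodPairing_surjective B hB.2⟩

end Prod

section Main

variable {R : Type*} [CommRing R] {L₀ L : Type*} [AddCommGroup L₀] [Module R L₀]
  [AddCommGroup L] [Module R L]

/-- **Abstract level-raising lemma, two-degeneracy-maps form.**  `L₀`, `L` lattices with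
`R`-action and perfect pairings `B₀`, `BL`; `A₁, A₂ : L₀ → L` with adjoints `B₁, B₂ : L → L₀`;
`B₁ A₁ = B₂ A₂ = q + 1`, `B₁ A₂ = T`, `B₂ A₁ = T'` (in practice `T' = T`).  If some `r ∉ 𝔫` kills the kernel of
`(a, b) ↦ A₁ a + A₂ b` modulo `p` (Ihara), and `y ∈ L₀` is nonzero modulo `p`, killed by a power
of `𝔫` modulo `p`, with `T y ≡ T' y ≡ ε (q + 1) y` modulo `p` (`ε = ± 1`), then there is
`f ∈ ker B₁ ∩ ker B₂`, nonzero modulo `p`, with `𝔫 f ⊆ p (ker B₁ ∩ ker B₂)`. -/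
theorem exists_new_class (𝔫 : Ideal R) [𝔫.IsMaximal] (p : ℕ) [Fact p.Prime]
    [Module.Free ℤ L₀] [Module.Finite ℤ L₀]
    (A₁ A₂ : L₀ →ₗ[R] L) (B₁ B₂ : L →ₗ[R] L₀) (T T' : L₀ →ₗ[R] L₀) (q : ℤ)
    (B₀ : L₀ →ₗ[ℤ] L₀ →ₗ[ℤ] ℤ) (BL : L →ₗ[ℤ] L →ₗ[ℤ] ℤ)
    (hB₀ : Function.Surjective B₀) (hBL : Function.Bijective BL)
    (hadj₁ : ∀ a y, BL (A₁ a) y = B₀ a (B₁ y)) (hadj₂ : ∀ a y, BL (A₂ a) y = B₀ a (B₂ y))
    (hself : ∀ (r : R) a b, B₀ (r • a) b = B₀ a (r • b))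
    (h₁₁ : ∀ a, B₁ (A₁ a) = (q + 1) • a) (h₂₂ : ∀ a, B₂ (A₂ a) = (q + 1) • a)
    (h₁₂ : ∀ a, B₁ (A₂ a) = T a) (h₂₁ : ∀ a, B₂ (A₁ a) = T' a)
    (ihara : ∃ r : R, r ∉ 𝔫 ∧ ∀ a b : L₀, (∃ y : L, A₁ a + A₂ b = (p : ℤ) • y) →
      (∃ z : L₀, r • a = (p : ℤ) • z) ∧ ∃ z : L₀, r • b = (p : ℤ) • z)
    (ε : ℤ) (hε : ε = 1 ∨ ε = -1)
    (hy : ∃ y : L₀, (¬ ∃ z : L₀, y = (p : ℤ) • z) ∧
      (∃ k : ℕ, ∀ r ∈ 𝔫 ^ k, ∃ z : L₀, r • y = (p : ℤ) • z) ∧
      (∃ z : L₀, T y - (ε * (q + 1)) • y = (p : ℤ) • z) ∧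
      ∃ z : L₀, T' y - (ε * (q + 1)) • y = (p : ℤ) • z) :
    ∃ f : L, B₁ f = 0 ∧ B₂ f = 0 ∧ (¬ ∃ y : L, f = (p : ℤ) • y) ∧
      ∀ r ∈ 𝔫, ∃ y : L, B₁ y = 0 ∧ B₂ y = 0 ∧ r • f = (p : ℤ) • y := by
  -- the maps `i`, `j`
  let i : (L₀ × L₀) →ₗ[R] L := A₁.coprod A₂
  let j : L →ₗ[R] (L₀ × L₀) := B₁.prod B₂
  have hi : ∀ x : L₀ × L₀, i x = A₁ x.1 + A₂ x.2 := fun x => LinearMap.coprod_apply _ _ _
  have hj : ∀ y : L, j y = (B₁ y, B₂ y) := fun y => LinearMap.prod_apply _ _ _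
  have key := exists_kernel_class 𝔫 p i j (prodPairing B₀) BL (prodPairing_surjective B₀ hB₀) hBL
    (fun x y => by rw [hi, map_add, LinearMap.add_apply, hadj₁, hadj₂, hj, prodPairing_apply])
    (fun r x y => by
      simp only [prodPairing_apply, Prod.smul_fst, Prod.smul_snd, hself])
    (by
      obtain ⟨r, hr, h⟩ := ihara
      refine ⟨r, hr, fun x hx => ?_⟩
      rw [hi] at hx
      obtain ⟨⟨z₁, hz₁⟩, z₂, hz₂⟩ := h x.1 x.2 hx
      exact ⟨(z₁, z₂), Prod.ext (by simpa using hz₁) (by simpa using hz₂)⟩)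
    (by
      obtain ⟨y, hy0, ⟨k, hyk⟩, ⟨z, hz⟩, z', hz'⟩ := hy
      refine ⟨(y, -ε • y), ?_, ⟨k, fun r hr => ?_⟩, (-ε • z, z'), ?_⟩
      · rintro ⟨z', hz'⟩
        exact hy0 ⟨z'.1, by simpa using congrArg Prod.fst hz'⟩
      · obtain ⟨z', hz'⟩ := hyk r hr
        refine ⟨(z', -ε • z'), Prod.ext (by simpa using hz') ?_⟩
        simp only [Prod.smul_snd]
        rw [smul_comm r (-ε) y, hz', smul_comm]
      · have hT : T y = (ε * (q + 1)) • y + (p : ℤ) • z := by rw [← hz]; abel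
        have hT' : T' y = (ε * (q + 1)) • y + (p : ℤ) • z' := by rw [← hz']; abel
        rw [hi, hj]
        simp only [map_add, h₁₁, h₂₂, h₁₂, h₂₁, map_zsmul, hT, hT']
        refine Prod.ext ?_ ?_
        · simp only [Prod.smul_fst]
          rcases hε with rfl | rfl <;> module
        · simp only [Prod.smul_snd]
          rcases hε with rfl | rfl <;> module)
  obtain ⟨f, hf, hfp, hfn⟩ := key
  rw [hj] at hf
  refine ⟨f, congrArg Prod.fst hf, congrArg Prod.snd hf, hfp, fun r hr => ?_⟩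
  obtain ⟨y, hy1, hy2⟩ := hfn r hr
  rw [hj] at hy1
  exact ⟨y, congrArg Prod.fst hy1, congrArg Prod.snd hy1, hy2⟩

end Main

end Fermat.Agent.LR.Abstract
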