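/-
Program M (statement S41, level raising), node A, third part: the abstract level-raising lemma in
GENERATOR form.  No ring, no ideal, no module structure in the statement: the Hecke action is a
commuting family of `ℤ`-endomorphisms `T₀ l` of `L₀` and `TL l` of `L` (`l : ι`), the maximal
ideal is given by the integers `a l` (`t_l ↦ a l mod p`).
-/
import Fermat.Agent.LR.AbstractProd

set_option autoImplicit false
set_option linter.style.haveILetI false

namespace Fermat.Agent.LR.AbstractGen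

open Fermat.Agent.LR.Abstract

/-! ### Polynomials in a commuting family of endomorphisms -/

section Eval

variable {ι : Type*} {Λ : Type*} [AddCommGroup Λ] (T : ι → Module.End ℤ Λ)

theorem isMulCommutative_adjoin_range (hT : ∀ l l', Commute (T l) (T l')) :
    IsMulCommutative (Algebra.adjoin ℤ (Set.range T)) :=
  Algebra.isMulCommutative_adjoin ℤ (by
    rintro _ ⟨l, rfl⟩ _ ⟨l', rfl⟩
    exact hT l l')

open scoped IsMulCommutative in
/-- Evaluation of polynomials at a commuting family, with values in the commutative subalgebra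
generated by the family. -/
noncomputable def polyEvalAux (hT : ∀ l l', Commute (T l) (T l')) :
    MvPolynomial ι ℤ →ₐ[ℤ] (Algebra.adjoin ℤ (Set.range T) : Subalgebra ℤ (Module.End ℤ Λ)) :=
  haveI := isMulCommutative_adjoin_range T hT
  MvPolynomial.aeval fun l =>
    (⟨T l, Algebra.subset_adjoin (Set.mem_range_self l)⟩ : Algebra.adjoin ℤ (Set.range T))

/-- Evaluation of polynomials at a commuting family of endomorphisms. -/
noncomputable def polyEval (hT : ∀ l l', Commute (T l) (T l')) :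
    MvPolynomial ι ℤ →+* Module.End ℤ Λ :=
  ((Algebra.adjoin ℤ (Set.range T)).val.comp (polyEvalAux T hT)).toRingHom

variable {T}

open scoped IsMulCommutative in
theorem polyEval_X (hT : ∀ l l', Commute (T l) (T l')) (l : ι) :
    polyEval T hT (MvPolynomial.X l) = T l := by
  haveI := isMulCommutative_adjoin_range T hT
  show ((polyEvalAux T hT (MvPolynomial.X l) : Algebra.adjoin ℤ (Set.range T)) :
    Module.End ℤ Λ) = T l
  unfold polyEvalAux
  rw [MvPolynomial.aeval_X]

theorem polyEval_C (hT : ∀ l l', Commute (T l) (T l')) (c : ℤ) :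
    polyEval T hT (MvPolynomial.C c) = (c : Module.End ℤ Λ) := by
  rw [← MvPolynomial.algebraMap_eq, eq_intCast, map_intCast]

variable (T) in
/-- The module structure over the polynomial ring attached to a commuting family. -/
@[reducible] noncomputable def polyModule (hT : ∀ l l', Commute (T l) (T l')) :
    Module (MvPolynomial ι ℤ) Λ :=
  Module.compHom Λ (polyEval T hT)

theorem polyModule_smul_def (hT : ∀ l l', Commute (T l) (T l')) (t : MvPolynomial ι ℤ) (x : Λ) :
    (letI := polyModule T hT; t • x) = polyEval T hT t x := rfl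

/-- An additive map intertwining the generators intertwines all polynomials. -/
theorem map_polyEval {J : Type*} [AddCommGroup J] {S : ι → Module.End ℤ J}
    (hT : ∀ l l', Commute (T l) (T l')) (hS : ∀ l l', Commute (S l) (S l'))
    (f : Λ →+ J) (hf : ∀ l x, f (T l x) = S l (f x)) (t : MvPolynomial ι ℤ) (x : Λ) :
    f (polyEval T hT t x) = polyEval S hS t (f x) := by
  induction t using MvPolynomial.induction_on generalizing x with
  | C a =>
    rw [polyEval_C, polyEval_C]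
    simp
  | add p q hp hq =>
    rw [map_add, map_add, LinearMap.add_apply, LinearMap.add_apply, map_add, hp, hq]
  | mul_X p l hp =>
    rw [map_mul, map_mul, polyEval_X, polyEval_X, Module.End.mul_apply,
      Module.End.mul_apply, hp, hf]

/-- On a class which is an eigenclass modulo `p` for the generators, with eigenvalues `a l`,
every polynomial `t` acts modulo `p` through the integer `t(a)`. -/
theorem polyEval_sub_eval_smul (hT : ∀ l l', Commute (T l) (T l')) (p : ℤ) (a : ι → ℤ) (y : Λ)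
    (hy : ∀ l, ∃ z : Λ, T l y - a l • y = p • z) (t : MvPolynomial ι ℤ) :
    ∃ z : Λ, polyEval T hT t y - (MvPolynomial.eval a t) • y = p • z := by
  induction t using MvPolynomial.induction_on with
  | C c =>
    refine ⟨0, ?_⟩
    rw [polyEval_C, MvPolynomial.eval_C, Module.End.intCast_apply, sub_self, smul_zero]
  | add s t hs ht =>
    obtain ⟨z, hz⟩ := hs
    obtain ⟨z', hz'⟩ := ht
    refine ⟨z + z', ?_⟩
    rw [map_add, LinearMap.add_apply, map_add, add_smul, smul_add, ← hz, ← hz']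
    abel
  | mul_X t l ht =>
    obtain ⟨z, hz⟩ := ht
    obtain ⟨z', hz'⟩ := hy l
    refine ⟨a l • z + polyEval T hT t z', ?_⟩
    have h1 : T l y = a l • y + p • z' := by rw [← hz']; abel
    have h2 : polyEval T hT t y = (MvPolynomial.eval a t) • y + p • z := by rw [← hz]; abel
    rw [map_mul, polyEval_X, Module.End.mul_apply, h1, map_add, map_zsmul, map_zsmul, h2,
      map_mul, MvPolynomial.eval_X]
    module

end Eval

/-! ### The generator form of the lemma -/

section Main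

variable {ι : Type*} {L₀ L : Type*} [AddCommGroup L₀] [AddCommGroup L]

/-- **Abstract level-raising lemma, generator form.** -/
theorem exists_new_class_gen [Module.Free ℤ L₀] [Module.Finite ℤ L₀] (p : ℕ) [hp : Fact p.Prime]
    (T₀ : ι → Module.End ℤ L₀) (TL : ι → Module.End ℤ L)
    (hc₀ : ∀ l l', Commute (T₀ l) (T₀ l')) (hcL : ∀ l l', Commute (TL l) (TL l'))
    (A₁ A₂ : L₀ →ₗ[ℤ] L) (B₁ B₂ : L →ₗ[ℤ] L₀)
    (hA₁ : ∀ l x, A₁ (T₀ l x) = TL l (A₁ x)) (hA₂ : ∀ l x, A₂ (T₀ l x) = TL l (A₂ x))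
    (hB₁ : ∀ l y, B₁ (TL l y) = T₀ l (B₁ y)) (hB₂ : ∀ l y, B₂ (TL l y) = T₀ l (B₂ y))
    (q : ℤ)
    (B₀ : L₀ →ₗ[ℤ] L₀ →ₗ[ℤ] ℤ) (BL : L →ₗ[ℤ] L →ₗ[ℤ] ℤ)
    (hB₀ : Function.Surjective B₀) (hBL : Function.Bijective BL)
    (hadj₁ : ∀ a y, BL (A₁ a) y = B₀ a (B₁ y)) (hadj₂ : ∀ a y, BL (A₂ a) y = B₀ a (B₂ y))
    (hself : ∀ l a b, B₀ (T₀ l a) b = B₀ a (T₀ l b))
    (h₁₁ : ∀ a, B₁ (A₁ a) = (q + 1) • a) (h₂₂ : ∀ a, B₂ (A₂ a) = (q + 1) • a)
    (a : ι → ℤ)
    (ihara : ∃ (l₀ : ι) (c : ℤ), ¬ (p : ℤ) ∣ a l₀ - c ∧ ∀ x y : L₀,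
      (∃ w : L, A₁ x + A₂ y = (p : ℤ) • w) →
        (∃ z : L₀, T₀ l₀ x - c • x = (p : ℤ) • z) ∧ ∃ z : L₀, T₀ l₀ y - c • y = (p : ℤ) • z)
    (ε : ℤ) (hε : ε = 1 ∨ ε = -1)
    (hy : ∃ y : L₀, (¬ ∃ z : L₀, y = (p : ℤ) • z) ∧
      (∀ l, ∃ z : L₀, T₀ l y - a l • y = (p : ℤ) • z) ∧
      (∃ z : L₀, B₁ (A₂ y) - (ε * (q + 1)) • y = (p : ℤ) • z) ∧
      ∃ z : L₀, B₂ (A₁ y) - (ε * (q + 1)) • y = (p : ℤ) • z) :
    ∃ f : L, B₁ f = 0 ∧ B₂ f = 0 ∧ (¬ ∃ w : L, f = (p : ℤ) • w) ∧
      ∀ l, ∃ w : L, B₁ w = 0 ∧ B₂ w = 0 ∧ TL l f - a l • f = (p : ℤ) • w := by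
  classical
  letI m₀ : Module (MvPolynomial ι ℤ) L₀ := polyModule T₀ hc₀
  letI mL : Module (MvPolynomial ι ℤ) L := polyModule TL hcL
  -- the `R`-linear versions of the maps
  let A₁' : L₀ →ₗ[MvPolynomial ι ℤ] L :=
    { toFun := A₁, map_add' := A₁.map_add
      map_smul' := fun t x => map_polyEval hc₀ hcL A₁.toAddMonoidHom hA₁ t x }
  let A₂' : L₀ →ₗ[MvPolynomial ι ℤ] L :=
    { toFun := A₂, map_add' := A₂.map_add
      map_smul' := fun t x => map_polyEval hc₀ hcL A₂.toAddMonoidHom hA₂ t x }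
  let B₁' : L →ₗ[MvPolynomial ι ℤ] L₀ :=
    { toFun := B₁, map_add' := B₁.map_add
      map_smul' := fun t x => map_polyEval hcL hc₀ B₁.toAddMonoidHom hB₁ t x }
  let B₂' : L →ₗ[MvPolynomial ι ℤ] L₀ :=
    { toFun := B₂, map_add' := B₂.map_add
      map_smul' := fun t x => map_polyEval hcL hc₀ B₂.toAddMonoidHom hB₂ t x }
  let T' : L₀ →ₗ[MvPolynomial ι ℤ] L₀ := B₁'.comp A₂'
  let T'' : L₀ →ₗ[MvPolynomial ι ℤ] L₀ := B₂'.comp A₁'
  -- the maximal ideal
  let θ : MvPolynomial ι ℤ →+* ZMod p := (Int.castRingHom (ZMod p)).comp (MvPolynomial.eval a)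
  have hθsurj : Function.Surjective θ := fun x =>
    ⟨MvPolynomial.C (ZMod.cast x : ℤ), by simp [θ]⟩
  haveI : (RingHom.ker θ).IsMaximal := RingHom.ker_isMaximal_of_surjective θ hθsurj
  have hmem : ∀ t : MvPolynomial ι ℤ, t ∈ RingHom.ker θ ↔ (p : ℤ) ∣ MvPolynomial.eval a t := by
    intro t
    rw [RingHom.mem_ker]
    show ((MvPolynomial.eval a t : ℤ) : ZMod p) = 0 ↔ _
    exact ZMod.intCast_zmod_eq_zero_iff_dvd _ _
  -- self-adjointness for all polynomials
  have hself' : ∀ (t : MvPolynomial ι ℤ) (x y : L₀), B₀ (t • x) y = B₀ x (t • y) := by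
    intro t
    induction t using MvPolynomial.induction_on with
    | C c =>
      intro x y
      show B₀ (polyEval T₀ hc₀ (MvPolynomial.C c) x) y = B₀ x (polyEval T₀ hc₀ (MvPolynomial.C c) y)
      rw [polyEval_C, Module.End.intCast_apply, Module.End.intCast_apply, map_zsmul,
        LinearMap.smul_apply, map_zsmul]
    | add s t hs ht =>
      intro x y
      rw [add_smul, add_smul, map_add, LinearMap.add_apply, map_add, hs, ht]
    | mul_X t l ht =>
      intro x y
      have e1 : (t * MvPolynomial.X l) • x = t • (T₀ l x) := by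
        rw [mul_smul]
        show polyEval T₀ hc₀ t (polyEval T₀ hc₀ (MvPolynomial.X l) x) = _
        rw [polyEval_X]; rfl
      have e2 : (t * MvPolynomial.X l) • y = T₀ l (t • y) := by
        rw [mul_comm, mul_smul]
        show polyEval T₀ hc₀ (MvPolynomial.X l) (polyEval T₀ hc₀ t y) = _
        rw [polyEval_X]; rfl
      rw [e1, e2, ht, hself]
  have key := exists_new_class (RingHom.ker θ) p A₁' A₂' B₁' B₂' T' T'' q B₀ BL hB₀ hBL
    hadj₁ hadj₂ hself' h₁₁ h₂₂ (fun _ => rfl) (fun _ => rfl)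
    (by
      obtain ⟨l₀, c, hc, h⟩ := ihara
      refine ⟨MvPolynomial.X l₀ - MvPolynomial.C c, ?_, fun x y hxy => ?_⟩
      · rw [hmem, map_sub, MvPolynomial.eval_X, MvPolynomial.eval_C]
        exact hc
      · obtain ⟨⟨z₁, hz₁⟩, z₂, hz₂⟩ := h x y hxy
        have e : ∀ v : L₀, (MvPolynomial.X l₀ - MvPolynomial.C c : MvPolynomial ι ℤ) • v
            = T₀ l₀ v - c • v := by
          intro v
          show polyEval T₀ hc₀ (MvPolynomial.X l₀ - MvPolynomial.C c) v = _
          rw [map_sub, polyEval_X, polyEval_C, LinearMap.sub_apply, Module.End.intCast_apply]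
        exact ⟨⟨z₁, by rw [e, hz₁]⟩, z₂, by rw [e, hz₂]⟩)
    ε hε
    (by
      obtain ⟨y, hy0, hyl, hy1, hy2⟩ := hy
      refine ⟨y, hy0, ⟨1, fun r hr => ?_⟩, hy1, hy2⟩
      rw [pow_one, hmem] at hr
      obtain ⟨d, hd⟩ := hr
      obtain ⟨z, hz⟩ := polyEval_sub_eval_smul hc₀ (p : ℤ) a y hyl r
      refine ⟨z + d • y, ?_⟩
      show polyEval T₀ hc₀ r y = _
      have : polyEval T₀ hc₀ r y = (MvPolynomial.eval a r) • y + (p : ℤ) • z := by
        rw [← hz]; abel
      rw [this, hd]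
      module)
  obtain ⟨f, hf1, hf2, hfp, hfn⟩ := key
  refine ⟨f, hf1, hf2, hfp, fun l => ?_⟩
  have hl : (MvPolynomial.X l - MvPolynomial.C (a l) : MvPolynomial ι ℤ) ∈ RingHom.ker θ := by
    rw [hmem, map_sub, MvPolynomial.eval_X, MvPolynomial.eval_C, sub_self]
    exact dvd_zero _
  obtain ⟨w, hw1, hw2, hw⟩ := hfn _ hl
  refine ⟨w, hw1, hw2, ?_⟩
  rw [← hw]
  show _ = polyEval TL hcL (MvPolynomial.X l - MvPolynomial.C (a l)) f
  rw [map_sub, polyEval_X, polyEval_C, LinearMap.sub_apply, Module.End.intCast_apply]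

end Main

end Fermat.Agent.LR.AbstractGen
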