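/-
Program M (statement S41, level raising), node A, fourth part (route H of finding 508): the abstract
level-raising lemma in GENERATOR form with an arbitrary POLYNOMIAL Ihara element `t` (instead of
`X l₀ - c`), and the special case where `t` is a finite product of factors `T₀ l - c`.
-/
import Fermat.Agent.LR.AbstractGen

set_option autoImplicit false
set_option linter.style.haveILetI false

namespace Fermat.Agent.LR.AbstractPoly

open Fermat.Agent.LR.Abstract Fermat.Agent.LR.AbstractGen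

section Main

variable {ι : Type*} {L₀ L : Type*} [AddCommGroup L₀] [AddCommGroup L]

/-- **Abstract level-raising lemma, generator form with a polynomial Ihara element.** The Ihara
hypothesis is: some polynomial `t` in the Hecke generators with `p ∤ t(a)` maps every kernel pair
modulo `p` into `p • L₀`. -/
theorem exists_new_class_poly [Module.Free ℤ L₀] [Module.Finite ℤ L₀] (p : ℕ) [hp : Fact p.Prime]
    (T₀ : ι → Module.End ℤ L₀) (TL : ι → Module.End ℤ L)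
    (hc₀ : ∀ l l', Commute (T₀ l) (T₀ l')) (hcL : ∀ l l', Commute (TL l) (TL l'))
    (A₁ A₂ : L₀ →ₗ[ℤ] L) (B₁ B₂ : L →ₗ[ℤ] L₀)
    (hA₁ : ∀ l x, A₁ (T₀ l x) = TL l (A₁ x)) (hA₂ : ∀ l x, A₂ (T₀ l x) = TL l (A₂ x))
    (hB₁ : ∀ l y, B₁ (TL l y) = T₀ l (B₁ y)) (hB₂ : ∀ l y, B₂ (TL l y) = T₀ l (B₂ y))
    (q : ℤ)
    (B₀ : L₀ →ₗ[ℤ] L₀ →ₗ[ℤ] ℤ) (BL : L →ₗ[ℤ] L →ₗ[ℤ] ℤ)
    (hB₀ : Function.Surjective B₀) (hBL : Function.Bijective BL)
    (hadj₁ : ∀ a y, BL (A₁ a) y = B₀ a (B₁ y)) (hadj₂ : ∀ a y, BL (A₂ a) y = B₀ a (B₂ y))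
    (hself : ∀ l a b, B₀ (T₀ l a) b = B₀ a (T₀ l b))
    (h₁₁ : ∀ a, B₁ (A₁ a) = (q + 1) • a) (h₂₂ : ∀ a, B₂ (A₂ a) = (q + 1) • a)
    (a : ι → ℤ)
    (ihara : ∃ t : MvPolynomial ι ℤ, ¬ (p : ℤ) ∣ MvPolynomial.eval a t ∧ ∀ x y : L₀,
      (∃ w : L, A₁ x + A₂ y = (p : ℤ) • w) →
        (∃ z : L₀, polyEval T₀ hc₀ t x = (p : ℤ) • z) ∧
          ∃ z : L₀, polyEval T₀ hc₀ t y = (p : ℤ) • z)
    (ε : ℤ) (hε : ε = 1 ∨ ε = -1)
    (hy : ∃ y : L₀, (¬ ∃ z : L₀, y = (p : ℤ) • z) ∧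
      (∀ l, ∃ z : L₀, T₀ l y - a l • y = (p : ℤ) • z) ∧
      (∃ z : L₀, B₁ (A₂ y) - (ε * (q + 1)) • y = (p : ℤ) • z) ∧
      ∃ z : L₀, B₂ (A₁ y) - (ε * (q + 1)) • y = (p : ℤ) • z) :
    ∃ f : L, B₁ f = 0 ∧ B₂ f = 0 ∧ (¬ ∃ w : L, f = (p : ℤ) • w) ∧
      ∀ l, ∃ w : L, B₁ w = 0 ∧ B₂ w = 0 ∧ TL l f - a l • f = (p : ℤ) • w := by
  classical
  letI m₀ : Module (MvPolynomial ι ℤ) L₀ := polyModule T₀ hc₀
  letI mL : Module (MvPolynomial ι ℤ) L := polyModule TL hcL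
  -- the `R`-linear versions of the maps
  let A₁' : L₀ →ₗ[MvPolynomial ι ℤ] L :=
    { toFun := A₁, map_add' := A₁.map_add
      map_smul' := fun t x => map_polyEval hc₀ hcL A₁.toAddMonoidHom hA₁ t x }
  let A₂' : L₀ →ₗ[MvPolynomial ι ℤ] L :=
    { toFun := A₂, map_add' := A₂.map_add
      map_smul' := fun t x => map_polyEval hc₀ hcL A₂.toAddMonoidHom hA₂ t x }
  let B₁' : L →ₗ[MvPolynomial ι ℤ] L₀ :=
    { toFun := B₁, map_add' := B₁.map_add
      map_smul' := fun t x => map_polyEval hcL hc₀ B₁.toAddMonoidHom hB₁ t x }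
  let B₂' : L →ₗ[MvPolynomial ι ℤ] L₀ :=
    { toFun := B₂, map_add' := B₂.map_add
      map_smul' := fun t x => map_polyEval hcL hc₀ B₂.toAddMonoidHom hB₂ t x }
  let T' : L₀ →ₗ[MvPolynomial ι ℤ] L₀ := B₁'.comp A₂'
  let T'' : L₀ →ₗ[MvPolynomial ι ℤ] L₀ := B₂'.comp A₁'
  -- the maximal ideal
  let θ : MvPolynomial ι ℤ →+* ZMod p := (Int.castRingHom (ZMod p)).comp (MvPolynomial.eval a)
  have hθsurj : Function.Surjective θ := fun x =>
    ⟨MvPolynomial.C (ZMod.cast x : ℤ), by simp [θ]⟩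
  haveI : (RingHom.ker θ).IsMaximal := RingHom.ker_isMaximal_of_surjective θ hθsurj
  have hmem : ∀ t : MvPolynomial ι ℤ, t ∈ RingHom.ker θ ↔ (p : ℤ) ∣ MvPolynomial.eval a t := by
    intro t
    rw [RingHom.mem_ker]
    show ((MvPolynomial.eval a t : ℤ) : ZMod p) = 0 ↔ _
    exact ZMod.intCast_zmod_eq_zero_iff_dvd _ _
  -- self-adjointness for all polynomials
  have hself' : ∀ (t : MvPolynomial ι ℤ) (x y : L₀), B₀ (t • x) y = B₀ x (t • y) := by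
    intro t
    induction t using MvPolynomial.induction_on with
    | C c =>
      intro x y
      show B₀ (polyEval T₀ hc₀ (MvPolynomial.C c) x) y = B₀ x (polyEval T₀ hc₀ (MvPolynomial.C c) y)
      rw [polyEval_C, Module.End.intCast_apply, Module.End.intCast_apply, map_zsmul,
        LinearMap.smul_apply, map_zsmul]
    | add s t hs ht =>
      intro x y
      rw [add_smul, add_smul, map_add, LinearMap.add_apply, map_add, hs, ht]
    | mul_X t l ht =>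
      intro x y
      have e1 : (t * MvPolynomial.X l) • x = t • (T₀ l x) := by
        rw [mul_smul]
        show polyEval T₀ hc₀ t (polyEval T₀ hc₀ (MvPolynomial.X l) x) = _
        rw [polyEval_X]; rfl
      have e2 : (t * MvPolynomial.X l) • y = T₀ l (t • y) := by
        rw [mul_comm, mul_smul]
        show polyEval T₀ hc₀ (MvPolynomial.X l) (polyEval T₀ hc₀ t y) = _
        rw [polyEval_X]; rfl
      rw [e1, e2, ht, hself]
  have key := exists_new_class (RingHom.ker θ) p A₁' A₂' B₁' B₂' T' T'' q B₀ BL hB₀ hBL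
    hadj₁ hadj₂ hself' h₁₁ h₂₂ (fun _ => rfl) (fun _ => rfl)
    (by
      obtain ⟨t, ht, h⟩ := ihara
      refine ⟨t, ?_, fun x y hxy => ?_⟩
      · rw [hmem]
        exact ht
      · obtain ⟨⟨z₁, hz₁⟩, z₂, hz₂⟩ := h x y hxy
        exact ⟨⟨z₁, hz₁⟩, z₂, hz₂⟩)
    ε hε
    (by
      obtain ⟨y, hy0, hyl, hy1, hy2⟩ := hy
      refine ⟨y, hy0, ⟨1, fun r hr => ?_⟩, hy1, hy2⟩
      rw [pow_one, hmem] at hr
      obtain ⟨d, hd⟩ := hr
      obtain ⟨z, hz⟩ := polyEval_sub_eval_smul hc₀ (p : ℤ) a y hyl r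
      refine ⟨z + d • y, ?_⟩
      show polyEval T₀ hc₀ r y = _
      have : polyEval T₀ hc₀ r y = (MvPolynomial.eval a r) • y + (p : ℤ) • z := by
        rw [← hz]; abel
      rw [this, hd]
      module)
  obtain ⟨f, hf1, hf2, hfp, hfn⟩ := key
  refine ⟨f, hf1, hf2, hfp, fun l => ?_⟩
  have hl : (MvPolynomial.X l - MvPolynomial.C (a l) : MvPolynomial ι ℤ) ∈ RingHom.ker θ := by
    rw [hmem, map_sub, MvPolynomial.eval_X, MvPolynomial.eval_C, sub_self]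
    exact dvd_zero _
  obtain ⟨w, hw1, hw2, hw⟩ := hfn _ hl
  refine ⟨w, hw1, hw2, ?_⟩
  rw [← hw]
  show _ = polyEval TL hcL (MvPolynomial.X l - MvPolynomial.C (a l)) f
  rw [map_sub, polyEval_X, polyEval_C, LinearMap.sub_apply, Module.End.intCast_apply]

end Main

/-! ### The Ihara element as a finite product of factors `T₀ l - c` -/

section ListForm

variable {ι : Type*} {L₀ L : Type*} [AddCommGroup L₀] [AddCommGroup L]

/-- The polynomial `∏ (X l - c)` over a list of pairs `(l, c)`. -/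
noncomputable def listPoly (ls : List (ι × ℤ)) : MvPolynomial ι ℤ :=
  (ls.map fun lc => MvPolynomial.X lc.1 - MvPolynomial.C lc.2).prod

/-- The operator `∏ (T l - c)` (composition, in list order) over a list of pairs `(l, c)`. -/
def listOp (T : ι → Module.End ℤ L₀) (ls : List (ι × ℤ)) : Module.End ℤ L₀ :=
  (ls.map fun lc => T lc.1 - (lc.2 : Module.End ℤ L₀)).prod

@[simp] theorem listOp_nil (T : ι → Module.End ℤ L₀) : listOp T [] = 1 := rfl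

@[simp] theorem listOp_cons (T : ι → Module.End ℤ L₀) (lc : ι × ℤ) (ls : List (ι × ℤ)) :
    listOp T (lc :: ls) = (T lc.1 - (lc.2 : Module.End ℤ L₀)) * listOp T ls := by
  unfold listOp
  rw [List.map_cons, List.prod_cons]

theorem listOp_cons_apply (T : ι → Module.End ℤ L₀) (lc : ι × ℤ) (ls : List (ι × ℤ)) (x : L₀) :
    listOp T (lc :: ls) x = T lc.1 (listOp T ls x) - lc.2 • listOp T ls x := by
  rw [listOp_cons, Module.End.mul_apply, LinearMap.sub_apply, Module.End.intCast_apply]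

theorem polyEval_listPoly (T : ι → Module.End ℤ L₀) (hT : ∀ l l', Commute (T l) (T l'))
    (ls : List (ι × ℤ)) : polyEval T hT (listPoly ls) = listOp T ls := by
  unfold listPoly listOp
  rw [map_list_prod, List.map_map]
  congr 1
  refine List.map_congr_left fun lc _ => ?_
  rw [Function.comp_apply, map_sub, polyEval_X, polyEval_C]

theorem eval_listPoly (a : ι → ℤ) (ls : List (ι × ℤ)) :
    MvPolynomial.eval a (listPoly ls) = (ls.map fun lc => a lc.1 - lc.2).prod := by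
  unfold listPoly
  rw [map_list_prod, List.map_map]
  congr 1
  refine List.map_congr_left fun lc _ => ?_
  rw [Function.comp_apply, map_sub, MvPolynomial.eval_X, MvPolynomial.eval_C]

theorem not_dvd_eval_listPoly (p : ℕ) [hp : Fact p.Prime] (a : ι → ℤ) (ls : List (ι × ℤ))
    (h : ∀ lc ∈ ls, ¬ (p : ℤ) ∣ a lc.1 - lc.2) :
    ¬ (p : ℤ) ∣ MvPolynomial.eval a (listPoly ls) := by
  rw [eval_listPoly]
  have hpp : Prime (p : ℤ) := Nat.prime_iff_prime_int.mp hp.out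
  rw [hpp.dvd_prod_iff]
  rintro ⟨b, hb, hdvd⟩
  obtain ⟨lc, hlc, rfl⟩ := List.mem_map.1 hb
  exact h lc hlc hdvd

/-- **Abstract level-raising lemma, generator form, product Ihara element.** The Ihara hypothesis
is: for some finite list of pairs `(l, c)` with `p ∤ a l - c`, the operator `∏ (T₀ l - c)` maps every
kernel pair modulo `p` into `p • L₀`. -/
theorem exists_new_class_list [Module.Free ℤ L₀] [Module.Finite ℤ L₀] (p : ℕ) [hp : Fact p.Prime]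
    (T₀ : ι → Module.End ℤ L₀) (TL : ι → Module.End ℤ L)
    (hc₀ : ∀ l l', Commute (T₀ l) (T₀ l')) (hcL : ∀ l l', Commute (TL l) (TL l'))
    (A₁ A₂ : L₀ →ₗ[ℤ] L) (B₁ B₂ : L →ₗ[ℤ] L₀)
    (hA₁ : ∀ l x, A₁ (T₀ l x) = TL l (A₁ x)) (hA₂ : ∀ l x, A₂ (T₀ l x) = TL l (A₂ x))
    (hB₁ : ∀ l y, B₁ (TL l y) = T₀ l (B₁ y)) (hB₂ : ∀ l y, B₂ (TL l y) = T₀ l (B₂ y))
    (q : ℤ)
    (B₀ : L₀ →ₗ[ℤ] L₀ →ₗ[ℤ] ℤ) (BL : L →ₗ[ℤ] L →ₗ[ℤ] ℤ)
    (hB₀ : Function.Surjective B₀) (hBL : Function.Bijective BL)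
    (hadj₁ : ∀ a y, BL (A₁ a) y = B₀ a (B₁ y)) (hadj₂ : ∀ a y, BL (A₂ a) y = B₀ a (B₂ y))
    (hself : ∀ l a b, B₀ (T₀ l a) b = B₀ a (T₀ l b))
    (h₁₁ : ∀ a, B₁ (A₁ a) = (q + 1) • a) (h₂₂ : ∀ a, B₂ (A₂ a) = (q + 1) • a)
    (a : ι → ℤ)
    (ihara : ∃ ls : List (ι × ℤ), (∀ lc ∈ ls, ¬ (p : ℤ) ∣ a lc.1 - lc.2) ∧ ∀ x y : L₀,
      (∃ w : L, A₁ x + A₂ y = (p : ℤ) • w) →
        (∃ z : L₀, listOp T₀ ls x = (p : ℤ) • z) ∧ ∃ z : L₀, listOp T₀ ls y = (p : ℤ) • z)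
    (ε : ℤ) (hε : ε = 1 ∨ ε = -1)
    (hy : ∃ y : L₀, (¬ ∃ z : L₀, y = (p : ℤ) • z) ∧
      (∀ l, ∃ z : L₀, T₀ l y - a l • y = (p : ℤ) • z) ∧
      (∃ z : L₀, B₁ (A₂ y) - (ε * (q + 1)) • y = (p : ℤ) • z) ∧
      ∃ z : L₀, B₂ (A₁ y) - (ε * (q + 1)) • y = (p : ℤ) • z) :
    ∃ f : L, B₁ f = 0 ∧ B₂ f = 0 ∧ (¬ ∃ w : L, f = (p : ℤ) • w) ∧
      ∀ l, ∃ w : L, B₁ w = 0 ∧ B₂ w = 0 ∧ TL l f - a l • f = (p : ℤ) • w := by
  obtain ⟨ls, hls, h⟩ := ihara
  refine exists_new_class_poly p T₀ TL hc₀ hcL A₁ A₂ B₁ B₂ hA₁ hA₂ hB₁ hB₂ q B₀ BL hB₀ hBL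
    hadj₁ hadj₂ hself h₁₁ h₂₂ a ⟨listPoly ls, not_dvd_eval_listPoly p a ls hls, fun x y hxy => ?_⟩
    ε hε hy
  rw [polyEval_listPoly]
  exact h x y hxy

/-- The three-factor operator of route H: `(T l' - c') ∘ (T l - c) ∘ (T l + c)`. -/
theorem listOp_three_apply (T : ι → Module.End ℤ L₀) (l l' : ι) (c c' : ℤ) (x : L₀) :
    listOp T [(l', c'), (l, c), (l, -c)] x =
      (T l' - (c' : Module.End ℤ L₀)) ((T l - (c : Module.End ℤ L₀))
        ((T l + (c : Module.End ℤ L₀)) x)) := by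
  simp only [listOp_cons, listOp_nil, mul_one, Module.End.mul_apply, Int.cast_neg, sub_neg_eq_add]

end ListForm

end Fermat.Agent.LR.AbstractPoly
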