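/-
Program M (S41), node D1, piece (W), abstract part (helper19): extension of a compatible pair of
homomorphisms `x : A →* M`, `y : B →* M` (`M` commutative) to the subgroup `A ⊔ B` of `G`, under the
ping-pong hypothesis "every nonempty alternating word with letters outside `A ⊓ B` is `≠ 1`".
No normal forms: a word evaluating to `1` is shortened until it is alternating. Mathlib only.
-/
import Mathlib

set_option autoImplicit false

namespace Fermat.Agent.LR.AmalgamExt

variable {G : Type*} [Group G] (A B : Subgroup G) {M : Type*} [CommGroup M]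
  (x : A →* M) (y : B →* M)

/-- The value of a letter in `G`. -/
def val : A ⊕ B → G
  | Sum.inl a => a
  | Sum.inr b => b

/-- The weight of a letter in `M`. -/
def wt : A ⊕ B → M
  | Sum.inl a => x a
  | Sum.inr b => y b

/-- Evaluation of a word in `G`. -/
def ev (w : List (A ⊕ B)) : G := (w.map (val A B)).prod

/-- Total weight of a word. -/
def wtw (w : List (A ⊕ B)) : M := (w.map (wt A B x y)).prod

@[simp] theorem ev_nil : ev A B [] = 1 := rfl
@[simp] theorem ev_cons (l : A ⊕ B) (w : List (A ⊕ B)) : ev A B (l :: w) = val A B l * ev A B w := by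
  simp [ev]
@[simp] theorem ev_append (u v : List (A ⊕ B)) : ev A B (u ++ v) = ev A B u * ev A B v := by
  simp [ev]
@[simp] theorem wtw_nil : wtw A B x y [] = 1 := rfl
@[simp] theorem wtw_cons (l : A ⊕ B) (w : List (A ⊕ B)) :
    wtw A B x y (l :: w) = wt A B x y l * wtw A B x y w := by
  simp [wtw]
@[simp] theorem wtw_append (u v : List (A ⊕ B)) :
    wtw A B x y (u ++ v) = wtw A B x y u * wtw A B x y v := by
  simp [wtw]

/-- Alternating words all of whose letters lie outside `A ⊓ B`. -/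
def IsAlt : List (A ⊕ B) → Prop
  | [] => True
  | [l] => val A B l ∉ A ⊓ B
  | l₁ :: l₂ :: w => val A B l₁ ∉ A ⊓ B ∧ l₁.isLeft ≠ l₂.isLeft ∧ IsAlt (l₂ :: w)

/-- Two adjacent letters that can be merged into one. -/
def Mergeable (l₁ l₂ : A ⊕ B) : Prop :=
  l₁.isLeft = l₂.isLeft ∨ val A B l₁ ∈ A ⊓ B ∨ val A B l₂ ∈ A ⊓ B

theorem isAlt_or_mergeable :
    ∀ w : List (A ⊕ B), 2 ≤ w.length →
      IsAlt A B w ∨ ∃ u l₁ l₂ v, w = u ++ l₁ :: l₂ :: v ∧ Mergeable A B l₁ l₂
  | [], h => by simp at h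
  | [_], h => by simp at h
  | l₁ :: l₂ :: w, _ => by
    by_cases hm : Mergeable A B l₁ l₂
    · exact Or.inr ⟨[], l₁, l₂, w, rfl, hm⟩
    · have h1 : val A B l₁ ∉ A ⊓ B := fun h => hm (Or.inr (Or.inl h))
      have h2 : val A B l₂ ∉ A ⊓ B := fun h => hm (Or.inr (Or.inr h))
      have h3 : l₁.isLeft ≠ l₂.isLeft := fun h => hm (Or.inl h)
      cases w with
      | nil => exact Or.inl ⟨h1, h3, h2⟩
      | cons l₃ w =>
        rcases isAlt_or_mergeable (l₂ :: l₃ :: w) (by simp) with h | ⟨u, m₁, m₂, v, hw, hmm⟩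
        · exact Or.inl ⟨h1, h3, h⟩
        · exact Or.inr ⟨l₁ :: u, m₁, m₂, v, by rw [hw]; rfl, hmm⟩

variable {A B x y}

/-- Merging two adjacent letters. -/
theorem exists_merge (hxy : ∀ (a : A) (b : B), (a : G) = b → x a = y b) {l₁ l₂ : A ⊕ B}
    (h : Mergeable A B l₁ l₂) :
    ∃ l : A ⊕ B, val A B l = val A B l₁ * val A B l₂ ∧
      wt A B x y l = wt A B x y l₁ * wt A B x y l₂ := by
  rcases l₁ with a₁ | b₁ <;> rcases l₂ with a₂ | b₂
  · exact ⟨Sum.inl (a₁ * a₂), by simp [val], by simp [wt]⟩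
  · rcases h with h | h | h
    · simp at h
    · have ha : (a₁ : G) ∈ B := h.2
      refine ⟨Sum.inr (⟨a₁, ha⟩ * b₂), by simp [val], ?_⟩
      simp only [wt, map_mul]
      rw [hxy a₁ ⟨a₁, ha⟩ rfl]
    · have hb : (b₂ : G) ∈ A := h.1
      refine ⟨Sum.inl (a₁ * ⟨b₂, hb⟩), by simp [val], ?_⟩
      simp only [wt, map_mul]
      rw [hxy ⟨b₂, hb⟩ b₂ rfl]
  · rcases h with h | h | h
    · simp at h
    · have hb : (b₁ : G) ∈ A := h.1
      refine ⟨Sum.inl (⟨b₁, hb⟩ * a₂), by simp [val], ?_⟩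
      simp only [wt, map_mul]
      rw [hxy ⟨b₁, hb⟩ b₁ rfl]
    · have ha : (a₂ : G) ∈ B := h.2
      refine ⟨Sum.inr (b₁ * ⟨a₂, ha⟩), by simp [val], ?_⟩
      simp only [wt, map_mul]
      rw [hxy a₂ ⟨a₂, ha⟩ rfl]
  · exact ⟨Sum.inr (b₁ * b₂), by simp [val], by simp [wt]⟩

/-- **Key lemma**: a word evaluating to `1` has trivial weight. -/
theorem wtw_eq_one_of_ev_eq_one (hxy : ∀ (a : A) (b : B), (a : G) = b → x a = y b)
    (hPP : ∀ w : List (A ⊕ B), w ≠ [] → IsAlt A B w → ev A B w ≠ 1) :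
    ∀ (n : ℕ) (w : List (A ⊕ B)), w.length = n → ev A B w = 1 → wtw A B x y w = 1 := by
  intro n
  induction n using Nat.strong_induction_on with
  | _ n ih =>
    intro w hn hw
    rcases w with _ | ⟨l, _ | ⟨l', w⟩⟩
    · rfl
    · -- a single letter
      simp only [ev_cons, ev_nil, mul_one] at hw
      simp only [wtw_cons, wtw_nil, mul_one]
      rcases l with a | b
      · have : a = 1 := Subtype.ext (by simpa [val] using hw)
        simp [wt, this]
      · have : b = 1 := Subtype.ext (by simpa [val] using hw)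
        simp [wt, this]
    · rcases isAlt_or_mergeable A B (l :: l' :: w) (by simp) with h | ⟨u, m₁, m₂, v, hw', hm⟩
      · exact absurd hw (hPP _ (by simp) h)
      · obtain ⟨m, hm1, hm2⟩ := exists_merge hxy hm
        have hlen : (u ++ m :: v).length < n := by
          rw [← hn, hw']; simp
        have hev : ev A B (u ++ m :: v) = 1 := by
          rw [← hw, hw']; simp [hm1, mul_assoc]
        have := ih _ hlen (u ++ m :: v) rfl hev
        rw [hw']
        rw [← this]
        simp [hm2, mul_assoc]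


variable (A B)

/-- Inverse of a letter. -/
def invL : A ⊕ B → A ⊕ B
  | Sum.inl a => Sum.inl a⁻¹
  | Sum.inr b => Sum.inr b⁻¹

/-- Inverse of a word. -/
def invW (w : List (A ⊕ B)) : List (A ⊕ B) := (w.reverse).map (invL A B)

theorem val_invL (l : A ⊕ B) : val A B (invL A B l) = (val A B l)⁻¹ := by
  rcases l with a | b <;> simp [val, invL]

theorem wt_invL (l : A ⊕ B) : wt A B x y (invL A B l) = (wt A B x y l)⁻¹ := by
  rcases l with a | b <;> simp [wt, invL]

theorem ev_invW (w : List (A ⊕ B)) : ev A B (invW A B w) = (ev A B w)⁻¹ := by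
  induction w with
  | nil => simp [invW]
  | cons l w ih =>
    have : invW A B (l :: w) = invW A B w ++ [invL A B l] := by simp [invW]
    rw [this, ev_append, ih, ev_cons, ev_cons, ev_nil, mul_one, val_invL, mul_inv_rev]

theorem wtw_invW (w : List (A ⊕ B)) : wtw A B x y (invW A B w) = (wtw A B x y w)⁻¹ := by
  induction w with
  | nil => simp [invW]
  | cons l w ih =>
    have : invW A B (l :: w) = invW A B w ++ [invL A B l] := by simp [invW]
    rw [this, wtw_append, ih, wtw_cons, wtw_cons, wtw_nil, mul_one, wt_invL, mul_inv_rev]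

theorem exists_word {g : G} (hg : g ∈ A ⊔ B) : ∃ w : List (A ⊕ B), ev A B w = g := by
  rw [Subgroup.sup_eq_closure] at hg
  induction hg using Subgroup.closure_induction with
  | mem g hg =>
    rcases hg with hg | hg
    · exact ⟨[Sum.inl ⟨g, hg⟩], by simp [val]⟩
    · exact ⟨[Sum.inr ⟨g, hg⟩], by simp [val]⟩
  | one => exact ⟨[], rfl⟩
  | mul g h _ _ ihg ihh =>
    obtain ⟨w, rfl⟩ := ihg
    obtain ⟨w', rfl⟩ := ihh
    exact ⟨w ++ w', ev_append A B w w'⟩
  | inv g _ ih =>
    obtain ⟨w, rfl⟩ := ih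
    exact ⟨invW A B w, ev_invW A B w⟩

theorem ev_mem_sup (w : List (A ⊕ B)) : ev A B w ∈ A ⊔ B := by
  induction w with
  | nil => exact Subgroup.one_mem _
  | cons l w ih =>
    rw [ev_cons]
    refine Subgroup.mul_mem _ ?_ ih
    rcases l with a | b
    · exact Subgroup.mem_sup_left a.2
    · exact Subgroup.mem_sup_right b.2

variable {A B}

theorem wtw_eq_of_ev_eq (hxy : ∀ (a : A) (b : B), (a : G) = b → x a = y b)
    (hPP : ∀ w : List (A ⊕ B), w ≠ [] → IsAlt A B w → ev A B w ≠ 1)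
    {w w' : List (A ⊕ B)} (h : ev A B w = ev A B w') : wtw A B x y w = wtw A B x y w' := by
  have h1 : ev A B (w ++ invW A B w') = 1 := by
    rw [ev_append, ev_invW, h, mul_inv_cancel]
  have h2 := wtw_eq_one_of_ev_eq_one hxy hPP _ _ rfl h1
  rw [wtw_append, wtw_invW] at h2
  exact mul_inv_eq_one.1 h2

/-- **Extension of a compatible pair of homomorphisms** to the subgroup generated by `A` and `B`,
under the ping-pong hypothesis `hPP`. -/
theorem exists_extension (hxy : ∀ (a : A) (b : B), (a : G) = b → x a = y b)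
    (hPP : ∀ w : List (A ⊕ B), w ≠ [] → IsAlt A B w → ev A B w ≠ 1) :
    ∃ φ : ↥(A ⊔ B) →* M,
      (∀ a : A, φ ⟨a, Subgroup.mem_sup_left a.2⟩ = x a) ∧
      (∀ b : B, φ ⟨b, Subgroup.mem_sup_right b.2⟩ = y b) := by
  classical
  choose W hW using fun g : ↥(A ⊔ B) => exists_word A B g.2
  have key : ∀ (g : ↥(A ⊔ B)) (w : List (A ⊕ B)), ev A B w = g →
      wtw A B x y (W g) = wtw A B x y w := fun g w hw =>
    wtw_eq_of_ev_eq hxy hPP ((hW g).trans hw.symm)
  refine ⟨MonoidHom.mk' (fun g => wtw A B x y (W g)) ?_, ?_, ?_⟩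
  · intro g h
    rw [key (g * h) (W g ++ W h) (by rw [ev_append, hW, hW]; rfl), wtw_append]
  · intro a
    simp only [MonoidHom.mk'_apply]
    rw [key _ [Sum.inl a] (by simp [val])]
    simp [wt]
  · intro b
    simp only [MonoidHom.mk'_apply]
    rw [key _ [Sum.inr b] (by simp [val])]
    simp [wt]

/-- Uniqueness of the extension. -/
theorem extension_unique {φ ψ : ↥(A ⊔ B) →* M}
    (hA : ∀ a : A, φ ⟨a, Subgroup.mem_sup_left a.2⟩ = ψ ⟨a, Subgroup.mem_sup_left a.2⟩)
    (hB : ∀ b : B, φ ⟨b, Subgroup.mem_sup_right b.2⟩ = ψ ⟨b, Subgroup.mem_sup_right b.2⟩) :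
    φ = ψ := by
  have key : ∀ w : List (A ⊕ B), φ ⟨ev A B w, ev_mem_sup A B w⟩ = ψ ⟨ev A B w, ev_mem_sup A B w⟩ := by
    intro w
    induction w with
    | nil =>
      have : (⟨ev A B [], ev_mem_sup A B []⟩ : ↥(A ⊔ B)) = 1 := rfl
      rw [this, map_one, map_one]
    | cons l w ih =>
      have hl : val A B l ∈ A ⊔ B := by
        rcases l with a | b
        · exact Subgroup.mem_sup_left a.2
        · exact Subgroup.mem_sup_right b.2
      have : (⟨ev A B (l :: w), ev_mem_sup A B (l :: w)⟩ : ↥(A ⊔ B)) =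
          ⟨val A B l, hl⟩ * ⟨ev A B w, ev_mem_sup A B w⟩ := Subtype.ext (ev_cons A B l w)
      rw [this, map_mul, map_mul, ih]
      congr 1
      rcases l with a | b
      · exact hA a
      · exact hB b
  ext g
  obtain ⟨w, hw⟩ := exists_word A B g.2
  have : g = ⟨ev A B w, ev_mem_sup A B w⟩ := Subtype.ext hw.symm
  rw [this]
  exact key w

end Fermat.Agent.LR.AmalgamExt
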