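/-
Program M (S41), node D1, piece (G) (helper19): generation.
Inside `SL(2,ℚ)`: `Γ = Γ₀(N)`, `Γ' = δ⁻¹ Γ₀(N) δ` (`δ = diag(q,1)`), and
`G = Γ₀(N)[1/q] = {g ∈ SL(2, ℤ[1/q]) : c ∈ N ℤ[1/q]}`.
* `sup_eq`  : `Γ ⊔ Γ' = G` (`q` prime, `q ∤ N`), by descent on the `q`-height;
* `inf_eq`  : `Γ ⊓ Γ' = Γ₀(N q)`.
Mathlib only.
-/
import Mathlib

set_option autoImplicit false
set_option linter.unusedSimpArgs false

namespace Fermat.Agent.LR.Gen

open Matrix CongruenceSubgroup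
open scoped MatrixGroups

/-- `ℤ[1/q]` as a subring of `ℚ`. -/
def zInv (q : ℕ) : Subring ℚ where
  carrier := {x | ∃ k : ℕ, ∃ m : ℤ, x * (q : ℚ) ^ k = m}
  mul_mem' := by
    rintro x y ⟨k, m, hx⟩ ⟨l, n, hy⟩
    refine ⟨k + l, m * n, ?_⟩
    push_cast
    rw [← hx, ← hy, pow_add]; ring
  one_mem' := ⟨0, 1, by simp⟩
  add_mem' := by
    rintro x y ⟨k, m, hx⟩ ⟨l, n, hy⟩
    refine ⟨k + l, m * (q : ℤ) ^ l + n * (q : ℤ) ^ k, ?_⟩
    push_cast
    rw [← hx, ← hy, pow_add]; ring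
  zero_mem' := ⟨0, 0, by simp⟩
  neg_mem' := by
    rintro x ⟨k, m, hx⟩
    exact ⟨k, -m, by push_cast; rw [← hx]; ring⟩

theorem mem_zInv {q : ℕ} {x : ℚ} : x ∈ zInv q ↔ ∃ k : ℕ, ∃ m : ℤ, x * (q : ℚ) ^ k = m := Iff.rfl

theorem intCast_mem_zInv (q : ℕ) (m : ℤ) : (m : ℚ) ∈ zInv q := ⟨0, m, by simp⟩

theorem inv_mem_zInv (q : ℕ) : ((q : ℚ))⁻¹ ∈ zInv q := by
  rcases Nat.eq_zero_or_pos q with rfl | hq
  · simp
  · refine ⟨1, 1, ?_⟩
    have : (q : ℚ) ≠ 0 := by exact_mod_cast hq.ne'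
    rw [pow_one, inv_mul_cancel₀ this]; simp

/-- The embedding `SL(2,ℤ) → SL(2,ℚ)`. -/
def castSL : SL(2, ℤ) →* SL(2, ℚ) := Matrix.SpecialLinearGroup.map (Int.castRingHom ℚ)

@[simp] theorem castSL_apply (g : SL(2, ℤ)) (i j : Fin 2) : castSL g i j = ((g i j : ℤ) : ℚ) := rfl

/-- `Γ₀(N)` inside `SL(2,ℚ)`. -/
def gammaQ (N : ℕ) : Subgroup SL(2, ℚ) := (Gamma0 N).map castSL

/-- The matrix of `δ⁻¹ g δ`, `δ = diag(q,1)`. -/
def conjDFun (q : ℚ) (hq : q ≠ 0) (g : SL(2, ℚ)) : SL(2, ℚ) :=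
  ⟨!![g 0 0, g 0 1 / q; q * g 1 0, g 1 1], by
    have := g.det_coe
    rw [Matrix.det_fin_two] at this
    rw [Matrix.det_fin_two_of]
    field_simp
    linarith⟩

/-- The matrix of `δ g δ⁻¹`, `δ = diag(q,1)`. -/
def conjDInvFun (q : ℚ) (hq : q ≠ 0) (g : SL(2, ℚ)) : SL(2, ℚ) :=
  ⟨!![g 0 0, q * g 0 1; g 1 0 / q, g 1 1], by
    have := g.det_coe
    rw [Matrix.det_fin_two] at this
    rw [Matrix.det_fin_two_of]
    field_simp
    linarith⟩

theorem coe_conjDFun (q : ℚ) (hq : q ≠ 0) (g : SL(2, ℚ)) :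
    (conjDFun q hq g : Matrix (Fin 2) (Fin 2) ℚ) = !![g 0 0, g 0 1 / q; q * g 1 0, g 1 1] := rfl

theorem coe_conjDInvFun (q : ℚ) (hq : q ≠ 0) (g : SL(2, ℚ)) :
    (conjDInvFun q hq g : Matrix (Fin 2) (Fin 2) ℚ) = !![g 0 0, q * g 0 1; g 1 0 / q, g 1 1] := rfl

/-- Conjugation by `δ = diag(q,1)`: `g ↦ δ⁻¹ g δ`. -/
def conjD (q : ℚ) (hq : q ≠ 0) : SL(2, ℚ) ≃* SL(2, ℚ) where
  toFun := conjDFun q hq
  invFun := conjDInvFun q hq
  left_inv g := by
    ext i j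
    fin_cases i <;> fin_cases j <;> simp [coe_conjDFun, coe_conjDInvFun] <;> field_simp
  right_inv g := by
    ext i j
    fin_cases i <;> fin_cases j <;> simp [coe_conjDFun, coe_conjDInvFun] <;> field_simp
  map_mul' g h := by
    ext i j
    fin_cases i <;> fin_cases j <;>
      simp [coe_conjDFun, Matrix.SpecialLinearGroup.coe_mul, Matrix.mul_apply, Fin.sum_univ_two] <;>
      field_simp

theorem conjD_apply (q : ℚ) (hq : q ≠ 0) (g : SL(2, ℚ)) :
    (conjD q hq g : Matrix (Fin 2) (Fin 2) ℚ) = !![g 0 0, g 0 1 / q; q * g 1 0, g 1 1] := rfl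

/-- `Γ' = δ⁻¹ Γ₀(N) δ` inside `SL(2,ℚ)`. -/
def gammaQ' (N q : ℕ) (hq : q ≠ 0) : Subgroup SL(2, ℚ) :=
  (gammaQ N).map (conjD (q : ℚ) (by exact_mod_cast hq)).toMonoidHom

/-- `Γ₀(N)[1/q]`: matrices in `SL(2, ℤ[1/q])` whose lower left entry lies in `N ℤ[1/q]`. -/
def gamma0Loc (N q : ℕ) : Subgroup SL(2, ℚ) where
  carrier := {g | (∀ i j, g i j ∈ zInv q) ∧ ∃ x ∈ zInv q, g 1 0 = (N : ℚ) * x}
  mul_mem' := by
    rintro g h ⟨hg, x, hx, hgx⟩ ⟨hh, y, hy, hhy⟩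
    refine ⟨fun i j => ?_, g 1 1 * y + x * h 0 0, ?_, ?_⟩
    · rw [Matrix.SpecialLinearGroup.coe_mul, Matrix.mul_apply, Fin.sum_univ_two]
      exact (zInv q).add_mem ((zInv q).mul_mem (hg _ _) (hh _ _))
        ((zInv q).mul_mem (hg _ _) (hh _ _))
    · exact (zInv q).add_mem ((zInv q).mul_mem (hg _ _) hy) ((zInv q).mul_mem hx (hh _ _))
    · rw [Matrix.SpecialLinearGroup.coe_mul, Matrix.mul_apply, Fin.sum_univ_two, hgx, hhy]
      ring
  one_mem' := by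
    refine ⟨fun i j => ?_, 0, (zInv q).zero_mem, by simp⟩
    fin_cases i <;> fin_cases j <;> simp [(zInv q).zero_mem, (zInv q).one_mem]
  inv_mem' := by
    rintro g ⟨hg, x, hx, hgx⟩
    refine ⟨fun i j => ?_, -x, (zInv q).neg_mem hx, ?_⟩
    · rw [Matrix.SpecialLinearGroup.coe_inv, Matrix.adjugate_fin_two]
      fin_cases i <;> fin_cases j <;> simp [hg, (zInv q).neg_mem (hg _ _)]
    · rw [Matrix.SpecialLinearGroup.coe_inv, Matrix.adjugate_fin_two]
      simp [hgx]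

theorem mem_gamma0Loc {N q : ℕ} {g : SL(2, ℚ)} :
    g ∈ gamma0Loc N q ↔ (∀ i j, g i j ∈ zInv q) ∧ ∃ x ∈ zInv q, g 1 0 = (N : ℚ) * x := Iff.rfl

theorem gammaQ_le (N q : ℕ) : gammaQ N ≤ gamma0Loc N q := by
  rintro _ ⟨g, hg, rfl⟩
  rw [SetLike.mem_coe, Gamma0_mem] at hg
  refine ⟨fun i j => intCast_mem_zInv q _, ?_⟩
  obtain ⟨c, hc⟩ := (ZMod.intCast_zmod_eq_zero_iff_dvd _ _).1 hg
  exact ⟨c, intCast_mem_zInv q c, by rw [castSL_apply, hc]; push_cast; ring⟩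

theorem gammaQ'_le (N q : ℕ) (hq : q ≠ 0) : gammaQ' N q hq ≤ gamma0Loc N q := by
  rintro _ ⟨_, ⟨g, hg, rfl⟩, rfl⟩
  rw [SetLike.mem_coe, Gamma0_mem] at hg
  obtain ⟨c, hc⟩ := (ZMod.intCast_zmod_eq_zero_iff_dvd _ _).1 hg
  have hq' : (q : ℚ) ∈ zInv q := by exact_mod_cast intCast_mem_zInv q (q : ℤ)
  refine ⟨fun i j => ?_, (q : ℚ) * c, (zInv q).mul_mem hq' (intCast_mem_zInv q c), ?_⟩
  · rw [MulEquiv.coe_toMonoidHom, conjD_apply]
    fin_cases i <;> fin_cases j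
    · exact intCast_mem_zInv q _
    · simp only [castSL_apply, div_eq_mul_inv]
      exact (zInv q).mul_mem (intCast_mem_zInv q _) (inv_mem_zInv q)
    · exact (zInv q).mul_mem hq' (intCast_mem_zInv q _)
    · exact intCast_mem_zInv q _
  · rw [MulEquiv.coe_toMonoidHom, conjD_apply]
    simp only [castSL_apply, Matrix.of_apply, Matrix.cons_val', Matrix.cons_val_zero,
      Matrix.cons_val_one, hc]
    push_cast; ring

theorem exists_inv_mod {q : ℕ} (hq : q.Prime) {a : ℤ} (ha : ¬ (q : ℤ) ∣ a) :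
    ∃ a' : ℤ, (q : ℤ) ∣ a * a' - 1 := by
  have hp : Prime (q : ℤ) := Nat.prime_iff_prime_int.mp hq
  have hco : IsCoprime (q : ℤ) a := (Irreducible.coprime_iff_not_dvd hp.irreducible).2 ha
  obtain ⟨u, v, huv⟩ := hco
  exact ⟨v, ⟨-u, by linear_combination huv⟩⟩

/-- Two rows of an integer matrix whose determinant is divisible by the prime `q` are dependent
mod `q`. -/
theorem rows_dependent {q : ℕ} (hq : q.Prime) {a b c d : ℤ} (h : (q : ℤ) ∣ a * d - b * c) :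
    ((q : ℤ) ∣ a ∧ (q : ℤ) ∣ b) ∨ ∃ l : ℤ, (q : ℤ) ∣ c - l * a ∧ (q : ℤ) ∣ d - l * b := by
  have hp : Prime (q : ℤ) := Nat.prime_iff_prime_int.mp hq
  by_cases ha : (q : ℤ) ∣ a
  · by_cases hb : (q : ℤ) ∣ b
    · exact Or.inl ⟨ha, hb⟩
    · right
      obtain ⟨b', hb'⟩ := exists_inv_mod hq hb
      have hbc : (q : ℤ) ∣ b * c := by
        have : b * c = a * d - (a * d - b * c) := by ring
        rw [this]
        exact dvd_sub (dvd_mul_of_dvd_left ha d) h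
      have hc : (q : ℤ) ∣ c := (hp.dvd_or_dvd hbc).resolve_left hb
      refine ⟨d * b', ?_, ?_⟩
      · exact dvd_sub hc (dvd_mul_of_dvd_right ha _)
      · have : d - d * b' * b = -d * (b * b' - 1) := by ring
        rw [this]
        exact dvd_mul_of_dvd_right hb' _
  · right
    obtain ⟨a', ha'⟩ := exists_inv_mod hq ha
    refine ⟨c * a', ?_, ?_⟩
    · have : c - c * a' * a = -c * (a * a' - 1) := by ring
      rw [this]
      exact dvd_mul_of_dvd_right ha' _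
    · have h1 : (q : ℤ) ∣ a * (d - c * a' * b) := by
        have : a * (d - c * a' * b) = (a * d - b * c) - b * c * (a * a' - 1) := by ring
        rw [this]
        exact dvd_sub h (dvd_mul_of_dvd_right ha' _)
      exact (hp.dvd_or_dvd h1).resolve_left ha

theorem exists_bezout {q N : ℕ} (hq : q.Prime) (hqN : ¬ q ∣ N) :
    ∃ u v : ℤ, u * (q : ℤ) - v * (N : ℤ) = 1 := by
  have hco : Nat.Coprime q N := (Nat.Prime.coprime_iff_not_dvd hq).2 hqN
  have : IsCoprime (q : ℤ) (N : ℤ) := Nat.isCoprime_iff_coprime.2 hco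
  obtain ⟨u, v, huv⟩ := this
  exact ⟨u, -v, by linear_combination huv⟩

/-- An element of `SL(2,ℤ)` from its entries. -/
def mkSL (a b c d : ℤ) (h : a * d - b * c = 1) : SL(2, ℤ) :=
  ⟨!![a, b; c, d], by rw [Matrix.det_fin_two_of]; exact h⟩

@[simp] theorem mkSL_00 (a b c d : ℤ) (h : a * d - b * c = 1) : mkSL a b c d h 0 0 = a := rfl
@[simp] theorem mkSL_01 (a b c d : ℤ) (h : a * d - b * c = 1) : mkSL a b c d h 0 1 = b := rfl
@[simp] theorem mkSL_10 (a b c d : ℤ) (h : a * d - b * c = 1) : mkSL a b c d h 1 0 = c := rfl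
@[simp] theorem mkSL_11 (a b c d : ℤ) (h : a * d - b * c = 1) : mkSL a b c d h 1 1 = d := rfl

theorem mkSL_mem_Gamma0 {N : ℕ} (a b c d : ℤ) (h : a * d - b * c = 1) (hc : (N : ℤ) ∣ c) :
    mkSL a b c d h ∈ Gamma0 N := by
  rw [Gamma0_mem, mkSL_10]
  exact (ZMod.intCast_zmod_eq_zero_iff_dvd _ _).2 hc

/-- Step 1 of the descent: a matrix of `Γ₀(N)` killing the bottom row mod `q`. -/
theorem exists_gamma_bottom {q N : ℕ} (hq : q.Prime) (hqN : ¬ q ∣ N) {a b c d : ℤ}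
    (h : (q : ℤ) ∣ a * d - b * c) :
    ∃ γ : SL(2, ℤ), γ ∈ Gamma0 N ∧ (q : ℤ) ∣ γ 1 0 * a + γ 1 1 * c ∧
      (q : ℤ) ∣ γ 1 0 * b + γ 1 1 * d := by
  obtain ⟨u, v, huv⟩ := exists_bezout hq hqN
  rcases rows_dependent hq h with ⟨ha, hb⟩ | ⟨l, hc, hd⟩
  · refine ⟨mkSL u v (N : ℤ) (q : ℤ) (by linarith), mkSL_mem_Gamma0 _ _ _ _ _ dvd_rfl, ?_, ?_⟩
    · simp only [mkSL_00, mkSL_01, mkSL_10, mkSL_11]
      exact dvd_add (dvd_mul_of_dvd_right ha _) (dvd_mul_right _ _)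
    · simp only [mkSL_00, mkSL_01, mkSL_10, mkSL_11]
      exact dvd_add (dvd_mul_of_dvd_right hb _) (dvd_mul_right _ _)
  · -- `N * v ≡ -1 mod q`, take `s = l * v`
    refine ⟨mkSL 1 0 ((N : ℤ) * (l * v)) 1 (by ring), mkSL_mem_Gamma0 _ _ _ _ _ (dvd_mul_right _ _), ?_, ?_⟩
    · simp only [mkSL_00, mkSL_01, mkSL_10, mkSL_11]
      have : (N : ℤ) * (l * v) * a + 1 * c = (c - l * a) + (q : ℤ) * (u * l * a) := by
        linear_combination (-(l * a)) * huv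
      rw [this]
      exact dvd_add hc (dvd_mul_right _ _)
    · simp only [mkSL_00, mkSL_01, mkSL_10, mkSL_11]
      have : (N : ℤ) * (l * v) * b + 1 * d = (d - l * b) + (q : ℤ) * (u * l * b) := by
        linear_combination (-(l * b)) * huv
      rw [this]
      exact dvd_add hd (dvd_mul_right _ _)

/-- Step 2 of the descent: a matrix of `Γ₀(N)` whose top row kills `(R₁, R₂')` mod `q`. -/
theorem exists_gamma_top {q N : ℕ} (hq : q.Prime) (hqN : ¬ q ∣ N) {a b c d : ℤ}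
    (h : (q : ℤ) ∣ a * d - b * c) :
    ∃ η : SL(2, ℤ), η ∈ Gamma0 N ∧ (q : ℤ) ∣ η 0 0 * a + η 0 1 * c ∧
      (q : ℤ) ∣ η 0 0 * b + η 0 1 * d := by
  obtain ⟨u, v, huv⟩ := exists_bezout hq hqN
  have h' : (q : ℤ) ∣ c * b - d * a := by
    have : c * b - d * a = -(a * d - b * c) := by ring
    rw [this]; exact (dvd_neg).2 h
  rcases rows_dependent hq h' with ⟨hc, hd⟩ | ⟨l, ha, hb⟩
  · refine ⟨mkSL (q : ℤ) 1 ((N : ℤ) * v) u (by linarith), mkSL_mem_Gamma0 _ _ _ _ _ (dvd_mul_right _ _), ?_, ?_⟩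
    · simp only [mkSL_00, mkSL_01, mkSL_10, mkSL_11]
      exact dvd_add (dvd_mul_right _ _) (dvd_mul_of_dvd_right hc _)
    · simp only [mkSL_00, mkSL_01, mkSL_10, mkSL_11]
      exact dvd_add (dvd_mul_right _ _) (dvd_mul_of_dvd_right hd _)
  · refine ⟨mkSL 1 (-l) 0 1 (by ring), mkSL_mem_Gamma0 _ _ _ _ _ (dvd_zero _), ?_, ?_⟩
    · simp only [mkSL_00, mkSL_01, mkSL_10, mkSL_11]
      have : 1 * a + -l * c = a - l * c := by ring
      rw [this]; exact ha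
    · simp only [mkSL_00, mkSL_01, mkSL_10, mkSL_11]
      have : 1 * b + -l * d = b - l * d := by ring
      rw [this]; exact hb


/-- `q ^ k • g` is an integer matrix whose lower left entry is divisible by `N`. -/
def HeightLE (N q k : ℕ) (g : SL(2, ℚ)) : Prop :=
  ∃ M : Matrix (Fin 2) (Fin 2) ℤ, (∀ i j, g i j * (q : ℚ) ^ k = M i j) ∧ (N : ℤ) ∣ M 1 0

theorem zInv_pow_mul {q : ℕ} {x : ℚ} {k : ℕ} {m : ℤ} (h : x * (q : ℚ) ^ k = m) (l : ℕ) :
    x * (q : ℚ) ^ (k + l) = ((m * (q : ℤ) ^ l : ℤ) : ℚ) := by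
  push_cast
  rw [pow_add, ← mul_assoc, h]

theorem exists_heightLE {N q : ℕ} {g : SL(2, ℚ)} (hg : g ∈ gamma0Loc N q) :
    ∃ k, HeightLE N q k g := by
  obtain ⟨hent, x, ⟨l, n, hx⟩, hgx⟩ := hg
  obtain ⟨k00, m00, h00⟩ := hent 0 0
  obtain ⟨k01, m01, h01⟩ := hent 0 1
  obtain ⟨k11, m11, h11⟩ := hent 1 1
  have h10 : g 1 0 * (q : ℚ) ^ l = (((N : ℤ) * n : ℤ) : ℚ) := by
    rw [hgx, mul_assoc, hx]; push_cast; ring
  refine ⟨k00 + k01 + l + k11,
    !![m00 * (q : ℤ) ^ (k01 + l + k11), m01 * (q : ℤ) ^ (k00 + l + k11);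
       (N : ℤ) * n * (q : ℤ) ^ (k00 + k01 + k11), m11 * (q : ℤ) ^ (k00 + k01 + l)], ?_, ?_⟩
  · intro i j
    fin_cases i <;> fin_cases j
    · have := zInv_pow_mul h00 (k01 + l + k11)
      rw [show k00 + k01 + l + k11 = k00 + (k01 + l + k11) by ring]
      simpa using this
    · have := zInv_pow_mul h01 (k00 + l + k11)
      rw [show k00 + k01 + l + k11 = k01 + (k00 + l + k11) by ring]
      simpa using this
    · have := zInv_pow_mul h10 (k00 + k01 + k11)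
      rw [show k00 + k01 + l + k11 = l + (k00 + k01 + k11) by ring]
      simpa using this
    · have := zInv_pow_mul h11 (k00 + k01 + l)
      rw [show k00 + k01 + l + k11 = k11 + (k00 + k01 + l) by ring]
      simpa using this
  · simp only [Matrix.of_apply, Matrix.cons_val', Matrix.cons_val_zero, Matrix.cons_val_one]
    exact dvd_mul_of_dvd_left (dvd_mul_right _ _) _


theorem mem_sup_of_heightLE {N q : ℕ} (hq : q.Prime) (hqN : ¬ q ∣ N) :
    ∀ (k : ℕ) (g : SL(2, ℚ)), HeightLE N q k g → g ∈ gammaQ N ⊔ gammaQ' N q hq.ne_zero := by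
  have hq0 : (q : ℚ) ≠ 0 := by exact_mod_cast hq.ne_zero
  have hp : Prime (q : ℤ) := Nat.prime_iff_prime_int.mp hq
  intro k
  induction k with
  | zero =>
    rintro g ⟨M, hM, hN⟩
    simp only [pow_zero, mul_one] at hM
    have hdet : M 0 0 * M 1 1 - M 0 1 * M 1 0 = 1 := by
      have h := g.det_coe
      rw [Matrix.det_fin_two, hM, hM, hM, hM] at h
      exact_mod_cast h
    have hg : g = castSL (mkSL (M 0 0) (M 0 1) (M 1 0) (M 1 1) hdet) := by
      ext i j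
      fin_cases i <;> fin_cases j <;> simp [hM]
    rw [hg]
    exact Subgroup.mem_sup_left (Subgroup.mem_map_of_mem _ (mkSL_mem_Gamma0 _ _ _ _ _ hN))
  | succ k ih =>
    rintro g ⟨M, hM, hN⟩
    set a := M 0 0 with ha
    set b := M 0 1 with hb
    set c := M 1 0 with hc
    set d := M 1 1 with hd
    have h00 : g 0 0 * (q : ℚ) ^ (k + 1) = a := hM 0 0
    have h01 : g 0 1 * (q : ℚ) ^ (k + 1) = b := hM 0 1
    have h10 : g 1 0 * (q : ℚ) ^ (k + 1) = c := hM 1 0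
    have h11 : g 1 1 * (q : ℚ) ^ (k + 1) = d := hM 1 1
    -- the determinant of `M`
    have hdetM : a * d - b * c = (q : ℤ) ^ (2 * k + 1) * q := by
      have h := g.det_coe
      rw [Matrix.det_fin_two] at h
      have : ((a * d - b * c : ℤ) : ℚ) = (((q : ℤ) ^ (2 * k + 1) * q : ℤ) : ℚ) := by
        push_cast
        rw [← h00, ← h01, ← h10, ← h11]
        have : (q : ℚ) ^ (2 * k + 1) * q = (q : ℚ) ^ (k + 1) * (q : ℚ) ^ (k + 1) := by ring
        rw [this]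
        linear_combination ((q : ℚ) ^ (k + 1) * (q : ℚ) ^ (k + 1)) * h
      exact_mod_cast this
    have hqdet : (q : ℤ) ∣ a * d - b * c := hdetM ▸ dvd_mul_left _ _
    -- step 1
    obtain ⟨γ, hγ, ⟨c1, hc1⟩, ⟨d1, hd1⟩⟩ := exists_gamma_bottom hq hqN hqdet
    set a1 := γ 0 0 * a + γ 0 1 * c with ha1
    set b1 := γ 0 0 * b + γ 0 1 * d with hb1
    have hγdet : γ 0 0 * γ 1 1 - γ 0 1 * γ 1 0 = 1 := by
      have := γ.det_coe
      rwa [Matrix.det_fin_two] at this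
    have hdet1 : a1 * d1 - b1 * c1 = (q : ℤ) ^ (2 * k + 1) := by
      have : (q : ℤ) * (a1 * d1 - b1 * c1) = (q : ℤ) * (q : ℤ) ^ (2 * k + 1) := by
        have e : (q : ℤ) * (a1 * d1 - b1 * c1) = a1 * ((q : ℤ) * d1) - b1 * ((q : ℤ) * c1) := by ring
        rw [e, ← hc1, ← hd1, ha1, hb1]
        linear_combination (a * d - b * c) * hγdet + hdetM
      exact mul_left_cancel₀ (by exact_mod_cast hq.ne_zero) this
    have hqdet1 : (q : ℤ) ∣ a1 * d1 - b1 * c1 := by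
      rw [hdet1, pow_succ]; exact dvd_mul_left _ _
    -- step 2
    obtain ⟨η, hη, ⟨a2, ha2⟩, ⟨b2, hb2⟩⟩ := exists_gamma_top hq hqN hqdet1
    set c2 := η 1 0 * a1 + η 1 1 * c1 with hc2
    set d2 := η 1 0 * b1 + η 1 1 * d1 with hd2
    -- `N ∣ c1`
    have hNγ : (N : ℤ) ∣ γ 1 0 := by
      rw [Gamma0_mem] at hγ
      exact (ZMod.intCast_zmod_eq_zero_iff_dvd _ _).1 hγ
    have hNη : (N : ℤ) ∣ η 1 0 := by
      rw [Gamma0_mem] at hη
      exact (ZMod.intCast_zmod_eq_zero_iff_dvd _ _).1 hη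
    have hNc1 : (N : ℤ) ∣ c1 := by
      have h1 : (N : ℤ) ∣ (q : ℤ) * c1 := by
        rw [← hc1]
        exact dvd_add (dvd_mul_of_dvd_left hNγ _) (dvd_mul_of_dvd_right hN _)
      have hco : IsCoprime (N : ℤ) (q : ℤ) := by
        have : Nat.Coprime q N := (Nat.Prime.coprime_iff_not_dvd hq).2 hqN
        exact (Nat.isCoprime_iff_coprime.2 this).symm
      exact hco.dvd_of_dvd_mul_left h1
    -- the new element
    set h : SL(2, ℚ) := conjD (q : ℚ) hq0 (castSL η) * castSL γ with hh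
    have hmem : h ∈ gammaQ N ⊔ gammaQ' N q hq.ne_zero := by
      refine Subgroup.mul_mem _ (Subgroup.mem_sup_right ?_) (Subgroup.mem_sup_left ?_)
      · exact Subgroup.mem_map_of_mem _ (Subgroup.mem_map_of_mem _ hη)
      · exact Subgroup.mem_map_of_mem _ hγ
    have hheight : HeightLE N q k (h * g) := by
      refine ⟨!![a2, b2; c2, d2], ?_, ?_⟩
      · -- rational versions of the integer identities
        have e00 : (γ 0 0 * g 0 0 + γ 0 1 * g 1 0 : ℚ) * (q : ℚ) ^ (k + 1) = a1 := by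
          rw [ha1]; push_cast; linear_combination (γ 0 0 : ℚ) * h00 + (γ 0 1 : ℚ) * h10
        have e01 : (γ 0 0 * g 0 1 + γ 0 1 * g 1 1 : ℚ) * (q : ℚ) ^ (k + 1) = b1 := by
          rw [hb1]; push_cast; linear_combination (γ 0 0 : ℚ) * h01 + (γ 0 1 : ℚ) * h11
        have e10 : (γ 1 0 * g 0 0 + γ 1 1 * g 1 0 : ℚ) * (q : ℚ) ^ k = c1 := by
          have : ((γ 1 0 * a + γ 1 1 * c : ℤ) : ℚ) = (((q : ℤ) * c1 : ℤ) : ℚ) := by rw [hc1]
          push_cast at this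
          apply mul_right_cancel₀ hq0
          rw [mul_assoc, ← pow_succ]
          linear_combination (γ 1 0 : ℚ) * h00 + (γ 1 1 : ℚ) * h10 + this
        have e11 : (γ 1 0 * g 0 1 + γ 1 1 * g 1 1 : ℚ) * (q : ℚ) ^ k = d1 := by
          have : ((γ 1 0 * b + γ 1 1 * d : ℤ) : ℚ) = (((q : ℤ) * d1 : ℤ) : ℚ) := by rw [hd1]
          push_cast at this
          apply mul_right_cancel₀ hq0
          rw [mul_assoc, ← pow_succ]
          linear_combination (γ 1 0 : ℚ) * h01 + (γ 1 1 : ℚ) * h11 + this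
        have f2a : ((η 0 0 * a1 + η 0 1 * c1 : ℤ) : ℚ) = (((q : ℤ) * a2 : ℤ) : ℚ) := by rw [ha2]
        have f2b : ((η 0 0 * b1 + η 0 1 * d1 : ℤ) : ℚ) = (((q : ℤ) * b2 : ℤ) : ℚ) := by rw [hb2]
        push_cast at f2a f2b
        rw [pow_succ] at e00 e01
        intro i j
        rw [hh, Matrix.SpecialLinearGroup.coe_mul, Matrix.SpecialLinearGroup.coe_mul, conjD_apply]
        fin_cases i <;> fin_cases j
        · simp only [Matrix.mul_apply, Fin.sum_univ_two, castSL_apply, Matrix.of_apply,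
            Matrix.cons_val', Matrix.cons_val_zero, Matrix.cons_val_one, Fin.zero_eta, Fin.mk_one]
          apply mul_right_cancel₀ hq0
          field_simp
          linear_combination (η 0 0 : ℚ) * e00 + (η 0 1 : ℚ) * e10 + f2a
        · simp only [Matrix.mul_apply, Fin.sum_univ_two, castSL_apply, Matrix.of_apply,
            Matrix.cons_val', Matrix.cons_val_zero, Matrix.cons_val_one, Fin.zero_eta, Fin.mk_one]
          apply mul_right_cancel₀ hq0
          field_simp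
          linear_combination (η 0 0 : ℚ) * e01 + (η 0 1 : ℚ) * e11 + f2b
        · simp only [Matrix.mul_apply, Fin.sum_univ_two, castSL_apply, Matrix.of_apply,
            Matrix.cons_val', Matrix.cons_val_zero, Matrix.cons_val_one, Fin.zero_eta, Fin.mk_one]
          rw [hc2]; push_cast
          linear_combination (η 1 0 : ℚ) * e00 + (η 1 1 : ℚ) * e10
        · simp only [Matrix.mul_apply, Fin.sum_univ_two, castSL_apply, Matrix.of_apply,
            Matrix.cons_val', Matrix.cons_val_zero, Matrix.cons_val_one, Fin.zero_eta, Fin.mk_one]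
          rw [hd2]; push_cast
          linear_combination (η 1 0 : ℚ) * e01 + (η 1 1 : ℚ) * e11
      · simp only [Matrix.of_apply, Matrix.cons_val', Matrix.cons_val_zero, Matrix.cons_val_one]
        rw [hc2]
        exact dvd_add (dvd_mul_of_dvd_left hNη _) (dvd_mul_of_dvd_right hNc1 _)
    have := ih (h * g) hheight
    have e : g = h⁻¹ * (h * g) := by group
    rw [e]
    exact Subgroup.mul_mem _ (Subgroup.inv_mem _ hmem) this


/-- **Generation.** `Γ₀(N)[1/q]` is generated by `Γ₀(N)` and `δ⁻¹ Γ₀(N) δ`, `δ = diag(q,1)`. -/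
theorem sup_eq {N q : ℕ} (hq : q.Prime) (hqN : ¬ q ∣ N) :
    gammaQ N ⊔ gammaQ' N q hq.ne_zero = gamma0Loc N q := by
  apply le_antisymm
  · exact sup_le (gammaQ_le N q) (gammaQ'_le N q _)
  · intro g hg
    obtain ⟨k, hk⟩ := exists_heightLE hg
    exact mem_sup_of_heightLE hq hqN k g hk

theorem castSL_injective : Function.Injective castSL := by
  intro g h hgh
  ext i j
  have := congrArg (fun x : SL(2, ℚ) => x i j) hgh
  simpa using this

/-- **Intersection.** `Γ₀(N) ∩ δ⁻¹ Γ₀(N) δ = Γ₀(N q)`. -/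
theorem inf_eq {N q : ℕ} (hq : q.Prime) :
    gammaQ N ⊓ gammaQ' N q hq.ne_zero = (Gamma0 (N * q)).map castSL := by
  have hq0 : (q : ℚ) ≠ 0 := by exact_mod_cast hq.ne_zero
  ext g
  constructor
  · rintro ⟨⟨γ, hγ, rfl⟩, ⟨_, ⟨η, hη, rfl⟩, hηγ⟩⟩
    refine ⟨γ, ?_, rfl⟩
    rw [SetLike.mem_coe, Gamma0_mem] at hγ hη ⊢
    obtain ⟨t, ht⟩ := (ZMod.intCast_zmod_eq_zero_iff_dvd _ _).1 hη
    have h10 := congrArg (fun x : SL(2, ℚ) => x 1 0) hηγ
    simp only [MulEquiv.coe_toMonoidHom, conjD_apply, castSL_apply, Matrix.of_apply,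
      Matrix.cons_val', Matrix.cons_val_zero, Matrix.cons_val_one] at h10
    have h10' : (q : ℤ) * η 1 0 = γ 1 0 := by exact_mod_cast h10
    refine (ZMod.intCast_zmod_eq_zero_iff_dvd _ _).2 ⟨t, ?_⟩
    rw [← h10', ht]; push_cast; ring
  · rintro ⟨γ, hγ, rfl⟩
    rw [SetLike.mem_coe, Gamma0_mem] at hγ
    obtain ⟨t, ht⟩ := (ZMod.intCast_zmod_eq_zero_iff_dvd _ _).1 hγ
    have ht' : γ 1 0 = (N : ℤ) * ((q : ℤ) * t) := by rw [ht]; push_cast; ring
    refine ⟨⟨γ, ?_, rfl⟩, ?_⟩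
    · rw [SetLike.mem_coe, Gamma0_mem]
      exact (ZMod.intCast_zmod_eq_zero_iff_dvd _ _).2 ⟨(q : ℤ) * t, ht'⟩
    · have hdet : γ 0 0 * γ 1 1 - (q : ℤ) * γ 0 1 * ((N : ℤ) * t) = 1 := by
        have := γ.det_coe
        rw [Matrix.det_fin_two, ht'] at this
        linear_combination this
      refine ⟨castSL (mkSL (γ 0 0) ((q : ℤ) * γ 0 1) ((N : ℤ) * t) (γ 1 1) hdet),
        Subgroup.mem_map_of_mem _ (mkSL_mem_Gamma0 _ _ _ _ _ (dvd_mul_right _ _)), ?_⟩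
      ext i j
      rw [MulEquiv.coe_toMonoidHom, conjD_apply]
      fin_cases i <;> fin_cases j
      · simp
      · simp only [castSL_apply, Matrix.of_apply, Matrix.cons_val', Matrix.cons_val_zero,
          Matrix.cons_val_one, Fin.zero_eta, Fin.mk_one, mkSL_01]
        push_cast
        field_simp
      · simp only [castSL_apply, Matrix.of_apply, Matrix.cons_val', Matrix.cons_val_zero,
          Matrix.cons_val_one, Fin.zero_eta, Fin.mk_one, mkSL_10, ht']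
        push_cast
        ring
      · simp

end Fermat.Agent.LR.Gen
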