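import Mathlib

/-!
# Ping-pong for `Γ₀(N)` and `δ⁻¹ Γ₀(N) δ` on rational `2 × 2` matrices (Program M, node D1-K)

`δ = diag(q, 1)`.  Letters of type `0` are integer matrices `(a b; c d)` of determinant one with
`q ∤ c` (elements of `Γ \ H`), letters of type `1` are the matrices `(a, b/q; q c, d)` with
`a d - b c = 1`, `q ∤ b` (elements of `Γ' \ H`, `Γ' = δ⁻¹ Γ δ`).  An alternating word in such
letters is never the identity.  The proof is a ping-pong on `M₂(ℚ)` with left multiplication,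
measured by the `q`-adic sup norms of the two rows: no Bruhat–Tits tree, no normal forms.
-/

set_option autoImplicit false
set_option linter.unusedSectionVars false

namespace Fermat.Agent.LR.PingPong

open Matrix

variable (q : ℕ) [hq : Fact q.Prime]

/-- `q`-adic sup norm of a vector in `ℚ²`. -/
def vnorm (u : Fin 2 → ℚ) : ℚ := max (padicNorm q (u 0)) (padicNorm q (u 1))

theorem vnorm_nonneg (u : Fin 2 → ℚ) : 0 ≤ vnorm q u :=
  le_max_of_le_left (padicNorm.nonneg _)

theorem le_vnorm (u : Fin 2 → ℚ) (j : Fin 2) : padicNorm q (u j) ≤ vnorm q u := by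
  fin_cases j
  · exact le_max_left _ _
  · exact le_max_right _ _

theorem exists_eq_vnorm (u : Fin 2 → ℚ) : ∃ j : Fin 2, padicNorm q (u j) = vnorm q u := by
  rcases le_total (padicNorm q (u 0)) (padicNorm q (u 1)) with h | h
  · exact ⟨1, (max_eq_right h).symm⟩
  · exact ⟨0, (max_eq_left h).symm⟩

theorem vnorm_le_of_forall {u : Fin 2 → ℚ} {B : ℚ} (h : ∀ j, padicNorm q (u j) ≤ B) :
    vnorm q u ≤ B := max_le (h 0) (h 1)

theorem vnorm_comb_le (c d : ℚ) (u v : Fin 2 → ℚ) :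
    vnorm q (c • u + d • v) ≤ max (padicNorm q c * vnorm q u) (padicNorm q d * vnorm q v) := by
  refine vnorm_le_of_forall q fun j => ?_
  have h1 : padicNorm q ((c • u + d • v) j) ≤
      max (padicNorm q (c * u j)) (padicNorm q (d * v j)) := by
    simpa using padicNorm.nonarchimedean (p := q) (q := c * u j) (r := d * v j)
  refine h1.trans (max_le_max ?_ ?_)
  · rw [padicNorm.mul]
    exact mul_le_mul_of_nonneg_left (le_vnorm q u j) (padicNorm.nonneg _)
  · rw [padicNorm.mul]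
    exact mul_le_mul_of_nonneg_left (le_vnorm q v j) (padicNorm.nonneg _)

theorem vnorm_comb_eq (c d : ℚ) (u v : Fin 2 → ℚ)
    (h : padicNorm q d * vnorm q v < padicNorm q c * vnorm q u) :
    vnorm q (c • u + d • v) = padicNorm q c * vnorm q u := by
  apply le_antisymm
  · exact (vnorm_comb_le q c d u v).trans (max_le le_rfl h.le)
  · obtain ⟨j, hj⟩ := exists_eq_vnorm q u
    have h2 : padicNorm q (d * v j) < padicNorm q (c * u j) := by
      rw [padicNorm.mul, padicNorm.mul, hj]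
      exact lt_of_le_of_lt
        (mul_le_mul_of_nonneg_left (le_vnorm q v j) (padicNorm.nonneg _)) h
    have h3 : padicNorm q (c * u j + d * v j) = padicNorm q (c * u j) := by
      rw [padicNorm.add_eq_max_of_ne (ne_of_gt h2)]
      exact max_eq_left h2.le
    calc padicNorm q c * vnorm q u = padicNorm q (c * u j) := by rw [padicNorm.mul, hj]
      _ = padicNorm q ((c • u + d • v) j) := by rw [← h3]; simp
      _ ≤ vnorm q (c • u + d • v) := le_vnorm q _ j

theorem norm_det_le (u v : Fin 2 → ℚ) :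
    padicNorm q (u 0 * v 1 - u 1 * v 0) ≤ vnorm q u * vnorm q v := by
  refine (padicNorm.sub (p := q)).trans (max_le ?_ ?_)
  · rw [padicNorm.mul]
    exact mul_le_mul (le_vnorm q u 0) (le_vnorm q v 1) (padicNorm.nonneg _) (vnorm_nonneg q u)
  · rw [padicNorm.mul]
    exact mul_le_mul (le_vnorm q u 1) (le_vnorm q v 0) (padicNorm.nonneg _) (vnorm_nonneg q u)

theorem mul_row (g M : Matrix (Fin 2) (Fin 2) ℚ) (i : Fin 2) :
    (g * M) i = g i 0 • M 0 + g i 1 • M 1 := by
  ext j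
  simp [Matrix.mul_apply, Fin.sum_univ_two]

theorem norm_det_le_rows (M : Matrix (Fin 2) (Fin 2) ℚ) :
    padicNorm q M.det ≤ vnorm q (M 0) * vnorm q (M 1) := by
  rw [Matrix.det_fin_two]
  have := norm_det_le q (M 0) (M 1)
  convert this using 2

/-! ### The ping-pong sets -/

/-- the `v₀`-side: first row not bigger than the second (and the matrix nonzero). -/
def Y0 (M : Matrix (Fin 2) (Fin 2) ℚ) : Prop :=
  vnorm q (M 0) ≤ vnorm q (M 1) ∧ 0 < vnorm q (M 1)

/-- the `v₁`-side: second row strictly smaller than the first. -/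
def Y1 (M : Matrix (Fin 2) (Fin 2) ℚ) : Prop := vnorm q (M 1) < vnorm q (M 0)

/-- the `v₀`-side with the vertex `v₀` itself removed. -/
def SA (M : Matrix (Fin 2) (Fin 2) ℚ) : Prop :=
  vnorm q (M 0) ≤ vnorm q (M 1) ∧ padicNorm q M.det < vnorm q (M 1) ^ 2

/-- the `v₁`-side with the vertex `v₁` itself removed. -/
def SB (M : Matrix (Fin 2) (Fin 2) ℚ) : Prop :=
  vnorm q (M 1) < vnorm q (M 0) ∧ (q : ℚ) * padicNorm q M.det < vnorm q (M 0) ^ 2

theorem Y0_of_SA {M : Matrix (Fin 2) (Fin 2) ℚ} (h : SA q M) : Y0 q M := by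
  refine ⟨h.1, ?_⟩
  have h2 : 0 < vnorm q (M 1) ^ 2 := lt_of_le_of_lt (padicNorm.nonneg _) h.2
  rcases (vnorm_nonneg q (M 1)).lt_or_eq with h3 | h3
  · exact h3
  · rw [← h3] at h2; simp at h2

theorem Y1_of_SB {M : Matrix (Fin 2) (Fin 2) ℚ} (h : SB q M) : Y1 q M := h.1

/-- letters of type `0`: elements of `Γ \ H`. -/
def IsT0 (g : Matrix (Fin 2) (Fin 2) ℚ) : Prop :=
  ∃ a b c d : ℤ, g = !![(a : ℚ), (b : ℚ); (c : ℚ), (d : ℚ)] ∧ a * d - b * c = 1 ∧ ¬ (q : ℤ) ∣ c

/-- letters of type `1`: elements of `Γ' \ H`, `Γ' = δ⁻¹ Γ δ`. -/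
def IsT1 (g : Matrix (Fin 2) (Fin 2) ℚ) : Prop :=
  ∃ a b c d : ℤ, g = !![(a : ℚ), (b : ℚ) / q; (q : ℚ) * c, (d : ℚ)] ∧ a * d - b * c = 1 ∧
    ¬ (q : ℤ) ∣ b

theorem one_lt_q : (1 : ℚ) < q := by exact_mod_cast hq.out.one_lt

theorem norm_q : padicNorm q (q : ℚ) = (q : ℚ)⁻¹ := padicNorm.padicNorm_p hq.out.one_lt

theorem SA_of_T0 {g M : Matrix (Fin 2) (Fin 2) ℚ} (hg : IsT0 q g) (hM : Y1 q M) :
    SA q (g * M) := by
  obtain ⟨a, b, c, d, rfl, hdet, hc⟩ := hg
  have hc1 : padicNorm q (c : ℚ) = 1 := (padicNorm.int_eq_one_iff c).2 hc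
  have hpos : 0 < vnorm q (M 0) := lt_of_le_of_lt (vnorm_nonneg q _) hM
  -- second row
  have hr2 : vnorm q ((!![(a : ℚ), (b : ℚ); (c : ℚ), (d : ℚ)] * M) 1) = vnorm q (M 0) := by
    rw [mul_row]
    have : vnorm q ((c : ℚ) • M 0 + (d : ℚ) • M 1) = padicNorm q (c : ℚ) * vnorm q (M 0) := by
      apply vnorm_comb_eq
      rw [hc1, one_mul]
      exact lt_of_le_of_lt
        (mul_le_of_le_one_left (vnorm_nonneg q _) (padicNorm.of_int d)) hM
    simpa [hc1] using this
  -- first row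
  have hr1 : vnorm q ((!![(a : ℚ), (b : ℚ); (c : ℚ), (d : ℚ)] * M) 0) ≤ vnorm q (M 0) := by
    rw [mul_row]
    have h := vnorm_comb_le q (a : ℚ) (b : ℚ) (M 0) (M 1)
    simp only [Matrix.of_apply, Matrix.cons_val', Matrix.cons_val_zero, Matrix.cons_val_one,
      Matrix.empty_val', Matrix.cons_val_fin_one] at h ⊢
    refine h.trans (max_le ?_ ?_)
    · exact mul_le_of_le_one_left (vnorm_nonneg q _) (padicNorm.of_int a)
    · exact (mul_le_of_le_one_left (vnorm_nonneg q _) (padicNorm.of_int b)).trans hM.le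
  refine ⟨by rw [hr2]; exact hr1, ?_⟩
  rw [hr2, Matrix.det_mul]
  have hdg : (!![(a : ℚ), (b : ℚ); (c : ℚ), (d : ℚ)]).det = 1 := by
    rw [Matrix.det_fin_two_of]; exact_mod_cast hdet
  rw [hdg, one_mul]
  calc padicNorm q M.det ≤ vnorm q (M 0) * vnorm q (M 1) := norm_det_le_rows q M
    _ < vnorm q (M 0) * vnorm q (M 0) := mul_lt_mul_of_pos_left hM hpos
    _ = vnorm q (M 0) ^ 2 := (sq _).symm

theorem SB_of_T1 {g M : Matrix (Fin 2) (Fin 2) ℚ} (hg : IsT1 q g) (hM : Y0 q M) :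
    SB q (g * M) := by
  obtain ⟨a, b, c, d, rfl, hdet, hb⟩ := hg
  obtain ⟨hM1, hM2⟩ := hM
  have hq1 := one_lt_q q
  have hq0 : (0 : ℚ) < q := lt_trans one_pos hq1
  have hb1 : padicNorm q ((b : ℚ) / q) = q := by
    rw [padicNorm.div, (padicNorm.int_eq_one_iff b).2 hb, norm_q, one_div, inv_inv]
  have hqc : padicNorm q ((q : ℚ) * c) ≤ 1 := by
    have : ((q : ℚ) * c) = ((q * c : ℤ) : ℚ) := by push_cast; ring
    rw [this]; exact padicNorm.of_int _
  -- first row
  have hr1 : vnorm q ((!![(a : ℚ), (b : ℚ) / q; (q : ℚ) * c, (d : ℚ)] * M) 0)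
      = q * vnorm q (M 1) := by
    rw [mul_row]
    have : vnorm q (((b : ℚ) / q) • M 1 + (a : ℚ) • M 0)
        = padicNorm q ((b : ℚ) / q) * vnorm q (M 1) := by
      apply vnorm_comb_eq
      rw [hb1]
      calc padicNorm q (a : ℚ) * vnorm q (M 0) ≤ vnorm q (M 0) :=
            mul_le_of_le_one_left (vnorm_nonneg q _) (padicNorm.of_int a)
        _ ≤ vnorm q (M 1) := hM1
        _ < q * vnorm q (M 1) := by nlinarith
    rw [hb1] at this
    rw [← this, add_comm]
    simp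
  -- second row
  have hr2 : vnorm q ((!![(a : ℚ), (b : ℚ) / q; (q : ℚ) * c, (d : ℚ)] * M) 1)
      ≤ vnorm q (M 1) := by
    rw [mul_row]
    have h := vnorm_comb_le q ((q : ℚ) * c) (d : ℚ) (M 0) (M 1)
    simp only [Matrix.of_apply, Matrix.cons_val', Matrix.cons_val_zero, Matrix.cons_val_one,
      Matrix.empty_val', Matrix.cons_val_fin_one] at h ⊢
    refine h.trans (max_le ?_ ?_)
    · exact (mul_le_of_le_one_left (vnorm_nonneg q _) hqc).trans hM1
    · exact mul_le_of_le_one_left (vnorm_nonneg q _) (padicNorm.of_int d)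
  refine ⟨by rw [hr1]; exact lt_of_le_of_lt hr2 (by nlinarith), ?_⟩
  rw [hr1, Matrix.det_mul]
  have hdg : (!![(a : ℚ), (b : ℚ) / q; (q : ℚ) * c, (d : ℚ)]).det = 1 := by
    rw [Matrix.det_fin_two_of]
    have : (a : ℚ) * d - (b : ℚ) * c = 1 := by exact_mod_cast hdet
    field_simp
    linarith
  rw [hdg, one_mul]
  have h1 : padicNorm q M.det ≤ vnorm q (M 1) * vnorm q (M 1) :=
    (norm_det_le_rows q M).trans
      (mul_le_mul_of_nonneg_right hM1 (vnorm_nonneg q _))
  have h2 : 0 < vnorm q (M 1) * vnorm q (M 1) := mul_pos hM2 hM2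
  calc (q : ℚ) * padicNorm q M.det ≤ q * (vnorm q (M 1) * vnorm q (M 1)) :=
        mul_le_mul_of_nonneg_left h1 hq0.le
    _ < q * (q * (vnorm q (M 1) * vnorm q (M 1))) :=
        mul_lt_mul_of_pos_left (by nlinarith) hq0
    _ = (q * vnorm q (M 1)) ^ 2 := by ring

/-! ### Base points -/

/-- the vertex `v₁`: the matrix `δ⁻¹ = diag(1/q, 1)`. -/
def deltaInv : Matrix (Fin 2) (Fin 2) ℚ := !![(q : ℚ)⁻¹, 0; 0, 1]

theorem vnorm_one_zero : vnorm q ((1 : Matrix (Fin 2) (Fin 2) ℚ) 0) = 1 := by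
  simp [vnorm]

theorem vnorm_one_one : vnorm q ((1 : Matrix (Fin 2) (Fin 2) ℚ) 1) = 1 := by
  simp [vnorm]

theorem Y0_one : Y0 q (1 : Matrix (Fin 2) (Fin 2) ℚ) := by
  unfold Y0
  rw [vnorm_one_zero, vnorm_one_one]
  exact ⟨le_rfl, one_pos⟩

theorem not_SA_one : ¬ SA q (1 : Matrix (Fin 2) (Fin 2) ℚ) := by
  unfold SA
  rw [vnorm_one_zero, vnorm_one_one]
  simp

theorem not_SB_one : ¬ SB q (1 : Matrix (Fin 2) (Fin 2) ℚ) := by
  unfold SB
  rw [vnorm_one_zero, vnorm_one_one]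
  simp

theorem vnorm_deltaInv_zero : vnorm q (deltaInv q 0) = q := by
  have hq1 := one_lt_q q
  have : padicNorm q (q : ℚ)⁻¹ = q := by
    rw [← one_div, padicNorm.div, norm_q]; simp
  simp only [vnorm, deltaInv, Matrix.of_apply, Matrix.cons_val', Matrix.cons_val_zero,
    Matrix.cons_val_one, Matrix.empty_val', Matrix.cons_val_fin_one]
  rw [this, padicNorm.zero]
  exact max_eq_left (by linarith)

theorem vnorm_deltaInv_one : vnorm q (deltaInv q 1) = 1 := by
  simp [vnorm, deltaInv]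

theorem det_deltaInv : (deltaInv q).det = (q : ℚ)⁻¹ := by
  simp [deltaInv, Matrix.det_fin_two_of]

theorem Y1_deltaInv : Y1 q (deltaInv q) := by
  unfold Y1
  rw [vnorm_deltaInv_zero, vnorm_deltaInv_one]
  exact one_lt_q q

theorem not_SA_deltaInv : ¬ SA q (deltaInv q) := by
  unfold SA
  rw [vnorm_deltaInv_zero, vnorm_deltaInv_one]
  intro h
  exact absurd h.1 (not_le.2 (one_lt_q q))

theorem not_SB_deltaInv : ¬ SB q (deltaInv q) := by
  unfold SB
  rw [vnorm_deltaInv_zero, vnorm_deltaInv_one, det_deltaInv]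
  have : padicNorm q (q : ℚ)⁻¹ = q := by
    rw [← one_div, padicNorm.div, norm_q]; simp
  rw [this]
  intro h
  exact absurd h.2 (by rw [sq]; exact lt_irrefl _)

/-! ### Reduced words -/

/-- `Red s t l`: `l` is a nonempty alternating word in letters of types `0` (`false`) and `1`
(`true`), whose first letter has type `s` and whose last letter has type `t`. -/
inductive Red : Bool → Bool → List (Matrix (Fin 2) (Fin 2) ℚ) → Prop
  | single0 (g : Matrix (Fin 2) (Fin 2) ℚ) : IsT0 q g → Red false false [g]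
  | single1 (g : Matrix (Fin 2) (Fin 2) ℚ) : IsT1 q g → Red true true [g]
  | cons0 (g : Matrix (Fin 2) (Fin 2) ℚ) (l : List (Matrix (Fin 2) (Fin 2) ℚ)) (t : Bool) :
      IsT0 q g → Red true t l → Red false t (g :: l)
  | cons1 (g : Matrix (Fin 2) (Fin 2) ℚ) (l : List (Matrix (Fin 2) (Fin 2) ℚ)) (t : Bool) :
      IsT1 q g → Red false t l → Red true t (g :: l)

/-- base point attached to the type of the last letter. -/
def basePt (t : Bool) : Matrix (Fin 2) (Fin 2) ℚ := if t then 1 else deltaInv q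

/-- target set attached to the type of the first letter. -/
def target (s : Bool) (M : Matrix (Fin 2) (Fin 2) ℚ) : Prop := if s then SB q M else SA q M

theorem target_of_red {s t : Bool} {l : List (Matrix (Fin 2) (Fin 2) ℚ)} (h : Red q s t l) :
    target q s (l.prod * basePt q t) := by
  induction h with
  | single0 g hg =>
      simp only [target, basePt, List.prod_cons, List.prod_nil, mul_one]
      exact SA_of_T0 q hg (Y1_deltaInv q)
  | single1 g hg =>
      simp only [target, basePt, List.prod_cons, List.prod_nil, mul_one]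
      simpa using SB_of_T1 q hg (Y0_one q)
  | cons0 g l t hg _ ih =>
      simp only [target, List.prod_cons, mul_assoc] at ih ⊢
      exact SA_of_T0 q hg (Y1_of_SB q ih)
  | cons1 g l t hg _ ih =>
      simp only [target, List.prod_cons, mul_assoc] at ih ⊢
      exact SB_of_T1 q hg (Y0_of_SA q ih)

theorem not_target_basePt (s t : Bool) : ¬ target q s (basePt q t) := by
  cases s <;> cases t <;> simp only [target, basePt]
  · exact not_SA_deltaInv q
  · exact not_SA_one q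
  · exact not_SB_deltaInv q
  · exact not_SB_one q

/-- **Ping-pong**: a reduced word is not the identity. -/
theorem prod_ne_one_of_red {s t : Bool} {l : List (Matrix (Fin 2) (Fin 2) ℚ)} (h : Red q s t l) :
    l.prod ≠ 1 := by
  intro h1
  have := target_of_red q h
  rw [h1, one_mul] at this
  exact not_target_basePt q s t this

/-! ### Letters coming from `SL(2, ℤ)` -/

/-- the matrix `δ = diag(q, 1)`. -/
def delta : Matrix (Fin 2) (Fin 2) ℚ := !![(q : ℚ), 0; 0, 1]

theorem deltaInv_mul_delta : deltaInv q * delta q = 1 := by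
  have hq0 : (q : ℚ) ≠ 0 := by exact_mod_cast hq.out.ne_zero
  ext i j
  fin_cases i <;> fin_cases j <;> simp [deltaInv, delta, hq0]

theorem delta_mul_deltaInv : delta q * deltaInv q = 1 := by
  have hq0 : (q : ℚ) ≠ 0 := by exact_mod_cast hq.out.ne_zero
  ext i j
  fin_cases i <;> fin_cases j <;> simp [deltaInv, delta, hq0]

/-- the rational matrix of an element of `SL(2, ℤ)`. -/
def matQ (γ : Matrix.SpecialLinearGroup (Fin 2) ℤ) : Matrix (Fin 2) (Fin 2) ℚ :=
  (γ : Matrix (Fin 2) (Fin 2) ℤ).map (Int.cast : ℤ → ℚ)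

theorem matQ_eq (γ : Matrix.SpecialLinearGroup (Fin 2) ℤ) :
    matQ γ = !![((γ 0 0 : ℤ) : ℚ), ((γ 0 1 : ℤ) : ℚ); ((γ 1 0 : ℤ) : ℚ), ((γ 1 1 : ℤ) : ℚ)] := by
  ext i j
  fin_cases i <;> fin_cases j <;> simp [matQ]

theorem det_entries (γ : Matrix.SpecialLinearGroup (Fin 2) ℤ) :
    γ 0 0 * γ 1 1 - γ 0 1 * γ 1 0 = 1 := by
  have := γ.det_coe
  rw [Matrix.det_fin_two] at this
  exact this

/-- conjugate `δ⁻¹ γ δ` of an integral matrix. -/
theorem conj_matQ_eq (γ : Matrix.SpecialLinearGroup (Fin 2) ℤ) :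
    deltaInv q * matQ γ * delta q =
      !![((γ 0 0 : ℤ) : ℚ), ((γ 0 1 : ℤ) : ℚ) / q; (q : ℚ) * ((γ 1 0 : ℤ) : ℚ),
        ((γ 1 1 : ℤ) : ℚ)] := by
  have hq0 : (q : ℚ) ≠ 0 := by exact_mod_cast hq.out.ne_zero
  rw [matQ_eq]
  ext i j
  fin_cases i <;> fin_cases j <;>
    simp [deltaInv, delta, Matrix.mul_apply, Fin.sum_univ_two] <;> field_simp

theorem isT0_matQ (γ : Matrix.SpecialLinearGroup (Fin 2) ℤ) (h : ¬ (q : ℤ) ∣ γ 1 0) :
    IsT0 q (matQ γ) :=
  ⟨γ 0 0, γ 0 1, γ 1 0, γ 1 1, matQ_eq γ, det_entries γ, h⟩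

theorem isT1_conj_matQ (γ : Matrix.SpecialLinearGroup (Fin 2) ℤ) (h : ¬ (q : ℤ) ∣ γ 0 1) :
    IsT1 q (deltaInv q * matQ γ * delta q) :=
  ⟨γ 0 0, γ 0 1, γ 1 0, γ 1 1, conj_matQ_eq q γ, det_entries γ, h⟩

end Fermat.Agent.LR.PingPong

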