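/-
Program M (S41), node D1, final statement (helper19): extension of compatible pairs of
homomorphisms from `Γ₀(N)` and `δ⁻¹ Γ₀(N) δ` (`δ = diag(q,1)`) to `Γ₀(N)[1/q]`
(`= Γ₀(N) *_{Γ₀(N q)} δ⁻¹ Γ₀(N) δ`), for abelian targets.
Inputs: ping-pong (`LR/PingPong.lean`, helper26), generation/intersection (`LR/AmalgamGen.lean`),
abstract extension lemma (`LR/AmalgamExt.lean`).
-/
import Mathlib
import Fermat.Agent.LR.AmalgamGen
import Fermat.Agent.LR.AmalgamExt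
import Fermat.Agent.LR.PingPong

set_option autoImplicit false
set_option linter.unusedSimpArgs false

namespace Fermat.Agent.LR.Amalgam

open Matrix CongruenceSubgroup
open Fermat.Agent.LR.Gen Fermat.Agent.LR.AmalgamExt
open scoped MatrixGroups

variable {N q : ℕ}

theorem coe_castSL (γ : SL(2, ℤ)) :
    (castSL γ : Matrix (Fin 2) (Fin 2) ℚ) = PingPong.matQ γ := by
  ext i j
  simp [PingPong.matQ]

theorem coe_conjD_castSL [hq : Fact q.Prime] (hq0 : (q : ℚ) ≠ 0) (γ : SL(2, ℤ)) :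
    (conjD (q : ℚ) hq0 (castSL γ) : Matrix (Fin 2) (Fin 2) ℚ) =
      PingPong.deltaInv q * PingPong.matQ γ * PingPong.delta q := by
  rw [PingPong.conj_matQ_eq, conjD_apply]
  simp only [castSL_apply]

/-- Elements of `Γ \ Γ'` are letters of type `0`. -/
theorem isT0_of_mem (hq : q.Prime) (hqN : ¬ q ∣ N) {g : SL(2, ℚ)} (hg : g ∈ gammaQ N)
    (hg' : g ∉ gammaQ' N q hq.ne_zero) : PingPong.IsT0 q (g : Matrix (Fin 2) (Fin 2) ℚ) := by
  have : Fact q.Prime := ⟨hq⟩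
  obtain ⟨γ, hγ, rfl⟩ := hg
  rw [coe_castSL]
  refine PingPong.isT0_matQ q γ fun hdvd => hg' ?_
  have hmem : castSL γ ∈ gammaQ N ⊓ gammaQ' N q hq.ne_zero := by
    rw [inf_eq hq]
    refine Subgroup.mem_map_of_mem _ ?_
    rw [SetLike.mem_coe, Gamma0_mem] at hγ
    rw [Gamma0_mem]
    have hN : (N : ℤ) ∣ γ 1 0 := (ZMod.intCast_zmod_eq_zero_iff_dvd _ _).1 hγ
    have hco : IsCoprime (N : ℤ) (q : ℤ) := by
      have : Nat.Coprime q N := (Nat.Prime.coprime_iff_not_dvd hq).2 hqN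
      exact (Nat.isCoprime_iff_coprime.2 this).symm
    have : ((N * q : ℕ) : ℤ) ∣ γ 1 0 := by
      push_cast
      exact hco.mul_dvd hN hdvd
    exact (ZMod.intCast_zmod_eq_zero_iff_dvd _ _).2 this
  exact hmem.2

/-- Elements of `Γ' \ Γ` are letters of type `1`. -/
theorem isT1_of_mem (hq : q.Prime) {g : SL(2, ℚ)} (hg : g ∈ gammaQ' N q hq.ne_zero)
    (hg' : g ∉ gammaQ N) : PingPong.IsT1 q (g : Matrix (Fin 2) (Fin 2) ℚ) := by
  have : Fact q.Prime := ⟨hq⟩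
  have hq0 : (q : ℚ) ≠ 0 := by exact_mod_cast hq.ne_zero
  obtain ⟨_, ⟨η, hη, rfl⟩, rfl⟩ := hg
  rw [MulEquiv.coe_toMonoidHom, coe_conjD_castSL hq0]
  refine PingPong.isT1_conj_matQ q η fun hdvd => hg' ?_
  obtain ⟨t, ht⟩ := hdvd
  rw [SetLike.mem_coe, Gamma0_mem] at hη
  have hN : (N : ℤ) ∣ η 1 0 := (ZMod.intCast_zmod_eq_zero_iff_dvd _ _).1 hη
  have hdet : η 0 0 * η 1 1 - t * ((q : ℤ) * η 1 0) = 1 := by
    have := PingPong.det_entries η
    rw [ht] at this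
    linear_combination this
  have : (conjD (q : ℚ) hq0).toMonoidHom (castSL η) =
      castSL (mkSL (η 0 0) t ((q : ℤ) * η 1 0) (η 1 1) hdet) := by
    ext i j
    rw [MulEquiv.coe_toMonoidHom, conjD_apply]
    fin_cases i <;> fin_cases j
    · simp
    · simp only [castSL_apply, Matrix.of_apply, Matrix.cons_val', Matrix.cons_val_zero,
        Matrix.cons_val_one, Fin.zero_eta, Fin.mk_one, mkSL_01, ht]
      push_cast
      field_simp
    · simp
    · simp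
  rw [this]
  exact Subgroup.mem_map_of_mem _ (mkSL_mem_Gamma0 _ _ _ _ _ (dvd_mul_of_dvd_right hN _))


/-- The rational matrix of a letter. -/
def mat (hq0 : q ≠ 0) (l : ↥(gammaQ N) ⊕ ↥(gammaQ' N q hq0)) : Matrix (Fin 2) (Fin 2) ℚ :=
  ((val (gammaQ N) (gammaQ' N q hq0) l : SL(2, ℚ)) : Matrix (Fin 2) (Fin 2) ℚ)

theorem coe_ev (hq0 : q ≠ 0) (w : List (↥(gammaQ N) ⊕ ↥(gammaQ' N q hq0))) :
    ((ev (gammaQ N) (gammaQ' N q hq0) w : SL(2, ℚ)) : Matrix (Fin 2) (Fin 2) ℚ) =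
      (w.map (mat hq0)).prod := by
  induction w with
  | nil => simp
  | cons l w ih =>
    rw [ev_cons, Matrix.SpecialLinearGroup.coe_mul, ih, List.map_cons, List.prod_cons]
    rfl

theorem red_of_isAlt (hq : q.Prime) (hqN : ¬ q ∣ N) :
    ∀ (l : ↥(gammaQ N) ⊕ ↥(gammaQ' N q hq.ne_zero))
      (w : List (↥(gammaQ N) ⊕ ↥(gammaQ' N q hq.ne_zero))),
      IsAlt (gammaQ N) (gammaQ' N q hq.ne_zero) (l :: w) →
      ∃ t, PingPong.Red q l.isRight t ((l :: w).map (mat hq.ne_zero))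
  | l, [], h => by
    rcases l with a | b
    · exact ⟨false, PingPong.Red.single0 _ (isT0_of_mem hq hqN a.2 fun h' => h ⟨a.2, h'⟩)⟩
    · exact ⟨true, PingPong.Red.single1 _ (isT1_of_mem hq b.2 fun h' => h ⟨h', b.2⟩)⟩
  | l, l₂ :: w, h => by
    obtain ⟨h1, h2, h3⟩ := h
    obtain ⟨t, ht⟩ := red_of_isAlt hq hqN l₂ w h3
    rcases l with a | b
    · rcases l₂ with a₂ | b₂
      · simp at h2
      · exact ⟨t, PingPong.Red.cons0 _ _ t
          (isT0_of_mem hq hqN a.2 fun h' => h1 ⟨a.2, h'⟩) ht⟩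
    · rcases l₂ with a₂ | b₂
      · exact ⟨t, PingPong.Red.cons1 _ _ t (isT1_of_mem hq b.2 fun h' => h1 ⟨h', b.2⟩) ht⟩
      · simp at h2

/-- The ping-pong hypothesis of `AmalgamExt` holds for `Γ₀(N)` and `δ⁻¹ Γ₀(N) δ`. -/
theorem pingpong (hq : q.Prime) (hqN : ¬ q ∣ N)
    (w : List (↥(gammaQ N) ⊕ ↥(gammaQ' N q hq.ne_zero))) (hw : w ≠ [])
    (halt : IsAlt (gammaQ N) (gammaQ' N q hq.ne_zero) w) :
    ev (gammaQ N) (gammaQ' N q hq.ne_zero) w ≠ 1 := by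
  have : Fact q.Prime := ⟨hq⟩
  rcases w with _ | ⟨l, w⟩
  · exact absurd rfl hw
  · obtain ⟨t, ht⟩ := red_of_isAlt hq hqN l w halt
    intro h1
    have := PingPong.prod_ne_one_of_red q ht
    rw [← coe_ev, h1] at this
    exact this rfl


/-- `Γ₀(N) ≃* Γ`. -/
noncomputable def eA (N : ℕ) : Gamma0 N ≃* ↥(gammaQ N) :=
  (Gamma0 N).equivMapOfInjective castSL castSL_injective

/-- `Γ₀(N) ≃* Γ'`. -/
noncomputable def eB (N q : ℕ) (hq0 : q ≠ 0) : Gamma0 N ≃* ↥(gammaQ' N q hq0) :=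
  (eA N).trans ((gammaQ N).equivMapOfInjective
    (conjD (q : ℚ) (by exact_mod_cast hq0)).toMonoidHom (conjD (q : ℚ) _).injective)

theorem coe_eA (γ : Gamma0 N) : ((eA N γ : ↥(gammaQ N)) : SL(2, ℚ)) = castSL γ := rfl

theorem coe_eB (hq0 : q ≠ 0) (γ : Gamma0 N) :
    ((eB N q hq0 γ : ↥(gammaQ' N q hq0)) : SL(2, ℚ)) =
      conjD (q : ℚ) (by exact_mod_cast hq0) (castSL γ) := rfl

theorem castSL_mem (q : ℕ) (γ : Gamma0 N) : castSL (γ : SL(2, ℤ)) ∈ gamma0Loc N q :=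
  gammaQ_le N q (Subgroup.mem_map_of_mem _ γ.2)

theorem conjD_castSL_mem (hq0 : q ≠ 0) (γ : Gamma0 N) :
    conjD (q : ℚ) (by exact_mod_cast hq0) (castSL (γ : SL(2, ℤ))) ∈ gamma0Loc N q :=
  gammaQ'_le N q hq0 (Subgroup.mem_map_of_mem _ (Subgroup.mem_map_of_mem _ γ.2))

/-- **D1: extension of compatible pairs.** `x, y : Γ₀(N) → M` homomorphisms into an abelian group
with `x γ = y η` whenever `γ = δ⁻¹ η δ` (i.e. agreeing on `Γ₀(N q) = Γ ∩ Γ'`) extend uniquely to a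
homomorphism of `Γ₀(N)[1/q]` restricting to `x` on `Γ₀(N)` and to `y ∘ (δ · δ⁻¹)` on
`δ⁻¹ Γ₀(N) δ`. -/
theorem exists_unique_extension (hq : q.Prime) (hqN : ¬ q ∣ N) {M : Type*} [AddCommGroup M]
    (x y : Additive (Gamma0 N) →+ M)
    (hxy : ∀ γ η : Gamma0 N,
      castSL (γ : SL(2, ℤ)) = conjD (q : ℚ) (Nat.cast_ne_zero.2 hq.ne_zero) (castSL η) →
        x (Additive.ofMul γ) = y (Additive.ofMul η)) :
    ∃! φ : ↥(gamma0Loc N q) →* Multiplicative M,
      (∀ γ : Gamma0 N, φ ⟨castSL γ, castSL_mem q γ⟩ = Multiplicative.ofAdd (x (Additive.ofMul γ))) ∧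
      (∀ γ : Gamma0 N, φ ⟨conjD (q : ℚ) (Nat.cast_ne_zero.2 hq.ne_zero) (castSL γ),
        conjD_castSL_mem hq.ne_zero γ⟩ = Multiplicative.ofAdd (y (Additive.ofMul γ))) := by
  set A := gammaQ N with hA
  set B := gammaQ' N q hq.ne_zero with hB
  let x' : ↥A →* Multiplicative M :=
    (AddMonoidHom.toMultiplicativeRight x).comp (eA N).symm.toMonoidHom
  let y' : ↥B →* Multiplicative M :=
    (AddMonoidHom.toMultiplicativeRight y).comp (eB N q hq.ne_zero).symm.toMonoidHom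
  have hx' : ∀ γ : Gamma0 N, x' (eA N γ) = Multiplicative.ofAdd (x (Additive.ofMul γ)) := by
    intro γ
    simp [x', AddMonoidHom.coe_toMultiplicativeRight]
  have hy' : ∀ γ : Gamma0 N,
      y' (eB N q hq.ne_zero γ) = Multiplicative.ofAdd (y (Additive.ofMul γ)) := by
    intro γ
    simp [y', AddMonoidHom.coe_toMultiplicativeRight]
  have compat : ∀ (a : ↥A) (b : ↥B), (a : SL(2, ℚ)) = b → x' a = y' b := by
    intro a b hab
    obtain ⟨γ, rfl⟩ := (eA N).surjective a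
    obtain ⟨η, rfl⟩ := (eB N q hq.ne_zero).surjective b
    rw [hx', hy']
    congr 1
    exact hxy γ η (by rw [← coe_eA, hab, coe_eB])
  obtain ⟨φ0, hφA, hφB⟩ := exists_extension compat (pingpong hq hqN)
  let e : ↥(A ⊔ B) ≃* ↥(gamma0Loc N q) := MulEquiv.subgroupCongr (sup_eq hq hqN)
  refine ⟨φ0.comp e.symm.toMonoidHom, ⟨?_, ?_⟩, ?_⟩
  · intro γ
    have := hφA (eA N γ)
    rw [hx'] at this
    rw [← this]
    rfl
  · intro γ
    have := hφB (eB N q hq.ne_zero γ)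
    rw [hy'] at this
    rw [← this]
    rfl
  · rintro ψ ⟨hψA, hψB⟩
    have : ψ.comp e.toMonoidHom = φ0 := by
      apply extension_unique
      · intro a
        obtain ⟨γ, rfl⟩ := (eA N).surjective a
        rw [hφA, hx', ← hψA γ]
        rfl
      · intro b
        obtain ⟨η, rfl⟩ := (eB N q hq.ne_zero).surjective b
        rw [hφB, hy', ← hψB η]
        rfl
    rw [← this]
    ext g
    simp

end Fermat.Agent.LR.Amalgam
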