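import Mathlib

/-!
# Program M, node D2: arithmetic lemmas for the finishing argument (finding #509)

* `isSquare_or_isSquare_neg` : for a prime `r ≡ 3 (mod 4)` every class mod `r` is `±` a square.
* `exists_nat_sq_or_neg_sq` : the same with the square root of the shape `M * n`,
  `n ≡ 1 (mod Q)` a natural number (CRT).
* `exists_prime_three_mod_four` : Dirichlet selection of a prime `r ≡ c₀ (mod a₀)`,
  `r ≡ 3 (mod 4)`, `r ≡ -1 (mod p)`.
* `eq_one_of_pow_eq_one` : an element killed by `p` and by `r - 1` is trivial if `p ∤ r - 1`.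
-/

namespace Fermat.Agent.LR.CSPArith2

/-- For a prime `r ≡ 3 (mod 4)`, every residue class is a square or minus a square. -/
theorem isSquare_or_isSquare_neg {r : ℕ} [Fact r.Prime] (hr : r % 4 = 3) (x : ZMod r) :
    IsSquare x ∨ IsSquare (-x) := by
  by_cases hx : x = 0
  · left; rw [hx]; exact IsSquare.zero
  by_contra h
  push Not at h
  obtain ⟨h1, h2⟩ := h
  have hr2 : ringChar (ZMod r) ≠ 2 := by
    rw [ZMod.ringChar_zmod_n]; omega
  have c1 : quadraticChar (ZMod r) x = -1 :=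
    (quadraticChar_neg_one_iff_not_isSquare (F := ZMod r)).mpr h1
  have c2 : quadraticChar (ZMod r) (-x) = -1 :=
    (quadraticChar_neg_one_iff_not_isSquare (F := ZMod r)).mpr h2
  have c3 : quadraticChar (ZMod r) (-1) = 1 := by
    have hmul : quadraticChar (ZMod r) (-x) = quadraticChar (ZMod r) (-1) * quadraticChar (ZMod r) x := by
      rw [← map_mul]; congr 1; ring
    rw [c1, c2] at hmul
    linarith
  have hsq : IsSquare (-1 : ZMod r) :=
    (quadraticChar_one_iff_isSquare (F := ZMod r) (by simp)).mp c3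
  exact (ZMod.exists_sq_eq_neg_one_iff.mp hsq) hr

/-- CRT version: the square root can be taken of the form `M * n` with `n ≡ 1 (mod Q)`. -/
theorem exists_nat_sq_or_neg_sq {r : ℕ} [Fact r.Prime] (hr : r % 4 = 3) (M Q : ℕ)
    (hM : Nat.Coprime M r) (hQ : Nat.Coprime Q r) (x : ZMod r) :
    ∃ n : ℕ, n ≡ 1 [MOD Q] ∧
      ((((M * n : ℕ) : ZMod r)) ^ 2 = x ∨ -(((M * n : ℕ) : ZMod r)) ^ 2 = x) := by
  have hMu : IsUnit ((M : ℕ) : ZMod r) := (ZMod.isUnit_iff_coprime M r).mpr hM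
  obtain ⟨Mu, hMu'⟩ := hMu
  have key : ∀ w : ZMod r, ∃ n : ℕ, n ≡ 1 [MOD Q] ∧ ((M * n : ℕ) : ZMod r) = w := by
    intro w
    obtain ⟨n, hn1, hn2⟩ := Nat.chineseRemainder hQ 1 ((↑Mu⁻¹ * w : ZMod r)).val
    refine ⟨n, hn1, ?_⟩
    have : ((n : ℕ) : ZMod r) = ↑Mu⁻¹ * w := by
      have := (ZMod.natCast_eq_natCast_iff n _ r).mpr hn2
      rw [this, ZMod.natCast_zmod_val]
    rw [Nat.cast_mul, this, ← hMu', ← mul_assoc, Units.mul_inv, one_mul]
  rcases isSquare_or_isSquare_neg hr x with ⟨w, hw⟩ | ⟨w, hw⟩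
  · obtain ⟨n, hn1, hn2⟩ := key w
    exact ⟨n, hn1, Or.inl (by rw [hn2, hw]; ring)⟩
  · obtain ⟨n, hn1, hn2⟩ := key w
    refine ⟨n, hn1, Or.inr ?_⟩
    rw [hn2, sq, ← hw]; ring

/-- **Dirichlet selection for Step 5 of #509.** -/
theorem exists_prime_three_mod_four (p : ℕ) (hp : p.Prime) (a₀ c₀ : ℤ)
    (ha₀ : a₀ ≠ 0) (hac : IsCoprime a₀ c₀) (ha2 : IsCoprime a₀ 2) (hap : IsCoprime a₀ (p : ℤ))
    (B : ℕ) :
    ∃ r : ℕ, r.Prime ∧ B < r ∧ (r : ℤ) ≡ c₀ [ZMOD a₀] ∧ r % 4 = 3 ∧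
      (r : ℤ) ≡ -1 [ZMOD (p : ℤ)] := by
  -- `a₀` is prime to `4 p`
  have h4p : IsCoprime a₀ (4 * (p : ℤ)) := by
    have h4 : IsCoprime a₀ 4 := by
      have : (4 : ℤ) = 2 * 2 := by norm_num
      rw [this]; exact ha2.mul_right ha2
    exact h4.mul_right hap
  obtain ⟨u, v, huv⟩ := h4p
  -- the residue
  set ρ : ℤ := -1 + v * (4 * (p : ℤ)) * (c₀ + 1) with hρ
  have hρa : ρ = c₀ - u * a₀ * (c₀ + 1) := by
    rw [hρ]; linear_combination (c₀ + 1) * huv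
  have hρ1 : IsCoprime ρ a₀ := by
    obtain ⟨s, t, hst⟩ := hac.symm
    refine ⟨s, t + s * u * (c₀ + 1), ?_⟩
    rw [hρa]; linear_combination hst
  have hρ2 : IsCoprime ρ (4 * (p : ℤ)) := by
    refine ⟨-1, v * (c₀ + 1), ?_⟩
    rw [hρ]; ring
  set L : ℕ := a₀.natAbs * (4 * p) with hL
  have hLne : L ≠ 0 := by
    rw [hL]
    exact Nat.mul_ne_zero (Int.natAbs_ne_zero.mpr ha₀) (Nat.mul_ne_zero (by norm_num) hp.ne_zero)
  have hρL : IsCoprime ρ (L : ℤ) := by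
    rw [hL]; push_cast
    exact IsCoprime.mul_right hρ1.abs_right hρ2
  obtain ⟨r, hrgt, hr, hrρ⟩ := Nat.forall_exists_prime_gt_and_zmodEq B hLne hρL
  have hdvd_a : a₀ ∣ (L : ℤ) := by
    rw [hL]; push_cast
    exact Dvd.dvd.mul_right ((dvd_abs a₀ a₀).mpr dvd_rfl) _
  have hdvd_4p : (4 * (p : ℤ)) ∣ (L : ℤ) := by
    rw [hL]; push_cast; exact Dvd.intro_left _ rfl
  have hra : (r : ℤ) ≡ c₀ [ZMOD a₀] := by
    have h1 : (r : ℤ) ≡ ρ [ZMOD a₀] := hrρ.of_dvd hdvd_a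
    refine h1.trans ?_
    rw [hρa]
    exact Int.modEq_iff_dvd.mpr ⟨u * (c₀ + 1), by ring⟩
  have hr4p : (r : ℤ) ≡ -1 [ZMOD (4 * (p : ℤ))] := by
    have h1 : (r : ℤ) ≡ ρ [ZMOD (4 * (p : ℤ))] := hrρ.of_dvd hdvd_4p
    refine h1.trans ?_
    rw [hρ]
    exact (Int.modEq_iff_dvd.mpr ⟨-(v * (c₀ + 1)), by ring⟩)
  refine ⟨r, hr, hrgt, hra, ?_, ?_⟩
  · have h4 : (r : ℤ) ≡ -1 [ZMOD 4] := hr4p.of_dvd (Dvd.intro _ rfl)
    have : (r : ℤ) % 4 = 3 := by
      have := h4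
      unfold Int.ModEq at this
      rw [this]; norm_num
    omega
  · exact hr4p.of_dvd (Dvd.intro_left _ rfl)

/-- An element killed by `p` and by `n`, with `p` prime not dividing `n`, is trivial. -/
theorem eq_one_of_pow_eq_one {V : Type*} [Monoid V] {p n : ℕ} (hp : p.Prime) (hpn : ¬ p ∣ n)
    (v : V) (h1 : v ^ p = 1) (h2 : v ^ n = 1) : v = 1 := by
  have hcop : Nat.Coprime p n := (Nat.Prime.coprime_iff_not_dvd hp).mpr hpn
  have := pow_gcd_eq_one.mpr ⟨h1, h2⟩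
  rwa [hcop, pow_one] at this

/-- A homomorphism from `(ZMod r)ˣ` to a group of exponent `p` is trivial if `p ∤ r - 1`. -/
theorem monoidHom_units_eq_one {r p : ℕ} [Fact r.Prime] (hp : p.Prime) (hrp : ¬ p ∣ r - 1)
    {V : Type*} [Monoid V] (hV : ∀ v : V, v ^ p = 1) (F : (ZMod r)ˣ →* V) (x : (ZMod r)ˣ) :
    F x = 1 := by
  refine eq_one_of_pow_eq_one hp hrp (F x) (hV _) ?_
  rw [← map_pow, ZMod.units_pow_card_sub_one_eq_one, map_one]

end Fermat.Agent.LR.CSPArith2
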