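import Mathlib
import Fermat.Agent.LR.CSPArith2

/-!
# Program M, node D2: `±`-squares modulo `r ≡ 3 (mod 4)` with a PRIME square root parameter

Variant of `CSPArith2.exists_nat_sq_or_neg_sq` for the even levels: the parameter `n` is a prime
`≡ 3 (mod 4)` (so that `v₂ (ord_n q) ≤ 1` for every `q`), obtained from Dirichlet's theorem.
-/

namespace Fermat.Agent.LR.CSPArith3

open Fermat.Agent.LR.CSPArith2

/-- For `r ≡ 3 (mod 4)` prime and `x ≠ 0` in `ZMod r` there are arbitrarily large primes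
`n ≡ 3 (mod 4)` with `(M n)² = ± x`. -/
theorem exists_prime_sq_or_neg_sq {r : ℕ} [Fact r.Prime] (hr : r % 4 = 3) (M B : ℕ)
    (hM : Nat.Coprime M r) (x : ZMod r) (hx : x ≠ 0) :
    ∃ n : ℕ, n.Prime ∧ B < n ∧ n % 4 = 3 ∧
      ((((M * n : ℕ) : ZMod r)) ^ 2 = x ∨ -(((M * n : ℕ) : ZMod r)) ^ 2 = x) := by
  have hrp : r.Prime := Fact.out
  have hMu : IsUnit ((M : ℕ) : ZMod r) := (ZMod.isUnit_iff_coprime M r).mpr hM
  obtain ⟨Mu, hMu'⟩ := hMu
  have hr4 : Nat.Coprime r 4 := by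
    have : Nat.Coprime r 2 := by
      rw [Nat.coprime_two_right]; rw [Nat.odd_iff]; omega
    have h4 : (4 : ℕ) = 2 * 2 := by norm_num
    rw [h4]; exact Nat.Coprime.mul_right this this
  have key : ∀ w : ZMod r, w ≠ 0 → ∃ n : ℕ, n.Prime ∧ B < n ∧ n % 4 = 3 ∧
      ((M * n : ℕ) : ZMod r) = w := by
    intro w hw
    set y : ZMod r := ↑Mu⁻¹ * w with hy
    have hy0 : y ≠ 0 := by
      rw [hy]; exact mul_ne_zero (Units.ne_zero _) hw
    obtain ⟨τ, hτr, hτ4⟩ := Nat.chineseRemainder hr4 y.val 3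
    have hτcop : Nat.Coprime τ (r * 4) := by
      refine Nat.Coprime.mul_right ?_ ?_
      · unfold Nat.Coprime; rw [hτr.gcd_eq]
        have : Nat.Coprime r y.val := by
          rw [hrp.coprime_iff_not_dvd]
          intro hdvd
          have h0 : ((y.val : ℕ) : ZMod r) = 0 := (ZMod.natCast_eq_zero_iff _ _).mpr hdvd
          rw [ZMod.natCast_zmod_val] at h0
          exact hy0 h0
        exact this.symm
      · unfold Nat.Coprime; rw [hτ4.gcd_eq]; decide
    obtain ⟨n, hnB, hn, hnτ⟩ :=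
      Nat.forall_exists_prime_gt_and_modEq B (Nat.mul_ne_zero hrp.ne_zero (by norm_num)) hτcop
    have hnr : n ≡ y.val [MOD r] := (hnτ.of_dvd (Dvd.intro _ rfl)).trans hτr
    have hn4 : n ≡ 3 [MOD 4] := (hnτ.of_dvd (Dvd.intro_left _ rfl)).trans hτ4
    refine ⟨n, hn, hnB, ?_, ?_⟩
    · unfold Nat.ModEq at hn4; rw [hn4]
    · have : ((n : ℕ) : ZMod r) = y := by
        have := (ZMod.natCast_eq_natCast_iff n _ r).mpr hnr
        rw [this, ZMod.natCast_zmod_val]
      rw [Nat.cast_mul, this, hy, ← hMu', ← mul_assoc, Units.mul_inv, one_mul]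
  rcases isSquare_or_isSquare_neg hr x with ⟨w, hw⟩ | ⟨w, hw⟩
  · have hw0 : w ≠ 0 := by
      rintro rfl; exact hx (by rw [hw]; ring)
    obtain ⟨n, hn, hnB, hn4, hnw⟩ := key w hw0
    exact ⟨n, hn, hnB, hn4, Or.inl (by rw [hnw, hw]; ring)⟩
  · have hw0 : w ≠ 0 := by
      rintro rfl
      apply hx
      have : -x = 0 := by rw [hw]; ring
      exact neg_eq_zero.mp this
    obtain ⟨n, hn, hnB, hn4, hnw⟩ := key w hw0
    refine ⟨n, hn, hnB, hn4, Or.inr ?_⟩
    rw [hnw, sq, ← hw]; ring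

end Fermat.Agent.LR.CSPArith3
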