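import Mathlib

/-!
# Program M, node D2 (GATE-CSP), case `q = 2`: the arithmetic core of "Claim D"

For an odd modulus `M`, a residue `R` prime to `M` and an exponent `Φ ≠ 0` there are arbitrarily
large distinct primes `r₁, r₂ ≡ 7 (mod 8)` with `r₁ r₂ ≡ R (mod M)` and an odd exponent `j` prime to
`Φ` such that `r₁ r₂ ∣ 2 ^ j - 1` — provided `R ≡ 1 (mod 3)` in case `3 ∣ gcd(M, Φ)` (necessary).

`j = (r₁ - 1)/2 · (r₂ - 1)/2`: the supplementary law makes `2` a square modulo `r_i`, Euler's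
criterion gives `2 ^ ((r_i - 1)/2) = 1`, and the residues of `r₁, r₂` modulo the odd primes
`l ∣ Φ` are chosen (Dirichlet twice) so that `l ∤ (r₁ - 1)(r₂ - 1)`.
-/

set_option autoImplicit false
set_option linter.style.haveILetI false

namespace Fermat.Agent.LR.CSPArithD

open Nat

/-- `2 ^ ((r - 1)/2) = 1` in `ZMod r` for a prime `r ≡ 7 (mod 8)` -/
theorem two_pow_half_eq_one {r : ℕ} (hr : r.Prime) (h8 : r % 8 = 7) :
    (2 : ZMod r) ^ (r / 2) = 1 := by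
  haveI : Fact r.Prime := ⟨hr⟩
  have hr2 : r ≠ 2 := by rintro rfl; omega
  have h2 : (2 : ZMod r) ≠ 0 := by
    intro h
    have h' : ((2 : ℕ) : ZMod r) = 0 := by exact_mod_cast h
    rw [ZMod.natCast_eq_zero_iff] at h'
    exact hr2 ((Nat.prime_dvd_prime_iff_eq hr Nat.prime_two).mp h')
  exact (ZMod.euler_criterion r h2).mp ((ZMod.exists_sq_eq_two_iff hr2).mpr (Or.inr h8))

/-- `r ∣ 2 ^ j - 1` when `(r - 1)/2 ∣ j`, for a prime `r ≡ 7 (mod 8)` -/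
theorem dvd_two_pow_sub_one {r : ℕ} (hr : r.Prime) (h8 : r % 8 = 7) {j : ℕ} (hj : r / 2 ∣ j) :
    r ∣ 2 ^ j - 1 := by
  obtain ⟨t, rfl⟩ := hj
  rw [← ZMod.natCast_eq_zero_iff, Nat.cast_sub Nat.one_le_two_pow]
  push_cast
  rw [pow_mul, two_pow_half_eq_one hr h8, one_pow, sub_self]

/-- a natural representative of an integer residue class prime to the modulus -/
theorem exists_nat_rep (M : ℕ) (hM : M ≠ 0) (S : ℤ) (hS : IsCoprime S (M : ℤ)) :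
    ∃ s : ℕ, ((s : ℕ) : ℤ) ≡ S [ZMOD (M : ℤ)] ∧ Nat.Coprime s M := by
  have hMpos : (0 : ℤ) < (M : ℤ) := by exact_mod_cast Nat.pos_of_ne_zero hM
  refine ⟨(S % (M : ℤ)).toNat, ?_, ?_⟩
  · rw [Int.toNat_of_nonneg (Int.emod_nonneg _ hMpos.ne')]
    exact Int.mod_modEq _ _
  · have h1 : IsCoprime (((S % (M : ℤ)).toNat : ℕ) : ℤ) (M : ℤ) := by
      rw [Int.toNat_of_nonneg (Int.emod_nonneg _ hMpos.ne')]
      obtain ⟨u, v, huv⟩ := hS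
      refine ⟨u, v + u * (S / (M : ℤ)), ?_⟩
      have hdiv : S % (M : ℤ) = S - (M : ℤ) * (S / (M : ℤ)) := by
        have := Int.emod_add_mul_ediv S (M : ℤ); linarith
      rw [hdiv]; linear_combination huv
    exact Nat.isCoprime_iff_coprime.mp h1

/-- an odd prime is prime to `8` -/
theorem coprime_eight_of_prime {l : ℕ} (hl : l.Prime) (hl2 : l ≠ 2) : Nat.Coprime 8 l := by
  have : (8 : ℕ) = 2 ^ 3 := by norm_num
  rw [this]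
  apply Nat.Coprime.pow_left
  exact (Nat.coprime_primes Nat.prime_two hl).mpr (Ne.symm hl2)

/-- Dirichlet + CRT: a large prime `r ≡ 7 (mod 8)` with `r ≡ s (mod M)`, `r ≡ 2 (mod A)`,
`r ≡ 3 (mod C)` for pairwise coprime `8, M, A, C` with `3 ∤ C`. -/
theorem exists_prime_crt (M A C s B : ℕ) (hM : M ≠ 0) (hA : A ≠ 0) (hC : C ≠ 0)
    (hM8 : Nat.Coprime 8 M) (hA8 : Nat.Coprime 8 A) (hC8 : Nat.Coprime 8 C)
    (hMA : Nat.Coprime M A) (hMC : Nat.Coprime M C) (hAC : Nat.Coprime A C)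
    (hs : Nat.Coprime s M) (hC3 : Nat.Coprime 3 C) :
    ∃ r : ℕ, r.Prime ∧ B < r ∧ r % 8 = 7 ∧ r ≡ s [MOD M] ∧ r ≡ 2 [MOD A] ∧ r ≡ 3 [MOD C] := by
  have hA2 : Nat.Coprime 2 A := Nat.Coprime.coprime_dvd_left (by norm_num : 2 ∣ 8) hA8
  obtain ⟨y₁, hy₁8, hy₁M⟩ := Nat.chineseRemainder hM8 7 s
  have h8MA : Nat.Coprime (8 * M) A := Nat.Coprime.mul_left hA8 hMA
  obtain ⟨y₂, hy₂1, hy₂A⟩ := Nat.chineseRemainder h8MA y₁ 2
  have h8MAC : Nat.Coprime (8 * M * A) C :=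
    Nat.Coprime.mul_left (Nat.Coprime.mul_left hC8 hMC) hAC
  obtain ⟨y₃, hy₃2, hy₃C⟩ := Nat.chineseRemainder h8MAC y₂ 3
  -- the four congruences of `y₃`
  have e8 : y₃ ≡ 7 [MOD 8] :=
    ((hy₃2.of_dvd ⟨M * A, by ring⟩).trans (hy₂1.of_dvd ⟨M, rfl⟩)).trans hy₁8
  have eM : y₃ ≡ s [MOD M] :=
    ((hy₃2.of_dvd ⟨8 * A, by ring⟩).trans (hy₂1.of_dvd ⟨8, by ring⟩)).trans hy₁M
  have eA : y₃ ≡ 2 [MOD A] := (hy₃2.of_dvd ⟨8 * M, by ring⟩).trans hy₂A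
  have eC : y₃ ≡ 3 [MOD C] := hy₃C
  set K : ℕ := 8 * M * A * C with hK
  have hKne : K ≠ 0 := by
    rw [hK]
    exact Nat.mul_ne_zero (Nat.mul_ne_zero (Nat.mul_ne_zero (by norm_num) hM) hA) hC
  have hcop : Nat.Coprime y₃ K := by
    rw [hK]
    refine Nat.Coprime.mul_right (Nat.Coprime.mul_right (Nat.Coprime.mul_right ?_ ?_) ?_) ?_
    · unfold Nat.Coprime; rw [e8.gcd_eq]; norm_num
    · unfold Nat.Coprime; rw [eM.gcd_eq]; exact hs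
    · unfold Nat.Coprime; rw [eA.gcd_eq]; exact hA2
    · unfold Nat.Coprime; rw [eC.gcd_eq]; exact hC3
  obtain ⟨r, hrB, hr, hrK⟩ := Nat.forall_exists_prime_gt_and_modEq B hKne hcop
  refine ⟨r, hr, hrB, ?_, ?_, ?_, ?_⟩
  · have h : r ≡ 7 [MOD 8] := (hrK.of_dvd ⟨M * A * C, by rw [hK]; ring⟩).trans e8
    exact h
  · exact (hrK.of_dvd ⟨8 * A * C, by rw [hK]; ring⟩).trans eM
  · exact (hrK.of_dvd ⟨8 * M * C, by rw [hK]; ring⟩).trans eA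
  · exact (hrK.of_dvd ⟨8 * M * A, by rw [hK]; ring⟩).trans eC

/-- **Arithmetic core of Claim D** (`q = 2`; Dirichlet twice + supplementary law + Euler).
The hypothesis `h3` is necessary. -/
theorem exists_two_primes_pow_two_eq_one (M : ℕ) (R : ℤ) (Φ B : ℕ) (hM : M ≠ 0)
    (hM2 : Nat.Coprime M 2) (hR : IsCoprime R (M : ℤ)) (hΦ : Φ ≠ 0)
    (h3 : 3 ∣ M → 3 ∣ Φ → R ≡ 1 [ZMOD 3]) :
    ∃ r₁ r₂ j : ℕ, r₁.Prime ∧ r₂.Prime ∧ r₁ ≠ r₂ ∧ B < r₁ ∧ B < r₂ ∧ r₁ % 8 = 7 ∧ r₂ % 8 = 7 ∧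
      ((r₁ * r₂ : ℕ) : ℤ) ≡ R [ZMOD (M : ℤ)] ∧ Odd j ∧ Nat.Coprime j Φ ∧
      Nat.Coprime j (2 * Φ) ∧ r₁ * r₂ ∣ 2 ^ j - 1 ∧ (2 : ZMod (r₁ * r₂)) ^ j = 1 := by
  classical
  -- the classes of odd primes dividing `Φ`
  set PAB : Finset ℕ :=
    Φ.primeFactors.filter (fun l => l ≠ 2 ∧ ¬ (l ∣ M ∧ (l : ℤ) ∣ R - 2)) with hPAB
  set PC : Finset ℕ :=
    Φ.primeFactors.filter (fun l => l ≠ 2 ∧ (l ∣ M ∧ (l : ℤ) ∣ R - 2)) with hPC
  set PA : Finset ℕ := Φ.primeFactors.filter (fun l => l ≠ 2 ∧ ¬ l ∣ M) with hPA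
  have memAB : ∀ l, l ∈ PAB ↔ (l.Prime ∧ l ∣ Φ) ∧ l ≠ 2 ∧ ¬ (l ∣ M ∧ (l : ℤ) ∣ R - 2) := by
    intro l
    rw [hPAB, Finset.mem_filter, Nat.mem_primeFactors]
    constructor
    · rintro ⟨⟨h1, h2, -⟩, h3⟩; exact ⟨⟨h1, h2⟩, h3⟩
    · rintro ⟨⟨h1, h2⟩, h3⟩; exact ⟨⟨h1, h2, hΦ⟩, h3⟩
  have memC : ∀ l, l ∈ PC ↔ (l.Prime ∧ l ∣ Φ) ∧ l ≠ 2 ∧ (l ∣ M ∧ (l : ℤ) ∣ R - 2) := by
    intro l
    rw [hPC, Finset.mem_filter, Nat.mem_primeFactors]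
    constructor
    · rintro ⟨⟨h1, h2, -⟩, h3⟩; exact ⟨⟨h1, h2⟩, h3⟩
    · rintro ⟨⟨h1, h2⟩, h3⟩; exact ⟨⟨h1, h2, hΦ⟩, h3⟩
  have memA : ∀ l, l ∈ PA ↔ (l.Prime ∧ l ∣ Φ) ∧ l ≠ 2 ∧ ¬ l ∣ M := by
    intro l
    rw [hPA, Finset.mem_filter, Nat.mem_primeFactors]
    constructor
    · rintro ⟨⟨h1, h2, -⟩, h3⟩; exact ⟨⟨h1, h2⟩, h3⟩
    · rintro ⟨⟨h1, h2⟩, h3⟩; exact ⟨⟨h1, h2, hΦ⟩, h3⟩
  -- `3 ∉ PC`
  have hC3' : ∀ l ∈ PC, l ≠ 3 := by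
    intro l hl h
    subst h
    obtain ⟨⟨-, h3Φ⟩, -, h3M, hR2⟩ := (memC 3).mp hl
    have h1 : ((3 : ℕ) : ℤ) ∣ 1 - R := by
      have := (Int.modEq_iff_dvd.mp (h3 h3M h3Φ))
      simpa using this
    have h2 : ((3 : ℕ) : ℤ) ∣ 1 := by
      have := dvd_add h1 hR2
      have e : (1 - R) + (R - 2) = -1 := by ring
      rw [e] at this
      exact (dvd_neg.mp this)
    have h3' : (3 : ℕ) ∣ 1 := by exact_mod_cast h2
    omega
  -- the three products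
  have hAB0 : (∏ l ∈ PAB, l) ≠ 0 :=
    Finset.prod_ne_zero_iff.mpr fun l hl => ((memAB l).mp hl).1.1.ne_zero
  have hC0 : (∏ l ∈ PC, l) ≠ 0 :=
    Finset.prod_ne_zero_iff.mpr fun l hl => ((memC l).mp hl).1.1.ne_zero
  have hA0 : (∏ l ∈ PA, l) ≠ 0 :=
    Finset.prod_ne_zero_iff.mpr fun l hl => ((memA l).mp hl).1.1.ne_zero
  have hAB8 : Nat.Coprime 8 (∏ l ∈ PAB, l) := Nat.Coprime.prod_right fun l hl =>
    coprime_eight_of_prime ((memAB l).mp hl).1.1 ((memAB l).mp hl).2.1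
  have hC8 : Nat.Coprime 8 (∏ l ∈ PC, l) := Nat.Coprime.prod_right fun l hl =>
    coprime_eight_of_prime ((memC l).mp hl).1.1 ((memC l).mp hl).2.1
  have hA8 : Nat.Coprime 8 (∏ l ∈ PA, l) := Nat.Coprime.prod_right fun l hl =>
    coprime_eight_of_prime ((memA l).mp hl).1.1 ((memA l).mp hl).2.1
  have hABC : Nat.Coprime (∏ l ∈ PAB, l) (∏ l ∈ PC, l) :=
    Nat.Coprime.prod_left fun l hl => Nat.Coprime.prod_right fun l' hl' => by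
      refine (Nat.coprime_primes ((memAB l).mp hl).1.1 ((memC l').mp hl').1.1).mpr ?_
      intro h
      subst h
      exact ((memAB l).mp hl).2.2 ((memC l).mp hl').2.2
  have hC3 : Nat.Coprime 3 (∏ l ∈ PC, l) := Nat.Coprime.prod_right fun l hl =>
    (Nat.coprime_primes Nat.prime_three ((memC l).mp hl).1.1).mpr (Ne.symm (hC3' l hl))
  have hM8 : Nat.Coprime 8 M := by
    have : (8 : ℕ) = 2 ^ 3 := by norm_num
    rw [this]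
    exact Nat.Coprime.pow_left 3 hM2.symm
  have hMA : Nat.Coprime M (∏ l ∈ PA, l) := Nat.Coprime.prod_right fun l hl =>
    (((memA l).mp hl).1.1.coprime_iff_not_dvd.mpr ((memA l).mp hl).2.2).symm
  -- the first prime
  obtain ⟨r₁, hr₁, hr₁B, hr₁8, -, hr₁AB, hr₁C⟩ := exists_prime_crt 1 (∏ l ∈ PAB, l) (∏ l ∈ PC, l)
    0 (max B M) one_ne_zero hAB0 hC0 (Nat.coprime_one_right 8) hAB8 hC8 (Nat.coprime_one_left _)
    (Nat.coprime_one_left _) hABC (Nat.coprime_one_right 0) hC3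
  have hr₁M : Nat.Coprime r₁ M := by
    refine hr₁.coprime_iff_not_dvd.mpr fun h => ?_
    have h1 := Nat.le_of_dvd (Nat.pos_of_ne_zero hM) h
    have h2 := lt_of_le_of_lt (le_max_right B M) hr₁B
    omega
  obtain ⟨u, v, huv⟩ := Nat.isCoprime_iff_coprime.mpr hr₁M
  have hS₂ : IsCoprime (R * u) (M : ℤ) :=
    IsCoprime.mul_left hR ⟨(r₁ : ℤ), v, by linear_combination huv⟩
  obtain ⟨s₂, hs₂mod, hs₂cop⟩ := exists_nat_rep M hM (R * u) hS₂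
  -- the second prime
  obtain ⟨r₂, hr₂, hr₂B, hr₂8, hr₂M, hr₂A, -⟩ := exists_prime_crt M (∏ l ∈ PA, l) 1 s₂ (max B r₁)
    hM hA0 one_ne_zero hM8 hA8 (Nat.coprime_one_right 8) hMA (Nat.coprime_one_right M)
    (Nat.coprime_one_right _) hs₂cop (Nat.coprime_one_right 3)
  -- the product congruence
  have hprod : (M : ℤ) ∣ (r₁ : ℤ) * (r₂ : ℤ) - R := by
    have h1 : ((r₂ : ℕ) : ℤ) ≡ R * u [ZMOD (M : ℤ)] :=
      (Int.natCast_modEq_iff.mpr hr₂M).trans hs₂mod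
    obtain ⟨t, ht⟩ := Int.modEq_iff_dvd.mp h1
    exact ⟨-(r₁ : ℤ) * t - R * v, by linear_combination (-(r₁ : ℤ)) * ht + R * huv⟩
  -- no odd prime divisor of `Φ` divides `(r₁ - 1)(r₂ - 1)`
  have hone : ∀ l : ℕ, l.Prime → ¬ ((l : ℤ) ∣ 1) := by
    intro l hl h
    have : l ∣ 1 := by exact_mod_cast h
    exact hl.one_lt.ne' (Nat.dvd_one.mp this)
  have hkey : ∀ l : ℕ, l.Prime → l ∣ Φ → l ≠ 2 →
      ¬ ((l : ℤ) ∣ (r₁ : ℤ) - 1) ∧ ¬ ((l : ℤ) ∣ (r₂ : ℤ) - 1) := by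
    intro l hl hlΦ hl2
    by_cases hc : l ∣ M ∧ (l : ℤ) ∣ R - 2
    · have hmem : l ∈ PC := (memC l).mpr ⟨⟨hl, hlΦ⟩, hl2, hc⟩
      have h1 : r₁ ≡ 3 [MOD l] := hr₁C.of_dvd (Finset.dvd_prod_of_mem _ hmem)
      obtain ⟨b, hb⟩ := (Nat.modEq_iff_dvd.mp h1)
      obtain ⟨a, ha⟩ := dvd_trans (Int.natCast_dvd_natCast.mpr hc.1) hprod
      obtain ⟨d, hd⟩ := hc.2
      push_cast at hb
      constructor
      · rintro ⟨c, hc'⟩
        have h2 : (l : ℤ) ∣ 2 := ⟨b + c, by linear_combination hb + hc'⟩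
        have h2' : l ∣ 2 := by exact_mod_cast h2
        exact hl2 ((Nat.prime_dvd_prime_iff_eq hl Nat.prime_two).mp h2')
      · rintro ⟨c, hc'⟩
        exact hone l hl ⟨a + b * r₂ - 3 * c + d, by
          linear_combination ha + (r₂ : ℤ) * hb - 3 * hc' + hd⟩
    · have hmem : l ∈ PAB := (memAB l).mpr ⟨⟨hl, hlΦ⟩, hl2, hc⟩
      have h1 : r₁ ≡ 2 [MOD l] := hr₁AB.of_dvd (Finset.dvd_prod_of_mem _ hmem)
      obtain ⟨b, hb⟩ := (Nat.modEq_iff_dvd.mp h1)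
      push_cast at hb
      constructor
      · rintro ⟨c, hc'⟩
        exact hone l hl ⟨b + c, by linear_combination hb + hc'⟩
      · rintro ⟨c, hc'⟩
        by_cases hlM : l ∣ M
        · obtain ⟨a, ha⟩ := dvd_trans (Int.natCast_dvd_natCast.mpr hlM) hprod
          exact hc ⟨hlM, ⟨-a - b * r₂ + 2 * c, by
            linear_combination -ha - (r₂ : ℤ) * hb + 2 * hc'⟩⟩
        · have hmemA : l ∈ PA := (memA l).mpr ⟨⟨hl, hlΦ⟩, hl2, hlM⟩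
          have h2 : r₂ ≡ 2 [MOD l] := hr₂A.of_dvd (Finset.dvd_prod_of_mem _ hmemA)
          obtain ⟨b', hb'⟩ := (Nat.modEq_iff_dvd.mp h2)
          push_cast at hb'
          exact hone l hl ⟨b' + c, by linear_combination hb' + hc'⟩
  -- the exponent
  have hodd₁ : (r₁ / 2) % 2 = 1 := by omega
  have hodd₂ : (r₂ / 2) % 2 = 1 := by omega
  have hr₁eq : (r₁ : ℤ) - 1 = 2 * ((r₁ / 2 : ℕ) : ℤ) := by
    have : r₁ = 2 * (r₁ / 2) + 1 := by omega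
    push_cast
    omega
  have hr₂eq : (r₂ : ℤ) - 1 = 2 * ((r₂ / 2 : ℕ) : ℤ) := by
    have : r₂ = 2 * (r₂ / 2) + 1 := by omega
    push_cast
    omega
  have hcop₁ : Nat.Coprime (r₁ / 2) Φ := by
    refine Nat.coprime_of_dvd fun l hl hl1 hlΦ => ?_
    by_cases hl2 : l = 2
    · subst hl2; omega
    · refine (hkey l hl hlΦ hl2).1 ?_
      obtain ⟨t, ht⟩ := hl1
      refine ⟨2 * t, ?_⟩
      rw [hr₁eq, ht]
      push_cast
      ring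
  have hcop₂ : Nat.Coprime (r₂ / 2) Φ := by
    refine Nat.coprime_of_dvd fun l hl hl1 hlΦ => ?_
    by_cases hl2 : l = 2
    · subst hl2; omega
    · refine (hkey l hl hlΦ hl2).2 ?_
      obtain ⟨t, ht⟩ := hl1
      refine ⟨2 * t, ?_⟩
      rw [hr₂eq, ht]
      push_cast
      ring
  have hjodd : Odd ((r₁ / 2) * (r₂ / 2)) :=
    (Nat.odd_iff.mpr hodd₁).mul (Nat.odd_iff.mpr hodd₂)
  have hjΦ : Nat.Coprime ((r₁ / 2) * (r₂ / 2)) Φ := Nat.Coprime.mul_left hcop₁ hcop₂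
  have hne : r₁ ≠ r₂ := by
    have := lt_of_le_of_lt (le_max_right B r₁) hr₂B
    omega
  have hdvd : r₁ * r₂ ∣ 2 ^ ((r₁ / 2) * (r₂ / 2)) - 1 :=
    Nat.Coprime.mul_dvd_of_dvd_of_dvd ((Nat.coprime_primes hr₁ hr₂).mpr hne)
      (dvd_two_pow_sub_one hr₁ hr₁8 ⟨r₂ / 2, rfl⟩)
      (dvd_two_pow_sub_one hr₂ hr₂8 ⟨r₁ / 2, mul_comm _ _⟩)
  refine ⟨r₁, r₂, (r₁ / 2) * (r₂ / 2), hr₁, hr₂, hne,
    lt_of_le_of_lt (le_max_left B M) hr₁B, lt_of_le_of_lt (le_max_left B r₁) hr₂B, hr₁8, hr₂8,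
    ?_, hjodd, hjΦ, Nat.Coprime.mul_right (Nat.coprime_two_right.mpr hjodd) hjΦ, hdvd, ?_⟩
  · rw [Int.modEq_iff_dvd]
    obtain ⟨t, ht⟩ := hprod
    refine ⟨-t, ?_⟩
    push_cast
    linear_combination -ht
  · have h0 := (ZMod.natCast_eq_zero_iff _ _).mpr hdvd
    rw [Nat.cast_sub Nat.one_le_two_pow] at h0
    push_cast at h0
    exact sub_eq_zero.mp h0

end Fermat.Agent.LR.CSPArithD
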