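import Mathlib
import Fermat.Agent.LR.CSPArithD

/-!
# Program M, node D2, case `q = 2`: the arithmetic of Claim D in "selector" form

* `exists_modEq_dvd_two_pow_sub_one` : for an odd modulus `M`, a residue `R` prime to `M` and any
  `Φ ≠ 0` there is `π ≡ R (mod M)` (a product of two or three primes `≡ 7 (mod 8)`) and an odd `j`
  prime to `2 Φ` with `π ∣ 2 ^ j - 1`. NO hypothesis at the prime `3`: when `3 ∣ gcd(M, Φ)` and
  `R ≡ 2 (mod 3)` a third prime `r₀ ≡ 2 (mod 3)` is used.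
* `harith_two` : the per-prime form (two primes, `¬ l ∣ j`) of the arithmetic hypothesis of the
  generic "TC / Claim D" group argument, for `q = 2`, `i = 1`.
-/

set_option autoImplicit false

namespace Fermat.Agent.LR.CSPArithD2

open Nat Fermat.Agent.LR.CSPArithD

/-- per-prime form (helper17's `harith` for `q = 2`, `i = 1`). -/
theorem harith_two (m : ℕ) (M : ℕ) (R : ℤ) (l : ℕ) (hM : M ≠ 0) (hM2 : Nat.Coprime 2 M)
    (_hmM : m ∣ M) (hR : IsCoprime R (M : ℤ)) (hRm : R ≡ 1 [ZMOD (m : ℤ)]) (hl : l.Prime)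
    (hlM : l ∣ M → l ∣ m) :
    ∃ r1 r2 j : ℕ, r1.Prime ∧ r2.Prime ∧ ((r1 * r2 : ℕ) : ℤ) ≡ R [ZMOD (M : ℤ)] ∧ ¬ l ∣ j ∧
      r1 * r2 ∣ 2 ^ (1 * j) - 1 := by
  have h3 : 3 ∣ M → 3 ∣ l → R ≡ 1 [ZMOD 3] := by
    intro h3M h3l
    have hl3 : l = 3 := ((Nat.prime_dvd_prime_iff_eq Nat.prime_three hl).mp h3l).symm
    subst hl3
    have h3m : (3 : ℕ) ∣ m := hlM h3M
    have : ((3 : ℕ) : ℤ) ∣ (m : ℤ) := Int.natCast_dvd_natCast.mpr h3m
    exact hRm.of_dvd (by simpa using this)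
  obtain ⟨r₁, r₂, j, hr₁, hr₂, -, -, -, -, -, hmod, -, hjl, -, hdvd, -⟩ :=
    exists_two_primes_pow_two_eq_one M R l 0 hM hM2.symm hR hl.ne_zero h3
  refine ⟨r₁, r₂, j, hr₁, hr₂, hmod, ?_, by rwa [one_mul]⟩
  intro hlj
  have := Nat.dvd_gcd hlj (dvd_refl l)
  rw [hjl] at this
  exact hl.one_lt.ne' (Nat.dvd_one.mp this)

/-- **Unconditional selector for Claim D** (`q = 2`): `π ≡ R (mod M)`, `j` odd and prime to `2 Φ`,
`π ∣ 2 ^ j - 1`. -/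
theorem exists_modEq_dvd_two_pow_sub_one (M : ℕ) (R : ℤ) (Φ : ℕ) (hM : M ≠ 0)
    (hM2 : Nat.Coprime M 2) (hR : IsCoprime R (M : ℤ)) (hΦ : Φ ≠ 0) :
    ∃ π j : ℕ, ((π : ℕ) : ℤ) ≡ R [ZMOD (M : ℤ)] ∧ Odd j ∧ Nat.Coprime j (2 * Φ) ∧
      π ∣ 2 ^ j - 1 ∧ (2 : ZMod π) ^ j = 1 := by
  classical
  by_cases h3 : 3 ∣ M → 3 ∣ Φ → R ≡ 1 [ZMOD 3]
  · obtain ⟨r₁, r₂, j, -, -, -, -, -, -, -, hmod, hodd, -, hj, hdvd, hz⟩ :=
      exists_two_primes_pow_two_eq_one M R Φ 0 hM hM2 hR hΦ h3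
    exact ⟨r₁ * r₂, j, hmod, hodd, hj, hdvd, hz⟩
  · have h3M : 3 ∣ M := by
      by_contra h; exact h3 fun h' => absurd h' h
    have h3Φ : 3 ∣ Φ := by
      by_contra h; exact h3 fun _ h' => absurd h' h
    have hR1 : ¬ R ≡ 1 [ZMOD 3] := fun h => h3 fun _ _ => h
    have h3Mz : (3 : ℤ) ∣ (M : ℤ) := by exact_mod_cast Int.natCast_dvd_natCast.mpr h3M
    -- `R ≡ 2 (mod 3)`
    have hR2 : (3 : ℤ) ∣ R - 2 := by
      have hcases : R % 3 = 0 ∨ R % 3 = 1 ∨ R % 3 = 2 := by omega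
      rcases hcases with h | h | h
      · exfalso
        obtain ⟨a, b, hab⟩ := hR
        have h3R : (3 : ℤ) ∣ R := Int.dvd_of_emod_eq_zero h
        have : (3 : ℤ) ∣ a * R + b * (M : ℤ) :=
          dvd_add (dvd_mul_of_dvd_right h3R a) (dvd_mul_of_dvd_right h3Mz b)
        rw [hab] at this
        omega
      · exact absurd (show R ≡ 1 [ZMOD 3] from h) hR1
      · omega
    -- the odd primes dividing `Φ`
    set PO : Finset ℕ := Φ.primeFactors.filter (fun l => l ≠ 2) with hPO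
    have memO : ∀ l, l ∈ PO ↔ (l.Prime ∧ l ∣ Φ) ∧ l ≠ 2 := by
      intro l
      rw [hPO, Finset.mem_filter, Nat.mem_primeFactors]
      constructor
      · rintro ⟨⟨h1, h2, -⟩, h3⟩; exact ⟨⟨h1, h2⟩, h3⟩
      · rintro ⟨⟨h1, h2⟩, h3⟩; exact ⟨⟨h1, h2, hΦ⟩, h3⟩
    have hO0 : (∏ l ∈ PO, l) ≠ 0 :=
      Finset.prod_ne_zero_iff.mpr fun l hl => ((memO l).mp hl).1.1.ne_zero
    have hO8 : Nat.Coprime 8 (∏ l ∈ PO, l) := Nat.Coprime.prod_right fun l hl =>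
      coprime_eight_of_prime ((memO l).mp hl).1.1 ((memO l).mp hl).2
    obtain ⟨r₀, hr₀, hr₀B, hr₀8, -, hr₀O, -⟩ := exists_prime_crt 1 (∏ l ∈ PO, l) 1 0 M
      one_ne_zero hO0 one_ne_zero (Nat.coprime_one_right 8) hO8 (Nat.coprime_one_right 8)
      (Nat.coprime_one_left _) (Nat.coprime_one_left _) (Nat.coprime_one_right _)
      (Nat.coprime_one_right 0) (Nat.coprime_one_right 3)
    have hr₀l : ∀ l : ℕ, l.Prime → l ∣ Φ → l ≠ 2 → (l : ℤ) ∣ 2 - (r₀ : ℤ) := by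
      intro l hl hlΦ hl2
      have hmem : l ∈ PO := (memO l).mpr ⟨⟨hl, hlΦ⟩, hl2⟩
      have h1 : r₀ ≡ 2 [MOD l] := hr₀O.of_dvd (Finset.dvd_prod_of_mem _ hmem)
      have := Nat.modEq_iff_dvd.mp h1
      push_cast at this
      exact this
    have hr₀M : Nat.Coprime r₀ M := by
      refine hr₀.coprime_iff_not_dvd.mpr fun h => ?_
      have h1 := Nat.le_of_dvd (Nat.pos_of_ne_zero hM) h
      omega
    obtain ⟨u, v, huv⟩ := Nat.isCoprime_iff_coprime.mpr hr₀M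
    have hR' : IsCoprime (R * u) (M : ℤ) :=
      IsCoprime.mul_left hR ⟨(r₀ : ℤ), v, by linear_combination huv⟩
    -- `R u ≡ 1 (mod 3)`
    have hR'3 : R * u ≡ 1 [ZMOD 3] := by
      obtain ⟨a, ha⟩ := h3Mz
      obtain ⟨b, hb⟩ := hr₀l 3 Nat.prime_three h3Φ (by norm_num)
      obtain ⟨c, hc⟩ := hR2
      push_cast at hb
      rw [Int.modEq_iff_dvd]
      refine ⟨-b * u + a * v - c * u, ?_⟩
      linear_combination -huv - u * hb + v * ha - u * hc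
    obtain ⟨r₁, r₂, j, hr₁, hr₂, -, hr₁B, hr₂B, -, -, hmod, hodd, hjΦ, -, hdvd, -⟩ :=
      exists_two_primes_pow_two_eq_one M (R * u) Φ r₀ hM hM2 hR' hΦ (fun _ _ => hR'3)
    have hodd₀ : (r₀ / 2) % 2 = 1 := by omega
    have hcop₀ : Nat.Coprime (r₀ / 2) Φ := by
      refine Nat.coprime_of_dvd fun l hl hl1 hlΦ => ?_
      by_cases hl2 : l = 2
      · subst hl2; omega
      · obtain ⟨t, ht⟩ := hl1
        obtain ⟨b, hb⟩ := hr₀l l hl hlΦ hl2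
        have hr₀eq : (r₀ : ℤ) - 1 = 2 * ((r₀ / 2 : ℕ) : ℤ) := by
          have : r₀ = 2 * (r₀ / 2) + 1 := by omega
          push_cast
          omega
        have h1 : (l : ℤ) ∣ 1 := by
          refine ⟨b + 2 * t, ?_⟩
          rw [ht] at hr₀eq
          push_cast at hr₀eq
          linear_combination hb + hr₀eq
        have : l ∣ 1 := by exact_mod_cast h1
        exact hl.one_lt.ne' (Nat.dvd_one.mp this)
    have hj'odd : Odd ((r₀ / 2) * j) := (Nat.odd_iff.mpr hodd₀).mul hodd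
    have hj'Φ : Nat.Coprime ((r₀ / 2) * j) Φ := Nat.Coprime.mul_left hcop₀ hjΦ
    have hd₀ : r₀ ∣ 2 ^ ((r₀ / 2) * j) - 1 := dvd_two_pow_sub_one hr₀ hr₀8 ⟨j, rfl⟩
    have hd₁₂ : r₁ * r₂ ∣ 2 ^ ((r₀ / 2) * j) - 1 := by
      refine dvd_trans hdvd ?_
      exact Nat.pow_sub_one_dvd_pow_sub_one 2 ⟨r₀ / 2, mul_comm _ _⟩
    have hcop : Nat.Coprime r₀ (r₁ * r₂) :=
      Nat.Coprime.mul_right ((Nat.coprime_primes hr₀ hr₁).mpr (by omega))
        ((Nat.coprime_primes hr₀ hr₂).mpr (by omega))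
    have hdvd' : r₀ * (r₁ * r₂) ∣ 2 ^ ((r₀ / 2) * j) - 1 :=
      Nat.Coprime.mul_dvd_of_dvd_of_dvd hcop hd₀ hd₁₂
    refine ⟨r₀ * (r₁ * r₂), (r₀ / 2) * j, ?_, hj'odd,
      Nat.Coprime.mul_right (Nat.coprime_two_right.mpr hj'odd) hj'Φ, hdvd', ?_⟩
    · obtain ⟨t, ht⟩ := Int.modEq_iff_dvd.mp hmod
      rw [Int.modEq_iff_dvd]
      refine ⟨(r₀ : ℤ) * t + R * v, ?_⟩
      push_cast at ht ⊢
      linear_combination (r₀ : ℤ) * ht - R * huv
    · have h0 := (ZMod.natCast_eq_zero_iff _ _).mpr hdvd'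
      rw [Nat.cast_sub Nat.one_le_two_pow] at h0
      push_cast at h0
      exact sub_eq_zero.mp h0

end Fermat.Agent.LR.CSPArithD2
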