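import Mathlib
import Fermat.Agent.LR.CSPArith

/-!
# Program M, node D2, even levels: the arithmetic core of Claim J for an arbitrary modulus

Generalisation of `CSPArith.exists_prime_modEq_pow_eq_neg_one` to a modulus `M` prime to `q`
which may be even: the prescribed residue `R` must then be `≡ 1` modulo `gcd M (4 * 2 ^ e)`,
where `2 ^ e * Φo` (`Φo` odd) is the exponent that `k` has to be divisible by.
-/

namespace Fermat.Agent.LR.CSPArithEven

open Nat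
open Fermat.Agent.LR.CSPArith

/-- **Arithmetic core of Claim J, arbitrary modulus prime to `q`.** -/
theorem exists_prime_modEq_pow_eq_neg_one_gen (q : ℕ) (hq : q.Prime) (hq2 : q ≠ 2)
    (M : ℕ) (R : ℤ) (e Φo B : ℕ) (hM : M ≠ 0) (hMq : Nat.Coprime M q)
    (hR : IsCoprime R (M : ℤ)) (hΦo_odd : Odd Φo)
    (hR1 : R ≡ 1 [ZMOD ((Nat.gcd M (4 * 2 ^ e) : ℕ) : ℤ)]) :
    ∃ π k : ℕ, π.Prime ∧ B < π ∧ (π : ℤ) ≡ R [ZMOD (M : ℤ)] ∧ 2 ^ e * Φo ∣ k ∧
      ((q : ZMod π)) ^ (2 * k) = -1 := by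
  have hqF : Fact q.Prime := ⟨hq⟩
  obtain ⟨n₀, hn₀q, hn₀⟩ := exists_nat_nonresidue (q := q) hq2
  -- the residue `R` as a natural number
  set R₀ : ℕ := (R % (M : ℤ)).toNat with hR₀
  have hMpos : (0 : ℤ) < (M : ℤ) := by exact_mod_cast Nat.pos_of_ne_zero hM
  have hR₀cast : ((R₀ : ℕ) : ℤ) = R % (M : ℤ) :=
    Int.toNat_of_nonneg (Int.emod_nonneg _ hMpos.ne')
  have hR₀mod : ((R₀ : ℕ) : ℤ) ≡ R [ZMOD (M : ℤ)] := by
    rw [hR₀cast]; exact Int.mod_modEq _ _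
  have hR₀cop : Nat.Coprime R₀ M := by
    have h1 : IsCoprime ((R₀ : ℕ) : ℤ) (M : ℤ) := by
      rw [hR₀cast]
      obtain ⟨u, v, huv⟩ := hR
      refine ⟨u, v + u * (R / (M : ℤ)), ?_⟩
      have hdiv : R % (M : ℤ) = R - (M : ℤ) * (R / (M : ℤ)) := by
        have := Int.emod_add_mul_ediv R (M : ℤ); linarith
      rw [hdiv]; linear_combination huv
    exact Nat.isCoprime_iff_coprime.mp h1
  -- moduli
  set T : ℕ := 4 * 2 ^ e with hT
  have hTpos : T ≠ 0 := by positivity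
  have hTq : Nat.Coprime T q := by
    have : T = 2 ^ (e + 2) := by rw [hT, pow_add]; ring
    rw [this]
    apply Nat.Coprime.pow_left
    rw [Nat.coprime_comm, hq.coprime_iff_not_dvd]
    intro h
    exact hq2 ((Nat.prime_dvd_prime_iff_eq hq Nat.prime_two).mp h)
  have hMTq : Nat.Coprime (M * T) q := Nat.Coprime.mul_left hMq hTq
  -- Chinese remainder theorem
  have hR₀one : R₀ ≡ 1 [MOD Nat.gcd M T] := by
    have h1 : ((R₀ : ℕ) : ℤ) ≡ 1 [ZMOD ((Nat.gcd M T : ℕ) : ℤ)] :=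
      (hR₀mod.of_dvd (by exact_mod_cast Nat.gcd_dvd_left M T)).trans hR1
    exact_mod_cast (Int.natCast_modEq_iff (a := R₀) (b := 1)).mp (by exact_mod_cast h1)
  obtain ⟨r₁, hr₁M, hr₁T⟩ := Nat.chineseRemainder' hR₀one
  obtain ⟨r, hrMT, hrq⟩ := Nat.chineseRemainder hMTq r₁ n₀
  have hrM : r ≡ R₀ [MOD M] := (hrMT.of_mul_right T).trans hr₁M
  have hrT : r ≡ 1 [MOD T] := (hrMT.of_mul_left M).trans hr₁T
  set L : ℕ := M * T * q with hL
  have hLne : L ≠ 0 := by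
    rw [hL]; exact Nat.mul_ne_zero (Nat.mul_ne_zero hM hTpos) hq.ne_zero
  have hrL : Nat.Coprime r L := by
    rw [hL]
    refine Nat.Coprime.mul_right (Nat.Coprime.mul_right ?_ ?_) ?_
    · unfold Nat.Coprime; rw [hrM.gcd_eq]; exact hR₀cop
    · unfold Nat.Coprime; rw [hrT.gcd_eq]; exact Nat.gcd_one_left _
    · unfold Nat.Coprime; rw [hrq.gcd_eq]; exact hn₀q
  -- Dirichlet
  obtain ⟨π, hπgt, hπ, hπr⟩ := Nat.forall_exists_prime_gt_and_zmodEq (max B 2) hLne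
    (Nat.isCoprime_iff_coprime.mpr hrL)
  have hπF : Fact π.Prime := ⟨hπ⟩
  have hπrN : π ≡ r [MOD L] := Int.natCast_modEq_iff.mp hπr
  have hπM : π ≡ R₀ [MOD M] := by
    have : π ≡ r [MOD M] := by
      apply hπrN.of_dvd; rw [hL]; exact ⟨T * q, by ring⟩
    exact this.trans hrM
  have hπT : π ≡ 1 [MOD T] := by
    have : π ≡ r [MOD T] := by
      apply hπrN.of_dvd; rw [hL]; exact ⟨M * q, by ring⟩
    exact this.trans hrT
  have hπq : π ≡ n₀ [MOD q] := by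
    have : π ≡ r [MOD q] := by
      apply hπrN.of_dvd; rw [hL]; exact Dvd.intro_left _ rfl
    exact this.trans hrq
  -- shape of π
  have hTdvd : T ∣ π - 1 := (Nat.modEq_iff_dvd' hπ.one_le).mp hπT.symm
  obtain ⟨t, ht⟩ := hTdvd
  have hπeq : π = 4 * 2 ^ e * t + 1 := by
    have := hπ.one_le
    rw [hT] at ht; omega
  have hxx : 4 * 2 ^ e * t = 4 * (2 ^ e * t) := by ring
  have hyy : 2 * 2 ^ e * t = 2 * (2 ^ e * t) := by ring
  have hπ4 : π % 4 = 1 := by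
    rw [hπeq, hxx]; omega
  have hπhalf : π / 2 = 2 * 2 ^ e * t := by
    rw [hπeq, hxx, hyy]; omega
  -- Legendre symbols
  have hleg1 : legendreSym q π = -1 := by
    rw [legendreSym.eq_neg_one_iff]
    have : (((π : ℕ) : ℤ) : ZMod q) = (((n₀ : ℕ) : ℤ) : ZMod q) := by
      rw [Int.cast_natCast, Int.cast_natCast]
      exact (ZMod.natCast_eq_natCast_iff π n₀ q).mpr hπq
    rw [this]; exact hn₀
  have hleg2 : legendreSym π q = -1 := by
    rw [← legendreSym.quadratic_reciprocity_one_mod_four hπ4 hq2]; exact hleg1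
  have hEuler : ((q : ℕ) : ZMod π) ^ (π / 2) = -1 := by
    have h := legendreSym.eq_pow π (q : ℤ)
    rw [hleg2] at h
    simpa using h.symm
  -- the exponent
  refine ⟨π, 2 ^ e * t * Φo, hπ, lt_of_le_of_lt (le_max_left _ _) hπgt, ?_, ?_, ?_⟩
  · exact (Int.natCast_modEq_iff.mpr hπM).trans hR₀mod
  · exact ⟨t, by ring⟩
  · have : 2 * (2 ^ e * t * Φo) = (π / 2) * Φo := by rw [hπhalf]; ring
    rw [this, pow_mul, hEuler, hΦo_odd.neg_one_pow]

end Fermat.Agent.LR.CSPArithEven
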