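import Mathlib

/-!
# Program M, node D2, the case `q = 2`: arithmetic of the two Dirichlet families

For `A = ℤ[1/2]` the element `-1` is replaced by the two units `-4 ^ k` and `-2 ^ k`:

* `exists_prime_four_pow_eq_neg_one` : primes `π ≡ 5 (mod 8)`, `π ≡ R (mod M)`, and an odd `k`
  in the fixed class `k ≡ Φo (mod 2 ^ (e+1) * Φo)` with `2 ^ (2 k) = -1` in `ZMod π`;
* `exists_prime_two_pow_eq_neg_one` : primes `π ≡ 3 (mod 8)`, `π ≡ R (mod M)`, and an odd `k`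
  in the same class with `2 ^ k = -1` in `ZMod π`;
* `bezout_four_pow_two_pow` : `4 ^ κ + 1` and `2 ^ κ + 1` are coprime (explicit Bézout relation).
-/

namespace Fermat.Agent.LR.CSPArithTwo

/-- Dirichlet: a prime in a prescribed class modulo an odd `M` and modulo `8`. -/
theorem exists_prime_modEq_mod_eight (M : ℕ) (R : ℤ) (ρ B : ℕ) (hM : M ≠ 0)
    (hM2 : Nat.Coprime M 2) (hR : IsCoprime R (M : ℤ)) (hρ : Odd ρ) (hρ8 : ρ < 8) :
    ∃ π : ℕ, π.Prime ∧ B < π ∧ (π : ℤ) ≡ R [ZMOD (M : ℤ)] ∧ π % 8 = ρ := by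
  have hM8 : IsCoprime (M : ℤ) 8 := by
    have h2 : IsCoprime (M : ℤ) 2 := by
      have := Nat.isCoprime_iff_coprime.mpr hM2
      simpa using this
    have : (8 : ℤ) = 2 * (2 * 2) := by norm_num
    rw [this]; exact h2.mul_right (h2.mul_right h2)
  obtain ⟨u, v, huv⟩ := hM8
  have hρ8c : IsCoprime (ρ : ℤ) 8 := by
    have : Nat.Coprime ρ 8 := by
      obtain ⟨j, hj⟩ := hρ
      have hj4 : j < 4 := by omega
      interval_cases j <;> simp [hj] <;> decide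
    have := Nat.isCoprime_iff_coprime.mpr this
    simpa using this
  set τ : ℤ := R + (M : ℤ) * (u * ((ρ : ℤ) - R)) with hτ
  have hτ8 : τ = (ρ : ℤ) + 8 * (v * (R - (ρ : ℤ))) := by
    rw [hτ]; linear_combination ((ρ : ℤ) - R) * huv
  have hτM : IsCoprime τ (M : ℤ) := by
    obtain ⟨s, t, hst⟩ := hR
    refine ⟨s, t - s * (u * ((ρ : ℤ) - R)), ?_⟩
    rw [hτ]; linear_combination hst
  have hτ8c : IsCoprime τ 8 := by
    obtain ⟨s, t, hst⟩ := hρ8c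
    refine ⟨s, t - s * (v * (R - (ρ : ℤ))), ?_⟩
    rw [hτ8]; linear_combination hst
  set L : ℕ := M * 8 with hL
  have hLne : L ≠ 0 := by rw [hL]; exact Nat.mul_ne_zero hM (by norm_num)
  have hτL : IsCoprime τ (L : ℤ) := by
    rw [hL]; push_cast; exact hτM.mul_right hτ8c
  obtain ⟨π, hπgt, hπ, hπτ⟩ := Nat.forall_exists_prime_gt_and_zmodEq B hLne hτL
  refine ⟨π, hπ, hπgt, ?_, ?_⟩
  · have h1 : (π : ℤ) ≡ τ [ZMOD (M : ℤ)] := hπτ.of_dvd (by rw [hL]; push_cast; exact Dvd.intro _ rfl)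
    refine h1.trans ?_
    rw [hτ]
    exact Int.modEq_iff_dvd.mpr ⟨-(u * ((ρ : ℤ) - R)), by ring⟩
  · have h1 : (π : ℤ) ≡ τ [ZMOD 8] := hπτ.of_dvd (by rw [hL]; push_cast; exact Dvd.intro_left _ rfl)
    have h2 : (π : ℤ) ≡ (ρ : ℤ) [ZMOD 8] := by
      refine h1.trans ?_
      rw [hτ8]
      exact Int.modEq_iff_dvd.mpr ⟨-(v * (R - (ρ : ℤ))), by ring⟩
    have h3 : π ≡ ρ [MOD 8] := by exact_mod_cast (Int.natCast_modEq_iff (a := π) (b := ρ) (n := 8)).mp (by exact_mod_cast h2)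
    unfold Nat.ModEq at h3
    rw [h3]; exact Nat.mod_eq_of_lt hρ8

/-- For odd `t` there is an odd `j` with `t * j ≡ Φo (mod 2 ^ (e+1) * Φo)`. -/
theorem exists_odd_mul_modEq (t e Φo : ℕ) (ht : Odd t) (hΦo : Odd Φo) :
    ∃ j : ℕ, Odd j ∧ t * j ≡ Φo [MOD 2 ^ (e + 1) * Φo] := by
  have hcop : Nat.Coprime t (2 ^ (e + 1)) :=
    Nat.Coprime.pow_right _ ht.coprime_two_right
  have h1 : 1 < 2 ^ (e + 1) := Nat.one_lt_two_pow (by omega)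
  obtain ⟨j', -, hj'⟩ := Nat.exists_mul_mod_eq_one_of_coprime hcop h1
  have hmod : t * j' ≡ 1 [MOD 2 ^ (e + 1)] := by
    unfold Nat.ModEq; rw [hj', Nat.mod_eq_of_lt h1]
  have hj'odd : Odd j' := by
    have h2 : t * j' ≡ 1 [MOD 2] := hmod.of_dvd (dvd_pow_self 2 (by omega))
    have : Odd (t * j') := by
      rw [Nat.odd_iff]; exact h2
    exact (Nat.odd_mul.mp this).2
  refine ⟨j' * Φo, hj'odd.mul hΦo, ?_⟩
  have := Nat.ModEq.mul_right' Φo hmod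
  rw [one_mul] at this
  rw [← mul_assoc]; exact this

/-- Euler's criterion for `2` at a prime `π ≡ 3, 5 (mod 8)`. -/
theorem two_pow_half_eq_neg_one {π : ℕ} [Fact π.Prime] (h : π % 8 = 3 ∨ π % 8 = 5) :
    (2 : ZMod π) ^ (π / 2) = -1 := by
  have hπ2 : π ≠ 2 := by rintro rfl; omega
  have hns : ¬ IsSquare (2 : ZMod π) := by
    rw [ZMod.exists_sq_eq_two_iff hπ2]; omega
  have hleg : legendreSym π 2 = -1 := by
    rw [legendreSym.eq_neg_one_iff]; simpa using hns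
  have := legendreSym.eq_pow π 2
  rw [hleg] at this
  simpa using this.symm

/-- **Family 1** (`π ≡ 5 (mod 8)`): `4 ^ k = -1` in `ZMod π` with `k` odd in a fixed class. -/
theorem exists_prime_four_pow_eq_neg_one (M : ℕ) (R : ℤ) (e Φo B : ℕ) (hM : M ≠ 0)
    (hM2 : Nat.Coprime M 2) (hR : IsCoprime R (M : ℤ)) (hΦo : Odd Φo) :
    ∃ π k : ℕ, π.Prime ∧ B < π ∧ (π : ℤ) ≡ R [ZMOD (M : ℤ)] ∧
      k ≡ Φo [MOD 2 ^ (e + 1) * Φo] ∧ Odd k ∧ (2 : ZMod π) ^ (2 * k) = -1 := by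
  obtain ⟨π, hπ, hπB, hπR, hπ8⟩ :=
    exists_prime_modEq_mod_eight M R 5 B hM hM2 hR (by decide) (by norm_num)
  have hπF : Fact π.Prime := ⟨hπ⟩
  have hE := two_pow_half_eq_neg_one (π := π) (Or.inr hπ8)
  -- `π / 2 = 2 * t`, `t` odd
  obtain ⟨t, ht, htodd⟩ : ∃ t, π / 2 = 2 * t ∧ Odd t := ⟨π / 4, by omega, by
    rw [Nat.odd_iff]; omega⟩
  obtain ⟨j, hjodd, hj⟩ := exists_odd_mul_modEq t e Φo htodd hΦo
  refine ⟨π, t * j, hπ, hπB, hπR, hj, htodd.mul hjodd, ?_⟩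
  have : 2 * (t * j) = (π / 2) * j := by rw [ht]; ring
  rw [this, pow_mul, hE, hjodd.neg_one_pow]

/-- **Family 2** (`π ≡ 3 (mod 8)`): `2 ^ k = -1` in `ZMod π` with `k` odd in a fixed class. -/
theorem exists_prime_two_pow_eq_neg_one (M : ℕ) (R : ℤ) (e Φo B : ℕ) (hM : M ≠ 0)
    (hM2 : Nat.Coprime M 2) (hR : IsCoprime R (M : ℤ)) (hΦo : Odd Φo) :
    ∃ π k : ℕ, π.Prime ∧ B < π ∧ (π : ℤ) ≡ R [ZMOD (M : ℤ)] ∧
      k ≡ Φo [MOD 2 ^ (e + 1) * Φo] ∧ Odd k ∧ (2 : ZMod π) ^ k = -1 := by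
  obtain ⟨π, hπ, hπB, hπR, hπ8⟩ :=
    exists_prime_modEq_mod_eight M R 3 B hM hM2 hR (by decide) (by norm_num)
  have hπF : Fact π.Prime := ⟨hπ⟩
  have hE := two_pow_half_eq_neg_one (π := π) (Or.inl hπ8)
  have htodd : Odd (π / 2) := by rw [Nat.odd_iff]; omega
  obtain ⟨j, hjodd, hj⟩ := exists_odd_mul_modEq (π / 2) e Φo htodd hΦo
  refine ⟨π, π / 2 * j, hπ, hπB, hπR, hj, htodd.mul hjodd, ?_⟩
  rw [pow_mul, hE, hjodd.neg_one_pow]

/-- `4 ^ κ + 1` and `2 ^ κ + 1` are coprime: explicit Bézout relation (`κ ≥ 1`). -/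
theorem bezout_four_pow_two_pow (κ : ℕ) (hκ : κ ≠ 0) :
    ∃ α β : ℤ, α * ((4 : ℤ) ^ κ + 1) + β * ((2 : ℤ) ^ κ + 1) = 1 := by
  obtain ⟨n, rfl⟩ := Nat.exists_eq_succ_of_ne_zero hκ
  refine ⟨-(2 : ℤ) ^ n, 1 + (2 : ℤ) ^ n * (2 * 2 ^ n - 1), ?_⟩
  have h4 : (4 : ℤ) ^ (n + 1) = 4 * ((2 : ℤ) ^ n) ^ 2 := by
    have : (4 : ℤ) = 2 ^ 2 := by norm_num
    rw [this, ← pow_mul, pow_succ, ← pow_mul]; ring
  have h2 : (2 : ℤ) ^ (n + 1) = 2 * (2 : ℤ) ^ n := by rw [pow_succ]; ring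
  rw [Nat.succ_eq_add_one, h4, h2]
  generalize (2 : ℤ) ^ n = y
  ring

end Fermat.Agent.LR.CSPArithTwo
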