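/-
Program M, node D2 (helper20), generic layer: `SL(2, R)` over a commutative ring `R`.
Elementary matrices `uR x`, `lR y`, the Weyl element `wR`, conjugation `conjDiag s` by
`diag(s, 1)` (`s` a unit), the principal congruence subgroup `Gam I` and the subgroup `E I`
(normal closure of the `uR x`, `x ∈ I`) of an ideal `I`, and helper21's identity (Lemma T'):
`diag(s,1) g diag(s,1)⁻¹ = lR (-(c e / s)) * g * uR (e b)` for `s = 1 + a e`.
-/
import Mathlib

set_option autoImplicit false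

namespace Fermat.Agent.LR.SL2R

open Matrix
open scoped MatrixGroups commutatorElement

variable {R : Type*} [CommRing R]

/-- the upper unipotent matrix `[1, x; 0, 1]` -/
def uR (x : R) : SL(2, R) := ⟨!![1, x; 0, 1], by simp [Matrix.det_fin_two_of]⟩

/-- the lower unipotent matrix `[1, 0; y, 1]` -/
def lR (y : R) : SL(2, R) := ⟨!![1, 0; y, 1], by simp [Matrix.det_fin_two_of]⟩

/-- the Weyl element `[0, -1; 1, 0]` -/
def wR : SL(2, R) := ⟨!![0, -1; 1, 0], by simp [Matrix.det_fin_two_of]⟩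

@[simp] theorem coe_uR (x : R) : (uR x : Matrix (Fin 2) (Fin 2) R) = !![1, x; 0, 1] := rfl
@[simp] theorem coe_lR (y : R) : (lR y : Matrix (Fin 2) (Fin 2) R) = !![1, 0; y, 1] := rfl
@[simp] theorem coe_wR : ((wR : SL(2, R)) : Matrix (Fin 2) (Fin 2) R) = !![0, -1; 1, 0] := rfl

theorem sl_ext {g h : SL(2, R)} (h00 : g 0 0 = h 0 0) (h01 : g 0 1 = h 0 1)
    (h10 : g 1 0 = h 1 0) (h11 : g 1 1 = h 1 1) : g = h := by
  apply Matrix.SpecialLinearGroup.ext
  intro i j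
  fin_cases i <;> fin_cases j <;> assumption

theorem mul_apply' (g h : SL(2, R)) (i j : Fin 2) :
    (g * h) i j = g i 0 * h 0 j + g i 1 * h 1 j := by
  rw [Matrix.SpecialLinearGroup.coe_mul, Matrix.mul_apply, Fin.sum_univ_two]

theorem det_eq (g : SL(2, R)) : g 0 0 * g 1 1 - g 0 1 * g 1 0 = 1 := by
  have h := g.det_coe
  rwa [Matrix.det_fin_two] at h

theorem inv_apply (g : SL(2, R)) :
    ((g⁻¹ : SL(2, R)) : Matrix (Fin 2) (Fin 2) R) = !![g 1 1, -g 0 1; -g 1 0, g 0 0] := by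
  rw [Matrix.SpecialLinearGroup.coe_inv, Matrix.adjugate_fin_two]

@[simp] theorem uR_zero : uR (0 : R) = 1 := by
  apply sl_ext <;> simp

@[simp] theorem lR_zero : lR (0 : R) = 1 := by
  apply sl_ext <;> simp

theorem uR_add (x y : R) : uR (x + y) = uR x * uR y := by
  apply sl_ext <;> simp [mul_apply', add_comm]

theorem lR_add (x y : R) : lR (x + y) = lR x * lR y := by
  apply sl_ext <;> simp [mul_apply', add_comm]

theorem uR_inv (x : R) : (uR x)⁻¹ = uR (-x) := by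
  rw [inv_eq_iff_mul_eq_one, ← uR_add, add_neg_cancel, uR_zero]

theorem lR_inv (y : R) : (lR y)⁻¹ = lR (-y) := by
  rw [inv_eq_iff_mul_eq_one, ← lR_add, add_neg_cancel, lR_zero]

/-- `w u(x) w⁻¹ = l(-x)` -/
theorem wR_mul_uR_mul_inv (x : R) : wR * uR x * wR⁻¹ = lR (-x) := by
  apply sl_ext <;> simp [mul_apply']

/-- `w l(y) w⁻¹ = u(-y)` -/
theorem wR_mul_lR_mul_inv (y : R) : wR * lR y * wR⁻¹ = uR (-y) := by
  apply sl_ext <;> simp [mul_apply']

/-- conjugation by `diag(s, 1)`: `[a, b; c, d] ↦ [a, s b; s⁻¹ c, d]` -/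
def conjDiagFun (s : Rˣ) (g : SL(2, R)) : SL(2, R) :=
  ⟨!![g 0 0, (s : R) * g 0 1; ((s⁻¹ : Rˣ) : R) * g 1 0, g 1 1], by
    rw [Matrix.det_fin_two_of]
    have h := det_eq g
    have hs : (s : R) * ((s⁻¹ : Rˣ) : R) = 1 := by simp
    linear_combination h + (-(g 0 1 * g 1 0)) * hs⟩

@[simp] theorem conjDiagFun_apply (s : Rˣ) (g : SL(2, R)) :
    (conjDiagFun s g : Matrix (Fin 2) (Fin 2) R) =
      !![g 0 0, (s : R) * g 0 1; ((s⁻¹ : Rˣ) : R) * g 1 0, g 1 1] := rfl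

/-- conjugation by `diag(s, 1)` as a group automorphism of `SL(2, R)` -/
def conjDiag (s : Rˣ) : SL(2, R) ≃* SL(2, R) where
  toFun := conjDiagFun s
  invFun := conjDiagFun s⁻¹
  left_inv g := by
    apply sl_ext <;> simp [← mul_assoc]
  right_inv g := by
    apply sl_ext <;> simp [← mul_assoc]
  map_mul' g h := by
    have hs : (s : R) * ((s⁻¹ : Rˣ) : R) = 1 := by simp
    apply sl_ext
    · simp only [conjDiagFun_apply, mul_apply', Matrix.of_apply, Matrix.cons_val', Matrix.cons_val_zero,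
        Matrix.cons_val_one, Matrix.cons_val_fin_one]
      linear_combination (-(g 0 1 * h 1 0)) * hs
    · simp only [conjDiagFun_apply, mul_apply', Matrix.of_apply, Matrix.cons_val', Matrix.cons_val_zero,
        Matrix.cons_val_one, Matrix.cons_val_fin_one]
      ring
    · simp only [conjDiagFun_apply, mul_apply', Matrix.of_apply, Matrix.cons_val', Matrix.cons_val_zero,
        Matrix.cons_val_one, Matrix.cons_val_fin_one]
      ring
    · simp only [conjDiagFun_apply, mul_apply', Matrix.of_apply, Matrix.cons_val', Matrix.cons_val_zero,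
        Matrix.cons_val_one, Matrix.cons_val_fin_one]
      linear_combination (-(g 1 0 * h 0 1)) * hs

theorem conjDiag_apply (s : Rˣ) (g : SL(2, R)) :
    (conjDiag s g : Matrix (Fin 2) (Fin 2) R) =
      !![g 0 0, (s : R) * g 0 1; ((s⁻¹ : Rˣ) : R) * g 1 0, g 1 1] := rfl

theorem conjDiag_uR (s : Rˣ) (x : R) : conjDiag s (uR x) = uR (s * x) := by
  apply sl_ext <;> simp [conjDiag_apply]

theorem conjDiag_lR (s : Rˣ) (y : R) : conjDiag s (lR y) = lR (((s⁻¹ : Rˣ) : R) * y) := by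
  apply sl_ext <;> simp [conjDiag_apply]

/-- **Lemma T'** (helper21): for `s = 1 + a e` a unit,
`diag(s,1) g diag(s,1)⁻¹ = l(-(c e s⁻¹)) * g * u(e b)`. -/
theorem conjDiag_eq (g : SL(2, R)) (e : R) (s : Rˣ) (hs : (s : R) = 1 + g 0 0 * e) :
    conjDiag s g = lR (-(g 1 0 * e * ((s⁻¹ : Rˣ) : R))) * g * uR (e * g 0 1) := by
  have hs' : (s : R) * ((s⁻¹ : Rˣ) : R) = 1 := by simp
  have hd := det_eq g
  apply sl_ext
  · simp only [conjDiag_apply, mul_apply', coe_lR, coe_uR, Matrix.of_apply, Matrix.cons_val',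
      Matrix.cons_val_zero, Matrix.cons_val_one, Matrix.cons_val_fin_one]
    ring
  · simp only [conjDiag_apply, mul_apply', coe_lR, coe_uR, Matrix.of_apply, Matrix.cons_val',
      Matrix.cons_val_zero, Matrix.cons_val_one, Matrix.cons_val_fin_one]
    rw [hs]; ring
  · simp only [conjDiag_apply, mul_apply', coe_lR, coe_uR, Matrix.of_apply, Matrix.cons_val',
      Matrix.cons_val_zero, Matrix.cons_val_one, Matrix.cons_val_fin_one]
    linear_combination (-(g 1 0 * ((s⁻¹ : Rˣ) : R))) * hs + (g 1 0) * hs'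
  · simp only [conjDiag_apply, mul_apply', coe_lR, coe_uR, Matrix.of_apply, Matrix.cons_val',
      Matrix.cons_val_zero, Matrix.cons_val_one, Matrix.cons_val_fin_one]
    linear_combination (-(g 1 0 * e * g 0 1 * ((s⁻¹ : Rˣ) : R))) * hs + (g 1 0 * e * g 0 1) * hs'

/-! ### Congruence subgroups and the elementary subgroup of an ideal -/

/-- the principal congruence subgroup of level `I` -/
def Gam (I : Ideal R) : Subgroup SL(2, R) :=
  (Matrix.SpecialLinearGroup.map (Ideal.Quotient.mk I)).ker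

instance (I : Ideal R) : (Gam I).Normal := MonoidHom.normal_ker _

theorem mem_Gam {I : Ideal R} {g : SL(2, R)} :
    g ∈ Gam I ↔ g 0 0 - 1 ∈ I ∧ g 0 1 ∈ I ∧ g 1 0 ∈ I ∧ g 1 1 - 1 ∈ I := by
  rw [Gam, MonoidHom.mem_ker]
  constructor
  · intro h
    have h' : ∀ i j, Ideal.Quotient.mk I (g i j) = (1 : SL(2, R ⧸ I)) i j := by
      intro i j
      rw [← h]
      rfl
    refine ⟨?_, ?_, ?_, ?_⟩
    · have := h' 0 0
      rw [Matrix.SpecialLinearGroup.coe_one, Matrix.one_apply_eq] at this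
      rw [← Ideal.Quotient.eq_zero_iff_mem, map_sub, this, map_one, sub_self]
    · have := h' 0 1
      rw [Matrix.SpecialLinearGroup.coe_one, Matrix.one_apply_ne (by decide)] at this
      exact Ideal.Quotient.eq_zero_iff_mem.mp this
    · have := h' 1 0
      rw [Matrix.SpecialLinearGroup.coe_one, Matrix.one_apply_ne (by decide)] at this
      exact Ideal.Quotient.eq_zero_iff_mem.mp this
    · have := h' 1 1
      rw [Matrix.SpecialLinearGroup.coe_one, Matrix.one_apply_eq] at this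
      rw [← Ideal.Quotient.eq_zero_iff_mem, map_sub, this, map_one, sub_self]
  · rintro ⟨h00, h01, h10, h11⟩
    apply sl_ext
    · show Ideal.Quotient.mk I (g 0 0) = (1 : SL(2, R ⧸ I)) 0 0
      rw [Matrix.SpecialLinearGroup.coe_one, Matrix.one_apply_eq, ← sub_eq_zero, ← map_one
        (Ideal.Quotient.mk I), ← map_sub]
      exact Ideal.Quotient.eq_zero_iff_mem.mpr h00
    · show Ideal.Quotient.mk I (g 0 1) = (1 : SL(2, R ⧸ I)) 0 1
      rw [Matrix.SpecialLinearGroup.coe_one, Matrix.one_apply_ne (by decide)]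
      exact Ideal.Quotient.eq_zero_iff_mem.mpr h01
    · show Ideal.Quotient.mk I (g 1 0) = (1 : SL(2, R ⧸ I)) 1 0
      rw [Matrix.SpecialLinearGroup.coe_one, Matrix.one_apply_ne (by decide)]
      exact Ideal.Quotient.eq_zero_iff_mem.mpr h10
    · show Ideal.Quotient.mk I (g 1 1) = (1 : SL(2, R ⧸ I)) 1 1
      rw [Matrix.SpecialLinearGroup.coe_one, Matrix.one_apply_eq, ← sub_eq_zero, ← map_one
        (Ideal.Quotient.mk I), ← map_sub]
      exact Ideal.Quotient.eq_zero_iff_mem.mpr h11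

theorem uR_mem_Gam {I : Ideal R} {x : R} (hx : x ∈ I) : uR x ∈ Gam I := by
  rw [mem_Gam]
  simp [hx]

theorem lR_mem_Gam {I : Ideal R} {y : R} (hy : y ∈ I) : lR y ∈ Gam I := by
  rw [mem_Gam]
  simp [hy]

theorem Gam_mono {I J : Ideal R} (h : I ≤ J) : Gam I ≤ Gam J := by
  intro g hg
  rw [mem_Gam] at hg ⊢
  exact ⟨h hg.1, h hg.2.1, h hg.2.2.1, h hg.2.2.2⟩

/-- the subgroup generated by all conjugates of the `uR x`, `x ∈ I` -/
def E (I : Ideal R) : Subgroup SL(2, R) :=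
  Subgroup.normalClosure {g | ∃ x ∈ I, g = uR x}

instance (I : Ideal R) : (E I).Normal := Subgroup.normalClosure_normal

theorem uR_mem_E {I : Ideal R} {x : R} (hx : x ∈ I) : uR x ∈ E I :=
  Subgroup.subset_normalClosure ⟨x, hx, rfl⟩

theorem lR_mem_E {I : Ideal R} {y : R} (hy : y ∈ I) : lR y ∈ E I := by
  have h := (inferInstance : (E I).Normal).conj_mem _ (uR_mem_E (I.neg_mem hy)) wR
  rwa [wR_mul_uR_mul_inv, neg_neg] at h

theorem E_le_Gam (I : Ideal R) : E I ≤ Gam I :=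
  Subgroup.normalClosure_le_normal (by
    rintro _ ⟨x, hx, rfl⟩
    exact uR_mem_Gam hx)

theorem E_mono {I J : Ideal R} (h : I ≤ J) : E I ≤ E J :=
  Subgroup.normalClosure_mono (by
    rintro _ ⟨x, hx, rfl⟩
    exact ⟨x, h hx, rfl⟩)

theorem conjDiag_mem_E {I : Ideal R} (s : Rˣ) {g : SL(2, R)} (hg : g ∈ E I) :
    conjDiag s g ∈ E I := by
  have h : E I ≤ (E I).comap (conjDiag s).toMonoidHom :=
    Subgroup.normalClosure_le_normal (by
      rintro _ ⟨x, hx, rfl⟩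
      show conjDiag s (uR x) ∈ E I
      rw [conjDiag_uR]
      exact uR_mem_E (I.mul_mem_left _ hx))
  exact h hg

theorem conjDiag_mem_Gam {I : Ideal R} (s : Rˣ) {g : SL(2, R)} (hg : g ∈ Gam I) :
    conjDiag s g ∈ Gam I := by
  rw [mem_Gam] at hg ⊢
  simp only [conjDiag_apply, Matrix.of_apply, Matrix.cons_val', Matrix.cons_val_zero,
    Matrix.cons_val_one, Matrix.cons_val_fin_one]
  exact ⟨hg.1, I.mul_mem_left _ hg.2.1, I.mul_mem_left _ hg.2.2.1, hg.2.2.2⟩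

/-- **Consequence of Lemma T'**: for `g ∈ Γ(I)` and a unit `s ≡ 1` modulo `a(g)`, the conjugate of
`g` by `diag(s, 1)` is congruent to `g` modulo `E I`. -/
theorem conjDiag_mul_inv_mem_E {I : Ideal R} {g : SL(2, R)} (hg : g ∈ Gam I) (e : R) (s : Rˣ)
    (hs : (s : R) = 1 + g 0 0 * e) : conjDiag s g * g⁻¹ ∈ E I := by
  rw [conjDiag_eq g e s hs]
  rw [mem_Gam] at hg
  have h1 : lR (-(g 1 0 * e * ((s⁻¹ : Rˣ) : R))) ∈ E I :=
    lR_mem_E (I.neg_mem (I.mul_mem_right _ (I.mul_mem_right _ hg.2.2.1)))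
  have h2 : g * uR (e * g 0 1) * g⁻¹ ∈ E I :=
    (inferInstance : (E I).Normal).conj_mem _ (uR_mem_E (I.mul_mem_left _ hg.2.1)) g
  have h3 : lR (-(g 1 0 * e * ((s⁻¹ : Rˣ) : R))) * g * uR (e * g 0 1) * g⁻¹ =
      lR (-(g 1 0 * e * ((s⁻¹ : Rˣ) : R))) * (g * uR (e * g 0 1) * g⁻¹) := by group
  rw [h3]
  exact mul_mem h1 h2

/-- the subgroup `E I · [Γ(I), Γ(I)]`: the kernel of the universal homomorphism from `Γ(I)` to an
abelian group killing `E I` -/
def EC (I : Ideal R) : Subgroup SL(2, R) := E I ⊔ ⁅Gam I, Gam I⁆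

instance (I : Ideal R) : (EC I).Normal := by
  unfold EC
  infer_instance

theorem E_le_EC (I : Ideal R) : E I ≤ EC I := le_sup_left

theorem commutator_le_EC (I : Ideal R) : ⁅Gam I, Gam I⁆ ≤ EC I := le_sup_right

theorem EC_le_Gam (I : Ideal R) : EC I ≤ Gam I :=
  sup_le (E_le_Gam I) (Subgroup.commutator_le_left _ _)

/-- a homomorphism from `Γ(I)` to an abelian group killing `E I` takes the same value on two
elements congruent modulo `EC I` -/
theorem map_eq_of_mul_inv_mem_EC {I : Ideal R} {V : Type*} [CommGroup V] (χ : ↥(Gam I) →* V)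
    (hχ : ∀ (x : SL(2, R)) (hx : x ∈ E I), χ ⟨x, E_le_Gam I hx⟩ = 1) {g h : SL(2, R)}
    (hg : g ∈ Gam I) (hh : h ∈ Gam I) (hgh : g * h⁻¹ ∈ EC I) : χ ⟨g, hg⟩ = χ ⟨h, hh⟩ := by
  have hK : EC I ≤ (χ.ker).map (Gam I).subtype := by
    refine sup_le ?_ ?_
    · intro x hx
      exact ⟨⟨x, E_le_Gam I hx⟩, hχ x hx, rfl⟩
    · rw [Subgroup.commutator_le]
      intro a ha b hb
      refine ⟨⁅(⟨a, ha⟩ : ↥(Gam I)), (⟨b, hb⟩ : ↥(Gam I))⁆, ?_, rfl⟩
      rw [SetLike.mem_coe, MonoidHom.mem_ker, map_commutatorElement]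
      exact commutatorElement_eq_one_iff_mul_comm.mpr (mul_comm _ _)
  obtain ⟨k, hk, hk'⟩ := hK hgh
  have h1 : (⟨g, hg⟩ : Gam I) = k * ⟨h, hh⟩ := by
    apply Subtype.ext
    show g = (k : SL(2, R)) * h
    rw [show ((k : Gam I) : SL(2, R)) = g * h⁻¹ from hk', inv_mul_cancel_right]
  rw [h1, map_mul, MonoidHom.mem_ker.mp hk, one_mul]

/-! ### Centrality modulo `EC I` -/

/-- the elements of `SL(2, R)` which centralise `Γ(I)` modulo `EC I` -/
def cenMod (I : Ideal R) : Subgroup SL(2, R) where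
  carrier := {γ | ∀ g ∈ Gam I, γ * g * γ⁻¹ * g⁻¹ ∈ EC I}
  one_mem' := fun g _ => by simp
  mul_mem' := by
    intro γ γ' hγ hγ' g hg
    have h1 := hγ' g hg
    have h2 := hγ (γ' * g * γ'⁻¹) ((inferInstance : (Gam I).Normal).conj_mem g hg γ')
    have h3 : γ * γ' * g * (γ * γ')⁻¹ * g⁻¹ =
        (γ * (γ' * g * γ'⁻¹) * γ⁻¹ * (γ' * g * γ'⁻¹)⁻¹) * (γ' * g * γ'⁻¹ * g⁻¹) := by group
    rw [h3]
    exact mul_mem h2 h1
  inv_mem' := by
    intro γ hγ g hg
    have h1 := hγ (γ⁻¹ * g * γ) (by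
      have := (inferInstance : (Gam I).Normal).conj_mem g hg γ⁻¹
      simpa using this)
    have h2 : γ⁻¹ * g * γ⁻¹⁻¹ * g⁻¹ = (γ * (γ⁻¹ * g * γ) * γ⁻¹ * (γ⁻¹ * g * γ)⁻¹)⁻¹ := by group
    rw [h2]
    exact inv_mem h1

theorem mem_cenMod {I : Ideal R} {γ : SL(2, R)} :
    γ ∈ cenMod I ↔ ∀ g ∈ Gam I, γ * g * γ⁻¹ * g⁻¹ ∈ EC I := Iff.rfl

theorem Gam_le_cenMod (I : Ideal R) : Gam I ≤ cenMod I := by
  intro γ hγ g hg
  exact commutator_le_EC I (Subgroup.commutator_mem_commutator hγ hg)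

/-- two elements congruent modulo `EC I` stay congruent after conjugation -/
theorem conj_mul_inv_mem_EC {I : Ideal R} {g h : SL(2, R)} (hgh : g * h⁻¹ ∈ EC I)
    (γ : SL(2, R)) : (γ * g * γ⁻¹) * (γ * h * γ⁻¹)⁻¹ ∈ EC I := by
  have := (inferInstance : (EC I).Normal).conj_mem _ hgh γ
  have h2 : (γ * g * γ⁻¹) * (γ * h * γ⁻¹)⁻¹ = γ * (g * h⁻¹) * γ⁻¹ := by group
  rw [h2]
  exact this

/-- **Corollary U** (helper21): if `J = diag(-1, 1)` centralises `Γ(I)` modulo `EC I`, so does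
`u(2x)` for every `x`. -/
theorem uR_two_mul_mem_cenMod {I : Ideal R}
    (hJ : ∀ g ∈ Gam I, conjDiag (-1) g * g⁻¹ ∈ EC I) (x : R) : uR (2 * x) ∈ cenMod I := by
  intro g hg
  -- `g' = u(-x) g u(x)`
  set g' := uR (-x) * g * (uR (-x))⁻¹ with hg'
  have hg'mem : g' ∈ Gam I := (inferInstance : (Gam I).Normal).conj_mem g hg _
  have h1 := hJ g' hg'mem
  -- `J g' = u(x) J(g) u(-x)`
  have hJg' : conjDiag (-1) g' = uR x * conjDiag (-1) g * (uR x)⁻¹ := by
    rw [hg', map_mul, map_mul, map_inv, conjDiag_uR]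
    simp
  have h2 := conj_mul_inv_mem_EC (hJ g hg) (uR x)
  rw [← hJg'] at h2
  -- `J g' ≡ g'` and `J g' ≡ u(x) g u(-x)`, hence `u(x) g u(-x) ≡ u(-x) g u(x)`
  have h3 : (uR x * g * (uR x)⁻¹) * g'⁻¹ ∈ EC I := by
    have : (uR x * g * (uR x)⁻¹) * g'⁻¹ =
        (conjDiag (-1) g' * (uR x * g * (uR x)⁻¹)⁻¹)⁻¹ * (conjDiag (-1) g' * g'⁻¹) := by group
    rw [this]
    exact mul_mem (inv_mem h2) h1
  have h4 := conj_mul_inv_mem_EC h3 (uR x)
  have h5 : (uR x * (uR x * g * (uR x)⁻¹) * (uR x)⁻¹) * (uR x * g' * (uR x)⁻¹)⁻¹ =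
      uR (2 * x) * g * (uR (2 * x))⁻¹ * g⁻¹ := by
    rw [hg', two_mul, uR_add, uR_inv x, uR_inv (-x), neg_neg]
    have : uR (-x) = (uR x)⁻¹ := (uR_inv x).symm
    rw [this]
    group
  rw [h5] at h4
  exact h4

/-- Corollary U for the lower unipotents. -/
theorem lR_two_mul_mem_cenMod {I : Ideal R}
    (hJ : ∀ g ∈ Gam I, conjDiag (-1) g * g⁻¹ ∈ EC I) (y : R) : lR (2 * y) ∈ cenMod I := by
  intro g hg
  set g' := lR (-y) * g * (lR (-y))⁻¹ with hg'
  have hg'mem : g' ∈ Gam I := (inferInstance : (Gam I).Normal).conj_mem g hg _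
  have h1 := hJ g' hg'mem
  have hJg' : conjDiag (-1) g' = lR y * conjDiag (-1) g * (lR y)⁻¹ := by
    rw [hg', map_mul, map_mul, map_inv, conjDiag_lR]
    simp
  have h2 := conj_mul_inv_mem_EC (hJ g hg) (lR y)
  rw [← hJg'] at h2
  have h3 : (lR y * g * (lR y)⁻¹) * g'⁻¹ ∈ EC I := by
    have : (lR y * g * (lR y)⁻¹) * g'⁻¹ =
        (conjDiag (-1) g' * (lR y * g * (lR y)⁻¹)⁻¹)⁻¹ * (conjDiag (-1) g' * g'⁻¹) := by group
    rw [this]
    exact mul_mem (inv_mem h2) h1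
  have h4 := conj_mul_inv_mem_EC h3 (lR y)
  have h5 : (lR y * (lR y * g * (lR y)⁻¹) * (lR y)⁻¹) * (lR y * g' * (lR y)⁻¹)⁻¹ =
      lR (2 * y) * g * (lR (2 * y))⁻¹ * g⁻¹ := by
    rw [hg', two_mul, lR_add, lR_inv y, lR_inv (-y), neg_neg]
    have : lR (-y) = (lR y)⁻¹ := (lR_inv y).symm
    rw [this]
    group
  rw [h5] at h4
  exact h4

/-- **Theorem (Cen)**, generic form: if `J = diag(-1, 1)` centralises `Γ(I)` modulo `EC I`, `2` is
invertible modulo `I`, and `SL(2, R)` is generated by elementary matrices, then all of `SL(2, R)`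
centralises `Γ(I)` modulo `EC I`. -/
theorem cenMod_eq_top {I : Ideal R}
    (hJ : ∀ g ∈ Gam I, conjDiag (-1) g * g⁻¹ ∈ EC I)
    (h2 : ∀ x : R, ∃ x' : R, x - 2 * x' ∈ I)
    (hgen : Subgroup.closure ({g : SL(2, R) | ∃ x, g = uR x} ∪ {g | ∃ y, g = lR y}) = ⊤) :
    cenMod I = ⊤ := by
  rw [eq_top_iff, ← hgen, Subgroup.closure_le]
  rintro _ (⟨x, rfl⟩ | ⟨y, rfl⟩)
  · obtain ⟨x', hx'⟩ := h2 x
    have : uR x = uR (2 * x') * uR (x - 2 * x') := by rw [← uR_add]; congr 1; ring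
    rw [this]
    exact mul_mem (uR_two_mul_mem_cenMod hJ x') (Gam_le_cenMod I (uR_mem_Gam hx'))
  · obtain ⟨y', hy'⟩ := h2 y
    have : lR y = lR (2 * y') * lR (y - 2 * y') := by rw [← lR_add]; congr 1; ring
    rw [this]
    exact mul_mem (lR_two_mul_mem_cenMod hJ y') (Gam_le_cenMod I (lR_mem_Gam hy'))

end Fermat.Agent.LR.SL2R
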