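/-
Program M, node D2 (helper20), specific layer: the ring `A q = ℤ[1/q]` (as the subring
`Gen.zInv q` of `ℚ`), `SL(2, A q)` inside `SL(2, ℚ)`, reduction modulo `m` prime to `q`,
the subgroup `G0 q N` (`= Γ₀(N)[1/q]`), and generation of `SL(2, A q)` by elementary matrices.
-/
import Mathlib
import Fermat.Agent.LR.AmalgamGen
import Fermat.Agent.LR.SL2Ring

set_option autoImplicit false

namespace Fermat.Agent.LR.CSP

open Matrix
open Fermat.Agent.LR.Gen Fermat.Agent.LR.SL2R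
open scoped MatrixGroups

/-- the ring `ℤ[1/q]` -/
abbrev A (q : ℕ) : Type := ↥(zInv q)

variable {q : ℕ}

theorem coe_natCast (n : ℕ) : (((n : A q) : A q) : ℚ) = (n : ℚ) := by
  simp

theorem coe_intCast (n : ℤ) : (((n : A q) : A q) : ℚ) = (n : ℚ) := by
  simp

/-- `1/q` as an element of `ℤ[1/q]` -/
def qInv (q : ℕ) : A q := ⟨((q : ℚ))⁻¹, inv_mem_zInv q⟩

@[simp] theorem coe_qInv : ((qInv q : A q) : ℚ) = ((q : ℚ))⁻¹ := rfl

theorem q_mul_qInv (hq : q ≠ 0) : (q : A q) * qInv q = 1 := by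
  apply Subtype.ext
  have : (q : ℚ) ≠ 0 := by exact_mod_cast hq
  simp [this]

/-- `q` as a unit of `ℤ[1/q]` -/
def qU (hq : q ≠ 0) : (A q)ˣ :=
  ⟨(q : A q), qInv q, q_mul_qInv hq, by rw [mul_comm]; exact q_mul_qInv hq⟩

@[simp] theorem coe_qU (hq : q ≠ 0) : ((qU hq : (A q)ˣ) : A q) = (q : A q) := rfl

theorem exists_mul_pow_eq_intCast (x : A q) : ∃ (k : ℕ) (n : ℤ), x * (q : A q) ^ k = (n : A q) := by
  obtain ⟨k, n, h⟩ := x.2
  refine ⟨k, n, ?_⟩
  apply Subtype.ext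
  simpa using h

theorem intCast_injective : Function.Injective (fun n : ℤ => (n : A q)) := by
  intro a b h
  have := congrArg (fun x : A q => (x : ℚ)) h
  simpa using this

/-- membership in the principal ideal `m ℤ[1/q]` -/
theorem mem_span_natCast_iff {m : ℕ} {x : A q} :
    x ∈ Ideal.span {(m : A q)} ↔ ∃ t ∈ zInv q, (x : ℚ) = (m : ℚ) * t := by
  rw [Ideal.mem_span_singleton']
  constructor
  · rintro ⟨a, rfl⟩
    exact ⟨a, a.2, by simp [mul_comm]⟩
  · rintro ⟨t, ht, h⟩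
    refine ⟨⟨t, ht⟩, ?_⟩
    apply Subtype.ext
    simp [h, mul_comm]

theorem intCast_mem_span_of_dvd {m : ℕ} {n : ℤ} (h : (m : ℤ) ∣ n) :
    (n : A q) ∈ Ideal.span {(m : A q)} := by
  obtain ⟨t, rfl⟩ := h
  rw [Ideal.mem_span_singleton']
  exact ⟨(t : A q), by push_cast; ring⟩

theorem isLocalizationAway (hq : q ≠ 0) : IsLocalization.Away (q : ℤ) (A q) := by
  rw [IsLocalization.Away, isLocalization_iff]
  refine ⟨?_, ?_, ?_⟩
  · rintro ⟨_, k, rfl⟩
    have : (algebraMap ℤ (A q)) ((q : ℤ) ^ k) = ((qU hq) ^ k : (A q)ˣ) := by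
      simp
    rw [this]
    exact Units.isUnit _
  · intro z
    obtain ⟨k, n, h⟩ := exists_mul_pow_eq_intCast z
    refine ⟨(n, ⟨(q : ℤ) ^ k, k, rfl⟩), ?_⟩
    simpa using h
  · intro x y h
    refine ⟨1, ?_⟩
    have : x = y := intCast_injective (q := q) (by simpa using h)
    rw [this]

/-- reduction modulo `m`, for `m` prime to `q` -/
noncomputable def red (hq : q ≠ 0) {m : ℕ} (hqm : Nat.Coprime q m) : A q →+* ZMod m :=
  haveI := isLocalizationAway hq
  IsLocalization.Away.lift (q : ℤ) (g := Int.castRingHom (ZMod m))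
    (by
      have := (ZMod.isUnit_iff_coprime q m).2 hqm
      simpa using this)

theorem red_intCast (hq : q ≠ 0) {m : ℕ} (hqm : Nat.Coprime q m) (n : ℤ) :
    red hq hqm (n : A q) = (n : ZMod m) := by
  have hloc := isLocalizationAway hq
  have := IsLocalization.Away.lift_eq (q : ℤ) (g := Int.castRingHom (ZMod m))
    (S := A q) (by
      have := (ZMod.isUnit_iff_coprime q m).2 hqm
      simpa using this) n
  simp only [eq_intCast] at this
  exact this

theorem red_natCast (hq : q ≠ 0) {m : ℕ} (hqm : Nat.Coprime q m) (n : ℕ) :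
    red hq hqm (n : A q) = (n : ZMod m) := by
  have := red_intCast hq hqm (n : ℤ)
  rw [Int.cast_natCast, Int.cast_natCast] at this
  exact this

theorem red_surjective (hq : q ≠ 0) {m : ℕ} (hqm : Nat.Coprime q m) :
    Function.Surjective (red hq hqm) := by
  intro x
  obtain ⟨n, rfl⟩ := ZMod.intCast_surjective x
  exact ⟨(n : A q), red_intCast hq hqm n⟩

theorem ker_red (hq : q ≠ 0) {m : ℕ} (hqm : Nat.Coprime q m) :
    RingHom.ker (red hq hqm) = Ideal.span {(m : A q)} := by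
  apply le_antisymm
  · intro x hx
    rw [RingHom.mem_ker] at hx
    obtain ⟨k, n, h⟩ := exists_mul_pow_eq_intCast x
    have h1 : red hq hqm x * red hq hqm (q : A q) ^ k = (n : ZMod m) := by
      rw [← map_pow, ← map_mul, h, red_intCast]
    rw [hx, zero_mul] at h1
    have h2 : (m : ℤ) ∣ n := (ZMod.intCast_zmod_eq_zero_iff_dvd _ _).1 h1.symm
    have h3 := intCast_mem_span_of_dvd (q := q) h2
    rw [← h] at h3
    have h4 : x = x * (q : A q) ^ k * (qInv q) ^ k := by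
      rw [mul_assoc, ← mul_pow, q_mul_qInv hq, one_pow, mul_one]
    rw [h4]
    exact Ideal.mul_mem_right _ _ h3
  · rw [Ideal.span_le]
    intro x hx
    rw [Set.mem_singleton_iff] at hx
    rw [hx, SetLike.mem_coe, RingHom.mem_ker, red_natCast]
    simp

theorem red_eq_zero_iff (hq : q ≠ 0) {m : ℕ} (hqm : Nat.Coprime q m) (x : A q) :
    red hq hqm x = 0 ↔ x ∈ Ideal.span {(m : A q)} := by
  rw [← ker_red hq hqm, RingHom.mem_ker]

/-! ### `SL(2, ℤ[1/q])` inside `SL(2, ℚ)` -/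

/-- the inclusion `SL(2, ℤ[1/q]) → SL(2, ℚ)` -/
def toQ (q : ℕ) : SL(2, A q) →* SL(2, ℚ) := Matrix.SpecialLinearGroup.map (zInv q).subtype

@[simp] theorem toQ_apply (g : SL(2, A q)) (i j : Fin 2) : toQ q g i j = ((g i j : A q) : ℚ) := rfl

theorem toQ_injective : Function.Injective (toQ q) := by
  intro g h hgh
  ext i j
  have := congrArg (fun x : SL(2, ℚ) => x i j) hgh
  simpa using this

theorem toQ_mem_gamma0Loc_one (g : SL(2, A q)) : toQ q g ∈ gamma0Loc 1 q := by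
  refine ⟨fun i j => (g i j).2, toQ q g 1 0, (g 1 0).2, by simp⟩

theorem gamma0Loc_le_one (N : ℕ) : gamma0Loc N q ≤ gamma0Loc 1 q := by
  rintro g ⟨hg, x, hx, hgx⟩
  exact ⟨hg, g 1 0, hg 1 0, by simp⟩

/-- lift a rational matrix with entries in `ℤ[1/q]` -/
def ofQ (g : SL(2, ℚ)) (hg : ∀ i j, g i j ∈ zInv q) : SL(2, A q) :=
  ⟨Matrix.of fun i j => ⟨g i j, hg i j⟩, by
    have h := g.det_coe
    rw [Matrix.det_fin_two] at h ⊢
    apply Subtype.ext
    simpa using h⟩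

@[simp] theorem toQ_ofQ (g : SL(2, ℚ)) (hg : ∀ i j, g i j ∈ zInv q) : toQ q (ofQ g hg) = g := by
  ext i j
  rfl

theorem range_toQ : (toQ q).range = gamma0Loc 1 q := by
  apply le_antisymm
  · rintro _ ⟨g, rfl⟩
    exact toQ_mem_gamma0Loc_one g
  · rintro g ⟨hg, -⟩
    exact ⟨ofQ g hg, toQ_ofQ g hg⟩

/-- `Γ₀(N)[1/q]` inside `SL(2, ℤ[1/q])` -/
def G0 (q N : ℕ) : Subgroup SL(2, A q) := (gamma0Loc N q).comap (toQ q)

theorem mem_G0 {N : ℕ} {g : SL(2, A q)} : g ∈ G0 q N ↔ g 1 0 ∈ Ideal.span {(N : A q)} := by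
  rw [G0, Subgroup.mem_comap, mem_gamma0Loc, mem_span_natCast_iff]
  constructor
  · rintro ⟨-, h⟩
    exact h
  · intro h
    exact ⟨fun i j => (g i j).2, h⟩

theorem map_toQ_G0 (N : ℕ) : (G0 q N).map (toQ q) = gamma0Loc N q := by
  rw [G0, Subgroup.map_comap_eq, range_toQ, inf_eq_right]
  exact gamma0Loc_le_one N

/-- `G0 q N ≃* Γ₀(N)[1/q]` -/
noncomputable def G0Equiv (q N : ℕ) : ↥(G0 q N) ≃* ↥(gamma0Loc N q) :=
  ((G0 q N).equivMapOfInjective (toQ q) toQ_injective).trans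
    (MulEquiv.subgroupCongr (map_toQ_G0 N))

@[simp] theorem coe_G0Equiv {N : ℕ} (g : ↥(G0 q N)) :
    ((G0Equiv q N g : ↥(gamma0Loc N q)) : SL(2, ℚ)) = toQ q (g : SL(2, A q)) := rfl

theorem Gam_le_G0 {N m : ℕ} (h : N ∣ m) : Gam (Ideal.span {(m : A q)}) ≤ G0 q N := by
  intro g hg
  rw [mem_Gam] at hg
  rw [mem_G0]
  obtain ⟨t, rfl⟩ := h
  have : Ideal.span {((N * t : ℕ) : A q)} ≤ Ideal.span {(N : A q)} := by
    rw [Ideal.span_singleton_le_span_singleton]
    exact ⟨(t : A q), by push_cast; ring⟩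
  exact this hg.2.2.1

/-! ### generation by elementary matrices -/

section generic

variable {R : Type*} [CommRing R]

/-- the elementary matrices of `SL(2, R)` -/
def elemSet (R : Type*) [CommRing R] : Set SL(2, R) := {g | ∃ x, g = uR x} ∪ {g | ∃ y, g = lR y}

theorem uR_mem_elemSet (x : R) : uR x ∈ elemSet R := Or.inl ⟨x, rfl⟩

theorem lR_mem_elemSet (y : R) : lR y ∈ elemSet R := Or.inr ⟨y, rfl⟩

theorem uR_mem_closure (x : R) : uR x ∈ Subgroup.closure (elemSet R) :=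
  Subgroup.subset_closure (uR_mem_elemSet x)

theorem lR_mem_closure (y : R) : lR y ∈ Subgroup.closure (elemSet R) :=
  Subgroup.subset_closure (lR_mem_elemSet y)

theorem wR_eq : (wR : SL(2, R)) = uR (-1) * lR 1 * uR (-1) := by
  apply sl_ext <;> simp [SL2R.mul_apply']

theorem wR_mem_closure : (wR : SL(2, R)) ∈ Subgroup.closure (elemSet R) := by
  rw [wR_eq]
  exact Subgroup.mul_mem _ (Subgroup.mul_mem _ (uR_mem_closure _) (lR_mem_closure _))
    (uR_mem_closure _)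

/-- the diagonal matrix `diag(t, t⁻¹)` -/
def hR (t : Rˣ) : SL(2, R) :=
  ⟨!![(t : R), 0; 0, ((t⁻¹ : Rˣ) : R)], by simp [Matrix.det_fin_two_of]⟩

@[simp] theorem coe_hR (t : Rˣ) :
    (hR t : Matrix (Fin 2) (Fin 2) R) = !![(t : R), 0; 0, ((t⁻¹ : Rˣ) : R)] := rfl

theorem hR_eq (t : Rˣ) : hR t = uR (t : R) * lR (-((t⁻¹ : Rˣ) : R)) * uR (t : R) * wR := by
  apply sl_ext <;> simp [SL2R.mul_apply']

theorem hR_mem_closure (t : Rˣ) : hR t ∈ Subgroup.closure (elemSet R) := by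
  rw [hR_eq]
  exact Subgroup.mul_mem _ (Subgroup.mul_mem _ (Subgroup.mul_mem _ (uR_mem_closure _)
    (lR_mem_closure _)) (uR_mem_closure _)) wR_mem_closure

theorem mem_closure_of_lower_zero (g : SL(2, R)) (h : g 1 0 = 0) :
    g ∈ Subgroup.closure (elemSet R) := by
  have hdet := det_eq g
  rw [h, mul_zero, sub_zero] at hdet
  let t : Rˣ := ⟨g 0 0, g 1 1, hdet, by rw [mul_comm]; exact hdet⟩
  have e : g = hR t * uR (g 1 1 * g 0 1) := by
    apply sl_ext
    · simp [SL2R.mul_apply', t]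
    · simp only [SL2R.mul_apply', coe_hR, coe_uR, Matrix.of_apply, Matrix.cons_val', Matrix.cons_val_zero,
        Matrix.cons_val_one, t]
      simp
      rw [← mul_assoc, hdet, one_mul]
    · simp [SL2R.mul_apply', h]
    · simp [SL2R.mul_apply', t]
  rw [e]
  exact Subgroup.mul_mem _ (hR_mem_closure t) (uR_mem_closure _)

end generic

theorem mem_closure_elemSet_aux (hq : q ≠ 0) : ∀ (n : ℕ) (g : SL(2, A q)) (k : ℕ) (a' c' : ℤ),
    g 0 0 * (q : A q) ^ k = (a' : A q) → g 1 0 * (q : A q) ^ k = (c' : A q) → c'.natAbs = n →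
    g ∈ Subgroup.closure (elemSet (A q)) := by
  intro n
  induction n using Nat.strong_induction_on with
  | _ n ih =>
    intro g k a' c' ha hc hn
    by_cases hc0 : c' = 0
    · apply mem_closure_of_lower_zero
      have h1 : g 1 0 = g 1 0 * (q : A q) ^ k * (qInv q) ^ k := by
        rw [mul_assoc, ← mul_pow, q_mul_qInv hq, one_pow, mul_one]
      rw [h1, hc, hc0]
      simp
    · set n' : ℤ := a' / c' with hn'
      set r : ℤ := a' % c' with hr
      have hr0 : 0 ≤ r := Int.emod_nonneg _ hc0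
      have hrlt : r < |c'| := Int.emod_lt_abs _ hc0
      have hdiv : c' * n' + r = a' := Int.mul_ediv_add_emod a' c'
      set g₂ : SL(2, A q) := wR * (uR (-(n' : A q)) * g) with hg₂
      have h00 : g₂ 0 0 = - g 1 0 := by
        simp [hg₂, SL2R.mul_apply']
      have h10 : g₂ 1 0 = g 0 0 - (n' : A q) * g 1 0 := by
        simp [hg₂, SL2R.mul_apply']
        ring
      have hlt : r.natAbs < n := by
        rw [← hn]
        have : (r.natAbs : ℤ) < (c'.natAbs : ℤ) := by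
          rw [Int.natAbs_of_nonneg hr0, Int.natCast_natAbs]
          exact hrlt
        exact_mod_cast this
      have hmem : g₂ ∈ Subgroup.closure (elemSet (A q)) := by
        refine ih r.natAbs hlt g₂ k (-c') r ?_ ?_ rfl
        · rw [h00, neg_mul, hc]; push_cast; ring
        · rw [h10, sub_mul, mul_assoc, ha, hc, ← hdiv]; push_cast; ring
      have e : g = uR (n' : A q) * (wR⁻¹ * g₂) := by
        rw [hg₂, ← mul_assoc wR⁻¹, inv_mul_cancel, one_mul, ← mul_assoc, ← uR_add]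
        simp
      rw [e]
      exact Subgroup.mul_mem _ (uR_mem_closure _)
        (Subgroup.mul_mem _ (Subgroup.inv_mem _ wR_mem_closure) hmem)

/-- **`SL(2, ℤ[1/q])` is generated by elementary matrices.** -/
theorem closure_elemSet_eq_top (hq : q ≠ 0) : Subgroup.closure (elemSet (A q)) = ⊤ := by
  rw [eq_top_iff]
  intro g _
  obtain ⟨k₁, a₁, h₁⟩ := exists_mul_pow_eq_intCast (g 0 0)
  obtain ⟨k₂, c₂, h₂⟩ := exists_mul_pow_eq_intCast (g 1 0)
  refine mem_closure_elemSet_aux hq _ g (k₁ + k₂) (a₁ * (q : ℤ) ^ k₂) (c₂ * (q : ℤ) ^ k₁) ?_ ?_ rfl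
  · rw [pow_add, ← mul_assoc, h₁]; push_cast; ring
  · rw [pow_add, mul_comm ((q : A q) ^ k₁), ← mul_assoc, h₂]; push_cast; ring

/-- the same, in the form used by `SL2R.cenMod_eq_top` -/
theorem closure_elem_eq_top (hq : q ≠ 0) :
    Subgroup.closure ({g : SL(2, A q) | ∃ x, g = uR x} ∪ {g | ∃ y, g = lR y}) = ⊤ :=
  closure_elemSet_eq_top hq

/-! ### powers of `q` -/

theorem coe_qU_pow (hq : q ≠ 0) (k : ℕ) : (((qU hq) ^ k : (A q)ˣ) : A q) = (q : A q) ^ k := by
  simp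

theorem coe_qU_pow_inv (hq : q ≠ 0) (k : ℕ) :
    ((((qU hq) ^ k)⁻¹ : (A q)ˣ) : A q) = (qInv q) ^ k := by
  rw [← inv_pow]
  simp [qU]

/-- if `m ∣ q ^ k - 1` then `q ^ k ≡ 1` modulo `m ℤ[1/q]` -/
theorem q_pow_sub_one_mem {m k : ℕ} (h : (m : ℤ) ∣ (q : ℤ) ^ k - 1) :
    (q : A q) ^ k - 1 ∈ Ideal.span {(m : A q)} := by
  have := intCast_mem_span_of_dvd (q := q) h
  simpa using this

theorem qInv_pow_sub_one_mem (hq : q ≠ 0) {m k : ℕ} (h : (m : ℤ) ∣ (q : ℤ) ^ k - 1) :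
    (qInv q) ^ k - 1 ∈ Ideal.span {(m : A q)} := by
  have e : (qInv q) ^ k - 1 = -((qInv q) ^ k * ((q : A q) ^ k - 1)) := by
    have : (qInv q) ^ k * (q : A q) ^ k = 1 := by
      rw [← mul_pow, mul_comm, q_mul_qInv hq, one_pow]
    rw [mul_sub, this]; ring
  rw [e]
  exact neg_mem (Ideal.mul_mem_left _ _ (q_pow_sub_one_mem h))

/-- `diag(q^k, q^-k)` lies in the principal congruence subgroup of level `m` if `m ∣ q^k - 1` -/
theorem hR_qU_pow_mem_Gam (hq : q ≠ 0) {m k : ℕ} (h : (m : ℤ) ∣ (q : ℤ) ^ k - 1) :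
    hR ((qU hq) ^ k) ∈ Gam (Ideal.span {(m : A q)}) := by
  rw [mem_Gam]
  refine ⟨?_, ?_, ?_, ?_⟩
  · have := q_pow_sub_one_mem (q := q) h
    simpa using this
  · simp
  · simp
  · have := qInv_pow_sub_one_mem hq h
    simpa [coe_hR, ← inv_pow, qU] using this

end Fermat.Agent.LR.CSP
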