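import Mathlib
import Fermat.Agent.Jac.HeckeReps

set_option autoImplicit false

/-!
# Program M (S41), node D3: congruence homomorphisms are Eisenstein

A homomorphism `x : Γ₀(N) → M` that kills `Γ₀(N) ∩ Γ(m)` satisfies `T_l x = (l + 1) • x` for every
prime `l ∤ N` with `l ≡ 1 mod m`.

* `transfer_eq_card_smul` : generic criterion for a coset system.
* `heckeTransfer_eq_smul_of_kills_Gamma` : the statement for `Jac.heckeTransfer`.
* `TLam_eq_smul_of_kills_Gamma` : the statement on the lattice `Lam N`.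
-/

namespace Fermat.Agent.LR.CongEis

open Matrix.SpecialLinearGroup CongruenceSubgroup ModularForm Fermat.Agent.Jac
open scoped MatrixGroups
open P2MW.S_ModularForm_heckeT_slash_eq_self_of_mem_Gamma0.ModularForm.HeckeSlashInvariance

section Generic

variable {Γ G : Type*} [Group Γ] [Group G] {emb : Γ →* G} {ι : Type*} [Fintype ι]
  {M : Type*} [AddCommGroup M]

/-- If the values of `x` on the cocycle of a coset system are `x γ` up to a "coboundary"
`w i - w (next γ i)`, then the transfer of `x` is `card ι • x`. -/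
theorem transfer_eq_card_smul (D : CosetReps emb ι) (x : Additive Γ →+ M) (w : ι → M)
    (h : ∀ (γ : Γ) (i : ι), x (Additive.ofMul (D.coc γ i)) =
      w i + x (Additive.ofMul γ) - w (D.next γ i)) :
    D.transfer x = Fintype.card ι • x := by
  refine AddMonoidHom.ext fun γ' => ?_
  obtain ⟨γ, rfl⟩ := Additive.ofMul.surjective γ'
  rw [CosetReps.transfer_apply]
  simp only [h, Finset.sum_sub_distrib, Finset.sum_add_distrib, Finset.sum_const,
    Finset.card_univ, AddMonoidHom.coe_smul, Pi.smul_apply]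
  have h1 : ∑ i, w (D.next γ i) = ∑ i, w i := Equiv.sum_comp (D.nextEquiv γ) w
  rw [h1]
  abel

end Generic

section Concrete

variable (N : ℕ) [NeZero N]

/-- the unipotent element `[1, t; 0, 1]` of `Γ₀(N)` -/
def uN (t : ℤ) : Gamma0 N :=
  ⟨mkSL 1 t 0 1 (by ring), mkSL_mem_Gamma0 N _ _ _ _ _ (dvd_zero _)⟩

/-- the upper right entry of the representatives of `T_l` -/
def tOf {l : ℕ} (i : OnePoint (ZMod l)) : ℤ := i.elim 0 (fun j => (j.val : ℤ))

/-- the integral matrices of the representatives of `T_l` -/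
def repZ {l : ℕ} (i : OnePoint (ZMod l)) : Matrix (Fin 2) (Fin 2) ℤ :=
  i.elim !![(l : ℤ), 0; 0, 1] (fun j => !![1, (j.val : ℤ); 0, (l : ℤ)])

theorem val_heckeRep {l : ℕ} (hl : l ≠ 0) (i : OnePoint (ZMod l)) :
    ((heckeRep l i : GL (Fin 2) ℝ) : Matrix (Fin 2) (Fin 2) ℝ) =
      (repZ i).map (Int.cast : ℤ → ℝ) := by
  induction i using OnePoint.rec with
  | infty =>
    rw [heckeRep_infty, val_heckeDiagMatrix hl]
    ext a b
    fin_cases a <;> fin_cases b <;> simp [repZ]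
  | coe j =>
    rw [heckeRep_coe, val_heckeMatrix hl]
    ext a b
    fin_cases a <;> fin_cases b <;> simp [repZ]

theorem val_mapGL_eq_map (γ : SL(2, ℤ)) :
    ((mapGL ℝ γ : GL (Fin 2) ℝ) : Matrix (Fin 2) (Fin 2) ℝ) =
      (γ : Matrix (Fin 2) (Fin 2) ℤ).map (Int.cast : ℤ → ℝ) := by
  rw [val_mapGL]
  ext a b
  fin_cases a <;> fin_cases b <;> simp

omit [NeZero N] in
/-- the relation of the coset system of `T_l`, over `ℤ` -/
theorem repZ_mul {l : ℕ} (hl : l.Prime) (hlN : ¬ l ∣ N) (γ : Gamma0 N) (i : OnePoint (ZMod l)) :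
    repZ i * ((γ : SL(2, ℤ)) : Matrix (Fin 2) (Fin 2) ℤ) =
      (((TReps N hl hlN).coc γ i : Gamma0 N) : SL(2, ℤ)).1 *
        repZ ((TReps N hl hlN).next γ i) := by
  have h := (TReps N hl hlN).rel γ i
  have h' := congrArg (fun A : GL (Fin 2) ℝ => (A : Matrix (Fin 2) (Fin 2) ℝ)) h
  simp only [TReps_rep, embG_apply, Units.val_mul, val_heckeRep hl.ne_zero, val_mapGL_eq_map] at h'
  have hinj : Function.Injective (Int.cast : ℤ → ℝ) := Int.cast_injective
  apply Matrix.map_injective hinj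
  change (repZ i * ((γ : SL(2, ℤ)) : Matrix (Fin 2) (Fin 2) ℤ)).map (Int.castRingHom ℝ) =
    ((((TReps N hl hlN).coc γ i : Gamma0 N) : SL(2, ℤ)).1 *
      repZ ((TReps N hl hlN).next γ i)).map (Int.castRingHom ℝ)
  rw [Matrix.map_mul, Matrix.map_mul]
  exact h'

omit [NeZero N] in
/-- modulo `m`, with `l ≡ 1`, the representatives of `T_l` are the unipotent matrices -/
theorem repZ_map_zmod {l m : ℕ} (hlm : ((l : ℕ) : ZMod m) = 1) (i : OnePoint (ZMod l)) :
    (repZ i).map (Int.castRingHom (ZMod m)) =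
      (((uN N (tOf i) : Gamma0 N) : SL(2, ℤ)) : Matrix (Fin 2) (Fin 2) ℤ).map
        (Int.castRingHom (ZMod m)) := by
  induction i using OnePoint.rec with
  | infty =>
    ext a b
    fin_cases a <;> fin_cases b <;> simp [repZ, uN, mkSL, tOf, hlm]
  | coe j =>
    ext a b
    fin_cases a <;> fin_cases b <;> simp [repZ, uN, mkSL, tOf, hlm]

/-- the cocycle of `T_l` is `γ` up to unipotent elements, modulo `Γ(m)` -/
theorem coc_mul_mem_Gamma {l : ℕ} (hl : l.Prime) (hlN : ¬ l ∣ N) (m : ℕ)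
    (hlm : ((l : ℕ) : ZMod m) = 1) (γ : Gamma0 N) (i : OnePoint (ZMod l)) :
    (((TReps N hl hlN).coc γ i * uN N (tOf ((TReps N hl hlN).next γ i)) * γ⁻¹ *
      (uN N (tOf i))⁻¹ : Gamma0 N) : SL(2, ℤ)) ∈ Gamma m := by
  set c := (TReps N hl hlN).coc γ i with hc
  set s := (TReps N hl hlN).next γ i with hs
  have hkey : Matrix.SpecialLinearGroup.map (Int.castRingHom (ZMod m)) (c : SL(2, ℤ)) *
      Matrix.SpecialLinearGroup.map (Int.castRingHom (ZMod m)) ((uN N (tOf s) : Gamma0 N) : SL(2, ℤ))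
      = Matrix.SpecialLinearGroup.map (Int.castRingHom (ZMod m))
          ((uN N (tOf i) : Gamma0 N) : SL(2, ℤ)) *
        Matrix.SpecialLinearGroup.map (Int.castRingHom (ZMod m)) (γ : SL(2, ℤ)) := by
    apply Subtype.ext
    simp only [Matrix.SpecialLinearGroup.coe_mul, Matrix.SpecialLinearGroup.map_apply_coe,
      RingHom.mapMatrix_apply]
    rw [← repZ_map_zmod N hlm s, ← repZ_map_zmod N hlm i, ← Matrix.map_mul, ← Matrix.map_mul,
      repZ_mul N hl hlN γ i]
  rw [Gamma_mem']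
  simp only [Subgroup.coe_mul, Subgroup.coe_inv, map_mul, map_inv]
  rw [hkey]
  group

variable {M : Type*} [AddCommGroup M]

/-- **Node D3.** A homomorphism `x : Γ₀(N) → M` killing `Γ₀(N) ∩ Γ(m)` is an eigenvector of `T_l`
with eigenvalue `l + 1` for every prime `l ∤ N`, `l ≡ 1 mod m`. -/
theorem heckeTransfer_eq_smul_of_kills_Gamma (m : ℕ) (l : Nat.Primes) (hlN : ¬ (l : ℕ) ∣ N)
    (hlm : ((l : ℕ) : ZMod m) = 1) (x : Additive (Gamma0 N) →+ M)
    (hx : ∀ γ : Gamma0 N, (γ : SL(2, ℤ)) ∈ Gamma m → x (Additive.ofMul γ) = 0) :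
    heckeTransfer N l M x = ((l : ℕ) + 1) • x := by
  have : NeZero (l : ℕ) := ⟨l.2.ne_zero⟩
  rw [heckeTransfer_of_not_dvd M hlN]
  have h := transfer_eq_card_smul (TReps N l.2 hlN) x
    (fun i => x (Additive.ofMul (uN N (tOf i)))) (fun γ i => by
      have hκ := hx _ (coc_mul_mem_Gamma N l.2 hlN m hlm γ i)
      simp only [ofMul_mul, ofMul_inv, map_add, map_neg] at hκ
      have : x (Additive.ofMul ((TReps N l.2 hlN).coc γ i)) =
          x (Additive.ofMul (uN N (tOf i))) + x (Additive.ofMul γ) -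
            x (Additive.ofMul (uN N (tOf ((TReps N l.2 hlN).next γ i)))) := by
        rw [← sub_eq_zero, ← hκ]
        abel
      exact this)
  rw [h]
  congr 1
  change Fintype.card (Option (ZMod (l : ℕ))) = (l : ℕ) + 1
  rw [Fintype.card_option, ZMod.card]

/-- Node D3 in the shape requested by the programme lead (`l % m = 1`; the hypothesis `N ∣ m` is not
needed and only kept for the interface). -/
theorem heckeTransfer_eq_succ_smul (m : ℕ) (_hNm : N ∣ m) (l : Nat.Primes)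
    (hl : (l : ℕ) % m = 1) (hlN : ¬ (l : ℕ) ∣ N) (M : Type*) [AddCommGroup M]
    (x : Additive (Gamma0 N) →+ M)
    (hx : ∀ γ : Gamma0 N, (γ : SL(2, ℤ)) ∈ Gamma m → x (Additive.ofMul γ) = 0) :
    heckeTransfer N l M x = ((l : ℕ) + 1) • x := by
  refine heckeTransfer_eq_smul_of_kills_Gamma N m l hlN ?_ x hx
  rw [← ZMod.natCast_mod, hl, Nat.cast_one]

/-- Node D3 on the lattice `Λ = Hom_par(Γ₀(N), ℤ)`. -/
theorem TLam_eq_smul_of_kills_Gamma (m : ℕ) (l : Nat.Primes) (hlN : ¬ (l : ℕ) ∣ N)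
    (hlm : ((l : ℕ) : ZMod m) = 1) (lam : Lam N)
    (hx : ∀ γ : Gamma0 N, (γ : SL(2, ℤ)) ∈ Gamma m →
      (lam : Additive (Gamma0 N) →+ ℤ) (Additive.ofMul γ) = 0) :
    TLam N l lam = ((l : ℕ) + 1) • lam := by
  apply Subtype.ext
  rw [coe_TLam_apply, heckeTransfer_eq_smul_of_kills_Gamma N m l hlN hlm _ hx]
  simp

end Concrete

end Fermat.Agent.LR.CongEis
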