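import Mathlib
import Fermat.Agent.Jac.LamSpan
import Fermat.Agent.LR.CongEis

set_option autoImplicit false
set_option linter.style.haveILetI false
set_option linter.unusedSectionVars false

/-!
# Program M (S41), node I: Ihara assembly (hypothesis form)

* `IsConjDelta q γ γ'` : `γ' = δ γ δ⁻¹` with `δ = diag(q, 1)`, entrywise.
* `IharaGroupForm N q p` : the group-theoretic form of Ihara's lemma (what the amalgam theorem D1
  and the congruence subgroup property D2 give), stated on `Γ₀(N)` only.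
* `exists_level` : the `R`-free core: there is a level `m` such that for every prime `l ∤ N`,
  `l ≡ 1 mod m`, the operator `T_l - (l + 1)` maps the kernel of `(a, b) ↦ A1 a + A2 b` modulo `p`
  into `p • (Λ × Λ)`.
* `ihara_hyp` : the `ihara` hypothesis of `LR.Abstract.exists_kernel_class`.
-/

namespace Fermat.Agent.LR.Ihara

open CongruenceSubgroup ModularCurve.Period Fermat.Agent.Jac Fermat.Agent.LR.CongEis
open scoped MatrixGroups

/-- `γ' = δ γ δ⁻¹` with `δ = diag(q, 1)`: `[a, b; c, d] ↦ [a, q b; c / q, d]`. -/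
def IsConjDelta (q : ℕ) (γ γ' : SL(2, ℤ)) : Prop :=
  γ' 0 0 = γ 0 0 ∧ γ' 0 1 = (q : ℤ) * γ 0 1 ∧ (q : ℤ) * γ' 1 0 = γ 1 0 ∧ γ' 1 1 = γ 1 1

/-- The group form of Ihara's lemma: two homomorphisms `x, y : Γ₀(N) → 𝔽_p` with
`x(γ) + y(δ γ δ⁻¹) = 0` on `Γ₀(N q)` are congruence homomorphisms. -/
def IharaGroupForm (N q p : ℕ) : Prop :=
  ∀ x y : Additive (Gamma0 N) →+ ZMod p,
    (∀ (γ : Gamma0 (N * q)) (γ₁ γ₂ : Gamma0 N), (γ₁ : SL(2, ℤ)) = (γ : SL(2, ℤ)) →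
      IsConjDelta q (γ : SL(2, ℤ)) (γ₂ : SL(2, ℤ)) →
        x (Additive.ofMul γ₁) + y (Additive.ofMul γ₂) = 0) →
    ∃ m : ℕ, 0 < m ∧ ∀ g : Gamma0 N, (g : SL(2, ℤ)) ∈ Gamma m →
      x (Additive.ofMul g) = 0 ∧ y (Additive.ofMul g) = 0

/-! ### Generalities -/

theorem Gamma_le_of_dvd {m m' : ℕ} (h : m ∣ m') : Gamma m' ≤ Gamma m := by
  intro g hg
  rw [Gamma_mem] at hg ⊢
  have key : ∀ a : ℤ, ∀ c : ℤ, ((a : ℤ) : ZMod m') = (c : ZMod m') → ((a : ℤ) : ZMod m) = (c : ZMod m) := by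
    intro a c hac
    have := congrArg (ZMod.castHom h (ZMod m)) hac
    simpa using this
  refine ⟨?_, ?_, ?_, ?_⟩
  · simpa using key (g 0 0) 1 (by simpa using hg.1)
  · simpa using key (g 0 1) 0 (by simpa using hg.2.1)
  · simpa using key (g 1 0) 0 (by simpa using hg.2.2.1)
  · simpa using key (g 1 1) 1 (by simpa using hg.2.2.2)

/-- uniformisation of a level over a finite index set -/
theorem exists_uniform {α : Type*} [Finite α] (P : α → ℕ → Prop)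
    (hmono : ∀ a m m', m ∣ m' → P a m → P a m')
    (h : ∀ a, ∃ m, 0 < m ∧ P a m) : ∃ m, 0 < m ∧ ∀ a, P a m := by
  classical
  haveI := Fintype.ofFinite α
  choose f hf0 hf using h
  refine ⟨∏ a, f a, Finset.prod_pos fun a _ => hf0 a, fun a => ?_⟩
  exact hmono a (f a) _ (Finset.dvd_prod_of_mem f (Finset.mem_univ a)) (hf a)

section Finite

variable (N : ℕ) [NeZero N] (p : ℕ) [Fact p.Prime]

/-- `Hom(Γ₀(N), 𝔽_p)` is finite. -/
theorem finite_hom_zmod : Finite (Additive (Gamma0 N) →+ ZMod p) := by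
  haveI : NeZero p := ⟨(Fact.out : p.Prime).ne_zero⟩
  obtain ⟨S, hS⟩ := (AddGroup.fg_def).mp (addGroupFG_additive_gamma0 N)
  let ev : (Additive (Gamma0 N) →+ ZMod p) → (S → ZMod p) := fun φ s => φ s
  have hev : Function.Injective ev := by
    intro φ ψ h
    refine AddMonoidHom.eq_of_eqOn_dense hS fun s hs => ?_
    exact congrFun h ⟨s, hs⟩
  exact Finite.of_injective ev hev

/-- An element of `Λ` all of whose values are divisible by `p` is `p` times an element of `Λ`. -/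
theorem exists_eq_smul_of_forall_dvd (c : Lam N)
    (h : ∀ γ : Gamma0 N, (p : ℤ) ∣ (c : Additive (Gamma0 N) →+ ℤ) (Additive.ofMul γ)) :
    ∃ z : Lam N, c = (p : ℤ) • z := by
  have hp0 : (p : ℤ) ≠ 0 := by exact_mod_cast (Fact.out : p.Prime).ne_zero
  have h' : ∀ g : Additive (Gamma0 N), (p : ℤ) ∣ (c : Additive (Gamma0 N) →+ ℤ) g := fun g =>
    h (Additive.toMul g)
  let z0 : Additive (Gamma0 N) →+ ℤ :=
    { toFun := fun g => (c : Additive (Gamma0 N) →+ ℤ) g / (p : ℤ)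
      map_zero' := by simp
      map_add' := fun g g' => by
        rw [map_add, Int.add_ediv_of_dvd_left (h' g)] }
  have hz0 : z0 ∈ Lam N := by
    intro γ hγ
    have hc := c.2 γ hγ
    show (c : Additive (Gamma0 N) →+ ℤ) (Additive.ofMul γ) / (p : ℤ) = 0
    rw [hc, Int.zero_ediv]
  refine ⟨⟨z0, hz0⟩, ?_⟩
  apply Subtype.ext
  refine AddMonoidHom.ext fun g => ?_
  show (c : Additive (Gamma0 N) →+ ℤ) g = (p : ℤ) * ((c : Additive (Gamma0 N) →+ ℤ) g / (p : ℤ))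
  rw [Int.mul_ediv_cancel' (h' g)]

end Finite

section Core

variable (N q p : ℕ) [NeZero N] [NeZero (N * q)] [Fact p.Prime]

/-- **Node I, `R`-free core.** Under the group form of Ihara's lemma there is a level `m` such that
for every prime `l ∤ N`, `l ≡ 1 mod m`, the operator `T_l - (l + 1)` maps the kernel modulo `p` of
`(a, b) ↦ A1 a + A2 b` into `p • (Λ × Λ)`. -/
theorem exists_level (hI : IharaGroupForm N q p)
    (A1 A2 : Lam N →ₗ[ℤ] Lam (N * q))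
    (hA1 : ∀ (a : Lam N) (γ : Gamma0 (N * q)) (γ₁ : Gamma0 N),
      (γ₁ : SL(2, ℤ)) = (γ : SL(2, ℤ)) →
      ((A1 a : Lam (N * q)) : Additive (Gamma0 (N * q)) →+ ℤ) (Additive.ofMul γ) =
        (a : Additive (Gamma0 N) →+ ℤ) (Additive.ofMul γ₁))
    (hA2 : ∀ (b : Lam N) (γ : Gamma0 (N * q)) (γ₂ : Gamma0 N),
      IsConjDelta q (γ : SL(2, ℤ)) (γ₂ : SL(2, ℤ)) →
      ((A2 b : Lam (N * q)) : Additive (Gamma0 (N * q)) →+ ℤ) (Additive.ofMul γ) =
        (b : Additive (Gamma0 N) →+ ℤ) (Additive.ofMul γ₂)) :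
    ∃ m : ℕ, 0 < m ∧ ∀ l : Nat.Primes, ¬ (l : ℕ) ∣ N → (l : ℕ) ≡ 1 [MOD m] →
      ∀ a b : Lam N, (∃ y : Lam (N * q), A1 a + A2 b = (p : ℤ) • y) →
        (∃ z : Lam N, TLam N l a - (((l : ℕ) + 1 : ℕ) : ℤ) • a = (p : ℤ) • z) ∧
        (∃ z : Lam N, TLam N l b - (((l : ℕ) + 1 : ℕ) : ℤ) • b = (p : ℤ) • z) := by
  classical
  haveI := finite_hom_zmod N p
  -- uniform level
  let Compat : (Additive (Gamma0 N) →+ ZMod p) × (Additive (Gamma0 N) →+ ZMod p) → Prop :=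
    fun xy => ∀ (γ : Gamma0 (N * q)) (γ₁ γ₂ : Gamma0 N), (γ₁ : SL(2, ℤ)) = (γ : SL(2, ℤ)) →
      IsConjDelta q (γ : SL(2, ℤ)) (γ₂ : SL(2, ℤ)) →
        xy.1 (Additive.ofMul γ₁) + xy.2 (Additive.ofMul γ₂) = 0
  let P : (Additive (Gamma0 N) →+ ZMod p) × (Additive (Gamma0 N) →+ ZMod p) → ℕ → Prop :=
    fun xy m => Compat xy → ∀ g : Gamma0 N, (g : SL(2, ℤ)) ∈ Gamma m →
      xy.1 (Additive.ofMul g) = 0 ∧ xy.2 (Additive.ofMul g) = 0
  obtain ⟨m, hm0, hm⟩ := exists_uniform P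
    (fun xy m m' hdvd hP hc g hg => hP hc g (Gamma_le_of_dvd hdvd hg))
    (fun xy => by
      by_cases hc : Compat xy
      · obtain ⟨m, hm0, hm⟩ := hI xy.1 xy.2 hc
        exact ⟨m, hm0, fun _ => hm⟩
      · exact ⟨1, one_pos, fun hc' => absurd hc' hc⟩)
  refine ⟨m, hm0, fun l hlN hlm a b ⟨y, hy⟩ => ?_⟩
  have hlm' : (((l : ℕ) : ℕ) : ZMod m) = 1 := by
    have := (ZMod.natCast_eq_natCast_iff _ _ _).mpr hlm
    simpa using this
  -- reductions mod p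
  let π : ℤ →+ ZMod p := Int.castAddHom (ZMod p)
  have hcompat : Compat (π.comp (a : Additive (Gamma0 N) →+ ℤ),
      π.comp (b : Additive (Gamma0 N) →+ ℤ)) := by
    intro γ γ₁ γ₂ h1 h2
    have e1 := hA1 a γ γ₁ h1
    have e2 := hA2 b γ γ₂ h2
    have e3 := congrArg (fun c : Lam (N * q) =>
      (c : Additive (Gamma0 (N * q)) →+ ℤ) (Additive.ofMul γ)) hy
    simp only [Submodule.coe_add, AddMonoidHom.add_apply, Submodule.coe_smul,
      AddMonoidHom.coe_smul, Pi.smul_apply, smul_eq_mul] at e3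
    rw [e1, e2] at e3
    show π _ + π _ = 0
    rw [← map_add, e3]
    simp [π]
  have hkill := hm (_, _) hcompat
  -- D3
  have key : ∀ (c : Lam N), (∀ g : Gamma0 N, (g : SL(2, ℤ)) ∈ Gamma m →
      (π.comp (c : Additive (Gamma0 N) →+ ℤ)) (Additive.ofMul g) = 0) →
      ∃ z : Lam N, TLam N l c - (((l : ℕ) + 1 : ℕ) : ℤ) • c = (p : ℤ) • z := by
    intro c hc
    apply exists_eq_smul_of_forall_dvd
    intro γ
    have h1 := heckeTransfer_eq_smul_of_kills_Gamma N m l hlN hlm'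
      (π.comp (c : Additive (Gamma0 N) →+ ℤ)) hc
    rw [heckeTransfer_comp] at h1
    have h2 := congrArg (fun φ : Additive (Gamma0 N) →+ ZMod p => φ (Additive.ofMul γ)) h1
    simp only [AddMonoidHom.comp_apply, AddMonoidHom.coe_smul, Pi.smul_apply] at h2
    rw [← ZMod.intCast_zmod_eq_zero_iff_dvd]
    simp only [Submodule.coe_sub, AddMonoidHom.sub_apply, Submodule.coe_smul,
      AddMonoidHom.coe_smul, Pi.smul_apply, smul_eq_mul, coe_TLam_apply]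
    push_cast
    have h3 : π ((heckeTransfer N l ℤ (c : Additive (Gamma0 N) →+ ℤ)) (Additive.ofMul γ)) =
        (((heckeTransfer N l ℤ (c : Additive (Gamma0 N) →+ ℤ)) (Additive.ofMul γ) : ℤ) : ZMod p) :=
      rfl
    have h4 : π ((c : Additive (Gamma0 N) →+ ℤ) (Additive.ofMul γ)) =
        (((c : Additive (Gamma0 N) →+ ℤ) (Additive.ofMul γ) : ℤ) : ZMod p) := rfl
    rw [h3, h4] at h2
    rw [h2]
    simp [nsmul_eq_mul]
  exact ⟨key a (fun g hg => (hkill g hg).1), key b (fun g hg => (hkill g hg).2)⟩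

/-- **Node I, `R`-form**: the `ihara` hypothesis of `LR.Abstract.exists_kernel_class`, with
`r = T_l - (l + 1)` for a prime `l ≡ 1` modulo the level of `exists_level` at which `θ` is not
Eisenstein (hypothesis `hE`, node E). -/
theorem ihara_hyp (hI : IharaGroupForm N q p)
    (A1 A2 : Lam N →ₗ[ℤ] Lam (N * q))
    (hA1 : ∀ (a : Lam N) (γ : Gamma0 (N * q)) (γ₁ : Gamma0 N),
      (γ₁ : SL(2, ℤ)) = (γ : SL(2, ℤ)) →
      ((A1 a : Lam (N * q)) : Additive (Gamma0 (N * q)) →+ ℤ) (Additive.ofMul γ) =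
        (a : Additive (Gamma0 N) →+ ℤ) (Additive.ofMul γ₁))
    (hA2 : ∀ (b : Lam N) (γ : Gamma0 (N * q)) (γ₂ : Gamma0 N),
      IsConjDelta q (γ : SL(2, ℤ)) (γ₂ : SL(2, ℤ)) →
      ((A2 b : Lam (N * q)) : Additive (Gamma0 (N * q)) →+ ℤ) (Additive.ofMul γ) =
        (b : Additive (Gamma0 N) →+ ℤ) (Additive.ofMul γ₂))
    {R : Type*} [CommRing R] [Module R (Lam N)] [Module R (Lam (N * q))]
    {ι : Type*} (T : ι → R) (pr : ι → Nat.Primes)
    (hT : ∀ (j : ι) (a : Lam N), T j • a = TLam N (pr j) a)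
    (θ : R →+* ZMod p)
    (hE : ∀ m : ℕ, 0 < m → ∃ j : ι, ¬ ((pr j : ℕ)) ∣ N ∧ ((pr j : ℕ)) ≡ 1 [MOD m] ∧
      θ (T j) ≠ (((pr j : ℕ)) : ZMod p) + 1)
    (i : (Lam N × Lam N) →ₗ[R] Lam (N * q)) (hi : ∀ a b : Lam N, i (a, b) = A1 a + A2 b) :
    ∃ r : R, r ∉ RingHom.ker θ ∧ ∀ x : Lam N × Lam N,
      (∃ y : Lam (N * q), i x = (p : ℤ) • y) → ∃ z : Lam N × Lam N, r • x = (p : ℤ) • z := by
  obtain ⟨m, hm0, hm⟩ := exists_level N q p hI A1 A2 hA1 hA2
  obtain ⟨j, hjN, hjm, hjθ⟩ := hE m hm0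
  refine ⟨T j - ((((pr j : ℕ)) + 1 : ℕ) : R), ?_, ?_⟩
  · rw [RingHom.mem_ker, map_sub, map_natCast, sub_eq_zero]
    push_cast
    exact hjθ
  · rintro ⟨a, b⟩ ⟨y, hy⟩
    rw [hi] at hy
    obtain ⟨⟨za, hza⟩, ⟨zb, hzb⟩⟩ := hm (pr j) hjN hjm a b ⟨y, hy⟩
    have hsm : ∀ c : Lam N, (T j - ((((pr j : ℕ)) + 1 : ℕ) : R)) • c =
        TLam N (pr j) c - ((((pr j : ℕ)) + 1 : ℕ) : ℤ) • c := by
      intro c
      rw [sub_smul, hT, Nat.cast_smul_eq_nsmul, natCast_zsmul]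
    refine ⟨(za, zb), ?_⟩
    rw [Prod.smul_mk, Prod.smul_mk, hsm, hsm, hza, hzb]

end Core

end Fermat.Agent.LR.Ihara
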