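/-
Program M (S41), glue D1 + D2 ⇒ node I (helper19): the amalgam theorem (`LR/AmalgamMain.lean`)
together with the weak congruence subgroup property `CSP N q p` for `Γ₀(N)[1/q]` (node D2, stated
here as a `Prop`) gives the hypothesis `Ihara.IharaGroupForm N q p` of `LR/IharaAsm.lean`.
-/
import Mathlib
import Fermat.Agent.LR.AmalgamMain
import Fermat.Agent.LR.IharaAsm

set_option autoImplicit false
set_option linter.unusedSimpArgs false

namespace Fermat.Agent.LR.IharaGroup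

open Matrix CongruenceSubgroup
open Fermat.Agent.LR.Gen Fermat.Agent.LR.Amalgam Fermat.Agent.LR.Ihara
open scoped MatrixGroups

/-- `g ≡ 1` modulo `m ℤ[1/q]`, entrywise. -/
def IsCongOne (q m : ℕ) (g : SL(2, ℚ)) : Prop :=
  ∀ i j, ∃ t ∈ zInv q, g i j - (1 : Matrix (Fin 2) (Fin 2) ℚ) i j = (m : ℚ) * t

/-- The weak congruence subgroup property for `Γ₀(N)[1/q]` with `𝔽_p`-coefficients: every
homomorphism to `𝔽_p` kills a principal congruence subgroup. (Node D2.) -/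
def CSP (N q p : ℕ) : Prop :=
  ∀ φ : ↥(gamma0Loc N q) →* Multiplicative (ZMod p),
    ∃ m : ℕ, 0 < m ∧ ∀ g : ↥(gamma0Loc N q), IsCongOne q m (g : SL(2, ℚ)) → φ g = 1

variable {N q : ℕ}

theorem isCongOne_castSL {m : ℕ} {g : SL(2, ℤ)} (hg : g ∈ Gamma m) :
    IsCongOne q m (castSL g) := by
  rw [Gamma_mem] at hg
  obtain ⟨h00, h01, h10, h11⟩ := hg
  have key : ∀ (a c : ℤ), ((a : ℤ) : ZMod m) = ((c : ℤ) : ZMod m) →
      ∃ t ∈ zInv q, (a : ℚ) - (c : ℚ) = (m : ℚ) * t := by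
    intro a c h
    have : (m : ℤ) ∣ a - c := by
      rw [← ZMod.intCast_zmod_eq_zero_iff_dvd]
      push_cast
      rw [h, sub_self]
    obtain ⟨t, ht⟩ := this
    refine ⟨t, intCast_mem_zInv q t, ?_⟩
    have : ((a - c : ℤ) : ℚ) = (((m : ℤ) * t : ℤ) : ℚ) := by rw [ht]
    push_cast at this
    exact this
  intro i j
  fin_cases i <;> fin_cases j
  · simpa using key (g 0 0) 1 (by simpa using h00)
  · simpa using key (g 0 1) 0 (by simpa using h01)
  · simpa using key (g 1 0) 0 (by simpa using h10)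
  · simpa using key (g 1 1) 1 (by simpa using h11)

theorem isCongOne_conjD_castSL (hq0 : (q : ℚ) ≠ 0) {m : ℕ} {g : SL(2, ℤ)} (hg : g ∈ Gamma m) :
    IsCongOne q m (conjD (q : ℚ) hq0 (castSL g)) := by
  have h := isCongOne_castSL (q := q) hg
  have hqz : (q : ℚ) ∈ zInv q := by exact_mod_cast intCast_mem_zInv q (q : ℤ)
  intro i j
  rw [conjD_apply]
  fin_cases i <;> fin_cases j
  · simpa using h 0 0
  · obtain ⟨t, ht, e⟩ := h 0 1
    refine ⟨t * (q : ℚ)⁻¹, (zInv q).mul_mem ht (inv_mem_zInv q), ?_⟩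
    simp only [Matrix.of_apply, Matrix.cons_val', Matrix.cons_val_zero, Matrix.cons_val_one,
      Fin.zero_eta, Fin.mk_one] at e ⊢
    have e' : castSL g 0 1 = (m : ℚ) * t := by simpa using e
    rw [e']
    simp
    field_simp
  · obtain ⟨t, ht, e⟩ := h 1 0
    refine ⟨(q : ℚ) * t, (zInv q).mul_mem hqz ht, ?_⟩
    simp only [Matrix.of_apply, Matrix.cons_val', Matrix.cons_val_zero, Matrix.cons_val_one,
      Fin.zero_eta, Fin.mk_one] at e ⊢
    have e' : castSL g 1 0 = (m : ℚ) * t := by simpa using e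
    rw [e']
    simp
    ring
  · simpa using h 1 1


/-- **D1 + D2 ⇒ the group form of Ihara's lemma** (hypothesis `IharaGroupForm` of node I). -/
theorem iharaGroupForm_of_csp {p : ℕ} (hq : q.Prime) (hqN : ¬ q ∣ N) (h : CSP N q p) :
    IharaGroupForm N q p := by
  intro x y hcompat
  have hq0 : (q : ℚ) ≠ 0 := Nat.cast_ne_zero.2 hq.ne_zero
  have hxy : ∀ γ η : Gamma0 N,
      castSL (γ : SL(2, ℤ)) = conjD (q : ℚ) (Nat.cast_ne_zero.2 hq.ne_zero) (castSL η) →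
        x (Additive.ofMul γ) = (-y) (Additive.ofMul η) := by
    intro γ η hγη
    have hent : ∀ i j, (castSL (γ : SL(2, ℤ)) : Matrix (Fin 2) (Fin 2) ℚ) i j =
        (conjD (q : ℚ) hq0 (castSL η) : Matrix (Fin 2) (Fin 2) ℚ) i j := fun i j => by rw [hγη]
    have e00 := hent 0 0
    have e01 := hent 0 1
    have e10 := hent 1 0
    have e11 := hent 1 1
    rw [conjD_apply] at e00 e01 e10 e11
    simp only [castSL_apply, Matrix.of_apply, Matrix.cons_val', Matrix.cons_val_zero,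
      Matrix.cons_val_one, Fin.zero_eta, Fin.mk_one] at e00 e01 e10 e11
    have f00 : (η : SL(2, ℤ)) 0 0 = (γ : SL(2, ℤ)) 0 0 := by exact_mod_cast e00.symm
    have f11 : (η : SL(2, ℤ)) 1 1 = (γ : SL(2, ℤ)) 1 1 := by exact_mod_cast e11.symm
    have f01 : (η : SL(2, ℤ)) 0 1 = (q : ℤ) * (γ : SL(2, ℤ)) 0 1 := by
      have : (((η : SL(2, ℤ)) 0 1 : ℤ) : ℚ) = (q : ℚ) * (((γ : SL(2, ℤ)) 0 1 : ℤ) : ℚ) := by
        rw [e01]; field_simp
      exact_mod_cast this
    have f10 : (q : ℤ) * (η : SL(2, ℤ)) 1 0 = (γ : SL(2, ℤ)) 1 0 := by exact_mod_cast e10.symm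
    have hη := η.2
    rw [Gamma0_mem] at hη
    obtain ⟨t, ht⟩ := (ZMod.intCast_zmod_eq_zero_iff_dvd _ _).1 hη
    have hγ' : (γ : SL(2, ℤ)) ∈ Gamma0 (N * q) := by
      rw [Gamma0_mem]
      refine (ZMod.intCast_zmod_eq_zero_iff_dvd _ _).2 ⟨t, ?_⟩
      rw [← f10, ht]; push_cast; ring
    have := hcompat ⟨(γ : SL(2, ℤ)), hγ'⟩ γ η rfl ⟨f00, f01, f10, f11⟩
    rw [AddMonoidHom.neg_apply]
    exact eq_neg_of_add_eq_zero_left this
  obtain ⟨φ, ⟨hφx, hφy⟩, -⟩ := exists_unique_extension hq hqN x (-y) hxy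
  obtain ⟨m, hm0, hm⟩ := h φ
  refine ⟨m, hm0, fun g hg => ⟨?_, ?_⟩⟩
  · have := hm ⟨castSL g, castSL_mem q g⟩ (isCongOne_castSL hg)
    rw [hφx] at this
    exact ofAdd_eq_one.1 this
  · have := hm ⟨conjD (q : ℚ) (Nat.cast_ne_zero.2 hq.ne_zero) (castSL g),
      conjD_castSL_mem hq.ne_zero g⟩ (isCongOne_conjD_castSL _ hg)
    rw [hφy] at this
    have h0 := ofAdd_eq_one.1 this
    rw [AddMonoidHom.neg_apply, neg_eq_zero] at h0
    exact h0

end Fermat.Agent.LR.IharaGroup
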