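import Mathlib
import Fermat.Agent.LR.IharaGroup
import Fermat.Agent.LR.DegLam

set_option autoImplicit false
set_option linter.style.haveILetI false

/-!
# Program M (S41), node I, final plug

`exists_level_of_csp` : for the degeneracy maps `A1 = Deg.A1Lam N q`, `A2 = (Deg.alData N q _ _).A2Lam`
of node B, the hypothesis (I) of `S41Main.s41_of_nodes` follows from the weak congruence subgroup
property `IharaGroup.CSP N q p` (node D2) alone: D1 (amalgam), D3 (congruence homomorphisms are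
Eisenstein) and the pointwise descriptions of `A1`, `A2` are plugged in.
-/

namespace Fermat.Agent.LR.IharaFinal

open CongruenceSubgroup Fermat.Agent.Jac Fermat.Agent.LR
open scoped MatrixGroups

/-- **Node I, final form**: hypothesis (I) of `S41Main.s41_of_nodes` from `CSP N q p`. -/
theorem exists_level_of_csp (N q p : ℕ) [NeZero N] [NeZero (N * q)] [Fact p.Prime]
    (hq : q.Prime) (hqN : ¬ q ∣ N) (hcsp : IharaGroup.CSP N q p) :
    ∃ m : ℕ, 0 < m ∧ ∀ l : Nat.Primes, ¬ (l : ℕ) ∣ N → (l : ℕ) ≡ 1 [MOD m] →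
      ∀ a b : Lam N,
        (∃ y : Lam (N * q), Deg.A1Lam N q a + (Deg.alData N q hq hqN).A2Lam b = (p : ℤ) • y) →
        (∃ z : Lam N, TLam N l a - (((l : ℕ) + 1 : ℕ) : ℤ) • a = (p : ℤ) • z) ∧
        (∃ z : Lam N, TLam N l b - (((l : ℕ) + 1 : ℕ) : ℤ) • b = (p : ℤ) • z) := by
  haveI : NeZero q := ⟨hq.ne_zero⟩
  refine Ihara.exists_level N q p (IharaGroup.iharaGroupForm_of_csp hq hqN hcsp)
    (Deg.A1Lam N q) ((Deg.alData N q hq hqN).A2Lam) ?_ ?_
  · intro a γ γ₁ h
    exact Deg.A1Lam_apply_of_coe_eq a γ γ₁ h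
  · intro b γ γ₂ h
    rw [Deg.alData_eq]
    exact Deg.ALData.ofBez_A2Lam_apply_of_conj (Deg.bez N q hq hqN) b γ γ₂ h

end Fermat.Agent.LR.IharaFinal
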