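/-
Program M (S41), node I, parabolic interface (helper15).

The paper proof of the weak congruence subgroup property (node D2) treats the homomorphisms
`φ : Γ₀(N)[1/q] → 𝔽_p` which kill all unipotent elements; this is all the application needs, since the
pairs `(x, y)` to which Ihara's lemma is applied are reductions of elements of the lattice
`Λ = Hom_par(Γ₀(N), ℤ)`.  This file provides the corresponding interface:

* `IsUnip g` (trace `2`), `CSPPar N q p` : `CSP` restricted to the `φ` killing the unipotents;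
* `IharaGroupFormPar N q p` : `Ihara.IharaGroupForm` restricted to pairs with `x` parabolic;
* `extension_kills_unip` : a homomorphism of `Γ₀(N)[1/q]` restricting to a parabolic homomorphism on
  `Γ₀(N)` kills every unipotent (`p ≠ q` primes): a power `g ^ (q ^ k)` is an integral parabolic
  matrix;
* `iharaGroupFormPar_of_cspPar`, `exists_level_par`, `exists_level_of_cspPar` : the final form of
  node I (hypothesis (I) of `S41Main.s41_of_nodes`) from `CSPPar N q p`.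
-/
import Mathlib
import Fermat.Agent.LR.IharaFinal

set_option autoImplicit false
set_option linter.style.haveILetI false
set_option linter.unusedSimpArgs false
set_option linter.unusedSectionVars false

namespace Fermat.Agent.LR.IharaPar

open Matrix CongruenceSubgroup ModularCurve.Period
open Fermat.Agent.Jac Fermat.Agent.LR
open Fermat.Agent.LR.Gen Fermat.Agent.LR.Amalgam Fermat.Agent.LR.Ihara Fermat.Agent.LR.IharaGroup
open Fermat.Agent.LR.CongEis
open scoped MatrixGroups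

/-- unipotent elements of `SL(2, ℚ)`: trace `2` -/
def IsUnip (g : SL(2, ℚ)) : Prop := (g : Matrix (Fin 2) (Fin 2) ℚ).trace = 2

/-- The weak congruence subgroup property for the homomorphisms `Γ₀(N)[1/q] → 𝔽_p` killing all
unipotent elements. (Node D2, in the form delivered by the paper proof.) -/
def CSPPar (N q p : ℕ) : Prop :=
  ∀ φ : ↥(gamma0Loc N q) →* Multiplicative (ZMod p),
    (∀ g : ↥(gamma0Loc N q), IsUnip (g : SL(2, ℚ)) → φ g = 1) →
    ∃ m : ℕ, 0 < m ∧ ∀ g : ↥(gamma0Loc N q), IsCongOne q m (g : SL(2, ℚ)) → φ g = 1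

theorem cspPar_of_csp {N q p : ℕ} (h : CSP N q p) : CSPPar N q p := fun φ _ => h φ

/-- The group form of Ihara's lemma for pairs whose first component is parabolic. -/
def IharaGroupFormPar (N q p : ℕ) : Prop :=
  ∀ x y : Additive (Gamma0 N) →+ ZMod p, IsParabolicHom (Gamma0 N) x →
    (∀ (γ : Gamma0 (N * q)) (γ₁ γ₂ : Gamma0 N), (γ₁ : SL(2, ℤ)) = (γ : SL(2, ℤ)) →
      IsConjDelta q (γ : SL(2, ℤ)) (γ₂ : SL(2, ℤ)) →
        x (Additive.ofMul γ₁) + y (Additive.ofMul γ₂) = 0) →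
    ∃ m : ℕ, 0 < m ∧ ∀ g : Gamma0 N, (g : SL(2, ℤ)) ∈ Gamma m →
      x (Additive.ofMul g) = 0 ∧ y (Additive.ofMul g) = 0

theorem iharaGroupFormPar_of_iharaGroupForm {N q p : ℕ} (h : IharaGroupForm N q p) :
    IharaGroupFormPar N q p := fun x y _ hc => h x y hc

/-! ### Powers of unipotent matrices -/

/-- Cayley–Hamilton for a unipotent `2 × 2` matrix of determinant one -/
theorem mul_self_of_isUnip (g : SL(2, ℚ)) (hg : IsUnip g) :
    (g : Matrix (Fin 2) (Fin 2) ℚ) * (g : Matrix (Fin 2) (Fin 2) ℚ) =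
      (2 : ℚ) • (g : Matrix (Fin 2) (Fin 2) ℚ) - 1 := by
  have hdet : (g : Matrix (Fin 2) (Fin 2) ℚ) 0 0 * (g : Matrix (Fin 2) (Fin 2) ℚ) 1 1 -
      (g : Matrix (Fin 2) (Fin 2) ℚ) 0 1 * (g : Matrix (Fin 2) (Fin 2) ℚ) 1 0 = 1 := by
    rw [← Matrix.det_fin_two]
    exact g.det_coe
  have htr : (g : Matrix (Fin 2) (Fin 2) ℚ) 0 0 + (g : Matrix (Fin 2) (Fin 2) ℚ) 1 1 = 2 := by
    rw [← Matrix.trace_fin_two]
    exact hg
  ext i j
  rw [Matrix.sub_apply, Matrix.smul_apply, smul_eq_mul, Matrix.mul_apply, Fin.sum_univ_two,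
    Matrix.one_apply]
  fin_cases i <;> fin_cases j <;> simp <;>
    first
      | linear_combination (g : Matrix (Fin 2) (Fin 2) ℚ) 0 0 * htr - hdet
      | linear_combination (g : Matrix (Fin 2) (Fin 2) ℚ) 0 1 * htr
      | linear_combination (g : Matrix (Fin 2) (Fin 2) ℚ) 1 0 * htr
      | linear_combination (g : Matrix (Fin 2) (Fin 2) ℚ) 1 1 * htr - hdet

/-- `g ^ m = 1 + m (g - 1)` for unipotent `g` -/
theorem pow_of_isUnip (g : SL(2, ℚ)) (hg : IsUnip g) (m : ℕ) :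
    ((g ^ m : SL(2, ℚ)) : Matrix (Fin 2) (Fin 2) ℚ) =
      1 + (m : ℚ) • ((g : Matrix (Fin 2) (Fin 2) ℚ) - 1) := by
  induction m with
  | zero => simp
  | succ m ih =>
    rw [pow_succ, Matrix.SpecialLinearGroup.coe_mul, ih, Matrix.add_mul, Matrix.one_mul,
      Matrix.smul_mul, Matrix.sub_mul, Matrix.one_mul, mul_self_of_isUnip g hg]
    push_cast
    module

/-! ### The amalgam extension of a parabolic pair kills the unipotents -/

/-- A homomorphism `φ : Γ₀(N)[1/q] → 𝔽_p` (`p ≠ q` primes) whose restriction to `Γ₀(N)` is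
parabolic kills every unipotent element: `g ^ (q ^ k)` is an integral parabolic matrix. -/
theorem extension_kills_unip {N q p : ℕ} (hq : q.Prime) (hp : p.Prime) (hpq : p ≠ q)
    (x : Additive (Gamma0 N) →+ ZMod p) (hx : IsParabolicHom (Gamma0 N) x)
    (φ : ↥(gamma0Loc N q) →* Multiplicative (ZMod p))
    (hφ : ∀ γ : Gamma0 N,
      φ ⟨castSL γ, castSL_mem q γ⟩ = Multiplicative.ofAdd (x (Additive.ofMul γ)))
    (g : ↥(gamma0Loc N q)) (hg : IsUnip (g : SL(2, ℚ))) : φ g = 1 := by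
  haveI : Fact p.Prime := ⟨hp⟩
  obtain ⟨k, M, hM, hNM⟩ := exists_heightLE g.2
  set m : ℕ := q ^ k with hm
  -- the integral matrix `g ^ m`
  set Z : Matrix (Fin 2) (Fin 2) ℤ := M + (1 - (q : ℤ) ^ k) • (1 : Matrix (Fin 2) (Fin 2) ℤ) with hZ
  have hpow := pow_of_isUnip (g : SL(2, ℚ)) hg m
  have hZcast : ∀ i j, ((Z i j : ℤ) : ℚ) = (((g : SL(2, ℚ)) ^ m : SL(2, ℚ)) :
      Matrix (Fin 2) (Fin 2) ℚ) i j := by
    intro i j
    rw [hpow, hZ]
    simp only [Matrix.add_apply, Matrix.smul_apply, Matrix.sub_apply, Matrix.one_apply, smul_eq_mul]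
    push_cast
    rw [← hM i j, hm]
    push_cast
    split_ifs <;> ring
  have hZmap : (Int.castRingHom ℚ).mapMatrix Z =
      (((g : SL(2, ℚ)) ^ m : SL(2, ℚ)) : Matrix (Fin 2) (Fin 2) ℚ) := by
    ext i j
    exact hZcast i j
  have hZdet : Z.det = 1 := by
    have h1 : ((Z.det : ℤ) : ℚ) = 1 := by
      have h2 := (Int.castRingHom ℚ).map_det Z
      rw [hZmap, Matrix.SpecialLinearGroup.det_coe] at h2
      exact h2
    exact_mod_cast h1
  set γ0 : SL(2, ℤ) := ⟨Z, hZdet⟩ with hγ0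
  have hγ0N : γ0 ∈ Gamma0 N := by
    rw [Gamma0_mem]
    refine (ZMod.intCast_zmod_eq_zero_iff_dvd _ _).2 ?_
    show (N : ℤ) ∣ Z 1 0
    have hne : (1 : Fin 2) ≠ 0 := by decide
    rw [hZ, Matrix.add_apply, Matrix.smul_apply, Matrix.one_apply_ne hne, smul_zero, add_zero]
    exact hNM
  have hcast : castSL γ0 = (g : SL(2, ℚ)) ^ m := by
    apply Subtype.ext
    ext i j
    rw [castSL_apply]
    exact hZcast i j
  have htr : (γ0 : Matrix (Fin 2) (Fin 2) ℤ).trace ^ 2 = 4 := by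
    have h1 : (((γ0 : Matrix (Fin 2) (Fin 2) ℤ).trace : ℤ) : ℚ) = 2 := by
      rw [Matrix.trace_fin_two]
      push_cast
      show ((Z 0 0 : ℤ) : ℚ) + ((Z 1 1 : ℤ) : ℚ) = 2
      rw [hZcast, hZcast, hpow]
      have h2 : (g : SL(2, ℚ)).1 0 0 + (g : SL(2, ℚ)).1 1 1 = 2 := by
        rw [← Matrix.trace_fin_two]
        exact hg
      simp only [Matrix.add_apply, Matrix.smul_apply, Matrix.sub_apply, Matrix.one_apply,
        smul_eq_mul]
      simp
      linear_combination (m : ℚ) * h2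
    have h3 : (γ0 : Matrix (Fin 2) (Fin 2) ℤ).trace = 2 := by exact_mod_cast h1
    rw [h3]
    norm_num
  have hx0 : x (Additive.ofMul (⟨γ0, hγ0N⟩ : Gamma0 N)) = 0 := hx ⟨γ0, hγ0N⟩ htr
  have hφm : φ g ^ m = 1 := by
    have h1 : g ^ m = ⟨castSL ((⟨γ0, hγ0N⟩ : Gamma0 N) : SL(2, ℤ)), castSL_mem q ⟨γ0, hγ0N⟩⟩ := by
      apply Subtype.ext
      rw [Subgroup.coe_pow]
      exact hcast.symm
    rw [← map_pow, h1, hφ, hx0]
    rfl
  -- `q ^ k` is invertible modulo `p`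
  have hmp : ((m : ℕ) : ZMod p) ≠ 0 := by
    rw [Ne, ZMod.natCast_eq_zero_iff, hm]
    intro h
    have h1 := hp.dvd_of_dvd_pow h
    exact hpq ((Nat.prime_dvd_prime_iff_eq hp hq).mp h1)
  have h2 : (m : ℕ) • Multiplicative.toAdd (φ g) = 0 := by
    have := congrArg Multiplicative.toAdd hφm
    rwa [toAdd_pow, toAdd_one] at this
  rw [nsmul_eq_mul] at h2
  have h3 : Multiplicative.toAdd (φ g) = 0 := (mul_eq_zero.mp h2).resolve_left hmp
  exact Multiplicative.toAdd.injective h3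

/-- **D1 + D2 (parabolic form) ⇒ the group form of Ihara's lemma for parabolic pairs.** -/
theorem iharaGroupFormPar_of_cspPar {N q p : ℕ} (hq : q.Prime) (hqN : ¬ q ∣ N) (hp : p.Prime)
    (hpq : p ≠ q) (h : CSPPar N q p) : IharaGroupFormPar N q p := by
  intro x y hxpar hcompat
  have hq0 : (q : ℚ) ≠ 0 := Nat.cast_ne_zero.2 hq.ne_zero
  have hxy : ∀ γ η : Gamma0 N,
      castSL (γ : SL(2, ℤ)) = conjD (q : ℚ) (Nat.cast_ne_zero.2 hq.ne_zero) (castSL η) →
        x (Additive.ofMul γ) = (-y) (Additive.ofMul η) := by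
    intro γ η hγη
    have hent : ∀ i j, (castSL (γ : SL(2, ℤ)) : Matrix (Fin 2) (Fin 2) ℚ) i j =
        (conjD (q : ℚ) hq0 (castSL η) : Matrix (Fin 2) (Fin 2) ℚ) i j := fun i j => by rw [hγη]
    have e00 := hent 0 0
    have e01 := hent 0 1
    have e10 := hent 1 0
    have e11 := hent 1 1
    rw [conjD_apply] at e00 e01 e10 e11
    simp only [castSL_apply, Matrix.of_apply, Matrix.cons_val', Matrix.cons_val_zero,
      Matrix.cons_val_one, Fin.zero_eta, Fin.mk_one] at e00 e01 e10 e11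
    have f00 : (η : SL(2, ℤ)) 0 0 = (γ : SL(2, ℤ)) 0 0 := by exact_mod_cast e00.symm
    have f11 : (η : SL(2, ℤ)) 1 1 = (γ : SL(2, ℤ)) 1 1 := by exact_mod_cast e11.symm
    have f01 : (η : SL(2, ℤ)) 0 1 = (q : ℤ) * (γ : SL(2, ℤ)) 0 1 := by
      have : (((η : SL(2, ℤ)) 0 1 : ℤ) : ℚ) = (q : ℚ) * (((γ : SL(2, ℤ)) 0 1 : ℤ) : ℚ) := by
        rw [e01]; field_simp
      exact_mod_cast this
    have f10 : (q : ℤ) * (η : SL(2, ℤ)) 1 0 = (γ : SL(2, ℤ)) 1 0 := by exact_mod_cast e10.symm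
    have hη := η.2
    rw [Gamma0_mem] at hη
    obtain ⟨t, ht⟩ := (ZMod.intCast_zmod_eq_zero_iff_dvd _ _).1 hη
    have hγ' : (γ : SL(2, ℤ)) ∈ Gamma0 (N * q) := by
      rw [Gamma0_mem]
      refine (ZMod.intCast_zmod_eq_zero_iff_dvd _ _).2 ⟨t, ?_⟩
      rw [← f10, ht]; push_cast; ring
    have := hcompat ⟨(γ : SL(2, ℤ)), hγ'⟩ γ η rfl ⟨f00, f01, f10, f11⟩
    rw [AddMonoidHom.neg_apply]
    exact eq_neg_of_add_eq_zero_left this
  obtain ⟨φ, ⟨hφx, hφy⟩, -⟩ := exists_unique_extension hq hqN x (-y) hxy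
  obtain ⟨m, hm0, hm⟩ := h φ (extension_kills_unip hq hp hpq x hxpar φ hφx)
  refine ⟨m, hm0, fun g hg => ⟨?_, ?_⟩⟩
  · have := hm ⟨castSL g, castSL_mem q g⟩ (isCongOne_castSL hg)
    rw [hφx] at this
    exact ofAdd_eq_one.1 this
  · have := hm ⟨conjD (q : ℚ) (Nat.cast_ne_zero.2 hq.ne_zero) (castSL g),
      conjD_castSL_mem hq.ne_zero g⟩ (isCongOne_conjD_castSL _ hg)
    rw [hφy] at this
    have h0 := ofAdd_eq_one.1 this
    rw [AddMonoidHom.neg_apply, neg_eq_zero] at h0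
    exact h0

section Core

variable (N q p : ℕ) [NeZero N] [NeZero (N * q)] [Fact p.Prime]

/-- **Node I, `R`-free core, parabolic form**: the conclusion of `Ihara.exists_level` from
`IharaGroupFormPar`. -/
theorem exists_level_par (hI : IharaGroupFormPar N q p)
    (A1 A2 : Lam N →ₗ[ℤ] Lam (N * q))
    (hA1 : ∀ (a : Lam N) (γ : Gamma0 (N * q)) (γ₁ : Gamma0 N),
      (γ₁ : SL(2, ℤ)) = (γ : SL(2, ℤ)) →
      ((A1 a : Lam (N * q)) : Additive (Gamma0 (N * q)) →+ ℤ) (Additive.ofMul γ) =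
        (a : Additive (Gamma0 N) →+ ℤ) (Additive.ofMul γ₁))
    (hA2 : ∀ (b : Lam N) (γ : Gamma0 (N * q)) (γ₂ : Gamma0 N),
      IsConjDelta q (γ : SL(2, ℤ)) (γ₂ : SL(2, ℤ)) →
      ((A2 b : Lam (N * q)) : Additive (Gamma0 (N * q)) →+ ℤ) (Additive.ofMul γ) =
        (b : Additive (Gamma0 N) →+ ℤ) (Additive.ofMul γ₂)) :
    ∃ m : ℕ, 0 < m ∧ ∀ l : Nat.Primes, ¬ (l : ℕ) ∣ N → (l : ℕ) ≡ 1 [MOD m] →
      ∀ a b : Lam N, (∃ y : Lam (N * q), A1 a + A2 b = (p : ℤ) • y) →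
        (∃ z : Lam N, TLam N l a - (((l : ℕ) + 1 : ℕ) : ℤ) • a = (p : ℤ) • z) ∧
        (∃ z : Lam N, TLam N l b - (((l : ℕ) + 1 : ℕ) : ℤ) • b = (p : ℤ) • z) := by
  classical
  haveI := finite_hom_zmod N p
  -- uniform level
  let Compat : (Additive (Gamma0 N) →+ ZMod p) × (Additive (Gamma0 N) →+ ZMod p) → Prop :=
    fun xy => IsParabolicHom (Gamma0 N) xy.1 ∧
      ∀ (γ : Gamma0 (N * q)) (γ₁ γ₂ : Gamma0 N), (γ₁ : SL(2, ℤ)) = (γ : SL(2, ℤ)) →
        IsConjDelta q (γ : SL(2, ℤ)) (γ₂ : SL(2, ℤ)) →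
          xy.1 (Additive.ofMul γ₁) + xy.2 (Additive.ofMul γ₂) = 0
  let P : (Additive (Gamma0 N) →+ ZMod p) × (Additive (Gamma0 N) →+ ZMod p) → ℕ → Prop :=
    fun xy m => Compat xy → ∀ g : Gamma0 N, (g : SL(2, ℤ)) ∈ Gamma m →
      xy.1 (Additive.ofMul g) = 0 ∧ xy.2 (Additive.ofMul g) = 0
  obtain ⟨m, hm0, hm⟩ := exists_uniform P
    (fun xy m m' hdvd hP hc g hg => hP hc g (Gamma_le_of_dvd hdvd hg))
    (fun xy => by
      by_cases hc : Compat xy
      · obtain ⟨m, hm0, hm⟩ := hI xy.1 xy.2 hc.1 hc.2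
        exact ⟨m, hm0, fun _ => hm⟩
      · exact ⟨1, one_pos, fun hc' => absurd hc' hc⟩)
  refine ⟨m, hm0, fun l hlN hlm a b ⟨y, hy⟩ => ?_⟩
  have hlm' : (((l : ℕ) : ℕ) : ZMod m) = 1 := by
    have := (ZMod.natCast_eq_natCast_iff _ _ _).mpr hlm
    simpa using this
  -- reductions mod p
  let π : ℤ →+ ZMod p := Int.castAddHom (ZMod p)
  have hcompat : Compat (π.comp (a : Additive (Gamma0 N) →+ ℤ),
      π.comp (b : Additive (Gamma0 N) →+ ℤ)) := by
    refine ⟨?_, ?_⟩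
    · intro γ hγ
      show π ((a : Additive (Gamma0 N) →+ ℤ) (Additive.ofMul γ)) = 0
      rw [a.2 γ hγ, map_zero]
    intro γ γ₁ γ₂ h1 h2
    have e1 := hA1 a γ γ₁ h1
    have e2 := hA2 b γ γ₂ h2
    have e3 := congrArg (fun c : Lam (N * q) =>
      (c : Additive (Gamma0 (N * q)) →+ ℤ) (Additive.ofMul γ)) hy
    simp only [Submodule.coe_add, AddMonoidHom.add_apply, Submodule.coe_smul,
      AddMonoidHom.coe_smul, Pi.smul_apply, smul_eq_mul] at e3
    rw [e1, e2] at e3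
    show π _ + π _ = 0
    rw [← map_add, e3]
    simp [π]
  have hkill := hm (_, _) hcompat
  -- D3
  have key : ∀ (c : Lam N), (∀ g : Gamma0 N, (g : SL(2, ℤ)) ∈ Gamma m →
      (π.comp (c : Additive (Gamma0 N) →+ ℤ)) (Additive.ofMul g) = 0) →
      ∃ z : Lam N, TLam N l c - (((l : ℕ) + 1 : ℕ) : ℤ) • c = (p : ℤ) • z := by
    intro c hc
    apply exists_eq_smul_of_forall_dvd
    intro γ
    have h1 := heckeTransfer_eq_smul_of_kills_Gamma N m l hlN hlm'
      (π.comp (c : Additive (Gamma0 N) →+ ℤ)) hc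
    rw [heckeTransfer_comp] at h1
    have h2 := congrArg (fun φ : Additive (Gamma0 N) →+ ZMod p => φ (Additive.ofMul γ)) h1
    simp only [AddMonoidHom.comp_apply, AddMonoidHom.coe_smul, Pi.smul_apply] at h2
    rw [← ZMod.intCast_zmod_eq_zero_iff_dvd]
    simp only [Submodule.coe_sub, AddMonoidHom.sub_apply, Submodule.coe_smul,
      AddMonoidHom.coe_smul, Pi.smul_apply, smul_eq_mul, coe_TLam_apply]
    push_cast
    have h3 : π ((heckeTransfer N l ℤ (c : Additive (Gamma0 N) →+ ℤ)) (Additive.ofMul γ)) =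
        (((heckeTransfer N l ℤ (c : Additive (Gamma0 N) →+ ℤ)) (Additive.ofMul γ) : ℤ) : ZMod p) :=
      rfl
    have h4 : π ((c : Additive (Gamma0 N) →+ ℤ) (Additive.ofMul γ)) =
        (((c : Additive (Gamma0 N) →+ ℤ) (Additive.ofMul γ) : ℤ) : ZMod p) := rfl
    rw [h3, h4] at h2
    rw [h2]
    simp [nsmul_eq_mul]
  exact ⟨key a (fun g hg => (hkill g hg).1), key b (fun g hg => (hkill g hg).2)⟩

/-- **Node I, final form, from the parabolic congruence subgroup property**: hypothesis (I) of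
`S41Main.s41_of_nodes` (same conclusion as `IharaFinal.exists_level_of_csp`) from `CSPPar N q p`. -/
theorem exists_level_of_cspPar (hq : q.Prime) (hqN : ¬ q ∣ N) (hpq : p ≠ q)
    (hcsp : CSPPar N q p) :
    ∃ m : ℕ, 0 < m ∧ ∀ l : Nat.Primes, ¬ (l : ℕ) ∣ N → (l : ℕ) ≡ 1 [MOD m] →
      ∀ a b : Lam N,
        (∃ y : Lam (N * q), Deg.A1Lam N q a + (Deg.alData N q hq hqN).A2Lam b = (p : ℤ) • y) →
        (∃ z : Lam N, TLam N l a - (((l : ℕ) + 1 : ℕ) : ℤ) • a = (p : ℤ) • z) ∧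
        (∃ z : Lam N, TLam N l b - (((l : ℕ) + 1 : ℕ) : ℤ) • b = (p : ℤ) • z) := by
  haveI : NeZero q := ⟨hq.ne_zero⟩
  refine exists_level_par N q p
    (iharaGroupFormPar_of_cspPar hq hqN (Fact.out : p.Prime) hpq hcsp)
    (Deg.A1Lam N q) ((Deg.alData N q hq hqN).A2Lam) ?_ ?_
  · intro a γ γ₁ h
    exact Deg.A1Lam_apply_of_coe_eq a γ γ₁ h
  · intro b γ γ₂ h
    rw [Deg.alData_eq]
    exact Deg.ALData.ofBez_A2Lam_apply_of_conj (Deg.bez N q hq hqN) b γ γ₂ h

end Core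

end Fermat.Agent.LR.IharaPar
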