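/-
Program M, node D2 (helper20): bridge between the generic layer (`SL2R` over `R = CSP.A q = ℤ[1/q]`)
and the predicates on `SL(2, ℚ)` used by node I (`Gen.gamma0Loc`, `IharaGroup.IsCongOne`,
`IharaPar.IsUnip`, `IharaPar.CSPPar`).
-/
import Mathlib
import Fermat.Agent.LR.CSPBasic
import Fermat.Agent.LR.IharaPar

set_option autoImplicit false

namespace Fermat.Agent.LR.CSPBridge

open Matrix
open Fermat.Agent.LR.Gen Fermat.Agent.LR.SL2R Fermat.Agent.LR.CSP
open Fermat.Agent.LR.IharaGroup Fermat.Agent.LR.IharaPar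
open scoped MatrixGroups

/-! ### generic facts on trace-`2` elements and characters of `Gam I` -/

section generic

variable {R : Type*} [CommRing R]

/-- trace `2` -/
def IsUnipR (g : SL(2, R)) : Prop := g 0 0 + g 1 1 = 2

theorem isUnipR_uR (x : R) : IsUnipR (uR x) := by
  simp [IsUnipR]; norm_num

theorem isUnipR_lR (y : R) : IsUnipR (lR y) := by
  simp [IsUnipR]; norm_num

theorem isUnipR_conj (γ g : SL(2, R)) (hg : IsUnipR g) : IsUnipR (γ * g * γ⁻¹) := by
  unfold IsUnipR at hg ⊢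
  have hdet := det_eq γ
  simp only [SL2R.mul_apply', SL2R.inv_apply, Matrix.of_apply, Matrix.cons_val', Matrix.cons_val_zero,
    Matrix.cons_val_one, Matrix.cons_val_fin_one]
  linear_combination (g 0 0 + g 1 1) * hdet + hg

theorem isUnipR_conjDiag (s : Rˣ) (g : SL(2, R)) (hg : IsUnipR g) : IsUnipR (conjDiag s g) := by
  unfold IsUnipR at hg ⊢
  simpa [conjDiag_apply] using hg

theorem isUnipR_inv (g : SL(2, R)) (hg : IsUnipR g) : IsUnipR g⁻¹ := by
  unfold IsUnipR at hg ⊢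
  simp only [SL2R.inv_apply, Matrix.of_apply, Matrix.cons_val', Matrix.cons_val_zero,
    Matrix.cons_val_one, Matrix.cons_val_fin_one]
  linear_combination hg

/-- a character of `Gam I` killing the trace-`2` elements kills `E I` -/
theorem kills_E_of_kills_unip {I : Ideal R} {V : Type*} [CommGroup V] (χ : ↥(Gam I) →* V)
    (h : ∀ (g : SL(2, R)) (hg : g ∈ Gam I), IsUnipR g → χ ⟨g, hg⟩ = 1) :
    ∀ (x : SL(2, R)) (hx : x ∈ E I), χ ⟨x, E_le_Gam I hx⟩ = 1 := by
  intro x hx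
  have key : ∀ y ∈ E I, ∃ hy : y ∈ Gam I, χ ⟨y, hy⟩ = 1 := by
    intro y hy
    unfold E at hy
    rw [Subgroup.normalClosure] at hy
    induction hy using Subgroup.closure_induction with
    | mem z hz =>
      obtain ⟨u, hu, hconj⟩ := Group.mem_conjugatesOfSet_iff.1 hz
      obtain ⟨x', hx', rfl⟩ := hu
      obtain ⟨c, rfl⟩ := isConj_iff.1 hconj
      have hmem : c * uR x' * c⁻¹ ∈ Gam I :=
        (inferInstance : (Gam I).Normal).conj_mem _ (uR_mem_Gam hx') c
      exact ⟨hmem, h _ hmem (isUnipR_conj c _ (isUnipR_uR x'))⟩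
    | one => exact ⟨Subgroup.one_mem _, map_one χ⟩
    | mul a b _ _ iha ihb =>
      obtain ⟨ha, ha1⟩ := iha
      obtain ⟨hb, hb1⟩ := ihb
      refine ⟨Subgroup.mul_mem _ ha hb, ?_⟩
      have : (⟨a * b, Subgroup.mul_mem _ ha hb⟩ : ↥(Gam I)) = ⟨a, ha⟩ * ⟨b, hb⟩ := rfl
      rw [this, map_mul, ha1, hb1, one_mul]
    | inv a _ iha =>
      obtain ⟨ha, ha1⟩ := iha
      refine ⟨Subgroup.inv_mem _ ha, ?_⟩
      have : (⟨a⁻¹, Subgroup.inv_mem _ ha⟩ : ↥(Gam I)) = (⟨a, ha⟩ : ↥(Gam I))⁻¹ := rfl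
      rw [this, map_inv, ha1, inv_one]
  obtain ⟨_, h1⟩ := key x hx
  exact h1

/-- (Cen) in character form: if `cenMod I = ⊤`, every character of `Gam I` killing `E I` is
invariant under conjugation by `SL(2, R)` -/
theorem map_conj_eq_of_cenMod {I : Ideal R} {V : Type*} [CommGroup V] (χ : ↥(Gam I) →* V)
    (hχ : ∀ (x : SL(2, R)) (hx : x ∈ E I), χ ⟨x, E_le_Gam I hx⟩ = 1)
    (hcen : cenMod I = ⊤) (γ g : SL(2, R)) (hg : g ∈ Gam I) :
    χ ⟨γ * g * γ⁻¹, (inferInstance : (Gam I).Normal).conj_mem g hg γ⟩ = χ ⟨g, hg⟩ := by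
  apply map_eq_of_mul_inv_mem_EC χ hχ
  have hγ : γ ∈ cenMod I := by rw [hcen]; exact Subgroup.mem_top γ
  exact mem_cenMod.1 hγ g hg

/-- Claim J in character form -/
theorem map_conjDiag_neg_one_eq {I : Ideal R} {V : Type*} [CommGroup V] (χ : ↥(Gam I) →* V)
    (hχ : ∀ (x : SL(2, R)) (hx : x ∈ E I), χ ⟨x, E_le_Gam I hx⟩ = 1)
    (hJ : ∀ g ∈ Gam I, conjDiag (-1) g * g⁻¹ ∈ EC I) (g : SL(2, R)) (hg : g ∈ Gam I) :
    χ ⟨conjDiag (-1) g, conjDiag_mem_Gam (-1) hg⟩ = χ ⟨g, hg⟩ :=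
  map_eq_of_mul_inv_mem_EC χ hχ _ hg (hJ g hg)

end generic

/-! ### the bridge for `R = ℤ[1/q]` -/

variable {q : ℕ}

theorem isUnip_toQ_iff (g : SL(2, A q)) : IsUnip (toQ q g) ↔ IsUnipR g := by
  unfold IsUnip IsUnipR
  rw [Matrix.trace_fin_two]
  have h2 : (((2 : A q)) : ℚ) = 2 := rfl
  constructor
  · intro h
    apply Subtype.ext
    rw [h2, ← h]
    simp
  · intro h
    have := congrArg (fun x : A q => (x : ℚ)) h
    simp only [h2] at this
    rw [← this]
    simp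

theorem isCongOne_toQ_iff {m : ℕ} (g : SL(2, A q)) :
    IsCongOne q m (toQ q g) ↔ g ∈ Gam (Ideal.span {(m : A q)}) := by
  rw [mem_Gam]
  constructor
  · intro h
    refine ⟨?_, ?_, ?_, ?_⟩
    · exact mem_span_natCast_iff.2 (by simpa using h 0 0)
    · exact mem_span_natCast_iff.2 (by simpa using h 0 1)
    · exact mem_span_natCast_iff.2 (by simpa using h 1 0)
    · exact mem_span_natCast_iff.2 (by simpa using h 1 1)
  · rintro ⟨h00, h01, h10, h11⟩ i j
    fin_cases i <;> fin_cases j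
    · simpa using mem_span_natCast_iff.1 h00
    · simpa using mem_span_natCast_iff.1 h01
    · simpa using mem_span_natCast_iff.1 h10
    · simpa using mem_span_natCast_iff.1 h11

theorem span_mul_le_left (M N : ℕ) :
    Ideal.span {((M * N : ℕ) : A q)} ≤ Ideal.span {(M : A q)} := by
  rw [Ideal.span_singleton_le_span_singleton]
  exact ⟨(N : A q), by push_cast; ring⟩

theorem span_mul_le_right (M N : ℕ) :
    Ideal.span {((M * N : ℕ) : A q)} ≤ Ideal.span {(N : A q)} := by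
  rw [Ideal.span_singleton_le_span_singleton]
  exact ⟨(M : A q), by push_cast; ring⟩

/-- The congruence subgroup property in pure form, inside `SL(2, ℤ[1/q])`: every character of
`Gam (N)` with values in `𝔽_p` killing the trace-`2` elements kills a deeper `Gam (M)`. -/
def PureCSP (q N p : ℕ) : Prop :=
  ∀ χ : ↥(Gam (Ideal.span {(N : A q)})) →* Multiplicative (ZMod p),
    (∀ (g : SL(2, A q)) (hg : g ∈ Gam (Ideal.span {(N : A q)})), IsUnipR g → χ ⟨g, hg⟩ = 1) →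
    ∃ M : ℕ, 0 < M ∧ ∀ (g : SL(2, A q)) (hg : g ∈ Gam (Ideal.span {(N : A q)})),
      g ∈ Gam (Ideal.span {(M : A q)}) → χ ⟨g, hg⟩ = 1

/-- the restriction to `Gam (N)` of a character of `Γ₀(N)[1/q]` -/
noncomputable def restr {N : ℕ} {V : Type*} [CommGroup V] (φ : ↥(gamma0Loc N q) →* V) :
    ↥(Gam (Ideal.span {(N : A q)})) →* V :=
  φ.comp ((G0Equiv q N).toMonoidHom.comp (Subgroup.inclusion (Gam_le_G0 (dvd_refl N))))

theorem restr_apply {N : ℕ} {V : Type*} [CommGroup V] (φ : ↥(gamma0Loc N q) →* V)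
    (g : SL(2, A q)) (hg : g ∈ Gam (Ideal.span {(N : A q)})) :
    restr φ ⟨g, hg⟩ = φ ⟨toQ q g, by
      have := Gam_le_G0 (q := q) (dvd_refl N) hg
      exact this⟩ := rfl

/-- **Pure CSP ⇒ `CSPPar`.** -/
theorem cspPar_of_pureCSP {N q p : ℕ} (hN : 0 < N) (h : PureCSP q N p) : CSPPar N q p := by
  intro φ hφ
  obtain ⟨M, hM, hχ⟩ := h (restr φ) (by
    intro g hg hu
    rw [restr_apply]
    exact hφ _ ((isUnip_toQ_iff g).2 hu))
  refine ⟨M * N, Nat.mul_pos hM hN, fun g hg => ?_⟩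
  obtain ⟨g', hg'⟩ : ∃ g' : SL(2, A q), toQ q g' = (g : SL(2, ℚ)) :=
    ⟨ofQ (g : SL(2, ℚ)) g.2.1, toQ_ofQ _ _⟩
  rw [← hg', isCongOne_toQ_iff] at hg
  have hN' : g' ∈ Gam (Ideal.span {(N : A q)}) := Gam_mono (span_mul_le_right M N) hg
  have hM' : g' ∈ Gam (Ideal.span {(M : A q)}) := Gam_mono (span_mul_le_left M N) hg
  have := hχ g' hN' hM'
  rw [restr_apply] at this
  have e : (⟨toQ q g', by
      have := Gam_le_G0 (q := q) (dvd_refl N) hN'
      exact this⟩ : ↥(gamma0Loc N q)) = g := Subtype.ext hg'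
  rw [e] at this
  exact this

end Fermat.Agent.LR.CSPBridge
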