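/-
Program M, node D2, even levels (helper21): **Claim J at even levels**, direct proof.
Same proof as `CSPClaimJ.mem_jFix_of_odd` (helper1) with the arithmetic of
`CSPArithEven.exists_prime_modEq_pow_eq_neg_one_gen`: at a level `m` with `2 ^ (e+2) ∣ m` and
`q ^ (2 ^ e * Φo) ≡ 1 (mod m)` (`Φo` odd) the compatibility condition `A ≡ 1 (mod 2 ^ (e+2))` is
obtained by padding the common denominator exponent to a multiple of `2 ^ (e+1)`.
-/
import Fermat.Agent.LR.CSPClaimJ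
import Fermat.Agent.LR.CSPArithEven

set_option autoImplicit false

namespace Fermat.Agent.LR.CSPClaimJEven

open Fermat.Agent.LR.SL2R Fermat.Agent.LR.CSPClaimJ
open scoped MatrixGroups commutatorElement

variable {R : Type*} [CommRing R]

/-- `m ∣ q ^ Φ - 1` and `Φ ∣ k` give `m ∣ q ^ k - 1`. -/
theorem int_dvd_pow_sub_one_of_dvd {q m Φ k : ℕ} (hΦ : (m : ℤ) ∣ (q : ℤ) ^ Φ - 1) (hk : Φ ∣ k) :
    (m : ℤ) ∣ (q : ℤ) ^ k - 1 := by
  obtain ⟨j, rfl⟩ := hk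
  have h := sub_dvd_pow_sub_pow ((q : ℤ) ^ Φ) 1 j
  rw [one_pow, ← pow_mul] at h
  exact hΦ.trans h

/-- `q ^ (2 ^ (e+1)) ≡ 1 (mod 2 ^ (e+2))` for odd `q`. -/
theorem int_two_pow_dvd_pow_sub_one {q : ℕ} (hqodd : Odd q) (e : ℕ) :
    ((2 : ℤ) ^ (e + 2)) ∣ (q : ℤ) ^ (2 ^ (e + 1)) - 1 := by
  have hcop : Nat.Coprime q (2 ^ (e + 2)) := Nat.Coprime.pow_right _ hqodd.coprime_two_right
  have h1 : q ^ Nat.totient (2 ^ (e + 2)) ≡ 1 [MOD 2 ^ (e + 2)] := Nat.ModEq.pow_totient hcop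
  have htot : Nat.totient (2 ^ (e + 2)) = 2 ^ (e + 1) := by
    rw [Nat.totient_prime_pow Nat.prime_two (by omega)]
    simp
  rw [htot] at h1
  have h3 := (Nat.modEq_iff_dvd.mp h1.symm)
  push_cast at h3
  exact h3

/-- **Claim J, core case at a good even level**: `g ∈ Γ(m)` whose lower left entry is nonzero, with a
common denominator exponent `k` divisible by `2 ^ (e+1)`. -/
theorem mem_jFix_of_good [CharZero R] (q : ℕ) (hq : q.Prime) (hq2 : q ≠ 2) (qu : Rˣ)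
    (hqu : (qu : R) = (q : R)) (hrep : ∀ r : R, ∃ k : ℕ, ∃ n : ℤ, r * (q : R) ^ k = (n : R))
    (m : ℕ) (hm : m ≠ 0) (hmq : Nat.Coprime m q) (e Φo : ℕ) (hΦo : Odd Φo)
    (h2m : 2 ^ (e + 2) ∣ m) (hΦ : (m : ℤ) ∣ (q : ℤ) ^ (2 ^ e * Φo) - 1)
    {g : SL(2, R)} (hg : g ∈ Gam (Ideal.span {(m : R)})) (k : ℕ) (hk : 2 ^ (e + 1) ∣ k)
    (A B C D : ℤ)
    (hA : g 0 0 * (q : R) ^ k = A) (hB : g 0 1 * (q : R) ^ k = B)
    (hC : g 1 0 * (q : R) ^ k = C) (hD : g 1 1 * (q : R) ^ k = D) (hC0 : C ≠ 0) :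
    g ∈ jFix (Ideal.span {(m : R)}) := by
  set I : Ideal R := Ideal.span {(m : R)} with hI
  have hcast : Function.Injective ((↑) : ℤ → R) := Int.cast_injective
  set qi : R := ((qu⁻¹ : Rˣ) : R) with hqi
  have hqqi : (q : R) * qi = 1 := by rw [← hqu, hqi]; simp
  have hqqik : ∀ j : ℕ, (q : R) ^ j * qi ^ j = 1 := fun j => by rw [← mul_pow, hqqi, one_pow]
  have hqodd : Odd q := by
    rcases hq.eq_two_or_odd' with h | h
    · exact absurd h hq2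
    · exact h
  -- the determinant relation in `ℤ`
  have hdet : A * D - B * C = (q : ℤ) ^ (2 * k) := by
    apply hcast
    push_cast
    rw [← hA, ← hB, ← hC, ← hD]
    have := det_eq g
    linear_combination ((q : R) ^ (2 * k)) * this
  obtain ⟨v, C₂, hC₂, hqC₂⟩ := exists_eq_pow_mul_not_dvd hq hC0
  have hC₂0 : C₂ ≠ 0 := by
    rintro rfl
    exact hC0 (by rw [hC₂]; simp)
  -- `A q^j = q^(k+j) + n q^k m`
  obtain ⟨j, n, h1⟩ : ∃ (j : ℕ) (n : ℤ),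
      A * (q : ℤ) ^ j = (q : ℤ) ^ (k + j) + n * (q : ℤ) ^ k * m := by
    rw [mem_Gam] at hg
    obtain ⟨r, hr⟩ := Ideal.mem_span_singleton'.mp hg.1
    obtain ⟨j, n, hn⟩ := hrep r
    refine ⟨j, n, ?_⟩
    apply hcast
    push_cast
    rw [← hA, ← hn]
    linear_combination ((q : R) ^ (k + j)) * hr.symm
  -- coprimality of `A` and `m`
  have hAm : IsCoprime A (m : ℤ) := by
    have hqm : IsCoprime ((q : ℤ) ^ (k + j)) (m : ℤ) := by
      apply IsCoprime.pow_left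
      exact Nat.isCoprime_iff_coprime.mpr hmq.symm
    have h2 : IsCoprime (A * (q : ℤ) ^ j) (m : ℤ) := by
      rw [h1]
      exact hqm.add_mul_right_left _
    exact h2.of_mul_left_left
  -- `A ≡ 1 (mod 2^(e+2))`
  have hA1 : A ≡ 1 [ZMOD ((2 : ℤ) ^ (e + 2))] := by
    have hqk : ((2 : ℤ) ^ (e + 2)) ∣ (q : ℤ) ^ k - 1 := by
      obtain ⟨k', rfl⟩ := hk
      have h := sub_dvd_pow_sub_pow ((q : ℤ) ^ (2 ^ (e + 1))) 1 k'
      rw [one_pow, ← pow_mul] at h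
      exact (int_two_pow_dvd_pow_sub_one hqodd e).trans h
    have h2m' : ((2 : ℤ) ^ (e + 2)) ∣ (m : ℤ) := by exact_mod_cast h2m
    have h3 : ((2 : ℤ) ^ (e + 2)) ∣ (A - 1) * (q : ℤ) ^ j := by
      have : (A - 1) * (q : ℤ) ^ j = ((q : ℤ) ^ k - 1) * (q : ℤ) ^ j + n * (q : ℤ) ^ k * m := by
        have : (q : ℤ) ^ (k + j) = (q : ℤ) ^ k * (q : ℤ) ^ j := pow_add _ _ _
        linear_combination h1 - this
      rw [this]
      exact dvd_add (Dvd.dvd.mul_right hqk _) (Dvd.dvd.mul_left h2m' _)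
    have hcop : IsCoprime ((2 : ℤ) ^ (e + 2)) ((q : ℤ) ^ j) := by
      apply IsCoprime.pow
      have : Nat.Coprime 2 q := (Nat.coprime_two_left.mpr hqodd)
      exact_mod_cast Nat.isCoprime_iff_coprime.mpr this
    have h4 : ((2 : ℤ) ^ (e + 2)) ∣ A - 1 := hcop.dvd_of_dvd_mul_right h3
    exact (Int.modEq_iff_dvd.mpr h4).symm
  -- coprimality of `A` and `C₂`
  have hqC₂' : IsCoprime ((q : ℤ) ^ (2 * k)) C₂ := by
    apply IsCoprime.pow_left
    rw [Int.isCoprime_iff_gcd_eq_one, Int.gcd_eq_natAbs, Int.natAbs_natCast]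
    exact (Nat.Prime.coprime_iff_not_dvd hq).mpr hqC₂
  have hAC₂ : IsCoprime A C₂ := by
    obtain ⟨u, w, huw⟩ := hqC₂'
    refine ⟨u * D, w - u * B * (q : ℤ) ^ v, ?_⟩
    rw [← huw, ← hdet, hC₂]
    ring
  -- the modulus
  set M : ℕ := m * C₂.natAbs with hM
  have hM0 : M ≠ 0 := Nat.mul_ne_zero hm (Int.natAbs_ne_zero.mpr hC₂0)
  have hMq : Nat.Coprime M q := by
    apply Nat.Coprime.mul_left hmq
    exact ((Nat.Prime.coprime_iff_not_dvd hq).mpr hqC₂).symm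
  have hAC₂' : IsCoprime A (C₂.natAbs : ℤ) := by
    rcases Int.natAbs_eq C₂ with h | h
    · rw [← h]; exact hAC₂
    · have : (C₂.natAbs : ℤ) = -C₂ := by omega
      rw [this]; exact hAC₂.neg_right
  have hAM : IsCoprime A (M : ℤ) := by
    rw [hM, Nat.cast_mul]
    exact hAm.mul_right hAC₂'
  have hR1 : A ≡ 1 [ZMOD ((Nat.gcd M (4 * 2 ^ e) : ℕ) : ℤ)] := by
    refine hA1.of_dvd ?_
    have h4 : (4 * 2 ^ e : ℕ) = 2 ^ (e + 2) := by rw [pow_add]; ring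
    have : (Nat.gcd M (4 * 2 ^ e)) ∣ 2 ^ (e + 2) := by
      rw [← h4]; exact Nat.gcd_dvd_right _ _
    exact_mod_cast this
  obtain ⟨π, k₀, hπ, -, hπA, hΦk, hpow⟩ :=
    CSPArithEven.exists_prime_modEq_pow_eq_neg_one_gen q hq hq2 M A e Φo 0 hM0 hMq hAM hΦo hR1
  -- `π - A = m * C₂ * n₀`
  have hdvd1 : (m : ℤ) * C₂ ∣ (π : ℤ) - A := by
    have h1 : (M : ℤ) ∣ (π : ℤ) - A := by
      have := hπA.symm.dvd
      exact this
    have h2 : (m : ℤ) * C₂ ∣ (M : ℤ) := by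
      rw [hM, Nat.cast_mul]
      exact mul_dvd_mul_left _ (Int.dvd_natAbs.mpr dvd_rfl)
    exact h2.trans h1
  obtain ⟨n₀, hn₀⟩ := hdvd1
  obtain ⟨n₁, hn₁⟩ := int_dvd_pow_add_one hpow
  obtain ⟨n₂, hn₂⟩ := int_dvd_pow_sub_one_of_dvd hΦ hΦk
  -- the normalised element
  set x : R := (n₀ : R) * qi ^ v with hx
  have hmxI : (m : R) * x ∈ I := Ideal.mem_span_singleton'.mpr ⟨x, mul_comm _ _⟩
  set g' : SL(2, R) := uR ((m : R) * x) * g with hg'
  have hg'mem : g' ∈ Gam I := mul_mem (uR_mem_Gam hmxI) hg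
  have hg'00 : g' 0 0 = (π : R) * qi ^ k := by
    have h1 : g' 0 0 = g 0 0 + (m : R) * x * g 1 0 := by
      rw [hg', SL2R.mul_apply']; simp
    have hπR : (π : R) = (A : R) + (m : R) * (C₂ : R) * (n₀ : R) := by
      have : (π : ℤ) = A + (m : ℤ) * C₂ * n₀ := by linarith
      have h := congrArg (fun z : ℤ => (z : R)) this
      simpa using h
    have hCR : (C : R) = (q : R) ^ v * (C₂ : R) := by
      have h := congrArg (fun z : ℤ => (z : R)) hC₂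
      simpa using h
    have ha : g 0 0 = (A : R) * qi ^ k := by
      rw [← hA, mul_assoc, hqqik, mul_one]
    have hc : g 1 0 = (C : R) * qi ^ k := by
      rw [← hC, mul_assoc, hqqik, mul_one]
    rw [h1, ha, hc, hπR, hCR, hx]
    linear_combination ((m : R) * (n₀ : R) * (C₂ : R) * qi ^ k) * (hqqik v)
  -- the unit
  set t : Rˣ := qu ^ k₀ with ht
  have htval : (t : R) = (q : R) ^ k₀ := by rw [ht, Units.val_pow_eq_pow_val, hqu]
  have htI : (t : R) - 1 ∈ I := by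
    rw [htval]
    refine Ideal.mem_span_singleton'.mpr ⟨(n₂ : R), ?_⟩
    have h := congrArg (fun z : ℤ => (z : R)) hn₂
    simp only [Int.cast_sub, Int.cast_pow, Int.cast_natCast, Int.cast_one, Int.cast_mul] at h
    rw [h]; ring
  have hs : -((t : R) ^ 2) = 1 + g' 0 0 * (-(n₁ : R) * (q : R) ^ k) := by
    rw [hg'00, htval]
    have h := congrArg (fun z : ℤ => (z : R)) hn₁
    simp only [Int.cast_add, Int.cast_pow, Int.cast_natCast, Int.cast_one, Int.cast_mul] at h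
    have h' : ((q : R) ^ k₀) ^ 2 = (q : R) ^ (2 * k₀) := by rw [← pow_mul, mul_comm]
    rw [h']
    linear_combination (-1 : R) * h + ((π : R) * (n₁ : R)) * (hqqik k)
  have hg'J : g' ∈ jFix I := mem_jFix_of_unit hg'mem t htI _ hs
  have hu : uR ((m : R) * x) ∈ jFix I := E_le_jFix I (uR_mem_E hmxI)
  have : g = (uR ((m : R) * x))⁻¹ * g' := by rw [hg']; group
  rw [this]
  exact mul_mem (inv_mem hu) hg'J

/-- **Claim J at a good even level** `m`: `2 ^ (e+2) ∣ m` and `q ^ (2 ^ e * Φo) ≡ 1 (mod m)` with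
`Φo` odd. -/
theorem Gam_le_jFix_of_good [CharZero R] (q : ℕ) (hq : q.Prime) (hq2 : q ≠ 2) (qu : Rˣ)
    (hqu : (qu : R) = (q : R)) (hrep : ∀ r : R, ∃ k : ℕ, ∃ n : ℤ, r * (q : R) ^ k = (n : R))
    (m : ℕ) (hm : m ≠ 0) (hmq : Nat.Coprime m q) (e Φo : ℕ) (hΦo : Odd Φo)
    (h2m : 2 ^ (e + 2) ∣ m) (hΦ : (m : ℤ) ∣ (q : ℤ) ^ (2 ^ e * Φo) - 1) :
    Gam (Ideal.span {(m : R)}) ≤ jFix (Ideal.span {(m : R)}) := by
  intro g hg
  set I : Ideal R := Ideal.span {(m : R)} with hI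
  have hcast : Function.Injective ((↑) : ℤ → R) := Int.cast_injective
  obtain ⟨k0, A0, B0, C0, D0, hA0, hB0, hC0, hD0⟩ :=
    exists_common_den q hrep (g 0 0) (g 0 1) (g 1 0) (g 1 1)
  -- pad the exponent to a multiple of `2 ^ (e+1)`
  obtain ⟨n', hn'⟩ : ∃ n', 2 ^ (e + 1) = n' + 1 :=
    ⟨2 ^ (e + 1) - 1, by have : 0 < 2 ^ (e + 1) := by positivity
                         omega⟩
  set j : ℕ := k0 * n' with hj
  have hk : k0 * 2 ^ (e + 1) = k0 + j := by rw [hn', hj]; ring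
  have pad : ∀ (r : R) (n : ℤ), r * (q : R) ^ k0 = n →
      r * (q : R) ^ (k0 * 2 ^ (e + 1)) = ((n * (q : ℤ) ^ j : ℤ) : R) := by
    intro r n h
    rw [hk, pow_add, ← mul_assoc, h]; push_cast; ring
  have hqj0 : ((q : ℤ) ^ j) ≠ 0 := pow_ne_zero _ (by exact_mod_cast hq.ne_zero)
  by_cases hC : C0 = 0
  · -- `c = 0`: move by `lR m`
    have hdet : A0 * D0 - B0 * C0 = (q : ℤ) ^ (2 * k0) := by
      apply hcast
      push_cast
      rw [← hA0, ← hB0, ← hC0, ← hD0]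
      have := det_eq g
      linear_combination ((q : R) ^ (2 * k0)) * this
    have hA00 : A0 ≠ 0 := by
      rintro rfl
      rw [hC] at hdet
      have : (q : ℤ) ^ (2 * k0) ≠ 0 := pow_ne_zero _ (by exact_mod_cast hq.ne_zero)
      exact this (by rw [← hdet]; ring)
    have hmI : (m : R) ∈ I := Ideal.subset_span rfl
    set g₁ : SL(2, R) := lR (m : R) * g with hg₁
    have hg₁mem : g₁ ∈ Gam I := mul_mem (lR_mem_Gam hmI) hg
    have h00 : g₁ 0 0 = g 0 0 := by rw [hg₁, SL2R.mul_apply']; simp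
    have h01 : g₁ 0 1 = g 0 1 := by rw [hg₁, SL2R.mul_apply']; simp
    have h10 : g₁ 1 0 = (m : R) * g 0 0 + g 1 0 := by rw [hg₁, SL2R.mul_apply']; simp
    have h11 : g₁ 1 1 = (m : R) * g 0 1 + g 1 1 := by rw [hg₁, SL2R.mul_apply']; simp
    have hg₁J : g₁ ∈ jFix I := by
      refine mem_jFix_of_good q hq hq2 qu hqu hrep m hm hmq e Φo hΦo h2m hΦ hg₁mem
        (k0 * 2 ^ (e + 1)) (Dvd.intro_left _ rfl) (A0 * (q : ℤ) ^ j) (B0 * (q : ℤ) ^ j)
        ((m : ℤ) * (A0 * (q : ℤ) ^ j) + C0 * (q : ℤ) ^ j)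
        ((m : ℤ) * (B0 * (q : ℤ) ^ j) + D0 * (q : ℤ) ^ j) ?_ ?_ ?_ ?_ ?_
      · rw [h00]; exact pad _ _ hA0
      · rw [h01]; exact pad _ _ hB0
      · rw [h10, add_mul, mul_assoc, pad _ _ hA0, pad _ _ hC0]; push_cast; ring
      · rw [h11, add_mul, mul_assoc, pad _ _ hB0, pad _ _ hD0]; push_cast; ring
      · rw [hC, zero_mul, add_zero]
        exact mul_ne_zero (by exact_mod_cast hm) (mul_ne_zero hA00 hqj0)
    have hl : lR (m : R) ∈ jFix I := E_le_jFix I (lR_mem_E hmI)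
    have : g = (lR (m : R))⁻¹ * g₁ := by rw [hg₁]; group
    rw [this]
    exact mul_mem (inv_mem hl) hg₁J
  · exact mem_jFix_of_good q hq hq2 qu hqu hrep m hm hmq e Φo hΦo h2m hΦ hg
      (k0 * 2 ^ (e + 1)) (Dvd.intro_left _ rfl) (A0 * (q : ℤ) ^ j) (B0 * (q : ℤ) ^ j)
      (C0 * (q : ℤ) ^ j) (D0 * (q : ℤ) ^ j) (pad _ _ hA0) (pad _ _ hB0) (pad _ _ hC0)
      (pad _ _ hD0) (mul_ne_zero hC hqj0)

end Fermat.Agent.LR.CSPClaimJEven
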