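/-
Program M, node D2 / bypass (P4), N even, q odd (helper21): for every `N ≠ 0` prime to the odd
prime `q` there is a level `m` (a multiple of `N`, prime to `q`, divisible by `8`) at which Claim J
holds on `Γ(m) ≤ SL(2, ℤ[1/q])`, hence `uR (2 x)`, `lR (2 y) ∈ cenMod (m)` (Corollary U): every
character of `Γ(m)` killing `E(m)` is invariant under conjugation by `u(2x)`, `l(2y)` and `J`.
-/
import Fermat.Agent.LR.CSPClaimJEven
import Fermat.Agent.LR.CSPBasic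

set_option autoImplicit false

namespace Fermat.Agent.LR.CSPCenEven

open Fermat.Agent.LR.Gen Fermat.Agent.LR.SL2R Fermat.Agent.LR.CSPClaimJ
open scoped MatrixGroups

/-- `q ^ (2 ^ e) ≡ 1 (mod 2 ^ (e+2))` for odd `q` and `e ≥ 1`. -/
theorem int_two_pow_dvd_pow_two_pow_sub_one {q : ℕ} (hqodd : Odd q) :
    ∀ e : ℕ, 1 ≤ e → ((2 : ℤ) ^ (e + 2)) ∣ (q : ℤ) ^ (2 ^ e) - 1 := by
  intro e he
  induction e, he using Nat.le_induction with
  | base =>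
    obtain ⟨t, ht⟩ := hqodd
    have h2 : (2 : ℤ) ∣ (t : ℤ) * ((t : ℤ) + 1) := (Int.even_mul_succ_self (t : ℤ)).two_dvd
    obtain ⟨w, hw⟩ := h2
    refine ⟨w, ?_⟩
    rw [ht]; push_cast
    have : (2 * (t : ℤ) + 1) ^ 2 - 1 = 4 * ((t : ℤ) * ((t : ℤ) + 1)) := by ring
    rw [this, hw]; ring
  | succ e he ih =>
    obtain ⟨w, hw⟩ := ih
    have hx : (q : ℤ) ^ (2 ^ e) = 1 + 2 ^ (e + 2) * w := by linarith
    refine ⟨w + 2 ^ (e + 1) * w ^ 2, ?_⟩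
    have : (q : ℤ) ^ (2 ^ (e + 1)) = ((q : ℤ) ^ (2 ^ e)) ^ 2 := by rw [← pow_mul, pow_succ]
    rw [this, hx]
    have h3 : (2 : ℤ) ^ (e + 1 + 2) = 2 * 2 ^ (e + 2) := by rw [pow_succ]; ring
    have h4 : (2 : ℤ) ^ (e + 2) = 2 * 2 ^ (e + 1) := by rw [pow_succ]; ring
    rw [h3, h4]; ring

/-- Existence of a good even level above `N`. -/
theorem exists_good_level (q : ℕ) (hq : q.Prime) (hq2 : q ≠ 2) (N : ℕ) (hN : N ≠ 0)
    (hNq : Nat.Coprime N q) :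
    ∃ m e Φo : ℕ, m ≠ 0 ∧ N ∣ m ∧ Nat.Coprime m q ∧ Odd Φo ∧ 1 ≤ e ∧ 2 ^ (e + 2) ∣ m ∧
      (m : ℤ) ∣ (q : ℤ) ^ (2 ^ e * Φo) - 1 := by
  have hqodd : Odd q := by
    rcases hq.eq_two_or_odd' with h | h
    · exact absurd h hq2
    · exact h
  obtain ⟨a, No, hNo, hNsplit⟩ := Nat.exists_eq_two_pow_mul_odd hN
  have hNo0 : No ≠ 0 := by rintro rfl; simp at hNo
  have hNoq : Nat.Coprime No q := Nat.Coprime.coprime_dvd_left ⟨2 ^ a, by rw [hNsplit]; ring⟩ hNq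
  obtain ⟨b, Φo, hΦo, hφsplit⟩ :=
    Nat.exists_eq_two_pow_mul_odd (Nat.totient_pos.mpr (Nat.pos_of_ne_zero hNo0)).ne'
  set e : ℕ := max (max a b) 1 with he
  have hae : a ≤ e := le_trans (le_max_left a b) (le_max_left _ _)
  have hbe : b ≤ e := le_trans (le_max_right a b) (le_max_left _ _)
  have h1e : 1 ≤ e := le_max_right _ _
  refine ⟨2 ^ (e + 2) * No, e, Φo, ?_, ?_, ?_, hΦo, h1e, Dvd.intro _ rfl, ?_⟩
  · exact Nat.mul_ne_zero (by positivity) hNo0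
  · rw [hNsplit]
    exact Nat.mul_dvd_mul (pow_dvd_pow 2 (by omega)) dvd_rfl
  · refine Nat.Coprime.mul_left ?_ hNoq
    exact Nat.Coprime.pow_left _ (Nat.coprime_two_left.mpr hqodd)
  · -- divisibility
    have h1 : ((2 : ℤ) ^ (e + 2)) ∣ (q : ℤ) ^ (2 ^ e * Φo) - 1 := by
      have h := sub_dvd_pow_sub_pow ((q : ℤ) ^ (2 ^ e)) 1 Φo
      rw [one_pow, ← pow_mul] at h
      exact (int_two_pow_dvd_pow_two_pow_sub_one hqodd e h1e).trans h
    have h2 : (No : ℤ) ∣ (q : ℤ) ^ (2 ^ e * Φo) - 1 := by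
      have hdvd : Nat.totient No ∣ 2 ^ e * Φo := by
        rw [hφsplit]; exact Nat.mul_dvd_mul (pow_dvd_pow 2 hbe) dvd_rfl
      exact int_dvd_pow_sub_one hNoq hdvd
    have hcop : IsCoprime ((2 : ℤ) ^ (e + 2)) (No : ℤ) := by
      apply IsCoprime.pow_left
      have : Nat.Coprime 2 No := Nat.coprime_two_left.mpr hNo
      exact_mod_cast Nat.isCoprime_iff_coprime.mpr this
    have := hcop.mul_dvd h1 h2
    push_cast
    exact this

/-- **(P4), `N` even / arbitrary, `q` odd**: a level `m`, multiple of `N`, prime to `q`, divisible by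
`8`, at which Claim J holds and `uR (2 x)`, `lR (2 y)` centralise `Γ(m)` modulo `EC (m)`. -/
theorem exists_level_cen_two (q : ℕ) (hq : q.Prime) (hq2 : q ≠ 2) (N : ℕ) (hN : N ≠ 0)
    (hNq : Nat.Coprime N q) :
    ∃ m : ℕ, m ≠ 0 ∧ N ∣ m ∧ Nat.Coprime m q ∧ 8 ∣ m ∧
      (∀ g ∈ Gam (Ideal.span {(m : ↥(zInv q))}),
        conjDiag (-1) g * g⁻¹ ∈ EC (Ideal.span {(m : ↥(zInv q))})) ∧
      (∀ x : ↥(zInv q), uR (2 * x) ∈ cenMod (Ideal.span {(m : ↥(zInv q))})) ∧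
      (∀ y : ↥(zInv q), lR (2 * y) ∈ cenMod (Ideal.span {(m : ↥(zInv q))})) := by
  obtain ⟨m, e, Φo, hm, hNm, hmq, hΦo, h1e, h2m, hΦ⟩ := exists_good_level q hq hq2 N hN hNq
  have hJ : ∀ g ∈ Gam (Ideal.span {(m : ↥(zInv q))}),
      conjDiag (-1) g * g⁻¹ ∈ EC (Ideal.span {(m : ↥(zInv q))}) := fun g hg =>
    CSPClaimJEven.Gam_le_jFix_of_good q hq hq2 (qUnit q hq.ne_zero) (qUnit_val q hq.ne_zero)
      (zInv_rep q) m hm hmq e Φo hΦo h2m hΦ hg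
  refine ⟨m, hm, hNm, hmq, ?_, hJ, fun x => uR_two_mul_mem_cenMod hJ x,
    fun y => lR_two_mul_mem_cenMod hJ y⟩
  have : 8 ∣ 2 ^ (e + 2) := by
    have : (8 : ℕ) = 2 ^ 3 := by norm_num
    rw [this]; exact pow_dvd_pow 2 (by omega)
  exact this.trans h2m

end Fermat.Agent.LR.CSPCenEven
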