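/-
Program M, node D2 (helper1): **Claim J** of finding #496 (helper21) in Lean.
Over `R = ℤ[1/q]` (`q` an odd prime), for every odd level `m` prime to `q`, conjugation by
`J = diag(-1, 1)` fixes every element of the principal congruence subgroup `Γ(m)` modulo
`EC (m) = E (m) · [Γ(m), Γ(m)]`.  This is exactly the hypothesis `hJ` of `SL2R.cenMod_eq_top`, so
together with the generation of `SL(2, ℤ[1/q])` by elementary matrices it gives Theorem (Cen).

Proof (finding #496): normalise `g` by `lR (m y)`, `uR (m x)` (elements of `E`) so that the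
numerator of `c` is odd and `a = π / q ^ k` with `π` a prime supplied by
`CSPArith.exists_prime_modEq_pow_eq_neg_one` (Dirichlet + quadratic reciprocity); then
`s = -q ^ (2 k₀) ≡ 1 (mod a)` and Lemma T' (`SL2R.conjDiag_mul_inv_mem_E`) applies, while
`diag(s, 1) = J · (scalar) · diag(q ^ k₀, q ^ (-k₀))` with `diag(q ^ k₀, q ^ (-k₀)) ∈ Γ(m)`.

The arithmetic part is written for an arbitrary characteristic zero commutative ring `R` in which `q`
is a unit and every element is `n / q ^ k`; it is then specialised to `Gen.zInv q`.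
-/
import Fermat.Agent.LR.SL2Ring
import Fermat.Agent.LR.CSPArith
import Fermat.Agent.LR.AmalgamGen

set_option autoImplicit false

namespace Fermat.Agent.LR.CSPClaimJ

open Fermat.Agent.LR.SL2R
open scoped MatrixGroups commutatorElement

variable {R : Type*} [CommRing R]

/-- the diagonal matrix `diag(t, t⁻¹)` -/
def hR (t : Rˣ) : SL(2, R) :=
  ⟨!![(t : R), 0; 0, ((t⁻¹ : Rˣ) : R)], by simp [Matrix.det_fin_two_of]⟩

@[simp] theorem coe_hR (t : Rˣ) :
    (hR t : Matrix (Fin 2) (Fin 2) R) = !![(t : R), 0; 0, ((t⁻¹ : Rˣ) : R)] := rfl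

theorem hR_mem_Gam {I : Ideal R} {t : Rˣ} (ht : (t : R) - 1 ∈ I) : hR t ∈ Gam I := by
  rw [mem_Gam]
  refine ⟨by simpa using ht, by simp, by simp, ?_⟩
  have h : ((t⁻¹ : Rˣ) : R) - 1 = -(((t⁻¹ : Rˣ) : R)) * ((t : R) - 1) := by
    have ht' : ((t⁻¹ : Rˣ) : R) * (t : R) = 1 := by simp
    linear_combination ht'
  simp only [coe_hR, Matrix.of_apply, Matrix.cons_val', Matrix.cons_val_one,
    Matrix.cons_val_fin_one]
  rw [h]
  exact I.mul_mem_left _ ht

theorem conjDiag_mul (s₁ s₂ : Rˣ) (g : SL(2, R)) :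
    conjDiag (s₁ * s₂) g = conjDiag s₁ (conjDiag s₂ g) := by
  apply sl_ext <;> simp [conjDiag_apply, mul_assoc, mul_comm]

theorem conjDiag_sq (t : Rˣ) (g : SL(2, R)) :
    conjDiag (t ^ 2) g = hR t * g * (hR t)⁻¹ := by
  have ht : (t : R) * ((t⁻¹ : Rˣ) : R) = 1 := by simp
  apply sl_ext
  · simp only [conjDiag_apply, SL2R.mul_apply', inv_apply, coe_hR, Matrix.of_apply,
      Matrix.cons_val', Matrix.cons_val_zero, Matrix.cons_val_one, Matrix.cons_val_fin_one]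
    linear_combination (-(g 0 0)) * ht
  · simp only [conjDiag_apply, SL2R.mul_apply', inv_apply, coe_hR, Matrix.of_apply,
      Matrix.cons_val', Matrix.cons_val_zero, Matrix.cons_val_one, Matrix.cons_val_fin_one,
      Units.val_pow_eq_pow_val]
    ring
  · simp only [conjDiag_apply, SL2R.mul_apply', inv_apply, coe_hR, Matrix.of_apply,
      Matrix.cons_val', Matrix.cons_val_zero, Matrix.cons_val_one, Matrix.cons_val_fin_one]
    have h2 : (((t ^ 2)⁻¹ : Rˣ) : R) = ((t⁻¹ : Rˣ) : R) ^ 2 := by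
      rw [← inv_pow, Units.val_pow_eq_pow_val]
    rw [h2]
    ring
  · simp only [conjDiag_apply, SL2R.mul_apply', inv_apply, coe_hR, Matrix.of_apply,
      Matrix.cons_val', Matrix.cons_val_zero, Matrix.cons_val_one, Matrix.cons_val_fin_one]
    linear_combination (-(g 1 1)) * ht


theorem conjDiag_mem_commutator {I : Ideal R} (s : Rˣ) {x : SL(2, R)}
    (hx : x ∈ ⁅Gam I, Gam I⁆) : conjDiag s x ∈ ⁅Gam I, Gam I⁆ := by
  have h : ⁅Gam I, Gam I⁆ ≤ (⁅Gam I, Gam I⁆).comap (conjDiag s).toMonoidHom := by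
    rw [Subgroup.commutator_le]
    intro a ha b hb
    show conjDiag s ⁅a, b⁆ ∈ ⁅Gam I, Gam I⁆
    rw [map_commutatorElement]
    exact Subgroup.commutator_mem_commutator (conjDiag_mem_Gam s ha) (conjDiag_mem_Gam s hb)
  exact h hx

theorem conjDiag_mem_EC {I : Ideal R} (s : Rˣ) {x : SL(2, R)} (hx : x ∈ EC I) :
    conjDiag s x ∈ EC I := by
  have h : EC I ≤ (EC I).comap (conjDiag s).toMonoidHom := by
    refine sup_le ?_ ?_
    · intro y hy
      exact E_le_EC I (conjDiag_mem_E s hy)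
    · intro y hy
      exact commutator_le_EC I (conjDiag_mem_commutator s hy)
  exact h hx

/-- the elements fixed by `J = diag(-1, 1)` modulo `EC I` -/
def jFix (I : Ideal R) : Subgroup SL(2, R) where
  carrier := {g | conjDiag (-1) g * g⁻¹ ∈ EC I}
  one_mem' := by simp
  mul_mem' := by
    intro g h hg hh
    have h1 : conjDiag (-1) (g * h) * (g * h)⁻¹ =
        (conjDiag (-1) g * g⁻¹) * (g * (conjDiag (-1) h * h⁻¹) * g⁻¹) := by
      rw [map_mul]; group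
    show conjDiag (-1) (g * h) * (g * h)⁻¹ ∈ EC I
    rw [h1]
    exact mul_mem hg ((inferInstance : (EC I).Normal).conj_mem _ hh g)
  inv_mem' := by
    intro g hg
    have h1 : conjDiag (-1) g⁻¹ * g⁻¹⁻¹ = (g⁻¹ * (conjDiag (-1) g * g⁻¹) * g⁻¹⁻¹)⁻¹ := by
      rw [map_inv]; group
    show conjDiag (-1) g⁻¹ * g⁻¹⁻¹ ∈ EC I
    rw [h1]
    exact inv_mem ((inferInstance : (EC I).Normal).conj_mem _ hg g⁻¹)

theorem mem_jFix {I : Ideal R} {g : SL(2, R)} :
    g ∈ jFix I ↔ conjDiag (-1) g * g⁻¹ ∈ EC I := Iff.rfl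

theorem E_le_jFix (I : Ideal R) : E I ≤ jFix I := by
  intro g hg
  exact E_le_EC I (mul_mem (conjDiag_mem_E _ hg) (inv_mem hg))

/-- **Lemma A**: if `-t² = 1 + a(g) e` for a unit `t ≡ 1 (mod I)`, then `J` fixes `g` modulo
`EC I`. -/
theorem mem_jFix_of_unit {I : Ideal R} {g : SL(2, R)} (hg : g ∈ Gam I) (t : Rˣ)
    (ht : (t : R) - 1 ∈ I) (e : R) (hs : -((t : R) ^ 2) = 1 + g 0 0 * e) : g ∈ jFix I := by
  have hs' : (((-1 : Rˣ) * t ^ 2 : Rˣ) : R) = 1 + g 0 0 * e := by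
    rw [← hs]; simp
  have h1 := conjDiag_mul_inv_mem_E hg e ((-1 : Rˣ) * t ^ 2) hs'
  rw [conjDiag_mul, conjDiag_sq] at h1
  have hH : hR t ∈ Gam I := hR_mem_Gam ht
  -- `J(g) g⁻¹ = J(g (H g H⁻¹)⁻¹) · (J(H g H⁻¹) g⁻¹)`
  have h2 : g * (hR t * g * (hR t)⁻¹)⁻¹ ∈ ⁅Gam I, Gam I⁆ := by
    have : g * (hR t * g * (hR t)⁻¹)⁻¹ = ⁅g, hR t⁆ := by
      rw [commutatorElement_def]; group
    rw [this]
    exact Subgroup.commutator_mem_commutator hg hH
  have h3 := commutator_le_EC I (conjDiag_mem_commutator (-1) h2)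
  rw [mem_jFix]
  have h4 : conjDiag (-1) g * g⁻¹ =
      conjDiag (-1) (g * (hR t * g * (hR t)⁻¹)⁻¹) *
        (conjDiag (-1) (hR t * g * (hR t)⁻¹) * g⁻¹) := by
    rw [map_mul, map_inv]; group
  rw [h4]
  exact mul_mem h3 (E_le_EC I h1)



/-- common denominator for four elements -/
theorem exists_common_den (q : ℕ)
    (hrep : ∀ r : R, ∃ k : ℕ, ∃ n : ℤ, r * (q : R) ^ k = (n : R)) (r₁ r₂ r₃ r₄ : R) :
    ∃ k : ℕ, ∃ n₁ n₂ n₃ n₄ : ℤ, r₁ * (q : R) ^ k = n₁ ∧ r₂ * (q : R) ^ k = n₂ ∧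
      r₃ * (q : R) ^ k = n₃ ∧ r₄ * (q : R) ^ k = n₄ := by
  obtain ⟨k₁, n₁, h₁⟩ := hrep r₁
  obtain ⟨k₂, n₂, h₂⟩ := hrep r₂
  obtain ⟨k₃, n₃, h₃⟩ := hrep r₃
  obtain ⟨k₄, n₄, h₄⟩ := hrep r₄
  refine ⟨k₁ + k₂ + k₃ + k₄, n₁ * (q : ℤ) ^ (k₂ + k₃ + k₄), n₂ * (q : ℤ) ^ (k₁ + k₃ + k₄),
    n₃ * (q : ℤ) ^ (k₁ + k₂ + k₄), n₄ * (q : ℤ) ^ (k₁ + k₂ + k₃), ?_, ?_, ?_, ?_⟩
  · push_cast; rw [← h₁]; ring
  · push_cast; rw [← h₂]; ring
  · push_cast; rw [← h₃]; ring
  · push_cast; rw [← h₄]; ring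



/-- `q ^ k ≡ 1 (mod m)` when `φ(m) ∣ k` -/
theorem int_dvd_pow_sub_one {q m k : ℕ} (hmq : Nat.Coprime m q) (hk : Nat.totient m ∣ k) :
    (m : ℤ) ∣ (q : ℤ) ^ k - 1 := by
  obtain ⟨j, rfl⟩ := hk
  have h1 : q ^ Nat.totient m ≡ 1 [MOD m] := Nat.ModEq.pow_totient hmq.symm
  have h2 : (q ^ Nat.totient m) ^ j ≡ 1 ^ j [MOD m] := h1.pow j
  rw [one_pow, ← pow_mul] at h2
  have h3 := (Nat.modEq_iff_dvd.mp h2.symm)
  push_cast at h3
  exact h3

/-- the prime `π` divides `q ^ (2k) + 1` when `q ^ (2k) = -1` in `ZMod π` -/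
theorem int_dvd_pow_add_one {q π k : ℕ} (h : ((q : ZMod π)) ^ (2 * k) = -1) :
    (π : ℤ) ∣ (q : ℤ) ^ (2 * k) + 1 := by
  rw [← ZMod.intCast_zmod_eq_zero_iff_dvd]
  push_cast
  rw [h]; ring



/-- split off the `q`-part of a nonzero integer -/
theorem exists_eq_pow_mul_not_dvd {q : ℕ} (hq : q.Prime) {C : ℤ} (hC : C ≠ 0) :
    ∃ (v : ℕ) (C₂ : ℤ), C = (q : ℤ) ^ v * C₂ ∧ ¬ (q ∣ C₂.natAbs) := by
  obtain ⟨v, n', hn', hCn⟩ :=
    Nat.exists_eq_pow_mul_and_not_dvd (Int.natAbs_ne_zero.mpr hC) q hq.one_lt.ne'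
  have hdvd : ((q ^ v : ℕ) : ℤ) ∣ C := Int.natCast_dvd.mpr ⟨n', hCn⟩
  obtain ⟨C₂, hC₂⟩ := hdvd
  refine ⟨v, C₂, by rw [hC₂]; push_cast; ring, ?_⟩
  have h1 : C.natAbs = q ^ v * C₂.natAbs := by
    rw [hC₂, Int.natAbs_mul, Int.natAbs_natCast]
  have h2 : q ^ v * n' = q ^ v * C₂.natAbs := by rw [← hCn, h1]
  have h3 : n' = C₂.natAbs := Nat.eq_of_mul_eq_mul_left (pow_pos hq.pos v) h2
  rwa [← h3]


/-- **Claim J, core case**: `g ∈ Γ(m)` whose lower left entry has an odd numerator. -/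
theorem mem_jFix_of_odd [CharZero R] (q : ℕ) (hq : q.Prime) (hq2 : q ≠ 2) (qu : Rˣ)
    (hqu : (qu : R) = (q : R)) (hrep : ∀ r : R, ∃ k : ℕ, ∃ n : ℤ, r * (q : R) ^ k = (n : R))
    (m : ℕ) (hm : m ≠ 0) (hm2 : Nat.Coprime m 2) (hmq : Nat.Coprime m q)
    {g : SL(2, R)} (hg : g ∈ Gam (Ideal.span {(m : R)})) (k : ℕ) (A B C D : ℤ)
    (hA : g 0 0 * (q : R) ^ k = A) (hB : g 0 1 * (q : R) ^ k = B)
    (hC : g 1 0 * (q : R) ^ k = C) (hD : g 1 1 * (q : R) ^ k = D) (hCodd : Odd C) :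
    g ∈ jFix (Ideal.span {(m : R)}) := by
  set I : Ideal R := Ideal.span {(m : R)} with hI
  have hcast : Function.Injective ((↑) : ℤ → R) := Int.cast_injective
  set qi : R := ((qu⁻¹ : Rˣ) : R) with hqi
  have hqqi : (q : R) * qi = 1 := by rw [← hqu, hqi]; simp
  have hqqik : ∀ j : ℕ, (q : R) ^ j * qi ^ j = 1 := fun j => by rw [← mul_pow, hqqi, one_pow]
  -- the determinant relation in `ℤ`
  have hdet : A * D - B * C = (q : ℤ) ^ (2 * k) := by
    apply hcast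
    push_cast
    rw [← hA, ← hB, ← hC, ← hD]
    have := det_eq g
    linear_combination ((q : R) ^ (2 * k)) * this
  have hC0 : C ≠ 0 := by
    rintro rfl
    exact (Int.not_even_iff_odd.mpr hCodd) (by simp)
  obtain ⟨v, C₂, hC₂, hqC₂⟩ := exists_eq_pow_mul_not_dvd hq hC0
  have hC₂0 : C₂ ≠ 0 := by
    rintro rfl
    exact hC0 (by rw [hC₂]; simp)
  have hC₂odd : Odd C₂ := by
    rw [hC₂] at hCodd
    exact (Int.odd_mul.mp hCodd).2
  -- coprimality of `A` and `m`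
  have hAm : IsCoprime A (m : ℤ) := by
    rw [mem_Gam] at hg
    obtain ⟨r, hr⟩ := Ideal.mem_span_singleton'.mp hg.1
    obtain ⟨j, n, hn⟩ := hrep r
    have h1 : A * (q : ℤ) ^ j = (q : ℤ) ^ (k + j) + n * (q : ℤ) ^ k * m := by
      apply hcast
      push_cast
      rw [← hA, ← hn]
      linear_combination ((q : R) ^ (k + j)) * hr.symm
    have hqm : IsCoprime ((q : ℤ) ^ (k + j)) (m : ℤ) := by
      apply IsCoprime.pow_left
      exact Nat.isCoprime_iff_coprime.mpr hmq.symm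
    have h2 : IsCoprime (A * (q : ℤ) ^ j) (m : ℤ) := by
      rw [h1]
      exact hqm.add_mul_right_left _
    exact h2.of_mul_left_left
  -- coprimality of `A` and `C₂`
  have hqC₂' : IsCoprime ((q : ℤ) ^ (2 * k)) C₂ := by
    apply IsCoprime.pow_left
    rw [Int.isCoprime_iff_gcd_eq_one, Int.gcd_eq_natAbs, Int.natAbs_natCast]
    exact (Nat.Prime.coprime_iff_not_dvd hq).mpr hqC₂
  have hAC₂ : IsCoprime A C₂ := by
    obtain ⟨u, w, huw⟩ := hqC₂'
    refine ⟨u * D, w - u * B * (q : ℤ) ^ v, ?_⟩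
    rw [← huw, ← hdet, hC₂]
    ring
  -- the modulus
  set M : ℕ := m * C₂.natAbs with hM
  have hM0 : M ≠ 0 := Nat.mul_ne_zero hm (Int.natAbs_ne_zero.mpr hC₂0)
  have hC₂natodd : Odd C₂.natAbs := Int.natAbs_odd.mpr hC₂odd
  have hM2 : Nat.Coprime M 2 := by
    apply Nat.Coprime.mul_left hm2
    exact (Nat.coprime_two_right.mpr hC₂natodd)
  have hMq : Nat.Coprime M q := by
    apply Nat.Coprime.mul_left hmq
    exact ((Nat.Prime.coprime_iff_not_dvd hq).mpr hqC₂).symm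
  have hAC₂' : IsCoprime A (C₂.natAbs : ℤ) := by
    rcases Int.natAbs_eq C₂ with h | h
    · rw [← h]; exact hAC₂
    · have : (C₂.natAbs : ℤ) = -C₂ := by omega
      rw [this]; exact hAC₂.neg_right
  have hAM : IsCoprime A (M : ℤ) := by
    rw [hM, Nat.cast_mul]
    exact hAm.mul_right hAC₂'
  obtain ⟨π, k₀, hπ, -, hπA, hΦk, hpow⟩ :=
    CSPArith.exists_prime_modEq_pow_eq_neg_one q hq hq2 M A (Nat.totient m) 0 hM0 hM2 hMq hAM
      (Nat.totient_pos.mpr (Nat.pos_of_ne_zero hm)).ne'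
  -- `π - A = m * C₂ * n₀`
  have hdvd1 : (m : ℤ) * C₂ ∣ (π : ℤ) - A := by
    have h1 : (M : ℤ) ∣ (π : ℤ) - A := by
      have := hπA.symm.dvd
      exact this
    have h2 : (m : ℤ) * C₂ ∣ (M : ℤ) := by
      rw [hM, Nat.cast_mul]
      exact mul_dvd_mul_left _ (Int.dvd_natAbs.mpr dvd_rfl)
    exact h2.trans h1
  obtain ⟨n₀, hn₀⟩ := hdvd1
  obtain ⟨n₁, hn₁⟩ := int_dvd_pow_add_one hpow
  obtain ⟨n₂, hn₂⟩ := int_dvd_pow_sub_one hmq hΦk
  -- the normalised element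
  set x : R := (n₀ : R) * qi ^ v with hx
  have hmxI : (m : R) * x ∈ I := Ideal.mem_span_singleton'.mpr ⟨x, mul_comm _ _⟩
  set g' : SL(2, R) := uR ((m : R) * x) * g with hg'
  have hg'mem : g' ∈ Gam I := mul_mem (uR_mem_Gam hmxI) hg
  have hg'00 : g' 0 0 = (π : R) * qi ^ k := by
    have h1 : g' 0 0 = g 0 0 + (m : R) * x * g 1 0 := by
      rw [hg', SL2R.mul_apply']; simp
    have hπR : (π : R) = (A : R) + (m : R) * (C₂ : R) * (n₀ : R) := by
      have : (π : ℤ) = A + (m : ℤ) * C₂ * n₀ := by linarith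
      have h := congrArg (fun z : ℤ => (z : R)) this
      simpa using h
    have hCR : (C : R) = (q : R) ^ v * (C₂ : R) := by
      have h := congrArg (fun z : ℤ => (z : R)) hC₂
      simpa using h
    have ha : g 0 0 = (A : R) * qi ^ k := by
      rw [← hA, mul_assoc, hqqik, mul_one]
    have hc : g 1 0 = (C : R) * qi ^ k := by
      rw [← hC, mul_assoc, hqqik, mul_one]
    rw [h1, ha, hc, hπR, hCR, hx]
    linear_combination ((m : R) * (n₀ : R) * (C₂ : R) * qi ^ k) * (hqqik v)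
  -- the unit
  set t : Rˣ := qu ^ k₀ with ht
  have htval : (t : R) = (q : R) ^ k₀ := by rw [ht, Units.val_pow_eq_pow_val, hqu]
  have htI : (t : R) - 1 ∈ I := by
    rw [htval]
    refine Ideal.mem_span_singleton'.mpr ⟨(n₂ : R), ?_⟩
    have h := congrArg (fun z : ℤ => (z : R)) hn₂
    simp only [Int.cast_sub, Int.cast_pow, Int.cast_natCast, Int.cast_one, Int.cast_mul] at h
    rw [h]; ring
  have hs : -((t : R) ^ 2) = 1 + g' 0 0 * (-(n₁ : R) * (q : R) ^ k) := by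
    rw [hg'00, htval]
    have h := congrArg (fun z : ℤ => (z : R)) hn₁
    simp only [Int.cast_add, Int.cast_pow, Int.cast_natCast, Int.cast_one, Int.cast_mul] at h
    have h' : ((q : R) ^ k₀) ^ 2 = (q : R) ^ (2 * k₀) := by rw [← pow_mul, mul_comm]
    rw [h']
    linear_combination (-1 : R) * h + ((π : R) * (n₁ : R)) * (hqqik k)
  have hg'J : g' ∈ jFix I := mem_jFix_of_unit hg'mem t htI _ hs
  have hu : uR ((m : R) * x) ∈ jFix I := E_le_jFix I (uR_mem_E hmxI)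
  have : g = (uR ((m : R) * x))⁻¹ * g' := by rw [hg']; group
  rw [this]
  exact mul_mem (inv_mem hu) hg'J

/-- **Claim J** (helper21, finding #496), generic form: over a characteristic zero ring `R` in which
the odd prime `q` is a unit and every element is of the form `n / q ^ k` (so `R = ℤ[1/q]`), the
conjugation `J` by `diag(-1, 1)` fixes the principal congruence subgroup of every odd level `m`
prime to `q` modulo `EC`. -/
theorem Gam_le_jFix [CharZero R] (q : ℕ) (hq : q.Prime) (hq2 : q ≠ 2) (qu : Rˣ)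
    (hqu : (qu : R) = (q : R)) (hrep : ∀ r : R, ∃ k : ℕ, ∃ n : ℤ, r * (q : R) ^ k = (n : R))
    (m : ℕ) (hm : m ≠ 0) (hm2 : Nat.Coprime m 2) (hmq : Nat.Coprime m q) :
    Gam (Ideal.span {(m : R)}) ≤ jFix (Ideal.span {(m : R)}) := by
  intro g hg
  set I : Ideal R := Ideal.span {(m : R)} with hI
  obtain ⟨k, A, B, C, D, hA, hB, hC, hD⟩ :=
    exists_common_den q hrep (g 0 0) (g 0 1) (g 1 0) (g 1 1)
  rcases Int.even_or_odd C with hCe | hCo
  · -- make the numerator of `c` odd by `c ↦ c + m a`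
    have hcast : Function.Injective ((↑) : ℤ → R) := Int.cast_injective
    have hdet : A * D - B * C = (q : ℤ) ^ (2 * k) := by
      apply hcast
      push_cast
      rw [← hA, ← hB, ← hC, ← hD]
      have := det_eq g
      linear_combination ((q : R) ^ (2 * k)) * this
    have hqodd : Odd (q : ℤ) := by
      rcases hq.eq_two_or_odd' with h | h
      · exact absurd h hq2
      · exact_mod_cast h
    have hAodd : Odd A := by
      have h1 : Odd (A * D - B * C) := by rw [hdet]; exact hqodd.pow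
      have h2 : Even (B * C) := hCe.mul_left B
      have h3 : Odd (A * D) := by
        have : A * D = (A * D - B * C) + B * C := by ring
        rw [this]; exact h1.add_even h2
      exact (Int.odd_mul.mp h3).1
    have hmodd : Odd (m : ℤ) := by
      have : Odd m := Nat.coprime_two_right.mp hm2
      exact_mod_cast this
    have hmI : (m : R) ∈ I := Ideal.subset_span rfl
    set g₁ : SL(2, R) := lR (m : R) * g with hg₁
    have hg₁mem : g₁ ∈ Gam I := mul_mem (lR_mem_Gam hmI) hg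
    have h00 : g₁ 0 0 = g 0 0 := by rw [hg₁, SL2R.mul_apply']; simp
    have h01 : g₁ 0 1 = g 0 1 := by rw [hg₁, SL2R.mul_apply']; simp
    have h10 : g₁ 1 0 = (m : R) * g 0 0 + g 1 0 := by rw [hg₁, SL2R.mul_apply']; simp
    have h11 : g₁ 1 1 = (m : R) * g 0 1 + g 1 1 := by rw [hg₁, SL2R.mul_apply']; simp
    have hg₁J : g₁ ∈ jFix I := by
      refine mem_jFix_of_odd q hq hq2 qu hqu hrep m hm hm2 hmq hg₁mem k A B ((m : ℤ) * A + C)
        ((m : ℤ) * B + D) ?_ ?_ ?_ ?_ ?_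
      · rw [h00, hA]
      · rw [h01, hB]
      · rw [h10]; push_cast; rw [← hA, ← hC]; ring
      · rw [h11]; push_cast; rw [← hB, ← hD]; ring
      · exact (hmodd.mul hAodd).add_even hCe
    have hl : lR (m : R) ∈ jFix I := E_le_jFix I (lR_mem_E hmI)
    have : g = (lR (m : R))⁻¹ * g₁ := by rw [hg₁]; group
    rw [this]
    exact mul_mem (inv_mem hl) hg₁J
  · exact mem_jFix_of_odd q hq hq2 qu hqu hrep m hm hm2 hmq hg k A B C D hA hB hC hD hCo

/-- Claim J in the form of the hypothesis `hJ` of `SL2R.cenMod_eq_top`. -/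
theorem claimJ [CharZero R] (q : ℕ) (hq : q.Prime) (hq2 : q ≠ 2) (qu : Rˣ)
    (hqu : (qu : R) = (q : R)) (hrep : ∀ r : R, ∃ k : ℕ, ∃ n : ℤ, r * (q : R) ^ k = (n : R))
    (m : ℕ) (hm : m ≠ 0) (hm2 : Nat.Coprime m 2) (hmq : Nat.Coprime m q) :
    ∀ g ∈ Gam (Ideal.span {(m : R)}),
      conjDiag (-1) g * g⁻¹ ∈ EC (Ideal.span {(m : R)}) :=
  fun _ hg => Gam_le_jFix q hq hq2 qu hqu hrep m hm hm2 hmq hg

/-! ### The ring `ℤ[1/q] = Gen.zInv q` -/

section zInv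

open Fermat.Agent.LR.Gen

/-- `q` as a unit of `ℤ[1/q]` -/
noncomputable def qUnit (q : ℕ) (hq : q ≠ 0) : (↥(zInv q))ˣ where
  val := ⟨(q : ℚ), by exact_mod_cast intCast_mem_zInv q (q : ℤ)⟩
  inv := ⟨((q : ℚ))⁻¹, inv_mem_zInv q⟩
  val_inv := by
    apply Subtype.ext
    have : (q : ℚ) ≠ 0 := by exact_mod_cast hq
    simp [this]
  inv_val := by
    apply Subtype.ext
    have : (q : ℚ) ≠ 0 := by exact_mod_cast hq
    simp [this]

theorem qUnit_val (q : ℕ) (hq : q ≠ 0) : ((qUnit q hq : (↥(zInv q))ˣ) : ↥(zInv q)) = (q : ↥(zInv q)) := by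
  apply Subtype.ext
  simp [qUnit]

theorem zInv_rep (q : ℕ) (r : ↥(zInv q)) :
    ∃ k : ℕ, ∃ n : ℤ, r * (q : ↥(zInv q)) ^ k = (n : ↥(zInv q)) := by
  obtain ⟨k, n, h⟩ := r.2
  refine ⟨k, n, ?_⟩
  apply Subtype.ext
  simpa using h

/-- **Claim J for `ℤ[1/q]`**: the hypothesis `hJ` of `SL2R.cenMod_eq_top` for `R = ℤ[1/q]`, `q` an odd
prime, at every odd level `m` prime to `q`. -/
theorem claimJ_zInv (q : ℕ) (hq : q.Prime) (hq2 : q ≠ 2) (m : ℕ) (hm : m ≠ 0)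
    (hm2 : Nat.Coprime m 2) (hmq : Nat.Coprime m q) :
    ∀ g ∈ Gam (Ideal.span {(m : ↥(zInv q))}),
      conjDiag (-1) g * g⁻¹ ∈ EC (Ideal.span {(m : ↥(zInv q))}) :=
  claimJ q hq hq2 (qUnit q hq.ne_zero) (qUnit_val q hq.ne_zero) (zInv_rep q) m hm hm2 hmq

/-- `2` is invertible modulo an odd `m` in `ℤ[1/q]` (hypothesis `h2` of `SL2R.cenMod_eq_top`). -/
theorem two_inv_mod_zInv (q : ℕ) (m : ℕ) (hm2 : Nat.Coprime m 2) (x : ↥(zInv q)) :
    ∃ x' : ↥(zInv q), x - 2 * x' ∈ Ideal.span {(m : ↥(zInv q))} := by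
  have hodd : Odd m := Nat.coprime_two_right.mp hm2
  obtain ⟨j, hj⟩ := hodd
  -- `m = 2 j + 1`, so `x - 2 (-j x) = m x`
  refine ⟨-(j : ↥(zInv q)) * x, Ideal.mem_span_singleton'.mpr ⟨x, ?_⟩⟩
  rw [hj]; push_cast; ring

/-- **Theorem (Cen) for `ℤ[1/q]`**, `q` an odd prime, `m` odd and prime to `q`, assuming that
`SL(2, ℤ[1/q])` is generated by elementary matrices. -/
theorem cenMod_zInv_eq_top (q : ℕ) (hq : q.Prime) (hq2 : q ≠ 2) (m : ℕ) (hm : m ≠ 0)
    (hm2 : Nat.Coprime m 2) (hmq : Nat.Coprime m q)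
    (hgen : Subgroup.closure ({g : SL(2, ↥(zInv q)) | ∃ x, g = uR x} ∪ {g | ∃ y, g = lR y}) = ⊤) :
    cenMod (Ideal.span {(m : ↥(zInv q))}) = ⊤ :=
  cenMod_eq_top (claimJ_zInv q hq hq2 m hm hm2 hmq) (two_inv_mod_zInv q m hm2) hgen

end zInv


end Fermat.Agent.LR.CSPClaimJ
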