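/-
Program M, node D2 (helper20): (Cen) for `ℤ[1/q]`, `q` an odd prime, at every odd level `m` prime
to `q`, fully plugged: Claim J (`LR/CSPClaimJ.lean`, helper1) + generation by elementary matrices
(`LR/CSPBasic.lean`) + the generic theorem `SL2R.cenMod_eq_top`.
-/
import Mathlib
import Fermat.Agent.LR.CSPBasic
import Fermat.Agent.LR.CSPClaimJ

set_option autoImplicit false

namespace Fermat.Agent.LR.CSPCenOdd

open Matrix
open Fermat.Agent.LR.Gen Fermat.Agent.LR.SL2R Fermat.Agent.LR.CSP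
open scoped MatrixGroups

/-- **Claim J**, `q` odd prime, `m` odd prime to `q`. -/
theorem hJ_odd (q : ℕ) (hq : q.Prime) (hq2 : q ≠ 2) (m : ℕ) (hm : m ≠ 0)
    (hm2 : Nat.Coprime m 2) (hmq : Nat.Coprime m q) :
    ∀ g ∈ Gam (Ideal.span {(m : A q)}), conjDiag (-1) g * g⁻¹ ∈ EC (Ideal.span {(m : A q)}) :=
  CSPClaimJ.claimJ_zInv q hq hq2 m hm hm2 hmq

/-- **(Cen)**, `q` odd prime, `m` odd prime to `q`: `[SL(2, ℤ[1/q]), Gam(m)] ≤ E(m) [Gam(m), Gam(m)]`. -/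
theorem cenMod_odd (q : ℕ) (hq : q.Prime) (hq2 : q ≠ 2) (m : ℕ) (hm : m ≠ 0)
    (hm2 : Nat.Coprime m 2) (hmq : Nat.Coprime m q) :
    cenMod (Ideal.span {(m : A q)}) = ⊤ :=
  CSPClaimJ.cenMod_zInv_eq_top q hq hq2 m hm hm2 hmq (closure_elem_eq_top hq.ne_zero)

end Fermat.Agent.LR.CSPCenOdd
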