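/-
Program M, node D2 (helper26), generic layer on top of `LR/SL2Ring.lean`:
the *torus stabiliser argument* and *Corollary U'* for conjugation by `diag(s, 1)`, `s` a unit.

* `hR t = diag(t, t⁻¹)` lies in `E I` for a unit `t ≡ 1 mod I` (`hR_mem_E`), hence
  `conjDiag (t ^ 2)` fixes every class of `SL(2, R)` modulo `E I` (`conjDiag_sq_mul_inv_mem_E`).
* `stab I g = {t : Rˣ | conjDiag t g ≡ g mod E I}` is a subgroup of `Rˣ`, and only depends on the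
  class of `g` modulo `E I` (`mem_stab_of_mul_inv_mem_E`).
* `conjDiag_mul_inv_mem_E_of_coprime` (Claim D / torus centrality, generic form): if
  `s ^ n₀ = t₀ ^ 2` with `t₀ ≡ 1 mod I`, and `g' ≡ g mod E I` has `a(g') ∣ s ^ j - 1` with
  `gcd(j, n₀) = 1`, then `conjDiag s g ≡ g mod E I`.
  (`s = 2`, `n₀ = 2 e`, `t₀ = 2 ^ e` over `ℤ[1/2]`: invariance under `diag(2, 1)`;
  `s = q ^ 2`, `n₀ = e`, `t₀ = q ^ e` over `ℤ[1/q]`: helper1's theorem TC.)
* `uR_mem_cenMod_of_conjDiag`, `lR_mem_cenMod_of_conjDiag` (Corollary U'): if `conjDiag s` is trivial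
  on `Γ(I)` modulo `EC I`, then `u((s - 1) x)` and `l((s⁻¹ - 1) y)` centralise `Γ(I)` modulo `EC I`.
* `cenMod_eq_top_of_conjDiag`: hence `(Cen)` when `s - 1` and `s⁻¹ - 1` are invertible modulo `I`
  (e.g. `s = 2` over `ℤ[1/2]`) and `SL(2, R)` is generated by elementary matrices.
-/
import Mathlib
import Fermat.Agent.LR.SL2Ring
import Fermat.Agent.LR.CSPBasic
import Fermat.Agent.LR.CSPClaimJ

set_option autoImplicit false

namespace Fermat.Agent.LR.CSPClaimD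

open Matrix Fermat.Agent.LR.SL2R
open Fermat.Agent.LR.CSP (hR coe_hR)
open scoped MatrixGroups

variable {R : Type*} [CommRing R]

/-- `diag(t, t⁻¹) = l((1 - t)/t) · (u(1) l(t - 1) u(1)⁻¹) · u((t - 1)/t)` -/
theorem hR_eq_unip (t : Rˣ) :
    hR t = lR ((1 - (t : R)) * ((t⁻¹ : Rˣ) : R)) * (uR 1 * lR ((t : R) - 1) * (uR 1)⁻¹) *
      uR (((t : R) - 1) * ((t⁻¹ : Rˣ) : R)) := by
  have ht : (t : R) * ((t⁻¹ : Rˣ) : R) = 1 := by simp
  rw [uR_inv]
  apply sl_ext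
  · simp only [SL2R.mul_apply', coe_hR, coe_lR, coe_uR, Matrix.of_apply, Matrix.cons_val',
      Matrix.cons_val_zero, Matrix.cons_val_one, Matrix.cons_val_fin_one]
    ring
  · simp only [SL2R.mul_apply', coe_hR, coe_lR, coe_uR, Matrix.of_apply, Matrix.cons_val',
      Matrix.cons_val_zero, Matrix.cons_val_one, Matrix.cons_val_fin_one]
    linear_combination (1 - (t : R)) * ht
  · simp only [SL2R.mul_apply', coe_hR, coe_lR, coe_uR, Matrix.of_apply, Matrix.cons_val',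
      Matrix.cons_val_zero, Matrix.cons_val_one, Matrix.cons_val_fin_one]
    linear_combination (-(1 - (t : R))) * ht
  · simp only [SL2R.mul_apply', coe_hR, coe_lR, coe_uR, Matrix.of_apply, Matrix.cons_val',
      Matrix.cons_val_zero, Matrix.cons_val_one, Matrix.cons_val_fin_one]
    linear_combination (((t : R) - 1) ^ 2 * ((t⁻¹ : Rˣ) : R) + 2 - (t : R)) * ht

/-- `diag(t, t⁻¹) ∈ E I` for a unit `t ≡ 1 mod I` -/
theorem hR_mem_E {I : Ideal R} (t : Rˣ) (ht : (t : R) - 1 ∈ I) : hR t ∈ E I := by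
  rw [hR_eq_unip]
  have h1 : lR ((1 - (t : R)) * ((t⁻¹ : Rˣ) : R)) ∈ E I := by
    refine lR_mem_E (I.mul_mem_right _ ?_)
    have : 1 - (t : R) = -((t : R) - 1) := by ring
    rw [this]
    exact I.neg_mem ht
  have h2 : uR 1 * lR ((t : R) - 1) * (uR 1)⁻¹ ∈ E I :=
    (inferInstance : (E I).Normal).conj_mem _ (lR_mem_E ht) _
  have h3 : uR (((t : R) - 1) * ((t⁻¹ : Rˣ) : R)) ∈ E I := uR_mem_E (I.mul_mem_right _ ht)
  exact mul_mem (mul_mem h1 h2) h3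

/-- conjugation by `diag(t², 1)` is conjugation by `diag(t, t⁻¹)` -/
theorem conjDiag_sq (t : Rˣ) (g : SL(2, R)) : conjDiag (t ^ 2) g = hR t * g * (hR t)⁻¹ := by
  have ht : (t : R) * ((t⁻¹ : Rˣ) : R) = 1 := by simp
  have hd := det_eq g
  have e1 : (((t ^ 2 : Rˣ)) : R) = (t : R) ^ 2 := by simp
  have e2 : ((((t ^ 2 : Rˣ))⁻¹ : Rˣ) : R) = ((t⁻¹ : Rˣ) : R) ^ 2 := by
    rw [← inv_pow]; simp
  apply sl_ext
  · simp only [conjDiag_apply, SL2R.mul_apply', SL2R.inv_apply, coe_hR, Matrix.of_apply, Matrix.cons_val',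
      Matrix.cons_val_zero, Matrix.cons_val_one, Matrix.cons_val_fin_one]
    linear_combination (-(g 0 0)) * ht
  · simp only [conjDiag_apply, SL2R.mul_apply', SL2R.inv_apply, coe_hR, Matrix.of_apply, Matrix.cons_val',
      Matrix.cons_val_zero, Matrix.cons_val_one, Matrix.cons_val_fin_one]
    rw [e1]; ring
  · simp only [conjDiag_apply, SL2R.mul_apply', SL2R.inv_apply, coe_hR, Matrix.of_apply, Matrix.cons_val',
      Matrix.cons_val_zero, Matrix.cons_val_one, Matrix.cons_val_fin_one]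
    rw [e2]; ring
  · simp only [conjDiag_apply, SL2R.mul_apply', SL2R.inv_apply, coe_hR, Matrix.of_apply, Matrix.cons_val',
      Matrix.cons_val_zero, Matrix.cons_val_one, Matrix.cons_val_fin_one]
    linear_combination (-(g 1 1)) * ht

/-- `conjDiag (t ^ 2)` fixes every class modulo `E I` when `t ≡ 1 mod I` -/
theorem conjDiag_sq_mul_inv_mem_E {I : Ideal R} (t : Rˣ) (ht : (t : R) - 1 ∈ I) (g : SL(2, R)) :
    conjDiag (t ^ 2) g * g⁻¹ ∈ E I := by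
  rw [conjDiag_sq]
  have h1 := hR_mem_E t ht
  have h2 : g * (hR t)⁻¹ * g⁻¹ ∈ E I :=
    (inferInstance : (E I).Normal).conj_mem _ (inv_mem h1) g
  have : hR t * g * (hR t)⁻¹ * g⁻¹ = hR t * (g * (hR t)⁻¹ * g⁻¹) := by group
  rw [this]
  exact mul_mem h1 h2

theorem conjDiag_mul (s t : Rˣ) (g : SL(2, R)) : conjDiag (s * t) g = conjDiag s (conjDiag t g) := by
  apply sl_ext <;> simp [conjDiag_apply, mul_assoc, mul_left_comm]

theorem conjDiag_one (g : SL(2, R)) : conjDiag (1 : Rˣ) g = g := by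
  apply sl_ext <;> simp [conjDiag_apply]

/-- the stabiliser of the class of `g` modulo `E I` in the torus `{diag(t, 1)}` -/
def stab (I : Ideal R) (g : SL(2, R)) : Subgroup Rˣ where
  carrier := {t | conjDiag t g * g⁻¹ ∈ E I}
  one_mem' := by
    show conjDiag 1 g * g⁻¹ ∈ E I
    rw [conjDiag_one, mul_inv_cancel]
    exact one_mem _
  mul_mem' := by
    intro s t hs ht
    show conjDiag (s * t) g * g⁻¹ ∈ E I
    have h1 : conjDiag s (conjDiag t g * g⁻¹) ∈ E I := conjDiag_mem_E s ht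
    rw [map_mul, map_inv] at h1
    have : conjDiag (s * t) g * g⁻¹ =
        (conjDiag s (conjDiag t g) * (conjDiag s g)⁻¹) * (conjDiag s g * g⁻¹) := by
      rw [conjDiag_mul]; group
    rw [this]
    exact mul_mem h1 hs
  inv_mem' := by
    intro s hs
    show conjDiag s⁻¹ g * g⁻¹ ∈ E I
    have h1 : conjDiag s⁻¹ (conjDiag s g * g⁻¹) ∈ E I := conjDiag_mem_E s⁻¹ hs
    rw [map_mul, map_inv, ← conjDiag_mul, inv_mul_cancel, conjDiag_one] at h1
    have : conjDiag s⁻¹ g * g⁻¹ = (g * (conjDiag s⁻¹ g)⁻¹)⁻¹ := by group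
    rw [this]
    exact inv_mem h1

theorem mem_stab {I : Ideal R} {g : SL(2, R)} {t : Rˣ} :
    t ∈ stab I g ↔ conjDiag t g * g⁻¹ ∈ E I := Iff.rfl

/-- the stabiliser only depends on the class modulo `E I` -/
theorem mem_stab_of_mul_inv_mem_E {I : Ideal R} {g g' : SL(2, R)} (h : g' * g⁻¹ ∈ E I) {t : Rˣ}
    (ht : t ∈ stab I g') : t ∈ stab I g := by
  rw [mem_stab] at ht ⊢
  have h1 : conjDiag t (g' * g⁻¹) ∈ E I := conjDiag_mem_E t h
  rw [map_mul, map_inv] at h1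
  have : conjDiag t g * g⁻¹ =
      (conjDiag t g' * (conjDiag t g)⁻¹)⁻¹ * (conjDiag t g' * g'⁻¹) * (g' * g⁻¹) := by group
  rw [this]
  exact mul_mem (mul_mem (inv_mem h1) ht) h

/-- **Torus centrality, generic form.** Let `s` be a unit with `s ^ n₀ = t₀ ^ 2`, `t₀ ≡ 1 mod I`.
If `g ∈ Γ(I)` is congruent modulo `E I` to some `g' ∈ Γ(I)` whose upper left entry divides
`s ^ j - 1`, where `j` is prime to `n₀`, then `diag(s, 1) g diag(s, 1)⁻¹ ≡ g` modulo `E I`. -/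
theorem conjDiag_mul_inv_mem_E_of_coprime {I : Ideal R} (s t₀ : Rˣ) (n₀ : ℕ)
    (hst : s ^ n₀ = t₀ ^ 2) (ht₀ : (t₀ : R) - 1 ∈ I) {g g' : SL(2, R)} (hg' : g' ∈ Gam I)
    (hgg' : g' * g⁻¹ ∈ E I) (j : ℕ) (hj : Nat.Coprime j n₀) (e : R)
    (he : ((s ^ j : Rˣ) : R) = 1 + g' 0 0 * e) : conjDiag s g * g⁻¹ ∈ E I := by
  rw [← mem_stab]
  apply mem_stab_of_mul_inv_mem_E hgg'
  have h1 : s ^ j ∈ stab I g' := conjDiag_mul_inv_mem_E hg' e (s ^ j) he
  have h2 : s ^ n₀ ∈ stab I g' := by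
    rw [hst, mem_stab]
    exact conjDiag_sq_mul_inv_mem_E t₀ ht₀ g'
  have h3 : s ^ ((j : ℤ) * Nat.gcdA j n₀ + (n₀ : ℤ) * Nat.gcdB j n₀) ∈ stab I g' := by
    rw [_root_.zpow_add, _root_.zpow_mul, _root_.zpow_mul, zpow_natCast, zpow_natCast]
    exact mul_mem (zpow_mem h1 _) (zpow_mem h2 _)
  rw [← Nat.gcd_eq_gcd_ab, hj] at h3
  simpa using h3

/-- per-prime criterion: if `s ^ n₀` stabilises the class of `g` and for every prime
`l ∣ n₀` some power `s ^ k` with `l ∤ k` does, then `s` does. -/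
theorem mem_stab_of_forall_prime {I : Ideal R} {g : SL(2, R)} (s : Rˣ) (n₀ : ℕ)
    (h0 : s ^ n₀ ∈ stab I g)
    (h : ∀ l : ℕ, l.Prime → l ∣ n₀ → ∃ k : ℕ, ¬ l ∣ k ∧ s ^ k ∈ stab I g) : s ∈ stab I g := by
  set σ : Rˣ ⧸ stab I g := QuotientGroup.mk s with hσ
  have hpow : ∀ k : ℕ, s ^ k ∈ stab I g ↔ σ ^ k = 1 := by
    intro k
    rw [hσ, ← QuotientGroup.mk_pow, QuotientGroup.eq_one_iff]
  have h1 : orderOf σ ∣ n₀ := orderOf_dvd_of_pow_eq_one ((hpow n₀).mp h0)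
  have h2 : orderOf σ = 1 := by
    by_contra hne
    obtain ⟨l, hl, hlo⟩ := Nat.exists_prime_and_dvd hne
    obtain ⟨k, hlk, hk⟩ := h l hl (hlo.trans h1)
    exact hlk (hlo.trans (orderOf_dvd_of_pow_eq_one ((hpow k).mp hk)))
  have h3 : σ = 1 := orderOf_eq_one_iff.mp h2
  have := (hpow 1).mpr (by rw [pow_one, h3])
  simpa using this

/-- **Torus centrality, per-prime form.** Let `s` be a unit with `s ^ n₀ = t₀ ^ 2`, `t₀ ≡ 1 mod I`.
If for every prime `l ∣ n₀` the element `g` is congruent modulo `E I` to some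
`g' ∈ Γ(I)` whose upper left entry divides `s ^ j - 1` with `l ∤ j`, then
`diag(s, 1) g diag(s, 1)⁻¹ ≡ g` modulo `E I`. -/
theorem conjDiag_mul_inv_mem_E_of_forall_prime {I : Ideal R} (s t₀ : Rˣ) (n₀ : ℕ)
    (hst : s ^ n₀ = t₀ ^ 2) (ht₀ : (t₀ : R) - 1 ∈ I) {g : SL(2, R)}
    (h : ∀ l : ℕ, l.Prime → l ∣ n₀ → ∃ g' ∈ Gam I, g' * g⁻¹ ∈ E I ∧
      ∃ (j : ℕ) (e : R), ¬ l ∣ j ∧ ((s ^ j : Rˣ) : R) = 1 + g' 0 0 * e) :
    conjDiag s g * g⁻¹ ∈ E I := by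
  rw [← mem_stab]
  refine mem_stab_of_forall_prime s n₀ ?_ ?_
  · rw [hst, mem_stab]
    exact conjDiag_sq_mul_inv_mem_E t₀ ht₀ g
  · intro l hl hln
    obtain ⟨g', hg', hgg', j, e, hlj, he⟩ := h l hl hln
    exact ⟨j, hlj, mem_stab_of_mul_inv_mem_E hgg' (conjDiag_mul_inv_mem_E hg' e (s ^ j) he)⟩

/-- **Corollary U'**: if `diag(s, 1)` centralises `Γ(I)` modulo `EC I`, then so does
`u((s - 1) x)` for every `x`. -/
theorem uR_mem_cenMod_of_conjDiag {I : Ideal R} (s : Rˣ)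
    (hD : ∀ g ∈ Gam I, conjDiag s g * g⁻¹ ∈ EC I) (x : R) :
    uR (((s : R) - 1) * x) ∈ cenMod I := by
  intro g hg
  -- `g' = u(x) g u(-x)`
  set g' := uR x * g * (uR x)⁻¹ with hg'
  have hg'mem : g' ∈ Gam I := (inferInstance : (Gam I).Normal).conj_mem g hg _
  have h1 := hD g' hg'mem
  have hcg' : conjDiag s g' = uR (s * x) * conjDiag s g * (uR (s * x))⁻¹ := by
    rw [hg', map_mul, map_mul, map_inv, conjDiag_uR]
  have h2 := conj_mul_inv_mem_EC (hD g hg) (uR (s * x))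
  rw [← hcg'] at h2
  -- `c g' ≡ g'` and `c g' ≡ u(sx) g u(-sx)`
  have h3 : (uR (s * x) * g * (uR (s * x))⁻¹) * g'⁻¹ ∈ EC I := by
    have : (uR (s * x) * g * (uR (s * x))⁻¹) * g'⁻¹ =
        (conjDiag s g' * (uR (s * x) * g * (uR (s * x))⁻¹)⁻¹)⁻¹ * (conjDiag s g' * g'⁻¹) := by
      group
    rw [this]
    exact mul_mem (inv_mem h2) h1
  have h4 := conj_mul_inv_mem_EC h3 (uR (-x))
  have h5 : (uR (-x) * (uR (s * x) * g * (uR (s * x))⁻¹) * (uR (-x))⁻¹) *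
      (uR (-x) * g' * (uR (-x))⁻¹)⁻¹ =
      uR (((s : R) - 1) * x) * g * (uR (((s : R) - 1) * x))⁻¹ * g⁻¹ := by
    have e1 : ((s : R) - 1) * x = -x + s * x := by ring
    rw [hg', e1, uR_add, uR_inv x, uR_inv (-x), neg_neg]
    have : uR (-x) = (uR x)⁻¹ := (uR_inv x).symm
    rw [this]
    group
  rw [h5] at h4
  exact h4

/-- Corollary U' for the lower unipotents. -/
theorem lR_mem_cenMod_of_conjDiag {I : Ideal R} (s : Rˣ)
    (hD : ∀ g ∈ Gam I, conjDiag s g * g⁻¹ ∈ EC I) (y : R) :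
    lR ((((s⁻¹ : Rˣ) : R) - 1) * y) ∈ cenMod I := by
  intro g hg
  set g' := lR y * g * (lR y)⁻¹ with hg'
  have hg'mem : g' ∈ Gam I := (inferInstance : (Gam I).Normal).conj_mem g hg _
  have h1 := hD g' hg'mem
  have hcg' : conjDiag s g' =
      lR (((s⁻¹ : Rˣ) : R) * y) * conjDiag s g * (lR (((s⁻¹ : Rˣ) : R) * y))⁻¹ := by
    rw [hg', map_mul, map_mul, map_inv, conjDiag_lR]
  have h2 := conj_mul_inv_mem_EC (hD g hg) (lR (((s⁻¹ : Rˣ) : R) * y))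
  rw [← hcg'] at h2
  have h3 : (lR (((s⁻¹ : Rˣ) : R) * y) * g * (lR (((s⁻¹ : Rˣ) : R) * y))⁻¹) * g'⁻¹ ∈ EC I := by
    have : (lR (((s⁻¹ : Rˣ) : R) * y) * g * (lR (((s⁻¹ : Rˣ) : R) * y))⁻¹) * g'⁻¹ =
        (conjDiag s g' * (lR (((s⁻¹ : Rˣ) : R) * y) * g *
          (lR (((s⁻¹ : Rˣ) : R) * y))⁻¹)⁻¹)⁻¹ * (conjDiag s g' * g'⁻¹) := by
      group
    rw [this]
    exact mul_mem (inv_mem h2) h1
  have h4 := conj_mul_inv_mem_EC h3 (lR (-y))
  have h5 : (lR (-y) * (lR (((s⁻¹ : Rˣ) : R) * y) * g * (lR (((s⁻¹ : Rˣ) : R) * y))⁻¹) *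
      (lR (-y))⁻¹) * (lR (-y) * g' * (lR (-y))⁻¹)⁻¹ =
      lR ((((s⁻¹ : Rˣ) : R) - 1) * y) * g * (lR ((((s⁻¹ : Rˣ) : R) - 1) * y))⁻¹ * g⁻¹ := by
    have e1 : (((s⁻¹ : Rˣ) : R) - 1) * y = -y + ((s⁻¹ : Rˣ) : R) * y := by ring
    rw [hg', e1, lR_add, lR_inv y, lR_inv (-y), neg_neg]
    have : lR (-y) = (lR y)⁻¹ := (lR_inv y).symm
    rw [this]
    group
  rw [h5] at h4
  exact h4

/-- **Theorem (Cen) from `diag(s, 1)`-invariance**: if `diag(s, 1)` centralises `Γ(I)` modulo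
`EC I`, both `s - 1` and `s⁻¹ - 1` are invertible modulo `I`, and `SL(2, R)` is generated by
elementary matrices, then all of `SL(2, R)` centralises `Γ(I)` modulo `EC I`. -/
theorem cenMod_eq_top_of_conjDiag {I : Ideal R} (s : Rˣ)
    (hD : ∀ g ∈ Gam I, conjDiag s g * g⁻¹ ∈ EC I)
    (h1 : ∀ x : R, ∃ x' : R, x - ((s : R) - 1) * x' ∈ I)
    (h2 : ∀ y : R, ∃ y' : R, y - (((s⁻¹ : Rˣ) : R) - 1) * y' ∈ I)
    (hgen : Subgroup.closure ({g : SL(2, R) | ∃ x, g = uR x} ∪ {g | ∃ y, g = lR y}) = ⊤) :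
    cenMod I = ⊤ := by
  rw [eq_top_iff, ← hgen, Subgroup.closure_le]
  rintro _ (⟨x, rfl⟩ | ⟨y, rfl⟩)
  · obtain ⟨x', hx'⟩ := h1 x
    have : uR x = uR (((s : R) - 1) * x') * uR (x - ((s : R) - 1) * x') := by
      rw [← uR_add]; congr 1; ring
    rw [this]
    exact mul_mem (uR_mem_cenMod_of_conjDiag s hD x') (Gam_le_cenMod I (uR_mem_Gam hx'))
  · obtain ⟨y', hy'⟩ := h2 y
    have : lR y = lR ((((s⁻¹ : Rˣ) : R) - 1) * y') * lR (y - (((s⁻¹ : Rˣ) : R) - 1) * y') := by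
      rw [← lR_add]; congr 1; ring
    rw [this]
    exact mul_mem (lR_mem_cenMod_of_conjDiag s hD y') (Gam_le_cenMod I (lR_mem_Gam hy'))

/-! ### Claim D for `q = 2`: invariance under `diag(2, 1)` -/

/-- the arithmetic input for `q = 2` (provided by `LR/CSPArithTwo.lean`, helper24): an odd modulus
`M`, a residue `R` prime to `M` (with `R ≡ 1 mod 3` if `3 ∣ M`), and `Φ ≠ 0`; then there are a natural
number `P ≡ R mod M` (a product of two primes `≡ 7 mod 8`) and an odd `j` prime to `Φ` with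
`P ∣ 2 ^ j - 1`. -/
def ArithTwo : Prop :=
  ∀ (M : ℕ) (R : ℤ) (Φ : ℕ), M ≠ 0 → Nat.Coprime M 2 → IsCoprime R (M : ℤ) → Φ ≠ 0 →
    (3 ∣ M → R ≡ 1 [ZMOD 3]) →
    ∃ P j : ℕ, (P : ℤ) ≡ R [ZMOD (M : ℤ)] ∧ Odd j ∧ Nat.Coprime j Φ ∧ P ∣ 2 ^ j - 1

/-- numerators of an element of `Γ(m)`: `A` is prime to `m` and to the part `C₂` of `C` prime to
`q`. -/
theorem isCoprime_num [CharZero R] (q : ℕ) (hq : q.Prime)
    (hrep : ∀ r : R, ∃ k : ℕ, ∃ n : ℤ, r * (q : R) ^ k = (n : R))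
    (m : ℕ) (hmq : Nat.Coprime m q)
    {g : SL(2, R)} (hg : g ∈ Gam (Ideal.span {(m : R)})) (k : ℕ) (A B C D : ℤ)
    (hA : g 0 0 * (q : R) ^ k = A) (hB : g 0 1 * (q : R) ^ k = B)
    (hC : g 1 0 * (q : R) ^ k = C) (hD : g 1 1 * (q : R) ^ k = D)
    (v : ℕ) (C₂ : ℤ) (hC₂ : C = (q : ℤ) ^ v * C₂) (hqC₂ : ¬ q ∣ C₂.natAbs) :
    IsCoprime A ((m * C₂.natAbs : ℕ) : ℤ) := by
  have hcast : Function.Injective ((↑) : ℤ → R) := Int.cast_injective
  have hdet : A * D - B * C = (q : ℤ) ^ (2 * k) := by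
    apply hcast
    push_cast
    rw [← hA, ← hB, ← hC, ← hD]
    have := det_eq g
    linear_combination ((q : R) ^ (2 * k)) * this
  have hAm : IsCoprime A (m : ℤ) := by
    rw [mem_Gam] at hg
    obtain ⟨r, hr⟩ := Ideal.mem_span_singleton'.mp hg.1
    obtain ⟨j, n, hn⟩ := hrep r
    have h1 : A * (q : ℤ) ^ j = (q : ℤ) ^ (k + j) + n * (q : ℤ) ^ k * m := by
      apply hcast
      push_cast
      rw [← hA, ← hn]
      linear_combination ((q : R) ^ (k + j)) * hr.symm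
    have hqm : IsCoprime ((q : ℤ) ^ (k + j)) (m : ℤ) := by
      apply IsCoprime.pow_left
      exact Nat.isCoprime_iff_coprime.mpr hmq.symm
    have h2 : IsCoprime (A * (q : ℤ) ^ j) (m : ℤ) := by
      rw [h1]
      exact hqm.add_mul_right_left _
    exact h2.of_mul_left_left
  have hqC₂' : IsCoprime ((q : ℤ) ^ (2 * k)) C₂ := by
    apply IsCoprime.pow_left
    rw [Int.isCoprime_iff_gcd_eq_one, Int.gcd_eq_natAbs, Int.natAbs_natCast]
    exact (Nat.Prime.coprime_iff_not_dvd hq).mpr hqC₂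
  have hAC₂ : IsCoprime A C₂ := by
    obtain ⟨u, w, huw⟩ := hqC₂'
    refine ⟨u * D, w - u * B * (q : ℤ) ^ v, ?_⟩
    rw [← huw, ← hdet, hC₂]
    ring
  have hAC₂' : IsCoprime A (C₂.natAbs : ℤ) := by
    rcases Int.natAbs_eq C₂ with h | h
    · rw [← h]; exact hAC₂
    · have : (C₂.natAbs : ℤ) = -C₂ := by omega
      rw [this]; exact hAC₂.neg_right
  rw [Nat.cast_mul]
  exact hAm.mul_right hAC₂'

/-- **Claim D, core case**: `g ∈ Γ(m)` with nonzero lower left entry, numerators normalised so that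
`A ≡ 1 mod 3` when `3` divides the modulus. -/
theorem claimD_core [CharZero R] (harith : ArithTwo) (qu : Rˣ) (hqu : (qu : R) = ((2 : ℕ) : R))
    (hrep : ∀ r : R, ∃ k : ℕ, ∃ n : ℤ, r * ((2 : ℕ) : R) ^ k = (n : R))
    (m : ℕ) (hm : m ≠ 0) (hm2 : Nat.Coprime m 2)
    {g : SL(2, R)} (hg : g ∈ Gam (Ideal.span {(m : R)})) (k : ℕ) (A B C D : ℤ)
    (hA : g 0 0 * ((2 : ℕ) : R) ^ k = A) (hB : g 0 1 * ((2 : ℕ) : R) ^ k = B)
    (hC : g 1 0 * ((2 : ℕ) : R) ^ k = C) (hD : g 1 1 * ((2 : ℕ) : R) ^ k = D)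
    (v : ℕ) (C₂ : ℤ) (hC₂ : C = ((2 : ℕ) : ℤ) ^ v * C₂) (hqC₂ : ¬ 2 ∣ C₂.natAbs)
    (h3 : 3 ∣ m * C₂.natAbs → A ≡ 1 [ZMOD 3]) :
    conjDiag qu g * g⁻¹ ∈ E (Ideal.span {(m : R)}) := by
  set I : Ideal R := Ideal.span {(m : R)} with hI
  set qi : R := ((qu⁻¹ : Rˣ) : R) with hqi
  have hqqi : ((2 : ℕ) : R) * qi = 1 := by rw [← hqu, hqi]; simp
  have hqqik : ∀ j : ℕ, ((2 : ℕ) : R) ^ j * qi ^ j = 1 := fun j => by
    rw [← mul_pow, hqqi, one_pow]
  have hC₂0 : C₂ ≠ 0 := by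
    rintro rfl
    exact hqC₂ (by simp)
  -- the modulus
  set M : ℕ := m * C₂.natAbs with hM
  have hM0 : M ≠ 0 := Nat.mul_ne_zero hm (Int.natAbs_ne_zero.mpr hC₂0)
  have hM2 : Nat.Coprime M 2 := by
    apply Nat.Coprime.mul_left hm2
    exact ((Nat.Prime.coprime_iff_not_dvd Nat.prime_two).mpr hqC₂).symm
  have hAM : IsCoprime A (M : ℤ) :=
    isCoprime_num 2 Nat.prime_two hrep m hm2 hg k A B C D hA hB hC hD v C₂ hC₂ hqC₂
  have hΦ : Nat.totient m ≠ 0 := (Nat.totient_pos.mpr (Nat.pos_of_ne_zero hm)).ne'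
  obtain ⟨P, j, hPA, hjodd, hjΦ, hPdvd⟩ := harith M A (Nat.totient m) hM0 hM2 hAM hΦ h3
  -- `P - A = m * C₂ * n₀`
  have hdvd1 : (m : ℤ) * C₂ ∣ (P : ℤ) - A := by
    have h1 : (M : ℤ) ∣ (P : ℤ) - A := hPA.symm.dvd
    have h2 : (m : ℤ) * C₂ ∣ (M : ℤ) := by
      rw [hM, Nat.cast_mul]
      exact mul_dvd_mul_left _ (Int.dvd_natAbs.mpr dvd_rfl)
    exact h2.trans h1
  obtain ⟨n₀, hn₀⟩ := hdvd1
  obtain ⟨n₁, hn₁⟩ := hPdvd
  obtain ⟨n₂, hn₂⟩ := CSPClaimJ.int_dvd_pow_sub_one (q := 2) (m := m) (k := Nat.totient m) hm2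
    dvd_rfl
  -- the normalised element
  set x : R := (n₀ : R) * qi ^ v with hx
  have hmxI : (m : R) * x ∈ I := Ideal.mem_span_singleton'.mpr ⟨x, mul_comm _ _⟩
  set g' : SL(2, R) := uR ((m : R) * x) * g with hg'
  have hg'mem : g' ∈ Gam I := mul_mem (uR_mem_Gam hmxI) hg
  have hg'00 : g' 0 0 = (P : R) * qi ^ k := by
    have h1 : g' 0 0 = g 0 0 + (m : R) * x * g 1 0 := by
      rw [hg', SL2R.mul_apply']; simp
    have hPR : (P : R) = (A : R) + (m : R) * (C₂ : R) * (n₀ : R) := by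
      have : (P : ℤ) = A + (m : ℤ) * C₂ * n₀ := by linarith
      have h := congrArg (fun z : ℤ => (z : R)) this
      simpa using h
    have hCR : (C : R) = ((2 : ℕ) : R) ^ v * (C₂ : R) := by
      have h := congrArg (fun z : ℤ => (z : R)) hC₂
      simpa using h
    have ha : g 0 0 = (A : R) * qi ^ k := by
      rw [← hA, mul_assoc, hqqik, mul_one]
    have hc : g 1 0 = (C : R) * qi ^ k := by
      rw [← hC, mul_assoc, hqqik, mul_one]
    rw [h1, ha, hc, hPR, hCR, hx]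
    linear_combination ((m : R) * (n₀ : R) * (C₂ : R) * qi ^ k) * (hqqik v)
  have hgg' : g' * g⁻¹ ∈ E I := by
    have : g' * g⁻¹ = uR ((m : R) * x) := by rw [hg']; group
    rw [this]
    exact uR_mem_E hmxI
  -- the unit `t₀ = 2 ^ φ(m) ≡ 1 mod m`
  have ht₀ : (((qu ^ Nat.totient m : Rˣ)) : R) - 1 ∈ I := by
    rw [Units.val_pow_eq_pow_val, hqu]
    refine Ideal.mem_span_singleton'.mpr ⟨(n₂ : R), ?_⟩
    have h := congrArg (fun z : ℤ => (z : R)) hn₂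
    simp only [Int.cast_sub, Int.cast_pow, Int.cast_natCast, Int.cast_one, Int.cast_mul] at h
    rw [h]; ring
  have hst : qu ^ (2 * Nat.totient m) = (qu ^ Nat.totient m) ^ 2 := by
    rw [← pow_mul, mul_comm]
  have hj : Nat.Coprime j (2 * Nat.totient m) :=
    Nat.Coprime.mul_right (Nat.coprime_two_right.mpr hjodd) hjΦ
  -- `2 ^ j = 1 + a(g') * (n₁ 2 ^ k)`
  have he : ((qu ^ j : Rˣ) : R) = 1 + g' 0 0 * ((n₁ : R) * ((2 : ℕ) : R) ^ k) := by
    rw [Units.val_pow_eq_pow_val, hqu, hg'00]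
    have h1 : (2 : ℕ) ^ j = P * n₁ + 1 := by
      have : 1 ≤ 2 ^ j := Nat.one_le_two_pow
      omega
    have h2 : ((2 : ℕ) : R) ^ j = (P : R) * (n₁ : R) + 1 := by
      have h := congrArg (fun z : ℕ => (z : R)) h1
      simpa using h
    rw [h2]
    linear_combination (-(P : R) * (n₁ : R)) * (hqqik k)
  exact conjDiag_mul_inv_mem_E_of_coprime qu (qu ^ Nat.totient m) (2 * Nat.totient m) hst ht₀
    hg'mem hgg' j hj _ he

/-- **Claim D** for an element with nonzero lower left entry: choose the parity of the denominator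
exponent so that `A ≡ 1 mod 3` when needed. -/
theorem claimD_of_ne_zero [CharZero R] (harith : ArithTwo) (qu : Rˣ)
    (hqu : (qu : R) = ((2 : ℕ) : R))
    (hrep : ∀ r : R, ∃ k : ℕ, ∃ n : ℤ, r * ((2 : ℕ) : R) ^ k = (n : R))
    (m : ℕ) (hm : m ≠ 0) (hm2 : Nat.Coprime m 2)
    {g : SL(2, R)} (hg : g ∈ Gam (Ideal.span {(m : R)})) (k : ℕ) (A B C D : ℤ)
    (hA : g 0 0 * ((2 : ℕ) : R) ^ k = A) (hB : g 0 1 * ((2 : ℕ) : R) ^ k = B)
    (hC : g 1 0 * ((2 : ℕ) : R) ^ k = C) (hD : g 1 1 * ((2 : ℕ) : R) ^ k = D) (hC0 : C ≠ 0) :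
    conjDiag qu g * g⁻¹ ∈ E (Ideal.span {(m : R)}) := by
  obtain ⟨v, C₂, hC₂, hqC₂⟩ := CSPClaimJ.exists_eq_pow_mul_not_dvd Nat.prime_two hC0
  by_cases h3 : 3 ∣ m * C₂.natAbs → A ≡ 1 [ZMOD 3]
  · exact claimD_core harith qu hqu hrep m hm hm2 hg k A B C D hA hB hC hD v C₂ hC₂ hqC₂ h3
  · push Not at h3
    obtain ⟨h3M, h3A⟩ := h3
    have hAM : IsCoprime A ((m * C₂.natAbs : ℕ) : ℤ) :=
      isCoprime_num 2 Nat.prime_two hrep m hm2 hg k A B C D hA hB hC hD v C₂ hC₂ hqC₂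
    have h3A' : ¬ (3 : ℤ) ∣ A := by
      intro hdiv
      have h3M' : (3 : ℤ) ∣ ((m * C₂.natAbs : ℕ) : ℤ) := by exact_mod_cast h3M
      have := hAM.isUnit_of_dvd' hdiv h3M'
      rw [Int.isUnit_iff] at this
      omega
    have h2A : 2 * A ≡ 1 [ZMOD 3] := by
      unfold Int.ModEq at h3A ⊢
      omega
    refine claimD_core harith qu hqu hrep m hm hm2 hg (k + 1) (2 * A) (2 * B) (2 * C) (2 * D)
      ?_ ?_ ?_ ?_ (v + 1) C₂ ?_ hqC₂ (fun _ => h2A)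
    · push_cast; rw [← hA]; ring
    · push_cast; rw [← hB]; ring
    · push_cast; rw [← hC]; ring
    · push_cast; rw [← hD]; ring
    · rw [hC₂]; push_cast; ring

/-- **Claim D** (generic form): over a characteristic zero ring `R` in which `2` is a unit and every
element is of the form `n / 2 ^ k` (so `R = ℤ[1/2]`), conjugation by `diag(2, 1)` fixes the principal
congruence subgroup of every odd level `m` modulo `E`. -/
theorem claimD [CharZero R] (harith : ArithTwo) (qu : Rˣ) (hqu : (qu : R) = ((2 : ℕ) : R))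
    (hrep : ∀ r : R, ∃ k : ℕ, ∃ n : ℤ, r * ((2 : ℕ) : R) ^ k = (n : R))
    (m : ℕ) (hm : m ≠ 0) (hm2 : Nat.Coprime m 2) :
    ∀ g ∈ Gam (Ideal.span {(m : R)}), conjDiag qu g * g⁻¹ ∈ E (Ideal.span {(m : R)}) := by
  intro g hg
  set I : Ideal R := Ideal.span {(m : R)} with hI
  obtain ⟨k, A, B, C, D, hA, hB, hC, hD⟩ :=
    CSPClaimJ.exists_common_den 2 hrep (g 0 0) (g 0 1) (g 1 0) (g 1 1)
  by_cases hC0 : C = 0
  · -- `c = 0`: replace `g` by `l(m) g`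
    have hcast : Function.Injective ((↑) : ℤ → R) := Int.cast_injective
    have hdet : A * D - B * C = ((2 : ℕ) : ℤ) ^ (2 * k) := by
      apply hcast
      push_cast
      rw [← hA, ← hB, ← hC, ← hD]
      have := det_eq g
      push_cast
      linear_combination ((2 : R) ^ (2 * k)) * this
    have hA0 : A ≠ 0 := by
      rintro rfl
      rw [hC0] at hdet
      have : ((2 : ℕ) : ℤ) ^ (2 * k) ≠ 0 := by positivity
      apply this
      rw [← hdet]; ring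
    have hmI : (m : R) ∈ I := Ideal.subset_span rfl
    set g₁ : SL(2, R) := lR (m : R) * g with hg₁
    have hg₁mem : g₁ ∈ Gam I := mul_mem (lR_mem_Gam hmI) hg
    have h00 : g₁ 0 0 = g 0 0 := by rw [hg₁, SL2R.mul_apply']; simp
    have h01 : g₁ 0 1 = g 0 1 := by rw [hg₁, SL2R.mul_apply']; simp
    have h10 : g₁ 1 0 = (m : R) * g 0 0 + g 1 0 := by rw [hg₁, SL2R.mul_apply']; simp
    have h11 : g₁ 1 1 = (m : R) * g 0 1 + g 1 1 := by rw [hg₁, SL2R.mul_apply']; simp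
    have h1 : conjDiag qu g₁ * g₁⁻¹ ∈ E I := by
      refine claimD_of_ne_zero harith qu hqu hrep m hm hm2 hg₁mem k A B ((m : ℤ) * A + C)
        ((m : ℤ) * B + D) ?_ ?_ ?_ ?_ ?_
      · rw [h00, hA]
      · rw [h01, hB]
      · rw [h10]; push_cast; rw [← hA, ← hC]; ring
      · rw [h11]; push_cast; rw [← hB, ← hD]; ring
      · rw [hC0, add_zero]
        exact mul_ne_zero (by exact_mod_cast hm) hA0
    have h2 : g₁ * g⁻¹ ∈ E I := by
      have : g₁ * g⁻¹ = lR (m : R) := by rw [hg₁]; group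
      rw [this]
      exact lR_mem_E hmI
    rw [← mem_stab] at h1 ⊢
    exact mem_stab_of_mul_inv_mem_E h2 h1
  · exact claimD_of_ne_zero harith qu hqu hrep m hm hm2 hg k A B C D hA hB hC hD hC0

/-! ### The ring `ℤ[1/2]` -/

section zInv

open Fermat.Agent.LR.CSP

/-- **Claim D for `ℤ[1/2]`**: conjugation by `diag(2, 1)` is trivial on `Γ(m)` modulo `E(m)`, for
every odd level `m`. -/
theorem claimD_zInv (harith : ArithTwo) (m : ℕ) (hm : m ≠ 0) (hm2 : Nat.Coprime m 2) :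
    ∀ g ∈ Gam (Ideal.span {(m : A 2)}),
      conjDiag (qU (two_ne_zero : (2 : ℕ) ≠ 0)) g * g⁻¹ ∈ E (Ideal.span {(m : A 2)}) :=
  claimD harith (qU two_ne_zero) (coe_qU _) (fun r => exists_mul_pow_eq_intCast r) m hm hm2

/-- **Theorem (Cen) for `ℤ[1/2]`**, every odd level `m`. -/
theorem cenMod_zInv_two_eq_top (harith : ArithTwo) (m : ℕ) (hm : m ≠ 0)
    (hm2 : Nat.Coprime m 2) : cenMod (Ideal.span {(m : A 2)}) = ⊤ := by
  refine cenMod_eq_top_of_conjDiag (qU two_ne_zero)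
    (fun g hg => E_le_EC _ (claimD_zInv harith m hm hm2 g hg)) ?_ ?_
    (closure_elem_eq_top two_ne_zero)
  · intro x
    refine ⟨x, ?_⟩
    have : x - (((qU (two_ne_zero : (2 : ℕ) ≠ 0) : (A 2)ˣ) : A 2) - 1) * x = 0 := by
      rw [coe_qU]; push_cast; ring
    rw [this]; exact zero_mem _
  · intro y
    refine ⟨-2 * y, ?_⟩
    have h2 : ((2 : ℕ) : A 2) * qInv 2 = 1 := q_mul_qInv two_ne_zero
    have : y - ((((qU (two_ne_zero : (2 : ℕ) ≠ 0))⁻¹ : (A 2)ˣ) : A 2) - 1) * (-2 * y) = 0 := by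
      have e : (((qU (two_ne_zero : (2 : ℕ) ≠ 0))⁻¹ : (A 2)ˣ) : A 2) = qInv 2 := rfl
      rw [e]
      push_cast at h2
      linear_combination y * h2
    rw [this]; exact zero_mem _

end zInv

end Fermat.Agent.LR.CSPClaimD
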