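/-
Program M, node D2 (helper26 + helper24): **Claim D and (Cen) for `q = 2`, unconditional.**
`LR/CSPClaimD.lean` (group part, helper26) with the arithmetic input `ArithTwo` discharged by
`LR/CSPArithD2.lean` (helper24): over `ℤ[1/2]`, conjugation by `diag(2, 1)` is trivial on `Γ(m)` modulo
`E(m)` for every odd `m`, hence all of `SL(2, ℤ[1/2])` centralises `Γ(m)` modulo `EC(m)`.
(A second, independent route to `CSPQ2.cenMod_zInv_two_eq_top`.)
-/
import Mathlib
import Fermat.Agent.LR.CSPClaimD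
import Fermat.Agent.LR.CSPArithD2

set_option autoImplicit false

namespace Fermat.Agent.LR.CSPClaimDFinal

open Fermat.Agent.LR.SL2R Fermat.Agent.LR.CSP Fermat.Agent.LR.CSPClaimD
open scoped MatrixGroups

/-- the arithmetic input of Claim D -/
theorem arithTwo : ArithTwo := fun M R Φ hM hM2 hR hΦ _ => by
  obtain ⟨π, j, h1, h2, h3, h4, -⟩ :=
    CSPArithD2.exists_modEq_dvd_two_pow_sub_one M R Φ hM hM2 hR hΦ
  exact ⟨π, j, h1, h2, Nat.Coprime.coprime_mul_left_right h3, h4⟩

/-- **Claim D for `ℤ[1/2]`**: conjugation by `diag(2, 1)` is trivial on `Γ(m)` modulo `E(m)`, for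
every odd level `m`. -/
theorem claimD_two (m : ℕ) (hm : m ≠ 0) (hm2 : Nat.Coprime m 2) :
    ∀ g ∈ Gam (Ideal.span {(m : A 2)}),
      conjDiag (qU (two_ne_zero : (2 : ℕ) ≠ 0)) g * g⁻¹ ∈ E (Ideal.span {(m : A 2)}) :=
  claimD_zInv arithTwo m hm hm2

/-- **Theorem (Cen) for `ℤ[1/2]`**, every odd level `m` (via Claim D and Corollary U'). -/
theorem cenMod_two_eq_top (m : ℕ) (hm : m ≠ 0) (hm2 : Nat.Coprime m 2) :
    cenMod (Ideal.span {(m : A 2)}) = ⊤ :=
  cenMod_zInv_two_eq_top arithTwo m hm hm2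

end Fermat.Agent.LR.CSPClaimDFinal
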