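/-
Program M, node D2, even levels (helper1): the **density pre-step** of Claim J (finding #496,
Step 1, bracket "m even"), generic over a commutative ring `R` and an ideal `I`:
`Γ(I) = E(I) · Γ(I * I)`, hence `Γ(I) = E(I) · Γ(I ^ (2 ^ j))`, and for principal ideals
`Γ(m) = E(m) · Γ(m T)` whenever `m T` divides a power of `m`.
-/
import Fermat.Agent.LR.SL2Ring

set_option autoImplicit false

namespace Fermat.Agent.LR.CSPDensity

open Fermat.Agent.LR.SL2R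
open scoped MatrixGroups

variable {R : Type*} [CommRing R]

/-- `l(1) u(α) l(-1) ∈ E I` for `α ∈ I`. -/
theorem conj_lR_one_uR_mem_E {I : Ideal R} {α : R} (hα : α ∈ I) :
    lR 1 * uR α * (lR 1)⁻¹ ∈ E I :=
  (inferInstance : (E I).Normal).conj_mem _ (uR_mem_E hα) (lR 1)

/-- **Density, diagonal step**: inside the `E I`-class of `g ∈ Γ(I)` there is an element whose
upper left entry is `≡ 1` modulo `I * I`. -/
theorem exists_diag_step {I : Ideal R} {g : SL(2, R)} (hg : g ∈ Gam I) :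
    ∃ e ∈ E I, (e * g) 0 0 - 1 ∈ I * I := by
  rw [mem_Gam] at hg
  obtain ⟨ha, hb, hc, hd⟩ := hg
  refine ⟨lR 1 * uR (g 0 0 - 1) * (lR 1)⁻¹, conj_lR_one_uR_mem_E ha, ?_⟩
  have h : ((lR 1 * uR (g 0 0 - 1) * (lR 1)⁻¹ * g : SL(2, R)) 0 0 : R) - 1 =
      -((g 0 0 - 1) * (g 0 0 - 1)) + (g 0 0 - 1) * g 1 0 := by
    rw [lR_inv, SL2R.mul_apply', SL2R.mul_apply', SL2R.mul_apply', SL2R.mul_apply',
      SL2R.mul_apply', SL2R.mul_apply']
    simp
    ring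
  rw [h]
  exact (I * I).add_mem ((I * I).neg_mem (Ideal.mul_mem_mul ha ha)) (Ideal.mul_mem_mul ha hc)

/-- An element whose entries `a - 1`, `b`, `c` lie in `I * I` lies in `Γ(I * I)`. -/
theorem mem_Gam_sq_of {I : Ideal R} {h : SL(2, R)}
    (h00 : h 0 0 - 1 ∈ I * I) (h01 : h 0 1 ∈ I * I) (h10 : h 1 0 ∈ I * I) :
    h ∈ Gam (I * I) := by
  rw [mem_Gam]
  refine ⟨h00, h01, h10, ?_⟩
  have hdet := det_eq h
  have : h 1 1 - 1 = -(h 1 1 * (h 0 0 - 1)) + h 0 1 * h 1 0 := by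
    linear_combination hdet
  rw [this]
  exact (I * I).add_mem ((I * I).neg_mem ((I * I).mul_mem_left _ h00))
    ((I * I).mul_mem_right _ h01)

/-- **Density, one step**: `Γ(I) = E(I) · Γ(I * I)`. -/
theorem exists_E_mul_mem_Gam_sq {I : Ideal R} {g : SL(2, R)} (hg : g ∈ Gam I) :
    ∃ e ∈ E I, e * g ∈ Gam (I * I) := by
  obtain ⟨e₁, he₁, h1⟩ := exists_diag_step hg
  set h : SL(2, R) := e₁ * g with hh
  have hmem : h ∈ Gam I := mul_mem (E_le_Gam I he₁) hg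
  have hm := mem_Gam.mp hmem
  obtain ⟨-, hb, hc, hd⟩ := hm
  -- kill `b` modulo `I * I`
  set h' : SL(2, R) := uR (-(h 0 1)) * h with hh'
  have hxI : -(h 0 1) ∈ I := I.neg_mem hb
  have hmem' : h' ∈ Gam I := mul_mem (uR_mem_Gam hxI) hmem
  have e00 : h' 0 0 = h 0 0 + -(h 0 1) * h 1 0 := by rw [hh', SL2R.mul_apply']; simp
  have e01 : h' 0 1 = h 0 1 + -(h 0 1) * h 1 1 := by rw [hh', SL2R.mul_apply']; simp
  have e10 : h' 1 0 = h 1 0 := by rw [hh', SL2R.mul_apply']; simp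
  have h'00 : h' 0 0 - 1 ∈ I * I := by
    have : h' 0 0 - 1 = (h 0 0 - 1) + -(h 0 1) * h 1 0 := by rw [e00]; ring
    rw [this]
    exact (I * I).add_mem h1 (Ideal.mul_mem_mul hxI hc)
  have h'01 : h' 0 1 ∈ I * I := by
    have : h' 0 1 = -(h 0 1) * (h 1 1 - 1) := by rw [e01]; ring
    rw [this]
    exact Ideal.mul_mem_mul hxI hd
  -- kill `c` modulo `I * I`
  set h'' : SL(2, R) := lR (-(h' 1 0)) * h' with hh''
  have hyI : -(h' 1 0) ∈ I := by rw [e10]; exact I.neg_mem hc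
  have hmem'' : h'' ∈ Gam I := mul_mem (lR_mem_Gam hyI) hmem'
  have f00 : h'' 0 0 = h' 0 0 := by rw [hh'', SL2R.mul_apply']; simp
  have f01 : h'' 0 1 = h' 0 1 := by rw [hh'', SL2R.mul_apply']; simp
  have f10 : h'' 1 0 = -(h' 1 0) * h' 0 0 + h' 1 0 := by rw [hh'', SL2R.mul_apply']; simp
  have h''10 : h'' 1 0 ∈ I * I := by
    have : h'' 1 0 = -(h' 1 0) * (h' 0 0 - 1) := by rw [f10]; ring
    rw [this]
    exact (I * I).mul_mem_left _ h'00
  refine ⟨lR (-(h' 1 0)) * uR (-(h 0 1)) * e₁, ?_, ?_⟩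
  · exact mul_mem (mul_mem (lR_mem_E hyI) (uR_mem_E hxI)) he₁
  · have : lR (-(h' 1 0)) * uR (-(h 0 1)) * e₁ * g = h'' := by
      rw [hh'', hh', hh]; group
    rw [this]
    exact mem_Gam_sq_of (by rw [f00]; exact h'00) (by rw [f01]; exact h'01) h''10

/-- **Density, iterated**: `Γ(I) = E(I) · Γ(I ^ (2 ^ j))`. -/
theorem exists_E_mul_mem_Gam_pow {I : Ideal R} (j : ℕ) {g : SL(2, R)} (hg : g ∈ Gam I) :
    ∃ e ∈ E I, e * g ∈ Gam (I ^ (2 ^ j)) := by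
  induction j with
  | zero => exact ⟨1, one_mem _, by simpa using hg⟩
  | succ j ih =>
    obtain ⟨e₁, he₁, h1⟩ := ih
    obtain ⟨e₂, he₂, h2⟩ := exists_E_mul_mem_Gam_sq h1
    have hle : I ^ (2 ^ j) ≤ I := Ideal.pow_le_self (pow_pos (by norm_num) j).ne'
    refine ⟨e₂ * e₁, mul_mem (E_mono hle he₂) he₁, ?_⟩
    have : I ^ (2 ^ (j + 1)) = I ^ (2 ^ j) * I ^ (2 ^ j) := by
      rw [← pow_add, pow_succ, mul_two]
    rw [this, mul_assoc]
    exact h2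

/-- **Density for principal ideals**: if `m * T` divides a power of `m`, then
`Γ(m) = E(m) · Γ(m T)`. -/
theorem exists_E_mul_mem_Gam_of_dvd_pow {m T : R} {n : ℕ} (hdvd : m * T ∣ m ^ n)
    {g : SL(2, R)} (hg : g ∈ Gam (Ideal.span {m})) :
    ∃ e ∈ E (Ideal.span {m}), e * g ∈ Gam (Ideal.span {m * T}) := by
  -- `2 ^ n ≥ n`
  obtain ⟨e, he, h⟩ := exists_E_mul_mem_Gam_pow n hg
  refine ⟨e, he, Gam_mono ?_ h⟩
  rw [Ideal.span_singleton_pow, Ideal.span_singleton_le_span_singleton]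
  have h1 : n ≤ 2 ^ n := Nat.lt_two_pow_self.le
  exact hdvd.trans (pow_dvd_pow m h1)

end Fermat.Agent.LR.CSPDensity
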