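/-
Program M, node D2, even levels (helper1): **Claim J at every level** `m` prime to the odd prime `q`
(finding #496, Claim J with the bracket "m even"), and the `(P4)` export for even `N`:
`uR (2 x), lR (2 x) ∈ cenMod (span {m})`.

Route: density (`CSPDensity`: `Γ(m) = E(m) · Γ(m 2 ^ t)`) reduces to a *good* level
`m' = m 2 ^ t` with `2 ^ (e + 2) ∣ m'` and `q ^ (2 ^ e Φo) ≡ 1 (mod m')`, `Φo` odd; at a good level
the numerator of `a(g)` can be taken `≡ 1 (mod 4 · 2 ^ e)` (pad the denominator exponent to a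
multiple of `2 ^ (e + 1)`), and then the proof of `CSPClaimJ.mem_jFix_of_odd` goes through with
helper21's `CSPArithEven.exists_prime_modEq_pow_eq_neg_one_gen`.
-/
import Fermat.Agent.LR.CSPClaimJ
import Fermat.Agent.LR.CSPArithEven
import Fermat.Agent.LR.CSPDensity

set_option autoImplicit false

namespace Fermat.Agent.LR.CSPClaimJAll

open Fermat.Agent.LR.SL2R Fermat.Agent.LR.CSPClaimJ Fermat.Agent.LR.CSPDensity
open scoped MatrixGroups

/-! ### Arithmetic -/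

/-- `2 ^ (s + 3) ∣ q ^ (2 ^ (s + 1)) - 1` for odd `q`. -/
theorem two_pow_dvd_pow_two_pow_sub_one {q : ℤ} (hq : Odd q) (s : ℕ) :
    (2 : ℤ) ^ (s + 3) ∣ q ^ (2 ^ (s + 1)) - 1 := by
  induction s with
  | zero =>
    obtain ⟨k, rfl⟩ := hq
    have h2 : (2 : ℤ) ∣ k * (k + 1) := by
      have := Int.even_mul_succ_self k
      exact even_iff_two_dvd.mp this
    obtain ⟨j, hj⟩ := h2
    refine ⟨j, ?_⟩
    have : (2 * k + 1) ^ (2 ^ (0 + 1)) - 1 = 4 * (k * (k + 1)) := by ring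
    rw [this, hj]; ring
  | succ s ih =>
    obtain ⟨c, hc⟩ := ih
    have hodd : Odd (q ^ (2 ^ (s + 1))) := hq.pow
    obtain ⟨d, hd⟩ := hodd
    refine ⟨c * (d + 1), ?_⟩
    have h1 : q ^ (2 ^ (s + 1 + 1)) - 1 = (q ^ (2 ^ (s + 1)) - 1) * (q ^ (2 ^ (s + 1)) + 1) := by
      rw [pow_succ 2 (s + 1), pow_mul]; ring
    rw [h1, hc, hd]
    ring

/-- **Good levels exist**: for `q` odd and `m` even prime to `q` there are `t, e, Φo` with `Φo` odd,
`2 ^ (e + 2) ∣ m * 2 ^ t` and `m * 2 ^ t ∣ q ^ (2 ^ e * Φo) - 1`. -/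
theorem exists_good_level {q m : ℕ} (hq : Odd q) (hm : m ≠ 0) (hm2 : 2 ∣ m)
    (hmq : Nat.Coprime m q) :
    ∃ t e Φo : ℕ, Odd Φo ∧ 2 ^ (e + 2) ∣ m * 2 ^ t ∧
      ((m * 2 ^ t : ℕ) : ℤ) ∣ (q : ℤ) ^ (2 ^ e * Φo) - 1 := by
  obtain ⟨a, mo, hmo, hma⟩ := Nat.exists_eq_two_pow_mul_odd hm
  have ha : a ≠ 0 := by
    rintro rfl
    rw [pow_zero, one_mul] at hma
    rw [hma] at hm2
    exact (Nat.not_even_iff_odd.mpr hmo) (even_iff_two_dvd.mpr hm2)
  have hφ0 : Nat.totient mo ≠ 0 := by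
    have : 0 < mo := hmo.pos
    exact (Nat.totient_pos.mpr this).ne'
  obtain ⟨b, w, hw, hφ⟩ := Nat.exists_eq_two_pow_mul_odd hφ0
  obtain ⟨a', rfl⟩ : ∃ a', a = a' + 1 := ⟨a - 1, by omega⟩
  -- `t = b + 2`, `e = a + b = a' + 1 + b`
  refine ⟨b + 2, a' + 1 + b, w, hw, ?_, ?_⟩
  · refine ⟨mo, ?_⟩
    rw [hma]; ring
  · have hmoq : Nat.Coprime q mo := by
      have : mo ∣ m := ⟨2 ^ (a' + 1), by rw [hma]; ring⟩
      exact (Nat.Coprime.coprime_dvd_left this hmq).symm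
    -- odd part
    have h1 : (mo : ℤ) ∣ (q : ℤ) ^ (2 ^ (a' + 1 + b) * w) - 1 := by
      have hE : q ^ Nat.totient mo ≡ 1 [MOD mo] := Nat.ModEq.pow_totient hmoq
      have hE' : ((q ^ Nat.totient mo : ℕ) : ℤ) ≡ ((1 : ℕ) : ℤ) [ZMOD (mo : ℤ)] :=
        Int.natCast_modEq_iff.mpr hE
      have h2 : (mo : ℤ) ∣ (q : ℤ) ^ Nat.totient mo - 1 := by
        have := hE'.symm.dvd
        simpa using this
      have h3 : (q : ℤ) ^ Nat.totient mo - 1 ∣ ((q : ℤ) ^ Nat.totient mo) ^ (2 ^ (a' + 1)) - 1 := by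
        simpa using sub_dvd_pow_sub_pow ((q : ℤ) ^ Nat.totient mo) 1 (2 ^ (a' + 1))
      have h4 : ((q : ℤ) ^ Nat.totient mo) ^ (2 ^ (a' + 1)) = (q : ℤ) ^ (2 ^ (a' + 1 + b) * w) := by
        rw [← pow_mul, hφ]; congr 1; ring
      rw [h4] at h3
      exact h2.trans h3
    -- 2-part
    have h5 : (2 : ℤ) ^ (a' + 1 + b + 2) ∣ (q : ℤ) ^ (2 ^ (a' + 1 + b) * w) - 1 := by
      have hqodd : Odd (q : ℤ) := by exact_mod_cast hq
      have h6 := two_pow_dvd_pow_two_pow_sub_one hqodd (a' + b)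
      have h7 : (q : ℤ) ^ (2 ^ (a' + b + 1)) - 1 ∣ ((q : ℤ) ^ (2 ^ (a' + b + 1))) ^ w - 1 := by
        simpa using sub_dvd_pow_sub_pow ((q : ℤ) ^ (2 ^ (a' + b + 1))) 1 w
      have h8 : ((q : ℤ) ^ (2 ^ (a' + b + 1))) ^ w = (q : ℤ) ^ (2 ^ (a' + 1 + b) * w) := by
        rw [← pow_mul]; congr 2; ring
      rw [h8] at h7
      have h9 : (2 : ℤ) ^ (a' + 1 + b + 2) = (2 : ℤ) ^ (a' + b + 3) := by congr 1; ring
      rw [h9]
      exact h6.trans h7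
    have hcop : IsCoprime ((2 : ℤ) ^ (a' + 1 + b + 2)) (mo : ℤ) := by
      apply IsCoprime.pow_left
      have : Nat.Coprime 2 mo := (Nat.coprime_two_left).mpr hmo
      exact_mod_cast Nat.isCoprime_iff_coprime.mpr this
    have h10 := hcop.mul_dvd h5 h1
    have h11 : ((m * 2 ^ (b + 2) : ℕ) : ℤ) = (2 : ℤ) ^ (a' + 1 + b + 2) * (mo : ℤ) := by
      rw [hma]; push_cast; ring
    rw [h11]
    exact h10


/-! ### Group theory -/

variable {R : Type*} [CommRing R]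



theorem EC_mono {I J : Ideal R} (h : I ≤ J) : EC I ≤ EC J :=
  sup_le_sup (E_mono h) (Subgroup.commutator_mono (Gam_mono h) (Gam_mono h))

theorem mem_jFix_of_le {I J : Ideal R} (h : J ≤ I) {g : SL(2, R)} (hg : g ∈ jFix J) :
    g ∈ jFix I :=
  mem_jFix.mpr (EC_mono h (mem_jFix.mp hg))

/-- **Density + `J`-invariance at a deeper level ⇒ `J`-invariance**: if `m T` divides a power of
`m` and `J` fixes `Γ(m T)` modulo `EC (m T)`, then `J` fixes `Γ(m)` modulo `EC (m)`. -/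
theorem Gam_le_jFix_of_deep {m T : R} {n : ℕ} (hdvd : m * T ∣ m ^ n)
    (hdeep : Gam (Ideal.span {m * T}) ≤ jFix (Ideal.span {m * T})) :
    Gam (Ideal.span {m}) ≤ jFix (Ideal.span {m}) := by
  intro g hg
  obtain ⟨e, he, h⟩ := exists_E_mul_mem_Gam_of_dvd_pow hdvd hg
  have h1 := hdeep h
  have hle : Ideal.span {m * T} ≤ Ideal.span {m} :=
    Ideal.span_singleton_le_span_singleton.mpr (Dvd.intro _ rfl)
  have h2 : e * g ∈ jFix (Ideal.span {m}) := mem_jFix_of_le hle h1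
  have : g = e⁻¹ * (e * g) := by group
  rw [this]
  exact mul_mem (inv_mem (E_le_jFix _ he)) h2




/-- **Claim J, core case at an arbitrary level**: `g ∈ Γ(m)` with nonzero lower left entry whose
upper left numerator is `≡ 1` modulo `4 * 2 ^ e`, where `q ^ (2 ^ e * Φo) ≡ 1 (mod m)`, `Φo` odd. -/
theorem mem_jFix_of_good [CharZero R] (q : ℕ) (hq : q.Prime) (hq2 : q ≠ 2) (qu : Rˣ)
    (hqu : (qu : R) = (q : R)) (hrep : ∀ r : R, ∃ k : ℕ, ∃ n : ℤ, r * (q : R) ^ k = (n : R))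
    (m : ℕ) (hm : m ≠ 0) (hmq : Nat.Coprime m q)
    (e Φo : ℕ) (hΦo : Odd Φo) (hord : (m : ℤ) ∣ (q : ℤ) ^ (2 ^ e * Φo) - 1)
    {g : SL(2, R)} (hg : g ∈ Gam (Ideal.span {(m : R)})) (k : ℕ) (A B C D : ℤ)
    (hA : g 0 0 * (q : R) ^ k = A) (hB : g 0 1 * (q : R) ^ k = B)
    (hC : g 1 0 * (q : R) ^ k = C) (hD : g 1 1 * (q : R) ^ k = D) (hC0 : C ≠ 0)
    (hA1 : A ≡ 1 [ZMOD ((4 * 2 ^ e : ℕ) : ℤ)]) :
    g ∈ jFix (Ideal.span {(m : R)}) := by
  set I : Ideal R := Ideal.span {(m : R)} with hI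
  have hcast : Function.Injective ((↑) : ℤ → R) := Int.cast_injective
  set qi : R := ((qu⁻¹ : Rˣ) : R) with hqi
  have hqqi : (q : R) * qi = 1 := by rw [← hqu, hqi]; simp
  have hqqik : ∀ j : ℕ, (q : R) ^ j * qi ^ j = 1 := fun j => by rw [← mul_pow, hqqi, one_pow]
  -- the determinant relation in `ℤ`
  have hdet : A * D - B * C = (q : ℤ) ^ (2 * k) := by
    apply hcast
    push_cast
    rw [← hA, ← hB, ← hC, ← hD]
    have := det_eq g
    linear_combination ((q : R) ^ (2 * k)) * this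
  obtain ⟨v, C₂, hC₂, hqC₂⟩ := exists_eq_pow_mul_not_dvd hq hC0
  have hC₂0 : C₂ ≠ 0 := by
    rintro rfl
    exact hC0 (by rw [hC₂]; simp)
  -- coprimality of `A` and `m`
  have hAm : IsCoprime A (m : ℤ) := by
    rw [mem_Gam] at hg
    obtain ⟨r, hr⟩ := Ideal.mem_span_singleton'.mp hg.1
    obtain ⟨j, n, hn⟩ := hrep r
    have h1 : A * (q : ℤ) ^ j = (q : ℤ) ^ (k + j) + n * (q : ℤ) ^ k * m := by
      apply hcast
      push_cast
      rw [← hA, ← hn]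
      linear_combination ((q : R) ^ (k + j)) * hr.symm
    have hqm : IsCoprime ((q : ℤ) ^ (k + j)) (m : ℤ) := by
      apply IsCoprime.pow_left
      exact Nat.isCoprime_iff_coprime.mpr hmq.symm
    have h2 : IsCoprime (A * (q : ℤ) ^ j) (m : ℤ) := by
      rw [h1]
      exact hqm.add_mul_right_left _
    exact h2.of_mul_left_left
  -- coprimality of `A` and `C₂`
  have hqC₂' : IsCoprime ((q : ℤ) ^ (2 * k)) C₂ := by
    apply IsCoprime.pow_left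
    rw [Int.isCoprime_iff_gcd_eq_one, Int.gcd_eq_natAbs, Int.natAbs_natCast]
    exact (Nat.Prime.coprime_iff_not_dvd hq).mpr hqC₂
  have hAC₂ : IsCoprime A C₂ := by
    obtain ⟨u, w, huw⟩ := hqC₂'
    refine ⟨u * D, w - u * B * (q : ℤ) ^ v, ?_⟩
    rw [← huw, ← hdet, hC₂]
    ring
  -- the modulus
  set M : ℕ := m * C₂.natAbs with hM
  have hM0 : M ≠ 0 := Nat.mul_ne_zero hm (Int.natAbs_ne_zero.mpr hC₂0)
  have hMq : Nat.Coprime M q := by
    apply Nat.Coprime.mul_left hmq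
    exact ((Nat.Prime.coprime_iff_not_dvd hq).mpr hqC₂).symm
  have hAC₂' : IsCoprime A (C₂.natAbs : ℤ) := by
    rcases Int.natAbs_eq C₂ with h | h
    · rw [← h]; exact hAC₂
    · have : (C₂.natAbs : ℤ) = -C₂ := by omega
      rw [this]; exact hAC₂.neg_right
  have hAM : IsCoprime A (M : ℤ) := by
    rw [hM, Nat.cast_mul]
    exact hAm.mul_right hAC₂'
  have hR1 : A ≡ 1 [ZMOD ((Nat.gcd M (4 * 2 ^ e) : ℕ) : ℤ)] :=
    hA1.of_dvd (by exact_mod_cast Nat.gcd_dvd_right M (4 * 2 ^ e))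
  obtain ⟨π, k₀, hπ, -, hπA, hΦk, hpow⟩ :=
    CSPArithEven.exists_prime_modEq_pow_eq_neg_one_gen q hq hq2 M A e Φo 0 hM0 hMq hAM hΦo hR1
  -- `π - A = m * C₂ * n₀`
  have hdvd1 : (m : ℤ) * C₂ ∣ (π : ℤ) - A := by
    have h1 : (M : ℤ) ∣ (π : ℤ) - A := by
      have := hπA.symm.dvd
      exact this
    have h2 : (m : ℤ) * C₂ ∣ (M : ℤ) := by
      rw [hM, Nat.cast_mul]
      exact mul_dvd_mul_left _ (Int.dvd_natAbs.mpr dvd_rfl)
    exact h2.trans h1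
  obtain ⟨n₀, hn₀⟩ := hdvd1
  obtain ⟨n₁, hn₁⟩ := int_dvd_pow_add_one hpow
  obtain ⟨n₂, hn₂⟩ : (m : ℤ) ∣ (q : ℤ) ^ k₀ - 1 := by
    obtain ⟨c, rfl⟩ := hΦk
    have h1 : (q : ℤ) ^ (2 ^ e * Φo) - 1 ∣ ((q : ℤ) ^ (2 ^ e * Φo)) ^ c - 1 := by
      simpa using sub_dvd_pow_sub_pow ((q : ℤ) ^ (2 ^ e * Φo)) 1 c
    rw [← pow_mul] at h1
    exact hord.trans h1
  -- the normalised element
  set x : R := (n₀ : R) * qi ^ v with hx
  have hmxI : (m : R) * x ∈ I := Ideal.mem_span_singleton'.mpr ⟨x, mul_comm _ _⟩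
  set g' : SL(2, R) := uR ((m : R) * x) * g with hg'
  have hg'mem : g' ∈ Gam I := mul_mem (uR_mem_Gam hmxI) hg
  have hg'00 : g' 0 0 = (π : R) * qi ^ k := by
    have h1 : g' 0 0 = g 0 0 + (m : R) * x * g 1 0 := by
      rw [hg', SL2R.mul_apply']; simp
    have hπR : (π : R) = (A : R) + (m : R) * (C₂ : R) * (n₀ : R) := by
      have : (π : ℤ) = A + (m : ℤ) * C₂ * n₀ := by linarith
      have h := congrArg (fun z : ℤ => (z : R)) this
      simpa using h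
    have hCR : (C : R) = (q : R) ^ v * (C₂ : R) := by
      have h := congrArg (fun z : ℤ => (z : R)) hC₂
      simpa using h
    have ha : g 0 0 = (A : R) * qi ^ k := by
      rw [← hA, mul_assoc, hqqik, mul_one]
    have hc : g 1 0 = (C : R) * qi ^ k := by
      rw [← hC, mul_assoc, hqqik, mul_one]
    rw [h1, ha, hc, hπR, hCR, hx]
    linear_combination ((m : R) * (n₀ : R) * (C₂ : R) * qi ^ k) * (hqqik v)
  -- the unit
  set t : Rˣ := qu ^ k₀ with ht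
  have htval : (t : R) = (q : R) ^ k₀ := by rw [ht, Units.val_pow_eq_pow_val, hqu]
  have htI : (t : R) - 1 ∈ I := by
    rw [htval]
    refine Ideal.mem_span_singleton'.mpr ⟨(n₂ : R), ?_⟩
    have h := congrArg (fun z : ℤ => (z : R)) hn₂
    simp only [Int.cast_sub, Int.cast_pow, Int.cast_natCast, Int.cast_one, Int.cast_mul] at h
    rw [h]; ring
  have hs : -((t : R) ^ 2) = 1 + g' 0 0 * (-(n₁ : R) * (q : R) ^ k) := by
    rw [hg'00, htval]
    have h := congrArg (fun z : ℤ => (z : R)) hn₁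
    simp only [Int.cast_add, Int.cast_pow, Int.cast_natCast, Int.cast_one, Int.cast_mul] at h
    have h' : ((q : R) ^ k₀) ^ 2 = (q : R) ^ (2 * k₀) := by rw [← pow_mul, mul_comm]
    rw [h']
    linear_combination (-1 : R) * h + ((π : R) * (n₁ : R)) * (hqqik k)
  have hg'J : g' ∈ jFix I := mem_jFix_of_unit hg'mem t htI _ hs
  have hu : uR ((m : R) * x) ∈ jFix I := E_le_jFix I (uR_mem_E hmxI)
  have : g = (uR ((m : R) * x))⁻¹ * g' := by rw [hg']; group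
  rw [this]
  exact mul_mem (inv_mem hu) hg'J

/-- **Claim J at a good even level** `m`: `2 ^ (e + 2) ∣ m` and `q ^ (2 ^ e * Φo) ≡ 1 (mod m)` with
`Φo` odd. -/
theorem Gam_le_jFix_good [CharZero R] (q : ℕ) (hq : q.Prime) (hq2 : q ≠ 2) (qu : Rˣ)
    (hqu : (qu : R) = (q : R)) (hrep : ∀ r : R, ∃ k : ℕ, ∃ n : ℤ, r * (q : R) ^ k = (n : R))
    (m : ℕ) (hm : m ≠ 0) (hmq : Nat.Coprime m q)
    (e Φo : ℕ) (hΦo : Odd Φo) (h2 : 2 ^ (e + 2) ∣ m)
    (hord : (m : ℤ) ∣ (q : ℤ) ^ (2 ^ e * Φo) - 1) :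
    Gam (Ideal.span {(m : R)}) ≤ jFix (Ideal.span {(m : R)}) := by
  intro g hg
  set I : Ideal R := Ideal.span {(m : R)} with hI
  have hcast : Function.Injective ((↑) : ℤ → R) := Int.cast_injective
  obtain ⟨k, A, B, C, D, hA, hB, hC, hD⟩ :=
    exists_common_den q hrep (g 0 0) (g 0 1) (g 1 0) (g 1 1)
  -- `A ≡ q ^ k (mod m)`
  have hAmod : A ≡ (q : ℤ) ^ k [ZMOD (m : ℤ)] := by
    have hg' := mem_Gam.mp hg
    obtain ⟨r, hr⟩ := Ideal.mem_span_singleton'.mp hg'.1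
    obtain ⟨j, n, hn⟩ := hrep r
    have h1 : (A - (q : ℤ) ^ k) * (q : ℤ) ^ j = n * (q : ℤ) ^ k * m := by
      apply hcast
      push_cast
      rw [← hA, ← hn]
      linear_combination ((q : R) ^ (k + j)) * hr.symm
    have hqm : IsCoprime (m : ℤ) ((q : ℤ) ^ j) := by
      apply IsCoprime.pow_right
      exact Nat.isCoprime_iff_coprime.mpr hmq
    have h2' : (m : ℤ) ∣ (A - (q : ℤ) ^ k) * (q : ℤ) ^ j := ⟨n * (q : ℤ) ^ k, by rw [h1]; ring⟩
    have h3 : (m : ℤ) ∣ A - (q : ℤ) ^ k := hqm.dvd_of_dvd_mul_right h2'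
    exact (Int.modEq_iff_dvd.mpr h3).symm
  -- pad the denominator exponent: `K = k * 2 ^ (e + 1)`
  obtain ⟨P, hP⟩ : ∃ P, 2 ^ (e + 1) = P + 1 :=
    ⟨2 ^ (e + 1) - 1, by have := Nat.one_le_two_pow (n := e + 1); omega⟩
  set j : ℕ := k * P with hj
  have hK : k + j = k * 2 ^ (e + 1) := by rw [hj, hP]; ring
  have hqodd : Odd (q : ℤ) := by
    rcases hq.eq_two_or_odd' with h | h
    · exact absurd h hq2
    · exact_mod_cast h
  have hpad : ∀ (r : R) (n : ℤ), r * (q : R) ^ k = n →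
      r * (q : R) ^ (k + j) = ((n * (q : ℤ) ^ j : ℤ) : R) := by
    intro r n h
    push_cast
    rw [← h, pow_add]; ring
  have hA' := hpad _ _ hA
  have hB' := hpad _ _ hB
  have hC' := hpad _ _ hC
  have hD' := hpad _ _ hD
  -- `A q ^ j ≡ 1 (mod 4 * 2 ^ e)`
  have hA1 : A * (q : ℤ) ^ j ≡ 1 [ZMOD ((4 * 2 ^ e : ℕ) : ℤ)] := by
    have h4 : ((4 * 2 ^ e : ℕ) : ℤ) ∣ (m : ℤ) := by
      have : (4 * 2 ^ e : ℕ) = 2 ^ (e + 2) := by rw [pow_add]; ring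
      rw [this]
      exact_mod_cast h2
    have h5 : A * (q : ℤ) ^ j ≡ (q : ℤ) ^ k * (q : ℤ) ^ j [ZMOD ((4 * 2 ^ e : ℕ) : ℤ)] :=
      (hAmod.of_dvd h4).mul_right _
    have h6 : (q : ℤ) ^ k * (q : ℤ) ^ j = ((q : ℤ) ^ k) ^ (2 ^ (e + 1)) := by
      rw [← pow_add, hK, pow_mul]
    have h7 := two_pow_dvd_pow_two_pow_sub_one (hqodd.pow (n := k)) e
    have h8 : ((4 * 2 ^ e : ℕ) : ℤ) ∣ (2 : ℤ) ^ (e + 3) := by
      refine ⟨2, ?_⟩
      push_cast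
      ring
    have h9 : ((q : ℤ) ^ k) ^ (2 ^ (e + 1)) ≡ 1 [ZMOD ((4 * 2 ^ e : ℕ) : ℤ)] :=
      (Int.modEq_iff_dvd.mpr (h8.trans h7)).symm
    rw [h6] at h5
    exact h5.trans h9
  have hA0 : A * (q : ℤ) ^ j ≠ 0 := by
    intro h0
    rw [h0] at hA1
    have h10 : ((4 * 2 ^ e : ℕ) : ℤ) ∣ 1 - 0 := Int.modEq_iff_dvd.mp hA1
    have h11 : (2 : ℤ) ∣ 1 := by
      refine Dvd.dvd.trans ⟨2 * 2 ^ e, ?_⟩ (by simpa using h10)
      ring
    omega
  -- make `C` nonzero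
  by_cases hC0 : C * (q : ℤ) ^ j = 0
  · have hmI : (m : R) ∈ I := Ideal.subset_span rfl
    set g₁ : SL(2, R) := lR (m : R) * g with hg₁
    have hg₁mem : g₁ ∈ Gam I := mul_mem (lR_mem_Gam hmI) hg
    have h00 : g₁ 0 0 = g 0 0 := by rw [hg₁, SL2R.mul_apply']; simp
    have h01 : g₁ 0 1 = g 0 1 := by rw [hg₁, SL2R.mul_apply']; simp
    have h10 : g₁ 1 0 = (m : R) * g 0 0 + g 1 0 := by rw [hg₁, SL2R.mul_apply']; simp
    have h11 : g₁ 1 1 = (m : R) * g 0 1 + g 1 1 := by rw [hg₁, SL2R.mul_apply']; simp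
    have hg₁J : g₁ ∈ jFix I := by
      refine mem_jFix_of_good q hq hq2 qu hqu hrep m hm hmq e Φo hΦo hord hg₁mem (k + j)
        (A * (q : ℤ) ^ j) (B * (q : ℤ) ^ j) ((m : ℤ) * (A * (q : ℤ) ^ j) + C * (q : ℤ) ^ j)
        ((m : ℤ) * (B * (q : ℤ) ^ j) + D * (q : ℤ) ^ j) ?_ ?_ ?_ ?_ ?_ hA1
      · rw [h00, hA']
      · rw [h01, hB']
      · rw [h10, add_mul, mul_assoc, hA', hC']; push_cast; ring
      · rw [h11, add_mul, mul_assoc, hB', hD']; push_cast; ring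
      · rw [hC0, add_zero]
        exact mul_ne_zero (by exact_mod_cast hm) hA0
    have hl : lR (m : R) ∈ jFix I := E_le_jFix I (lR_mem_E hmI)
    have : g = (lR (m : R))⁻¹ * g₁ := by rw [hg₁]; group
    rw [this]
    exact mul_mem (inv_mem hl) hg₁J
  · exact mem_jFix_of_good q hq hq2 qu hqu hrep m hm hmq e Φo hΦo hord hg (k + j)
      (A * (q : ℤ) ^ j) (B * (q : ℤ) ^ j) (C * (q : ℤ) ^ j) (D * (q : ℤ) ^ j)
      hA' hB' hC' hD' hC0 hA1


/-- **Claim J at every even level** `m` prime to the odd prime `q` (generic ring form). -/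
theorem Gam_le_jFix_even [CharZero R] (q : ℕ) (hq : q.Prime) (hq2 : q ≠ 2) (qu : Rˣ)
    (hqu : (qu : R) = (q : R)) (hrep : ∀ r : R, ∃ k : ℕ, ∃ n : ℤ, r * (q : R) ^ k = (n : R))
    (m : ℕ) (hm : m ≠ 0) (hm2 : 2 ∣ m) (hmq : Nat.Coprime m q) :
    Gam (Ideal.span {(m : R)}) ≤ jFix (Ideal.span {(m : R)}) := by
  have hqodd : Odd q := by
    rcases hq.eq_two_or_odd' with h | h
    · exact absurd h hq2
    · exact h
  obtain ⟨t, e, Φo, hΦo, h2, hord⟩ := exists_good_level hqodd hm hm2 hmq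
  have hm' : m * 2 ^ t ≠ 0 := Nat.mul_ne_zero hm (pow_ne_zero _ (by norm_num))
  have hm'q : Nat.Coprime (m * 2 ^ t) q := by
    apply Nat.Coprime.mul_left hmq
    apply Nat.Coprime.pow_left
    rw [Nat.coprime_comm, hq.coprime_iff_not_dvd]
    intro h
    exact hq2 ((Nat.prime_dvd_prime_iff_eq hq Nat.prime_two).mp h)
  have hdeep := Gam_le_jFix_good (R := R) q hq hq2 qu hqu hrep (m * 2 ^ t) hm' hm'q e Φo hΦo h2 hord
  have hcast : ((m * 2 ^ t : ℕ) : R) = (m : R) * (2 : R) ^ t := by push_cast; ring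
  rw [hcast] at hdeep
  have hdvd : (m : R) * (2 : R) ^ t ∣ (m : R) ^ (t + 1) := by
    obtain ⟨c, hc⟩ := hm2
    refine ⟨(c : R) ^ t, ?_⟩
    rw [hc]; push_cast; ring
  exact Gam_le_jFix_of_deep hdvd hdeep

/-- **Claim J at every level** `m ≠ 0` prime to the odd prime `q`, in the form of the hypothesis
`hJ` of `SL2R.uR_two_mul_mem_cenMod` / `SL2R.cenMod_eq_top` (generic ring form). -/
theorem claimJ_all [CharZero R] (q : ℕ) (hq : q.Prime) (hq2 : q ≠ 2) (qu : Rˣ)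
    (hqu : (qu : R) = (q : R)) (hrep : ∀ r : R, ∃ k : ℕ, ∃ n : ℤ, r * (q : R) ^ k = (n : R))
    (m : ℕ) (hm : m ≠ 0) (hmq : Nat.Coprime m q) :
    ∀ g ∈ Gam (Ideal.span {(m : R)}),
      conjDiag (-1) g * g⁻¹ ∈ EC (Ideal.span {(m : R)}) := by
  by_cases hm2 : 2 ∣ m
  · exact fun _ hg => Gam_le_jFix_even q hq hq2 qu hqu hrep m hm hm2 hmq hg
  · have hm2' : Nat.Coprime m 2 := by
      rw [Nat.coprime_comm, Nat.prime_two.coprime_iff_not_dvd]
      exact hm2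
    exact claimJ q hq hq2 qu hqu hrep m hm hm2' hmq

/-! ### The ring `ℤ[1/q] = Gen.zInv q` -/

section zInv

open Fermat.Agent.LR.Gen

/-- **Claim J for `ℤ[1/q]`, all levels**: `q` an odd prime, `m ≠ 0` prime to `q` (even allowed). -/
theorem claimJ_zInv_all (q : ℕ) (hq : q.Prime) (hq2 : q ≠ 2) (m : ℕ) (hm : m ≠ 0)
    (hmq : Nat.Coprime m q) :
    ∀ g ∈ Gam (Ideal.span {(m : ↥(zInv q))}),
      conjDiag (-1) g * g⁻¹ ∈ EC (Ideal.span {(m : ↥(zInv q))}) :=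
  claimJ_all q hq hq2 (qUnit q hq.ne_zero) (qUnit_val q hq.ne_zero) (zInv_rep q) m hm hmq

/-- **`(Cen)` at an arbitrary level, `Γ₀(2)`-form** (the `(P4)` export for even `N`): over
`ℤ[1/q]`, `q` an odd prime, at every level `m ≠ 0` prime to `q`, the elements `u(2x)` and `l(2x)`
centralise `Γ(m)` modulo `EC (m)`. -/
theorem cen_even (q : ℕ) (hq : q.Prime) (hq2 : q ≠ 2) (m : ℕ) (hm : m ≠ 0)
    (hmq : Nat.Coprime m q) (x : ↥(zInv q)) :
    uR (2 * x) ∈ cenMod (Ideal.span {(m : ↥(zInv q))}) ∧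
      lR (2 * x) ∈ cenMod (Ideal.span {(m : ↥(zInv q))}) :=
  ⟨uR_two_mul_mem_cenMod (claimJ_zInv_all q hq hq2 m hm hmq) x,
    lR_two_mul_mem_cenMod (claimJ_zInv_all q hq hq2 m hm hmq) x⟩

end zInv

end Fermat.Agent.LR.CSPClaimJAll
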