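/-
Program M, node D2, layer L7 (helper19), generic part: Corollary U for an arbitrary diagonal
twist. Over a commutative ring `R`, if conjugation by `diag(s, 1)` (`s` a unit) fixes every element
of `Γ(I)` modulo `EC I`, then `u((s-1) y)` and `l((s⁻¹-1) y)` centralise `Γ(I)` modulo `EC I`
(`s = -1` is Corollary U of `LR/SL2Ring.lean`). With two such twists `s, t` whose differences
`s - 1`, `t - 1` generate the unit ideal modulo `I`, and generation of `SL(2,R)` by elementary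
matrices, all of `SL(2,R)` centralises `Γ(I)` modulo `EC I`; and then the twist by `s'` is trivial
as soon as `s = s' u²`.  (Used for `R = ℤ[1/2]`, `s = -4^Φ'`, `t = -2^Φ'`.)
-/
import Mathlib
import Fermat.Agent.LR.SL2Ring
import Fermat.Agent.LR.CSPBasic

set_option autoImplicit false

namespace Fermat.Agent.LR.CorUGen

open Matrix
open Fermat.Agent.LR.SL2R Fermat.Agent.LR.CSP
open scoped MatrixGroups commutatorElement

variable {R : Type*} [CommRing R]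

/-- generalised Corollary U, upper unipotents -/
theorem uR_mem_cenMod_of_conjDiag {I : Ideal R} (s : Rˣ)
    (hs : ∀ g ∈ Gam I, conjDiag s g * g⁻¹ ∈ EC I) (y : R) :
    uR (((s : R) - 1) * y) ∈ cenMod I := by
  intro g hg
  set g' := uR y * g * (uR y)⁻¹ with hg'
  have hg'mem : g' ∈ Gam I := (inferInstance : (Gam I).Normal).conj_mem g hg _
  have h1 := hs g' hg'mem
  have hP : conjDiag s g' = uR (s * y) * conjDiag s g * (uR (s * y))⁻¹ := by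
    rw [hg', map_mul, map_mul, map_inv, conjDiag_uR]
  have h2 := conj_mul_inv_mem_EC (hs g hg) (uR (s * y))
  rw [← hP] at h2
  have h3 : (uR (s * y) * g * (uR (s * y))⁻¹) * g'⁻¹ ∈ EC I := by
    have : (uR (s * y) * g * (uR (s * y))⁻¹) * g'⁻¹ =
        (conjDiag s g' * (uR (s * y) * g * (uR (s * y))⁻¹)⁻¹)⁻¹ * (conjDiag s g' * g'⁻¹) := by
      group
    rw [this]
    exact mul_mem (inv_mem h2) h1
  have h4 := conj_mul_inv_mem_EC h3 (uR (-y))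
  have h5 : (uR (-y) * (uR (s * y) * g * (uR (s * y))⁻¹) * (uR (-y))⁻¹) *
      (uR (-y) * g' * (uR (-y))⁻¹)⁻¹ =
      uR (((s : R) - 1) * y) * g * (uR (((s : R) - 1) * y))⁻¹ * g⁻¹ := by
    have e1 : uR (((s : R) - 1) * y) = uR (-y) * uR (s * y) := by
      rw [← uR_add]; congr 1; ring
    have e2 : uR (-y) = (uR y)⁻¹ := (uR_inv y).symm
    rw [hg', e1, e2]
    group
  rw [h5] at h4
  exact h4

/-- generalised Corollary U, lower unipotents -/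
theorem lR_mem_cenMod_of_conjDiag {I : Ideal R} (s : Rˣ)
    (hs : ∀ g ∈ Gam I, conjDiag s g * g⁻¹ ∈ EC I) (y : R) :
    lR ((((s⁻¹ : Rˣ) : R) - 1) * y) ∈ cenMod I := by
  intro g hg
  set g' := lR y * g * (lR y)⁻¹ with hg'
  have hg'mem : g' ∈ Gam I := (inferInstance : (Gam I).Normal).conj_mem g hg _
  have h1 := hs g' hg'mem
  have hP : conjDiag s g' =
      lR (((s⁻¹ : Rˣ) : R) * y) * conjDiag s g * (lR (((s⁻¹ : Rˣ) : R) * y))⁻¹ := by
    rw [hg', map_mul, map_mul, map_inv, conjDiag_lR]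
  have h2 := conj_mul_inv_mem_EC (hs g hg) (lR (((s⁻¹ : Rˣ) : R) * y))
  rw [← hP] at h2
  have h3 : (lR (((s⁻¹ : Rˣ) : R) * y) * g * (lR (((s⁻¹ : Rˣ) : R) * y))⁻¹) * g'⁻¹ ∈ EC I := by
    have : (lR (((s⁻¹ : Rˣ) : R) * y) * g * (lR (((s⁻¹ : Rˣ) : R) * y))⁻¹) * g'⁻¹ =
        (conjDiag s g' * (lR (((s⁻¹ : Rˣ) : R) * y) * g *
          (lR (((s⁻¹ : Rˣ) : R) * y))⁻¹)⁻¹)⁻¹ * (conjDiag s g' * g'⁻¹) := by
      group
    rw [this]
    exact mul_mem (inv_mem h2) h1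
  have h4 := conj_mul_inv_mem_EC h3 (lR (-y))
  have h5 : (lR (-y) * (lR (((s⁻¹ : Rˣ) : R) * y) * g * (lR (((s⁻¹ : Rˣ) : R) * y))⁻¹) *
      (lR (-y))⁻¹) * (lR (-y) * g' * (lR (-y))⁻¹)⁻¹ =
      lR ((((s⁻¹ : Rˣ) : R) - 1) * y) * g * (lR ((((s⁻¹ : Rˣ) : R) - 1) * y))⁻¹ * g⁻¹ := by
    have e1 : lR ((((s⁻¹ : Rˣ) : R) - 1) * y) = lR (-y) * lR (((s⁻¹ : Rˣ) : R) * y) := by
      rw [← lR_add]; congr 1; ring
    have e2 : lR (-y) = (lR y)⁻¹ := (lR_inv y).symm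
    rw [hg', e1, e2]
    group
  rw [h5] at h4
  exact h4

/-- **(Cen) from two twists.** If the twists by `s` and by `t` are trivial on `Γ(I)` modulo `EC I`,
every `x` is `≡ (s-1) x₁ + (t-1) x₂` modulo `I`, and `SL(2,R)` is generated by elementary matrices,
then all of `SL(2,R)` centralises `Γ(I)` modulo `EC I`. -/
theorem cenMod_eq_top_of_two {I : Ideal R} (s t : Rˣ)
    (hs : ∀ g ∈ Gam I, conjDiag s g * g⁻¹ ∈ EC I)
    (ht : ∀ g ∈ Gam I, conjDiag t g * g⁻¹ ∈ EC I)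
    (hu : ∀ x : R, ∃ x₁ x₂ : R, x - (((s : R) - 1) * x₁ + ((t : R) - 1) * x₂) ∈ I)
    (hgen : Subgroup.closure ({g : SL(2, R) | ∃ x, g = uR x} ∪ {g | ∃ y, g = lR y}) = ⊤) :
    cenMod I = ⊤ := by
  rw [eq_top_iff, ← hgen, Subgroup.closure_le]
  rintro _ (⟨x, rfl⟩ | ⟨y, rfl⟩)
  · obtain ⟨x₁, x₂, hx⟩ := hu x
    have : uR x = uR (((s : R) - 1) * x₁) * uR (((t : R) - 1) * x₂) *
        uR (x - (((s : R) - 1) * x₁ + ((t : R) - 1) * x₂)) := by
      rw [← uR_add, ← uR_add]; congr 1; ring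
    rw [this]
    exact mul_mem (mul_mem (uR_mem_cenMod_of_conjDiag s hs x₁) (uR_mem_cenMod_of_conjDiag t ht x₂))
      (Gam_le_cenMod I (uR_mem_Gam hx))
  · -- `y = (s⁻¹ - 1) (-s y₁) + (t⁻¹ - 1) (-t y₂) mod I`
    obtain ⟨y₁, y₂, hy⟩ := hu y
    have hs1 : (s : R) * ((s⁻¹ : Rˣ) : R) = 1 := by simp
    have ht1 : (t : R) * ((t⁻¹ : Rˣ) : R) = 1 := by simp
    have : lR y = lR ((((s⁻¹ : Rˣ) : R) - 1) * (-(s : R) * y₁)) *
        lR ((((t⁻¹ : Rˣ) : R) - 1) * (-(t : R) * y₂)) *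
        lR (y - (((s : R) - 1) * y₁ + ((t : R) - 1) * y₂)) := by
      rw [← lR_add, ← lR_add]; congr 1
      linear_combination (y₁) * hs1 + (y₂) * ht1
    rw [this]
    exact mul_mem (mul_mem (lR_mem_cenMod_of_conjDiag s hs _) (lR_mem_cenMod_of_conjDiag t ht _))
      (Gam_le_cenMod I (lR_mem_Gam hy))

/-- `diag(u², 1)` and `diag(u, u⁻¹)` induce the same conjugation. -/
theorem conjDiag_sq (u : Rˣ) (g : SL(2, R)) : conjDiag (u ^ 2) g = hR u * g * (hR u)⁻¹ := by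
  have hu : (u : R) * ((u⁻¹ : Rˣ) : R) = 1 := by simp
  have e00 : (hR u) 0 0 = (u : R) := rfl
  have e01 : (hR u) 0 1 = 0 := rfl
  have e10 : (hR u) 1 0 = 0 := rfl
  have e11 : (hR u) 1 1 = ((u⁻¹ : Rˣ) : R) := rfl
  have i00 : ((hR u)⁻¹ : SL(2, R)) 0 0 = ((u⁻¹ : Rˣ) : R) := by rw [SL2R.inv_apply]; rfl
  have i01 : ((hR u)⁻¹ : SL(2, R)) 0 1 = 0 := by rw [SL2R.inv_apply]; simp [e01]
  have i10 : ((hR u)⁻¹ : SL(2, R)) 1 0 = 0 := by rw [SL2R.inv_apply]; simp [e10]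
  have i11 : ((hR u)⁻¹ : SL(2, R)) 1 1 = (u : R) := by rw [SL2R.inv_apply]; rfl
  have c00 : (conjDiag (u ^ 2) g) 0 0 = g 0 0 := rfl
  have c01 : (conjDiag (u ^ 2) g) 0 1 = ((u ^ 2 : Rˣ) : R) * g 0 1 := rfl
  have c10 : (conjDiag (u ^ 2) g) 1 0 = (((u ^ 2)⁻¹ : Rˣ) : R) * g 1 0 := rfl
  have c11 : (conjDiag (u ^ 2) g) 1 1 = g 1 1 := rfl
  have hsq : (((u ^ 2)⁻¹ : Rˣ) : R) = ((u⁻¹ : Rˣ) : R) ^ 2 := by
    rw [← inv_pow]; simp
  apply sl_ext
  · rw [c00, SL2R.mul_apply', SL2R.mul_apply', SL2R.mul_apply', i00, i10, e00, e01]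
    linear_combination (-(g 0 0)) * hu
  · rw [c01, SL2R.mul_apply', SL2R.mul_apply', SL2R.mul_apply', i01, i11, e00, e01]
    push_cast; ring
  · rw [c10, SL2R.mul_apply', SL2R.mul_apply', SL2R.mul_apply', i00, i10, e10, e11, hsq]
    ring
  · rw [c11, SL2R.mul_apply', SL2R.mul_apply', SL2R.mul_apply', i01, i11, e10, e11]
    linear_combination (-(g 1 1)) * hu

theorem conjDiag_mul (s t : Rˣ) (g : SL(2, R)) : conjDiag (s * t) g = conjDiag s (conjDiag t g) := by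
  apply sl_ext <;> simp [conjDiag_apply, mul_assoc, mul_comm]

/-- Once everything centralises, a trivial twist stays trivial after multiplying the parameter by
the square of a unit. -/
theorem conjDiag_mul_inv_mem_EC_of_sq {I : Ideal R} (hc : cenMod I = ⊤) (s u : Rˣ)
    (hs : ∀ g ∈ Gam I, conjDiag (s * u ^ 2) g * g⁻¹ ∈ EC I) :
    ∀ g ∈ Gam I, conjDiag s g * g⁻¹ ∈ EC I := by
  intro g hg
  -- `g₁ = h(u)⁻¹ g h(u)`; `conjDiag (s u²) g₁ = conjDiag s g`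
  set g₁ := (hR u)⁻¹ * g * ((hR u)⁻¹)⁻¹ with hg₁
  have hg₁mem : g₁ ∈ Gam I := (inferInstance : (Gam I).Normal).conj_mem g hg _
  have h1 := hs g₁ hg₁mem
  have h2 : conjDiag (s * u ^ 2) g₁ = conjDiag s g := by
    rw [conjDiag_mul, conjDiag_sq, hg₁]
    congr 1
    group
  rw [h2] at h1
  have h3 : (hR u)⁻¹ ∈ cenMod I := by rw [hc]; trivial
  have h4 := h3 g hg
  have : conjDiag s g * g⁻¹ = (conjDiag s g * g₁⁻¹) * ((hR u)⁻¹ * g * ((hR u)⁻¹)⁻¹ * g⁻¹) := by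
    rw [hg₁]; group
  rw [this]
  exact mul_mem h1 h4

end Fermat.Agent.LR.CorUGen
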