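/-
Program M (S41), node D2 (finish, helper18): shared definitions for the congruence subgroup
property of `SL(2, ℤ[1/q])` with `𝔽_p`-coefficients.

Everything lives inside `SL(2, ℚ)`, `ℤ[1/q] = Gen.zInv q ⊂ ℚ` (as in `LR/AmalgamGen.lean`).
* `GamLoc q m`      : the principal congruence subgroup `SL(2, ℤ[1/q], m)`;
* `uu x`, `ll y`    : elementary matrices; `dd t` : `diag(t, t⁻¹)`;
* `conjJ`           : conjugation by `J = diag(-1, 1)`;
* `conjDel s`       : conjugation by `diag(s, 1)`, `g ↦ [[a, s b], [c / s, d]]`;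
* `UnipKilling q m χ` : `χ : SL(2, ℚ) → V` is additive on `GamLoc q m` and kills its unipotent
  elements (`trace = 2`);
* `Cen q p m`       : the centrality statement at level `m` (output of the "Claim J" cell);
* `Inv q m χ`       : full invariance of `χ` on `GamLoc q m`.
-/
import Mathlib
import Fermat.Agent.LR.AmalgamGen

set_option autoImplicit false

namespace Fermat.Agent.LR.CSPFin

open Matrix
open scoped MatrixGroups
open Fermat.Agent.LR.Gen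

/-- `x ∈ m ℤ[1/q]`. -/
def InIdeal (q m : ℕ) (x : ℚ) : Prop := ∃ t ∈ zInv q, x = (m : ℚ) * t

theorem InIdeal.add {q m : ℕ} {x y : ℚ} (hx : InIdeal q m x) (hy : InIdeal q m y) :
    InIdeal q m (x + y) := by
  obtain ⟨s, hs, rfl⟩ := hx
  obtain ⟨t, ht, rfl⟩ := hy
  exact ⟨s + t, (zInv q).add_mem hs ht, by ring⟩

theorem InIdeal.neg {q m : ℕ} {x : ℚ} (hx : InIdeal q m x) : InIdeal q m (-x) := by
  obtain ⟨s, hs, rfl⟩ := hx
  exact ⟨-s, (zInv q).neg_mem hs, by ring⟩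

theorem InIdeal.sub {q m : ℕ} {x y : ℚ} (hx : InIdeal q m x) (hy : InIdeal q m y) :
    InIdeal q m (x - y) := by
  rw [sub_eq_add_neg]; exact hx.add hy.neg

theorem InIdeal.mul_left {q m : ℕ} {x y : ℚ} (hy : y ∈ zInv q) (hx : InIdeal q m x) :
    InIdeal q m (y * x) := by
  obtain ⟨s, hs, rfl⟩ := hx
  exact ⟨y * s, (zInv q).mul_mem hy hs, by ring⟩

theorem InIdeal.mul_right {q m : ℕ} {x y : ℚ} (hx : InIdeal q m x) (hy : y ∈ zInv q) :
    InIdeal q m (x * y) := by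
  rw [mul_comm]; exact hx.mul_left hy

theorem InIdeal.zero (q m : ℕ) : InIdeal q m 0 := ⟨0, (zInv q).zero_mem, by ring⟩

theorem InIdeal.mem {q m : ℕ} {x : ℚ} (hx : InIdeal q m x) : x ∈ zInv q := by
  obtain ⟨s, hs, rfl⟩ := hx
  exact (zInv q).mul_mem (by exact_mod_cast intCast_mem_zInv q (m : ℤ)) hs

theorem InIdeal.of_dvd {q m n : ℕ} (h : m ∣ n) {x : ℚ} (hx : InIdeal q n x) : InIdeal q m x := by
  obtain ⟨s, hs, rfl⟩ := hx
  obtain ⟨k, rfl⟩ := h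
  refine ⟨(k : ℚ) * s, (zInv q).mul_mem (by exact_mod_cast intCast_mem_zInv q (k : ℤ)) hs, ?_⟩
  push_cast; ring

/-- The principal congruence subgroup `SL(2, ℤ[1/q], m)`. -/
def GamLoc (q m : ℕ) : Subgroup SL(2, ℚ) where
  carrier := {g | InIdeal q m (g 0 0 - 1) ∧ InIdeal q m (g 0 1) ∧ InIdeal q m (g 1 0) ∧
    InIdeal q m (g 1 1 - 1)}
  one_mem' := by
    refine ⟨?_, ?_, ?_, ?_⟩ <;> simp [InIdeal.zero]
  mul_mem' := by
    rintro g h ⟨g00, g01, g10, g11⟩ ⟨h00, h01, h10, h11⟩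
    have hg00 : g 0 0 ∈ zInv q := by
      have := (zInv q).add_mem g00.mem (zInv q).one_mem; simpa using this
    have hg11 : g 1 1 ∈ zInv q := by
      have := (zInv q).add_mem g11.mem (zInv q).one_mem; simpa using this
    have hh00 : h 0 0 ∈ zInv q := by
      have := (zInv q).add_mem h00.mem (zInv q).one_mem; simpa using this
    have hh11 : h 1 1 ∈ zInv q := by
      have := (zInv q).add_mem h11.mem (zInv q).one_mem; simpa using this
    simp only [Set.mem_ofPred_eq, Matrix.SpecialLinearGroup.coe_mul, Matrix.mul_apply,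
      Fin.sum_univ_two]
    refine ⟨?_, ?_, ?_, ?_⟩
    · have : g 0 0 * h 0 0 + g 0 1 * h 1 0 - 1 =
          (g 0 0 - 1) * h 0 0 + (h 0 0 - 1) + g 0 1 * h 1 0 := by ring
      rw [this]
      exact ((g00.mul_right hh00).add h00).add (g01.mul_right h10.mem)
    · exact (h01.mul_left hg00).add (g01.mul_right hh11)
    · exact (g10.mul_right hh00).add (h10.mul_left hg11)
    · have : g 1 0 * h 0 1 + g 1 1 * h 1 1 - 1 =
          g 1 0 * h 0 1 + ((g 1 1 - 1) * h 1 1 + (h 1 1 - 1)) := by ring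
      rw [this]
      exact (g10.mul_right h01.mem).add ((g11.mul_right hh11).add h11)
  inv_mem' := by
    rintro g ⟨g00, g01, g10, g11⟩
    simp only [Set.mem_ofPred_eq, Matrix.SpecialLinearGroup.coe_inv, Matrix.adjugate_fin_two,
      Matrix.of_apply, Matrix.cons_val', Matrix.cons_val_zero, Matrix.cons_val_one,
      Matrix.empty_val', Matrix.cons_val_fin_one]
    exact ⟨g11, g01.neg, g10.neg, g00⟩

theorem mem_GamLoc {q m : ℕ} {g : SL(2, ℚ)} : g ∈ GamLoc q m ↔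
    InIdeal q m (g 0 0 - 1) ∧ InIdeal q m (g 0 1) ∧ InIdeal q m (g 1 0) ∧
      InIdeal q m (g 1 1 - 1) := Iff.rfl

/-- `u(x) = [[1, x], [0, 1]]`. -/
def uu (x : ℚ) : SL(2, ℚ) := ⟨!![1, x; 0, 1], by simp [Matrix.det_fin_two_of]⟩

/-- `l(y) = [[1, 0], [y, 1]]`. -/
def ll (y : ℚ) : SL(2, ℚ) := ⟨!![1, 0; y, 1], by simp [Matrix.det_fin_two_of]⟩

/-- `D(t) = diag(t, t⁻¹)`. -/
def dd (t : ℚ) (ht : t ≠ 0) : SL(2, ℚ) :=
  ⟨!![t, 0; 0, t⁻¹], by simp [Matrix.det_fin_two_of, ht]⟩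

@[simp] theorem coe_uu (x : ℚ) : (uu x : Matrix (Fin 2) (Fin 2) ℚ) = !![1, x; 0, 1] := rfl
@[simp] theorem coe_ll (y : ℚ) : (ll y : Matrix (Fin 2) (Fin 2) ℚ) = !![1, 0; y, 1] := rfl
@[simp] theorem coe_dd (t : ℚ) (ht : t ≠ 0) :
    (dd t ht : Matrix (Fin 2) (Fin 2) ℚ) = !![t, 0; 0, t⁻¹] := rfl

/-- An element of `SL(2, ℚ)` from its four entries. -/
def mk4 (a b c d : ℚ) (h : a * d - b * c = 1) : SL(2, ℚ) :=
  ⟨!![a, b; c, d], by rw [Matrix.det_fin_two_of]; exact h⟩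

@[simp] theorem coe_mk4 (a b c d : ℚ) (h : a * d - b * c = 1) :
    (mk4 a b c d h : Matrix (Fin 2) (Fin 2) ℚ) = !![a, b; c, d] := rfl

theorem det_eq (g : SL(2, ℚ)) : g 0 0 * g 1 1 - g 0 1 * g 1 0 = 1 := by
  have := g.det_coe
  rw [Matrix.det_fin_two] at this
  exact this

/-- Two elements of `SL(2, ℚ)` with the same entries are equal. -/
theorem ext4 {g h : SL(2, ℚ)} (h00 : g 0 0 = h 0 0) (h01 : g 0 1 = h 0 1) (h10 : g 1 0 = h 1 0)
    (h11 : g 1 1 = h 1 1) : g = h := by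
  ext i j
  fin_cases i <;> fin_cases j <;> assumption

/-- Conjugation by `J = diag(-1, 1)`: `g ↦ [[a, -b], [-c, d]]`. -/
def conjJ (g : SL(2, ℚ)) : SL(2, ℚ) :=
  mk4 (g 0 0) (-g 0 1) (-g 1 0) (g 1 1) (by have := det_eq g; linarith)

/-- Conjugation by `diag(s, 1)`: `g ↦ [[a, s b], [c / s, d]]`. -/
def conjDel (s : ℚ) (hs : s ≠ 0) (g : SL(2, ℚ)) : SL(2, ℚ) :=
  mk4 (g 0 0) (s * g 0 1) (g 1 0 / s) (g 1 1) (by have := det_eq g; field_simp; linarith)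

/-- `χ` is additive on `SL(2, ℤ[1/q], m)` and kills its unipotent elements. -/
structure UnipKilling {V : Type*} [AddCommGroup V] (q m : ℕ) (χ : SL(2, ℚ) → V) : Prop where
  map_mul : ∀ g h, g ∈ GamLoc q m → h ∈ GamLoc q m → χ (g * h) = χ g + χ h
  unip : ∀ g, g ∈ GamLoc q m → g 0 0 + g 1 1 = 2 → χ g = 0

/-- **(Cen) at level `m`** (with values in `ZMod p`): every unipotent-killing `χ` on
`SL(2, ℤ[1/q], m)` is invariant under conjugation by `u(x)`, `l(y)` (`x, y ∈ ℤ[1/q]`, restricted to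
`2 ℤ[1/q]` when `m` is even) and by `J`. -/
def Cen (q p m : ℕ) : Prop :=
  ∀ χ : SL(2, ℚ) → ZMod p, UnipKilling q m χ →
    (∀ x ∈ zInv q, (Odd m ∨ InIdeal q 2 x) → ∀ g ∈ GamLoc q m, χ (uu x * g * (uu x)⁻¹) = χ g) ∧
    (∀ y ∈ zInv q, (Odd m ∨ InIdeal q 2 y) → ∀ g ∈ GamLoc q m, χ (ll y * g * (ll y)⁻¹) = χ g) ∧
    (∀ g ∈ GamLoc q m, χ (conjJ g) = χ g)

/-- Full invariance of `χ` on `SL(2, ℤ[1/q], m)` under conjugation by `SL(2, ℤ[1/q])` (elementary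
generators) and by `J`. -/
structure Inv {V : Type*} (q m : ℕ) (χ : SL(2, ℚ) → V) : Prop where
  u : ∀ x ∈ zInv q, ∀ g ∈ GamLoc q m, χ (uu x * g * (uu x)⁻¹) = χ g
  l : ∀ y ∈ zInv q, ∀ g ∈ GamLoc q m, χ (ll y * g * (ll y)⁻¹) = χ g
  j : ∀ g ∈ GamLoc q m, χ (conjJ g) = χ g

end Fermat.Agent.LR.CSPFin
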