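/-
Program M (S41), node D2 (finish, helper18), part 1: conjugation calculus in `SL(2, ℚ)`,
twists of unipotent-killing characters by `diag(n, 1)^{±1}`, the "4m trick" for even levels
(Step 0 of finding #509) and the LOCALITY theorem (Step 2):
`ψ (conjDel n h) = ψ (conjDel n⁻¹ h)` for `h ∈ SL(2, ℤ[1/q], M n)`.
-/
import Mathlib
import Fermat.Agent.LR.CSPDefs

set_option autoImplicit false
set_option linter.unusedSimpArgs false
set_option linter.unnecessarySeqFocus false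
set_option linter.unusedVariables false

namespace Fermat.Agent.LR.CSPFin

open Matrix
open scoped MatrixGroups
open Fermat.Agent.LR.Gen

theorem mul_00 (g h : SL(2, ℚ)) : (g * h) 0 0 = g 0 0 * h 0 0 + g 0 1 * h 1 0 := by
  simp [Matrix.SpecialLinearGroup.coe_mul, Matrix.mul_apply, Fin.sum_univ_two]
theorem mul_01 (g h : SL(2, ℚ)) : (g * h) 0 1 = g 0 0 * h 0 1 + g 0 1 * h 1 1 := by
  simp [Matrix.SpecialLinearGroup.coe_mul, Matrix.mul_apply, Fin.sum_univ_two]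
theorem mul_10 (g h : SL(2, ℚ)) : (g * h) 1 0 = g 1 0 * h 0 0 + g 1 1 * h 1 0 := by
  simp [Matrix.SpecialLinearGroup.coe_mul, Matrix.mul_apply, Fin.sum_univ_two]
theorem mul_11 (g h : SL(2, ℚ)) : (g * h) 1 1 = g 1 0 * h 0 1 + g 1 1 * h 1 1 := by
  simp [Matrix.SpecialLinearGroup.coe_mul, Matrix.mul_apply, Fin.sum_univ_two]

theorem inv_00 (g : SL(2, ℚ)) : g⁻¹ 0 0 = g 1 1 := by
  simp [Matrix.SpecialLinearGroup.coe_inv, Matrix.adjugate_fin_two]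
theorem inv_01 (g : SL(2, ℚ)) : g⁻¹ 0 1 = - g 0 1 := by
  simp [Matrix.SpecialLinearGroup.coe_inv, Matrix.adjugate_fin_two]
theorem inv_10 (g : SL(2, ℚ)) : g⁻¹ 1 0 = - g 1 0 := by
  simp [Matrix.SpecialLinearGroup.coe_inv, Matrix.adjugate_fin_two]
theorem inv_11 (g : SL(2, ℚ)) : g⁻¹ 1 1 = g 0 0 := by
  simp [Matrix.SpecialLinearGroup.coe_inv, Matrix.adjugate_fin_two]

@[simp] theorem uu_00 (x : ℚ) : uu x 0 0 = 1 := rfl
@[simp] theorem uu_01 (x : ℚ) : uu x 0 1 = x := rfl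
@[simp] theorem uu_10 (x : ℚ) : uu x 1 0 = 0 := rfl
@[simp] theorem uu_11 (x : ℚ) : uu x 1 1 = 1 := rfl
@[simp] theorem ll_00 (x : ℚ) : ll x 0 0 = 1 := rfl
@[simp] theorem ll_01 (x : ℚ) : ll x 0 1 = 0 := rfl
@[simp] theorem ll_10 (x : ℚ) : ll x 1 0 = x := rfl
@[simp] theorem ll_11 (x : ℚ) : ll x 1 1 = 1 := rfl

@[simp] theorem mk4_00 (a b c d : ℚ) (h : a * d - b * c = 1) : mk4 a b c d h 0 0 = a := rfl
@[simp] theorem mk4_01 (a b c d : ℚ) (h : a * d - b * c = 1) : mk4 a b c d h 0 1 = b := rfl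
@[simp] theorem mk4_10 (a b c d : ℚ) (h : a * d - b * c = 1) : mk4 a b c d h 1 0 = c := rfl
@[simp] theorem mk4_11 (a b c d : ℚ) (h : a * d - b * c = 1) : mk4 a b c d h 1 1 = d := rfl

@[simp] theorem conjDel_00 (s : ℚ) (hs : s ≠ 0) (g : SL(2, ℚ)) : conjDel s hs g 0 0 = g 0 0 := rfl
@[simp] theorem conjDel_01 (s : ℚ) (hs : s ≠ 0) (g : SL(2, ℚ)) :
    conjDel s hs g 0 1 = s * g 0 1 := rfl
@[simp] theorem conjDel_10 (s : ℚ) (hs : s ≠ 0) (g : SL(2, ℚ)) :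
    conjDel s hs g 1 0 = g 1 0 / s := rfl
@[simp] theorem conjDel_11 (s : ℚ) (hs : s ≠ 0) (g : SL(2, ℚ)) : conjDel s hs g 1 1 = g 1 1 := rfl

@[simp] theorem conjJ_00 (g : SL(2, ℚ)) : conjJ g 0 0 = g 0 0 := rfl
@[simp] theorem conjJ_01 (g : SL(2, ℚ)) : conjJ g 0 1 = - g 0 1 := rfl
@[simp] theorem conjJ_10 (g : SL(2, ℚ)) : conjJ g 1 0 = - g 1 0 := rfl
@[simp] theorem conjJ_11 (g : SL(2, ℚ)) : conjJ g 1 1 = g 1 1 := rfl

theorem uu_inv (x : ℚ) : (uu x)⁻¹ = uu (-x) := by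
  apply ext4 <;> simp [inv_00, inv_01, inv_10, inv_11]

theorem ll_inv (x : ℚ) : (ll x)⁻¹ = ll (-x) := by
  apply ext4 <;> simp [inv_00, inv_01, inv_10, inv_11]

theorem conjDel_mul (s : ℚ) (hs : s ≠ 0) (g h : SL(2, ℚ)) :
    conjDel s hs (g * h) = conjDel s hs g * conjDel s hs h := by
  apply ext4 <;> simp [mul_00, mul_01, mul_10, mul_11] <;> field_simp

theorem conjDel_one (s : ℚ) (hs : s ≠ 0) : conjDel s hs 1 = 1 := by
  apply ext4 <;> simp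

theorem conjDel_inv (s : ℚ) (hs : s ≠ 0) (g : SL(2, ℚ)) :
    conjDel s hs g⁻¹ = (conjDel s hs g)⁻¹ := by
  apply ext4 <;> simp [inv_00, inv_01, inv_10, inv_11] <;> ring

theorem conjDel_uu (s : ℚ) (hs : s ≠ 0) (x : ℚ) : conjDel s hs (uu x) = uu (s * x) := by
  apply ext4 <;> simp

theorem conjDel_ll (s : ℚ) (hs : s ≠ 0) (y : ℚ) : conjDel s hs (ll y) = ll (y / s) := by
  apply ext4 <;> simp

theorem conjDel_conjDel (s t : ℚ) (hs : s ≠ 0) (ht : t ≠ 0) (g : SL(2, ℚ)) :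
    conjDel s hs (conjDel t ht g) = conjDel (s * t) (mul_ne_zero hs ht) g := by
  apply ext4 <;> simp <;> ring

theorem conjDel_one' (g : SL(2, ℚ)) : conjDel 1 one_ne_zero g = g := by
  apply ext4 <;> simp

theorem conjDel_inv_conjDel (s : ℚ) (hs : s ≠ 0) (g : SL(2, ℚ)) :
    conjDel s⁻¹ (inv_ne_zero hs) (conjDel s hs g) = g := by
  apply ext4 <;> simp <;> field_simp

theorem conjDel_conjDel_inv (s : ℚ) (hs : s ≠ 0) (g : SL(2, ℚ)) :
    conjDel s hs (conjDel s⁻¹ (inv_ne_zero hs) g) = g := by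
  apply ext4 <;> simp <;> field_simp

theorem conj_uu_00 (x : ℚ) (g : SL(2, ℚ)) :
    (uu x * g * (uu x)⁻¹) 0 0 = g 0 0 + x * g 1 0 := by
  simp [uu_inv, mul_00, mul_01, mul_10, mul_11]
theorem conj_uu_01 (x : ℚ) (g : SL(2, ℚ)) :
    (uu x * g * (uu x)⁻¹) 0 1 = g 0 1 + x * (g 1 1 - g 0 0) - x ^ 2 * g 1 0 := by
  simp [uu_inv, mul_00, mul_01, mul_10, mul_11]; ring
theorem conj_uu_10 (x : ℚ) (g : SL(2, ℚ)) :
    (uu x * g * (uu x)⁻¹) 1 0 = g 1 0 := by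
  simp [uu_inv, mul_00, mul_01, mul_10, mul_11]
theorem conj_uu_11 (x : ℚ) (g : SL(2, ℚ)) :
    (uu x * g * (uu x)⁻¹) 1 1 = g 1 1 - x * g 1 0 := by
  simp [uu_inv, mul_00, mul_01, mul_10, mul_11]; ring

theorem conj_ll_00 (y : ℚ) (g : SL(2, ℚ)) :
    (ll y * g * (ll y)⁻¹) 0 0 = g 0 0 - y * g 0 1 := by
  simp [ll_inv, mul_00, mul_01, mul_10, mul_11]; ring
theorem conj_ll_01 (y : ℚ) (g : SL(2, ℚ)) :
    (ll y * g * (ll y)⁻¹) 0 1 = g 0 1 := by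
  simp [ll_inv, mul_00, mul_01, mul_10, mul_11]
theorem conj_ll_10 (y : ℚ) (g : SL(2, ℚ)) :
    (ll y * g * (ll y)⁻¹) 1 0 = g 1 0 + y * (g 0 0 - g 1 1) - y ^ 2 * g 0 1 := by
  simp [ll_inv, mul_00, mul_01, mul_10, mul_11]; ring
theorem conj_ll_11 (y : ℚ) (g : SL(2, ℚ)) :
    (ll y * g * (ll y)⁻¹) 1 1 = g 1 1 + y * g 0 1 := by
  simp [ll_inv, mul_00, mul_01, mul_10, mul_11]; ring

theorem natCast_mem_zInv (q n : ℕ) : (n : ℚ) ∈ zInv q := by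
  exact_mod_cast intCast_mem_zInv q (n : ℤ)

theorem InIdeal.sub_one_mem {q m : ℕ} {x : ℚ} (hx : InIdeal q m (x - 1)) : x ∈ zInv q := by
  have := (zInv q).add_mem hx.mem (zInv q).one_mem
  simpa using this

theorem GamLoc.mem_00 {q m : ℕ} {g : SL(2, ℚ)} (hg : g ∈ GamLoc q m) : g 0 0 ∈ zInv q :=
  hg.1.sub_one_mem
theorem GamLoc.mem_01 {q m : ℕ} {g : SL(2, ℚ)} (hg : g ∈ GamLoc q m) : g 0 1 ∈ zInv q :=
  hg.2.1.mem
theorem GamLoc.mem_10 {q m : ℕ} {g : SL(2, ℚ)} (hg : g ∈ GamLoc q m) : g 1 0 ∈ zInv q :=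
  hg.2.2.1.mem
theorem GamLoc.mem_11 {q m : ℕ} {g : SL(2, ℚ)} (hg : g ∈ GamLoc q m) : g 1 1 ∈ zInv q :=
  hg.2.2.2.sub_one_mem

theorem GamLoc_mono {q m n : ℕ} (h : m ∣ n) : GamLoc q n ≤ GamLoc q m := by
  rintro g ⟨h00, h01, h10, h11⟩
  exact ⟨h00.of_dvd h, h01.of_dvd h, h10.of_dvd h, h11.of_dvd h⟩

theorem conj_uu_mem {q m : ℕ} {x : ℚ} (hx : x ∈ zInv q) {g : SL(2, ℚ)} (hg : g ∈ GamLoc q m) :
    uu x * g * (uu x)⁻¹ ∈ GamLoc q m := by
  obtain ⟨h00, h01, h10, h11⟩ := hg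
  refine ⟨?_, ?_, ?_, ?_⟩
  · rw [conj_uu_00]
    have : g 0 0 + x * g 1 0 - 1 = (g 0 0 - 1) + x * g 1 0 := by ring
    rw [this]; exact h00.add (h10.mul_left hx)
  · rw [conj_uu_01]
    have : g 0 1 + x * (g 1 1 - g 0 0) - x ^ 2 * g 1 0 =
        g 0 1 + x * ((g 1 1 - 1) - (g 0 0 - 1)) - x ^ 2 * g 1 0 := by ring
    rw [this]
    exact (h01.add ((h11.sub h00).mul_left hx)).sub (h10.mul_left ((zInv q).pow_mem hx 2))
  · rw [conj_uu_10]; exact h10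
  · rw [conj_uu_11]
    have : g 1 1 - x * g 1 0 - 1 = (g 1 1 - 1) - x * g 1 0 := by ring
    rw [this]; exact h11.sub (h10.mul_left hx)

theorem conj_ll_mem {q m : ℕ} {y : ℚ} (hy : y ∈ zInv q) {g : SL(2, ℚ)} (hg : g ∈ GamLoc q m) :
    ll y * g * (ll y)⁻¹ ∈ GamLoc q m := by
  obtain ⟨h00, h01, h10, h11⟩ := hg
  refine ⟨?_, ?_, ?_, ?_⟩
  · rw [conj_ll_00]
    have : g 0 0 - y * g 0 1 - 1 = (g 0 0 - 1) - y * g 0 1 := by ring
    rw [this]; exact h00.sub (h01.mul_left hy)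
  · rw [conj_ll_01]; exact h01
  · rw [conj_ll_10]
    have : g 1 0 + y * (g 0 0 - g 1 1) - y ^ 2 * g 0 1 =
        g 1 0 + y * ((g 0 0 - 1) - (g 1 1 - 1)) - y ^ 2 * g 0 1 := by ring
    rw [this]
    exact (h10.add ((h00.sub h11).mul_left hy)).sub (h01.mul_left ((zInv q).pow_mem hy 2))
  · rw [conj_ll_11]
    have : g 1 1 + y * g 0 1 - 1 = (g 1 1 - 1) + y * g 0 1 := by ring
    rw [this]; exact h11.add (h01.mul_left hy)

theorem conjJ_mem {q m : ℕ} {g : SL(2, ℚ)} (hg : g ∈ GamLoc q m) : conjJ g ∈ GamLoc q m := by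
  obtain ⟨h00, h01, h10, h11⟩ := hg
  exact ⟨h00, h01.neg, h10.neg, h11⟩

/-- `m n t / n = m t`-type bookkeeping. -/
theorem InIdeal.div_nat {q m n : ℕ} (hn : 0 < n) {x : ℚ} (hx : InIdeal q (m * n) x) :
    InIdeal q m (x / (n : ℚ)) := by
  obtain ⟨t, ht, rfl⟩ := hx
  refine ⟨t, ht, ?_⟩
  have : (n : ℚ) ≠ 0 := by positivity
  push_cast; field_simp

theorem InIdeal.nat_mul {q m : ℕ} (n : ℕ) {x : ℚ} (hx : InIdeal q m x) :
    InIdeal q m ((n : ℚ) * x) := hx.mul_left (natCast_mem_zInv q n)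

theorem natCast_ne_zero_of_pos {n : ℕ} (hn : 0 < n) : (n : ℚ) ≠ 0 := by positivity

theorem conjDel_mem {q m n : ℕ} (hn : 0 < n) {g : SL(2, ℚ)} (hg : g ∈ GamLoc q (m * n)) :
    conjDel (n : ℚ) (natCast_ne_zero_of_pos hn) g ∈ GamLoc q m := by
  obtain ⟨h00, h01, h10, h11⟩ := hg
  refine ⟨h00.of_dvd (Dvd.intro _ rfl), ?_, ?_, h11.of_dvd (Dvd.intro _ rfl)⟩
  · exact (h01.of_dvd (Dvd.intro _ rfl)).nat_mul n
  · exact h10.div_nat hn

theorem conjDel_inv_mem {q m n : ℕ} (hn : 0 < n) {g : SL(2, ℚ)} (hg : g ∈ GamLoc q (m * n)) :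
    conjDel (n : ℚ)⁻¹ (inv_ne_zero (natCast_ne_zero_of_pos hn)) g ∈ GamLoc q m := by
  obtain ⟨h00, h01, h10, h11⟩ := hg
  refine ⟨h00.of_dvd (Dvd.intro _ rfl), ?_, ?_, h11.of_dvd (Dvd.intro _ rfl)⟩
  · have := h01.div_nat hn
    simpa [div_eq_inv_mul] using this
  · have := (h10.of_dvd (Dvd.intro _ rfl) : InIdeal q m (g 1 0)).nat_mul n
    simpa [mul_comm] using this

/-- The twist of a unipotent-killing character by `diag(n, 1)`. -/
theorem UnipKilling.twist {V : Type*} [AddCommGroup V] {q m n : ℕ} (hn : 0 < n)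
    {χ : SL(2, ℚ) → V} (h : UnipKilling q m χ) :
    UnipKilling q (m * n) (fun g => χ (conjDel (n : ℚ) (natCast_ne_zero_of_pos hn) g)) where
  map_mul g k hg hk := by
    simp only [conjDel_mul]
    exact h.map_mul _ _ (conjDel_mem hn hg) (conjDel_mem hn hk)
  unip g hg htr := h.unip _ (conjDel_mem hn hg) (by simpa using htr)

/-- The twist of a unipotent-killing character by `diag(n, 1)⁻¹`. -/
theorem UnipKilling.twist_inv {V : Type*} [AddCommGroup V] {q m n : ℕ} (hn : 0 < n)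
    {χ : SL(2, ℚ) → V} (h : UnipKilling q m χ) :
    UnipKilling q (m * n)
      (fun g => χ (conjDel (n : ℚ)⁻¹ (inv_ne_zero (natCast_ne_zero_of_pos hn)) g)) where
  map_mul g k hg hk := by
    simp only [conjDel_mul]
    exact h.map_mul _ _ (conjDel_inv_mem hn hg) (conjDel_inv_mem hn hk)
  unip g hg htr := h.unip _ (conjDel_inv_mem hn hg) (by simpa using htr)

theorem UnipKilling.of_dvd {V : Type*} [AddCommGroup V] {q m n : ℕ} (hmn : m ∣ n)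
    {χ : SL(2, ℚ) → V} (h : UnipKilling q m χ) : UnipKilling q n χ where
  map_mul g k hg hk := h.map_mul g k (GamLoc_mono hmn hg) (GamLoc_mono hmn hk)
  unip g hg htr := h.unip g (GamLoc_mono hmn hg) htr

theorem Inv.of_dvd {V : Type*} {q m n : ℕ} (hmn : m ∣ n)
    {χ : SL(2, ℚ) → V} (h : Inv q m χ) : Inv q n χ where
  u x hx g hg := h.u x hx g (GamLoc_mono hmn hg)
  l y hy g hg := h.l y hy g (GamLoc_mono hmn hg)
  j g hg := h.j g (GamLoc_mono hmn hg)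

/-- **Step 0, odd level**: `(Cen)` at an odd level is full invariance. -/
theorem inv_of_cen_odd {q p m : ℕ} (hm : Odd m) (hC : Cen q p m) {χ : SL(2, ℚ) → ZMod p}
    (hχ : UnipKilling q m χ) : Inv q m χ where
  u x hx g hg := (hC χ hχ).1 x hx (Or.inl hm) g hg
  l y hy g hg := (hC χ hχ).2.1 y hy (Or.inl hm) g hg
  j g hg := (hC χ hχ).2.2 g hg

/-- **Step 0, the `4m` trick**: from `(Cen)` at levels `m` and `2m` (in the weak form available at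
even levels), a unipotent-killing character on `SL(2, ℤ[1/q], m)` is fully invariant on
`SL(2, ℤ[1/q], 4m)`. -/
theorem inv_four_mul {q p m : ℕ} (hC1 : Cen q p m) (hC2 : Cen q p (m * 2))
    {χ : SL(2, ℚ) → ZMod p} (hχ : UnipKilling q m χ) : Inv q (m * 2 * 2) χ where
  j g hg := (hC1 χ hχ).2.2 g (GamLoc_mono ⟨2 * 2, by ring⟩ hg)
  u x hx g hg := by
    have h2 : (0 : ℕ) < 2 := by norm_num
    have hx2 : InIdeal q 2 (2 * x) := ⟨x, hx, by push_cast; ring⟩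
    have hx2' : (2 * x : ℚ) ∈ zInv q := hx2.mem
    have key := (hC2 _ (hχ.twist_inv h2)).1 (2 * x) hx2' (Or.inr hx2)
      (conjDel ((2 : ℕ) : ℚ) (natCast_ne_zero_of_pos h2) g) (conjDel_mem h2 hg)
    simp only [conjDel_mul, conjDel_inv, conjDel_inv_conjDel, conjDel_uu] at key
    have e : ((2 : ℕ) : ℚ)⁻¹ * (2 * x) = x := by push_cast; field_simp
    rw [e] at key
    exact key
  l y hy g hg := by
    have h2 : (0 : ℕ) < 2 := by norm_num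
    have hy2 : InIdeal q 2 (2 * y) := ⟨y, hy, by push_cast; ring⟩
    have hy2' : (2 * y : ℚ) ∈ zInv q := hy2.mem
    have key := (hC2 _ (hχ.twist h2)).2.1 (2 * y) hy2' (Or.inr hy2)
      (conjDel ((2 : ℕ) : ℚ)⁻¹ (inv_ne_zero (natCast_ne_zero_of_pos h2)) g)
      (conjDel_inv_mem h2 hg)
    simp only [conjDel_mul, conjDel_inv, conjDel_conjDel_inv, conjDel_ll] at key
    have e : (2 * y) / ((2 : ℕ) : ℚ) = y := by push_cast; field_simp
    rw [e] at key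
    exact key

/-- The key matrix identity behind locality:
`u(1) l(n-1) δ_n⁻¹(u(-1) h u(1)) l(1-n) u(-1) = δ_n(l(n-1) h l(1-n))`. -/
theorem locality_identity (n : ℚ) (hn : n ≠ 0) (h : SL(2, ℚ)) :
    uu 1 * (ll (n - 1) * conjDel n⁻¹ (inv_ne_zero hn) (uu (-1) * h * (uu (-1))⁻¹) *
      (ll (n - 1))⁻¹) * (uu 1)⁻¹ = conjDel n hn (ll (n - 1) * h * (ll (n - 1))⁻¹) := by
  apply ext4 <;>
    simp [uu_inv, ll_inv, mul_00, mul_01, mul_10, mul_11] <;> field_simp <;> ring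

/-- **LOCALITY** (Step 2 of #509). Let `ψ` be fully invariant on `SL(2, ℤ[1/q], M)`, and let its
twists by `diag(n,1)^{±1}` be invariant on `SL(2, ℤ[1/q], M n)` (under `u(-1)`, resp. `l(n-1)`).
Then the two twists agree on `SL(2, ℤ[1/q], M n)`. -/
theorem locality {V : Type*} {q M n : ℕ} (hn : 0 < n) (ψ : SL(2, ℚ) → V) (hI : Inv q M ψ)
    (h1 : Inv q (M * n)
      (fun g => ψ (conjDel (n : ℚ)⁻¹ (inv_ne_zero (natCast_ne_zero_of_pos hn)) g)))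
    (h2 : Inv q (M * n) (fun g => ψ (conjDel (n : ℚ) (natCast_ne_zero_of_pos hn) g)))
    {h : SL(2, ℚ)} (hh : h ∈ GamLoc q (M * n)) :
    ψ (conjDel (n : ℚ) (natCast_ne_zero_of_pos hn) h) =
      ψ (conjDel (n : ℚ)⁻¹ (inv_ne_zero (natCast_ne_zero_of_pos hn)) h) := by
  have hn0 := natCast_ne_zero_of_pos (n := n) hn
  have hm1 : (-1 : ℚ) ∈ zInv q := (zInv q).neg_mem (zInv q).one_mem
  have hn1 : ((n : ℚ) - 1) ∈ zInv q := (zInv q).sub_mem (natCast_mem_zInv q n) (zInv q).one_mem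
  -- `g1 = δ_n⁻¹ (u(-1) h u(1))`
  have e1 := h1.u (-1) hm1 h hh
  have hg1 : conjDel (n : ℚ)⁻¹ (inv_ne_zero hn0) (uu (-1) * h * (uu (-1))⁻¹) ∈ GamLoc q M :=
    conjDel_inv_mem hn (conj_uu_mem hm1 hh)
  have e2 := hI.l ((n : ℚ) - 1) hn1 _ hg1
  have hg2 := conj_ll_mem hn1 hg1
  have e3 := hI.u 1 (zInv q).one_mem _ hg2
  rw [locality_identity (n : ℚ) hn0 h] at e3
  have e4 := h2.l ((n : ℚ) - 1) hn1 h hh
  rw [← e4, e3, e2, e1]

/-- LOCALITY in the form used for the symbol: if `δ_n X ∈ SL(2, ℤ[1/q], M n)` then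
`ψ (δ_{n²} X) = ψ X`. -/
theorem locality_sq {V : Type*} {q M n : ℕ} (hn : 0 < n) (ψ : SL(2, ℚ) → V) (hI : Inv q M ψ)
    (h1 : Inv q (M * n)
      (fun g => ψ (conjDel (n : ℚ)⁻¹ (inv_ne_zero (natCast_ne_zero_of_pos hn)) g)))
    (h2 : Inv q (M * n) (fun g => ψ (conjDel (n : ℚ) (natCast_ne_zero_of_pos hn) g)))
    {X : SL(2, ℚ)} (hX : conjDel (n : ℚ) (natCast_ne_zero_of_pos hn) X ∈ GamLoc q (M * n)) :
    ψ (conjDel ((n : ℚ) * n)
      (mul_ne_zero (natCast_ne_zero_of_pos hn) (natCast_ne_zero_of_pos hn)) X) = ψ X := by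
  have := locality hn ψ hI h1 h2 hX
  rw [conjDel_conjDel, conjDel_inv_conjDel] at this
  exact this

end Fermat.Agent.LR.CSPFin
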