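import Mathlib

/-!
# Program M, node D2: the finishing lemma WITHOUT sign / `J`-invariance

In the finishing argument of finding #509 (Steps 3–4) the function
`F : (ℤ/r)ˣ → 𝔽_p`, `F a = s(a, M r)`, satisfies the product formula
`F (a - z) = F a + F ((a - z) / a)` for `z = (M n')²`, i.e. for every nonzero SQUARE `z`.
In #509 the non-square classes are reached through `-1` (`r ≡ 3 mod 4` and `J`-invariance).

This file shows that the relation for SQUARES ALONE already forces `F = 0`
(for every prime `r` with `p ∤ r - 1`, `p` odd): no sign, no `J`, no condition `r ≡ 3 (mod 4)`.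

* `eq_zero_of_sq_shift` : additive version (values in an abelian group killed by `p`);
* `eq_one_of_sq_shift` : multiplicative version.

Proof.  Write `w = τ a`.  The hypothesis says `F (τ a) = F a + F τ` whenever `a (1 - τ)` is a
nonzero square.  (A) If `τ = σ² ≠ 1`, the set of admissible `a` is stable under `a ↦ τ a`, so
walking around the orbit of `τ` gives `(r - 1) • F τ = 0`, hence `F τ = 0`.
(B) If `τ` and `1 - τ` are both non-squares then `a = τ` is admissible: `0 = F (τ²) = 2 F τ`.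
(C) If `τ` is a non-square and `1 - τ` a square, every square `a` is admissible, so `F` is constant
on the non-squares; and SOME non-square `τ'` has `1 - τ'` non-square (otherwise `1 - k τ` would be
a nonzero square for every `k`, by induction on `k`; take `k = τ⁻¹`), so the constant is `0` by (B).
-/

namespace Fermat.Agent.LR.CSPSumTrick

variable {r : ℕ} [Fact r.Prime]

/-- A nonzero square of `ZMod r` is the square of a unit. -/
theorem exists_unit_sq {x : ZMod r} (hx : x ≠ 0) (h : IsSquare x) :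
    ∃ t : (ZMod r)ˣ, x = (t : ZMod r) ^ 2 := by
  obtain ⟨y, hy⟩ := h
  have hy0 : y ≠ 0 := by
    rintro rfl
    exact hx (by simpa using hy)
  exact ⟨Units.mk0 y hy0, by rw [Units.val_mk0, hy, sq]⟩

/-- The product of two non-squares of `ZMod r` is a square. -/
theorem isSquare_mul_of_not_of_not (hr2 : r ≠ 2) {x y : ZMod r}
    (hx : ¬ IsSquare x) (hy : ¬ IsSquare y) : IsSquare (x * y) := by
  have hchar : ringChar (ZMod r) ≠ 2 := by
    rw [ZMod.ringChar_zmod_n]; exact hr2
  have hx0 : x ≠ 0 := by rintro rfl; exact hx IsSquare.zero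
  have hy0 : y ≠ 0 := by rintro rfl; exact hy IsSquare.zero
  have c1 : quadraticChar (ZMod r) x = -1 :=
    (quadraticChar_neg_one_iff_not_isSquare (F := ZMod r)).mpr hx
  have c2 : quadraticChar (ZMod r) y = -1 :=
    (quadraticChar_neg_one_iff_not_isSquare (F := ZMod r)).mpr hy
  have c3 : quadraticChar (ZMod r) (x * y) = 1 := by
    rw [map_mul, c1, c2]; norm_num
  exact (quadraticChar_one_iff_isSquare (F := ZMod r) (mul_ne_zero hx0 hy0)).mp c3

/-- The quotient of two non-squares is a square. -/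
theorem isSquare_div_of_not_of_not (hr2 : r ≠ 2) {x y : ZMod r}
    (hx : ¬ IsSquare x) (hy : ¬ IsSquare y) : IsSquare (x * y⁻¹) := by
  have hy0 : y ≠ 0 := by rintro rfl; exact hy IsSquare.zero
  have hy' : ¬ IsSquare y⁻¹ := by
    intro h
    apply hy
    obtain ⟨z, hz⟩ := h
    refine ⟨z⁻¹, ?_⟩
    rw [← mul_inv, ← hz, inv_inv]
  exact isSquare_mul_of_not_of_not hr2 hx hy'

/-- A non-square times a nonzero square is a non-square. -/
theorem not_isSquare_mul_sq {x : ZMod r} (hx : ¬ IsSquare x) {t : ZMod r} (ht : t ≠ 0) :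
    ¬ IsSquare (x * (t ^ 2)⁻¹) := by
  rintro ⟨z, hz⟩
  apply hx
  refine ⟨z * t, ?_⟩
  have : x = x * (t ^ 2)⁻¹ * t ^ 2 := by
    rw [mul_assoc, inv_mul_cancel₀ (pow_ne_zero 2 ht), mul_one]
  rw [this, hz]; ring

/-- If `τ` is a non-square then some non-square `y` has `1 - y` a non-square. -/
theorem exists_not_isSquare_one_sub {τ : ZMod r} (hτ : ¬ IsSquare τ) :
    ∃ y : ZMod r, ¬ IsSquare y ∧ ¬ IsSquare (1 - y) := by
  by_contra hcon
  push Not at hcon
  have hτ0 : τ ≠ 0 := by rintro rfl; exact hτ IsSquare.zero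
  -- `1 - k τ` is a nonzero square for every `k`
  have key : ∀ k : ℕ, ∃ t : ZMod r, t ≠ 0 ∧ 1 - (k : ZMod r) * τ = t ^ 2 := by
    intro k
    induction k with
    | zero => exact ⟨1, one_ne_zero, by simp⟩
    | succ k ih =>
      obtain ⟨t, ht0, ht⟩ := ih
      have hy : ¬ IsSquare (τ * (t ^ 2)⁻¹) := not_isSquare_mul_sq hτ ht0
      obtain ⟨s, hs⟩ := hcon _ hy
      have hne : (1 : ZMod r) - τ * (t ^ 2)⁻¹ ≠ 0 := by
        intro h0
        apply hy
        have : τ * (t ^ 2)⁻¹ = 1 := by linear_combination -h0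
        rw [this]; exact ⟨1, by simp⟩
      have hs0 : s ≠ 0 := by
        rintro rfl
        apply hne
        simpa using hs
      refine ⟨s * t, mul_ne_zero hs0 ht0, ?_⟩
      have ht2 : t ^ 2 ≠ 0 := pow_ne_zero 2 ht0
      have e1 : (1 - τ * (t ^ 2)⁻¹) * t ^ 2 = t ^ 2 - τ := by
        rw [sub_mul, one_mul, mul_assoc, inv_mul_cancel₀ ht2, mul_one]
      have : (s * t) ^ 2 = t ^ 2 - τ := by
        rw [mul_pow, sq s, ← hs, e1]
      rw [this, ← ht]; push_cast; ring
  obtain ⟨t, ht0, ht⟩ := key (τ⁻¹).val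
  rw [ZMod.natCast_zmod_val, inv_mul_cancel₀ hτ0, sub_self] at ht
  exact ht0 (pow_eq_zero_iff (two_ne_zero) |>.mp ht.symm)

/-- **Finishing lemma without sign.**  `F : (ℤ/r)ˣ → V`, `V` killed by the odd prime `p`,
`p ∤ r - 1`, `F 1 = 0`, and `F (a - t²) = F a + F ((a - t²)/a)` whenever `a`, `t`, `a - t²` are
units.  Then `F = 0`. -/
theorem eq_zero_of_sq_shift {p : ℕ} (hp : p.Prime) (hp2 : p ≠ 2) (hpr : ¬ p ∣ r - 1)
    {V : Type*} [AddCommGroup V] (hV : ∀ v : V, p • v = 0)
    (F : (ZMod r)ˣ → V) (h1 : F 1 = 0)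
    (hF : ∀ a w t : (ZMod r)ˣ, (w : ZMod r) = (a : ZMod r) - (t : ZMod r) ^ 2 →
      F w = F a + F (w * a⁻¹)) :
    ∀ a, F a = 0 := by
  classical
  -- the case `r = 2`
  by_cases hr2 : r = 2
  · subst hr2
    intro a
    have : a = 1 := Subsingleton.elim _ _
    rw [this, h1]
  -- torsion bookkeeping
  have kill : ∀ (v : V) (n : ℕ), Nat.Coprime p n → n • v = 0 → v = 0 := by
    intro v n hcop hn
    have := (gcd_nsmul_eq_zero (a := v) (m := p) (n := n)).mpr ⟨hV v, hn⟩
    rwa [hcop, one_nsmul] at this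
  have hcop1 : Nat.Coprime p (r - 1) := (Nat.Prime.coprime_iff_not_dvd hp).mpr hpr
  have hcop2 : Nat.Coprime p 2 := by
    rw [Nat.coprime_primes hp Nat.prime_two]; exact hp2
  -- the basic relation
  have R : ∀ a τ t : (ZMod r)ˣ, (a : ZMod r) * (1 - (τ : ZMod r)) = (t : ZMod r) ^ 2 →
      F (τ * a) = F a + F τ := by
    intro a τ t h
    have := hF a (τ * a) t (by push_cast; rw [← h]; ring)
    rwa [mul_inv_cancel_right] at this
  -- (A) squares
  have A : ∀ σ : (ZMod r)ˣ, F (σ ^ 2) = 0 := by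
    intro σ
    by_cases hσ : σ ^ 2 = 1
    · rw [hσ, h1]
    set τ := σ ^ 2 with hτ
    have hne : (1 : ZMod r) - (τ : ZMod r) ≠ 0 := by
      intro h0
      apply hσ
      ext
      have : ((τ : (ZMod r)ˣ) : ZMod r) = 1 := by linear_combination -h0
      simpa using this
    set a0 : (ZMod r)ˣ := (Units.mk0 _ hne)⁻¹ with ha0
    have ha0' : (a0 : ZMod r) * (1 - (τ : ZMod r)) = 1 := by
      rw [ha0, Units.val_inv_eq_inv_val, Units.val_mk0, inv_mul_cancel₀ hne]
    have walk : ∀ k : ℕ, F (τ ^ k * a0) = F a0 + k • F τ := by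
      intro k
      induction k with
      | zero => simp
      | succ k ih =>
        have h := R (τ ^ k * a0) τ (σ ^ k) (by
          push_cast
          rw [mul_assoc, ha0', mul_one, hτ]; push_cast; ring)
        rw [pow_succ', mul_assoc, h, ih, succ_nsmul, add_assoc]
    have hfin := walk (r - 1)
    rw [ZMod.units_pow_card_sub_one_eq_one, one_mul] at hfin
    have : (r - 1) • F τ = 0 := by
      have := hfin
      exact (add_eq_left (a := F a0)).mp this.symm
    exact kill _ _ hcop1 this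
  -- squares as a predicate on units
  have A' : ∀ a : (ZMod r)ˣ, IsSquare (a : ZMod r) → F a = 0 := by
    intro a ha
    obtain ⟨t, ht⟩ := exists_unit_sq (Units.ne_zero a) ha
    have : a = t ^ 2 := by ext; rw [ht]; push_cast; rfl
    rw [this]; exact A t
  -- (B) `τ` and `1 - τ` both non-squares
  have B : ∀ τ : (ZMod r)ˣ, ¬ IsSquare (τ : ZMod r) → ¬ IsSquare (1 - (τ : ZMod r)) →
      F τ = 0 := by
    intro τ h1τ h2τ
    have hsq : IsSquare ((τ : ZMod r) * (1 - (τ : ZMod r))) :=
      isSquare_mul_of_not_of_not hr2 h1τ h2τ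
    have hne : (τ : ZMod r) * (1 - (τ : ZMod r)) ≠ 0 := by
      apply mul_ne_zero (Units.ne_zero τ)
      rintro h0
      exact h2τ (h0 ▸ IsSquare.zero)
    obtain ⟨t, ht⟩ := exists_unit_sq hne hsq
    have h := R τ τ t ht
    have h2 : F (τ * τ) = 0 := by
      have := A τ
      rwa [sq] at this
    rw [h2] at h
    have : 2 • F τ = 0 := by rw [two_nsmul]; exact h.symm
    exact kill _ _ hcop2 this
  -- (C) general non-square
  intro τ
  by_cases hτ : IsSquare (τ : ZMod r)
  · exact A' τ hτ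
  by_cases h2τ : IsSquare (1 - (τ : ZMod r))
  · -- `F` is constant on `τ * squares`
    have hne : (1 : ZMod r) - (τ : ZMod r) ≠ 0 := by
      intro h0
      apply hτ
      have : (τ : ZMod r) = 1 := by linear_combination -h0
      rw [this]; exact ⟨1, by simp⟩
    obtain ⟨t0, ht0⟩ := exists_unit_sq hne h2τ
    have const : ∀ s : (ZMod r)ˣ, F (τ * s ^ 2) = F τ := by
      intro s
      have h := R (s ^ 2) τ (s * t0) (by push_cast; rw [ht0]; ring)
      rw [h, A s, zero_add]
    obtain ⟨y, hy1, hy2⟩ := exists_not_isSquare_one_sub hτ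
    have hy0 : y ≠ 0 := by rintro rfl; exact hy1 IsSquare.zero
    set τ' : (ZMod r)ˣ := Units.mk0 y hy0 with hτ'
    have hFτ' : F τ' = 0 := B τ' (by simpa [hτ'] using hy1) (by simpa [hτ'] using hy2)
    -- `τ' = τ * s²`
    have hq : IsSquare (y * (τ : ZMod r)⁻¹) := isSquare_div_of_not_of_not hr2 hy1 hτ
    have hqne : y * (τ : ZMod r)⁻¹ ≠ 0 := mul_ne_zero hy0 (inv_ne_zero (Units.ne_zero τ))
    obtain ⟨s, hs⟩ := exists_unit_sq hqne hq
    have : τ' = τ * s ^ 2 := by
      ext
      push_cast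
      rw [hτ', Units.val_mk0, ← hs, mul_comm y, ← mul_assoc, mul_inv_cancel₀ (Units.ne_zero τ),
        one_mul]
    rw [← const s, ← this, hFτ']
  · exact B τ hτ h2τ

/-- Multiplicative version of `eq_zero_of_sq_shift`. -/
theorem eq_one_of_sq_shift {p : ℕ} (hp : p.Prime) (hp2 : p ≠ 2) (hpr : ¬ p ∣ r - 1)
    {V : Type*} [CommGroup V] (hV : ∀ v : V, v ^ p = 1)
    (F : (ZMod r)ˣ → V) (h1 : F 1 = 1)
    (hF : ∀ a w t : (ZMod r)ˣ, (w : ZMod r) = (a : ZMod r) - (t : ZMod r) ^ 2 →
      F w = F a * F (w * a⁻¹)) :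
    ∀ a, F a = 1 := by
  intro a
  have := eq_zero_of_sq_shift (r := r) hp hp2 hpr (V := Additive V)
    (fun v => by
      show Additive.ofMul ((Additive.toMul v) ^ p) = 0
      rw [hV]; rfl)
    (fun x => Additive.ofMul (F x)) (by rw [h1]; rfl)
    (fun a w t h => by
      show Additive.ofMul (F w) = Additive.ofMul (F a) + Additive.ofMul (F (w * a⁻¹))
      rw [hF a w t h]; rfl) a
  exact this

end Fermat.Agent.LR.CSPSumTrick
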