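/-
Program M (S41), node D2 (finish, helper18), part 2: the Mennicke-type symbol at a prime level.

Setting: `ψ : SL(2, ℚ) → V` additive and unipotent-killing on `Γ(M) = SL(2, ℤ[1/q], M)`, invariant
under conjugation by `u(x)` (`x ∈ ℤ[1/q]`), and LOCAL for all `n = M n'` (`n' ≡ 1 mod Q`):
`ψ (δ_{n²} X) = ψ X` whenever `δ_n X ∈ Γ(M n)` (output of `LR/CSPLocal.lean`).
Result (`psi_eq_zero_of_prime_level`): `ψ g = 0` for every `g ∈ Γ(M)` whose lower-left entry is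
`M r`, `r` a prime not dividing `M Q`, with `p ∤ r - 1` (`V` killed by the odd prime `p`).
The additive function `F` on `(ℤ/r)ˣ` is killed by `CSPSumTrick.eq_zero_of_sq_shift` (helper23).
-/
import Mathlib
import Fermat.Agent.LR.CSPLocal
import Fermat.Agent.LR.CSPBasic
import Fermat.Agent.LR.CSPSumTrick

set_option autoImplicit false
set_option linter.unusedSimpArgs false
set_option linter.unnecessarySeqFocus false
set_option linter.unusedVariables false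
set_option linter.unusedSectionVars false

namespace Fermat.Agent.LR.CSPFin

open Matrix
open scoped MatrixGroups
open Fermat.Agent.LR.Gen

/-! ### Reduction modulo `r` on `ℤ[1/q] ⊂ ℚ` -/

section red

variable {q r : ℕ} (hq : q ≠ 0) (hqr : Nat.Coprime q r)

/-- Reduction modulo `r` of the elements of `ℤ[1/q] ⊂ ℚ` (junk value `0` outside `ℤ[1/q]`). -/
noncomputable def redQ (x : ℚ) : ZMod r := by
  classical
  exact if hx : x ∈ zInv q then CSP.red hq hqr ⟨x, hx⟩ else 0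

theorem redQ_of_mem {x : ℚ} (hx : x ∈ zInv q) : redQ hq hqr x = CSP.red hq hqr ⟨x, hx⟩ := by
  unfold redQ
  exact dif_pos hx

theorem redQ_add {x y : ℚ} (hx : x ∈ zInv q) (hy : y ∈ zInv q) :
    redQ hq hqr (x + y) = redQ hq hqr x + redQ hq hqr y := by
  rw [redQ_of_mem hq hqr hx, redQ_of_mem hq hqr hy, redQ_of_mem hq hqr ((zInv q).add_mem hx hy),
    ← map_add]
  rfl

theorem redQ_mul {x y : ℚ} (hx : x ∈ zInv q) (hy : y ∈ zInv q) :
    redQ hq hqr (x * y) = redQ hq hqr x * redQ hq hqr y := by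
  rw [redQ_of_mem hq hqr hx, redQ_of_mem hq hqr hy, redQ_of_mem hq hqr ((zInv q).mul_mem hx hy),
    ← map_mul]
  rfl

theorem redQ_neg {x : ℚ} (hx : x ∈ zInv q) : redQ hq hqr (-x) = -redQ hq hqr x := by
  rw [redQ_of_mem hq hqr hx, redQ_of_mem hq hqr ((zInv q).neg_mem hx), ← map_neg]
  rfl

theorem redQ_sub {x y : ℚ} (hx : x ∈ zInv q) (hy : y ∈ zInv q) :
    redQ hq hqr (x - y) = redQ hq hqr x - redQ hq hqr y := by
  rw [sub_eq_add_neg, redQ_add hq hqr hx ((zInv q).neg_mem hy), redQ_neg hq hqr hy,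
    sub_eq_add_neg]

theorem redQ_intCast (n : ℤ) : redQ hq hqr (n : ℚ) = (n : ZMod r) := by
  rw [redQ_of_mem hq hqr (intCast_mem_zInv q n), ← CSP.red_intCast hq hqr n]
  congr 1

theorem redQ_natCast (n : ℕ) : redQ hq hqr (n : ℚ) = (n : ZMod r) := by
  have := redQ_intCast hq hqr (n : ℤ)
  simpa using this

theorem redQ_one : redQ hq hqr (1 : ℚ) = 1 := by
  have := redQ_intCast hq hqr 1
  simpa using this

theorem redQ_pow {x : ℚ} (hx : x ∈ zInv q) (k : ℕ) :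
    redQ hq hqr (x ^ k) = redQ hq hqr x ^ k := by
  induction k with
  | zero => simp [redQ_one]
  | succ k ih => rw [pow_succ, redQ_mul hq hqr ((zInv q).pow_mem hx k) hx, ih, pow_succ]

theorem redQ_eq_zero_iff {x : ℚ} (hx : x ∈ zInv q) : redQ hq hqr x = 0 ↔ InIdeal q r x := by
  rw [redQ_of_mem hq hqr hx, CSP.red_eq_zero_iff, CSP.mem_span_natCast_iff]
  rfl

theorem redQ_eq_iff {x y : ℚ} (hx : x ∈ zInv q) (hy : y ∈ zInv q) :
    redQ hq hqr x = redQ hq hqr y ↔ InIdeal q r (x - y) := by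
  rw [← redQ_eq_zero_iff hq hqr ((zInv q).sub_mem hx hy), redQ_sub hq hqr hx hy, sub_eq_zero]

end red

/-! ### Arithmetic in `ℤ[1/q]` -/

/-- CRT for ideals of `ℤ[1/q]`: `M A ∩ r A = M r A` for coprime `M`, `r`. -/
theorem InIdeal.mul_of_coprime {q M r : ℕ} (h : Nat.Coprime M r) {x : ℚ}
    (hM : InIdeal q M x) (hr : InIdeal q r x) : InIdeal q (M * r) x := by
  obtain ⟨s, hs, e1⟩ := hM
  obtain ⟨t, ht, e2⟩ := hr
  have hb : (M : ℤ) * Nat.gcdA M r + (r : ℤ) * Nat.gcdB M r = 1 := by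
    have := Nat.gcd_eq_gcd_ab M r
    rw [h] at this
    exact_mod_cast this.symm
  have hbq : (M : ℚ) * (Nat.gcdA M r : ℚ) + (r : ℚ) * (Nat.gcdB M r : ℚ) = 1 := by
    exact_mod_cast hb
  refine ⟨(Nat.gcdA M r : ℚ) * t + (Nat.gcdB M r : ℚ) * s,
    (zInv q).add_mem ((zInv q).mul_mem (intCast_mem_zInv q _) ht)
      ((zInv q).mul_mem (intCast_mem_zInv q _) hs), ?_⟩
  have : x = x * ((M : ℚ) * (Nat.gcdA M r : ℚ) + (r : ℚ) * (Nat.gcdB M r : ℚ)) := by
    rw [hbq, mul_one]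
  rw [this]
  push_cast
  have e3 : x * ((M : ℚ) * (Nat.gcdA M r : ℚ) + (r : ℚ) * (Nat.gcdB M r : ℚ)) =
      (M : ℚ) * (Nat.gcdA M r : ℚ) * x + (r : ℚ) * (Nat.gcdB M r : ℚ) * x := by ring
  rw [e3]
  nth_rewrite 1 [e2]
  nth_rewrite 1 [e1]
  ring

/-- CRT for integers: a lift of `w ∈ ℤ/r` which is `≡ 1 (mod M)`. -/
theorem exists_int_crt {M r : ℕ} (h : Nat.Coprime M r) (w : ZMod r) :
    ∃ x0 : ℤ, (M : ℤ) ∣ x0 - 1 ∧ (x0 : ZMod r) = w := by
  obtain ⟨w0, rfl⟩ := ZMod.intCast_surjective w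
  have hb : (M : ℤ) * Nat.gcdA M r + (r : ℤ) * Nat.gcdB M r = 1 := by
    have := Nat.gcd_eq_gcd_ab M r
    rw [h] at this
    exact_mod_cast this.symm
  refine ⟨1 + (M : ℤ) * Nat.gcdA M r * (w0 - 1), ⟨Nat.gcdA M r * (w0 - 1), by ring⟩, ?_⟩
  have e : (1 + (M : ℤ) * Nat.gcdA M r * (w0 - 1) : ℤ) =
      w0 - (r : ℤ) * (Nat.gcdB M r * (w0 - 1)) := by
    linear_combination (w0 - 1) * hb
  rw [e]
  push_cast
  simp

/-! ### The symbol: dependence on the first column only -/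

section symbol

variable {V : Type*} [AddCommGroup V] {q M : ℕ} {ψ : SL(2, ℚ) → V}

/-- **T1**: `ψ` depends only on the first column. -/
theorem psi_eq_of_col (hψ : UnipKilling q M ψ) {g g' : SL(2, ℚ)} (hg : g ∈ GamLoc q M)
    (hg' : g' ∈ GamLoc q M) (h0 : g' 0 0 = g 0 0) (h1 : g' 1 0 = g 1 0) : ψ g' = ψ g := by
  have hX : g⁻¹ * g' ∈ GamLoc q M := mul_mem (inv_mem hg) hg'
  have e : g' = g * (g⁻¹ * g') := by group
  rw [e, hψ.map_mul g _ hg hX, hψ.unip _ hX, add_zero]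
  rw [mul_00, mul_11, inv_00, inv_01, inv_10, inv_11]
  linear_combination (g 1 1 - g' 1 1) * h0 + (g' 0 1 - g 0 1) * h1 + det_eq g + det_eq g'

/-- **T1'**: `ψ` depends only on `c` and on `a` modulo `c ℤ[1/q]`. -/
theorem psi_eq_of_cong (hψ : UnipKilling q M ψ)
    (hu : ∀ x ∈ zInv q, ∀ g ∈ GamLoc q M, ψ (uu x * g * (uu x)⁻¹) = ψ g)
    {g g' : SL(2, ℚ)} (hg : g ∈ GamLoc q M) (hg' : g' ∈ GamLoc q M) (h1 : g' 1 0 = g 1 0)
    {x : ℚ} (hx : x ∈ zInv q) (h0 : g' 0 0 = g 0 0 + x * g 1 0) : ψ g' = ψ g := by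
  rw [← hu x hx g hg]
  exact psi_eq_of_col hψ (conj_uu_mem hx hg) hg' (by rw [conj_uu_00, h0])
    (by rw [conj_uu_10, h1])

/-- An element of `Γ(M)` with prescribed unimodular first column. -/
theorem exists_mem_GamLoc_col {a c x y : ℚ} (ha : InIdeal q M (a - 1)) (hc : InIdeal q M c)
    (hx : x ∈ zInv q) (hy : y ∈ zInv q) (h : a * x + c * y = 1) :
    ∃ g ∈ GamLoc q M, g 0 0 = a ∧ g 1 0 = c := by
  have hcm : c ∈ zInv q := hc.mem
  refine ⟨mk4 a (y * (a - 1)) c (x + y * c) (by linear_combination h), ⟨?_, ?_, ?_, ?_⟩,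
    rfl, rfl⟩
  · simpa using ha
  · simpa using ha.mul_left hy
  · simpa using hc
  · have e : x + y * c - 1 = -((a - 1) * x) := by linear_combination h
    simp only [mk4_11]
    rw [e]
    exact (ha.mul_right hx).neg

end symbol

/-! ### The prime level `c = M r` -/

section prime

variable {V : Type*} [AddCommGroup V] {q M r : ℕ} (hq : q ≠ 0) (hqr : Nat.Coprime q r)
  (hMr : Nat.Coprime M r)

theorem inIdeal_natCast_mul (q M r : ℕ) : InIdeal q M (((M * r : ℕ) : ℚ)) :=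
  ⟨(r : ℚ), natCast_mem_zInv q r, by push_cast; ring⟩

theorem redQ_level : redQ hq hqr (((M * r : ℕ) : ℚ)) = 0 := by
  rw [redQ_natCast]; push_cast; simp

include hMr in
/-- An element of `Γ(M)` with first column `(a, M r)`, for `a ≡ 1 (mod M)` a unit modulo `r`. -/
theorem exists_mem_GamLoc_of_unit {a : ℚ} (ha : InIdeal q M (a - 1))
    (hu : IsUnit (redQ hq hqr a)) :
    ∃ g ∈ GamLoc q M, g 0 0 = a ∧ g 1 0 = ((M * r : ℕ) : ℚ) := by
  have ham : a ∈ zInv q := ha.sub_one_mem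
  obtain ⟨u, hu⟩ := hu
  obtain ⟨x0, hx0M, hx0r⟩ := exists_int_crt hMr ((u⁻¹ : (ZMod r)ˣ) : ZMod r)
  have hx0m : (x0 : ℚ) ∈ zInv q := intCast_mem_zInv q x0
  have h1 : InIdeal q M (a * x0 - 1) := by
    have e : a * x0 - 1 = (a - 1) * x0 + ((x0 : ℚ) - 1) := by ring
    rw [e]
    refine (ha.mul_right hx0m).add ?_
    obtain ⟨k, hk⟩ := hx0M
    refine ⟨(k : ℚ), intCast_mem_zInv q k, ?_⟩
    have : ((x0 - 1 : ℤ) : ℚ) = (((M : ℤ) * k : ℤ) : ℚ) := by rw [hk]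
    push_cast at this
    exact this
  have h2 : InIdeal q r (a * x0 - 1) := by
    rw [← redQ_eq_zero_iff hq hqr ((zInv q).sub_mem ((zInv q).mul_mem ham hx0m) (zInv q).one_mem),
      redQ_sub hq hqr ((zInv q).mul_mem ham hx0m) (zInv q).one_mem, redQ_mul hq hqr ham hx0m,
      redQ_intCast, redQ_one, hx0r, ← hu, Units.mul_inv, sub_self]
  obtain ⟨t, ht, e⟩ := h1.mul_of_coprime hMr h2
  refine exists_mem_GamLoc_col ha (inIdeal_natCast_mul q M r) hx0m ((zInv q).neg_mem ht) ?_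
  linear_combination e

variable [Fact r.Prime]

include hMr in
/-- A representative in `Γ(M)`, with lower-left entry `M r`, of a unit class modulo `r`. -/
theorem exists_rep (u : (ZMod r)ˣ) :
    ∃ g ∈ GamLoc q M, g 1 0 = ((M * r : ℕ) : ℚ) ∧ redQ hq hqr (g 0 0) = u := by
  obtain ⟨a0, ha0M, ha0r⟩ := exists_int_crt hMr (u : ZMod r)
  have ha : InIdeal q M ((a0 : ℚ) - 1) := by
    obtain ⟨k, hk⟩ := ha0M
    refine ⟨(k : ℚ), intCast_mem_zInv q k, ?_⟩
    have : ((a0 - 1 : ℤ) : ℚ) = (((M : ℤ) * k : ℤ) : ℚ) := by rw [hk]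
    push_cast at this
    exact this
  have hu : IsUnit (redQ hq hqr (a0 : ℚ)) := by
    rw [redQ_intCast, ha0r]; exact u.isUnit
  obtain ⟨g, hg, h0, h1⟩ := exists_mem_GamLoc_of_unit hq hqr hMr ha hu
  exact ⟨g, hg, h1, by rw [h0, redQ_intCast, ha0r]⟩

/-- The symbol `F(u) = ψ [u ; M r]` on `(ℤ/r)ˣ`. -/
noncomputable def symF (ψ : SL(2, ℚ) → V) (u : (ZMod r)ˣ) : V :=
  ψ (Classical.choose (exists_rep hq hqr hMr u))

variable {ψ : SL(2, ℚ) → V} (hψ : UnipKilling q M ψ)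
  (hu : ∀ x ∈ zInv q, ∀ g ∈ GamLoc q M, ψ (uu x * g * (uu x)⁻¹) = ψ g)

include hψ hu in
/-- `ψ g = F(a mod r)` for every `g ∈ Γ(M)` with lower-left entry `M r`. -/
theorem psi_eq_symF {g : SL(2, ℚ)} (hg : g ∈ GamLoc q M) (hc : g 1 0 = ((M * r : ℕ) : ℚ))
    (u : (ZMod r)ˣ) (hgu : redQ hq hqr (g 0 0) = u) : ψ g = symF hq hqr hMr ψ u := by
  obtain ⟨hg0, hc0, hu0⟩ := Classical.choose_spec (exists_rep hq hqr hMr u)
  set g0 := Classical.choose (exists_rep hq hqr hMr u) with hg0def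
  have hM : InIdeal q M (g 0 0 - g0 0 0) := by
    have e : g 0 0 - g0 0 0 = (g 0 0 - 1) - (g0 0 0 - 1) := by ring
    rw [e]; exact hg.1.sub hg0.1
  have hr : InIdeal q r (g 0 0 - g0 0 0) := by
    rw [← redQ_eq_iff hq hqr (GamLoc.mem_00 hg) (GamLoc.mem_00 hg0), hgu, hu0]
  obtain ⟨t, ht, e⟩ := hM.mul_of_coprime hMr hr
  show ψ g = ψ g0
  refine psi_eq_of_cong hψ hu hg0 hg (by rw [hc, hc0]) ht ?_
  rw [hc0]
  linear_combination e

include hψ hu in
theorem symF_one : symF hq hqr hMr ψ 1 = 0 := by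
  have hl : ll (((M * r : ℕ) : ℚ)) ∈ GamLoc q M := by
    refine ⟨?_, ?_, ?_, ?_⟩
    · simp [InIdeal.zero]
    · simp [InIdeal.zero]
    · rw [ll_10]; exact inIdeal_natCast_mul q M r
    · simp [InIdeal.zero]
  rw [← psi_eq_symF hq hqr hMr hψ hu hl (by simp) 1 (by simp [redQ_one])]
  exact hψ.unip _ hl (by simp; norm_num)

/-- The locality hypothesis consumed by the symbol calculus: for all `n = M n'`, `n' ≡ 1 (mod Q)`,
`ψ (δ_{n²} X) = ψ X` whenever `δ_n X ∈ Γ(M n)`. -/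
def LocalAt (q M Q : ℕ) (ψ : SL(2, ℚ) → V) : Prop :=
  ∀ n' : ℕ, ∀ hn' : 0 < M * n', n' ≡ 1 [MOD Q] → ∀ X : SL(2, ℚ),
    conjDel ((M * n' : ℕ) : ℚ) (natCast_ne_zero_of_pos hn') X ∈ GamLoc q (M * (M * n')) →
    ψ (conjDel (((M * n' : ℕ) : ℚ) * ((M * n' : ℕ) : ℚ))
      (mul_ne_zero (natCast_ne_zero_of_pos hn') (natCast_ne_zero_of_pos hn')) X) = ψ X

include hψ hu in
/-- **The product formula for squares** (Steps 3(i)–(ii) of #509, sign-free form):
`F(a - t²) = F(a) + F((a - t²)/a)`. -/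
theorem symF_shift {Q : ℕ} (hM : 0 < M) (hQr : Nat.Coprime Q r) (hloc : LocalAt q M Q ψ)
    (a w t : (ZMod r)ˣ) (hw : (w : ZMod r) = (a : ZMod r) - (t : ZMod r) ^ 2) :
    symF hq hqr hMr ψ w = symF hq hqr hMr ψ a + symF hq hqr hMr ψ (w * a⁻¹) := by
  have hr : r.Prime := Fact.out
  -- the integer `n'`
  have hMu : IsUnit ((M : ℕ) : ZMod r) := (ZMod.isUnit_iff_coprime M r).mpr hMr
  obtain ⟨Mu, hMu'⟩ := hMu
  obtain ⟨n', hn1, hn2⟩ := Nat.chineseRemainder hQr 1 ((↑Mu⁻¹ * (t : ZMod r) : ZMod r)).val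
  have hn't : ((M * n' : ℕ) : ZMod r) = t := by
    have : ((n' : ℕ) : ZMod r) = ↑Mu⁻¹ * (t : ZMod r) := by
      have := (ZMod.natCast_eq_natCast_iff n' _ r).mpr hn2
      rw [this, ZMod.natCast_zmod_val]
    rw [Nat.cast_mul, this, ← hMu', ← mul_assoc, Units.mul_inv, one_mul]
  have hn'pos : 0 < n' := by
    rcases Nat.eq_zero_or_pos n' with h | h
    · exfalso
      rw [h, Nat.mul_zero, Nat.cast_zero] at hn't
      exact t.ne_zero hn't.symm
    · exact h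
  have hnpos : 0 < M * n' := Nat.mul_pos hM hn'pos
  set n : ℕ := M * n' with hndef
  have hn0 : (n : ℚ) ≠ 0 := natCast_ne_zero_of_pos hnpos
  have hnm : (n : ℚ) ∈ zInv q := natCast_mem_zInv q n
  -- the representative of `a`
  obtain ⟨hg1, hc1, hu1⟩ := Classical.choose_spec (exists_rep hq hqr hMr a)
  set g1 := Classical.choose (exists_rep hq hqr hMr a) with hg1def
  have hFa : symF hq hqr hMr ψ a = ψ g1 := rfl
  have ha1 := GamLoc.mem_00 hg1
  have hb1 := GamLoc.mem_01 hg1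
  have hd1 := GamLoc.mem_11 hg1
  have hcm : (((M * r : ℕ) : ℚ)) ∈ zInv q := natCast_mem_zInv q _
  -- `red d₁ = a⁻¹`
  have hd1a : (a : ZMod r) * redQ hq hqr (g1 1 1) = 1 := by
    have hdet := det_eq g1
    have h2 : redQ hq hqr (g1 0 0 * g1 1 1 - g1 0 1 * g1 1 0) = 1 := by
      rw [hdet, redQ_one]
    rw [redQ_sub hq hqr ((zInv q).mul_mem ha1 hd1) ((zInv q).mul_mem hb1 (GamLoc.mem_10 hg1)),
      redQ_mul hq hqr ha1 hd1, redQ_mul hq hqr hb1 (GamLoc.mem_10 hg1), hc1, redQ_level, mul_zero,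
      sub_zero, hu1] at h2
    exact h2
  have hd1a' : redQ hq hqr (g1 1 1) = ((a⁻¹ : (ZMod r)ˣ) : ZMod r) := by
    have := congrArg (fun z => ((a⁻¹ : (ZMod r)ˣ) : ZMod r) * z) hd1a
    simp only [← mul_assoc, Units.inv_mul, one_mul, mul_one] at this
    exact this
  -- the new first entry
  set z : ℚ := (n : ℚ) * (n : ℚ) with hzdef
  have hzm : z ∈ zInv q := (zInv q).mul_mem hnm hnm
  have hzred : redQ hq hqr z = (t : ZMod r) ^ 2 := by
    rw [hzdef, redQ_mul hq hqr hnm hnm, redQ_natCast, hn't, sq]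
  have hzM : InIdeal q M z := ⟨(n' : ℚ) * n, (zInv q).mul_mem (natCast_mem_zInv q n') hnm, by
    rw [hzdef, hndef]; push_cast; ring⟩
  have hanew : InIdeal q M (g1 0 0 - z - 1) := by
    have e : g1 0 0 - z - 1 = (g1 0 0 - 1) - z := by ring
    rw [e]; exact hg1.1.sub hzM
  have hanewred : redQ hq hqr (g1 0 0 - z) = (w : ZMod r) := by
    rw [redQ_sub hq hqr ha1 hzm, hu1, hzred, hw]
  obtain ⟨g2, hg2, h20, h21⟩ := exists_mem_GamLoc_of_unit hq hqr hMr hanew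
    (by rw [hanewred]; exact w.isUnit)
  have hFw : ψ g2 = symF hq hqr hMr ψ w :=
    psi_eq_symF hq hqr hMr hψ hu hg2 h21 w (by rw [h20, hanewred])
  -- `X = g₁⁻¹ g₂`
  set X := g1⁻¹ * g2 with hXdef
  have hX : X ∈ GamLoc q M := mul_mem (inv_mem hg1) hg2
  have hsplit : ψ g2 = ψ g1 + ψ X := by
    have e : g2 = g1 * X := by rw [hXdef]; group
    rw [e, hψ.map_mul g1 X hg1 hX]
  have hX00 : X 0 0 = 1 - g1 1 1 * z := by
    rw [hXdef, mul_00, inv_00, inv_01, h20, h21, ← hc1]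
    linear_combination det_eq g1
  have hX10 : X 1 0 = ((M * r : ℕ) : ℚ) * z := by
    rw [hXdef, mul_10, inv_10, inv_11, h20, h21, hc1]
    ring
  have hX01 := hX.2.1
  have hX11m := GamLoc.mem_11 hX
  -- `δ_n X ∈ Γ(M n)`
  have h00 : InIdeal q (M * n) (X 0 0 - 1) := by
    rw [hX00]
    refine ⟨-(g1 1 1 * n'), (zInv q).neg_mem ((zInv q).mul_mem hd1 (natCast_mem_zInv q n')), ?_⟩
    rw [hzdef, hndef]; push_cast; ring
  have h10 : InIdeal q (M * n) (X 1 0) := by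
    rw [hX10]
    refine ⟨(r : ℚ) * n, (zInv q).mul_mem (natCast_mem_zInv q r) hnm, ?_⟩
    rw [hzdef]; push_cast; ring
  have hmem : conjDel (n : ℚ) hn0 X ∈ GamLoc q (M * n) := by
    refine ⟨?_, ?_, ?_, ?_⟩
    · rw [conjDel_00]; exact h00
    · rw [conjDel_01]
      obtain ⟨s, hs, e⟩ := hX01
      exact ⟨s, hs, by rw [e]; push_cast; ring⟩
    · rw [conjDel_10, hX10]
      refine ⟨(r : ℚ), natCast_mem_zInv q r, ?_⟩
      rw [hzdef]; push_cast; field_simp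
    · rw [conjDel_11]
      have e : X 1 1 - 1 = -((X 0 0 - 1) * X 1 1) + X 0 1 * X 1 0 := by
        linear_combination (det_eq X)
      rw [e]
      exact ((h00.mul_right hX11m).neg).add (h10.mul_left hX01.mem)
  -- locality
  have hL := hloc n' hnpos hn1 X hmem
  set X' := conjDel ((n : ℚ) * (n : ℚ)) (mul_ne_zero hn0 hn0) X with hX'def
  have hX' : X' ∈ GamLoc q M := by
    have := conjDel_mem (m := M) hnpos hmem
    rw [conjDel_conjDel] at this
    exact this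
  have hX'10 : X' 1 0 = ((M * r : ℕ) : ℚ) := by
    rw [hX'def, conjDel_10, hX10, hzdef]
    field_simp
  have hX'00 : redQ hq hqr (X' 0 0) = ((w * a⁻¹ : (ZMod r)ˣ) : ZMod r) := by
    rw [hX'def, conjDel_00, hX00, redQ_sub hq hqr (zInv q).one_mem ((zInv q).mul_mem hd1 hzm),
      redQ_one, redQ_mul hq hqr hd1 hzm, hd1a', hzred, Units.val_mul, hw]
    have : (1 : ZMod r) = ((a⁻¹ : (ZMod r)ˣ) : ZMod r) * (a : ZMod r) := by
      rw [Units.inv_mul]
    nth_rewrite 1 [this]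
    ring
  have hFwa : ψ X' = symF hq hqr hMr ψ (w * a⁻¹) :=
    psi_eq_symF hq hqr hMr hψ hu hX' hX'10 _ hX'00
  rw [← hFw, hsplit, hFa, ← hFwa, hL]

include hq hqr hMr hψ hu in
/-- **Vanishing at a prime level**: `ψ g = 0` for `g ∈ Γ(M)` with lower-left entry `M r`. -/
theorem psi_eq_zero_of_prime_level {Q p : ℕ} (hp : p.Prime) (hp2 : p ≠ 2) (hpr : ¬ p ∣ r - 1)
    (hV : ∀ v : V, p • v = 0) (hM : 0 < M) (hQr : Nat.Coprime Q r) (hloc : LocalAt q M Q ψ)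
    {g : SL(2, ℚ)} (hg : g ∈ GamLoc q M) (hc : g 1 0 = ((M * r : ℕ) : ℚ)) : ψ g = 0 := by
  have hF := CSPSumTrick.eq_zero_of_sq_shift hp hp2 hpr hV (symF hq hqr hMr ψ)
    (symF_one hq hqr hMr hψ hu) (symF_shift hq hqr hMr hψ hu hM hQr hloc)
  have ha := GamLoc.mem_00 hg
  have hb := GamLoc.mem_01 hg
  have hd := GamLoc.mem_11 hg
  have h1 : redQ hq hqr (g 0 0) * redQ hq hqr (g 1 1) = 1 := by
    have hdet := det_eq g
    have h2 : redQ hq hqr (g 0 0 * g 1 1 - g 0 1 * g 1 0) = 1 := by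
      rw [hdet, redQ_one]
    rw [redQ_sub hq hqr ((zInv q).mul_mem ha hd) ((zInv q).mul_mem hb (GamLoc.mem_10 hg)),
      redQ_mul hq hqr ha hd, redQ_mul hq hqr hb (GamLoc.mem_10 hg), hc, redQ_level, mul_zero,
      sub_zero] at h2
    exact h2
  rw [psi_eq_symF hq hqr hMr hψ hu hg hc (Units.mkOfMulEqOne _ _ h1) rfl]
  exact hF _

end prime

end Fermat.Agent.LR.CSPFin
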