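/-
Program M (S41), node D2 (finish, helper18), part 3: the Dirichlet kill (Step 5 of #509).

`ψ : SL(2, ℚ) → V` (`V` killed by the odd prime `p`), additive and unipotent-killing on
`Γ(M) = SL(2, ℤ[1/q], M)` with `p ∣ M`, invariant under `u(x)`, and local (`LocalAt q M Q ψ`).
Then `ψ = 0` on `Γ(M)`: left multiplication by `l(M y)` moves the lower-left entry `c` of `g` to
`M r`, `r` a large prime with `p ∤ r - 1` (Dirichlet in the class of `c / M` modulo the numerator of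
`a`), where `LR/CSPSymbol.lean` applies.
-/
import Mathlib
import Fermat.Agent.LR.CSPSymbol

set_option autoImplicit false
set_option linter.unusedSimpArgs false
set_option linter.unnecessarySeqFocus false
set_option linter.unusedVariables false
set_option linter.unusedSectionVars false

namespace Fermat.Agent.LR.CSPFin

open Matrix
open scoped MatrixGroups
open Fermat.Agent.LR.Gen

/-- Dirichlet + CRT: a large prime `r ≡ c (mod A1)` with `p ∤ r - 1`. -/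
theorem exists_prime_cong {p : ℕ} (hp : p.Prime) (hp2 : p ≠ 2) {A1 c : ℕ} (hA1 : 0 < A1)
    (hcop : Nat.Coprime c A1) (hpA : Nat.Coprime p A1) (B : ℕ) :
    ∃ r : ℕ, r.Prime ∧ B < r ∧ r ≡ c [MOD A1] ∧ ¬ p ∣ r - 1 := by
  obtain ⟨ρ, hρ1, hρ2⟩ := Nat.chineseRemainder hpA.symm c (p - 1)
  have hp3 : 3 ≤ p := by
    have := hp.two_le
    omega
  have hρA : Nat.Coprime ρ A1 := by
    have := hρ1.gcd_eq
    unfold Nat.Coprime
    rw [this]; exact hcop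
  have hρp : Nat.Coprime ρ p := by
    have h1 := hρ2.gcd_eq
    unfold Nat.Coprime
    rw [h1]
    have : Nat.Coprime (p - 1) p := by
      have h2 : Nat.Coprime p (p - 1) := by
        have := Nat.coprime_self_sub_right (n := p) (m := 1) (by omega)
        simpa using this
      exact h2.symm
    exact this
  have hmod : A1 * p ≠ 0 := Nat.mul_ne_zero hA1.ne' hp.ne_zero
  obtain ⟨r, hrB, hr, hrρ⟩ := Nat.forall_exists_prime_gt_and_modEq B hmod
    (Nat.Coprime.mul_right hρA hρp)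
  refine ⟨r, hr, hrB, ?_, ?_⟩
  · exact (hrρ.of_dvd (Dvd.intro _ rfl)).trans hρ1
  · intro hdvd
    have h1 : r ≡ p - 1 [MOD p] := (hrρ.of_dvd (Dvd.intro_left _ rfl)).trans hρ2
    have h2 : r ≡ 1 [MOD p] := by
      have hr1 : 1 ≤ r := hr.one_lt.le
      exact ((Nat.modEq_iff_dvd' hr1).mpr hdvd).symm
    have h3 : p - 1 ≡ 1 [MOD p] := h1.symm.trans h2
    unfold Nat.ModEq at h3
    rw [Nat.mod_eq_of_lt (by omega), Nat.mod_eq_of_lt (by omega)] at h3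
    omega

/-- Every nonzero element of `ℤ[1/q]` is a unit of `ℤ[1/q]` times a positive integer prime to
`q`. -/
theorem exists_unit_mul_nat {q : ℕ} (hq : q.Prime) {a : ℚ} (ha : a ∈ zInv q) (ha0 : a ≠ 0) :
    ∃ (A1 : ℕ) (ε δ : ℚ), 0 < A1 ∧ Nat.Coprime q A1 ∧ ε ∈ zInv q ∧ δ ∈ zInv q ∧ ε * δ = 1 ∧
      a = (A1 : ℚ) * ε := by
  obtain ⟨k, m, hm⟩ := mem_zInv.mp ha
  have hq0 : (q : ℚ) ≠ 0 := by exact_mod_cast hq.ne_zero
  have hm0 : m ≠ 0 := by
    rintro rfl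
    have : a * (q : ℚ) ^ k = 0 := by rw [hm]; simp
    rcases mul_eq_zero.mp this with h | h
    · exact ha0 h
    · exact pow_ne_zero k hq0 h
  obtain ⟨j, A1, hA1, hmA⟩ := Nat.exists_eq_pow_mul_and_not_dvd (Int.natAbs_ne_zero.mpr hm0) q
    hq.ne_one
  have hA1pos : 0 < A1 := by
    rcases Nat.eq_zero_or_pos A1 with h | h
    · exfalso; rw [h] at hA1; exact hA1 (dvd_zero q)
    · exact h
  have hqm : (q : ℚ) ∈ zInv q := natCast_mem_zInv q q
  have hqi : ((q : ℚ))⁻¹ ∈ zInv q := inv_mem_zInv q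
  have hσ : (m.sign : ℚ) * (m.sign : ℚ) = 1 := by
    rcases lt_trichotomy m 0 with h | h | h
    · rw [Int.sign_eq_neg_one_of_neg h]; norm_num
    · exact absurd h hm0
    · rw [Int.sign_eq_one_of_pos h]; norm_num
  have hmeq : (m : ℚ) = (m.sign : ℚ) * ((q : ℚ) ^ j * (A1 : ℚ)) := by
    have h1 : m = m.sign * (m.natAbs : ℤ) := (Int.sign_mul_natAbs m).symm
    have h2 : ((m.natAbs : ℤ) : ℚ) = (q : ℚ) ^ j * (A1 : ℚ) := by
      rw [hmA]; push_cast; ring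
    calc (m : ℚ) = ((m.sign * (m.natAbs : ℤ) : ℤ) : ℚ) := by rw [← h1]
      _ = (m.sign : ℚ) * ((q : ℚ) ^ j * (A1 : ℚ)) := by rw [Int.cast_mul, h2]
  refine ⟨A1, (m.sign : ℚ) * (q : ℚ) ^ j * ((q : ℚ))⁻¹ ^ k,
    (m.sign : ℚ) * (q : ℚ) ^ k * ((q : ℚ))⁻¹ ^ j, hA1pos,
    (Nat.Prime.coprime_iff_not_dvd hq).mpr hA1, ?_, ?_, ?_, ?_⟩
  · exact (zInv q).mul_mem ((zInv q).mul_mem (intCast_mem_zInv q _) ((zInv q).pow_mem hqm j))
      ((zInv q).pow_mem hqi k)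
  · exact (zInv q).mul_mem ((zInv q).mul_mem (intCast_mem_zInv q _) ((zInv q).pow_mem hqm k))
      ((zInv q).pow_mem hqi j)
  · have e1 : (q : ℚ) ^ j * ((q : ℚ))⁻¹ ^ j = 1 := by
      rw [← mul_pow, mul_inv_cancel₀ hq0, one_pow]
    have e2 : (q : ℚ) ^ k * ((q : ℚ))⁻¹ ^ k = 1 := by
      rw [← mul_pow, mul_inv_cancel₀ hq0, one_pow]
    calc (m.sign : ℚ) * (q : ℚ) ^ j * ((q : ℚ))⁻¹ ^ k *
          ((m.sign : ℚ) * (q : ℚ) ^ k * ((q : ℚ))⁻¹ ^ j)
        = ((m.sign : ℚ) * (m.sign : ℚ)) * ((q : ℚ) ^ j * ((q : ℚ))⁻¹ ^ j) *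
          ((q : ℚ) ^ k * ((q : ℚ))⁻¹ ^ k) := by ring
      _ = 1 := by rw [hσ, e1, e2]; norm_num
  · have e2 : (q : ℚ) ^ k * ((q : ℚ))⁻¹ ^ k = 1 := by
      rw [← mul_pow, mul_inv_cancel₀ hq0, one_pow]
    calc a = a * ((q : ℚ) ^ k * ((q : ℚ))⁻¹ ^ k) := by rw [e2, mul_one]
      _ = (a * (q : ℚ) ^ k) * ((q : ℚ))⁻¹ ^ k := by ring
      _ = (m : ℚ) * ((q : ℚ))⁻¹ ^ k := by rw [hm]
      _ = (A1 : ℚ) * ((m.sign : ℚ) * (q : ℚ) ^ j * ((q : ℚ))⁻¹ ^ k) := by rw [hmeq]; ring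

/-- `1 ∉ p ℤ[1/q]` for a prime `p ≠ q`. -/
theorem not_inIdeal_one {q p : ℕ} (hq : q.Prime) (hp : p.Prime) (hpq : p ≠ q) :
    ¬ InIdeal q p 1 := by
  intro h
  have hqp : Nat.Coprime q p := (Nat.coprime_primes hq hp).mpr (Ne.symm hpq)
  have h1 := (redQ_eq_zero_iff hq.ne_zero hqp (zInv q).one_mem).mpr h
  rw [redQ_one] at h1
  haveI : Fact p.Prime := ⟨hp⟩
  exact one_ne_zero h1

/-- **The Dirichlet kill** (Step 5 of #509). -/
theorem psi_eq_zero {V : Type*} [AddCommGroup V] {q p M Q : ℕ} (hq : q.Prime) (hp : p.Prime)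
    (hp2 : p ≠ 2) (hpq : p ≠ q) (hM : 0 < M) (hpM : p ∣ M) (hQpos : 0 < Q)
    (hV : ∀ v : V, p • v = 0) {ψ : SL(2, ℚ) → V} (hψ : UnipKilling q M ψ)
    (hu : ∀ x ∈ zInv q, ∀ g ∈ GamLoc q M, ψ (uu x * g * (uu x)⁻¹) = ψ g)
    (hloc : LocalAt q M Q ψ) : ∀ g ∈ GamLoc q M, ψ g = 0 := by
  intro g hg
  have ha := GamLoc.mem_00 hg
  have hb := GamLoc.mem_01 hg
  have hcm := GamLoc.mem_10 hg
  have hd := GamLoc.mem_11 hg
  obtain ⟨c', hc', hcc'⟩ := hg.2.2.1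
  -- `a ≠ 0`
  have ha0 : g 0 0 ≠ 0 := by
    intro h0
    have h1 : InIdeal q p (g 0 0 - 1) := hg.1.of_dvd hpM
    rw [h0] at h1
    have h2 : InIdeal q p 1 := by
      have := h1.neg
      simpa using this
    exact not_inIdeal_one hq hp hpq h2
  obtain ⟨A1, ε, δ, hA1, hqA, hε, hδ, hεδ, haε⟩ := exists_unit_mul_nat hq ha ha0
  haveI : NeZero A1 := ⟨hA1.ne'⟩
  have hq0 := hq.ne_zero
  -- `a ∈ A1 ℤ[1/q]`
  have haA : InIdeal q A1 (g 0 0) := ⟨ε, hε, haε⟩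
  have hared : redQ hq0 hqA (g 0 0) = 0 := (redQ_eq_zero_iff hq0 hqA ha).mpr haA
  -- `p ∤ A1`
  have hpA : Nat.Coprime p A1 := by
    rw [Nat.Prime.coprime_iff_not_dvd hp]
    intro hdvd
    have h1 : InIdeal q p (g 0 0) := haA.of_dvd hdvd
    have h2 : InIdeal q p (g 0 0 - 1) := hg.1.of_dvd hpM
    have h3 : InIdeal q p 1 := by
      have := h1.sub h2
      simpa using this
    exact not_inIdeal_one hq hp hpq h3
  -- `c'` is a unit modulo `A1`
  have hunit : IsUnit (redQ hq0 hqA c') := by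
    have hdet := det_eq g
    have h2 : redQ hq0 hqA (g 0 0 * g 1 1 - g 0 1 * g 1 0) = 1 := by
      rw [hdet, redQ_one]
    rw [redQ_sub hq0 hqA ((zInv q).mul_mem ha hd) ((zInv q).mul_mem hb hcm),
      redQ_mul hq0 hqA ha hd, redQ_mul hq0 hqA hb hcm, hared, zero_mul, zero_sub, hcc',
      redQ_mul hq0 hqA (natCast_mem_zInv q M) hc'] at h2
    have h3 : redQ hq0 hqA c' * (-(redQ hq0 hqA (g 0 1) * redQ hq0 hqA (M : ℚ))) = 1 := by
      rw [← h2]; ring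
    exact IsUnit.of_mul_eq_one _ h3
  set c'' : ℕ := (redQ hq0 hqA c').val with hc''def
  have hc''cast : ((c'' : ℕ) : ZMod A1) = redQ hq0 hqA c' := ZMod.natCast_zmod_val _
  have hcop : Nat.Coprime c'' A1 := by
    rw [← ZMod.isUnit_iff_coprime, hc''cast]; exact hunit
  -- Dirichlet
  obtain ⟨r, hr, hrB, hrc, hpr⟩ := exists_prime_cong hp hp2 hA1 hcop hpA (M + q + Q)
  haveI : Fact r.Prime := ⟨hr⟩
  have hqr : Nat.Coprime q r := by
    rw [Nat.coprime_primes hq hr]; omega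
  have hMr : Nat.Coprime M r := by
    have : Nat.Coprime r M := by
      rw [Nat.Prime.coprime_iff_not_dvd hr]
      intro hdvd
      have := Nat.le_of_dvd hM hdvd
      omega
    exact this.symm
  have hQr : Nat.Coprime Q r := by
    have : Nat.Coprime r Q := by
      rw [Nat.Prime.coprime_iff_not_dvd hr]
      intro hdvd
      have := Nat.le_of_dvd hQpos hdvd
      omega
    exact this.symm
  -- `r - c' ∈ A1 ℤ[1/q] = a ℤ[1/q]`
  have hrc' : InIdeal q A1 ((r : ℚ) - c') := by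
    rw [← redQ_eq_zero_iff hq0 hqA ((zInv q).sub_mem (natCast_mem_zInv q r) hc'),
      redQ_sub hq0 hqA (natCast_mem_zInv q r) hc', redQ_natCast, ← hc''cast, sub_eq_zero]
    exact (ZMod.natCast_eq_natCast_iff r c'' A1).mpr hrc
  obtain ⟨t, ht, hte⟩ := hrc'
  set y : ℚ := t * δ with hydef
  have hy : y ∈ zInv q := (zInv q).mul_mem ht hδ
  have hya : (r : ℚ) - c' = y * g 0 0 := by
    rw [hte, hydef, haε]
    calc (A1 : ℚ) * t = (A1 : ℚ) * t * (ε * δ) := by rw [hεδ, mul_one]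
      _ = t * δ * ((A1 : ℚ) * ε) := by ring
  -- the move `g ↦ l(M y) g`
  have hl : ll ((M : ℚ) * y) ∈ GamLoc q M := by
    refine ⟨?_, ?_, ?_, ?_⟩
    · simp [InIdeal.zero]
    · simp [InIdeal.zero]
    · rw [ll_10]; exact ⟨y, hy, rfl⟩
    · simp [InIdeal.zero]
  have hg' : ll ((M : ℚ) * y) * g ∈ GamLoc q M := mul_mem hl hg
  have hc : (ll ((M : ℚ) * y) * g) 1 0 = ((M * r : ℕ) : ℚ) := by
    rw [mul_10, ll_10, ll_11, hcc']
    push_cast
    linear_combination (-(M : ℚ)) * hya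
  have h0 := psi_eq_zero_of_prime_level hq0 hqr hMr hψ hu hp hp2 hpr hV hM hQr hloc hg' hc
  rw [hψ.map_mul _ _ hl hg, hψ.unip _ hl (by simp; norm_num), zero_add] at h0
  exact h0

end Fermat.Agent.LR.CSPFin
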