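/-
Program M, node D2, layer L7 (helper19): the case `q = 2` of Theorem (Cen).
Over `R = ℤ[1/2]`, for every odd level `m`: all of `SL(2, R)` centralises the principal congruence
subgroup `Γ(m)` modulo `EC (m) = E (m) · [Γ(m), Γ(m)]` (`cenMod_zInv_two_eq_top`), and the
conjugation `J` by `diag(-1, 1)` fixes `Γ(m)` modulo `EC (m)` (`claimJ_zInv_two`).

Proof (finding #496, paragraph `q = 2`, simplified): with `φ(m) = 2^e Φo`, `Φo` odd, the twists by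
`s_A = -4^Φo` and `s_B = -2^Φo` are trivial on `Γ(m)` modulo `EC (m)`:
normalise `a(g)` to `π / 2^k` with `π` a prime `≡ 5` resp. `3` modulo `8`
(`CSPArithTwo.exists_prime_four_pow_eq_neg_one`, `exists_prime_two_pow_eq_neg_one`), then
`s_A t² = -4^k₀ ≡ 1 (mod π)` resp. `s_B t² = -2^k₀ ≡ 1 (mod π)` with `t` a power of `2`,
`t ≡ 1 (mod m)`, and Lemma T' applies.  Since `4^Φo + 1` and `2^Φo + 1` are coprime, the generalised
Corollary U (`CorUGen.cenMod_eq_top_of_two`) gives (Cen); `J = (twist by s_A) ∘ (conjugation by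
diag(2^Φo, 2^-Φo))` is then trivial too.
-/
import Fermat.Agent.LR.SL2Ring
import Fermat.Agent.LR.CSPBasic
import Fermat.Agent.LR.CSPClaimJ
import Fermat.Agent.LR.CSPArithTwo
import Fermat.Agent.LR.CSPCorUGen

set_option autoImplicit false

namespace Fermat.Agent.LR.CSPQ2

open Fermat.Agent.LR.SL2R Fermat.Agent.LR.CSPClaimJ
open scoped MatrixGroups commutatorElement

variable {R : Type*} [CommRing R]

/-- the elements fixed by the twist `conjDiag s` modulo `EC I` -/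
def sFix (s : Rˣ) (I : Ideal R) : Subgroup SL(2, R) where
  carrier := {g | conjDiag s g * g⁻¹ ∈ EC I}
  one_mem' := by simp
  mul_mem' := by
    intro g h hg hh
    have h1 : conjDiag s (g * h) * (g * h)⁻¹ =
        (conjDiag s g * g⁻¹) * (g * (conjDiag s h * h⁻¹) * g⁻¹) := by
      rw [map_mul]; group
    show conjDiag s (g * h) * (g * h)⁻¹ ∈ EC I
    rw [h1]
    exact mul_mem hg ((inferInstance : (EC I).Normal).conj_mem _ hh g)
  inv_mem' := by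
    intro g hg
    have h1 : conjDiag s g⁻¹ * g⁻¹⁻¹ = (g⁻¹ * (conjDiag s g * g⁻¹) * g⁻¹⁻¹)⁻¹ := by
      rw [map_inv]; group
    show conjDiag s g⁻¹ * g⁻¹⁻¹ ∈ EC I
    rw [h1]
    exact inv_mem ((inferInstance : (EC I).Normal).conj_mem _ hg g⁻¹)

theorem mem_sFix {s : Rˣ} {I : Ideal R} {g : SL(2, R)} :
    g ∈ sFix s I ↔ conjDiag s g * g⁻¹ ∈ EC I := Iff.rfl

theorem E_le_sFix (s : Rˣ) (I : Ideal R) : E I ≤ sFix s I := by
  intro g hg
  exact E_le_EC I (mul_mem (conjDiag_mem_E _ hg) (inv_mem hg))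

/-- **Lemma A** for a general twist: if `s₀ t² = 1 + a(g) e` for a unit `t ≡ 1 (mod I)`, then the
twist by `s₀` fixes `g` modulo `EC I`. -/
theorem mem_sFix_of_unit {I : Ideal R} {g : SL(2, R)} (hg : g ∈ Gam I) (s₀ t : Rˣ)
    (ht : (t : R) - 1 ∈ I) (e : R) (hs : (s₀ : R) * (t : R) ^ 2 = 1 + g 0 0 * e) :
    g ∈ sFix s₀ I := by
  have hs' : ((s₀ * t ^ 2 : Rˣ) : R) = 1 + g 0 0 * e := by
    rw [← hs]; simp
  have h1 := conjDiag_mul_inv_mem_E hg e (s₀ * t ^ 2) hs'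
  rw [CSPClaimJ.conjDiag_mul, CSPClaimJ.conjDiag_sq] at h1
  have hH : CSPClaimJ.hR t ∈ Gam I := hR_mem_Gam ht
  have h2 : g * (CSPClaimJ.hR t * g * (CSPClaimJ.hR t)⁻¹)⁻¹ ∈ ⁅Gam I, Gam I⁆ := by
    have : g * (CSPClaimJ.hR t * g * (CSPClaimJ.hR t)⁻¹)⁻¹ = ⁅g, CSPClaimJ.hR t⁆ := by
      rw [commutatorElement_def]; group
    rw [this]
    exact Subgroup.commutator_mem_commutator hg hH
  have h3 := commutator_le_EC I (conjDiag_mem_commutator s₀ h2)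
  rw [mem_sFix]
  have h4 : conjDiag s₀ g * g⁻¹ =
      conjDiag s₀ (g * (CSPClaimJ.hR t * g * (CSPClaimJ.hR t)⁻¹)⁻¹) *
        (conjDiag s₀ (CSPClaimJ.hR t * g * (CSPClaimJ.hR t)⁻¹) * g⁻¹) := by
    rw [map_mul, map_inv]; group
  rw [h4]
  exact mul_mem h3 (E_le_EC I h1)

/-- The arithmetic input needed at level `m` for the twist `s₀`: every residue class `A` modulo an
odd `M` prime to it contains a `π` with `s₀ t² ≡ 1 (mod π)` for some unit `t ≡ 1 (mod m)`. -/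
def Oracle (m : ℕ) (s₀ : Rˣ) : Prop :=
  ∀ (M : ℕ) (A : ℤ), M ≠ 0 → Nat.Coprime M 2 → IsCoprime A (M : ℤ) →
    ∃ (π : ℕ) (t : Rˣ) (n₁ : ℤ), (π : ℤ) ≡ A [ZMOD (M : ℤ)] ∧
      (t : R) - 1 ∈ Ideal.span {(m : R)} ∧ (s₀ : R) * (t : R) ^ 2 = 1 - (π : R) * (n₁ : R)

/-- core case: lower left entry nonzero -/
theorem mem_sFix_of_ne_zero [CharZero R] (qu : Rˣ) (hqu : (qu : R) = ((2 : ℕ) : R))
    (hrep : ∀ r : R, ∃ k : ℕ, ∃ n : ℤ, r * ((2 : ℕ) : R) ^ k = (n : R))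
    (m : ℕ) (hm : m ≠ 0) (hm2 : Nat.Coprime m 2) (s₀ : Rˣ) (hor : Oracle m s₀)
    {g : SL(2, R)} (hg : g ∈ Gam (Ideal.span {(m : R)})) (k : ℕ) (A B C D : ℤ)
    (hA : g 0 0 * ((2 : ℕ) : R) ^ k = A) (hB : g 0 1 * ((2 : ℕ) : R) ^ k = B)
    (hC : g 1 0 * ((2 : ℕ) : R) ^ k = C) (hD : g 1 1 * ((2 : ℕ) : R) ^ k = D) (hC0 : C ≠ 0) :
    g ∈ sFix s₀ (Ideal.span {(m : R)}) := by
  set I : Ideal R := Ideal.span {(m : R)} with hI
  have hq : (2 : ℕ).Prime := Nat.prime_two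
  have hcast : Function.Injective ((↑) : ℤ → R) := Int.cast_injective
  set qi : R := ((qu⁻¹ : Rˣ) : R) with hqi
  have hqqi : ((2 : ℕ) : R) * qi = 1 := by rw [← hqu, hqi]; simp
  have hqqik : ∀ j : ℕ, ((2 : ℕ) : R) ^ j * qi ^ j = 1 := fun j => by
    rw [← mul_pow, hqqi, one_pow]
  have hdet : A * D - B * C = ((2 : ℕ) : ℤ) ^ (2 * k) := by
    apply hcast
    push_cast
    rw [← hA, ← hB, ← hC, ← hD]
    have := det_eq g
    push_cast
    linear_combination ((2 : R) ^ (2 * k)) * this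
  obtain ⟨v, C₂, hC₂, hqC₂⟩ := exists_eq_pow_mul_not_dvd hq hC0
  have hC₂0 : C₂ ≠ 0 := by
    rintro rfl
    exact hC0 (by rw [hC₂]; simp)
  have hmq : Nat.Coprime m 2 := hm2
  -- coprimality of `A` and `m`
  have hAm : IsCoprime A (m : ℤ) := by
    rw [mem_Gam] at hg
    obtain ⟨r, hr⟩ := Ideal.mem_span_singleton'.mp hg.1
    obtain ⟨j, n, hn⟩ := hrep r
    have h1 : A * ((2 : ℕ) : ℤ) ^ j = ((2 : ℕ) : ℤ) ^ (k + j) + n * ((2 : ℕ) : ℤ) ^ k * m := by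
      apply hcast
      push_cast
      rw [← hA, ← hn]
      push_cast
      linear_combination ((2 : R) ^ (k + j)) * hr.symm
    have hqm : IsCoprime (((2 : ℕ) : ℤ) ^ (k + j)) (m : ℤ) := by
      apply IsCoprime.pow_left
      exact Nat.isCoprime_iff_coprime.mpr hmq.symm
    have h2 : IsCoprime (A * ((2 : ℕ) : ℤ) ^ j) (m : ℤ) := by
      rw [h1]
      exact hqm.add_mul_right_left _
    exact h2.of_mul_left_left
  have hqC₂' : IsCoprime (((2 : ℕ) : ℤ) ^ (2 * k)) C₂ := by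
    apply IsCoprime.pow_left
    rw [Int.isCoprime_iff_gcd_eq_one, Int.gcd_eq_natAbs, Int.natAbs_natCast]
    exact (Nat.Prime.coprime_iff_not_dvd hq).mpr hqC₂
  have hAC₂ : IsCoprime A C₂ := by
    obtain ⟨u, w, huw⟩ := hqC₂'
    refine ⟨u * D, w - u * B * ((2 : ℕ) : ℤ) ^ v, ?_⟩
    rw [← huw, ← hdet, hC₂]
    ring
  set M : ℕ := m * C₂.natAbs with hM
  have hM0 : M ≠ 0 := Nat.mul_ne_zero hm (Int.natAbs_ne_zero.mpr hC₂0)
  have hM2 : Nat.Coprime M 2 := by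
    apply Nat.Coprime.mul_left hm2
    exact ((Nat.Prime.coprime_iff_not_dvd hq).mpr hqC₂).symm
  have hAC₂' : IsCoprime A (C₂.natAbs : ℤ) := by
    rcases Int.natAbs_eq C₂ with h | h
    · rw [← h]; exact hAC₂
    · have : (C₂.natAbs : ℤ) = -C₂ := by omega
      rw [this]; exact hAC₂.neg_right
  have hAM : IsCoprime A (M : ℤ) := by
    rw [hM, Nat.cast_mul]
    exact hAm.mul_right hAC₂'
  obtain ⟨π, t, n₁, hπA, htI, hst⟩ := hor M A hM0 hM2 hAM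
  have hdvd1 : (m : ℤ) * C₂ ∣ (π : ℤ) - A := by
    have h1 : (M : ℤ) ∣ (π : ℤ) - A := hπA.symm.dvd
    have h2 : (m : ℤ) * C₂ ∣ (M : ℤ) := by
      rw [hM, Nat.cast_mul]
      exact mul_dvd_mul_left _ (Int.dvd_natAbs.mpr dvd_rfl)
    exact h2.trans h1
  obtain ⟨n₀, hn₀⟩ := hdvd1
  set x : R := (n₀ : R) * qi ^ v with hx
  have hmxI : (m : R) * x ∈ I := Ideal.mem_span_singleton'.mpr ⟨x, mul_comm _ _⟩
  set g' : SL(2, R) := uR ((m : R) * x) * g with hg'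
  have hg'mem : g' ∈ Gam I := mul_mem (uR_mem_Gam hmxI) hg
  have hg'00 : g' 0 0 = (π : R) * qi ^ k := by
    have h1 : g' 0 0 = g 0 0 + (m : R) * x * g 1 0 := by
      rw [hg', SL2R.mul_apply']; simp
    have hπR : (π : R) = (A : R) + (m : R) * (C₂ : R) * (n₀ : R) := by
      have : (π : ℤ) = A + (m : ℤ) * C₂ * n₀ := by linarith
      have h := congrArg (fun z : ℤ => (z : R)) this
      simpa using h
    have hCR : (C : R) = ((2 : ℕ) : R) ^ v * (C₂ : R) := by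
      have h := congrArg (fun z : ℤ => (z : R)) hC₂
      simpa using h
    have ha : g 0 0 = (A : R) * qi ^ k := by
      rw [← hA, mul_assoc, hqqik, mul_one]
    have hc : g 1 0 = (C : R) * qi ^ k := by
      rw [← hC, mul_assoc, hqqik, mul_one]
    rw [h1, ha, hc, hπR, hCR, hx]
    linear_combination ((m : R) * (n₀ : R) * (C₂ : R) * qi ^ k) * (hqqik v)
  have hs : (s₀ : R) * (t : R) ^ 2 = 1 + g' 0 0 * (-(n₁ : R) * ((2 : ℕ) : R) ^ k) := by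
    rw [hg'00, hst]
    linear_combination ((π : R) * (n₁ : R)) * (hqqik k)
  have hg'J : g' ∈ sFix s₀ I := mem_sFix_of_unit hg'mem s₀ t htI _ hs
  have hu : uR ((m : R) * x) ∈ sFix s₀ I := E_le_sFix s₀ I (uR_mem_E hmxI)
  have : g = (uR ((m : R) * x))⁻¹ * g' := by rw [hg']; group
  rw [this]
  exact mul_mem (inv_mem hu) hg'J

/-- the twist by `s₀` is trivial on `Γ(m)` modulo `EC (m)` as soon as the arithmetic oracle exists -/
theorem Gam_le_sFix [CharZero R] (qu : Rˣ) (hqu : (qu : R) = ((2 : ℕ) : R))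
    (hrep : ∀ r : R, ∃ k : ℕ, ∃ n : ℤ, r * ((2 : ℕ) : R) ^ k = (n : R))
    (m : ℕ) (hm : m ≠ 0) (hm2 : Nat.Coprime m 2) (s₀ : Rˣ) (hor : Oracle m s₀) :
    Gam (Ideal.span {(m : R)}) ≤ sFix s₀ (Ideal.span {(m : R)}) := by
  intro g hg
  set I : Ideal R := Ideal.span {(m : R)} with hI
  obtain ⟨k, A, B, C, D, hA, hB, hC, hD⟩ :=
    exists_common_den 2 hrep (g 0 0) (g 0 1) (g 1 0) (g 1 1)
  by_cases hC0 : C = 0
  · -- `c = 0`: replace `g` by `l(m) g`, whose lower left entry is `m a ≠ 0`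
    have hcast : Function.Injective ((↑) : ℤ → R) := Int.cast_injective
    have hdet : A * D - B * C = ((2 : ℕ) : ℤ) ^ (2 * k) := by
      apply hcast
      push_cast
      rw [← hA, ← hB, ← hC, ← hD]
      have := det_eq g
      push_cast
      linear_combination ((2 : R) ^ (2 * k)) * this
    have hA0 : A ≠ 0 := by
      rintro rfl
      rw [hC0] at hdet
      have : ((2 : ℕ) : ℤ) ^ (2 * k) ≠ 0 := pow_ne_zero _ (by norm_num)
      apply this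
      rw [← hdet]; ring
    have hmI : (m : R) ∈ I := Ideal.subset_span rfl
    set g₁ : SL(2, R) := lR (m : R) * g with hg₁
    have hg₁mem : g₁ ∈ Gam I := mul_mem (lR_mem_Gam hmI) hg
    have h00 : g₁ 0 0 = g 0 0 := by rw [hg₁, SL2R.mul_apply']; simp
    have h01 : g₁ 0 1 = g 0 1 := by rw [hg₁, SL2R.mul_apply']; simp
    have h10 : g₁ 1 0 = (m : R) * g 0 0 + g 1 0 := by rw [hg₁, SL2R.mul_apply']; simp
    have h11 : g₁ 1 1 = (m : R) * g 0 1 + g 1 1 := by rw [hg₁, SL2R.mul_apply']; simp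
    have hg₁J : g₁ ∈ sFix s₀ I := by
      refine mem_sFix_of_ne_zero qu hqu hrep m hm hm2 s₀ hor hg₁mem k A B ((m : ℤ) * A + C)
        ((m : ℤ) * B + D) ?_ ?_ ?_ ?_ ?_
      · rw [h00, hA]
      · rw [h01, hB]
      · rw [h10]; push_cast; rw [← hA, ← hC]; ring
      · rw [h11]; push_cast; rw [← hB, ← hD]; ring
      · rw [hC0, add_zero]
        exact mul_ne_zero (by exact_mod_cast hm) hA0
    have hl : lR (m : R) ∈ sFix s₀ I := E_le_sFix s₀ I (lR_mem_E hmI)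
    have : g = (lR (m : R))⁻¹ * g₁ := by rw [hg₁]; group
    rw [this]
    exact mul_mem (inv_mem hl) hg₁J
  · exact mem_sFix_of_ne_zero qu hqu hrep m hm hm2 s₀ hor hg k A B C D hA hB hC hD hC0


/-! ### The two oracles (Dirichlet, `π ≡ 5, 3 (mod 8)`) -/

/-- the prime `π` divides `2 ^ k + 1` when `2 ^ k = -1` in `ZMod π` -/
theorem int_dvd_two_pow_add_one {π k : ℕ} (h : (2 : ZMod π) ^ k = -1) :
    (π : ℤ) ∣ (2 : ℤ) ^ k + 1 := by
  rw [← ZMod.intCast_zmod_eq_zero_iff_dvd]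
  push_cast
  rw [h]; ring

/-- `2 ^ k ≡ 1 (mod m)` when `φ(m) ∣ k`, `m` odd -/
theorem int_dvd_two_pow_sub_one {m k : ℕ} (hm2 : Nat.Coprime m 2) (hk : Nat.totient m ∣ k) :
    (m : ℤ) ∣ (2 : ℤ) ^ k - 1 := by
  have := int_dvd_pow_sub_one (q := 2) hm2 hk
  simpa using this

/-- from `k₀ ≡ Φo (mod 2^(e+1) Φo)`: `k₀ = Φo + 2 (2^e Φo) j` -/
theorem exists_eq_add_of_modEq {k₀ e Φo : ℕ} (hΦo : Odd Φo)
    (hk : k₀ ≡ Φo [MOD 2 ^ (e + 1) * Φo]) : ∃ j : ℕ, k₀ = Φo + 2 * ((2 ^ e * Φo) * j) := by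
  have hpos : 0 < Φo := hΦo.pos
  have hL : Φo < 2 ^ (e + 1) * Φo := by
    have : 2 ≤ 2 ^ (e + 1) := by
      calc 2 = 2 ^ 1 := by norm_num
        _ ≤ 2 ^ (e + 1) := Nat.pow_le_pow_right (by norm_num) (by omega)
    nlinarith
  have h1 : k₀ % (2 ^ (e + 1) * Φo) = Φo := by
    have := hk
    unfold Nat.ModEq at this
    rwa [Nat.mod_eq_of_lt hL] at this
  refine ⟨k₀ / (2 ^ (e + 1) * Φo), ?_⟩
  have h2 := Nat.div_add_mod k₀ (2 ^ (e + 1) * Φo)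
  rw [h1] at h2
  generalize k₀ / (2 ^ (e + 1) * Φo) = d at h2 ⊢
  rw [← h2, pow_succ]
  ring

/-- **Oracle A**: the twist by `-4^Φo`. -/
theorem oracleA (qu : Rˣ) (hqu : (qu : R) = ((2 : ℕ) : R)) (m : ℕ) (hm2 : Nat.Coprime m 2)
    (e Φo : ℕ) (hΦ : Nat.totient m = 2 ^ e * Φo) (hΦo : Odd Φo) :
    Oracle m ((-1 : Rˣ) * (qu ^ Φo) ^ 2) := by
  intro M A hM0 hM2 hAM
  obtain ⟨π, k₀, -, -, hπA, hk, -, hpow⟩ :=
    CSPArithTwo.exists_prime_four_pow_eq_neg_one M A e Φo 0 hM0 hM2 hAM hΦo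
  obtain ⟨j, hj⟩ := exists_eq_add_of_modEq hΦo hk
  have hdiv : Nat.totient m ∣ 2 * ((2 ^ e * Φo) * j) := by
    rw [hΦ]; exact ⟨2 * j, by ring⟩
  obtain ⟨n₂, hn₂⟩ := int_dvd_two_pow_sub_one hm2 hdiv
  obtain ⟨n₁, hn₁⟩ := int_dvd_two_pow_add_one hpow
  have h2 : ((2 : ℕ) : R) = 2 := by norm_num
  refine ⟨π, qu ^ (2 * ((2 ^ e * Φo) * j)), n₁, hπA, ?_, ?_⟩
  · rw [Units.val_pow_eq_pow_val, hqu, h2]
    refine Ideal.mem_span_singleton'.mpr ⟨(n₂ : R), ?_⟩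
    have h := congrArg (fun z : ℤ => (z : R)) hn₂
    simp only [Int.cast_sub, Int.cast_pow, Int.cast_ofNat, Int.cast_one, Int.cast_mul,
      Int.cast_natCast] at h
    rw [h]; ring
  · have h := congrArg (fun z : ℤ => (z : R)) hn₁
    simp only [Int.cast_add, Int.cast_pow, Int.cast_ofNat, Int.cast_one, Int.cast_mul,
      Int.cast_natCast] at h
    simp only [Units.val_mul, Units.val_neg, Units.val_one, Units.val_pow_eq_pow_val, hqu, h2]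
    have e1 : ((2 : R) ^ Φo) ^ 2 * ((2 : R) ^ (2 * ((2 ^ e * Φo) * j))) ^ 2 = (2 : R) ^ (2 * k₀) := by
      rw [hj, ← pow_mul, ← pow_mul, ← pow_add]; congr 1; ring
    linear_combination (-1 : R) * e1 - h

/-- **Oracle B**: the twist by `-2^Φo`. -/
theorem oracleB (qu : Rˣ) (hqu : (qu : R) = ((2 : ℕ) : R)) (m : ℕ) (hm2 : Nat.Coprime m 2)
    (e Φo : ℕ) (hΦ : Nat.totient m = 2 ^ e * Φo) (hΦo : Odd Φo) :
    Oracle m ((-1 : Rˣ) * qu ^ Φo) := by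
  intro M A hM0 hM2 hAM
  obtain ⟨π, k₀, -, -, hπA, hk, -, hpow⟩ :=
    CSPArithTwo.exists_prime_two_pow_eq_neg_one M A e Φo 0 hM0 hM2 hAM hΦo
  obtain ⟨j, hj⟩ := exists_eq_add_of_modEq hΦo hk
  have hdiv : Nat.totient m ∣ (2 ^ e * Φo) * j := by
    rw [hΦ]; exact ⟨j, rfl⟩
  obtain ⟨n₂, hn₂⟩ := int_dvd_two_pow_sub_one hm2 hdiv
  obtain ⟨n₁, hn₁⟩ := int_dvd_two_pow_add_one hpow
  have h2 : ((2 : ℕ) : R) = 2 := by norm_num
  refine ⟨π, qu ^ ((2 ^ e * Φo) * j), n₁, hπA, ?_, ?_⟩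
  · rw [Units.val_pow_eq_pow_val, hqu, h2]
    refine Ideal.mem_span_singleton'.mpr ⟨(n₂ : R), ?_⟩
    have h := congrArg (fun z : ℤ => (z : R)) hn₂
    simp only [Int.cast_sub, Int.cast_pow, Int.cast_ofNat, Int.cast_one, Int.cast_mul,
      Int.cast_natCast] at h
    rw [h]; ring
  · have h := congrArg (fun z : ℤ => (z : R)) hn₁
    simp only [Int.cast_add, Int.cast_pow, Int.cast_ofNat, Int.cast_one, Int.cast_mul,
      Int.cast_natCast] at h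
    simp only [Units.val_mul, Units.val_neg, Units.val_one, Units.val_pow_eq_pow_val, hqu, h2]
    have e1 : (2 : R) ^ Φo * ((2 : R) ^ ((2 ^ e * Φo) * j)) ^ 2 = (2 : R) ^ k₀ := by
      rw [hj, ← pow_mul, ← pow_add]; congr 1; ring
    linear_combination (-1 : R) * e1 - h

/-- `φ(m) = 2^e Φo` with `Φo` odd -/
theorem exists_totient_eq (m : ℕ) (hm : m ≠ 0) :
    ∃ e Φo : ℕ, Nat.totient m = 2 ^ e * Φo ∧ Odd Φo := by
  have h0 : Nat.totient m ≠ 0 := (Nat.totient_pos.mpr (Nat.pos_of_ne_zero hm)).ne'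
  obtain ⟨e, Φo, hΦo, h⟩ := Nat.exists_eq_pow_mul_and_not_dvd h0 2 (by norm_num)
  exact ⟨e, Φo, h, Nat.odd_iff.mpr (Nat.two_dvd_ne_zero.mp hΦo)⟩

/-! ### (Cen) and Claim J for `ℤ[1/2]` -/

section zInv

open Fermat.Agent.LR.Gen

/-- **Theorem (Cen) for `ℤ[1/2]`** at every odd level `m`. -/
theorem cenMod_zInv_two_eq_top (m : ℕ) (hm : m ≠ 0) (hm2 : Nat.Coprime m 2) :
    cenMod (Ideal.span {(m : ↥(zInv 2))}) = ⊤ := by
  obtain ⟨e, Φo, hΦ, hΦo⟩ := exists_totient_eq m hm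
  set qu := qUnit 2 (by norm_num) with hqudef
  have hqu : ((qu : (↥(zInv 2))ˣ) : ↥(zInv 2)) = ((2 : ℕ) : ↥(zInv 2)) := qUnit_val 2 (by norm_num)
  have hA := Gam_le_sFix qu hqu (zInv_rep 2) m hm hm2 _ (oracleA qu hqu m hm2 e Φo hΦ hΦo)
  have hB := Gam_le_sFix qu hqu (zInv_rep 2) m hm hm2 _ (oracleB qu hqu m hm2 e Φo hΦ hΦo)
  obtain ⟨α, β, hαβ⟩ := CSPArithTwo.bezout_four_pow_two_pow Φo hΦo.pos.ne'
  refine CorUGen.cenMod_eq_top_of_two _ _ (fun g hg => hA hg) (fun g hg => hB hg) ?_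
    (CSP.closure_elem_eq_top (by norm_num))
  intro x
  refine ⟨-(α : ↥(zInv 2)) * x, -(β : ↥(zInv 2)) * x, ?_⟩
  have h2 : ((2 : ℕ) : ↥(zInv 2)) = 2 := by norm_num
  have h := congrArg (fun z : ℤ => (z : ↥(zInv 2))) hαβ
  simp only [Int.cast_add, Int.cast_pow, Int.cast_ofNat, Int.cast_one, Int.cast_mul] at h
  have hx : x - ((((((-1 : (↥(zInv 2))ˣ) * (qu ^ Φo) ^ 2 : (↥(zInv 2))ˣ)) : ↥(zInv 2)) - 1) *
      (-(α : ↥(zInv 2)) * x) + (((((-1 : (↥(zInv 2))ˣ) * qu ^ Φo : (↥(zInv 2))ˣ)) : ↥(zInv 2)) - 1) *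
      (-(β : ↥(zInv 2)) * x)) = 0 := by
    simp only [Units.val_mul, Units.val_neg, Units.val_one, Units.val_pow_eq_pow_val, hqu, h2]
    have e4 : ((2 : ↥(zInv 2)) ^ Φo) ^ 2 = (4 : ↥(zInv 2)) ^ Φo := by
      rw [← pow_mul, mul_comm, pow_mul]; norm_num
    rw [e4]
    linear_combination (-x) * h
  rw [hx]
  exact Ideal.zero_mem _

/-- **Claim J for `ℤ[1/2]`** at every odd level `m`. -/
theorem claimJ_zInv_two (m : ℕ) (hm : m ≠ 0) (hm2 : Nat.Coprime m 2) :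
    ∀ g ∈ Gam (Ideal.span {(m : ↥(zInv 2))}),
      conjDiag (-1) g * g⁻¹ ∈ EC (Ideal.span {(m : ↥(zInv 2))}) := by
  obtain ⟨e, Φo, hΦ, hΦo⟩ := exists_totient_eq m hm
  set qu := qUnit 2 (by norm_num) with hqudef
  have hqu : ((qu : (↥(zInv 2))ˣ) : ↥(zInv 2)) = ((2 : ℕ) : ↥(zInv 2)) := qUnit_val 2 (by norm_num)
  have hA := Gam_le_sFix qu hqu (zInv_rep 2) m hm hm2 _ (oracleA qu hqu m hm2 e Φo hΦ hΦo)
  exact CorUGen.conjDiag_mul_inv_mem_EC_of_sq (cenMod_zInv_two_eq_top m hm hm2) (-1) (qu ^ Φo)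
    (fun g hg => hA hg)

end zInv

end Fermat.Agent.LR.CSPQ2
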