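/-
Program M, node D2 (helper20): element-level dictionary between the generic layer
(`SL2R` over `CSP.A q = ℤ[1/q]`) and the `SL(2, ℚ)` language of `LR/CSPDefs.lean` (`CSPFin`).
-/
import Mathlib
import Fermat.Agent.LR.CSPBasic
import Fermat.Agent.LR.CSPBridge
import Fermat.Agent.LR.CSPDefs
import Fermat.Agent.LR.CSPCenOdd

set_option autoImplicit false

namespace Fermat.Agent.LR.CSPToQ

open Matrix
open Fermat.Agent.LR.Gen Fermat.Agent.LR.SL2R Fermat.Agent.LR.CSP Fermat.Agent.LR.CSPFin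
open scoped MatrixGroups

variable {q : ℕ}

theorem toQ_uR (x : A q) : toQ q (uR x) = uu (x : ℚ) := by
  apply ext4 <;> simp

theorem toQ_lR (y : A q) : toQ q (lR y) = ll (y : ℚ) := by
  apply ext4 <;> simp

theorem toQ_conjDiag_neg_one (g : SL(2, A q)) : toQ q (conjDiag (-1) g) = conjJ (toQ q g) := by
  apply ext4 <;> simp [conjDiag_apply, conjJ]

theorem inIdeal_iff {m : ℕ} (x : A q) : InIdeal q m (x : ℚ) ↔ x ∈ Ideal.span {(m : A q)} :=
  mem_span_natCast_iff.symm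

theorem toQ_mem_GamLoc_iff {m : ℕ} (g : SL(2, A q)) :
    toQ q g ∈ GamLoc q m ↔ g ∈ Gam (Ideal.span {(m : A q)}) := by
  rw [mem_GamLoc, mem_Gam, ← inIdeal_iff, ← inIdeal_iff, ← inIdeal_iff, ← inIdeal_iff]
  simp

theorem GamLoc_le_gamma0Loc_one (m : ℕ) : GamLoc q m ≤ gamma0Loc 1 q := by
  rintro g ⟨h00, h01, h10, h11⟩
  have e00 : g 0 0 ∈ zInv q := by
    have := (zInv q).add_mem h00.mem (zInv q).one_mem; simpa using this
  have e11 : g 1 1 ∈ zInv q := by
    have := (zInv q).add_mem h11.mem (zInv q).one_mem; simpa using this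
  refine ⟨fun i j => ?_, g 1 0, h10.mem, by simp⟩
  fin_cases i <;> fin_cases j
  · exact e00
  · exact h01.mem
  · exact h10.mem
  · exact e11

/-- every element of `GamLoc q m` comes from `Gam (m)` -/
theorem exists_of_mem_GamLoc {m : ℕ} {g : SL(2, ℚ)} (hg : g ∈ GamLoc q m) :
    ∃ g' : SL(2, A q), g' ∈ Gam (Ideal.span {(m : A q)}) ∧ toQ q g' = g := by
  have h1 := GamLoc_le_gamma0Loc_one m hg
  refine ⟨ofQ g h1.1, ?_, toQ_ofQ g h1.1⟩
  rw [← toQ_mem_GamLoc_iff, toQ_ofQ]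
  exact hg

/-- every element of `ℤ[1/q]` inside `ℚ` -/
theorem exists_of_mem_zInv {x : ℚ} (hx : x ∈ zInv q) : ∃ x' : A q, (x' : ℚ) = x := ⟨⟨x, hx⟩, rfl⟩

theorem map_toQ_Gam (m : ℕ) : (Gam (Ideal.span {(m : A q)})).map (toQ q) = GamLoc q m := by
  ext g
  constructor
  · rintro ⟨g', hg', rfl⟩
    exact (toQ_mem_GamLoc_iff g').2 hg'
  · intro hg
    obtain ⟨g', hg', rfl⟩ := exists_of_mem_GamLoc hg
    exact ⟨g', hg', rfl⟩

/-! ### from the generic shape of (Cen) to `CSPFin.Cen` -/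

/-- the character of `Gam (m)` attached to a unipotent-killing function on `SL(2, ℚ)` -/
noncomputable def charOf {m : ℕ} {V : Type*} [AddCommGroup V] (χ : SL(2, ℚ) → V)
    (hχ : UnipKilling q m χ) : ↥(Gam (Ideal.span {(m : A q)})) →* Multiplicative V where
  toFun g := Multiplicative.ofAdd (χ (toQ q (g : SL(2, A q))))
  map_one' := by
    have h1 : (1 : SL(2, ℚ)) ∈ GamLoc q m := Subgroup.one_mem _
    have := hχ.map_mul 1 1 h1 h1
    rw [mul_one] at this
    have h0 : χ 1 = 0 := by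
      have h2 : χ 1 + 0 = χ 1 + χ 1 := by rw [add_zero]; exact this
      exact (add_left_cancel h2).symm
    simp [h0]
  map_mul' g h := by
    have hg : toQ q (g : SL(2, A q)) ∈ GamLoc q m := (toQ_mem_GamLoc_iff _).2 g.2
    have hh : toQ q (h : SL(2, A q)) ∈ GamLoc q m := (toQ_mem_GamLoc_iff _).2 h.2
    have := hχ.map_mul _ _ hg hh
    rw [Subgroup.coe_mul, map_mul, this]
    rfl

theorem charOf_apply {m : ℕ} {V : Type*} [AddCommGroup V] (χ : SL(2, ℚ) → V)
    (hχ : UnipKilling q m χ) (g : SL(2, A q)) (hg : g ∈ Gam (Ideal.span {(m : A q)})) :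
    charOf χ hχ ⟨g, hg⟩ = Multiplicative.ofAdd (χ (toQ q g)) := rfl

theorem charOf_kills_E {m : ℕ} {V : Type*} [AddCommGroup V] (χ : SL(2, ℚ) → V)
    (hχ : UnipKilling q m χ) :
    ∀ (x : SL(2, A q)) (hx : x ∈ E (Ideal.span {(m : A q)})),
      charOf χ hχ ⟨x, E_le_Gam _ hx⟩ = 1 := by
  apply CSPBridge.kills_E_of_kills_unip
  intro g hg hu
  rw [charOf_apply]
  have h1 : toQ q g ∈ GamLoc q m := (toQ_mem_GamLoc_iff _).2 hg
  have h2 : (toQ q g) 0 0 + (toQ q g) 1 1 = 2 := by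
    have := congrArg (fun x : A q => (x : ℚ)) hu
    have h2' : (((2 : A q)) : ℚ) = 2 := rfl
    simp only [h2'] at this
    rw [← this]
    simp
  rw [hχ.unip _ h1 h2]
  rfl

/-- invariance under an element of `cenMod` -/
theorem map_conj_eq_of_mem_cenMod {m : ℕ} {V : Type*} [AddCommGroup V] (χ : SL(2, ℚ) → V)
    (hχ : UnipKilling q m χ) {γ : SL(2, A q)} (hγ : γ ∈ cenMod (Ideal.span {(m : A q)}))
    {g : SL(2, ℚ)} (hg : g ∈ GamLoc q m) :
    χ (toQ q γ * g * (toQ q γ)⁻¹) = χ g := by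
  obtain ⟨g', hg', rfl⟩ := exists_of_mem_GamLoc hg
  have hconj : γ * g' * γ⁻¹ ∈ Gam (Ideal.span {(m : A q)}) :=
    (inferInstance : (Gam (Ideal.span {(m : A q)})).Normal).conj_mem g' hg' γ
  have := map_eq_of_mul_inv_mem_EC (charOf χ hχ) (charOf_kills_E χ hχ) hconj hg'
    (mem_cenMod.1 hγ g' hg')
  rw [charOf_apply, charOf_apply] at this
  have h3 := Multiplicative.ofAdd.injective this
  rw [map_mul, map_mul, map_inv] at h3
  exact h3

/-- **(c) ⇒ (b)**: the generic shape of (Cen) at level `m` gives `CSPFin.Cen q p m`. -/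
theorem cen_of_hJ {p m : ℕ}
    (hJ : ∀ g ∈ Gam (Ideal.span {(m : A q)}),
      conjDiag (-1) g * g⁻¹ ∈ EC (Ideal.span {(m : A q)}))
    (hodd : Odd m → cenMod (Ideal.span {(m : A q)}) = ⊤) : Cen q p m := by
  intro χ hχ
  refine ⟨?_, ?_, ?_⟩
  · intro x hx hcase g hg
    have hmem : uR (⟨x, hx⟩ : A q) ∈ cenMod (Ideal.span {(m : A q)}) := by
      rcases hcase with hm | ⟨t, ht, hxt⟩
      · rw [hodd hm]; exact Subgroup.mem_top _
      · have e : (⟨x, hx⟩ : A q) = 2 * ⟨t, ht⟩ := by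
          apply Subtype.ext
          show x = (2 : ℚ) * t
          rw [hxt]; norm_num
        rw [e]
        exact uR_two_mul_mem_cenMod hJ _
    have := map_conj_eq_of_mem_cenMod χ hχ hmem hg
    rwa [toQ_uR] at this
  · intro y hy hcase g hg
    have hmem : lR (⟨y, hy⟩ : A q) ∈ cenMod (Ideal.span {(m : A q)}) := by
      rcases hcase with hm | ⟨t, ht, hyt⟩
      · rw [hodd hm]; exact Subgroup.mem_top _
      · have e : (⟨y, hy⟩ : A q) = 2 * ⟨t, ht⟩ := by
          apply Subtype.ext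
          show y = (2 : ℚ) * t
          rw [hyt]; norm_num
        rw [e]
        exact lR_two_mul_mem_cenMod hJ _
    have := map_conj_eq_of_mem_cenMod χ hχ hmem hg
    rwa [toQ_lR] at this
  · intro g hg
    obtain ⟨g', hg', rfl⟩ := exists_of_mem_GamLoc hg
    have := CSPBridge.map_conjDiag_neg_one_eq (charOf χ hχ) (charOf_kills_E χ hχ) hJ g' hg'
    rw [charOf_apply, charOf_apply] at this
    have h3 := Multiplicative.ofAdd.injective this
    rw [toQ_conjDiag_neg_one] at h3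
    exact h3

/-- **`CSPFin.Cen q p m` for `q` an odd prime and `m` odd prime to `q`** (Claim J route). -/
theorem cen_odd (q : ℕ) (hq : q.Prime) (hq2 : q ≠ 2) (p m : ℕ) (hm : m ≠ 0)
    (hm2 : Nat.Coprime m 2) (hmq : Nat.Coprime m q) : Cen q p m :=
  cen_of_hJ (CSPCenOdd.hJ_odd q hq hq2 m hm hm2 hmq)
    (fun _ => CSPCenOdd.cenMod_odd q hq hq2 m hm hm2 hmq)

end Fermat.Agent.LR.CSPToQ
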