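/-
Program M (S41), node D2, interface file (helper15): the shape of the centrality theorem (Cen) on
the types of `LR/IharaGroup.lean` / `LR/IharaPar.lean`, entirely inside `SL(2, ℚ)`.

* `slLoc q`     : `SL₂(ℤ[1/q])` as a subgroup of `SL(2, ℚ)` (`= gamma0Loc 1 q`);
* `congLoc q m` : the principal congruence subgroup `Γ(m)` of `SL₂(ℤ[1/q])` (carrier `IsCongOne q m`);
* `UC q m`      : the subgroup generated by the unipotent elements of `congLoc q m` and the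
                  commutators of `congLoc q m`;
* `Cen q m`     : `∀ γ ∈ slLoc q, ∀ g ∈ congLoc q m, γ g γ⁻¹ g⁻¹ ∈ UC q m`;
* `CenJ q m`    : `∀ g ∈ congLoc q m, J g J⁻¹ g⁻¹ ∈ UC q m`, `J = diag(-1, 1)`.

Consumer lemmas: a homomorphism `ψ : K → V` (`V` abelian) killing every unipotent element of `K`
is constant along `UC q m`-cosets, also after a twist `c` (an endomorphism of `SL(2, ℚ)` preserving
unipotents, e.g. conjugation by `diag(l, 1)`) with `c (congLoc q m) ≤ K`.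

Producer lemma: `Cen q m` and `CenJ q m` follow from the generic `SL2R.cenMod_eq_top` / Claim J for
`R` through any ring homomorphism `ι : R →+* ℚ` whose induced map on `SL₂` is onto `slLoc q` and
maps `Γ(I)` onto `congLoc q m`.
-/
import Mathlib
import Fermat.Agent.LR.IharaPar
import Fermat.Agent.LR.SL2Ring

set_option autoImplicit false

namespace Fermat.Agent.LR.CenShape

open Matrix
open Fermat.Agent.LR.Gen Fermat.Agent.LR.IharaGroup Fermat.Agent.LR.IharaPar Fermat.Agent.LR.SL2R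
open scoped MatrixGroups commutatorElement

/-! ### The groups -/

/-- `SL₂(ℤ[1/q])` inside `SL(2, ℚ)` -/
def slLoc (q : ℕ) : Subgroup SL(2, ℚ) := gamma0Loc 1 q

theorem mem_slLoc {q : ℕ} {g : SL(2, ℚ)} : g ∈ slLoc q ↔ ∀ i j, g i j ∈ zInv q := by
  unfold slLoc
  rw [mem_gamma0Loc]
  constructor
  · exact fun h => h.1
  · exact fun h => ⟨h, g 1 0, h 1 0, by simp⟩

theorem gamma0Loc_le_slLoc (N q : ℕ) : gamma0Loc N q ≤ slLoc q := fun _ hg =>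
  mem_slLoc.mpr (mem_gamma0Loc.mp hg).1

/-- explicit form of `IsCongOne` -/
theorem isCongOne_iff {q m : ℕ} {g : SL(2, ℚ)} :
    IsCongOne q m g ↔ (∃ t ∈ zInv q, g 0 0 - 1 = (m : ℚ) * t) ∧ (∃ t ∈ zInv q, g 0 1 = (m : ℚ) * t) ∧
      (∃ t ∈ zInv q, g 1 0 = (m : ℚ) * t) ∧ (∃ t ∈ zInv q, g 1 1 - 1 = (m : ℚ) * t) := by
  constructor
  · intro h
    refine ⟨?_, ?_, ?_, ?_⟩
    · simpa using h 0 0
    · simpa using h 0 1
    · simpa using h 1 0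
    · simpa using h 1 1
  · rintro ⟨h00, h01, h10, h11⟩ i j
    fin_cases i <;> fin_cases j
    · simpa using h00
    · simpa using h01
    · simpa using h10
    · simpa using h11

/-- the principal congruence subgroup `Γ(m)` of `SL₂(ℤ[1/q])` inside `SL(2, ℚ)` -/
def congLoc (q m : ℕ) : Subgroup SL(2, ℚ) where
  carrier := {g | IsCongOne q m g}
  one_mem' := by
    intro i j
    exact ⟨0, (zInv q).zero_mem, by simp⟩
  mul_mem' := by
    intro g h hg hh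
    change IsCongOne q m g at hg
    change IsCongOne q m h at hh
    change IsCongOne q m (g * h)
    rw [isCongOne_iff] at hg hh ⊢
    obtain ⟨⟨a, ha, ha'⟩, ⟨b, hb, hb'⟩, ⟨c, hc, hc'⟩, ⟨d, hd, hd'⟩⟩ := hg
    obtain ⟨⟨a₂, ha₂, ha₂'⟩, ⟨b₂, hb₂, hb₂'⟩, ⟨c₂, hc₂, hc₂'⟩, ⟨d₂, hd₂, hd₂'⟩⟩ := hh
    have hm : (m : ℚ) ∈ zInv q := by exact_mod_cast intCast_mem_zInv q (m : ℤ)
    have e00 : g 0 0 = 1 + (m : ℚ) * a := by linarith
    have e11 : g 1 1 = 1 + (m : ℚ) * d := by linarith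
    have f00 : h 0 0 = 1 + (m : ℚ) * a₂ := by linarith
    have f11 : h 1 1 = 1 + (m : ℚ) * d₂ := by linarith
    simp only [SL2R.mul_apply']
    refine ⟨⟨a + a₂ + (m : ℚ) * (a * a₂ + b * c₂), ?_, ?_⟩,
      ⟨b₂ + b + (m : ℚ) * (a * b₂ + b * d₂), ?_, ?_⟩,
      ⟨c + c₂ + (m : ℚ) * (c * a₂ + d * c₂), ?_, ?_⟩,
      ⟨d + d₂ + (m : ℚ) * (c * b₂ + d * d₂), ?_, ?_⟩⟩
    · exact (zInv q).add_mem ((zInv q).add_mem ha ha₂) ((zInv q).mul_mem hm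
        ((zInv q).add_mem ((zInv q).mul_mem ha ha₂) ((zInv q).mul_mem hb hc₂)))
    · rw [e00, f00, hb', hc₂']; ring
    · exact (zInv q).add_mem ((zInv q).add_mem hb₂ hb) ((zInv q).mul_mem hm
        ((zInv q).add_mem ((zInv q).mul_mem ha hb₂) ((zInv q).mul_mem hb hd₂)))
    · rw [e00, f11, hb', hb₂']; ring
    · exact (zInv q).add_mem ((zInv q).add_mem hc hc₂) ((zInv q).mul_mem hm
        ((zInv q).add_mem ((zInv q).mul_mem hc ha₂) ((zInv q).mul_mem hd hc₂)))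
    · rw [e11, f00, hc', hc₂']; ring
    · exact (zInv q).add_mem ((zInv q).add_mem hd hd₂) ((zInv q).mul_mem hm
        ((zInv q).add_mem ((zInv q).mul_mem hc hb₂) ((zInv q).mul_mem hd hd₂)))
    · rw [e11, f11, hc', hb₂']; ring
  inv_mem' := by
    intro g hg
    change IsCongOne q m g at hg
    change IsCongOne q m g⁻¹
    rw [isCongOne_iff] at hg ⊢
    obtain ⟨⟨a, ha, ha'⟩, ⟨b, hb, hb'⟩, ⟨c, hc, hc'⟩, ⟨d, hd, hd'⟩⟩ := hg
    rw [SL2R.inv_apply]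
    simp only [Matrix.of_apply, Matrix.cons_val', Matrix.cons_val_zero, Matrix.cons_val_one,
      Matrix.cons_val_fin_one]
    refine ⟨⟨d, hd, hd'⟩, ⟨-b, (zInv q).neg_mem hb, by rw [hb']; ring⟩,
      ⟨-c, (zInv q).neg_mem hc, by rw [hc']; ring⟩, ⟨a, ha, ha'⟩⟩

theorem mem_congLoc {q m : ℕ} {g : SL(2, ℚ)} : g ∈ congLoc q m ↔ IsCongOne q m g := Iff.rfl


theorem congLoc_le_slLoc (q m : ℕ) : congLoc q m ≤ slLoc q := by
  intro g hg
  rw [mem_slLoc]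
  intro i j
  obtain ⟨t, ht, h⟩ := hg i j
  have hm : (m : ℚ) ∈ zInv q := by exact_mod_cast intCast_mem_zInv q (m : ℤ)
  have h1 : (1 : Matrix (Fin 2) (Fin 2) ℚ) i j ∈ zInv q := by
    fin_cases i <;> fin_cases j <;> simp [(zInv q).zero_mem, (zInv q).one_mem]
  have : g i j = (1 : Matrix (Fin 2) (Fin 2) ℚ) i j + (m : ℚ) * t := by linarith
  rw [this]
  exact (zInv q).add_mem h1 ((zInv q).mul_mem hm ht)

theorem congLoc_le_gamma0Loc {N q m : ℕ} (h : N ∣ m) : congLoc q m ≤ gamma0Loc N q := by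
  intro g hg
  rw [mem_gamma0Loc]
  refine ⟨mem_slLoc.mp (congLoc_le_slLoc q m hg), ?_⟩
  obtain ⟨t, ht, h10⟩ := (isCongOne_iff.mp hg).2.2.1
  obtain ⟨k, rfl⟩ := h
  refine ⟨(k : ℚ) * t, (zInv q).mul_mem (by exact_mod_cast intCast_mem_zInv q (k : ℤ)) ht, ?_⟩
  rw [h10]; push_cast; ring

theorem congLoc_mono {q m m' : ℕ} (h : m ∣ m') : congLoc q m' ≤ congLoc q m := by
  intro g hg i j
  obtain ⟨t, ht, e⟩ := hg i j
  obtain ⟨k, rfl⟩ := h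
  refine ⟨(k : ℚ) * t, (zInv q).mul_mem (by exact_mod_cast intCast_mem_zInv q (k : ℤ)) ht, ?_⟩
  rw [e]; push_cast; ring

/-- `Γ(m)` is normalised by `SL₂(ℤ[1/q])` -/
theorem conj_mem_congLoc {q m : ℕ} {γ g : SL(2, ℚ)} (hγ : γ ∈ slLoc q) (hg : g ∈ congLoc q m) :
    γ * g * γ⁻¹ ∈ congLoc q m := by
  rw [mem_slLoc] at hγ
  change IsCongOne q m g at hg
  change IsCongOne q m (γ * g * γ⁻¹)
  rw [isCongOne_iff] at hg ⊢
  obtain ⟨⟨a, ha, ha'⟩, ⟨b, hb, hb'⟩, ⟨c, hc, hc'⟩, ⟨d, hd, hd'⟩⟩ := hg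
  have e00 : g 0 0 = 1 + (m : ℚ) * a := by linarith
  have e11 : g 1 1 = 1 + (m : ℚ) * d := by linarith
  have hdet := SL2R.det_eq γ
  simp only [SL2R.mul_apply', SL2R.inv_apply, Matrix.of_apply, Matrix.cons_val',
    Matrix.cons_val_zero, Matrix.cons_val_one, Matrix.cons_val_fin_one]
  have h00 := hγ 0 0
  have h01 := hγ 0 1
  have h10 := hγ 1 0
  have h11 := hγ 1 1
  refine ⟨⟨(γ 0 0 * a + γ 0 1 * c) * γ 1 1 - (γ 0 0 * b + γ 0 1 * d) * γ 1 0, ?_, ?_⟩,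
    ⟨-(γ 0 0 * a + γ 0 1 * c) * γ 0 1 + (γ 0 0 * b + γ 0 1 * d) * γ 0 0, ?_, ?_⟩,
    ⟨(γ 1 0 * a + γ 1 1 * c) * γ 1 1 - (γ 1 0 * b + γ 1 1 * d) * γ 1 0, ?_, ?_⟩,
    ⟨-(γ 1 0 * a + γ 1 1 * c) * γ 0 1 + (γ 1 0 * b + γ 1 1 * d) * γ 0 0, ?_, ?_⟩⟩
  · exact (zInv q).sub_mem ((zInv q).mul_mem ((zInv q).add_mem ((zInv q).mul_mem h00 ha)
      ((zInv q).mul_mem h01 hc)) h11) ((zInv q).mul_mem ((zInv q).add_mem ((zInv q).mul_mem h00 hb)
      ((zInv q).mul_mem h01 hd)) h10)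
  · rw [e00, e11, hb', hc']; linear_combination hdet
  · exact (zInv q).add_mem ((zInv q).mul_mem ((zInv q).neg_mem ((zInv q).add_mem
      ((zInv q).mul_mem h00 ha) ((zInv q).mul_mem h01 hc))) h01)
      ((zInv q).mul_mem ((zInv q).add_mem ((zInv q).mul_mem h00 hb)
      ((zInv q).mul_mem h01 hd)) h00)
  · rw [e00, e11, hb', hc']; ring
  · exact (zInv q).sub_mem ((zInv q).mul_mem ((zInv q).add_mem ((zInv q).mul_mem h10 ha)
      ((zInv q).mul_mem h11 hc)) h11) ((zInv q).mul_mem ((zInv q).add_mem ((zInv q).mul_mem h10 hb)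
      ((zInv q).mul_mem h11 hd)) h10)
  · rw [e00, e11, hb', hc']; ring
  · exact (zInv q).add_mem ((zInv q).mul_mem ((zInv q).neg_mem ((zInv q).add_mem
      ((zInv q).mul_mem h10 ha) ((zInv q).mul_mem h11 hc))) h01)
      ((zInv q).mul_mem ((zInv q).add_mem ((zInv q).mul_mem h10 hb)
      ((zInv q).mul_mem h11 hd)) h00)
  · rw [e00, e11, hb', hc']; linear_combination hdet

/-- `J = diag(-1, 1)` normalises `Γ(m)` (more generally `diag(s, 1)` for a unit `s` of `ℤ[1/q]`) -/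
theorem conjDiag_mem_congLoc {q m : ℕ} (s : ℚˣ) (hs : (s : ℚ) ∈ zInv q)
    (hs' : ((s⁻¹ : ℚˣ) : ℚ) ∈ zInv q) {g : SL(2, ℚ)} (hg : g ∈ congLoc q m) :
    conjDiag s g ∈ congLoc q m := by
  change IsCongOne q m g at hg
  change IsCongOne q m (conjDiag s g)
  rw [isCongOne_iff] at hg ⊢
  obtain ⟨⟨a, ha, ha'⟩, ⟨b, hb, hb'⟩, ⟨c, hc, hc'⟩, ⟨d, hd, hd'⟩⟩ := hg
  simp only [conjDiag_apply, Matrix.of_apply, Matrix.cons_val', Matrix.cons_val_zero,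
    Matrix.cons_val_one, Matrix.cons_val_fin_one]
  exact ⟨⟨a, ha, ha'⟩, ⟨(s : ℚ) * b, (zInv q).mul_mem hs hb, by rw [hb']; ring⟩,
    ⟨((s⁻¹ : ℚˣ) : ℚ) * c, (zInv q).mul_mem hs' hc, by rw [hc']; ring⟩, ⟨d, hd, hd'⟩⟩

theorem conjDiag_neg_one_mem_congLoc {q m : ℕ} {g : SL(2, ℚ)} (hg : g ∈ congLoc q m) :
    conjDiag (-1 : ℚˣ) g ∈ congLoc q m := by
  refine conjDiag_mem_congLoc (-1) ?_ ?_ hg
  · simp [(zInv q).neg_mem (zInv q).one_mem]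
  · simp [(zInv q).neg_mem (zInv q).one_mem]

/-- the twist by `diag(l, 1)` maps `Γ(m l)` into `Γ(m)` -/
theorem conjDiag_mem_congLoc_of_mul {q m l : ℕ} (s : ℚˣ) (hs : (s : ℚ) = (l : ℚ))
    {g : SL(2, ℚ)} (hg : g ∈ congLoc q (m * l)) : conjDiag s g ∈ congLoc q m := by
  have hl0 : (l : ℚ) ≠ 0 := by rw [← hs]; exact s.ne_zero
  have hsinv : ((s⁻¹ : ℚˣ) : ℚ) = (l : ℚ)⁻¹ := by rw [Units.val_inv_eq_inv_val, hs]
  have hl : (l : ℚ) ∈ zInv q := by exact_mod_cast intCast_mem_zInv q (l : ℤ)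
  change IsCongOne q (m * l) g at hg
  change IsCongOne q m (conjDiag s g)
  rw [isCongOne_iff] at hg ⊢
  obtain ⟨⟨a, ha, ha'⟩, ⟨b, hb, hb'⟩, ⟨c, hc, hc'⟩, ⟨d, hd, hd'⟩⟩ := hg
  simp only [conjDiag_apply, Matrix.of_apply, Matrix.cons_val', Matrix.cons_val_zero,
    Matrix.cons_val_one, Matrix.cons_val_fin_one]
  refine ⟨⟨(l : ℚ) * a, (zInv q).mul_mem hl ha, by rw [ha']; push_cast; ring⟩,
    ⟨(l : ℚ) * (l : ℚ) * b, (zInv q).mul_mem ((zInv q).mul_mem hl hl) hb, by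
      rw [hb', hs]; push_cast; ring⟩,
    ⟨c, hc, by rw [hc', hsinv]; push_cast; field_simp⟩,
    ⟨(l : ℚ) * d, (zInv q).mul_mem hl hd, by rw [hd']; push_cast; ring⟩⟩

/-- the twist by `diag(l, 1)⁻¹` maps `Γ(m l)` into `Γ(m)` -/
theorem conjDiag_inv_mem_congLoc_of_mul {q m l : ℕ} (s : ℚˣ) (hs : (s : ℚ) = (l : ℚ))
    {g : SL(2, ℚ)} (hg : g ∈ congLoc q (m * l)) : conjDiag s⁻¹ g ∈ congLoc q m := by
  have hl0 : (l : ℚ) ≠ 0 := by rw [← hs]; exact s.ne_zero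
  have hsinv : ((s⁻¹ : ℚˣ) : ℚ) = (l : ℚ)⁻¹ := by rw [Units.val_inv_eq_inv_val, hs]
  have hl : (l : ℚ) ∈ zInv q := by exact_mod_cast intCast_mem_zInv q (l : ℤ)
  change IsCongOne q (m * l) g at hg
  change IsCongOne q m (conjDiag s⁻¹ g)
  rw [isCongOne_iff] at hg ⊢
  obtain ⟨⟨a, ha, ha'⟩, ⟨b, hb, hb'⟩, ⟨c, hc, hc'⟩, ⟨d, hd, hd'⟩⟩ := hg
  simp only [conjDiag_apply, Matrix.of_apply, Matrix.cons_val', Matrix.cons_val_zero,
    Matrix.cons_val_one, Matrix.cons_val_fin_one, inv_inv]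
  refine ⟨⟨(l : ℚ) * a, (zInv q).mul_mem hl ha, by rw [ha']; push_cast; ring⟩,
    ⟨b, hb, by rw [hb', hsinv]; push_cast; field_simp⟩,
    ⟨(l : ℚ) * (l : ℚ) * c, (zInv q).mul_mem ((zInv q).mul_mem hl hl) hc, by
      rw [hc', hs]; push_cast; ring⟩,
    ⟨(l : ℚ) * d, (zInv q).mul_mem hl hd, by rw [hd']; push_cast; ring⟩⟩

/-! ### Unipotents -/

theorem isUnip_iff {g : SL(2, ℚ)} : IsUnip g ↔ g 0 0 + g 1 1 = 2 := by
  unfold IsUnip
  rw [Matrix.trace_fin_two]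

theorem isUnip_conj {g : SL(2, ℚ)} (hg : IsUnip g) (γ : SL(2, ℚ)) : IsUnip (γ * g * γ⁻¹) := by
  unfold IsUnip at hg ⊢
  rw [Matrix.SpecialLinearGroup.coe_mul, Matrix.SpecialLinearGroup.coe_mul, Matrix.trace_mul_comm,
    ← Matrix.mul_assoc, ← Matrix.SpecialLinearGroup.coe_mul, inv_mul_cancel,
    Matrix.SpecialLinearGroup.coe_one, Matrix.one_mul]
  exact hg

theorem isUnip_conjDiag {g : SL(2, ℚ)} (hg : IsUnip g) (s : ℚˣ) : IsUnip (conjDiag s g) := by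
  rw [isUnip_iff] at hg ⊢
  simpa [conjDiag_apply] using hg

theorem isUnip_uR (x : ℚ) : IsUnip (uR x) := by
  rw [isUnip_iff]; simp; norm_num

theorem isUnip_lR (y : ℚ) : IsUnip (lR y) := by
  rw [isUnip_iff]; simp; norm_num

/-! ### The subgroup `UC q m` and the statements (Cen), (CenJ) -/

/-- the subgroup generated by the unipotent elements of `Γ(m)` and the commutators of `Γ(m)` -/
def UC (q m : ℕ) : Subgroup SL(2, ℚ) :=
  Subgroup.closure {g | g ∈ congLoc q m ∧ IsUnip g} ⊔ ⁅congLoc q m, congLoc q m⁆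

theorem UC_le_congLoc (q m : ℕ) : UC q m ≤ congLoc q m :=
  sup_le ((Subgroup.closure_le _).mpr fun _ hg => hg.1) (Subgroup.commutator_le.mpr fun a ha b hb => by
    rw [commutatorElement_def]
    exact mul_mem (mul_mem (mul_mem ha hb) (inv_mem ha)) (inv_mem hb))

theorem mem_UC_of_isUnip {q m : ℕ} {g : SL(2, ℚ)} (hg : g ∈ congLoc q m) (hu : IsUnip g) :
    g ∈ UC q m :=
  (le_sup_left : _ ≤ UC q m) (Subgroup.subset_closure ⟨hg, hu⟩)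

theorem commutator_mem_UC {q m : ℕ} {g h : SL(2, ℚ)} (hg : g ∈ congLoc q m)
    (hh : h ∈ congLoc q m) : ⁅g, h⁆ ∈ UC q m :=
  (le_sup_right : _ ≤ UC q m) (Subgroup.commutator_mem_commutator hg hh)

/-- **(Cen)** at level `m`: `SL₂(ℤ[1/q])` centralises `Γ(m)` modulo unipotents and commutators. -/
def Cen (q m : ℕ) : Prop :=
  ∀ γ ∈ slLoc q, ∀ g ∈ congLoc q m, γ * g * γ⁻¹ * g⁻¹ ∈ UC q m

/-- **(CenJ)** at level `m`: `J = diag(-1, 1)` centralises `Γ(m)` modulo unipotents and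
commutators. -/
def CenJ (q m : ℕ) : Prop :=
  ∀ g ∈ congLoc q m, conjDiag (-1 : ℚˣ) g * g⁻¹ ∈ UC q m

/-! ### Consumer lemmas -/

section Consumer

variable {q m : ℕ} {K : Subgroup SL(2, ℚ)} {V : Type*} [CommGroup V]

/-- A homomorphism `ψ : K → V` killing the unipotent elements of `K` kills `c (UC q m)` for every
endomorphism `c` of `SL(2, ℚ)` preserving unipotents with `c (Γ(m)) ≤ K`. -/
theorem exists_map_eq_one_of_mem_UC (ψ : ↥K →* V)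
    (hψ : ∀ k : ↥K, IsUnip (k : SL(2, ℚ)) → ψ k = 1) (c : SL(2, ℚ) →* SL(2, ℚ))
    (hc : ∀ g, IsUnip g → IsUnip (c g)) (hK : ∀ g ∈ congLoc q m, c g ∈ K) {x : SL(2, ℚ)}
    (hx : x ∈ UC q m) : ∃ h : c x ∈ K, ψ ⟨c x, h⟩ = 1 := by
  have key : UC q m ≤ ((ψ.ker).map K.subtype).comap c := by
    refine sup_le ?_ ?_
    · rw [Subgroup.closure_le]
      rintro g ⟨hg, hu⟩
      exact ⟨⟨c g, hK g hg⟩, hψ _ (hc g hu), rfl⟩
    · rw [Subgroup.commutator_le]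
      intro a ha b hb
      refine ⟨⁅(⟨c a, hK a ha⟩ : ↥K), (⟨c b, hK b hb⟩ : ↥K)⁆, ?_, ?_⟩
      · rw [SetLike.mem_coe, MonoidHom.mem_ker, map_commutatorElement]
        exact commutatorElement_eq_one_iff_mul_comm.mpr (mul_comm _ _)
      · rw [map_commutatorElement c]
        rfl
  obtain ⟨k, hk, hk'⟩ := key hx
  have hk'' : (k : SL(2, ℚ)) = c x := hk'
  refine ⟨hk'' ▸ k.2, ?_⟩
  have : (⟨c x, hk'' ▸ k.2⟩ : ↥K) = k := Subtype.ext hk''.symm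
  rw [this]
  exact MonoidHom.mem_ker.mp hk

/-- two elements of `Γ(m)` congruent modulo `UC q m` have the same value under every (twisted)
unipotent-killing homomorphism -/
theorem map_eq_of_mul_inv_mem_UC (ψ : ↥K →* V)
    (hψ : ∀ k : ↥K, IsUnip (k : SL(2, ℚ)) → ψ k = 1) (c : SL(2, ℚ) →* SL(2, ℚ))
    (hc : ∀ g, IsUnip g → IsUnip (c g)) (hK : ∀ g ∈ congLoc q m, c g ∈ K) {g h : SL(2, ℚ)}
    (hg : g ∈ congLoc q m) (hh : h ∈ congLoc q m) (hgh : g * h⁻¹ ∈ UC q m) :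
    ψ ⟨c g, hK g hg⟩ = ψ ⟨c h, hK h hh⟩ := by
  obtain ⟨h1, h2⟩ := exists_map_eq_one_of_mem_UC ψ hψ c hc hK hgh
  have h3 : (⟨c g, hK g hg⟩ : ↥K) = ⟨c (g * h⁻¹), h1⟩ * ⟨c h, hK h hh⟩ := by
    apply Subtype.ext
    show c g = c (g * h⁻¹) * c h
    rw [← map_mul, inv_mul_cancel_right]
  rw [h3, map_mul, h2, one_mul]

/-- **(Cen) for characters**, twisted form: `ψ (c (γ g γ⁻¹)) = ψ (c g)`. -/
theorem map_conj_eq_of_cen (hcen : Cen q m) (ψ : ↥K →* V)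
    (hψ : ∀ k : ↥K, IsUnip (k : SL(2, ℚ)) → ψ k = 1) (c : SL(2, ℚ) →* SL(2, ℚ))
    (hc : ∀ g, IsUnip g → IsUnip (c g)) (hK : ∀ g ∈ congLoc q m, c g ∈ K) {γ g : SL(2, ℚ)}
    (hγ : γ ∈ slLoc q) (hg : g ∈ congLoc q m) :
    ψ ⟨c (γ * g * γ⁻¹), hK _ (conj_mem_congLoc hγ hg)⟩ = ψ ⟨c g, hK g hg⟩ :=
  map_eq_of_mul_inv_mem_UC ψ hψ c hc hK (conj_mem_congLoc hγ hg) hg (hcen γ hγ g hg)

/-- **(CenJ) for characters**, twisted form: `ψ (c (J g J⁻¹)) = ψ (c g)`. -/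
theorem map_conjDiag_eq_of_cenJ (hcen : CenJ q m) (ψ : ↥K →* V)
    (hψ : ∀ k : ↥K, IsUnip (k : SL(2, ℚ)) → ψ k = 1) (c : SL(2, ℚ) →* SL(2, ℚ))
    (hc : ∀ g, IsUnip g → IsUnip (c g)) (hK : ∀ g ∈ congLoc q m, c g ∈ K) {g : SL(2, ℚ)}
    (hg : g ∈ congLoc q m) :
    ψ ⟨c (conjDiag (-1 : ℚˣ) g), hK _ (conjDiag_neg_one_mem_congLoc hg)⟩ = ψ ⟨c g, hK g hg⟩ :=
  map_eq_of_mul_inv_mem_UC ψ hψ c hc hK (conjDiag_neg_one_mem_congLoc hg) hg (hcen g hg)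

/-- untwisted form of (Cen) for characters of a group `K ⊇ Γ(m)` -/
theorem map_conj_eq_of_cen' (hcen : Cen q m) (ψ : ↥K →* V)
    (hψ : ∀ k : ↥K, IsUnip (k : SL(2, ℚ)) → ψ k = 1) (hK : congLoc q m ≤ K) {γ g : SL(2, ℚ)}
    (hγ : γ ∈ slLoc q) (hg : g ∈ congLoc q m) :
    ψ ⟨γ * g * γ⁻¹, hK (conj_mem_congLoc hγ hg)⟩ = ψ ⟨g, hK hg⟩ :=
  map_conj_eq_of_cen hcen ψ hψ (MonoidHom.id _) (fun _ h => h) (fun _ h => hK h) hγ hg

/-- untwisted form of (CenJ) for characters of a group `K ⊇ Γ(m)` -/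
theorem map_conjDiag_eq_of_cenJ' (hcen : CenJ q m) (ψ : ↥K →* V)
    (hψ : ∀ k : ↥K, IsUnip (k : SL(2, ℚ)) → ψ k = 1) (hK : congLoc q m ≤ K) {g : SL(2, ℚ)}
    (hg : g ∈ congLoc q m) :
    ψ ⟨conjDiag (-1 : ℚˣ) g, hK (conjDiag_neg_one_mem_congLoc hg)⟩ = ψ ⟨g, hK hg⟩ :=
  map_conjDiag_eq_of_cenJ hcen ψ hψ (MonoidHom.id _) (fun _ h => h) (fun _ h => hK h) hg

end Consumer


/-! ### Producer: transport of the generic (Cen) of `LR/SL2Ring.lean` -/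

section Producer

variable {R : Type*} [CommRing R] (ι : R →+* ℚ)

/-- the map `SL(2, R) → SL(2, ℚ)` induced by a ring homomorphism -/
def mapSL : SL(2, R) →* SL(2, ℚ) := Matrix.SpecialLinearGroup.map ι

@[simp] theorem mapSL_apply (g : SL(2, R)) (i j : Fin 2) : mapSL ι g i j = ι (g i j) := rfl

theorem mapSL_uR (x : R) : mapSL ι (uR x) = uR (ι x) := by
  apply sl_ext <;> simp

theorem mapSL_conjDiag_neg_one (g : SL(2, R)) :
    mapSL ι (conjDiag (-1 : Rˣ) g) = conjDiag (-1 : ℚˣ) (mapSL ι g) := by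
  apply sl_ext <;> simp [conjDiag_apply]

variable {ι} {q m : ℕ} {I : Ideal R}

/-- the image of `E I · [Γ(I), Γ(I)]` lies in `UC q m` as soon as the image of `Γ(I)` lies in
`Γ(m)` -/
theorem mapSL_mem_UC (hF1 : ∀ g ∈ Gam I, mapSL ι g ∈ congLoc q m) {x : SL(2, R)}
    (hx : x ∈ EC I) : mapSL ι x ∈ UC q m := by
  have key : EC I ≤ (UC q m).comap (mapSL ι) := by
    refine sup_le ?_ ?_
    · unfold E Subgroup.normalClosure
      rw [Subgroup.closure_le]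
      intro y hy
      rw [Group.mem_conjugatesOfSet_iff] at hy
      obtain ⟨_, ⟨z, hz, rfl⟩, hconj⟩ := hy
      rw [isConj_iff] at hconj
      obtain ⟨c, rfl⟩ := hconj
      refine mem_UC_of_isUnip (hF1 _ ?_) ?_
      · exact (inferInstance : (Gam I).Normal).conj_mem _ (uR_mem_Gam hz) c
      · rw [map_mul, map_mul, map_inv, mapSL_uR]
        exact isUnip_conj (isUnip_uR _) _
    · rw [Subgroup.commutator_le]
      intro a ha b hb
      show mapSL ι ⁅a, b⁆ ∈ UC q m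
      rw [map_commutatorElement]
      exact commutator_mem_UC (hF1 a ha) (hF1 b hb)
  exact key hx

/-- **Producer for (Cen)**: the generic centrality statement over `R` gives `Cen q m`. -/
theorem cen_of_cenMod (hF1 : ∀ g ∈ Gam I, mapSL ι g ∈ congLoc q m)
    (hF2 : ∀ γ ∈ slLoc q, ∃ γ' : SL(2, R), mapSL ι γ' = γ)
    (hF3 : ∀ g ∈ congLoc q m, ∃ g' ∈ Gam I, mapSL ι g' = g) (hcen : cenMod I = ⊤) :
    Cen q m := by
  intro γ hγ g hg
  obtain ⟨γ', rfl⟩ := hF2 γ hγ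
  obtain ⟨g', hg', rfl⟩ := hF3 g hg
  have h : γ' ∈ cenMod I := by rw [hcen]; exact Subgroup.mem_top _
  have h2 := mapSL_mem_UC hF1 (h g' hg')
  simpa only [map_mul, map_inv] using h2

/-- **Producer for (CenJ)**: Claim J over `R` gives `CenJ q m`. -/
theorem cenJ_of_claimJ (hF1 : ∀ g ∈ Gam I, mapSL ι g ∈ congLoc q m)
    (hF3 : ∀ g ∈ congLoc q m, ∃ g' ∈ Gam I, mapSL ι g' = g)
    (hJ : ∀ g ∈ Gam I, conjDiag (-1 : Rˣ) g * g⁻¹ ∈ EC I) : CenJ q m := by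
  intro g hg
  obtain ⟨g', hg', rfl⟩ := hF3 g hg
  have h2 := mapSL_mem_UC hF1 (hJ g' hg')
  rw [map_mul, map_inv, mapSL_conjDiag_neg_one] at h2
  exact h2

end Producer

/-! ### The model `R = ↥(zInv q)` -/

section Model

variable (q m : ℕ)

/-- the inclusion `ℤ[1/q] → ℚ` -/
def incl : ↥(zInv q) →+* ℚ := (zInv q).subtype

@[simp] theorem incl_apply (x : ↥(zInv q)) : incl q x = (x : ℚ) := rfl

/-- the ideal `m ℤ[1/q]` -/
def idealM : Ideal ↥(zInv q) := Ideal.span {((m : ℕ) : ↥(zInv q))}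

variable {q m}

theorem mem_idealM {x : ↥(zInv q)} :
    x ∈ idealM q m ↔ ∃ t ∈ zInv q, (x : ℚ) = (m : ℚ) * t := by
  unfold idealM
  rw [Ideal.mem_span_singleton']
  constructor
  · rintro ⟨a, rfl⟩
    exact ⟨a, a.2, by push_cast; ring⟩
  · rintro ⟨t, ht, h⟩
    refine ⟨⟨t, ht⟩, Subtype.ext ?_⟩
    push_cast
    rw [h]; ring

theorem mapSL_incl_mem_congLoc_iff {g : SL(2, ↥(zInv q))} :
    mapSL (incl q) g ∈ congLoc q m ↔ g ∈ Gam (idealM q m) := by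
  rw [mem_congLoc, isCongOne_iff, mem_Gam, mem_idealM, mem_idealM, mem_idealM, mem_idealM]
  simp only [mapSL_apply, incl_apply]
  push_cast
  rfl

theorem exists_mapSL_incl_eq {γ : SL(2, ℚ)} (hγ : γ ∈ slLoc q) :
    ∃ γ' : SL(2, ↥(zInv q)), mapSL (incl q) γ' = γ := by
  rw [mem_slLoc] at hγ
  refine ⟨⟨!![⟨γ 0 0, hγ 0 0⟩, ⟨γ 0 1, hγ 0 1⟩; ⟨γ 1 0, hγ 1 0⟩, ⟨γ 1 1, hγ 1 1⟩], ?_⟩, ?_⟩
  · rw [Matrix.det_fin_two_of]
    apply Subtype.ext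
    push_cast
    exact SL2R.det_eq γ
  · apply sl_ext <;> rfl

/-- `Cen q m` from the generic theorem over `ℤ[1/q]` -/
theorem cen_of_cenMod_zInv (hcen : cenMod (idealM q m) = ⊤) : Cen q m := by
  refine cen_of_cenMod (ι := incl q) (I := idealM q m)
    (fun g hg => mapSL_incl_mem_congLoc_iff.mpr hg) (fun γ hγ => exists_mapSL_incl_eq hγ) ?_ hcen
  intro g hg
  obtain ⟨g', rfl⟩ := exists_mapSL_incl_eq (congLoc_le_slLoc q m hg)
  exact ⟨g', mapSL_incl_mem_congLoc_iff.mp hg, rfl⟩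

/-- `CenJ q m` from Claim J over `ℤ[1/q]` -/
theorem cenJ_of_claimJ_zInv
    (hJ : ∀ g ∈ Gam (idealM q m), conjDiag (-1 : (↥(zInv q))ˣ) g * g⁻¹ ∈ EC (idealM q m)) :
    CenJ q m := by
  refine cenJ_of_claimJ (ι := incl q) (I := idealM q m)
    (fun g hg => mapSL_incl_mem_congLoc_iff.mpr hg) ?_ hJ
  intro g hg
  obtain ⟨g', rfl⟩ := exists_mapSL_incl_eq (congLoc_le_slLoc q m hg)
  exact ⟨g', mapSL_incl_mem_congLoc_iff.mp hg, rfl⟩

end Model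

end Fermat.Agent.LR.CenShape
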