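/-
Program M (S41), node D2, bridge (c) ⇒ (b) (helper15): from Claim J in the generic language of
`LR/SL2Ring.lean` over `R = ℤ[1/q] = ↥(zInv q)`, `I = (m)`,

  `hJ : ∀ g ∈ Gam I, conjDiag (-1) g * g⁻¹ ∈ EC I`,

derive the statement `CSPFin.Cen q p m` of `LR/CSPDefs.lean` consumed by the finish (#509):
every `χ : SL(2, ℚ) → V` additive on `GamLoc q m` and killing its unipotents is invariant under
conjugation by `u(x)`, `l(y)` (`x, y ∈ ℤ[1/q]`; only `x, y ∈ 2 ℤ[1/q]` when `m` is even) and by `J`.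

Only Corollary U of `LR/SL2Ring.lean` is needed (`u(2x), l(2y) ∈ cenMod I`); for `m` odd, `2` is
invertible modulo `m`; no generation statement is used.
-/
import Mathlib
import Fermat.Agent.LR.CenShape
import Fermat.Agent.LR.CSPDefs

set_option autoImplicit false

namespace Fermat.Agent.LR.CenBridge

open Matrix
open Fermat.Agent.LR.Gen Fermat.Agent.LR.IharaGroup Fermat.Agent.LR.IharaPar Fermat.Agent.LR.SL2R
open Fermat.Agent.LR.CenShape
open scoped MatrixGroups commutatorElement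

/-! ### Dictionary `CSPFin` ↔ `CenShape` -/

theorem inIdeal_iff {q m : ℕ} {x : ℚ} : CSPFin.InIdeal q m x ↔ ∃ t ∈ zInv q, x = (m : ℚ) * t :=
  Iff.rfl

theorem GamLoc_eq_congLoc (q m : ℕ) : CSPFin.GamLoc q m = congLoc q m := by
  ext g
  rw [CSPFin.mem_GamLoc, mem_congLoc, isCongOne_iff]
  rfl

theorem uR_eq_uu (x : ℚ) : (uR x : SL(2, ℚ)) = CSPFin.uu x := rfl

theorem lR_eq_ll (y : ℚ) : (lR y : SL(2, ℚ)) = CSPFin.ll y := rfl

theorem conjDiag_neg_one_eq_conjJ (g : SL(2, ℚ)) : conjDiag (-1 : ℚˣ) g = CSPFin.conjJ g := by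
  apply sl_ext <;> simp [conjDiag_apply, CSPFin.conjJ]

theorem mapSL_lR {R : Type*} [CommRing R] (ι : R →+* ℚ) (y : R) : mapSL ι (lR y) = lR (ι y) := by
  apply sl_ext <;> simp

/-! ### Elements of `cenMod I` act trivially modulo `UC q m` -/

theorem conj_mul_inv_mem_UC {q m : ℕ} {γ' : SL(2, ↥(zInv q))} (hγ' : γ' ∈ cenMod (idealM q m))
    {g : SL(2, ℚ)} (hg : g ∈ congLoc q m) :
    mapSL (incl q) γ' * g * (mapSL (incl q) γ')⁻¹ * g⁻¹ ∈ UC q m := by
  obtain ⟨g', rfl⟩ := exists_mapSL_incl_eq (congLoc_le_slLoc q m hg)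
  have hg' : g' ∈ Gam (idealM q m) := mapSL_incl_mem_congLoc_iff.mp hg
  have h2 := mapSL_mem_UC (ι := incl q) (q := q) (m := m) (I := idealM q m)
    (fun g hg => mapSL_incl_mem_congLoc_iff.mpr hg) (hγ' g' hg')
  simpa only [map_mul, map_inv] using h2

/-- for `m` odd every `u(x)` lies in `cenMod (m)`; for `m` even every `u(2t)` does -/
theorem uR_mem_cenMod {q m : ℕ}
    (hJ : ∀ g ∈ Gam (idealM q m), conjDiag (-1 : (↥(zInv q))ˣ) g * g⁻¹ ∈ EC (idealM q m))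
    (x : ↥(zInv q)) (hx : Odd m ∨ ∃ t : ↥(zInv q), x = 2 * t) : uR x ∈ cenMod (idealM q m) := by
  rcases hx with hodd | ⟨t, rfl⟩
  · obtain ⟨k, hk⟩ := hodd
    -- `x = 2 ((k+1) x) + (-(m) x)`
    have hmem : x - 2 * (((k + 1 : ℕ) : ↥(zInv q)) * x) ∈ idealM q m := by
      have : x - 2 * (((k + 1 : ℕ) : ↥(zInv q)) * x) = -(x * ((m : ℕ) : ↥(zInv q))) := by
        rw [hk]; push_cast; ring
      rw [this]
      exact (idealM q m).neg_mem (Ideal.mul_mem_left _ _ (Ideal.subset_span rfl))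
    have e : uR x = uR (2 * (((k + 1 : ℕ) : ↥(zInv q)) * x)) *
        uR (x - 2 * (((k + 1 : ℕ) : ↥(zInv q)) * x)) := by
      rw [← uR_add]; congr 1; ring
    rw [e]
    exact mul_mem (uR_two_mul_mem_cenMod hJ _) (Gam_le_cenMod _ (uR_mem_Gam hmem))
  · exact uR_two_mul_mem_cenMod hJ t

theorem lR_mem_cenMod {q m : ℕ}
    (hJ : ∀ g ∈ Gam (idealM q m), conjDiag (-1 : (↥(zInv q))ˣ) g * g⁻¹ ∈ EC (idealM q m))
    (y : ↥(zInv q)) (hy : Odd m ∨ ∃ t : ↥(zInv q), y = 2 * t) : lR y ∈ cenMod (idealM q m) := by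
  rcases hy with hodd | ⟨t, rfl⟩
  · obtain ⟨k, hk⟩ := hodd
    have hmem : y - 2 * (((k + 1 : ℕ) : ↥(zInv q)) * y) ∈ idealM q m := by
      have : y - 2 * (((k + 1 : ℕ) : ↥(zInv q)) * y) = -(y * ((m : ℕ) : ↥(zInv q))) := by
        rw [hk]; push_cast; ring
      rw [this]
      exact (idealM q m).neg_mem (Ideal.mul_mem_left _ _ (Ideal.subset_span rfl))
    have e : lR y = lR (2 * (((k + 1 : ℕ) : ↥(zInv q)) * y)) *
        lR (y - 2 * (((k + 1 : ℕ) : ↥(zInv q)) * y)) := by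
      rw [← lR_add]; congr 1; ring
    rw [e]
    exact mul_mem (lR_two_mul_mem_cenMod hJ _) (Gam_le_cenMod _ (lR_mem_Gam hmem))
  · exact lR_two_mul_mem_cenMod hJ t

/-! ### The character attached to a `UnipKilling` function -/

section Char

variable {V : Type*} [AddCommGroup V] {q m : ℕ} {χ : SL(2, ℚ) → V}

theorem map_one_of_unipKilling (h : CSPFin.UnipKilling q m χ) : χ 1 = 0 := by
  apply h.unip 1 (one_mem _)
  simp; norm_num

/-- the homomorphism `Γ(m) → Multiplicative V` attached to `χ` -/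
noncomputable def charOf (h : CSPFin.UnipKilling q m χ) : ↥(congLoc q m) →* Multiplicative V where
  toFun g := Multiplicative.ofAdd (χ (g : SL(2, ℚ)))
  map_one' := by
    show Multiplicative.ofAdd (χ 1) = 1
    rw [map_one_of_unipKilling h]; rfl
  map_mul' := by
    intro g g'
    show Multiplicative.ofAdd (χ ((g : SL(2, ℚ)) * (g' : SL(2, ℚ)))) = _
    rw [h.map_mul _ _ (by rw [GamLoc_eq_congLoc]; exact g.2) (by rw [GamLoc_eq_congLoc]; exact g'.2)]
    rfl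

theorem charOf_apply (h : CSPFin.UnipKilling q m χ) (g : ↥(congLoc q m)) :
    charOf h g = Multiplicative.ofAdd (χ (g : SL(2, ℚ))) := rfl

theorem charOf_kills_unip (h : CSPFin.UnipKilling q m χ) (k : ↥(congLoc q m))
    (hk : IsUnip (k : SL(2, ℚ))) : charOf h k = 1 := by
  rw [charOf_apply, h.unip _ (by rw [GamLoc_eq_congLoc]; exact k.2) (isUnip_iff.mp hk)]
  rfl

/-- two elements of `Γ(m)` congruent modulo `UC q m` have the same `χ`-value -/
theorem eq_of_mul_inv_mem_UC (h : CSPFin.UnipKilling q m χ) {g g' : SL(2, ℚ)}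
    (hg : g ∈ congLoc q m) (hg' : g' ∈ congLoc q m) (hgg' : g * g'⁻¹ ∈ UC q m) : χ g = χ g' := by
  have := map_eq_of_mul_inv_mem_UC (charOf h) (charOf_kills_unip h) (MonoidHom.id _)
    (fun _ hu => hu) (fun _ hx => hx) hg hg' hgg'
  exact Multiplicative.ofAdd.injective this

end Char

/-! ### The bridge -/

/-- **Bridge, general coefficients**: Claim J over `ℤ[1/q]` at level `m` gives the invariance of
every unipotent-killing `χ` on `GamLoc q m` under `u(x)`, `l(y)` (`x, y ∈ ℤ[1/q]`, in `2 ℤ[1/q]` when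
`m` is even) and `J`. -/
theorem inv_of_claimJ {V : Type*} [AddCommGroup V] {q m : ℕ}
    (hJ : ∀ g ∈ Gam (idealM q m), conjDiag (-1 : (↥(zInv q))ˣ) g * g⁻¹ ∈ EC (idealM q m))
    (χ : SL(2, ℚ) → V) (hχ : CSPFin.UnipKilling q m χ) :
    (∀ x ∈ zInv q, (Odd m ∨ CSPFin.InIdeal q 2 x) → ∀ g ∈ CSPFin.GamLoc q m,
      χ (CSPFin.uu x * g * (CSPFin.uu x)⁻¹) = χ g) ∧
    (∀ y ∈ zInv q, (Odd m ∨ CSPFin.InIdeal q 2 y) → ∀ g ∈ CSPFin.GamLoc q m,
      χ (CSPFin.ll y * g * (CSPFin.ll y)⁻¹) = χ g) ∧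
    (∀ g ∈ CSPFin.GamLoc q m, χ (CSPFin.conjJ g) = χ g) := by
  have hpar : ∀ x : ℚ, ∀ hx : x ∈ zInv q, (Odd m ∨ CSPFin.InIdeal q 2 x) →
      (Odd m ∨ ∃ t : ↥(zInv q), (⟨x, hx⟩ : ↥(zInv q)) = 2 * t) := by
    intro x hx h
    rcases h with h | ⟨t, ht, e⟩
    · exact Or.inl h
    · refine Or.inr ⟨⟨t, ht⟩, Subtype.ext ?_⟩
      have e' : x = 2 * t := by rw [e]; norm_num
      push_cast
      exact e'
  refine ⟨?_, ?_, ?_⟩
  · intro x hx hxm g hg
    rw [GamLoc_eq_congLoc] at hg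
    have hγ := uR_mem_cenMod hJ ⟨x, hx⟩ (hpar x hx hxm)
    have hmem := conj_mul_inv_mem_UC hγ hg
    rw [mapSL_uR] at hmem
    have hslu : (uR (incl q ⟨x, hx⟩) : SL(2, ℚ)) ∈ slLoc q := by
      rw [mem_slLoc]
      intro i j
      fin_cases i <;> fin_cases j <;> simp [(zInv q).zero_mem, (zInv q).one_mem, hx]
    exact eq_of_mul_inv_mem_UC hχ (conj_mem_congLoc hslu hg) hg hmem
  · intro y hy hym g hg
    rw [GamLoc_eq_congLoc] at hg
    have hγ := lR_mem_cenMod hJ ⟨y, hy⟩ (hpar y hy hym)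
    have hmem := conj_mul_inv_mem_UC hγ hg
    rw [mapSL_lR] at hmem
    have hsll : (lR (incl q ⟨y, hy⟩) : SL(2, ℚ)) ∈ slLoc q := by
      rw [mem_slLoc]
      intro i j
      fin_cases i <;> fin_cases j <;> simp [(zInv q).zero_mem, (zInv q).one_mem, hy]
    exact eq_of_mul_inv_mem_UC hχ (conj_mem_congLoc hsll hg) hg hmem
  · intro g hg
    rw [GamLoc_eq_congLoc] at hg
    have hcj := cenJ_of_claimJ_zInv hJ g hg
    rw [← conjDiag_neg_one_eq_conjJ]
    exact eq_of_mul_inv_mem_UC hχ (conjDiag_neg_one_mem_congLoc hg) hg hcj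

/-- **Bridge (c) ⇒ (b)**: Claim J over `ℤ[1/q]` at level `m` gives `CSPFin.Cen q p m`. -/
theorem cen_of_claimJ {q m : ℕ} (p : ℕ)
    (hJ : ∀ g ∈ Gam (idealM q m), conjDiag (-1 : (↥(zInv q))ˣ) g * g⁻¹ ∈ EC (idealM q m)) :
    CSPFin.Cen q p m :=
  fun χ hχ => inv_of_claimJ hJ χ hχ

end Fermat.Agent.LR.CenBridge
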