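/-
Program M (S41), node D2 (finish, helper18), part 4: assembly.

* `kill_of_inv`      : locality (from the invariance of the twists) + the Dirichlet kill: every
  unipotent-killing `ψ` on `Γ(M0)` vanishes on `Γ(M0 k)`;
* `cspPar_of_kill`   : translation to `IharaPar.CSPPar N q p`;
* `cspPar_of_cen_odd`, `cspPar_of_cen_four` : `CSPPar` from `(Cen)` at odd levels (`N` odd), resp. at
  the levels divisible by `4` (`q` odd, any `N`);
* `cspPar_of_odd`    : **unconditional** `CSPPar N q p` for `N` odd (any prime `q ∤ N`, `q = 2`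
  included), from helper1's Claim J (`CSPToQ.cen_odd`) and helper10/helper21's `q = 2` case
  (`CSPQ2`).
-/
import Mathlib
import Fermat.Agent.LR.CSPKill
import Fermat.Agent.LR.CenBridge
import Fermat.Agent.LR.CSPToQ
import Fermat.Agent.LR.CSPQ2
import Fermat.Agent.LR.IharaPar

set_option autoImplicit false
set_option linter.unusedSimpArgs false
set_option linter.unnecessarySeqFocus false
set_option linter.unusedVariables false
set_option linter.unusedSectionVars false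

namespace Fermat.Agent.LR.CSPFin

open Matrix
open scoped MatrixGroups
open Fermat.Agent.LR.Gen

/-- **The finish of D2** (#509): if every unipotent-killing character at the levels `m`
(`M0 ∣ m`, `m` prime to `Q`) is fully invariant at level `m k`, then every unipotent-killing `ψ` on
`Γ(M0)` vanishes on `Γ(M0 k)`. -/
theorem kill_of_inv {q p M0 k Q : ℕ} (hq : q.Prime) (hp : p.Prime) (hp2 : p ≠ 2) (hpq : p ≠ q)
    (hM0 : 0 < M0) (hk : 0 < k) (hQ : 0 < Q) (hMQ : (M0 * k).Coprime Q) (hpM : p ∣ M0)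
    (H : ∀ m, M0 ∣ m → m.Coprime Q → ∀ χ : SL(2, ℚ) → ZMod p, UnipKilling q m χ →
      Inv q (m * k) χ)
    {ψ : SL(2, ℚ) → ZMod p} (hψ : UnipKilling q M0 ψ) : ∀ g ∈ GamLoc q (M0 * k), ψ g = 0 := by
  have hψM : UnipKilling q (M0 * k) ψ := hψ.of_dvd (Dvd.intro _ rfl)
  have hM0Q : M0.Coprime Q := Nat.Coprime.coprime_dvd_left (Dvd.intro _ rfl) hMQ
  have hI : Inv q (M0 * k) ψ := H M0 dvd_rfl hM0Q ψ hψ
  have hloc : LocalAt q (M0 * k) Q ψ := by
    intro n' hn' hn'Q X hX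
    have hn'cop : n'.Coprime Q := by
      have := hn'Q.gcd_eq
      unfold Nat.Coprime
      rw [this]; simp
    have hcop : (M0 * (M0 * k * n')).Coprime Q :=
      Nat.Coprime.mul_left hM0Q (Nat.Coprime.mul_left hMQ hn'cop)
    have h1 := H (M0 * (M0 * k * n')) (Dvd.intro _ rfl) hcop _ (hψ.twist_inv hn')
    have h2 := H (M0 * (M0 * k * n')) (Dvd.intro _ rfl) hcop _ (hψ.twist hn')
    have hd : M0 * (M0 * k * n') * k ∣ M0 * k * (M0 * k * n') := ⟨1, by ring⟩
    exact locality_sq hn' ψ hI (h1.of_dvd hd) (h2.of_dvd hd) hX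
  have hV : ∀ v : ZMod p, p • v = 0 := by
    intro v
    rw [nsmul_eq_mul, ZMod.natCast_self, zero_mul]
  exact psi_eq_zero hq hp hp2 hpq (Nat.mul_pos hM0 hk) (Dvd.dvd.mul_right hpM k) hQ hV hψM hI.u
    hloc

/-! ### Translation to `IharaPar.CSPPar` -/

theorem GamLoc_le_gamma0Loc {N q m : ℕ} (h : N ∣ m) : GamLoc q m ≤ gamma0Loc N q := by
  rw [CenBridge.GamLoc_eq_congLoc]
  exact CenShape.congLoc_le_gamma0Loc h

/-- The function on `SL(2, ℚ)` attached to a homomorphism on `Γ₀(N)[1/q]`. -/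
noncomputable def psiOf {N q p : ℕ} (φ : ↥(gamma0Loc N q) →* Multiplicative (ZMod p))
    (g : SL(2, ℚ)) : ZMod p := by
  classical
  exact if h : g ∈ gamma0Loc N q then Multiplicative.toAdd (φ ⟨g, h⟩) else 0

theorem psiOf_of_mem {N q p : ℕ} (φ : ↥(gamma0Loc N q) →* Multiplicative (ZMod p))
    {g : SL(2, ℚ)} (h : g ∈ gamma0Loc N q) : psiOf φ g = Multiplicative.toAdd (φ ⟨g, h⟩) := by
  unfold psiOf
  exact dif_pos h

theorem unipKilling_psiOf {N q p m : ℕ} (φ : ↥(gamma0Loc N q) →* Multiplicative (ZMod p))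
    (hφ : ∀ g : ↥(gamma0Loc N q), IharaPar.IsUnip (g : SL(2, ℚ)) → φ g = 1) (h : N ∣ m) :
    UnipKilling q m (psiOf φ) where
  map_mul g k hg hk := by
    have hg' := GamLoc_le_gamma0Loc h hg
    have hk' := GamLoc_le_gamma0Loc h hk
    rw [psiOf_of_mem φ hg', psiOf_of_mem φ hk', psiOf_of_mem φ (mul_mem hg' hk'), ← toAdd_mul,
      ← map_mul]
    rfl
  unip g hg htr := by
    have hg' := GamLoc_le_gamma0Loc h hg
    rw [psiOf_of_mem φ hg', hφ ⟨g, hg'⟩ (CenShape.isUnip_iff.mpr htr)]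
    rfl

/-- `CSPPar` from the vanishing of the unipotent-killing characters on a deeper level. -/
theorem cspPar_of_kill {N q p M0 M : ℕ} (hM : 0 < M) (hNM : N ∣ M0)
    (hkill : ∀ ψ : SL(2, ℚ) → ZMod p, UnipKilling q M0 ψ → ∀ g ∈ GamLoc q M, ψ g = 0) :
    IharaPar.CSPPar N q p := by
  intro φ hφ
  refine ⟨M, hM, fun g hg => ?_⟩
  have hg' : (g : SL(2, ℚ)) ∈ GamLoc q M := by
    rw [CenBridge.GamLoc_eq_congLoc]; exact hg
  have h0 := hkill (psiOf φ) (unipKilling_psiOf φ hφ hNM) _ hg'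
  rw [psiOf_of_mem φ g.2] at h0
  have : φ g = Multiplicative.ofAdd (Multiplicative.toAdd (φ g)) := rfl
  rw [this]
  have e : (⟨(g : SL(2, ℚ)), g.2⟩ : ↥(gamma0Loc N q)) = g := rfl
  rw [e] at h0
  rw [h0]
  rfl

/-! ### `CSPPar` from `(Cen)` -/

/-- `CSPPar N q p` for `N` odd from `(Cen)` at the odd levels. -/
theorem cspPar_of_cen_odd {N q p : ℕ} (hN : 0 < N) (hq : q.Prime) (hqN : ¬ q ∣ N) (hp : p.Prime)
    (hp2 : p ≠ 2) (hpq : p ≠ q) (hN2 : Odd N)
    (hCen : ∀ m, 0 < m → m.Coprime q → Odd m → Cen q p m) : IharaPar.CSPPar N q p := by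
  have hpodd : Odd p := hp.odd_of_ne_two hp2
  have hM0 : 0 < p * N := Nat.mul_pos hp.pos hN
  have hcop2 : (p * N).Coprime 2 := by
    rw [Nat.coprime_two_right]  
    exact hpodd.mul hN2
  have hcopq : (p * N).Coprime q := by
    refine Nat.Coprime.mul_left ((Nat.coprime_primes hp hq).mpr hpq) ?_
    exact ((Nat.Prime.coprime_iff_not_dvd hq).mpr hqN).symm
  refine cspPar_of_kill (M0 := p * N) (M := p * N * 1) (by omega) (Dvd.intro_left _ rfl) ?_
  intro ψ hψ
  refine kill_of_inv (Q := 2 * q) hq hp hp2 hpq hM0 Nat.one_pos (by have := hq.pos; omega) ?_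
    (Dvd.intro _ rfl) ?_ hψ
  · rw [mul_one]; exact Nat.Coprime.mul_right hcop2 hcopq
  · intro m hm hmQ χ hχ
    have hm2 : m.Coprime 2 := Nat.Coprime.coprime_dvd_right (Dvd.intro _ rfl) hmQ
    have hmq : m.Coprime q := Nat.Coprime.coprime_dvd_right (Dvd.intro_left _ rfl) hmQ
    have hmodd : Odd m := Nat.coprime_two_right.mp hm2
    have hmpos : 0 < m := hmodd.pos
    exact (inv_of_cen_odd hmodd (hCen m hmpos hmq hmodd) hχ).of_dvd (by simp)

/-- `CSPPar N q p` for `q` odd from `(Cen)` at the levels divisible by `4`. -/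
theorem cspPar_of_cen_four {N q p : ℕ} (hN : 0 < N) (hq : q.Prime) (hqN : ¬ q ∣ N) (hp : p.Prime)
    (hp2 : p ≠ 2) (hpq : p ≠ q) (hq2 : q ≠ 2)
    (hCen : ∀ m, 0 < m → m.Coprime q → 4 ∣ m → Cen q p m) : IharaPar.CSPPar N q p := by
  have hM0 : 0 < 4 * (p * N) := by have := Nat.mul_pos hp.pos hN; omega
  have h2q : Nat.Coprime 2 q := (Nat.coprime_primes Nat.prime_two hq).mpr (Ne.symm hq2)
  have h4q : Nat.Coprime 4 q := by
    have : (4 : ℕ) = 2 * 2 := by norm_num
    rw [this]; exact Nat.Coprime.mul_left h2q h2q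
  have hcopq : (p * N).Coprime q := by
    refine Nat.Coprime.mul_left ((Nat.coprime_primes hp hq).mpr hpq) ?_
    exact ((Nat.Prime.coprime_iff_not_dvd hq).mpr hqN).symm
  refine cspPar_of_kill (M0 := 4 * (p * N)) (M := 4 * (p * N) * 4) (by omega)
    ⟨4 * p, by ring⟩ ?_
  intro ψ hψ
  refine kill_of_inv (Q := q) hq hp hp2 hpq hM0 (by norm_num) hq.pos ?_
    ⟨4 * N, by ring⟩ ?_ hψ
  · exact Nat.Coprime.mul_left (Nat.Coprime.mul_left h4q hcopq) h4q
  · intro m hm hmq χ hχ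
    have hmpos : 0 < m := by
      rcases Nat.eq_zero_or_pos m with h0 | h
      · exfalso
        rw [h0, Nat.coprime_zero_left] at hmq
        exact hq.ne_one hmq
      · exact h
    have h4m : 4 ∣ m := Dvd.dvd.trans (Dvd.intro _ rfl) hm
    have hC1 := hCen m hmpos hmq h4m
    have hC2 := hCen (m * 2) (by omega) (Nat.Coprime.mul_left hmq h2q)
      (Dvd.dvd.mul_right h4m 2)
    exact (inv_four_mul hC1 hC2 hχ).of_dvd ⟨1, by ring⟩

/-! ### The unconditional case `N` odd -/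

/-- `(Cen)` at every odd level prime to `q`, for every prime `q` (`q = 2` included). -/
theorem cen_of_odd (q : ℕ) (hq : q.Prime) (p m : ℕ) (hm : 0 < m) (hmq : m.Coprime q)
    (hm2 : Odd m) : Cen q p m := by
  have hm2' : Nat.Coprime m 2 := Nat.coprime_two_right.mpr hm2
  by_cases hq2 : q = 2
  · subst hq2
    exact CSPToQ.cen_of_hJ (CSPQ2.claimJ_zInv_two m hm.ne' hm2')
      (fun _ => CSPQ2.cenMod_zInv_two_eq_top m hm.ne' hm2')
  · exact CSPToQ.cen_odd q hq hq2 p m hm.ne' hm2' hmq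

/-- **`IharaPar.CSPPar N q p` for `N` odd**, every prime `q ∤ N` (`q = 2` included), every odd prime
`p ≠ q`. -/
theorem cspPar_of_odd {N q p : ℕ} (hN : 0 < N) (hq : q.Prime) (hqN : ¬ q ∣ N) (hp : p.Prime)
    (hp2 : p ≠ 2) (hpq : p ≠ q) (hN2 : Odd N) : IharaPar.CSPPar N q p :=
  cspPar_of_cen_odd hN hq hqN hp hp2 hpq hN2 (fun m hm hmq hm2 => cen_of_odd q hq p m hm hmq hm2)

end Fermat.Agent.LR.CSPFin
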