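/-
Program M (S41), node D2 — FINAL EXPORT (helper18): the weak congruence subgroup property
`IharaPar.CSPPar N q p` for EVERY `N ≥ 1`, every prime `q ∤ N` (`q = 2` included) and every odd
prime `p ≠ q`, unconditionally.

Inputs: the finish of #509 (`LR/CSPLocal`, `LR/CSPSymbol`, `LR/CSPKill`, `LR/CSPMain`, helper18;
`LR/CSPSumTrick`, helper23) and `(Cen)`:
* `q` odd, all levels: Claim J at every level (`CSPClaimJAll.claimJ_zInv_all`, helper1/helper21)
  + `CSPCenOdd.cenMod_odd` (helper1/helper20) through the bridge `CSPToQ.cen_of_hJ`;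
* `q = 2`, odd levels: `CSPQ2` (helper10/helper21).
-/
import Mathlib
import Fermat.Agent.LR.CSPMain
import Fermat.Agent.LR.CSPClaimJAll

set_option autoImplicit false

namespace Fermat.Agent.LR.CSPFin

open Fermat.Agent.LR.Gen

/-- `(Cen)` at every level prime to the odd prime `q` (even levels included, in the weak form
`u(2x)`, `l(2y)`, `J`). -/
theorem cen_all (q : ℕ) (hq : q.Prime) (hq2 : q ≠ 2) (p m : ℕ) (hm : 0 < m)
    (hmq : m.Coprime q) : Cen q p m :=
  CSPToQ.cen_of_hJ (CSPClaimJAll.claimJ_zInv_all q hq hq2 m hm.ne' hmq)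
    (fun hodd => CSPCenOdd.cenMod_odd q hq hq2 m hm.ne' (Nat.coprime_two_right.mpr hodd) hmq)

/-- **Node D2**: the weak congruence subgroup property for the unipotent-killing homomorphisms
`Γ₀(N)[1/q] → 𝔽_p`, for every `N ≥ 1`, every prime `q ∤ N` and every odd prime `p ≠ q`. -/
theorem cspPar (N q p : ℕ) (hN : 0 < N) (hq : q.Prime) (hqN : ¬ q ∣ N) (hp : p.Prime)
    (hp2 : p ≠ 2) (hpq : p ≠ q) : IharaPar.CSPPar N q p := by
  by_cases hq2 : q = 2
  · subst hq2
    have hN2 : Odd N := by
      rcases Nat.even_or_odd N with h | h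
      · exact absurd (even_iff_two_dvd.mp h) hqN
      · exact h
    exact cspPar_of_odd hN hq hqN hp hp2 hpq hN2
  · exact cspPar_of_cen_four hN hq hqN hp hp2 hpq hq2
      (fun m hm hmq _ => cen_all q hq hq2 p m hm hmq)

end Fermat.Agent.LR.CSPFin
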