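/-
Program M, node D2 / bypass (helper20): conjugation invariance in `SL(2, ℚ)` language.
A character `φ` of `Γ₀(N)[1/q]` killing the unipotent elements, restricted to the principal
congruence subgroup of level `m` (`N ∣ m`), is invariant under conjugation by every element of
`SL(2, ℤ[1/q])` lying in `SL2R.cenMod (m)` — in particular by all of `SL(2, ℤ[1/q])` when
`cenMod (m) = ⊤`.
-/
import Mathlib
import Fermat.Agent.LR.CSPBridge

set_option autoImplicit false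

namespace Fermat.Agent.LR.CSPInvQ

open Matrix
open Fermat.Agent.LR.Gen Fermat.Agent.LR.SL2R Fermat.Agent.LR.CSP Fermat.Agent.LR.CSPBridge
open Fermat.Agent.LR.IharaGroup Fermat.Agent.LR.IharaPar
open scoped MatrixGroups

variable {q : ℕ}

theorem entries_mem_of_isCongOne {m : ℕ} {g : SL(2, ℚ)} (hg : IsCongOne q m g) :
    ∀ i j, g i j ∈ zInv q := by
  intro i j
  obtain ⟨t, ht, h⟩ := hg i j
  have hm : (m : ℚ) ∈ zInv q := by exact_mod_cast intCast_mem_zInv q (m : ℤ)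
  have h1 : g i j = (m : ℚ) * t + (1 : Matrix (Fin 2) (Fin 2) ℚ) i j := by rw [← h]; ring
  rw [h1]
  refine (zInv q).add_mem ((zInv q).mul_mem hm ht) ?_
  fin_cases i <;> fin_cases j <;> simp [(zInv q).zero_mem, (zInv q).one_mem]

/-- every `g ≡ 1 mod m` comes from `Gam (m)` -/
theorem exists_of_isCongOne {m : ℕ} {g : SL(2, ℚ)} (hg : IsCongOne q m g) :
    ∃ g' : SL(2, A q), g' ∈ Gam (Ideal.span {(m : A q)}) ∧ toQ q g' = g := by
  refine ⟨ofQ g (entries_mem_of_isCongOne hg), ?_, toQ_ofQ _ _⟩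
  rw [← isCongOne_toQ_iff, toQ_ofQ]
  exact hg

theorem exists_of_mem_gamma0Loc_one {γ : SL(2, ℚ)} (hγ : γ ∈ gamma0Loc 1 q) :
    ∃ γ' : SL(2, A q), toQ q γ' = γ :=
  ⟨ofQ γ hγ.1, toQ_ofQ _ _⟩

theorem mem_gamma0Loc_of_isCongOne {N m : ℕ} (hNm : N ∣ m) {g : SL(2, ℚ)}
    (hg : IsCongOne q m g) : g ∈ gamma0Loc N q := by
  obtain ⟨g', hg', rfl⟩ := exists_of_isCongOne hg
  exact Gam_le_G0 hNm hg'

theorem isCongOne_conj {m : ℕ} {γ g : SL(2, ℚ)} (hγ : γ ∈ gamma0Loc 1 q)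
    (hg : IsCongOne q m g) : IsCongOne q m (γ * g * γ⁻¹) := by
  obtain ⟨g', hg', rfl⟩ := exists_of_isCongOne hg
  obtain ⟨γ', rfl⟩ := exists_of_mem_gamma0Loc_one hγ
  have : toQ q γ' * toQ q g' * (toQ q γ')⁻¹ = toQ q (γ' * g' * γ'⁻¹) := by
    rw [map_mul, map_mul, map_inv]
  rw [this, isCongOne_toQ_iff]
  exact (inferInstance : (Gam (Ideal.span {(m : A q)})).Normal).conj_mem g' hg' γ'

/-- the restriction of `φ` to `Gam (m)`, `N ∣ m` -/
noncomputable def restrTo {N m : ℕ} (hNm : N ∣ m) {V : Type*} [CommGroup V]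
    (φ : ↥(gamma0Loc N q) →* V) : ↥(Gam (Ideal.span {(m : A q)})) →* V :=
  φ.comp ((G0Equiv q N).toMonoidHom.comp (Subgroup.inclusion (Gam_le_G0 hNm)))

theorem restrTo_apply {N m : ℕ} (hNm : N ∣ m) {V : Type*} [CommGroup V]
    (φ : ↥(gamma0Loc N q) →* V) (g : SL(2, A q)) (hg : g ∈ Gam (Ideal.span {(m : A q)})) :
    restrTo hNm φ ⟨g, hg⟩ = φ ⟨toQ q g, by
      have := Gam_le_G0 (q := q) hNm hg
      exact this⟩ := rfl

theorem restrTo_kills_E {N m : ℕ} (hNm : N ∣ m) {V : Type*} [CommGroup V]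
    (φ : ↥(gamma0Loc N q) →* V)
    (hφ : ∀ g : ↥(gamma0Loc N q), IsUnip (g : SL(2, ℚ)) → φ g = 1) :
    ∀ (x : SL(2, A q)) (hx : x ∈ E (Ideal.span {(m : A q)})),
      restrTo hNm φ ⟨x, E_le_Gam _ hx⟩ = 1 := by
  apply kills_E_of_kills_unip
  intro g hg hu
  rw [restrTo_apply]
  exact hφ _ ((isUnip_toQ_iff g).2 hu)

/-- **Invariance under an element of `cenMod (m)`.** -/
theorem map_conj_eq_of_mem_cenMod {N m : ℕ} (hNm : N ∣ m) {V : Type*} [CommGroup V]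
    (φ : ↥(gamma0Loc N q) →* V)
    (hφ : ∀ g : ↥(gamma0Loc N q), IsUnip (g : SL(2, ℚ)) → φ g = 1)
    {γ' : SL(2, A q)} (hγ' : γ' ∈ cenMod (Ideal.span {(m : A q)}))
    {g : SL(2, ℚ)} (hg : IsCongOne q m g) :
    φ ⟨toQ q γ' * g * (toQ q γ')⁻¹, mem_gamma0Loc_of_isCongOne hNm
        (isCongOne_conj (toQ_mem_gamma0Loc_one γ') hg)⟩ =
      φ ⟨g, mem_gamma0Loc_of_isCongOne hNm hg⟩ := by
  obtain ⟨g', hg', rfl⟩ := exists_of_isCongOne hg
  have hconj : γ' * g' * γ'⁻¹ ∈ Gam (Ideal.span {(m : A q)}) :=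
    (inferInstance : (Gam (Ideal.span {(m : A q)})).Normal).conj_mem g' hg' γ'
  have := map_eq_of_mul_inv_mem_EC (restrTo hNm φ) (restrTo_kills_E hNm φ hφ) hconj hg'
    (mem_cenMod.1 hγ' g' hg')
  rw [restrTo_apply, restrTo_apply] at this
  have e : (⟨toQ q γ' * toQ q g' * (toQ q γ')⁻¹, mem_gamma0Loc_of_isCongOne hNm
      (isCongOne_conj (toQ_mem_gamma0Loc_one γ') hg)⟩ : ↥(gamma0Loc N q)) =
      ⟨toQ q (γ' * g' * γ'⁻¹), by
        have := Gam_le_G0 (q := q) hNm hconj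
        exact this⟩ := by
    apply Subtype.ext
    simp only [map_mul, map_inv]
  rw [e]
  exact this

/-- **Invariance under `SL(2, ℤ[1/q])` when `cenMod (m) = ⊤`** (the output of (Cen)). -/
theorem map_conj_eq {N m : ℕ} (hNm : N ∣ m) {V : Type*} [CommGroup V]
    (φ : ↥(gamma0Loc N q) →* V)
    (hφ : ∀ g : ↥(gamma0Loc N q), IsUnip (g : SL(2, ℚ)) → φ g = 1)
    (hcen : cenMod (Ideal.span {(m : A q)}) = ⊤)
    {γ : SL(2, ℚ)} (hγ : γ ∈ gamma0Loc 1 q) {g : SL(2, ℚ)} (hg : IsCongOne q m g) :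
    φ ⟨γ * g * γ⁻¹, mem_gamma0Loc_of_isCongOne hNm (isCongOne_conj hγ hg)⟩ =
      φ ⟨g, mem_gamma0Loc_of_isCongOne hNm hg⟩ := by
  obtain ⟨γ', rfl⟩ := exists_of_mem_gamma0Loc_one hγ
  exact map_conj_eq_of_mem_cenMod hNm φ hφ (by rw [hcen]; exact Subgroup.mem_top _) hg

end Fermat.Agent.LR.CSPInvQ
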