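/-
Program M, node D2 (helper1): the **normalisation step** of Claim J (finding #496, Step 1) as a
stand-alone lemma with an abstract prime selector, for reuse in the `q = 2` variant (L7) and other
variants.  Over `R = ℤ[1/q]` (any prime `q`, `q = 2` allowed) and an odd level `m` prime to `q`:
inside the `E`-class of `g ∈ Γ(m)` there is `g' = uR (m x) * (lR (m y) * g)` whose upper left entry
is `π / q ^ k`, where `π` is ANY natural number supplied by a selector `hsel` in the residue class of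
the numerator of `a(g)` modulo an odd modulus `M` (a multiple of `m`, prime to `q`).
-/
import Fermat.Agent.LR.CSPClaimJ

set_option autoImplicit false

namespace Fermat.Agent.LR.CSPNormalize

open Fermat.Agent.LR.SL2R Fermat.Agent.LR.CSPClaimJ
open scoped MatrixGroups

variable {R : Type*} [CommRing R]

/-- **Normalisation step** (generic ring form).  `P` is the property of the selected number `π`
(typically: `π` prime, in prescribed classes modulo auxiliary moduli, with an exponent `k₀` such that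
`q ^ (2 k₀) = -1` in `ZMod π`, ...).  The selector is asked for `π ≡ A (mod M)` where `M` is odd,
prime to `q`, divisible by `m`, `A` is prime to `M`, and `A ≡ q ^ k (mod m)`. -/
theorem exists_normalized [CharZero R] (q : ℕ) (hq : q.Prime) (qu : Rˣ)
    (hqu : (qu : R) = (q : R)) (hrep : ∀ r : R, ∃ k : ℕ, ∃ n : ℤ, r * (q : R) ^ k = (n : R))
    (m : ℕ) (hm : m ≠ 0) (hm2 : Nat.Coprime m 2) (hmq : Nat.Coprime m q)
    {g : SL(2, R)} (hg : g ∈ Gam (Ideal.span {(m : R)})) (P : ℕ → Prop)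
    (hsel : ∀ (M k : ℕ) (A : ℤ), M ≠ 0 → Nat.Coprime M 2 → Nat.Coprime M q → m ∣ M →
      IsCoprime A (M : ℤ) → A ≡ (q : ℤ) ^ k [ZMOD (m : ℤ)] →
      ∃ π : ℕ, P π ∧ (π : ℤ) ≡ A [ZMOD (M : ℤ)]) :
    ∃ (g' : SL(2, R)) (k π : ℕ), g' ∈ Gam (Ideal.span {(m : R)}) ∧
      g' * g⁻¹ ∈ E (Ideal.span {(m : R)}) ∧ P π ∧ g' 0 0 * (q : R) ^ k = (π : R) := by
  set I : Ideal R := Ideal.span {(m : R)} with hI
  have hcast : Function.Injective ((↑) : ℤ → R) := Int.cast_injective
  set qi : R := ((qu⁻¹ : Rˣ) : R) with hqi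
  have hqqi : (q : R) * qi = 1 := by rw [← hqu, hqi]; simp
  have hqqik : ∀ j : ℕ, (q : R) ^ j * qi ^ j = 1 := fun j => by rw [← mul_pow, hqqi, one_pow]
  obtain ⟨k, A, B, C, D, hA, hB, hC, hD⟩ :=
    exists_common_den q hrep (g 0 0) (g 0 1) (g 1 0) (g 1 1)
  have hdet : A * D - B * C = (q : ℤ) ^ (2 * k) := by
    apply hcast
    push_cast
    rw [← hA, ← hB, ← hC, ← hD]
    have := det_eq g
    linear_combination ((q : R) ^ (2 * k)) * this
  have hq0 : (q : ℤ) ≠ 0 := by exact_mod_cast hq.ne_zero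
  have hmodd : Odd (m : ℤ) := by
    have : Odd m := Nat.coprime_two_right.mp hm2
    exact_mod_cast this
  -- Step 1a: `y ∈ {0, 1}` with `C + m y A` nonzero, and odd if `q` is odd
  obtain ⟨y, hy0, hyodd⟩ : ∃ y : ℤ, C + (m : ℤ) * y * A ≠ 0 ∧
      (q ≠ 2 → Odd (C + (m : ℤ) * y * A)) := by
    by_cases hq2 : q = 2
    · by_cases hC0 : C = 0
      · refine ⟨1, ?_, fun h => absurd hq2 h⟩
        have hA0 : A ≠ 0 := by
          rintro rfl
          rw [hC0] at hdet
          simp at hdet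
          exact absurd hdet.symm (pow_ne_zero _ hq0)
        rw [hC0, zero_add, mul_one]
        exact mul_ne_zero (by exact_mod_cast hm) hA0
      · exact ⟨0, by simpa using hC0, fun h => absurd hq2 h⟩
    · have hqodd : Odd (q : ℤ) := by
        rcases hq.eq_two_or_odd' with h | h
        · exact absurd h hq2
        · exact_mod_cast h
      rcases Int.even_or_odd C with hCe | hCo
      · have hAodd : Odd A := by
          have h1 : Odd (A * D - B * C) := by rw [hdet]; exact hqodd.pow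
          have h2 : Even (B * C) := hCe.mul_left B
          have h3 : Odd (A * D) := by
            have : A * D = (A * D - B * C) + B * C := by ring
            rw [this]; exact h1.add_even h2
          exact (Int.odd_mul.mp h3).1
        have hodd : Odd (C + (m : ℤ) * 1 * A) := by
          rw [mul_one, add_comm]; exact (hmodd.mul hAodd).add_even hCe
        refine ⟨1, ?_, fun _ => hodd⟩
        rintro h0
        rw [h0] at hodd
        exact (Int.not_even_iff_odd.mpr hodd) (by simp)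
      · refine ⟨0, ?_, fun _ => by simpa using hCo⟩
        rintro h0
        simp only [mul_zero, zero_mul, add_zero] at h0
        rw [h0] at hCo
        exact (Int.not_even_iff_odd.mpr hCo) (by simp)
  set C' : ℤ := C + (m : ℤ) * y * A with hC'
  obtain ⟨v, C₂, hC₂, hqC₂⟩ := exists_eq_pow_mul_not_dvd hq hy0
  have hC₂0 : C₂ ≠ 0 := by
    rintro rfl
    exact hy0 (by rw [hC₂]; simp)
  have hC₂odd : Odd C₂ := by
    by_cases hq2 : q = 2
    · rw [← Int.natAbs_odd, ← Nat.not_even_iff_odd, even_iff_two_dvd]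
      rwa [hq2] at hqC₂
    · have := hyodd hq2
      rw [hC₂] at this
      exact (Int.odd_mul.mp this).2
  -- the element after the first move
  have hmyI : (m : R) * (y : R) ∈ I := Ideal.mem_span_singleton'.mpr ⟨(y : R), mul_comm _ _⟩
  set g₁ : SL(2, R) := lR ((m : R) * (y : R)) * g with hg₁
  have hg₁mem : g₁ ∈ Gam I := mul_mem (lR_mem_Gam hmyI) hg
  have h00 : g₁ 0 0 = g 0 0 := by rw [hg₁, SL2R.mul_apply']; simp
  have h10 : g₁ 1 0 = (m : R) * (y : R) * g 0 0 + g 1 0 := by rw [hg₁, SL2R.mul_apply']; simp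
  have hC'R : g₁ 1 0 * (q : R) ^ k = (C' : R) := by
    rw [h10, hC']; push_cast; rw [← hA, ← hC]; ring
  -- coprimality of `A` and `m`, and `A ≡ q ^ k (mod m)`
  have hAmod : A ≡ (q : ℤ) ^ k [ZMOD (m : ℤ)] := by
    rw [mem_Gam] at hg
    obtain ⟨r, hr⟩ := Ideal.mem_span_singleton'.mp hg.1
    obtain ⟨j, n, hn⟩ := hrep r
    have h1 : (A - (q : ℤ) ^ k) * (q : ℤ) ^ j = n * (q : ℤ) ^ k * m := by
      apply hcast
      push_cast
      rw [← hA, ← hn]
      linear_combination ((q : R) ^ (k + j)) * hr.symm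
    have hqm : IsCoprime (m : ℤ) ((q : ℤ) ^ j) := by
      apply IsCoprime.pow_right
      exact Nat.isCoprime_iff_coprime.mpr hmq
    have h2 : (m : ℤ) ∣ (A - (q : ℤ) ^ k) * (q : ℤ) ^ j := ⟨n * (q : ℤ) ^ k, by rw [h1]; ring⟩
    have h3 : (m : ℤ) ∣ A - (q : ℤ) ^ k := hqm.dvd_of_dvd_mul_right h2
    exact (Int.modEq_iff_dvd.mpr h3).symm
  have hAm : IsCoprime A (m : ℤ) := by
    have hqm : IsCoprime ((q : ℤ) ^ k) (m : ℤ) := by
      apply IsCoprime.pow_left
      exact Nat.isCoprime_iff_coprime.mpr hmq.symm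
    obtain ⟨t, ht⟩ := (Int.modEq_iff_dvd.mp hAmod.symm)
    have : A = (q : ℤ) ^ k + (m : ℤ) * t := by linarith
    rw [this]
    exact hqm.add_mul_left_left t
  -- coprimality of `A` and `C₂`
  have hdet₁ : A * (D + (m : ℤ) * y * B) - B * C' = (q : ℤ) ^ (2 * k) := by
    rw [hC', ← hdet]; ring
  have hqC₂' : IsCoprime ((q : ℤ) ^ (2 * k)) C₂ := by
    apply IsCoprime.pow_left
    rw [Int.isCoprime_iff_gcd_eq_one, Int.gcd_eq_natAbs, Int.natAbs_natCast]
    exact (Nat.Prime.coprime_iff_not_dvd hq).mpr hqC₂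
  have hAC₂ : IsCoprime A C₂ := by
    obtain ⟨u, w, huw⟩ := hqC₂'
    refine ⟨u * (D + (m : ℤ) * y * B), w - u * B * (q : ℤ) ^ v, ?_⟩
    rw [← huw, ← hdet₁, hC₂]
    ring
  -- the modulus
  set M : ℕ := m * C₂.natAbs with hM
  have hM0 : M ≠ 0 := Nat.mul_ne_zero hm (Int.natAbs_ne_zero.mpr hC₂0)
  have hC₂natodd : Odd C₂.natAbs := Int.natAbs_odd.mpr hC₂odd
  have hM2 : Nat.Coprime M 2 := by
    apply Nat.Coprime.mul_left hm2
    exact (Nat.coprime_two_right.mpr hC₂natodd)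
  have hMq : Nat.Coprime M q := by
    apply Nat.Coprime.mul_left hmq
    exact ((Nat.Prime.coprime_iff_not_dvd hq).mpr hqC₂).symm
  have hAC₂' : IsCoprime A (C₂.natAbs : ℤ) := by
    rcases Int.natAbs_eq C₂ with h | h
    · rw [← h]; exact hAC₂
    · have : (C₂.natAbs : ℤ) = -C₂ := by omega
      rw [this]; exact hAC₂.neg_right
  have hAM : IsCoprime A (M : ℤ) := by
    rw [hM, Nat.cast_mul]
    exact hAm.mul_right hAC₂'
  obtain ⟨π, hPπ, hπA⟩ := hsel M k A hM0 hM2 hMq (Dvd.intro _ rfl) hAM hAmod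
  have hdvd1 : (m : ℤ) * C₂ ∣ (π : ℤ) - A := by
    have h1 : (M : ℤ) ∣ (π : ℤ) - A := hπA.symm.dvd
    have h2 : (m : ℤ) * C₂ ∣ (M : ℤ) := by
      rw [hM, Nat.cast_mul]
      exact mul_dvd_mul_left _ (Int.dvd_natAbs.mpr dvd_rfl)
    exact h2.trans h1
  obtain ⟨n₀, hn₀⟩ := hdvd1
  set x : R := (n₀ : R) * qi ^ v with hx
  have hmxI : (m : R) * x ∈ I := Ideal.mem_span_singleton'.mpr ⟨x, mul_comm _ _⟩
  set g' : SL(2, R) := uR ((m : R) * x) * g₁ with hg'
  have hg'mem : g' ∈ Gam I := mul_mem (uR_mem_Gam hmxI) hg₁mem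
  have hg'00 : g' 0 0 * (q : R) ^ k = (π : R) := by
    have h1 : g' 0 0 = g₁ 0 0 + (m : R) * x * g₁ 1 0 := by
      rw [hg', SL2R.mul_apply']; simp
    have hπR : (π : R) = (A : R) + (m : R) * (C₂ : R) * (n₀ : R) := by
      have : (π : ℤ) = A + (m : ℤ) * C₂ * n₀ := by linarith
      have h := congrArg (fun z : ℤ => (z : R)) this
      simpa using h
    have hCR : (C' : R) = (q : R) ^ v * (C₂ : R) := by
      have h := congrArg (fun z : ℤ => (z : R)) hC₂
      simpa using h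
    rw [h1, h00, add_mul, hA, mul_assoc ((m : R) * x), hC'R, hπR, hCR, hx]
    linear_combination ((m : R) * (n₀ : R) * (C₂ : R)) * ((mul_comm _ _).trans (hqqik v))
  refine ⟨g', k, π, hg'mem, ?_, hPπ, hg'00⟩
  have : g' * g⁻¹ = uR ((m : R) * x) * lR ((m : R) * (y : R)) := by
    rw [hg', hg₁]; group
  rw [this]
  exact mul_mem (uR_mem_E hmxI) (lR_mem_E hmyI)


/-- The normalisation step for `R = ℤ[1/q] = Gen.zInv q` (any prime `q`, odd level `m` prime to
`q`). -/
theorem exists_normalized_zInv (q : ℕ) (hq : q.Prime) (m : ℕ) (hm : m ≠ 0)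
    (hm2 : Nat.Coprime m 2) (hmq : Nat.Coprime m q)
    {g : SL(2, ↥(Gen.zInv q))} (hg : g ∈ Gam (Ideal.span {(m : ↥(Gen.zInv q))})) (P : ℕ → Prop)
    (hsel : ∀ (M k : ℕ) (A : ℤ), M ≠ 0 → Nat.Coprime M 2 → Nat.Coprime M q → m ∣ M →
      IsCoprime A (M : ℤ) → A ≡ (q : ℤ) ^ k [ZMOD (m : ℤ)] →
      ∃ π : ℕ, P π ∧ (π : ℤ) ≡ A [ZMOD (M : ℤ)]) :
    ∃ (g' : SL(2, ↥(Gen.zInv q))) (k π : ℕ), g' ∈ Gam (Ideal.span {(m : ↥(Gen.zInv q))}) ∧
      g' * g⁻¹ ∈ E (Ideal.span {(m : ↥(Gen.zInv q))}) ∧ P π ∧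
      g' 0 0 * (q : ↥(Gen.zInv q)) ^ k = (π : ↥(Gen.zInv q)) :=
  exists_normalized q hq (qUnit q hq.ne_zero) (qUnit_val q hq.ne_zero) (zInv_rep q) m hm hm2 hmq hg
    P hsel

/-- Transport along the `E`-class: a subgroup containing `E I` contains `g` as soon as it contains
some `g'` with `g' * g⁻¹ ∈ E I`. -/
theorem mem_of_mul_inv_mem_E {I : Ideal R} {S : Subgroup SL(2, R)} (hS : E I ≤ S)
    {g g' : SL(2, R)} (h : g' * g⁻¹ ∈ E I) (hg' : g' ∈ S) : g ∈ S := by
  have : g = (g' * g⁻¹)⁻¹ * g' := by group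
  rw [this]
  exact mul_mem (inv_mem (hS h)) hg'

end Fermat.Agent.LR.CSPNormalize
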