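import Fermat.Agent.LR.CSPSumTrick

/-!
# Program M, node D2: the sign-free finishing lemma in the shape of finding #524

`eq_one_of_sq_mul` is the counting lemma announced in finding #524 (`F (x y) = F x * F y`
whenever `x (1 - y)` is a nonzero square), WITHOUT the hypothesis `r % 4 = 3`; it is a
reformulation of `CSPSumTrick.eq_one_of_sq_shift`.  `eq_zero_of_sq_mul` is the additive version.
-/

namespace Fermat.Agent.LR.CSPSumTrick

variable {r : ℕ} [Fact r.Prime]

/-- Multiplicative shape: `F : ZMod r → V`, `F 1 = 1`, `F (x y) = F x * F y` whenever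
`x (1 - y)` is a nonzero square; then `F = 1` on nonzero classes (for `p` odd, `p ∤ r - 1`,
`V` of exponent `p`). -/
theorem eq_one_of_sq_mul {p : ℕ} (hp : p.Prime) (hp2 : p ≠ 2) (hrp : ¬ p ∣ r - 1)
    {V : Type*} [CommGroup V] (hV : ∀ v : V, v ^ p = 1) (F : ZMod r → V) (h1 : F 1 = 1)
    (hF : ∀ x y : ZMod r, x ≠ 0 → y ≠ 0 → x * (1 - y) ≠ 0 → IsSquare (x * (1 - y)) →
      F (x * y) = F x * F y) :
    ∀ x : ZMod r, x ≠ 0 → F x = 1 := by
  intro x hx
  have key := eq_one_of_sq_shift (r := r) hp hp2 hrp hV (fun u : (ZMod r)ˣ => F (u : ZMod r))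
    (by simpa using h1)
    (by
      intro a w t h
      have hxy : (a : ZMod r) * (1 - ((w * a⁻¹ : (ZMod r)ˣ) : ZMod r)) = (t : ZMod r) ^ 2 := by
        push_cast
        rw [mul_sub, mul_one, mul_comm (w : ZMod r), ← mul_assoc,
          mul_inv_cancel₀ (Units.ne_zero a), one_mul, h]
        ring
      have hne : (a : ZMod r) * (1 - ((w * a⁻¹ : (ZMod r)ˣ) : ZMod r)) ≠ 0 := by
        rw [hxy]; exact pow_ne_zero 2 (Units.ne_zero t)
      have hsq : IsSquare ((a : ZMod r) * (1 - ((w * a⁻¹ : (ZMod r)ˣ) : ZMod r))) := by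
        rw [hxy]; exact ⟨(t : ZMod r), sq _⟩
      have := hF (a : ZMod r) ((w * a⁻¹ : (ZMod r)ˣ) : ZMod r) (Units.ne_zero a)
        (Units.ne_zero _) hne hsq
      have e : (a : ZMod r) * ((w * a⁻¹ : (ZMod r)ˣ) : ZMod r) = (w : ZMod r) := by
        push_cast
        rw [mul_comm (w : ZMod r), ← mul_assoc, mul_inv_cancel₀ (Units.ne_zero a), one_mul]
      rw [e] at this
      exact this)
    (Units.mk0 x hx)
  simpa using key

/-- Additive shape of `eq_one_of_sq_mul`. -/
theorem eq_zero_of_sq_mul {p : ℕ} (hp : p.Prime) (hp2 : p ≠ 2) (hrp : ¬ p ∣ r - 1)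
    {V : Type*} [AddCommGroup V] (hV : ∀ v : V, p • v = 0) (F : ZMod r → V) (h1 : F 1 = 0)
    (hF : ∀ x y : ZMod r, x ≠ 0 → y ≠ 0 → x * (1 - y) ≠ 0 → IsSquare (x * (1 - y)) →
      F (x * y) = F x + F y) :
    ∀ x : ZMod r, x ≠ 0 → F x = 0 := by
  intro x hx
  have := eq_one_of_sq_mul (r := r) hp hp2 hrp (V := Multiplicative V)
    (fun v => by
      show Multiplicative.ofAdd (p • Multiplicative.toAdd v) = 1
      rw [hV]; rfl)
    (fun y => Multiplicative.ofAdd (F y)) (by rw [h1]; rfl)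
    (fun a b ha hb hab hsq => by
      show Multiplicative.ofAdd (F (a * b)) = Multiplicative.ofAdd (F a) * Multiplicative.ofAdd (F b)
      rw [hF a b ha hb hab hsq]; rfl) x hx
  exact this

end Fermat.Agent.LR.CSPSumTrick
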