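/-
Program M (S41), node D2 (helper15): the plugged instance of `CSPFin.Cen q p m` for `q` an odd prime
and `m` odd prime to `q`: `CenBridge.cen_of_claimJ` applied to `CSPCenOdd.hJ_odd` (helper1's
Claim J).
-/
import Mathlib
import Fermat.Agent.LR.CenBridge
import Fermat.Agent.LR.CSPCenOdd

set_option autoImplicit false

namespace Fermat.Agent.LR.CenOddInst

open Fermat.Agent.LR.Gen Fermat.Agent.LR.SL2R Fermat.Agent.LR.CenShape

/-- **(Cen) at odd levels, `q` odd**, in the consumer shape of `LR/CSPDefs.lean`. -/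
theorem cen_odd (q : ℕ) (hq : q.Prime) (hq2 : q ≠ 2) (m : ℕ) (hm : m ≠ 0)
    (hm2 : Nat.Coprime m 2) (hmq : Nat.Coprime m q) (p : ℕ) : CSPFin.Cen q p m :=
  CenBridge.cen_of_claimJ p (CSPCenOdd.hJ_odd q hq hq2 m hm hm2 hmq)

/-- the same in the subgroup form of `LR/CenShape.lean` -/
theorem cenShape_odd (q : ℕ) (hq : q.Prime) (hq2 : q ≠ 2) (m : ℕ) (hm : m ≠ 0)
    (hm2 : Nat.Coprime m 2) (hmq : Nat.Coprime m q) : Cen q m ∧ CenJ q m :=
  ⟨cen_of_cenMod_zInv (CSPCenOdd.cenMod_odd q hq hq2 m hm hm2 hmq),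
    cenJ_of_claimJ_zInv (CSPCenOdd.hJ_odd q hq hq2 m hm hm2 hmq)⟩

end Fermat.Agent.LR.CenOddInst
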