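import Mathlib
import Fermat.Agent.LR.CSPArith

/-!
# Program M, node D2 (X2: even levels): arithmetic

* `exists_two_primes` : the arithmetic of torus centrality (helper1's TC, finding #502) for the unit
  `q ^ 2`, one prime `l` at a time: primes `r₁ < r₂` with `r₁ r₂ ≡ R (mod M)` and an exponent `j`
  prime to `l` with `r₁ r₂ ∣ q ^ (2 j) - 1` (Dirichlet only, no reciprocity);
* `exists_prime_pow_eq_neg_one` : a prime `π ≡ R (mod M)` and `k` with `q ^ (2 k) = -1` in `ZMod π`,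
  for `M` odd or `4 ∣ M`, `R ≡ 1 (mod 4)` (Dirichlet + quadratic reciprocity).
-/

set_option autoImplicit false

namespace Fermat.Agent.LR.CSPEven

open Nat

/-- congruent integers have the same coprimality -/
theorem isCoprime_of_modEq {a b n : ℤ} (h : a ≡ b [ZMOD n]) (hb : IsCoprime b n) :
    IsCoprime a n := by
  obtain ⟨t, ht⟩ := h.symm.dvd
  have e : a = b + n * t := by linarith
  rw [e]
  exact hb.add_mul_left_left t

/-- the Chinese remainder theorem for two coprime natural moduli and integer residues -/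
theorem exists_crt {M W : ℕ} (h : Nat.Coprime M W) (a b : ℤ) :
    ∃ ρ : ℤ, ρ ≡ a [ZMOD (M : ℤ)] ∧ ρ ≡ b [ZMOD (W : ℤ)] := by
  have hc : IsCoprime (M : ℤ) (W : ℤ) := Nat.isCoprime_iff_coprime.mpr h
  obtain ⟨u, v, huv⟩ := hc
  refine ⟨a * (v * W) + b * (u * M), ?_, ?_⟩
  · rw [Int.modEq_iff_dvd]
    exact ⟨a * u - b * u, by linear_combination (-a) * huv⟩
  · rw [Int.modEq_iff_dvd]
    exact ⟨b * v - a * v, by linear_combination (-b) * huv⟩

/-- a prime `r ≡ -1 (mod l)`, `r ≡ 3 (mod 4)` has `(r - 1) / 2` prime to the prime `l` -/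
theorem not_dvd_half {r l : ℕ} (hl : l.Prime) (hr2 : 2 < r)
    (hrl : (r : ℤ) ≡ -1 [ZMOD (l : ℤ)]) (hr4 : (r : ℤ) ≡ -1 [ZMOD 4]) : ¬ l ∣ (r - 1) / 2 := by
  intro hdvd
  have h4 : r % 4 = 3 := by
    have := hr4.dvd
    omega
  by_cases hl2 : l = 2
  · subst hl2
    omega
  · -- `l` odd: `l ∣ r - 1` and `l ∣ r + 1`
    have h1 : l ∣ r - 1 := by
      have : r - 1 = 2 * ((r - 1) / 2) := by omega
      rw [this]
      exact Dvd.dvd.mul_left hdvd 2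
    have h2 : (l : ℤ) ∣ (r : ℤ) + 1 := by
      have := hrl.symm.dvd
      simpa using this
    have h3 : (l : ℤ) ∣ (r : ℤ) - 1 := by
      have : ((r - 1 : ℕ) : ℤ) = (r : ℤ) - 1 := by
        rw [Nat.cast_sub (by omega)]
        simp
      rw [← this]
      exact Int.natCast_dvd_natCast.mpr h1
    have h4' : (l : ℤ) ∣ 2 := by
      have := dvd_sub h2 h3
      simpa using this
    have h5 : l ∣ 2 := by exact_mod_cast h4'
    exact hl2 ((Nat.prime_dvd_prime_iff_eq hl Nat.prime_two).mp h5)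

/-- Fermat: `q ^ ((r - 1) * t) ≡ 1 (mod r)` for a prime `r` not dividing `q`. -/
theorem pow_modEq_one {q r : ℕ} (hr : r.Prime) (hqr : ¬ r ∣ q) (t : ℕ) :
    q ^ ((r - 1) * t) ≡ 1 [MOD r] := by
  have : Fact r.Prime := ⟨hr⟩
  rw [← ZMod.natCast_eq_natCast_iff]
  push_cast
  have hq0 : (q : ZMod r) ≠ 0 := by
    rw [Ne, ZMod.natCast_eq_zero_iff]
    exact hqr
  rw [pow_mul, ZMod.pow_card_sub_one_eq_one hq0, one_pow]

/-- **Arithmetic of torus centrality for `q ^ 2`, one prime `l` at a time.** -/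
theorem exists_two_primes (q M : ℕ) (R : ℤ) (l B : ℕ) (hq : q ≠ 0) (hM : M ≠ 0)
    (hR : IsCoprime R (M : ℤ)) (hl : l.Prime)
    (hlM : l ∣ M → R ≡ 1 [ZMOD (l : ℤ)])
    (h2 : 2 ∣ M → 4 ∣ M ∧ R ≡ 1 [ZMOD 4]) :
    ∃ r₁ r₂ j : ℕ, r₁.Prime ∧ r₂.Prime ∧ B < r₁ ∧ r₁ < r₂ ∧
      ((r₁ * r₂ : ℕ) : ℤ) ≡ R [ZMOD (M : ℤ)] ∧ ¬ l ∣ j ∧ r₁ * r₂ ∣ q ^ (2 * j) - 1 := by
  -- the first prime: `r₁ ≡ -1 (mod 4 M l)`
  have hL1 : 4 * M * l ≠ 0 := Nat.mul_ne_zero (Nat.mul_ne_zero (by norm_num) hM) hl.ne_zero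
  obtain ⟨r₁, hr₁gt, hr₁, hr₁mod⟩ := Nat.forall_exists_prime_gt_and_zmodEq (max B (max q 2)) hL1
    (a := -1) (isCoprime_one_left.neg_left)
  have hr₁B : B < r₁ := lt_of_le_of_lt (le_max_left _ _) hr₁gt
  have hr₁q : q < r₁ := lt_of_le_of_lt ((le_max_left _ _).trans (le_max_right _ _)) hr₁gt
  have hr₁2 : 2 < r₁ := lt_of_le_of_lt ((le_max_right _ _).trans (le_max_right _ _)) hr₁gt
  have hr₁M : (r₁ : ℤ) ≡ -1 [ZMOD (M : ℤ)] :=
    hr₁mod.of_dvd ⟨4 * l, by push_cast; ring⟩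
  have hr₁l : (r₁ : ℤ) ≡ -1 [ZMOD (l : ℤ)] :=
    hr₁mod.of_dvd ⟨4 * M, by push_cast; ring⟩
  have hr₁4 : (r₁ : ℤ) ≡ -1 [ZMOD 4] :=
    hr₁mod.of_dvd ⟨M * l, by push_cast; ring⟩
  -- the auxiliary modulus for the second prime
  set W : ℕ := (if 2 ∣ M then 1 else 4) * (if l ∣ M ∨ l = 2 then 1 else l) with hW
  have hMW : Nat.Coprime M W := by
    rw [hW]
    refine Nat.Coprime.mul_right ?_ ?_
    · split_ifs with h
      · exact Nat.coprime_one_right _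
      · have : Nat.Coprime M 2 := by
          rw [Nat.coprime_comm, Nat.Prime.coprime_iff_not_dvd Nat.prime_two]
          exact h
        exact Nat.Coprime.pow_right 2 this
    · split_ifs with h
      · exact Nat.coprime_one_right _
      · rw [Nat.coprime_comm, Nat.Prime.coprime_iff_not_dvd hl]
        exact fun h' => h (Or.inl h')
  have hWne : W ≠ 0 := by
    rw [hW]
    refine Nat.mul_ne_zero ?_ ?_
    · split_ifs <;> norm_num
    · split_ifs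
      · norm_num
      · exact hl.ne_zero
  obtain ⟨ρ, hρM, hρW⟩ := exists_crt hMW (-R) (-1)
  have hρcop : IsCoprime ρ ((M * W : ℕ) : ℤ) := by
    push_cast
    refine IsCoprime.mul_right ?_ ?_
    · exact isCoprime_of_modEq hρM hR.neg_left
    · exact isCoprime_of_modEq hρW (isCoprime_one_left.neg_left)
  obtain ⟨r₂, hr₂gt, hr₂, hr₂mod⟩ := Nat.forall_exists_prime_gt_and_zmodEq r₁
    (Nat.mul_ne_zero hM hWne) hρcop
  have hr₂M : (r₂ : ℤ) ≡ -R [ZMOD (M : ℤ)] :=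
    (hr₂mod.of_dvd ⟨W, by push_cast; ring⟩).trans hρM
  have hr₂W : (r₂ : ℤ) ≡ -1 [ZMOD (W : ℤ)] :=
    (hr₂mod.of_dvd ⟨M, by push_cast; ring⟩).trans hρW
  have hr₂4 : (r₂ : ℤ) ≡ -1 [ZMOD 4] := by
    by_cases h : 2 ∣ M
    · obtain ⟨h4, hR4⟩ := h2 h
      have h1 : (r₂ : ℤ) ≡ -R [ZMOD 4] := hr₂M.of_dvd (by exact_mod_cast h4)
      exact h1.trans hR4.neg
    · refine hr₂W.of_dvd ?_
      rw [hW, if_neg h]
      exact ⟨((if l ∣ M ∨ l = 2 then 1 else l : ℕ) : ℤ), by push_cast; ring⟩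
  have hr₂l : (r₂ : ℤ) ≡ -1 [ZMOD (l : ℤ)] := by
    by_cases h : l ∣ M
    · have h1 : (r₂ : ℤ) ≡ -R [ZMOD (l : ℤ)] := hr₂M.of_dvd (by exact_mod_cast h)
      exact h1.trans (hlM h).neg
    · by_cases hl2 : l = 2
      · subst hl2
        exact hr₂4.of_dvd ⟨2, by norm_num⟩
      · refine hr₂W.of_dvd ?_
        rw [hW, if_neg (by tauto : ¬ (l ∣ M ∨ l = 2))]
        exact ⟨((if 2 ∣ M then 1 else 4 : ℕ) : ℤ), by push_cast; ring⟩
  have hr₂2 : 2 < r₂ := hr₁2.trans hr₂gt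
  have hr₂q : q < r₂ := hr₁q.trans hr₂gt
  -- the exponent
  refine ⟨r₁, r₂, ((r₁ - 1) / 2) * ((r₂ - 1) / 2), hr₁, hr₂, hr₁B, hr₂gt, ?_, ?_, ?_⟩
  · push_cast
    have := hr₁M.mul hr₂M
    refine this.trans ?_
    rw [neg_one_mul, neg_neg]
  · intro hdvd
    rcases (Nat.Prime.dvd_mul hl).mp hdvd with h | h
    · exact not_dvd_half hl hr₁2 hr₁l hr₁4 h
    · exact not_dvd_half hl hr₂2 hr₂l hr₂4 h
  · have hodd₁ : r₁ % 2 = 1 := by
      rcases hr₁.eq_two_or_odd with h | h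
      · omega
      · exact h
    have hodd₂ : r₂ % 2 = 1 := by
      rcases hr₂.eq_two_or_odd with h | h
      · omega
      · exact h
    have hq₁ : ¬ r₁ ∣ q := fun h => by
      have := Nat.le_of_dvd (Nat.pos_of_ne_zero hq) h
      omega
    have hq₂ : ¬ r₂ ∣ q := fun h => by
      have := Nat.le_of_dvd (Nat.pos_of_ne_zero hq) h
      omega
    have e₁ : 2 * ((r₁ - 1) / 2 * ((r₂ - 1) / 2)) = (r₁ - 1) * ((r₂ - 1) / 2) := by
      have : r₁ - 1 = 2 * ((r₁ - 1) / 2) := by omega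
      rw [this]
      have h' : 2 * ((r₁ - 1) / 2) / 2 = (r₁ - 1) / 2 := by omega
      rw [Nat.mul_div_cancel_left _ (by norm_num : 0 < 2)]
      ring
    have e₂ : 2 * ((r₁ - 1) / 2 * ((r₂ - 1) / 2)) = (r₂ - 1) * ((r₁ - 1) / 2) := by
      have : r₂ - 1 = 2 * ((r₂ - 1) / 2) := by omega
      rw [this]
      rw [Nat.mul_div_cancel_left _ (by norm_num : 0 < 2)]
      ring
    have hpos : 1 ≤ q ^ (2 * ((r₁ - 1) / 2 * ((r₂ - 1) / 2))) :=
      Nat.one_le_pow _ _ (Nat.pos_of_ne_zero hq)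
    have d₁ : r₁ ∣ q ^ (2 * ((r₁ - 1) / 2 * ((r₂ - 1) / 2))) - 1 := by
      rw [e₁]
      rw [e₁] at hpos
      exact (Nat.modEq_iff_dvd' hpos).mp (pow_modEq_one hr₁ hq₁ _).symm
    have d₂ : r₂ ∣ q ^ (2 * ((r₁ - 1) / 2 * ((r₂ - 1) / 2))) - 1 := by
      rw [e₂]
      rw [e₂] at hpos
      exact (Nat.modEq_iff_dvd' hpos).mp (pow_modEq_one hr₂ hq₂ _).symm
    have hcop : Nat.Coprime r₁ r₂ := by
      rw [Nat.coprime_primes hr₁ hr₂]
      omega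
    exact hcop.mul_dvd_of_dvd_of_dvd d₁ d₂

/-- **Arithmetic of Claim J given torus centrality**: a prime `π ≡ R (mod M)` with
`q ^ (2 k) = -1` in `ZMod π`; `M` odd, or `4 ∣ M` and `R ≡ 1 (mod 4)`. -/
theorem exists_prime_pow_eq_neg_one (q : ℕ) (hq : q.Prime) (hq2 : q ≠ 2)
    (M : ℕ) (R : ℤ) (B : ℕ) (hM : M ≠ 0) (hMq : Nat.Coprime M q)
    (hR : IsCoprime R (M : ℤ)) (h2 : 2 ∣ M → 4 ∣ M ∧ R ≡ 1 [ZMOD 4]) :
    ∃ π k : ℕ, π.Prime ∧ B < π ∧ (π : ℤ) ≡ R [ZMOD (M : ℤ)] ∧ ((q : ZMod π)) ^ (2 * k) = -1 := by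
  by_cases hM2 : 2 ∣ M
  · obtain ⟨h4, hR4⟩ := h2 hM2
    have hqF : Fact q.Prime := ⟨hq⟩
    obtain ⟨n₀, hn₀q, hn₀⟩ := CSPArith.exists_nat_nonresidue (q := q) hq2
    -- `ρ ≡ R (mod M)`, `ρ ≡ n₀ (mod q)`
    obtain ⟨ρ, hρM, hρq⟩ := exists_crt hMq R (n₀ : ℤ)
    have hρcop : IsCoprime ρ ((M * q : ℕ) : ℤ) := by
      push_cast
      refine IsCoprime.mul_right (isCoprime_of_modEq hρM hR) (isCoprime_of_modEq hρq ?_)
      exact Nat.isCoprime_iff_coprime.mpr hn₀q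
    obtain ⟨π, hπgt, hπ, hπmod⟩ := Nat.forall_exists_prime_gt_and_zmodEq (max B 2)
      (Nat.mul_ne_zero hM hq.ne_zero) hρcop
    have hπF : Fact π.Prime := ⟨hπ⟩
    have hπM : (π : ℤ) ≡ R [ZMOD (M : ℤ)] :=
      (hπmod.of_dvd ⟨q, by push_cast; ring⟩).trans hρM
    have hπq : (π : ℤ) ≡ (n₀ : ℤ) [ZMOD (q : ℤ)] :=
      (hπmod.of_dvd ⟨M, by push_cast; ring⟩).trans hρq
    have hπ4' : (π : ℤ) ≡ 1 [ZMOD 4] :=
      (hπM.of_dvd (by exact_mod_cast h4)).trans hR4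
    have hπ4 : π % 4 = 1 := by
      have := hπ4'.dvd
      omega
    have hleg1 : legendreSym q π = -1 := by
      rw [legendreSym.eq_neg_one_iff]
      have : (((π : ℕ) : ℤ) : ZMod q) = (((n₀ : ℕ) : ℤ) : ZMod q) :=
        (ZMod.intCast_eq_intCast_iff _ _ _).mpr hπq
      rw [this]
      exact hn₀
    have hleg2 : legendreSym π q = -1 := by
      rw [← legendreSym.quadratic_reciprocity_one_mod_four hπ4 hq2]
      exact hleg1
    have hEuler : ((q : ℕ) : ZMod π) ^ (π / 2) = -1 := by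
      have h := legendreSym.eq_pow π (q : ℤ)
      rw [hleg2] at h
      simpa using h.symm
    refine ⟨π, π / 4, hπ, lt_of_le_of_lt (le_max_left _ _) hπgt, hπM, ?_⟩
    have : 2 * (π / 4) = π / 2 := by omega
    rw [this]
    exact hEuler
  · have hM2' : Nat.Coprime M 2 := by
      rw [Nat.coprime_comm, Nat.Prime.coprime_iff_not_dvd Nat.prime_two]
      exact hM2
    obtain ⟨π, k, hπ, hBπ, hπM, -, hk⟩ :=
      CSPArith.exists_prime_modEq_pow_eq_neg_one q hq hq2 M R 1 B hM hM2' hMq hR one_ne_zero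
    exact ⟨π, k, hπ, hBπ, hπM, hk⟩

end Fermat.Agent.LR.CSPEven
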