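import Mathlib
import Fermat.Agent.LR.CSPBasic
import Fermat.Agent.LR.TCArith

/-!
# Program M, node D2 (X2): Claim J from torus centrality, at odd levels and at levels `4 ∣ m`

`A q = ℤ[1/q]`, `q` an odd prime, `m` prime to `q`, `I = m A`.  If conjugation by
`diag(q², 1)` (`= ` conjugation by `diag(q, q⁻¹)`) is trivial on `Γ(I)` modulo `EC I`
(torus centrality, helper1's TC), then so is conjugation by `J = diag(-1, 1)`, provided `m` is odd or
`4 ∣ m`: normalise `g` so that `a(g) = π` is a prime with `q ^ (2 k) ≡ -1 (mod π)` and apply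
helper21's Lemma T' with the unit `s = -q ^ (2 k)`.

Also: the normalisation lemmas on `A q` used by this argument.
-/

set_option autoImplicit false

namespace Fermat.Agent.LR.CSPEven

open Matrix
open Fermat.Agent.LR.Gen Fermat.Agent.LR.SL2R Fermat.Agent.LR.CSP
open scoped MatrixGroups commutatorElement

section generic

variable {R : Type*} [CommRing R]

/-- `conjDiag` is multiplicative in the unit. -/
theorem conjDiag_mul (s t : Rˣ) (g : SL(2, R)) : conjDiag (s * t) g = conjDiag s (conjDiag t g) := by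
  apply sl_ext <;> simp [conjDiag_apply, mul_assoc, mul_comm]

theorem conjDiag_one (g : SL(2, R)) : conjDiag (1 : Rˣ) g = g := by
  apply sl_ext <;> simp [conjDiag_apply]

/-- `EC I` is stable under conjugation by `diag(s, 1)`. -/
theorem conjDiag_mem_EC {I : Ideal R} (s : Rˣ) {g : SL(2, R)} (hg : g ∈ EC I) :
    conjDiag s g ∈ EC I := by
  have h : EC I ≤ (EC I).comap (conjDiag s).toMonoidHom := by
    unfold EC
    refine sup_le ?_ ?_
    · intro x hx
      exact Subgroup.mem_sup_left (conjDiag_mem_E s hx)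
    · rw [Subgroup.commutator_le]
      intro a ha b hb
      show conjDiag s ⁅a, b⁆ ∈ E I ⊔ ⁅Gam I, Gam I⁆
      rw [map_commutatorElement]
      exact Subgroup.mem_sup_right
        (Subgroup.commutator_mem_commutator (conjDiag_mem_Gam s ha) (conjDiag_mem_Gam s hb))
  exact h hg

/-- if conjugation by `diag(t, 1)` is trivial on `g` modulo `EC I`, so is conjugation by
`diag(t ^ k, 1)`. -/
theorem conjDiag_pow_mul_inv_mem_EC {I : Ideal R} (t : Rˣ) {g : SL(2, R)}
    (h : conjDiag t g * g⁻¹ ∈ EC I) (k : ℕ) : conjDiag (t ^ k) g * g⁻¹ ∈ EC I := by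
  induction k with
  | zero => simp [conjDiag_one]
  | succ k ih =>
    rw [pow_succ', conjDiag_mul]
    have e : conjDiag t (conjDiag (t ^ k) g) * g⁻¹ =
        conjDiag t (conjDiag (t ^ k) g * g⁻¹) * (conjDiag t g * g⁻¹) := by
      rw [map_mul, map_inv]
      group
    rw [e]
    exact mul_mem (conjDiag_mem_EC t ih) h

/-- triviality of the conjugation by `diag(s, 1)` modulo `EC I` only depends on the class of `g`
modulo `EC I`. -/
theorem conjDiag_mul_inv_mem_EC_of_mul {I : Ideal R} (s : Rˣ) {g x : SL(2, R)} (hx : x ∈ EC I)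
    (h : conjDiag s (x * g) * (x * g)⁻¹ ∈ EC I) : conjDiag s g * g⁻¹ ∈ EC I := by
  have e : conjDiag s g * g⁻¹ =
      (conjDiag s x)⁻¹ * (conjDiag s (x * g) * (x * g)⁻¹) * x := by
    rw [map_mul]
    group
  rw [e]
  exact mul_mem (mul_mem (inv_mem (conjDiag_mem_EC s hx)) h) hx

/-- if conjugation by `diag(-t, 1)` and by `diag(t, 1)` are trivial on `g` modulo `EC I`, so is
conjugation by `diag(-1, 1)`. -/
theorem conjDiag_neg_one_of_neg {I : Ideal R} (t : Rˣ) {g : SL(2, R)}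
    (hT : conjDiag (-t) g * g⁻¹ ∈ EC I) (hk : conjDiag t g * g⁻¹ ∈ EC I) :
    conjDiag (-1) g * g⁻¹ ∈ EC I := by
  have hsplit : conjDiag (-t) g = conjDiag (-1) (conjDiag t g) := by
    rw [← conjDiag_mul, neg_one_mul]
  have e : conjDiag (-1) g * g⁻¹ =
      (conjDiag (-1) (conjDiag t g * g⁻¹))⁻¹ * (conjDiag (-t) g * g⁻¹) := by
    rw [hsplit, map_mul, map_inv]
    group
  rw [e]
  exact mul_mem (inv_mem (conjDiag_mem_EC (-1) hk)) hT

theorem uR_mul_apply_zero_zero (x : R) (g : SL(2, R)) : (uR x * g) 0 0 = g 0 0 + x * g 1 0 := by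
  simp [SL2R.mul_apply']

theorem uR_mul_apply_one_zero (x : R) (g : SL(2, R)) : (uR x * g) 1 0 = g 1 0 := by
  simp [SL2R.mul_apply']

theorem lR_mul_apply_zero_zero (y : R) (g : SL(2, R)) : (lR y * g) 0 0 = g 0 0 := by
  simp [SL2R.mul_apply']

theorem lR_mul_apply_one_zero (y : R) (g : SL(2, R)) : (lR y * g) 1 0 = y * g 0 0 + g 1 0 := by
  simp [SL2R.mul_apply']

end generic

/-! ### Normalisation lemmas on `ℤ[1/q]` -/

section Aq

variable {q : ℕ}

/-- every nonzero element of `ℤ[1/q]` is a unit times a natural number prime to `q`. -/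
theorem exists_unit_mul_natCast (hq : q.Prime) (c : A q) (hc : c ≠ 0) :
    ∃ (u : (A q)ˣ) (C : ℕ), C ≠ 0 ∧ Nat.Coprime q C ∧ c = u * (C : A q) := by
  have hq0 : q ≠ 0 := hq.ne_zero
  obtain ⟨k, n, h⟩ := exists_mul_pow_eq_intCast c
  have hback : c = (n : A q) * (qInv q) ^ k := by
    rw [← h, mul_assoc, ← mul_pow, q_mul_qInv hq0, one_pow, mul_one]
  have hn : n ≠ 0 := by
    rintro rfl
    apply hc
    rw [hback]
    simp
  obtain ⟨i, C, hC, hnC⟩ :=
    Nat.exists_eq_pow_mul_and_not_dvd (Int.natAbs_ne_zero.mpr hn) q hq.ne_one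
  have hCne : C ≠ 0 := by
    rintro rfl
    rw [mul_zero] at hnC
    exact hn (Int.natAbs_eq_zero.mp hnC)
  obtain ⟨ε, hε⟩ : ∃ ε : (A q)ˣ, (n : A q) = (ε : A q) * ((n.natAbs : ℕ) : A q) := by
    rcases Int.natAbs_eq n with h' | h'
    · refine ⟨1, ?_⟩
      rw [Units.val_one, one_mul]
      have e : (n : A q) = (((n.natAbs : ℕ) : ℤ) : A q) := by rw [← h']
      rw [e, Int.cast_natCast]
    · refine ⟨-1, ?_⟩
      have e : (n : A q) = ((-((n.natAbs : ℕ) : ℤ) : ℤ) : A q) := by rw [← h']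
      rw [e, Int.cast_neg, Int.cast_natCast, Units.val_neg, Units.val_one, neg_one_mul]
  refine ⟨ε * (qU hq0) ^ i * ((qU hq0) ^ k)⁻¹, C, hCne,
    (Nat.Prime.coprime_iff_not_dvd hq).mpr hC, ?_⟩
  rw [hback, hε, hnC, Units.val_mul, Units.val_mul, coe_qU_pow, coe_qU_pow_inv]
  push_cast
  ring

/-- an integer lying in `m ℤ[1/q]` is divisible by `m` (`m` prime to `q`). -/
theorem dvd_of_intCast_mem_span (hq0 : q ≠ 0) {m : ℕ} (hqm : Nat.Coprime q m) {z : ℤ}
    (h : (z : A q) ∈ Ideal.span {(m : A q)}) : (m : ℤ) ∣ z := by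
  rw [← red_eq_zero_iff hq0 hqm, red_intCast] at h
  exact (ZMod.intCast_zmod_eq_zero_iff_dvd _ _).mp h

theorem span_natCast_mul_le_left (m C : ℕ) :
    Ideal.span {((m * C : ℕ) : A q)} ≤ Ideal.span {(m : A q)} := by
  rw [Ideal.span_singleton_le_span_singleton]
  exact ⟨(C : A q), by push_cast; ring⟩

theorem span_natCast_mul_le_right (m C : ℕ) :
    Ideal.span {((m * C : ℕ) : A q)} ≤ Ideal.span {(C : A q)} := by
  rw [Ideal.span_singleton_le_span_singleton]
  exact ⟨(m : A q), by push_cast; ring⟩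

/-- **normalisation of the upper left entry**: if `c = u C` and `n ≡ a` modulo `m C`, then
`n = a + x c` with `x ∈ m ℤ[1/q]`. -/
theorem exists_add_mul_eq {m C : ℕ} {a c : A q} {u : (A q)ˣ} (hc : c = u * (C : A q)) (n : ℤ)
    (h : (n : A q) - a ∈ Ideal.span {((m * C : ℕ) : A q)}) :
    ∃ x ∈ Ideal.span {(m : A q)}, a + x * c = (n : A q) := by
  obtain ⟨z, hz⟩ := Ideal.mem_span_singleton'.mp h
  refine ⟨z * (m : A q) * ((u⁻¹ : (A q)ˣ) : A q), ?_, ?_⟩
  · rw [mul_assoc, mul_comm (m : A q), ← mul_assoc]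
    exact Ideal.mul_mem_left _ _ (Ideal.subset_span rfl)
  · have hu : ((u⁻¹ : (A q)ˣ) : A q) * (u : A q) = 1 := by simp
    have e : z * (m : A q) * ((u⁻¹ : (A q)ˣ) : A q) * c = z * ((m * C : ℕ) : A q) := by
      rw [hc]
      push_cast
      linear_combination (z * (m : A q) * (C : A q)) * hu
    rw [e, hz]
    ring

/-- the integer `n` of the normalisation is prime to `m C` and `≡ 1 (mod m)`. -/
theorem isCoprime_of_sub_mem (hq0 : q ≠ 0) {m C : ℕ} (hqm : Nat.Coprime q m)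
    (hqC : Nat.Coprime q C) {g : SL(2, A q)} (hg : g ∈ Gam (Ideal.span {(m : A q)}))
    {u : (A q)ˣ} (hc : g 1 0 = u * (C : A q)) (n : ℤ)
    (h : (n : A q) - g 0 0 ∈ Ideal.span {((m * C : ℕ) : A q)}) :
    IsCoprime n ((m * C : ℕ) : ℤ) ∧ n ≡ 1 [ZMOD (m : ℤ)] := by
  rw [mem_Gam] at hg
  have h1 : (m : ℤ) ∣ n - 1 := by
    apply dvd_of_intCast_mem_span hq0 hqm
    have : ((n - 1 : ℤ) : A q) = ((n : A q) - g 0 0) + (g 0 0 - 1) := by push_cast; ring
    rw [this]
    exact add_mem (span_natCast_mul_le_left m C h) hg.1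
  have hmod : n ≡ 1 [ZMOD (m : ℤ)] := by
    rw [Int.modEq_iff_dvd]
    have : (1 : ℤ) - n = -(n - 1) := by ring
    rw [this]
    exact (dvd_neg).mpr h1
  refine ⟨?_, hmod⟩
  push_cast
  refine IsCoprime.mul_right ?_ ?_
  · -- prime to `m`
    obtain ⟨t, ht⟩ := h1
    exact ⟨1, -t, by linear_combination ht⟩
  · -- prime to `C`
    have hdet := det_eq g
    have h2 : (n : A q) * g 1 1 - 1 ∈ Ideal.span {(C : A q)} := by
      have e : (n : A q) * g 1 1 - 1 =
          ((n : A q) - g 0 0) * g 1 1 + g 0 1 * ((u : A q) * (C : A q)) := by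
        rw [← hc]
        linear_combination hdet
      rw [e]
      refine add_mem (Ideal.mul_mem_right _ _ (span_natCast_mul_le_right m C h)) ?_
      rw [← mul_assoc]
      exact Ideal.mul_mem_left _ _ (Ideal.subset_span rfl)
    rw [← red_eq_zero_iff hq0 hqC, map_sub, map_mul, map_one, red_intCast, sub_eq_zero] at h2
    have hunit : IsUnit ((n : ℤ) : ZMod C) := IsUnit.of_mul_eq_one _ h2
    rw [ZMod.coe_int_isUnit_iff_isCoprime] at hunit
    exact hunit.symm

/-- **Step 0** for one prime `l`: after left multiplication by some `lR y`, `y ∈ m ℤ[1/q]`, the lower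
left entry is nonzero modulo `l` (`l` prime to `q m`). -/
theorem exists_lR_mul_red_ne_zero (hq0 : q ≠ 0) {m l : ℕ} (hl : l.Prime) (hql : Nat.Coprime q l)
    (hlm : ¬ l ∣ m) (g : SL(2, A q)) :
    ∃ y ∈ Ideal.span {(m : A q)}, red hq0 hql ((lR y * g) 1 0) ≠ 0 := by
  have : Fact l.Prime := ⟨hl⟩
  by_cases h : red hq0 hql (g 1 0) = 0
  · refine ⟨(m : A q), Ideal.subset_span rfl, ?_⟩
    rw [lR_mul_apply_one_zero, map_add, h, add_zero, map_mul, red_natCast]
    have hdet := congrArg (red hq0 hql) (det_eq g)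
    rw [map_sub, map_mul, map_mul, h, mul_zero, sub_zero, map_one] at hdet
    have ha : red hq0 hql (g 0 0) ≠ 0 := by
      intro h0
      rw [h0, zero_mul] at hdet
      exact zero_ne_one hdet
    have hm : ((m : ℕ) : ZMod l) ≠ 0 := by
      rw [Ne, ZMod.natCast_eq_zero_iff]
      exact hlm
    exact mul_ne_zero hm ha
  · refine ⟨0, Ideal.zero_mem _, ?_⟩
    rw [lR_zero, one_mul]
    exact h

/-- if `c = u C` is nonzero modulo `l` then `l ∤ C`. -/
theorem not_dvd_of_red_ne_zero (hq0 : q ≠ 0) {l C : ℕ} (hql : Nat.Coprime q l) {c : A q}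
    {u : (A q)ˣ} (hc : c = u * (C : A q)) (h : red hq0 hql c ≠ 0) : ¬ l ∣ C := by
  intro hdvd
  apply h
  rw [hc, map_mul, red_natCast, (ZMod.natCast_eq_zero_iff _ _).mpr hdvd, mul_zero]

end Aq

/-! ### Claim J from torus centrality -/

section ClaimJ

variable {q : ℕ}

/-- **Claim J from torus centrality** (`q` odd, `m` odd or `4 ∣ m`): if conjugation by
`diag(q², 1)` is trivial on `Γ(m)` modulo `EC`, so is conjugation by `J = diag(-1, 1)`. -/
theorem conjDiag_neg_one_mul_inv_mem_EC (hq : q.Prime) (hq2 : q ≠ 2) {m : ℕ} (hm : m ≠ 0)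
    (hqm : Nat.Coprime q m) (hpar : ¬ 2 ∣ m ∨ 4 ∣ m)
    (hTC : ∀ g ∈ Gam (Ideal.span {(m : A q)}),
      conjDiag ((qU hq.ne_zero) ^ 2) g * g⁻¹ ∈ EC (Ideal.span {(m : A q)})) :
    ∀ g ∈ Gam (Ideal.span {(m : A q)}),
      conjDiag (-1) g * g⁻¹ ∈ EC (Ideal.span {(m : A q)}) := by
  intro g hg
  have hq0 : q ≠ 0 := hq.ne_zero
  have hq2' : Nat.Coprime q 2 := (Nat.coprime_primes hq Nat.prime_two).mpr hq2
  -- Step 0: the parity of the lower left entry
  obtain ⟨y, hy, hpar'⟩ : ∃ y ∈ Ideal.span {(m : A q)},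
      (¬ 2 ∣ m → red hq0 hq2' ((lR y * g) 1 0) ≠ 0) := by
    by_cases h2m : 2 ∣ m
    · exact ⟨0, Ideal.zero_mem _, fun h => absurd h2m h⟩
    · obtain ⟨y, hy, h⟩ := exists_lR_mul_red_ne_zero hq0 Nat.prime_two hq2' h2m g
      exact ⟨y, hy, fun _ => h⟩
  have hlE : lR y ∈ EC (Ideal.span {(m : A q)}) := E_le_EC _ (lR_mem_E hy)
  refine conjDiag_mul_inv_mem_EC_of_mul (-1) hlE ?_
  set g₀ := lR y * g with hg₀
  have hg₀mem : g₀ ∈ Gam (Ideal.span {(m : A q)}) := mul_mem (lR_mem_Gam hy) hg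
  by_cases hc0 : g₀ 1 0 = 0
  · -- upper triangular: `a` is a unit
    have hdet := det_eq g₀
    rw [hc0, mul_zero, sub_zero] at hdet
    refine E_le_EC _ (conjDiag_mul_inv_mem_E hg₀mem (-(2 * g₀ 1 1)) (-1) ?_)
    rw [Units.val_neg, Units.val_one]
    linear_combination 2 * hdet
  · obtain ⟨u, C, hCne, hqC, hc⟩ := exists_unit_mul_natCast hq (g₀ 1 0) hc0
    have hqM : Nat.Coprime q (m * C) := Nat.Coprime.mul_right hqm hqC
    have hMne : m * C ≠ 0 := Nat.mul_ne_zero hm hCne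
    obtain ⟨n₀, hn₀⟩ := ZMod.intCast_surjective (red hq0 hqM (g₀ 0 0))
    have hn₀mem : (n₀ : A q) - g₀ 0 0 ∈ Ideal.span {((m * C : ℕ) : A q)} := by
      rw [← red_eq_zero_iff hq0 hqM, map_sub, red_intCast, hn₀, sub_self]
    obtain ⟨hcop, hmod⟩ := isCoprime_of_sub_mem hq0 hqm hqC hg₀mem hc n₀ hn₀mem
    -- the prime
    obtain ⟨π, k, hπ, -, hπmod, hπk⟩ := exists_prime_pow_eq_neg_one q hq hq2 (m * C) n₀ 0 hMne
      hqM.symm hcop (by
        intro h2M
        rcases hpar with hodd | h4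
        · exfalso
          have hC2 : ¬ 2 ∣ C := not_dvd_of_red_ne_zero hq0 hq2' hc (hpar' hodd)
          rcases (Nat.Prime.dvd_mul Nat.prime_two).mp h2M with h | h
          · exact hodd h
          · exact hC2 h
        · refine ⟨Dvd.dvd.mul_right h4 C, ?_⟩
          exact hmod.of_dvd (by exact_mod_cast h4))
    have hπmem : (((π : ℕ) : ℤ) : A q) - g₀ 0 0 ∈ Ideal.span {((m * C : ℕ) : A q)} := by
      have e : (((π : ℕ) : ℤ) : A q) - g₀ 0 0 =
          (((π : ℤ) - n₀ : ℤ) : A q) + ((n₀ : A q) - g₀ 0 0) := by push_cast; ring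
      rw [e]
      refine add_mem (intCast_mem_span_of_dvd ?_) hn₀mem
      have := hπmod.symm.dvd
      exact this
    obtain ⟨x, hx, hxa⟩ := exists_add_mul_eq hc ((π : ℕ) : ℤ) hπmem
    have hxE : uR x ∈ EC (Ideal.span {(m : A q)}) := E_le_EC _ (uR_mem_E hx)
    refine conjDiag_mul_inv_mem_EC_of_mul (-1) hxE ?_
    set g' := uR x * g₀ with hg'
    have hg'mem : g' ∈ Gam (Ideal.span {(m : A q)}) := mul_mem (uR_mem_Gam hx) hg₀mem
    have hg'a : g' 0 0 = (((π : ℕ) : ℤ) : A q) := by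
      rw [hg', uR_mul_apply_zero_zero, hxa]
    -- `π ∣ q ^ (2 k) + 1`
    have hdvd : ((π : ℕ) : ℤ) ∣ (q : ℤ) ^ (2 * k) + 1 := by
      rw [← ZMod.intCast_zmod_eq_zero_iff_dvd]
      push_cast
      rw [hπk]
      ring
    obtain ⟨t, ht⟩ := hdvd
    -- Lemma T' with `s = -q ^ (2 k)`
    set s : (A q)ˣ := -((qU hq0) ^ 2) ^ k with hs
    have hsval : (s : A q) = 1 + g' 0 0 * (-(t : A q)) := by
      rw [hs, Units.val_neg, Units.val_pow_eq_pow_val, Units.val_pow_eq_pow_val, coe_qU, hg'a]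
      have e : ((((q : ℤ) ^ (2 * k) + 1 : ℤ)) : A q) = ((((π : ℕ) : ℤ) * t : ℤ) : A q) := by
        rw [ht]
      push_cast at e
      rw [← pow_mul]
      linear_combination (-1 : A q) * e
    have hT := conjDiag_mul_inv_mem_E hg'mem (-(t : A q)) s hsval
    -- torus centrality, `k` times
    have hk := conjDiag_pow_mul_inv_mem_EC ((qU hq0) ^ 2) (hTC g' hg'mem) k
    exact conjDiag_neg_one_of_neg _ (E_le_EC _ hT) hk

end ClaimJ

end Fermat.Agent.LR.CSPEven
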