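/-
Program M, node B (helper20): abstract layer — transfers between two different groups
("correspondences") attached to a finite family of elements of an ambient group, WITHOUT any
distinctness hypothesis on the cosets.

For `e₁ : Γ₁ →* G`, `e₂ : Γ₂ →* G` and a finite family `rep : A → G` such that for every `γ : Γ₂`
there are `c : A → Γ₁` and a permutation `σ` of `A` with `rep a * e₂ γ = e₁ (c a) * rep (σ a)`,
the map `(transfer φ)(γ) = ∑ a, φ (c a)` is a well defined homomorphism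
`Hom(Γ₁, M) → Hom(Γ₂, M)`, independent of the choice of `(c, σ)`.
-/
import Mathlib
import Fermat.Agent.Jac.Transfer

set_option autoImplicit false

namespace Fermat.Agent.LR.Corr

open Fermat.Agent.Jac

section Decomp

variable {Γ₁ G : Type*} [Group Γ₁] [Group G]

/-- `(c, σ)` is a decomposition of the family `t` with respect to right multiplication by `γ`:
`t a * γ = e₁ (c a) * t (σ a)`. -/
def IsDecomp (e₁ : Γ₁ →* G) {A : Type*} (t : A → G) (γ : G) (c : A → Γ₁) (σ : Equiv.Perm A) :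
    Prop :=
  ∀ a, t a * γ = e₁ (c a) * t (σ a)

variable {e₁ : Γ₁ →* G} {A : Type*} {t : A → G}

theorem IsDecomp.one : IsDecomp e₁ t 1 (fun _ => 1) 1 := fun a => by simp

theorem IsDecomp.mul {γ γ' : G} {c c' : A → Γ₁} {σ σ' : Equiv.Perm A}
    (h : IsDecomp e₁ t γ c σ) (h' : IsDecomp e₁ t γ' c' σ') :
    IsDecomp e₁ t (γ * γ') (fun a => c a * c' (σ a)) (σ' * σ) := fun a => by
  rw [← mul_assoc, h a, mul_assoc, h' (σ a), ← mul_assoc, map_mul]
  rfl

theorem IsDecomp.pow {γ : G} {c : A → Γ₁} {σ : Equiv.Perm A} (h : IsDecomp e₁ t γ c σ) (r : ℕ) :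
    ∃ c' : A → Γ₁, IsDecomp e₁ t (γ ^ r) c' (σ ^ r) := by
  induction r with
  | zero => exact ⟨fun _ => 1, by simpa using IsDecomp.one⟩
  | succ r ih =>
    obtain ⟨c', hc'⟩ := ih
    refine ⟨fun a => c' a * c ((σ ^ r) a), ?_⟩
    rw [pow_succ, pow_succ']
    exact hc'.mul h

variable [Fintype A] {M : Type*} [AddCommGroup M]

/-- **Core lemma**: the sum `∑ a, φ (c a)` does not depend on the decomposition. -/
theorem IsDecomp.sum_eq (he : Function.Injective e₁) (φ : Additive Γ₁ →+ M) {γ : G}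
    {c c' : A → Γ₁} {σ σ' : Equiv.Perm A}
    (h : IsDecomp e₁ t γ c σ) (h' : IsDecomp e₁ t γ c' σ') :
    ∑ a, φ (Additive.ofMul (c a)) = ∑ a, φ (Additive.ofMul (c' a)) := by
  classical
  -- the equivalence relation "same left coset"
  let s : Setoid A :=
    { r := fun a b => ∃ g : Γ₁, t a = e₁ g * t b
      iseqv :=
        { refl := fun a => ⟨1, by simp⟩
          symm := fun {a b} ⟨g, hg⟩ => ⟨g⁻¹, by rw [hg, map_inv, inv_mul_cancel_left]⟩
          trans := fun {a b d} ⟨g, hg⟩ ⟨g', hg'⟩ => ⟨g * g', by rw [hg, hg', map_mul, mul_assoc]⟩ } }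
  let r : A → A := fun a => (Quotient.mk s a).out
  have hr : ∀ a, ∃ g : Γ₁, t a = e₁ g * t (r a) := fun a =>
    s.symm (Quotient.mk_out (s := s) a)
  choose u hu using hr
  have hrr : ∀ a, r (σ a) = r (σ' a) := by
    intro a
    have : Quotient.mk s (σ a) = Quotient.mk s (σ' a) := by
      refine Quotient.sound ⟨(c a)⁻¹ * c' a, ?_⟩
      have h1 := h a
      have h2 := h' a
      rw [h1] at h2
      rw [map_mul, map_inv, mul_assoc, ← h2, inv_mul_cancel_left]
    show (Quotient.mk s (σ a)).out = (Quotient.mk s (σ' a)).out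
    rw [this]
  have key : ∀ a, c a * u (σ a) = c' a * u (σ' a) := by
    intro a
    apply he
    have h1 : t a * γ = e₁ (c a * u (σ a)) * t (r (σ a)) := by
      rw [h a, hu (σ a), map_mul, mul_assoc]
    have h2 : t a * γ = e₁ (c' a * u (σ' a)) * t (r (σ a)) := by
      rw [h' a, hu (σ' a), map_mul, mul_assoc, hrr a]
    rw [h1] at h2
    exact mul_right_cancel h2
  have h3 : ∑ a, (φ (Additive.ofMul (c a)) + φ (Additive.ofMul (u (σ a)))) =
      ∑ a, (φ (Additive.ofMul (c' a)) + φ (Additive.ofMul (u (σ' a)))) := by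
    refine Finset.sum_congr rfl fun a _ => ?_
    have := congrArg (fun x => φ (Additive.ofMul x)) (key a)
    simpa only [ofMul_mul, map_add] using this
  rw [Finset.sum_add_distrib, Finset.sum_add_distrib,
    Equiv.sum_comp σ (fun a => φ (Additive.ofMul (u a))),
    Equiv.sum_comp σ' (fun a => φ (Additive.ofMul (u a)))] at h3
  exact add_right_cancel h3

/-- Core lemma, two families matched by a bijection up to left multiplication by `Γ₁`. -/
theorem IsDecomp.sum_eq_of_equiv (he : Function.Injective e₁) (φ : Additive Γ₁ →+ M)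
    {A' : Type*} [Fintype A'] {t' : A' → G} (E : A ≃ A') (g : A → Γ₁)
    (hE : ∀ a, t a = e₁ (g a) * t' (E a)) {γ : G}
    {c : A → Γ₁} {σ : Equiv.Perm A} {c' : A' → Γ₁} {σ' : Equiv.Perm A'}
    (h : IsDecomp e₁ t γ c σ) (h' : IsDecomp e₁ t' γ c' σ') :
    ∑ a, φ (Additive.ofMul (c a)) = ∑ a', φ (Additive.ofMul (c' a')) := by
  -- transport the decomposition of `t'` to `t`
  let σ'' : Equiv.Perm A := (E.trans σ').trans E.symm
  have h'' : IsDecomp e₁ t γ (fun a => g a * c' (E a) * (g (σ'' a))⁻¹) σ'' := by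
    intro a
    have hσ : E (σ'' a) = σ' (E a) := by simp [σ'']
    rw [hE a, mul_assoc, h' (E a), hE (σ'' a), hσ]
    simp only [map_mul, map_inv, mul_assoc, inv_mul_cancel_left]
  rw [h.sum_eq he φ h'']
  simp only [ofMul_mul, ofMul_inv, map_add, map_neg, Finset.sum_add_distrib,
    Finset.sum_neg_distrib]
  rw [Equiv.sum_comp σ'' (fun a => φ (Additive.ofMul (g a))),
    Equiv.sum_comp E (fun a' => φ (Additive.ofMul (c' a')))]
  abel

end Decomp

/-- A *correspondence* from `Γ₁` to `Γ₂` inside the ambient group `G`: a family `rep : A → G`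
whose union of left `Γ₁`-cosets (with multiplicities) is stable under right multiplication by
`Γ₂`. No distinctness of the cosets is required. -/
structure Reps {Γ₁ Γ₂ G : Type*} [Group Γ₁] [Group Γ₂] [Group G]
    (e₁ : Γ₁ →* G) (e₂ : Γ₂ →* G) (A : Type*) where
  /-- the family of representatives -/
  rep : A → G
  inj : Function.Injective e₁
  stable : ∀ γ : Γ₂, ∃ (c : A → Γ₁) (σ : Equiv.Perm A), IsDecomp e₁ rep (e₂ γ) c σ

namespace Reps

variable {Γ₁ Γ₂ Γ₃ G : Type*} [Group Γ₁] [Group Γ₂] [Group Γ₃] [Group G]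
  {e₁ : Γ₁ →* G} {e₂ : Γ₂ →* G} {e₃ : Γ₃ →* G} {A B : Type*}

section Basic

variable (D : Reps e₁ e₂ A)

/-- a chosen cocycle -/
noncomputable def coc (γ : Γ₂) : A → Γ₁ := (D.stable γ).choose

/-- a chosen permutation -/
noncomputable def perm (γ : Γ₂) : Equiv.Perm A := (D.stable γ).choose_spec.choose

theorem isDecomp (γ : Γ₂) : IsDecomp e₁ D.rep (e₂ γ) (D.coc γ) (D.perm γ) :=
  (D.stable γ).choose_spec.choose_spec

variable [Fintype A] {M : Type*} [AddCommGroup M]

/-- The transfer `Hom(Γ₁, M) → Hom(Γ₂, M)` of a correspondence. -/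
noncomputable def transfer : (Additive Γ₁ →+ M) →+ (Additive Γ₂ →+ M) where
  toFun φ :=
    { toFun := fun γ => ∑ a, φ (Additive.ofMul (D.coc (Additive.toMul γ) a))
      map_zero' := by
        have h1 : IsDecomp e₁ D.rep (e₂ 1) (fun _ => 1) 1 := by
          rw [map_one]; exact IsDecomp.one
        rw [toMul_zero, (D.isDecomp 1).sum_eq D.inj φ h1]
        simp
      map_add' := fun γ γ' => by
        have h1 : IsDecomp e₁ D.rep (e₂ (Additive.toMul γ * Additive.toMul γ'))
            (fun a => D.coc (Additive.toMul γ) a *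
              D.coc (Additive.toMul γ') (D.perm (Additive.toMul γ) a))
            (D.perm (Additive.toMul γ') * D.perm (Additive.toMul γ)) := by
          rw [map_mul]
          exact (D.isDecomp (Additive.toMul γ)).mul (D.isDecomp (Additive.toMul γ'))
        rw [toMul_add, (D.isDecomp _).sum_eq D.inj φ h1]
        simp only [ofMul_mul, map_add, Finset.sum_add_distrib]
        congr 1
        exact Equiv.sum_comp (D.perm (Additive.toMul γ))
          (fun a => φ (Additive.ofMul (D.coc (Additive.toMul γ') a))) }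
  map_zero' := by ext; simp
  map_add' φ ψ := by ext; simp [Finset.sum_add_distrib]

theorem transfer_apply (φ : Additive Γ₁ →+ M) (γ : Γ₂) :
    D.transfer φ (Additive.ofMul γ) = ∑ a, φ (Additive.ofMul (D.coc γ a)) := rfl

/-- The transfer can be computed from any decomposition. -/
theorem transfer_apply_of_decomp (φ : Additive Γ₁ →+ M) (γ : Γ₂) {c : A → Γ₁}
    {σ : Equiv.Perm A} (h : IsDecomp e₁ D.rep (e₂ γ) c σ) :
    D.transfer φ (Additive.ofMul γ) = ∑ a, φ (Additive.ofMul (c a)) := by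
  rw [transfer_apply]
  exact (D.isDecomp γ).sum_eq D.inj φ h

/-- naturality of the transfer in the coefficient group -/
theorem transfer_comp {M' : Type*} [AddCommGroup M'] (f : M →+ M') (φ : Additive Γ₁ →+ M) :
    D.transfer (f.comp φ) = f.comp (D.transfer φ) := by
  ext γ
  simp [transfer, map_sum]

theorem transfer_smul {R : Type*} [Monoid R] [DistribMulAction R M] (r : R)
    (φ : Additive Γ₁ →+ M) : D.transfer (r • φ) = r • D.transfer φ := by
  ext γ
  simp [transfer, Finset.smul_sum]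

/-- **Independence of the representatives**: two correspondences whose families are matched by a
bijection up to left multiplication by `Γ₁` have the same transfer. -/
theorem transfer_eq_of_equiv {A' : Type*} [Fintype A'] (D' : Reps e₁ e₂ A') (E : A ≃ A')
    (g : A → Γ₁) (h : ∀ a, D.rep a = e₁ (g a) * D'.rep (E a)) :
    (D.transfer : (Additive Γ₁ →+ M) →+ _) = D'.transfer := by
  refine AddMonoidHom.ext fun φ => AddMonoidHom.ext fun γ' => ?_
  obtain ⟨γ, rfl⟩ := Additive.ofMul.surjective γ'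
  rw [transfer_apply, transfer_apply]
  exact (D.isDecomp γ).sum_eq_of_equiv D.inj φ E g h (D'.isDecomp γ)

/-- Variant with an injective function between index types of the same cardinality. -/
theorem transfer_eq_of_injective {A' : Type*} [Fintype A'] (D' : Reps e₁ e₂ A') (E : A → A')
    (hE : Function.Injective E) (hcard : Fintype.card A = Fintype.card A')
    (g : A → Γ₁) (h : ∀ a, D.rep a = e₁ (g a) * D'.rep (E a)) :
    (D.transfer : (Additive Γ₁ →+ M) →+ _) = D'.transfer :=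
  D.transfer_eq_of_equiv D'
    (Equiv.ofBijective E ((Fintype.bijective_iff_injective_and_card E).2 ⟨hE, hcard⟩)) g h

end Basic

section Pred

variable (D : Reps e₁ e₂ A) [Fintype A] {M : Type*} [AddCommGroup M]

/-- For torsion free `M`: if `φ` kills a class `P₁` of elements of `Γ₁`, and `P₂` is a class of
elements of `Γ₂` stable under powers all of whose ambient conjugates lying in `Γ₁` are in `P₁`,
then `transfer φ` kills `P₂` (e.g. parabolic elements). -/
theorem transfer_apply_eq_zero_of_pred (htf : ∀ (n : ℕ) (x : M), n ≠ 0 → n • x = 0 → x = 0)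
    (P₁ : Γ₁ → Prop) (P₂ : Γ₂ → Prop) (hpow : ∀ γ, P₂ γ → ∀ r : ℕ, P₂ (γ ^ r))
    (hconj : ∀ (γ : Γ₂) (c : Γ₁) (g : G), P₂ γ → e₁ c = g * e₂ γ * g⁻¹ → P₁ c)
    (φ : Additive Γ₁ →+ M) (hφ : ∀ γ, P₁ γ → φ (Additive.ofMul γ) = 0) (γ : Γ₂) (hγ : P₂ γ) :
    D.transfer φ (Additive.ofMul γ) = 0 := by
  classical
  set r := orderOf (D.perm γ) with hr
  have hr0 : r ≠ 0 := (orderOf_pos (D.perm γ)).ne'
  obtain ⟨c', hc'⟩ := (D.isDecomp γ).pow r
  rw [hr, pow_orderOf_eq_one, ← hr, ← map_pow] at hc'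
  have hP : ∀ a, P₁ (c' a) := by
    intro a
    refine hconj (γ ^ r) _ (D.rep a) (hpow γ hγ r) ?_
    have h := hc' a
    rw [Equiv.Perm.coe_one, id_eq] at h
    rw [h]
    group
  have h0 : D.transfer φ (Additive.ofMul (γ ^ r)) = 0 := by
    rw [D.transfer_apply_of_decomp φ (γ ^ r) hc']
    exact Finset.sum_eq_zero fun a _ => hφ _ (hP a)
  rw [ofMul_pow, map_nsmul] at h0
  exact htf r _ hr0 h0

end Pred

section Constructions

variable {M : Type*} [AddCommGroup M]

/-- a `CosetReps` system as a correspondence from `Γ` to itself -/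
def ofCosetReps {Γ : Type*} [Group Γ] {emb : Γ →* G} {ι : Type*} (D : CosetReps emb ι) :
    Reps emb emb ι where
  rep := D.rep
  inj := D.emb_injective
  stable γ := ⟨D.coc γ, D.nextEquiv γ, fun i => D.rel γ i⟩

@[simp] theorem ofCosetReps_rep {Γ : Type*} [Group Γ] {emb : Γ →* G} {ι : Type*}
    (D : CosetReps emb ι) (i : ι) : (ofCosetReps D).rep i = D.rep i := rfl

theorem ofCosetReps_transfer {Γ : Type*} [Group Γ] {emb : Γ →* G} {ι : Type*} [Fintype ι]
    (D : CosetReps emb ι) :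
    ((ofCosetReps D).transfer : (Additive Γ →+ M) →+ _) = D.transfer := by
  refine AddMonoidHom.ext fun φ => AddMonoidHom.ext fun γ' => ?_
  obtain ⟨γ, rfl⟩ := Additive.ofMul.surjective γ'
  rw [(ofCosetReps D).transfer_apply_of_decomp φ γ
    (c := D.coc γ) (σ := D.nextEquiv γ) (fun i => D.rel γ i)]
  rfl

/-- The correspondence of a homomorphism `α : Γ₂ →* Γ₁` which is implemented by conjugation by
`w : G`; its transfer is the pull-back `φ ↦ φ ∘ α`. -/
def ofHom (he : Function.Injective e₁) (α : Γ₂ →* Γ₁) (w : G)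
    (h : ∀ γ, w * e₂ γ = e₁ (α γ) * w) : Reps e₁ e₂ Unit where
  rep _ := w
  inj := he
  stable γ := ⟨fun _ => α γ, 1, fun _ => h γ⟩

@[simp] theorem ofHom_rep (he : Function.Injective e₁) (α : Γ₂ →* Γ₁) (w : G)
    (h : ∀ γ, w * e₂ γ = e₁ (α γ) * w) (u : Unit) : (ofHom he α w h).rep u = w := rfl

theorem ofHom_transfer (he : Function.Injective e₁) (α : Γ₂ →* Γ₁) (w : G)
    (h : ∀ γ, w * e₂ γ = e₁ (α γ) * w) (φ : Additive Γ₁ →+ M) :
    (ofHom he α w h).transfer φ = φ.comp (MonoidHom.toAdditive α) := by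
  refine AddMonoidHom.ext fun γ' => ?_
  obtain ⟨γ, rfl⟩ := Additive.ofMul.surjective γ'
  rw [(ofHom he α w h).transfer_apply_of_decomp φ γ
    (c := fun _ => α γ) (σ := 1) (fun _ => h γ)]
  simp

/-- Composition of correspondences: the family of products, indexed by `B × A`. -/
def comp (D₁₂ : Reps e₁ e₂ A) (D₂₃ : Reps e₂ e₃ B) : Reps e₁ e₃ (B × A) where
  rep x := D₁₂.rep x.2 * D₂₃.rep x.1
  inj := D₁₂.inj
  stable γ := ⟨fun x => D₁₂.coc (D₂₃.coc γ x.1) x.2,
    Equiv.prodShear (D₂₃.perm γ) (fun b => D₁₂.perm (D₂₃.coc γ b)), fun x => by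
      rw [mul_assoc, D₂₃.isDecomp γ x.1, ← mul_assoc, D₁₂.isDecomp (D₂₃.coc γ x.1) x.2, mul_assoc]
      rfl⟩

@[simp] theorem comp_rep (D₁₂ : Reps e₁ e₂ A) (D₂₃ : Reps e₂ e₃ B) (x : B × A) :
    (D₁₂.comp D₂₃).rep x = D₁₂.rep x.2 * D₂₃.rep x.1 := rfl

theorem comp_transfer [Fintype A] [Fintype B] (D₁₂ : Reps e₁ e₂ A) (D₂₃ : Reps e₂ e₃ B)
    (φ : Additive Γ₁ →+ M) :
    (D₁₂.comp D₂₃).transfer φ = D₂₃.transfer (D₁₂.transfer φ) := by
  refine AddMonoidHom.ext fun γ' => ?_
  obtain ⟨γ, rfl⟩ := Additive.ofMul.surjective γ'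
  have hdec : IsDecomp e₁ (D₁₂.comp D₂₃).rep (e₃ γ) (fun x => D₁₂.coc (D₂₃.coc γ x.1) x.2)
      (Equiv.prodShear (D₂₃.perm γ) (fun b => D₁₂.perm (D₂₃.coc γ b))) := fun x => by
    rw [comp_rep, mul_assoc, D₂₃.isDecomp γ x.1, ← mul_assoc,
      D₁₂.isDecomp (D₂₃.coc γ x.1) x.2, mul_assoc]
    rfl
  rw [(D₁₂.comp D₂₃).transfer_apply_of_decomp φ γ hdec, Fintype.sum_prod_type, transfer_apply]
  rfl

/-- Disjoint union of correspondences. -/
def sum (D : Reps e₁ e₂ A) (D' : Reps e₁ e₂ B) : Reps e₁ e₂ (A ⊕ B) where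
  rep := Sum.elim D.rep D'.rep
  inj := D.inj
  stable γ := ⟨Sum.elim (D.coc γ) (D'.coc γ), Equiv.sumCongr (D.perm γ) (D'.perm γ), fun x => by
    rcases x with a | b
    · exact D.isDecomp γ a
    · exact D'.isDecomp γ b⟩

@[simp] theorem sum_rep_inl (D : Reps e₁ e₂ A) (D' : Reps e₁ e₂ B) (a : A) :
    (D.sum D').rep (Sum.inl a) = D.rep a := rfl

@[simp] theorem sum_rep_inr (D : Reps e₁ e₂ A) (D' : Reps e₁ e₂ B) (b : B) :
    (D.sum D').rep (Sum.inr b) = D'.rep b := rfl

theorem sum_transfer [Fintype A] [Fintype B] (D : Reps e₁ e₂ A) (D' : Reps e₁ e₂ B)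
    (φ : Additive Γ₁ →+ M) :
    (D.sum D').transfer φ = D.transfer φ + D'.transfer φ := by
  refine AddMonoidHom.ext fun γ' => ?_
  obtain ⟨γ, rfl⟩ := Additive.ofMul.surjective γ'
  have hdec : IsDecomp e₁ (D.sum D').rep (e₂ γ) (Sum.elim (D.coc γ) (D'.coc γ))
      (Equiv.sumCongr (D.perm γ) (D'.perm γ)) := fun x => by
    rcases x with a | b
    · exact D.isDecomp γ a
    · exact D'.isDecomp γ b
  rw [(D.sum D').transfer_apply_of_decomp φ γ hdec, Fintype.sum_sum_type]
  rfl

/-- `μ` copies of a correspondence. -/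
def copies (D : Reps e₁ e₂ A) (μ : Type*) : Reps e₁ e₂ (A × μ) where
  rep x := D.rep x.1
  inj := D.inj
  stable γ := ⟨fun x => D.coc γ x.1, Equiv.prodCongr (D.perm γ) (Equiv.refl μ),
    fun x => D.isDecomp γ x.1⟩

@[simp] theorem copies_rep (D : Reps e₁ e₂ A) (μ : Type*) (x : A × μ) :
    (D.copies μ).rep x = D.rep x.1 := rfl

theorem copies_transfer [Fintype A] (D : Reps e₁ e₂ A) (μ : Type*) [Fintype μ]
    (φ : Additive Γ₁ →+ M) :
    (D.copies μ).transfer φ = Fintype.card μ • D.transfer φ := by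
  refine AddMonoidHom.ext fun γ' => ?_
  obtain ⟨γ, rfl⟩ := Additive.ofMul.surjective γ'
  have hdec : IsDecomp e₁ (D.copies μ).rep (e₂ γ) (fun x => D.coc γ x.1)
      (Equiv.prodCongr (D.perm γ) (Equiv.refl μ)) := fun x => D.isDecomp γ x.1
  rw [(D.copies μ).transfer_apply_of_decomp φ γ hdec, Fintype.sum_prod_type]
  simp [transfer_apply, Finset.smul_sum]

end Constructions

end Reps

end Fermat.Agent.LR.Corr
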