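import Mathlib
import Fermat.Agent.Eis.PSL2Free
import Fermat.Agent.Eis.Shapiro
import Fermat.Agent.Eis.CocycleUP

/-!
# Program M, node C2 (H1): the Heisenberg lift of a pair of cocycles of `SL(2,ℤ)`

`Γ ≤ SL(2,ℤ)` with `-1 ∈ Γ`, `E = SL(2,ℤ) ⧸ Γ`.  For two cocycles `A B : SL(2,ℤ) → E → ℚ`
(`Eis.Shapiro.IsCocycle`) vanishing at `-1`, there is `X : SL(2,ℤ) → E → ℚ` with

`X (g * h) y = X g y + X h (g⁻¹ • y) + A g y * B h (g⁻¹ • y)`

(a trivialisation of the cup product `A ∪ B`), with the explicit values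
`X S = ½ A(S) B(S)` and `X U y = ⅓ (a₀ b₀ + a₁ b₁ + a₀ b₁)`, `aᵢ = A U (Uⁱ y)`, `bᵢ = B U (Uⁱ y)`.
Construction: `PSL₂(ℤ) = C₂ * C₃` (`PSL2Free.exists_hom_SL2Z`) applied to the group of
permutations of `E × (ℚ × ℚ)`, acting through the pointwise Heisenberg group.
-/

set_option autoImplicit false

namespace Fermat.Agent.LR.HeisLift

open Matrix Matrix.SpecialLinearGroup ModularGroup
open Fermat.Agent.Eis.PSL2Free Fermat.Agent.Eis.Shapiro Fermat.Agent.Eis.CocycleUP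
open scoped MatrixGroups

variable {Γ : Subgroup SL(2, ℤ)}

/-- the permutation `(x, (b, c)) ↦ (g x, (b + β (g x), c + ξ (g x) + α (g x) * b))`. -/
def hdeco (g : SL(2, ℤ)) (α β ξ : SL(2, ℤ) ⧸ Γ → ℚ) :
    Equiv.Perm ((SL(2, ℤ) ⧸ Γ) × (ℚ × ℚ)) where
  toFun z := (g • z.1, (z.2.1 + β (g • z.1), z.2.2 + ξ (g • z.1) + α (g • z.1) * z.2.1))
  invFun z := (g⁻¹ • z.1, (z.2.1 - β z.1, z.2.2 - ξ z.1 - α z.1 * (z.2.1 - β z.1)))
  left_inv z := by
    rcases z with ⟨x, b, c⟩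
    simp only [inv_smul_smul, add_sub_cancel_right, Prod.mk.injEq, true_and]
    ring
  right_inv z := by
    rcases z with ⟨x, b, c⟩
    simp only [smul_inv_smul, sub_add_cancel, Prod.mk.injEq, true_and]
    ring

@[simp]
theorem hdeco_apply (g : SL(2, ℤ)) (α β ξ : SL(2, ℤ) ⧸ Γ → ℚ) (x : SL(2, ℤ) ⧸ Γ) (b c : ℚ) :
    hdeco g α β ξ (x, (b, c)) = (g • x, (b + β (g • x), c + ξ (g • x) + α (g • x) * b)) := rfl

theorem hdeco_S_sq (hneg : (-1 : SL(2, ℤ)) ∈ Γ) (α β : SL(2, ℤ) ⧸ Γ → ℚ)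
    (hα : ∀ x, α x + α (S • x) = 0) (hβ : ∀ x, β x + β (S • x) = 0) :
    (hdeco S α β (fun x => 1 / 2 * α x * β x)) ^ 2 = 1 := by
  ext ⟨x, b, c⟩
  · simp [pow_two, S_smul_S_smul hneg]
  · simp only [pow_two, Equiv.Perm.coe_mul, Function.comp_apply, hdeco_apply, Equiv.Perm.coe_one,
      id_eq, S_smul_S_smul hneg]
    linear_combination hβ x
  · simp only [pow_two, Equiv.Perm.coe_mul, Function.comp_apply, hdeco_apply, Equiv.Perm.coe_one,
      id_eq, S_smul_S_smul hneg]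
    have h1 := hα x
    have h2 := hβ x
    have e1 : α (S • x) = - α x := by linarith
    have e2 : β (S • x) = - β x := by linarith
    rw [e1, e2]
    ring

/-- the value of the lift at `U`. -/
def xiU (α β : SL(2, ℤ) ⧸ Γ → ℚ) (x : SL(2, ℤ) ⧸ Γ) : ℚ :=
  1 / 3 * (α x * β x + α (U • x) * β (U • x) + α x * β (U • x))

theorem hdeco_U_cube (hneg : (-1 : SL(2, ℤ)) ∈ Γ) (α β : SL(2, ℤ) ⧸ Γ → ℚ)
    (hα : ∀ x, α x + α (U • x) + α (U • U • x) = 0)
    (hβ : ∀ x, β x + β (U • x) + β (U • U • x) = 0) :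
    (hdeco U α β (xiU α β)) ^ 3 = 1 := by
  ext ⟨x, b, c⟩
  · simp [pow_succ, U_smul_U_smul_U_smul hneg]
  · simp only [pow_succ, pow_zero, one_mul, Equiv.Perm.coe_mul, Function.comp_apply, hdeco_apply,
      Equiv.Perm.coe_one, id_eq, U_smul_U_smul_U_smul hneg]
    linear_combination hβ x
  · simp only [pow_succ, pow_zero, one_mul, Equiv.Perm.coe_mul, Function.comp_apply, hdeco_apply,
      Equiv.Perm.coe_one, id_eq, U_smul_U_smul_U_smul hneg, xiU]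
    have h1 := hα x
    have h2 := hβ x
    have e1 : α (U • U • x) = - α x - α (U • x) := by linarith
    have e2 : β (U • U • x) = - β x - β (U • x) := by linarith
    rw [e1, e2]
    ring

theorem hdeco_mul (g h : SL(2, ℤ)) (α β ξ α' β' ξ' : SL(2, ℤ) ⧸ Γ → ℚ) :
    hdeco g α β ξ * hdeco h α' β' ξ' =
      hdeco (g * h) (fun y => α y + α' (g⁻¹ • y)) (fun y => β y + β' (g⁻¹ • y))
        (fun y => ξ y + ξ' (g⁻¹ • y) + α y * β' (g⁻¹ • y)) := by
  ext ⟨x, b, c⟩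
  · simp [mul_smul]
  · simp only [Equiv.Perm.coe_mul, Function.comp_apply, hdeco_apply, mul_smul, inv_smul_smul]
    ring
  · simp only [Equiv.Perm.coe_mul, Function.comp_apply, hdeco_apply, mul_smul, inv_smul_smul]
    ring

theorem hdeco_inv (g : SL(2, ℤ)) (α β ξ : SL(2, ℤ) ⧸ Γ → ℚ) :
    (hdeco g α β ξ)⁻¹ =
      hdeco g⁻¹ (fun y => - α (g • y)) (fun y => - β (g • y))
        (fun y => - ξ (g • y) + α (g • y) * β (g • y)) := by
  rw [inv_eq_iff_mul_eq_one, hdeco_mul]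
  ext ⟨x, b, c⟩
  · simp
  · simp
  · simp only [hdeco_apply, mul_inv_cancel, one_smul, smul_inv_smul, Equiv.Perm.coe_one, id_eq]
    ring

theorem hdeco_injective {g : SL(2, ℤ)} {α β ξ β' ξ' : SL(2, ℤ) ⧸ Γ → ℚ}
    (h : hdeco g α β ξ = hdeco g α β' ξ') : β = β' ∧ ξ = ξ' := by
  constructor
  · funext y
    have := congrArg (fun e : Equiv.Perm ((SL(2, ℤ) ⧸ Γ) × (ℚ × ℚ)) => (e (g⁻¹ • y, (0, 0))).2.1) h
    simpa using this
  · funext y
    have := congrArg (fun e : Equiv.Perm ((SL(2, ℤ) ⧸ Γ) × (ℚ × ℚ)) => (e (g⁻¹ • y, (0, 0))).2.2) h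
    simpa using this

variable (A : SL(2, ℤ) → SL(2, ℤ) ⧸ Γ → ℚ)

/-- the elements `g` on which `φ` acts in Heisenberg form over `A g`. -/
def formSubgroup (hA : IsCocycle Γ A)
    (φ : SL(2, ℤ) →* Equiv.Perm ((SL(2, ℤ) ⧸ Γ) × (ℚ × ℚ))) : Subgroup SL(2, ℤ) where
  carrier := {g | ∃ β ξ : SL(2, ℤ) ⧸ Γ → ℚ, φ g = hdeco g (A g) β ξ}
  one_mem' := by
    refine ⟨fun _ => 0, fun _ => 0, ?_⟩
    rw [map_one]
    ext ⟨x, b, c⟩
    · simp
    · simp
    · simp [hA.map_one]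
  mul_mem' := by
    rintro g h ⟨β, ξ, hg⟩ ⟨β', ξ', hh⟩
    refine ⟨fun y => β y + β' (g⁻¹ • y),
      fun y => ξ y + ξ' (g⁻¹ • y) + A g y * β' (g⁻¹ • y), ?_⟩
    rw [map_mul, hg, hh, hdeco_mul]
    congr 1
    funext y
    exact (hA g h y).symm
  inv_mem' := by
    rintro g ⟨β, ξ, hg⟩
    refine ⟨fun y => - β (g • y), fun y => - ξ (g • y) + A g (g • y) * β (g • y), ?_⟩
    rw [map_inv, hg, hdeco_inv]
    congr 1
    funext y
    exact (hA.map_inv g y).symm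

/-- **Heisenberg lift.** -/
theorem exists_heis (hneg : (-1 : SL(2, ℤ)) ∈ Γ) (A B : SL(2, ℤ) → SL(2, ℤ) ⧸ Γ → ℚ)
    (hA : IsCocycle Γ A) (hB : IsCocycle Γ B) (hA1 : A (-1) = 0) (hB1 : B (-1) = 0) :
    ∃ X : SL(2, ℤ) → SL(2, ℤ) ⧸ Γ → ℚ,
      (∀ g h y, X (g * h) y = X g y + X h (g⁻¹ • y) + A g y * B h (g⁻¹ • y)) ∧
      (∀ y, X S y = 1 / 2 * A S y * B S y) ∧
      (∀ y, X U y = xiU (A U) (B U) y) := by
  obtain ⟨φ, hφS, hφU⟩ := exists_hom_SL2Z
    (hdeco S (A S) (B S) (fun x => 1 / 2 * A S x * B S x)) (hdeco U (A U) (B U) (xiU (A U) (B U)))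
    (hdeco_S_sq hneg _ _ (rel_S hneg hA hA1) (rel_S hneg hB hB1))
    (hdeco_U_cube hneg _ _ (rel_U hneg hA hA1) (rel_U hneg hB hB1))
  have hφU' : φ U = hdeco U (A U) (B U) (xiU (A U) (B U)) := hφU
  have htop : formSubgroup A hA φ = ⊤ := by
    rw [eq_top_iff, ← closure_S_U, Subgroup.closure_le]
    rintro x (rfl | rfl)
    · exact ⟨_, _, hφS⟩
    · exact ⟨_, _, hφU'⟩
  have hform : ∀ g, ∃ β ξ : SL(2, ℤ) ⧸ Γ → ℚ, φ g = hdeco g (A g) β ξ := by
    intro g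
    have : g ∈ formSubgroup A hA φ := by rw [htop]; exact Subgroup.mem_top g
    exact this
  choose B' X hBX using hform
  have hmul : ∀ g h, B' (g * h) = (fun y => B' g y + B' h (g⁻¹ • y)) ∧
      X (g * h) = (fun y => X g y + X h (g⁻¹ • y) + A g y * B' h (g⁻¹ • y)) := by
    intro g h
    have h1 : φ (g * h) = hdeco (g * h) (A (g * h)) (fun y => B' g y + B' h (g⁻¹ • y))
        (fun y => X g y + X h (g⁻¹ • y) + A g y * B' h (g⁻¹ • y)) := by
      rw [map_mul, hBX g, hBX h, hdeco_mul]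
      congr 1
      funext y
      exact (hA g h y).symm
    rw [hBX (g * h)] at h1
    exact hdeco_injective h1
  have hS' := hdeco_injective ((hBX S).symm.trans hφS)
  have hU' := hdeco_injective ((hBX U).symm.trans hφU')
  have hc : IsCocycle Γ B' := fun g h y => congrFun (hmul g h).1 y
  have hBB : B' = B := by
    apply IsCocycle.eq_of_eqOn_closure hc hB closure_S_U
    rintro x (rfl | rfl)
    · exact hS'.1
    · exact hU'.1
  subst hBB
  refine ⟨X, fun g h y => congrFun (hmul g h).2 y, fun y => congrFun hS'.2 y,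
    fun y => congrFun hU'.2 y⟩

end Fermat.Agent.LR.HeisLift
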