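import Mathlib

/-!
# Program M, node C2: decompositions of `SL(2,ℤ) ⧸ Γ` into `⟨T⟩`-orbits (definition only)

Shared definition for `LR/CuspSum.lean` (helper26) and `LR/ParSys.lean` (helper27).
-/

set_option autoImplicit false

namespace Fermat.Agent.LR.ParSys

open Matrix ModularGroup
open scoped MatrixGroups

/-- A decomposition of `E = SL(2,ℤ) ⧸ Γ` into `⟨T⟩`-orbits: orbit representatives `g j`, widths
`w j`; the attached parabolic elements are `(g j)⁻¹ * T ^ (w j) * g j ∈ Γ`. -/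
structure TOrbitSys (Γ : Subgroup SL(2, ℤ)) (J : Type*) where
  /-- orbit representatives -/
  g : J → SL(2, ℤ)
  /-- widths -/
  w : J → ℕ
  w_pos : ∀ j, 0 < w j
  mem : ∀ j, (g j)⁻¹ * T ^ (w j) * g j ∈ Γ
  bij : Function.Bijective
    (fun p : (Σ j, Fin (w j)) => (((T⁻¹) ^ (p.2 : ℕ) * g p.1 : SL(2, ℤ)) : SL(2, ℤ) ⧸ Γ))

end Fermat.Agent.LR.ParSys
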