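import Mathlib
import Fermat.Agent.LR.HeisLift
import Fermat.Agent.LR.TOrbitSysDef

/-!
# Program M, node C2 (H2–H4): the cusp sum of a Heisenberg lift

`Γ ≤ SL(2,ℤ)` of finite index with `-1 ∈ Γ`, `E = SL(2,ℤ) ⧸ Γ`, `x₀` the base coset.
A `TOrbitSys Γ J` is a decomposition of `E` into `⟨T⟩`-orbits: representatives `g j`, widths
`w j`; the attached parabolic elements are `γ j = (g j)⁻¹ T ^ (w j) g j ∈ Γ`.

For cocycles `A, B : SL(2,ℤ) → E → ℚ` with `A S = A U`, `B S = B U` (modular-symbol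
representatives), restricting to `φ, ψ : Γ → ℚ`, and ANY `κ : Γ → ℚ` with
`κ (γ γ') = κ γ + κ γ' + φ γ * ψ γ'`:

`∑ j, κ (γ j) = 1/6 * ∑ z, m z * m' z + 1/3 * ∑ z, m z * m' (U • z)`   (`m = A S`, `m' = B S`).
-/

set_option autoImplicit false

namespace Fermat.Agent.LR.CuspSum

open Matrix Matrix.SpecialLinearGroup ModularGroup
open Fermat.Agent.Eis.PSL2Free Fermat.Agent.Eis.Shapiro Fermat.Agent.Eis.CocycleUP
open Fermat.Agent.LR.HeisLift Fermat.Agent.LR.ParSys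
open scoped MatrixGroups

variable {Γ : Subgroup SL(2, ℤ)}

/-- the base coset. -/
def x0 (Γ : Subgroup SL(2, ℤ)) : SL(2, ℤ) ⧸ Γ := ((1 : SL(2, ℤ)) : SL(2, ℤ) ⧸ Γ)

theorem smul_x0 (g : SL(2, ℤ)) : g • x0 Γ = ((g : SL(2, ℤ)) : SL(2, ℤ) ⧸ Γ) := by
  show ((g * 1 : SL(2, ℤ)) : SL(2, ℤ) ⧸ Γ) = _
  rw [mul_one]

theorem mem_smul_x0 (γ : Γ) : (γ : SL(2, ℤ)) • x0 Γ = x0 Γ := coe_smul_one Γ γ

theorem inv_mem_smul_x0 (γ : Γ) : (γ : SL(2, ℤ))⁻¹ • x0 Γ = x0 Γ := coe_inv_smul_one Γ γ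

end Fermat.Agent.LR.CuspSum

namespace Fermat.Agent.LR.ParSys.TOrbitSys

open Matrix Matrix.SpecialLinearGroup ModularGroup
open scoped MatrixGroups

variable {Γ : Subgroup SL(2, ℤ)} {J : Type*} (D : TOrbitSys Γ J)

/-- the parabolic generator attached to the `j`-th orbit. -/
def gen (j : J) : Γ := ⟨(D.g j)⁻¹ * T ^ (D.w j) * D.g j, D.mem j⟩

theorem coe_gen (j : J) : ((D.gen j : Γ) : SL(2, ℤ)) = (D.g j)⁻¹ * T ^ (D.w j) * D.g j := rfl

theorem sum_eq [Fintype J] [Fintype (SL(2, ℤ) ⧸ Γ)] (F : SL(2, ℤ) ⧸ Γ → ℚ) :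
    ∑ y, F y = ∑ j, ∑ i ∈ Finset.range (D.w j),
      F ((T⁻¹) ^ i • ((D.g j : SL(2, ℤ)) : SL(2, ℤ) ⧸ Γ)) := by
  rw [← Fintype.sum_bijective _ D.bij (fun p => F ((T⁻¹) ^ (p.2 : ℕ) •
    ((D.g p.1 : SL(2, ℤ)) : SL(2, ℤ) ⧸ Γ))) F (fun _ => rfl)]
  rw [Fintype.sum_sigma]
  refine Finset.sum_congr rfl fun j _ => ?_
  rw [Finset.sum_range]

end Fermat.Agent.LR.ParSys.TOrbitSys

namespace Fermat.Agent.LR.CuspSum

open Matrix Matrix.SpecialLinearGroup ModularGroup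
open Fermat.Agent.Eis.PSL2Free Fermat.Agent.Eis.Shapiro Fermat.Agent.Eis.CocycleUP
open Fermat.Agent.LR.HeisLift Fermat.Agent.LR.ParSys
open scoped MatrixGroups

variable {Γ : Subgroup SL(2, ℤ)}

/-! ### Values of a cocycle / of the lift on `g⁻¹ T ^ n g` -/

section

variable {A B X : SL(2, ℤ) → SL(2, ℤ) ⧸ Γ → ℚ}

/-- a cocycle at a conjugate `g⁻¹ t g ∈ Γ` of an element `t` fixing `g x₀`. -/
theorem cocycle_conj (hA : IsCocycle Γ A) (g t : SL(2, ℤ)) (γ : Γ)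
    (hγ : (γ : SL(2, ℤ)) = g⁻¹ * t * g) :
    A (γ : SL(2, ℤ)) (x0 Γ) = A t (g • x0 Γ) := by
  have hfix : t⁻¹ • g • x0 Γ = g • x0 Γ := by
    have : t * g = g * (γ : SL(2, ℤ)) := by rw [hγ]; group
    rw [inv_smul_eq_iff, ← mul_smul, this, mul_smul, mem_smul_x0]
  have h1 : A (g * (γ : SL(2, ℤ))) (g • x0 Γ) = A g (g • x0 Γ) + A (γ : SL(2, ℤ)) (x0 Γ) := by
    rw [hA g _ (g • x0 Γ), inv_smul_smul]
  have h2 : A (t * g) (g • x0 Γ) = A t (g • x0 Γ) + A g (g • x0 Γ) := by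
    rw [hA t g (g • x0 Γ), hfix]
  have : t * g = g * (γ : SL(2, ℤ)) := by rw [hγ]; group
  rw [this] at h2
  linarith

variable (hX : ∀ g h y, X (g * h) y = X g y + X h (g⁻¹ • y) + A g y * B h (g⁻¹ • y))

include hX in
theorem lift_one (hA : IsCocycle Γ A) (y : SL(2, ℤ) ⧸ Γ) : X 1 y = 0 := by
  have := hX 1 1 y
  rw [mul_one, hA.map_one, inv_one, one_smul, zero_mul, add_zero] at this
  linarith

include hX in
/-- the lift at a conjugate `g⁻¹ t g ∈ Γ`. -/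
theorem lift_conj (hA : IsCocycle Γ A) (g t : SL(2, ℤ)) (γ : Γ)
    (hγ : (γ : SL(2, ℤ)) = g⁻¹ * t * g) :
    X (γ : SL(2, ℤ)) (x0 Γ) = X t (g • x0 Γ) + A (γ : SL(2, ℤ)) (x0 Γ) * B g (g • x0 Γ)
      - A g (g • x0 Γ) * B (γ : SL(2, ℤ)) (x0 Γ) := by
  have hfix : t⁻¹ • g • x0 Γ = g • x0 Γ := by
    have : t * g = g * (γ : SL(2, ℤ)) := by rw [hγ]; group
    rw [inv_smul_eq_iff, ← mul_smul, this, mul_smul, mem_smul_x0]
  have h1 := hX g (γ : SL(2, ℤ)) (g • x0 Γ)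
  rw [inv_smul_smul] at h1
  have h2 := hX t g (g • x0 Γ)
  rw [hfix] at h2
  have : t * g = g * (γ : SL(2, ℤ)) := by rw [hγ]; group
  rw [this] at h2
  rw [← cocycle_conj hA g t γ hγ] at h2
  linarith

include hX in
/-- the lift at a power, when `B t = 0`. -/
theorem lift_pow (hA : IsCocycle Γ A) (t : SL(2, ℤ)) (hBt : B t = 0) (n : ℕ)
    (y : SL(2, ℤ) ⧸ Γ) :
    X (t ^ n) y = ∑ i ∈ Finset.range n, X t ((t⁻¹) ^ i • y) := by
  induction n with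
  | zero => simp [lift_one hX hA]
  | succ n ih =>
    rw [pow_succ, hX, ih, Finset.sum_range_succ, hBt]
    simp [inv_pow]

end

/-- a cocycle with `c S = c U` vanishes at `T`. -/
theorem cocycle_T_eq_zero {c : SL(2, ℤ) → SL(2, ℤ) ⧸ Γ → ℚ} (hc : IsCocycle Γ c)
    (h : c S = c U) : c T = 0 := by
  funext y
  rw [T_eq, hc S⁻¹ U y, hc.map_inv, inv_inv, h]
  simp

theorem cocycle_pow_of_T_eq_zero {c : SL(2, ℤ) → SL(2, ℤ) ⧸ Γ → ℚ} (hc : IsCocycle Γ c)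
    (h : c T = 0) (n : ℕ) : c (T ^ n) = 0 := by
  funext y
  rw [hc.map_pow]
  simp [h]

/-! ### The value of the lift at `T` -/

theorem lift_T (hneg : (-1 : SL(2, ℤ)) ∈ Γ) {A B X : SL(2, ℤ) → SL(2, ℤ) ⧸ Γ → ℚ}
    (hA : IsCocycle Γ A) (hB : IsCocycle Γ B) (hA1 : A (-1) = 0) (hB1 : B (-1) = 0)
    (hX : ∀ g h y, X (g * h) y = X g y + X h (g⁻¹ • y) + A g y * B h (g⁻¹ • y))
    (hXS : ∀ y, X S y = 1 / 2 * A S y * B S y) (y : SL(2, ℤ) ⧸ Γ) :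
    X T y = 1 / 2 * A S y * B S y + X U (S • y) + A S y * B U (S • y) := by
  have hSS : ∀ z : SL(2, ℤ) ⧸ Γ, S • S • z = z := S_smul_S_smul hneg
  have hαS : ∀ z, A S (S • z) = - A S z := fun z => by
    have := rel_S hneg hA hA1 z; linarith
  have hβS : ∀ z, B S (S • z) = - B S z := fun z => by
    have := rel_S hneg hB hB1 z; linarith
  -- `X S⁻¹`
  have hXinv : X S⁻¹ y = 1 / 2 * A S y * B S y := by
    have h := hX S S⁻¹ (S • y)
    rw [mul_inv_cancel, lift_one hX hA, inv_smul_smul, hB.map_inv, hXS, hαS, hβS] at h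
    linarith
  rw [T_eq, hX S⁻¹ U y, hXinv, hA.map_inv, inv_inv, hαS]
  ring

/-! ### The cusp sum formula -/

theorem cuspSum_lift (hneg : (-1 : SL(2, ℤ)) ∈ Γ) [Fintype (SL(2, ℤ) ⧸ Γ)]
    {A B X : SL(2, ℤ) → SL(2, ℤ) ⧸ Γ → ℚ}
    (hA : IsCocycle Γ A) (hB : IsCocycle Γ B) (hA1 : A (-1) = 0) (hB1 : B (-1) = 0)
    (hAS : A S = A U) (hBS : B S = B U)
    (hX : ∀ g h y, X (g * h) y = X g y + X h (g⁻¹ • y) + A g y * B h (g⁻¹ • y))
    (hXS : ∀ y, X S y = 1 / 2 * A S y * B S y)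
    (hXU : ∀ y, X U y = xiU (A U) (B U) y)
    {J : Type*} [Fintype J] (D : TOrbitSys Γ J) :
    ∑ j, X (D.gen j : SL(2, ℤ)) (x0 Γ) =
      1 / 6 * ∑ z, A S z * B S z + 1 / 3 * ∑ z, A S z * B S (U • z) := by
  have hAT := cocycle_T_eq_zero hA hAS
  have hBT := cocycle_T_eq_zero hB hBS
  -- each term is `X (T ^ w) (x_j)`
  have hterm : ∀ j, X (D.gen j : SL(2, ℤ)) (x0 Γ) =
      ∑ i ∈ Finset.range (D.w j), X T ((T⁻¹) ^ i • ((D.g j : SL(2, ℤ)) : SL(2, ℤ) ⧸ Γ)) := by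
    intro j
    have h1 := lift_conj hX hA (D.g j) (T ^ D.w j) (D.gen j) (D.coe_gen j)
    have hφ : A (D.gen j : SL(2, ℤ)) (x0 Γ) = 0 := by
      rw [cocycle_conj hA (D.g j) (T ^ D.w j) (D.gen j) (D.coe_gen j),
        cocycle_pow_of_T_eq_zero hA hAT]
      rfl
    have hψ : B (D.gen j : SL(2, ℤ)) (x0 Γ) = 0 := by
      rw [cocycle_conj hB (D.g j) (T ^ D.w j) (D.gen j) (D.coe_gen j),
        cocycle_pow_of_T_eq_zero hB hBT]
      rfl
    rw [h1, hφ, hψ, lift_pow hX hA T hBT, smul_x0]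
    ring
  rw [Finset.sum_congr rfl fun j _ => hterm j, ← D.sum_eq (fun y => X T y)]
  -- now compute `∑ y, X T y`
  have hSS : ∀ z : SL(2, ℤ) ⧸ Γ, S • S • z = z := S_smul_S_smul hneg
  have hβS : ∀ z, B S (S • z) = - B S z := fun z => by
    have := rel_S hneg hB hB1 z; linarith
  have e1 : ∑ y, X T y = ∑ y, (1 / 2 * A S y * B S y + X U (S • y) + A S y * B U (S • y)) :=
    Finset.sum_congr rfl fun y _ => lift_T hneg hA hB hA1 hB1 hX hXS y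
  rw [e1, Finset.sum_add_distrib, Finset.sum_add_distrib]
  have e2 : ∑ y, X U (S • y) = ∑ z, X U z :=
    Equiv.sum_comp (MulAction.toPerm S : Equiv.Perm (SL(2, ℤ) ⧸ Γ)) (fun z => X U z)
  have e3 : ∑ z, X U z = 1 / 3 * (∑ z, A S z * B S z + ∑ z, A S z * B S z +
      ∑ z, A S z * B S (U • z)) := by
    rw [Finset.sum_congr rfl fun z _ => hXU z]
    simp only [xiU, ← hAS, ← hBS]
    rw [← Finset.mul_sum, Finset.sum_add_distrib, Finset.sum_add_distrib]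
    congr 3
    exact Equiv.sum_comp (MulAction.toPerm U : Equiv.Perm (SL(2, ℤ) ⧸ Γ))
      (fun z => A S z * B S z)
  have e4 : ∑ y, A S y * B U (S • y) = - ∑ z, A S z * B S z := by
    rw [← hBS, ← Finset.sum_neg_distrib]
    exact Finset.sum_congr rfl fun y _ => by rw [hβS]; ring
  have e5 : ∑ x, 1 / 2 * A S x * B S x = 1 / 2 * ∑ z, A S z * B S z := by
    rw [Finset.mul_sum]
    exact Finset.sum_congr rfl fun _ _ => by ring
  rw [e2, e3, e4, e5]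
  ring

/-! ### Homomorphisms have cusp sum zero -/

theorem S_pow_four : (S : SL(2, ℤ)) ^ 4 = 1 := by decide

theorem U_pow_six : (U : SL(2, ℤ)) ^ 6 = 1 := by decide

/-- the total sum of a cocycle is a homomorphism `SL(2,ℤ) → ℚ`, hence zero. -/
theorem sum_cocycle_eq_zero [Fintype (SL(2, ℤ) ⧸ Γ)] {c : SL(2, ℤ) → SL(2, ℤ) ⧸ Γ → ℚ}
    (hc : IsCocycle Γ c) (g : SL(2, ℤ)) : ∑ y, c g y = 0 := by
  -- the homomorphism
  let f : Additive SL(2, ℤ) →+ ℚ := AddMonoidHom.mk' (fun g => ∑ y, c (Additive.toMul g) y) (by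
    intro g h
    show ∑ y, c (Additive.toMul g * Additive.toMul h) y = _
    rw [Finset.sum_congr rfl fun y _ => hc (Additive.toMul g) (Additive.toMul h) y,
      Finset.sum_add_distrib]
    congr 1
    exact Equiv.sum_comp (MulAction.toPerm (Additive.toMul g)⁻¹ : Equiv.Perm (SL(2, ℤ) ⧸ Γ))
      (fun z => c (Additive.toMul h) z))
  have hf : ∀ g : SL(2, ℤ), f (Additive.ofMul g) = ∑ y, c g y := fun _ => rfl
  have hS : f (Additive.ofMul S) = 0 := by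
    have h4 : (4 : ℕ) • f (Additive.ofMul S) = 0 := by
      rw [← map_nsmul, ← ofMul_pow, S_pow_four, ofMul_one, map_zero]
    simpa using h4
  have hU : f (Additive.ofMul U) = 0 := by
    have h6 : (6 : ℕ) • f (Additive.ofMul U) = 0 := by
      rw [← map_nsmul, ← ofMul_pow, U_pow_six, ofMul_one, map_zero]
    simpa using h6
  have hker : ∀ g ∈ Subgroup.closure ({S, U} : Set SL(2, ℤ)), f (Additive.ofMul g) = 0 := by
    intro g hg
    induction hg using Subgroup.closure_induction with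
    | mem x hx =>
      rcases hx with rfl | rfl
      · exact hS
      · exact hU
    | one => simp
    | mul x y _ _ hx hy => rw [ofMul_mul, map_add, hx, hy, add_zero]
    | inv x _ hx => rw [ofMul_inv, map_neg, hx, neg_zero]
  rw [← hf]
  exact hker g (by rw [closure_S_U]; exact Subgroup.mem_top g)

/-- **Sum zero**: a homomorphism `Γ → ℚ` has cusp sum zero. -/
theorem sum_hom_eq_zero [Fintype (SL(2, ℤ) ⧸ Γ)] (lam : Additive Γ →+ ℚ)
    {J : Type*} [Fintype J] (D : TOrbitSys Γ J) :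
    ∑ j, lam (Additive.ofMul (D.gen j)) = 0 := by
  have hL := isCocycle_ind Γ lam
  have hterm : ∀ j, lam (Additive.ofMul (D.gen j)) =
      ∑ i ∈ Finset.range (D.w j),
        ind Γ lam T ((T⁻¹) ^ i • ((D.g j : SL(2, ℤ)) : SL(2, ℤ) ⧸ Γ)) := by
    intro j
    have h0 : lam (Additive.ofMul (D.gen j)) = ind Γ lam (D.gen j : SL(2, ℤ)) (x0 Γ) :=
      (ind_apply_coe_one Γ lam (D.gen j)).symm
    rw [h0, cocycle_conj hL (D.g j) (T ^ D.w j) (D.gen j) (D.coe_gen j), hL.map_pow, smul_x0]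
    simp [inv_pow]
  rw [Finset.sum_congr rfl fun j _ => hterm j, ← D.sum_eq (fun y => ind Γ lam T y)]
  exact sum_cocycle_eq_zero hL T

/-! ### The cusp sum formula for an arbitrary `κ` -/

/-- **Cusp sum formula.** -/
theorem cuspSum_eq (hneg : (-1 : SL(2, ℤ)) ∈ Γ) [Fintype (SL(2, ℤ) ⧸ Γ)]
    {A B : SL(2, ℤ) → SL(2, ℤ) ⧸ Γ → ℚ}
    (hA : IsCocycle Γ A) (hB : IsCocycle Γ B) (hA1 : A (-1) = 0) (hB1 : B (-1) = 0)
    (hAS : A S = A U) (hBS : B S = B U)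
    (κ : Γ → ℚ)
    (hκ : ∀ γ γ' : Γ, κ (γ * γ') = κ γ + κ γ' +
      A (γ : SL(2, ℤ)) (x0 Γ) * B (γ' : SL(2, ℤ)) (x0 Γ))
    {J : Type*} [Fintype J] (D : TOrbitSys Γ J) :
    ∑ j, κ (D.gen j) =
      1 / 6 * ∑ z, A S z * B S z + 1 / 3 * ∑ z, A S z * B S (U • z) := by
  obtain ⟨X, hX, hXS, hXU⟩ := exists_heis hneg A B hA hB hA1 hB1
  have hκX : ∀ γ γ' : Γ, X ((γ * γ' : Γ) : SL(2, ℤ)) (x0 Γ) =
      X (γ : SL(2, ℤ)) (x0 Γ) + X (γ' : SL(2, ℤ)) (x0 Γ) +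
        A (γ : SL(2, ℤ)) (x0 Γ) * B (γ' : SL(2, ℤ)) (x0 Γ) := by
    intro γ γ'
    rw [Subgroup.coe_mul, hX, inv_mem_smul_x0]
  let lam : Additive Γ →+ ℚ := AddMonoidHom.mk'
    (fun γ => κ (Additive.toMul γ) - X ((Additive.toMul γ : Γ) : SL(2, ℤ)) (x0 Γ)) (by
      intro γ γ'
      show κ (Additive.toMul γ * Additive.toMul γ') -
        X ((Additive.toMul γ * Additive.toMul γ' : Γ) : SL(2, ℤ)) (x0 Γ) = _
      rw [hκ, hκX]
      ring)
  have hlam : ∀ γ : Γ, κ γ = X (γ : SL(2, ℤ)) (x0 Γ) + lam (Additive.ofMul γ) := by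
    intro γ
    show κ γ = X (γ : SL(2, ℤ)) (x0 Γ) + (κ γ - X (γ : SL(2, ℤ)) (x0 Γ))
    ring
  rw [Finset.sum_congr rfl fun j _ => hlam (D.gen j), Finset.sum_add_distrib,
    sum_hom_eq_zero lam D, add_zero]
  exact cuspSum_lift hneg hA hB hA1 hB1 hAS hBS hX hXS hXU D

end Fermat.Agent.LR.CuspSum
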