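import Mathlib
import Fermat.Agent.LR.CuspSum

/-!
# Program M, node C2 (H5): invariance of the cusp-sum form under matched isomorphisms

`Γ₁, Γ₂ ≤ SL(2,ℤ)` of finite index containing `-1`, `c : Γ₁ ≃* Γ₂` an isomorphism which matches
the cusp generators of a `T`-orbit system of `Γ₁` with those of a `T`-orbit system of `Γ₂` up to
`Γ₂`-conjugacy (`Matched c`; this is what orientation-preserving isomorphisms do, see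
`LR/ParSys.lean`).  Then the quadratic expression
`1/6 * ∑ z, m z * m' z + 1/3 * ∑ z, m z * m' (U • z)` in the modular-symbol representatives of
`φ ∘ c, ψ ∘ c` on `Γ₁` equals the one of `φ, ψ` on `Γ₂`.
-/

set_option autoImplicit false

namespace Fermat.Agent.LR.CuspInv

open Matrix Matrix.SpecialLinearGroup ModularGroup
open Fermat.Agent.Eis.PSL2Free Fermat.Agent.Eis.Shapiro Fermat.Agent.Eis.CocycleUP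
open Fermat.Agent.LR.HeisLift Fermat.Agent.LR.ParSys Fermat.Agent.LR.CuspSum
open scoped MatrixGroups

/-- the quadratic expression computed by the cusp sum. -/
def cuspForm {Γ : Subgroup SL(2, ℤ)} [Fintype (SL(2, ℤ) ⧸ Γ)] (m m' : SL(2, ℤ) ⧸ Γ → ℚ) : ℚ :=
  1 / 6 * ∑ z, m z * m' z + 1 / 3 * ∑ z, m z * m' (U • z)

/-- `c` matches the cusp generators of some `T`-orbit systems up to conjugacy. -/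
def Matched {Γ₁ Γ₂ : Subgroup SL(2, ℤ)} (c : Γ₁ ≃* Γ₂) : Prop :=
  ∃ (J₁ J₂ : Type) (_ : Fintype J₁) (_ : Fintype J₂) (D₁ : TOrbitSys Γ₁ J₁)
    (D₂ : TOrbitSys Γ₂ J₂) (σ : J₁ ≃ J₂), ∀ j, ∃ x : Γ₂, D₂.gen (σ j) = x * c (D₁.gen j) * x⁻¹

section kappa

variable {Γ : Subgroup SL(2, ℤ)} {A B : SL(2, ℤ) → SL(2, ℤ) ⧸ Γ → ℚ}

theorem cocycle_mul_x0 (hA : IsCocycle Γ A) (γ γ' : Γ) :
    A ((γ * γ' : Γ) : SL(2, ℤ)) (x0 Γ) = A (γ : SL(2, ℤ)) (x0 Γ) + A (γ' : SL(2, ℤ)) (x0 Γ) := by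
  rw [Subgroup.coe_mul, hA, inv_mem_smul_x0]

theorem cocycle_one_x0 (hA : IsCocycle Γ A) : A ((1 : Γ) : SL(2, ℤ)) (x0 Γ) = 0 := by
  rw [Subgroup.coe_one, hA.map_one]

theorem cocycle_inv_x0 (hA : IsCocycle Γ A) (γ : Γ) :
    A ((γ⁻¹ : Γ) : SL(2, ℤ)) (x0 Γ) = - A (γ : SL(2, ℤ)) (x0 Γ) := by
  have h := cocycle_mul_x0 hA γ γ⁻¹
  rw [mul_inv_cancel, cocycle_one_x0 hA] at h
  linarith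

/-- a function `κ` with `κ (γ γ') = κ γ + κ γ' + φ γ * ψ γ'` is conjugation invariant on
`ker φ ∩ ker ψ`. -/
theorem kappa_conj (hA : IsCocycle Γ A) (hB : IsCocycle Γ B) (κ : Γ → ℚ)
    (hκ : ∀ γ γ' : Γ, κ (γ * γ') = κ γ + κ γ' +
      A (γ : SL(2, ℤ)) (x0 Γ) * B (γ' : SL(2, ℤ)) (x0 Γ))
    (x γ : Γ) (hφ : A (γ : SL(2, ℤ)) (x0 Γ) = 0) (hψ : B (γ : SL(2, ℤ)) (x0 Γ) = 0) :
    κ (x * γ * x⁻¹) = κ γ := by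
  have h1 : κ 1 = 0 := by
    have := hκ 1 1
    rw [mul_one, cocycle_one_x0 hA, zero_mul, add_zero] at this
    linarith
  have h2 := hκ x x⁻¹
  rw [mul_inv_cancel, h1, cocycle_inv_x0 hB] at h2
  have h3 := hκ (x * γ) x⁻¹
  have h4 := hκ x γ
  rw [cocycle_mul_x0 hA, hφ, cocycle_inv_x0 hB] at h3
  rw [hψ] at h4
  rw [h3, h4]
  linarith

end kappa

variable {Γ₁ Γ₂ : Subgroup SL(2, ℤ)}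

/-- **Invariance of the cusp form.** -/
theorem cuspForm_eq_of_matched (hneg₁ : (-1 : SL(2, ℤ)) ∈ Γ₁) (hneg₂ : (-1 : SL(2, ℤ)) ∈ Γ₂)
    [Fintype (SL(2, ℤ) ⧸ Γ₁)] [Fintype (SL(2, ℤ) ⧸ Γ₂)] (c : Γ₁ ≃* Γ₂) (hc : Matched c)
    {A₁ B₁ : SL(2, ℤ) → SL(2, ℤ) ⧸ Γ₁ → ℚ} {A₂ B₂ : SL(2, ℤ) → SL(2, ℤ) ⧸ Γ₂ → ℚ}
    (hA₁ : IsCocycle Γ₁ A₁) (hB₁ : IsCocycle Γ₁ B₁) (hA₂ : IsCocycle Γ₂ A₂) (hB₂ : IsCocycle Γ₂ B₂)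
    (hA₁n : A₁ (-1) = 0) (hB₁n : B₁ (-1) = 0) (hA₂n : A₂ (-1) = 0) (hB₂n : B₂ (-1) = 0)
    (hA₁S : A₁ S = A₁ U) (hB₁S : B₁ S = B₁ U) (hA₂S : A₂ S = A₂ U) (hB₂S : B₂ S = B₂ U)
    (hA : ∀ γ : Γ₁, A₁ (γ : SL(2, ℤ)) (x0 Γ₁) = A₂ ((c γ : Γ₂) : SL(2, ℤ)) (x0 Γ₂))
    (hB : ∀ γ : Γ₁, B₁ (γ : SL(2, ℤ)) (x0 Γ₁) = B₂ ((c γ : Γ₂) : SL(2, ℤ)) (x0 Γ₂)) :
    cuspForm (A₁ S) (B₁ S) = cuspForm (A₂ S) (B₂ S) := by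
  obtain ⟨J₁, J₂, _, _, D₁, D₂, σ, hσ⟩ := hc
  obtain ⟨X, hX, -, -⟩ := exists_heis hneg₂ A₂ B₂ hA₂ hB₂ hA₂n hB₂n
  -- `κ₂` on `Γ₂` and its pull-back `κ₁` to `Γ₁`
  have hκ₂ : ∀ γ γ' : Γ₂, X ((γ * γ' : Γ₂) : SL(2, ℤ)) (x0 Γ₂) =
      X (γ : SL(2, ℤ)) (x0 Γ₂) + X (γ' : SL(2, ℤ)) (x0 Γ₂) +
        A₂ (γ : SL(2, ℤ)) (x0 Γ₂) * B₂ (γ' : SL(2, ℤ)) (x0 Γ₂) := by
    intro γ γ'
    rw [Subgroup.coe_mul, hX, inv_mem_smul_x0]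
  have hκ₁ : ∀ γ γ' : Γ₁, X ((c (γ * γ') : Γ₂) : SL(2, ℤ)) (x0 Γ₂) =
      X ((c γ : Γ₂) : SL(2, ℤ)) (x0 Γ₂) + X ((c γ' : Γ₂) : SL(2, ℤ)) (x0 Γ₂) +
        A₁ (γ : SL(2, ℤ)) (x0 Γ₁) * B₁ (γ' : SL(2, ℤ)) (x0 Γ₁) := by
    intro γ γ'
    rw [map_mul, hκ₂, hA, hB]
  have e₁ := cuspSum_eq hneg₁ hA₁ hB₁ hA₁n hB₁n hA₁S hB₁S
    (fun γ : Γ₁ => X ((c γ : Γ₂) : SL(2, ℤ)) (x0 Γ₂)) hκ₁ D₁
  have e₂ := cuspSum_eq hneg₂ hA₂ hB₂ hA₂n hB₂n hA₂S hB₂S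
    (fun γ : Γ₂ => X (γ : SL(2, ℤ)) (x0 Γ₂)) hκ₂ D₂
  unfold cuspForm
  rw [← e₁, ← e₂, ← Equiv.sum_comp σ]
  refine Finset.sum_congr rfl fun j _ => ?_
  obtain ⟨x, hx⟩ := hσ j
  -- `φ, ψ` vanish at the cusp generators
  have hAT := cocycle_T_eq_zero hA₁ hA₁S
  have hBT := cocycle_T_eq_zero hB₁ hB₁S
  have hφ : A₂ ((c (D₁.gen j) : Γ₂) : SL(2, ℤ)) (x0 Γ₂) = 0 := by
    rw [← hA, cocycle_conj hA₁ (D₁.g j) (T ^ D₁.w j) (D₁.gen j) (D₁.coe_gen j),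
      cocycle_pow_of_T_eq_zero hA₁ hAT]
    rfl
  have hψ : B₂ ((c (D₁.gen j) : Γ₂) : SL(2, ℤ)) (x0 Γ₂) = 0 := by
    rw [← hB, cocycle_conj hB₁ (D₁.g j) (T ^ D₁.w j) (D₁.gen j) (D₁.coe_gen j),
      cocycle_pow_of_T_eq_zero hB₁ hBT]
    rfl
  have := kappa_conj hA₂ hB₂ (fun γ : Γ₂ => X (γ : SL(2, ℤ)) (x0 Γ₂)) hκ₂ x (c (D₁.gen j)) hφ hψ
  show X ((c (D₁.gen j) : Γ₂) : SL(2, ℤ)) (x0 Γ₂) = X ((D₂.gen (σ j) : Γ₂) : SL(2, ℤ)) (x0 Γ₂)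
  rw [hx]
  exact this.symm

end Fermat.Agent.LR.CuspInv
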