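import Mathlib
import Fermat.Agent.LR.CuspInv

/-!
# Program M, node C2 (H6): integral form of the invariance of the cusp form

For integral modular-symbol cocycles (`A S = A U`, values in `ℤ`) on `Γ₁` and `Γ₂`, compatible
through a matched isomorphism `c : Γ₁ ≃* Γ₂`, the integers
`∑ x, m x * (m' x + 2 * m' (U • U • x))` (`= 6 · pdForm` in helper17's `LR/PDModel`) agree.
-/

set_option autoImplicit false

namespace Fermat.Agent.LR.CuspInv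

open Matrix Matrix.SpecialLinearGroup ModularGroup
open Fermat.Agent.Eis.PSL2Free Fermat.Agent.Eis.Shapiro Fermat.Agent.Eis.CocycleUP
open Fermat.Agent.LR.CuspSum
open scoped MatrixGroups

section

variable {Γ : Subgroup SL(2, ℤ)}

/-- the integer computed by `6 · pdForm`. -/
def sixForm [Fintype (SL(2, ℤ) ⧸ Γ)] (m m' : SL(2, ℤ) ⧸ Γ → ℤ) : ℤ :=
  ∑ x, m x * (m' x + 2 * m' (U • U • x))

theorem sixForm_eq_neg_cuspForm [Fintype (SL(2, ℤ) ⧸ Γ)] (m m' : SL(2, ℤ) ⧸ Γ → ℤ)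
    (hU : ∀ x, m' x + m' (U • x) + m' (U • U • x) = 0) :
    ((sixForm m m' : ℤ) : ℚ) =
      - 6 * cuspForm (fun z => (m z : ℚ)) (fun z => (m' z : ℚ)) := by
  unfold cuspForm sixForm
  have h1 : ∀ x, m x * (m' x + 2 * m' (U • U • x)) = - (m x * m' x) - 2 * (m x * m' (U • x)) := by
    intro x
    have := hU x
    have e : m' (U • U • x) = - m' x - m' (U • x) := by linarith
    rw [e]
    ring
  rw [Finset.sum_congr rfl fun x _ => h1 x, Finset.sum_sub_distrib, Finset.sum_neg_distrib,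
    ← Finset.mul_sum]
  push_cast
  ring

/-- an integral cocycle whose value at `S` satisfies the `S`-relation vanishes at `-1`. -/
theorem cocycle_neg_one_eq_zero (hneg : (-1 : SL(2, ℤ)) ∈ Γ) {A : SL(2, ℤ) → SL(2, ℤ) ⧸ Γ → ℤ}
    (hA : IsCocycle Γ A) (hS : ∀ x, A S x + A S (S • x) = 0) : A (-1) = 0 := by
  funext x
  have h := hA S S x
  rw [← pow_two, S_sq, S_inv_smul hneg] at h
  rw [h]
  exact hS x

/-- the rational cocycle attached to an integral one. -/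
def castQ (A : SL(2, ℤ) → SL(2, ℤ) ⧸ Γ → ℤ) : SL(2, ℤ) → SL(2, ℤ) ⧸ Γ → ℚ :=
  fun g x => (A g x : ℚ)

theorem isCocycle_castQ {A : SL(2, ℤ) → SL(2, ℤ) ⧸ Γ → ℤ} (hA : IsCocycle Γ A) :
    IsCocycle Γ (castQ A) :=
  hA.comp (Int.castAddHom ℚ)

end

variable {Γ₁ Γ₂ : Subgroup SL(2, ℤ)}

/-- **Integral invariance.** -/
theorem sixForm_eq_of_matched (hneg₁ : (-1 : SL(2, ℤ)) ∈ Γ₁) (hneg₂ : (-1 : SL(2, ℤ)) ∈ Γ₂)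
    [Fintype (SL(2, ℤ) ⧸ Γ₁)] [Fintype (SL(2, ℤ) ⧸ Γ₂)] (c : Γ₁ ≃* Γ₂) (hc : Matched c)
    {A₁ B₁ : SL(2, ℤ) → SL(2, ℤ) ⧸ Γ₁ → ℤ} {A₂ B₂ : SL(2, ℤ) → SL(2, ℤ) ⧸ Γ₂ → ℤ}
    (hA₁ : IsCocycle Γ₁ A₁) (hB₁ : IsCocycle Γ₁ B₁) (hA₂ : IsCocycle Γ₂ A₂) (hB₂ : IsCocycle Γ₂ B₂)
    (hA₁S : A₁ S = A₁ U) (hB₁S : B₁ S = B₁ U) (hA₂S : A₂ S = A₂ U) (hB₂S : B₂ S = B₂ U)
    (hA₁r : ∀ x, A₁ S x + A₁ S (S • x) = 0) (hB₁r : ∀ x, B₁ S x + B₁ S (S • x) = 0)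
    (hA₂r : ∀ x, A₂ S x + A₂ S (S • x) = 0) (hB₂r : ∀ x, B₂ S x + B₂ S (S • x) = 0)
    (hB₁u : ∀ x, B₁ S x + B₁ S (U • x) + B₁ S (U • U • x) = 0)
    (hB₂u : ∀ x, B₂ S x + B₂ S (U • x) + B₂ S (U • U • x) = 0)
    (hA : ∀ γ : Γ₁, A₁ (γ : SL(2, ℤ)) (x0 Γ₁) = A₂ ((c γ : Γ₂) : SL(2, ℤ)) (x0 Γ₂))
    (hB : ∀ γ : Γ₁, B₁ (γ : SL(2, ℤ)) (x0 Γ₁) = B₂ ((c γ : Γ₂) : SL(2, ℤ)) (x0 Γ₂)) :
    sixForm (A₁ S) (B₁ S) = sixForm (A₂ S) (B₂ S) := by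
  have hcast : ∀ {Γ : Subgroup SL(2, ℤ)} {A : SL(2, ℤ) → SL(2, ℤ) ⧸ Γ → ℤ}, A (-1) = 0 →
      castQ A (-1) = 0 := by
    intro Γ A h
    funext x
    show ((A (-1) x : ℤ) : ℚ) = 0
    rw [h]; simp
  have hSU : ∀ {Γ : Subgroup SL(2, ℤ)} {A : SL(2, ℤ) → SL(2, ℤ) ⧸ Γ → ℤ}, A S = A U →
      castQ A S = castQ A U := by
    intro Γ A h
    funext x
    show ((A S x : ℤ) : ℚ) = ((A U x : ℤ) : ℚ)
    rw [h]
  have key := cuspForm_eq_of_matched hneg₁ hneg₂ c hc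
    (isCocycle_castQ hA₁) (isCocycle_castQ hB₁) (isCocycle_castQ hA₂) (isCocycle_castQ hB₂)
    (hcast (cocycle_neg_one_eq_zero hneg₁ hA₁ hA₁r)) (hcast (cocycle_neg_one_eq_zero hneg₁ hB₁ hB₁r))
    (hcast (cocycle_neg_one_eq_zero hneg₂ hA₂ hA₂r)) (hcast (cocycle_neg_one_eq_zero hneg₂ hB₂ hB₂r))
    (hSU hA₁S) (hSU hB₁S) (hSU hA₂S) (hSU hB₂S)
    (fun γ => by show ((A₁ _ _ : ℤ) : ℚ) = ((A₂ _ _ : ℤ) : ℚ); rw [hA γ])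
    (fun γ => by show ((B₁ _ _ : ℤ) : ℚ) = ((B₂ _ _ : ℤ) : ℚ); rw [hB γ])
  have e₁ := sixForm_eq_neg_cuspForm (A₁ S) (B₁ S) hB₁u
  have e₂ := sixForm_eq_neg_cuspForm (A₂ S) (B₂ S) hB₂u
  have : ((sixForm (A₁ S) (B₁ S) : ℤ) : ℚ) = ((sixForm (A₂ S) (B₂ S) : ℤ) : ℚ) := by
    rw [e₁, e₂]
    congr 1
  exact_mod_cast this

end Fermat.Agent.LR.CuspInv
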