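/-
Program M, nodes B/C glue (helper4): the adjointness statements consumed by
`LR/S41Main.s41_of_nodes` are FORMAL consequences of two inputs of node C.

Let `I_N`, `I_{Nq}` be bilinear forms on `Λ(N)`, `Λ(N q)` with
* `hadj1` : `I_{Nq} (A1 x) y = I_N x (B1 y)` (restriction / corestriction are adjoint), and
* `hw`    : `I_{Nq} (w y) (w y') = I_{Nq} y y'` (the Atkin–Lehner involution `w = − ∘ wq` at `q` is an
  isometry).
Then
* `ALData.hadj2_of` : `I_{Nq} (A2 x) y = I_N x (B2 y)` (`A2 = w ∘ A1`, `B2 = B1 ∘ w`);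
* `ALData.hself_of` : if moreover both forms are skew-symmetric, `T_q = B1 ∘ w ∘ A1` is self-adjoint
  for `I_N`: `I_N (TLam N q x) y = I_N x (TLam N q y)`.
Applied to the pair of levels `(N, l)` for each prime `l ∤ N`, the second statement gives `hselfN`.
-/
import Mathlib
import Fermat.Agent.LR.DegLam

set_option autoImplicit false
set_option linter.unusedSectionVars false
set_option linter.unusedSimpArgs false
set_option linter.style.haveILetI false
set_option linter.unusedVariables false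

namespace Fermat.Agent.LR.Deg

open Matrix.SpecialLinearGroup CongruenceSubgroup ModularForm Fermat.Agent.Jac
open scoped MatrixGroups

variable {N q : ℕ} [NeZero N] (A : ALData N q) (hq : q.Prime) (hqN : ¬ q ∣ N)

/-- the Atkin–Lehner involution on the lattice `Λ(N q)` -/
noncomputable def ALData.wLam : Lam (N * q) →ₗ[ℤ] Lam (N * q) :=
  (A.wOp ℤ).toIntLinearMap.restrict (fun _ hy => A.wOp_mem_parabolicHoms ℤ hy)

@[simp] theorem ALData.coe_wLam (y : Lam (N * q)) :
    ((A.wLam y : Lam (N * q)) : Additive (Gamma0 (N * q)) →+ ℤ) = A.wOp ℤ y := rfl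

@[simp] theorem ALData.wLam_wLam (y : Lam (N * q)) : A.wLam (A.wLam y) = y := by
  apply Subtype.ext
  rw [ALData.coe_wLam, ALData.coe_wLam, ALData.wOp_wOp]

theorem ALData.A2Lam_eq (x : Lam N) : A.A2Lam x = A.wLam (A1Lam N q x) := rfl

theorem ALData.B2Lam_eq (y : Lam (N * q)) :
    A.B2Lam hq hqN y = B1Lam N q hq hqN (A.wLam y) := rfl

theorem ALData.TLam_eq (x : Lam N) :
    TLam N ⟨q, hq⟩ x = B1Lam N q hq hqN (A.wLam (A1Lam N q x)) := by
  rw [← ALData.A2Lam_eq, A.B1Lam_A2Lam hq hqN]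

variable (IN : Lam N →ₗ[ℤ] Lam N →ₗ[ℤ] ℤ) (INq : Lam (N * q) →ₗ[ℤ] Lam (N * q) →ₗ[ℤ] ℤ)

/-- an isometric involution is self-adjoint -/
theorem ALData.wLam_adjoint (hw : ∀ y y', INq (A.wLam y) (A.wLam y') = INq y y')
    (y y' : Lam (N * q)) : INq (A.wLam y) y' = INq y (A.wLam y') := by
  have h := hw y (A.wLam y')
  rw [A.wLam_wLam] at h
  exact h

/-- **`hadj2` from `hadj1` and the isometry property of `w`.** -/
theorem ALData.hadj2_of
    (hadj1 : ∀ x y, INq (A1Lam N q x) y = IN x (B1Lam N q hq hqN y))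
    (hw : ∀ y y', INq (A.wLam y) (A.wLam y') = INq y y') (x : Lam N) (y : Lam (N * q)) :
    INq (A.A2Lam x) y = IN x (A.B2Lam hq hqN y) := by
  rw [ALData.A2Lam_eq, A.wLam_adjoint INq hw, hadj1, ← ALData.B2Lam_eq]

/-- **Self-adjointness of `T_q` on `Λ(N)`** from `hadj1`, the isometry property of `w` and the
skew-symmetry of the two forms. -/
theorem ALData.hself_of
    (hskewN : ∀ x y, IN x y = - IN y x) (hskewNq : ∀ y y', INq y y' = - INq y' y)
    (hadj1 : ∀ x y, INq (A1Lam N q x) y = IN x (B1Lam N q hq hqN y))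
    (hw : ∀ y y', INq (A.wLam y) (A.wLam y') = INq y y') (x y : Lam N) :
    IN (TLam N ⟨q, hq⟩ x) y = IN x (TLam N ⟨q, hq⟩ y) := by
  -- adjointness in the other slot
  have hadj1' : ∀ (z : Lam (N * q)) (y : Lam N),
      IN (B1Lam N q hq hqN z) y = INq z (A1Lam N q y) := by
    intro z y
    rw [hskewN, ← hadj1, ← hskewNq]
  rw [A.TLam_eq hq hqN x, A.TLam_eq hq hqN y, hadj1', A.wLam_adjoint INq hw, hadj1]

/-- the same for symmetric forms -/
theorem ALData.hself_of_symm
    (hsymmN : ∀ x y, IN x y = IN y x) (hsymmNq : ∀ y y', INq y y' = INq y' y)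
    (hadj1 : ∀ x y, INq (A1Lam N q x) y = IN x (B1Lam N q hq hqN y))
    (hw : ∀ y y', INq (A.wLam y) (A.wLam y') = INq y y') (x y : Lam N) :
    IN (TLam N ⟨q, hq⟩ x) y = IN x (TLam N ⟨q, hq⟩ y) := by
  have hadj1' : ∀ (z : Lam (N * q)) (y : Lam N),
      IN (B1Lam N q hq hqN z) y = INq z (A1Lam N q y) := by
    intro z y
    rw [hsymmN, ← hadj1, ← hsymmNq]
  rw [A.TLam_eq hq hqN x, A.TLam_eq hq hqN y, hadj1', A.wLam_adjoint INq hw, hadj1]

section OfBez

variable {N q : ℕ} [NeZero N] [NeZero q] (β : ALQ.Bez N q)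

/-- for the datum of helper28's `wq β`, `wLam` is `ALQ.wLam β` -/
theorem ALData.ofBez_wLam (y : Lam (N * q)) : (ALData.ofBez β).wLam y = ALQ.wLam β y := by
  apply Subtype.ext
  rw [ALData.coe_wLam, ALQ.coe_wLam_apply, ALData.ofBez_wOp]

end OfBez

end Fermat.Agent.LR.Deg
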