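/-
Program M, node B (helper4): independence of the corestriction `B1` of the choice of the coset
representatives (for the identification with other transfer formulas, e.g. node C's `corPar`).

* `CosetFam.transfer_apply_of_decomp` : the transfer of a distinct family computed from any other
  system of representatives of the same cosets and any decomposition `t i * γ = c i * t (σ i)`
  (for one fixed `γ`);
* `B1_apply_of_reps` : for ANY `q + 1` elements `s i ∈ Γ₀(N)` in pairwise distinct cosets
  `Γ₀(N q) s i` and any decomposition `s i * γ = c i * s (σ i)`, `(B1 ψ) γ = ∑ i, ψ (c i)`;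
* `B1_apply_of_left_reps` : the same with left coset representatives `t i` (`γ * t i = t (σ i) * c i`).
-/
import Mathlib
import Fermat.Agent.LR.DegMaps

set_option autoImplicit false
set_option linter.unusedSectionVars false
set_option linter.unusedSimpArgs false
set_option linter.style.haveILetI false
set_option linter.unusedVariables false

namespace Fermat.Agent.LR

namespace CosetFam

variable {Γ₁ Γ₂ G : Type*} [Group Γ₁] [Group Γ₂] [Group G]
  {emb₁ : Γ₁ →* G} {emb₂ : Γ₂ →* G} {ι κ : Type*} [Fintype ι] [Fintype κ]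
  {M : Type*} [AddCommGroup M]

/-- The transfer of a distinct family `D`, computed from any other system `t` of representatives
of the same cosets (`t i ∈ emb₁ Γ₁ * D.rep (e i)`, `e` bijective) and any decomposition
`t i * γ = c i * t (σ i)` of a fixed element `γ`. -/
theorem transfer_apply_of_decomp (D : CosetFam emb₁ emb₂ κ) (hD : D.Distinct)
    (t : ι → G) (e : ι → κ) (he : Function.Bijective e) (g : ι → Γ₁)
    (ht : ∀ i, t i = emb₁ (g i) * D.rep (e i)) (γ : Γ₂) (c : ι → Γ₁) (σ : ι → ι)
    (hrel : ∀ i, t i * emb₂ γ = emb₁ (c i) * t (σ i)) (φ : Additive Γ₁ →+ M) :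
    D.transfer φ (Additive.ofMul γ) = ∑ i, φ (Additive.ofMul (c i)) := by
  have key : ∀ i, e (σ i) = D.next γ (e i) ∧ (g i)⁻¹ * c i * g (σ i) = D.coc γ (e i) := by
    intro i
    have h1 := hrel i
    rw [ht i, ht (σ i)] at h1
    have h2 : D.rep (e i) * emb₂ γ = emb₁ ((g i)⁻¹ * c i * g (σ i)) * D.rep (e (σ i)) := by
      rw [map_mul, map_mul, map_inv]
      calc D.rep (e i) * emb₂ γ
          = (emb₁ (g i))⁻¹ * (emb₁ (g i) * D.rep (e i) * emb₂ γ) := by
            simp only [mul_assoc, inv_mul_cancel_left]
        _ = _ := by rw [h1]; simp only [mul_assoc]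
    exact eq_of_rel hD h2
  have hσ : Function.Bijective σ := by
    refine Finite.injective_iff_bijective.mp ?_
    intro i j hij
    have h1 := (key i).1
    have h2 := (key j).1
    rw [hij, h2] at h1
    exact he.1 ((D.nextEquiv γ).injective h1).symm
  rw [transfer_apply, ← he.sum_comp (fun k => φ (Additive.ofMul (D.coc γ k)))]
  have hc : ∀ i, φ (Additive.ofMul (D.coc γ (e i))) =
      φ (Additive.ofMul (c i)) + φ (Additive.ofMul (g (σ i))) - φ (Additive.ofMul (g i)) := by
    intro i
    rw [← (key i).2]
    simp only [ofMul_mul, ofMul_inv, map_add, map_neg]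
    abel
  rw [Finset.sum_congr rfl fun i _ => hc i, Finset.sum_sub_distrib, Finset.sum_add_distrib,
    hσ.sum_comp (fun i => φ (Additive.ofMul (g i)))]
  abel

end CosetFam

namespace Deg

open Matrix.SpecialLinearGroup CongruenceSubgroup ModularForm Fermat.Agent.Jac
open scoped MatrixGroups
open P2MW.S_ModularForm_heckeT_slash_eq_self_of_mem_Gamma0.ModularForm.HeckeSlashInvariance

variable (N q : ℕ) [NeZero N] (hq : q.Prime) (hqN : ¬ q ∣ N) {M : Type*} [AddCommGroup M]
  {ι : Type*} [Fintype ι]

/-- **Independence of the representatives for `B1`** (right cosets `Γ₀(N q) s i`). -/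
theorem B1_apply_of_reps (hcard : Fintype.card ι = q + 1) (s : ι → Gamma0 N)
    (hdist : ∀ i j, ((s i * (s j)⁻¹ : Gamma0 N) : SL(2, ℤ)) ∈ Gamma0 (N * q) → i = j)
    (γ : Gamma0 N) (c : ι → Gamma0 (N * q)) (σ : ι → ι)
    (hrel : ∀ i, s i * γ = inclHom N q (c i) * s (σ i))
    (ψ : Additive (Gamma0 (N * q)) →+ M) :
    B1 N q hq hqN M ψ (Additive.ofMul γ) = ∑ i, ψ (Additive.ofMul (c i)) := by
  haveI : NeZero q := ⟨hq.ne_zero⟩
  choose e g hs using fun i => exists_eq_mul_sx N q hq hqN (s i)
  have he : Function.Bijective e := by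
    refine (Fintype.bijective_iff_injective_and_card e).2 ⟨?_, ?_⟩
    · intro i j hij
      refine hdist i j ?_
      rw [hs i, hs j, hij]
      have : inclHom N q (g i) * sx N q hq hqN (e j) *
          (inclHom N q (g j) * sx N q hq hqN (e j))⁻¹ = inclHom N q (g i * (g j)⁻¹) := by
        rw [map_mul, map_inv]; group
      rw [this, coe_inclHom]
      exact (g i * (g j)⁻¹).2
    · rw [hcard, RepsDecomp.card_onePoint_zmod]
  rw [B1_eq]
  refine CosetFam.transfer_apply_of_decomp (corFam N q hq hqN) (corFam_distinct N q hq hqN)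
    (fun i => embG N (s i)) e he g (fun i => ?_) γ c σ (fun i => ?_) ψ
  · rw [corFam_rep, hs i, map_mul, embG_inclHom]
  · rw [← map_mul, hrel i, map_mul, embG_inclHom]

/-- **Independence of the representatives for `B1`**, left cosets `t i Γ₀(N q)`:
`γ * t i = t (σ i) * c i`. -/
theorem B1_apply_of_left_reps (hcard : Fintype.card ι = q + 1) (t : ι → Gamma0 N)
    (hdist : ∀ i j, (((t i)⁻¹ * t j : Gamma0 N) : SL(2, ℤ)) ∈ Gamma0 (N * q) → i = j)
    (γ : Gamma0 N) (c : ι → Gamma0 (N * q)) (σ : ι → ι)
    (hrel : ∀ i, γ * t i = t (σ i) * inclHom N q (c i))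
    (ψ : Additive (Gamma0 (N * q)) →+ M) :
    B1 N q hq hqN M ψ (Additive.ofMul γ) = ∑ i, ψ (Additive.ofMul (c i)) := by
  classical
  -- `σ` is injective, hence bijective
  have hσinj : Function.Injective σ := by
    intro i j hij
    refine hdist i j ?_
    have hi := hrel i
    have hj := hrel j
    rw [hij] at hi
    have h1 : (t i)⁻¹ * t j = inclHom N q ((c i)⁻¹ * c j) := by
      have e1 : t i = γ⁻¹ * (t (σ j) * inclHom N q (c i)) := by rw [← hi]; group
      have e2 : t j = γ⁻¹ * (t (σ j) * inclHom N q (c j)) := by rw [← hj]; group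
      rw [e1, e2, map_mul, map_inv]
      group
    rw [h1, coe_inclHom]
    exact ((c i)⁻¹ * c j).2
  have hσ : Function.Bijective σ := Finite.injective_iff_bijective.mp hσinj
  set τ := Equiv.ofBijective σ hσ with hτ
  -- right coset representatives `s i = (t i)⁻¹`, with `s (σ i) * γ = c i * s i`
  have key := B1_apply_of_reps N q hq hqN hcard (fun i => (t i)⁻¹)
    (fun i j h => by
      refine (hdist i j ?_)
      simpa using h)
    γ (fun i => c (τ.symm i)) (fun i => τ.symm i)
    (fun i => by
      have h := hrel (τ.symm i)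
      have h2 : σ (τ.symm i) = i := τ.apply_symm_apply i
      rw [h2] at h
      show (t i)⁻¹ * γ = inclHom N q (c (τ.symm i)) * (t (τ.symm i))⁻¹
      have e1 : γ = t i * inclHom N q (c (τ.symm i)) * (t (τ.symm i))⁻¹ := by rw [← h]; group
      rw [e1]; group) ψ
  rw [key]
  exact Equiv.sum_comp τ.symm (fun i => ψ (Additive.ofMul (c i)))

end Deg

end Fermat.Agent.LR
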