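/-
Program M, bypass route, piece (P2) (helper22): generators of `Γ₀(2)`.

Inside `SL(2, ℤ)`: `Γ₀(2)` is generated by `T = [1, 1; 0, 1]`, `l(2) = [1, 0; 2, 1]` and `-1`
(`closure_eq_Gamma0_two`), by euclidean descent on the lower left entry; the relation
`(l(2) T⁻¹)² = -1` (`lZ_two_mul_T_inv_sq`). Mathlib only.
-/
import Mathlib

set_option autoImplicit false

namespace Fermat.Agent.LR.Gamma0TwoGen

open Matrix CongruenceSubgroup
open scoped MatrixGroups

/-- the lower unipotent matrix `l(y) = [1, 0; y, 1]` of `SL(2, ℤ)` -/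
def lZ (y : ℤ) : SL(2, ℤ) := ⟨!![1, 0; y, 1], by simp [Matrix.det_fin_two_of]⟩

@[simp] theorem coe_lZ (y : ℤ) : (lZ y : Matrix (Fin 2) (Fin 2) ℤ) = !![1, 0; y, 1] := rfl

theorem sl_ext {g h : SL(2, ℤ)} (h00 : g 0 0 = h 0 0) (h01 : g 0 1 = h 0 1)
    (h10 : g 1 0 = h 1 0) (h11 : g 1 1 = h 1 1) : g = h := by
  apply Matrix.SpecialLinearGroup.ext
  intro i j
  fin_cases i <;> fin_cases j <;> assumption

theorem mul_apply2 (g h : SL(2, ℤ)) (i j : Fin 2) :
    (g * h) i j = g i 0 * h 0 j + g i 1 * h 1 j := by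
  rw [Matrix.SpecialLinearGroup.coe_mul, Matrix.mul_apply, Fin.sum_univ_two]

theorem det_eq (g : SL(2, ℤ)) : g 0 0 * g 1 1 - g 0 1 * g 1 0 = 1 := by
  have h := g.det_coe
  rwa [Matrix.det_fin_two] at h

@[simp] theorem lZ_zero : lZ 0 = 1 := by
  apply sl_ext <;> simp

theorem lZ_add (y z : ℤ) : lZ (y + z) = lZ y * lZ z := by
  apply sl_ext <;> simp [mul_apply2, add_comm]

theorem lZ_inv (y : ℤ) : (lZ y)⁻¹ = lZ (-y) := by
  rw [inv_eq_iff_mul_eq_one, ← lZ_add, add_neg_cancel, lZ_zero]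

theorem lZ_zpow (y j : ℤ) : lZ y ^ j = lZ (j * y) := by
  induction j using Int.induction_on with
  | zero => simp
  | succ n ih => rw [_root_.zpow_add_one, ih, ← lZ_add]; congr 1; ring
  | pred n ih => rw [_root_.zpow_sub_one, ih, lZ_inv, ← lZ_add]; congr 1; ring

/-- entries of `T ^ k * g` -/
theorem T_zpow_mul_apply (k : ℤ) (g : SL(2, ℤ)) :
    (ModularGroup.T ^ k * g) 0 0 = g 0 0 + k * g 1 0 ∧ (ModularGroup.T ^ k * g) 0 1 = g 0 1 + k * g 1 1 ∧
      (ModularGroup.T ^ k * g) 1 0 = g 1 0 ∧ (ModularGroup.T ^ k * g) 1 1 = g 1 1 := by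
  refine ⟨?_, ?_, ?_, ?_⟩ <;>
  simp [mul_apply2, ModularGroup.coe_T_zpow]

/-- entries of `l(y) * g` -/
theorem lZ_mul_apply (y : ℤ) (g : SL(2, ℤ)) :
    (lZ y * g) 0 0 = g 0 0 ∧ (lZ y * g) 0 1 = g 0 1 ∧
      (lZ y * g) 1 0 = y * g 0 0 + g 1 0 ∧ (lZ y * g) 1 1 = y * g 0 1 + g 1 1 := by
  refine ⟨?_, ?_, ?_, ?_⟩ <;>
  simp [mul_apply2]

theorem T_mem_Gamma0 (N : ℕ) : ModularGroup.T ∈ Gamma0 N := by
  rw [Gamma0_mem]
  simp [ModularGroup.coe_T]

theorem lZ_mem_Gamma0 {N : ℕ} {y : ℤ} (h : (N : ℤ) ∣ y) : lZ y ∈ Gamma0 N := by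
  rw [Gamma0_mem]
  simp only [coe_lZ, Matrix.of_apply, Matrix.cons_val', Matrix.cons_val_zero, Matrix.cons_val_one,
    Matrix.cons_val_fin_one]
  exact (ZMod.intCast_zmod_eq_zero_iff_dvd y N).mpr h

theorem neg_one_mem_Gamma0 (N : ℕ) : (-1 : SL(2, ℤ)) ∈ Gamma0 N := by
  rw [Gamma0_mem]
  simp

theorem Gamma0_le_of_dvd {M N : ℕ} (h : M ∣ N) : Gamma0 N ≤ Gamma0 M := by
  intro g hg
  rw [Gamma0_mem] at hg ⊢
  rw [ZMod.intCast_zmod_eq_zero_iff_dvd] at hg ⊢
  exact dvd_trans (by exact_mod_cast h) hg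

theorem T_zpow_apply (k : ℤ) :
    (ModularGroup.T ^ k) 0 0 = 1 ∧ (ModularGroup.T ^ k) 0 1 = k ∧
      (ModularGroup.T ^ k) 1 0 = 0 ∧ (ModularGroup.T ^ k) 1 1 = 1 := by
  rw [ModularGroup.coe_T_zpow]
  simp

theorem neg_one_mul_apply (h : SL(2, ℤ)) (i j : Fin 2) : (-1 * h) i j = -h i j := by
  simp

/-- the relation `(l(2) T⁻¹)² = -1` -/
theorem lZ_two_mul_T_inv_sq : (lZ 2 * ModularGroup.T⁻¹) ^ 2 = (-1 : SL(2, ℤ)) := by
  have hT : (ModularGroup.T⁻¹ : SL(2, ℤ)) = ModularGroup.T ^ (-1 : ℤ) := by simp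
  obtain ⟨t00, t01, t10, t11⟩ := T_zpow_apply (-1)
  rw [hT, pow_two]
  apply sl_ext
  · rw [mul_apply2, mul_apply2, mul_apply2, mul_apply2, t00, t01, t10, t11]; simp
  · rw [mul_apply2, mul_apply2, mul_apply2, mul_apply2, t00, t01, t10, t11]; simp
  · rw [mul_apply2, mul_apply2, mul_apply2, mul_apply2, t00, t01, t10, t11]; simp
  · rw [mul_apply2, mul_apply2, mul_apply2, mul_apply2, t00, t01, t10, t11]; simp

/-- the subgroup generated by `T`, `l(2)` and `-1` -/
def H2 : Subgroup SL(2, ℤ) := Subgroup.closure ({ModularGroup.T, lZ 2, -1} : Set SL(2, ℤ))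

theorem T_mem_H2 : ModularGroup.T ∈ H2 := Subgroup.subset_closure (by simp)

theorem lZ_two_mem_H2 : lZ 2 ∈ H2 := Subgroup.subset_closure (by simp)

theorem neg_one_mem_H2 : (-1 : SL(2, ℤ)) ∈ H2 := Subgroup.subset_closure (by simp)

theorem T_zpow_mem_H2 (k : ℤ) : ModularGroup.T ^ k ∈ H2 := zpow_mem T_mem_H2 k

theorem lZ_two_mul_mem_H2 (j : ℤ) : lZ (j * 2) ∈ H2 := by
  rw [← lZ_zpow]
  exact zpow_mem lZ_two_mem_H2 j

/-- the case of a vanishing lower left entry -/
theorem mem_H2_of_lower_left_eq_zero (g : SL(2, ℤ)) (hc : g 1 0 = 0) : g ∈ H2 := by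
  have hd := det_eq g
  rw [hc, mul_zero, sub_zero] at hd
  rcases Int.eq_one_or_neg_one_of_mul_eq_one' hd with ⟨ha, hd'⟩ | ⟨ha, hd'⟩
  · obtain ⟨t00, t01, t10, t11⟩ := T_zpow_apply (g 0 1)
    have : g = ModularGroup.T ^ (g 0 1) := by
      apply sl_ext
      · rw [ha, t00]
      · rw [t01]
      · rw [hc, t10]
      · rw [hd', t11]
    rw [this]
    exact T_zpow_mem_H2 _
  · obtain ⟨t00, t01, t10, t11⟩ := T_zpow_apply (-g 0 1)
    have : g = -1 * ModularGroup.T ^ (-g 0 1) := by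
      apply sl_ext
      · rw [neg_one_mul_apply, ha, t00]
      · rw [neg_one_mul_apply, t01, neg_neg]
      · rw [neg_one_mul_apply, hc, t10, neg_zero]
      · rw [neg_one_mul_apply, hd', t11]
    rw [this]
    exact mul_mem neg_one_mem_H2 (T_zpow_mem_H2 _)

/-- euclidean descent -/
theorem mem_H2_of_even (g : SL(2, ℤ)) (hg : (2 : ℤ) ∣ g 1 0) : g ∈ H2 := by
  have key : ∀ n : ℕ, ∀ g : SL(2, ℤ), (2 : ℤ) ∣ g 1 0 → (g 1 0).natAbs = n → g ∈ H2 := by
    intro n
    induction n using Nat.strong_induction_on with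
    | _ n ih =>
      intro g hg hn
      by_cases hc : g 1 0 = 0
      · exact mem_H2_of_lower_left_eq_zero g hc
      · -- first step: reduce `a` modulo `c`
        set c := g 1 0 with hcdef
        set a := g 0 0 with hadef
        have hdet := det_eq g
        obtain ⟨c₂, hc₂⟩ := hg
        set k : ℤ := -(a / c) with hk
        set g₁ : SL(2, ℤ) := ModularGroup.T ^ k * g with hg₁
        obtain ⟨h00, -, h10, -⟩ := T_zpow_mul_apply k g
        have ha' : g₁ 0 0 = a % c := by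
          rw [hg₁, h00, hk, ← hadef, ← hcdef]
          have := Int.emod_add_mul_ediv a c
          linarith
        have hc' : g₁ 1 0 = c := by rw [hg₁, h10]
        set a' := a % c with ha'def
        have ha'0 : 0 ≤ a' := Int.emod_nonneg a hc
        have ha'lt : a' < |c| := Int.emod_lt_abs a hc
        -- `a'` is odd
        have hdet₁ := det_eq g₁
        rw [ha', hc', hc₂] at hdet₁
        have ha'pos : 0 < a' := by
          rcases lt_or_eq_of_le ha'0 with h | h
          · exact h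
          · exfalso
            rw [← h] at hdet₁
            have : (2 : ℤ) ∣ 1 := ⟨-(g₁ 0 1 * c₂), by linarith⟩
            omega
        have ha'odd : ¬ (2 : ℤ) ∣ a' := by
          rintro ⟨t, ht⟩
          rw [ht] at hdet₁
          have : (2 : ℤ) ∣ 1 := ⟨t * g₁ 1 1 - g₁ 0 1 * c₂, by linarith⟩
          omega
        -- second step: reduce `c` modulo `2 a'`
        set j : ℤ := (c + a') / (2 * a') with hj
        set g₂ : SL(2, ℤ) := lZ ((-j) * 2) * g₁ with hg₂
        obtain ⟨-, -, k10, -⟩ := lZ_mul_apply ((-j) * 2) g₁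
        have hc'' : g₂ 1 0 = c - 2 * a' * j := by
          rw [hg₂, k10, ha', hc']; ring
        have h2a' : (0 : ℤ) < 2 * a' := by linarith
        have hr0 : 0 ≤ (c + a') % (2 * a') := Int.emod_nonneg _ h2a'.ne'
        have hr1 : (c + a') % (2 * a') < 2 * a' := Int.emod_lt_of_pos _ h2a'
        have hr2 : (c + a') % (2 * a') + 2 * a' * j = c + a' := Int.emod_add_mul_ediv _ _
        set c' := c - 2 * a' * j with hc'def
        have hlow : -a' ≤ c' := by linarith
        have hupp : c' < a' := by linarith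
        have heven : (2 : ℤ) ∣ c' := ⟨c₂ - a' * j, by rw [hc'def, hc₂]; ring⟩
        have hne : c' ≠ -a' := by
          intro h
          apply ha'odd
          obtain ⟨t, ht⟩ := heven
          exact ⟨-t, by linarith⟩
        have habs : c'.natAbs < n := by
          have h1 : (c'.natAbs : ℤ) < a' := by
            rw [Int.natCast_natAbs, abs_lt]
            exact ⟨lt_of_le_of_ne hlow (Ne.symm hne), hupp⟩
          have h2 : (n : ℤ) = |c| := by rw [← hn, Int.natCast_natAbs]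
          have : (c'.natAbs : ℤ) < (n : ℤ) := by linarith
          exact_mod_cast this
        have hmem : g₂ ∈ H2 := ih _ habs g₂ (by rw [hc'']; exact heven) (by rw [hc''])
        have hgeq : g = (ModularGroup.T ^ k)⁻¹ * ((lZ ((-j) * 2))⁻¹ * g₂) := by
          rw [hg₂, hg₁]; group
        rw [hgeq]
        exact mul_mem (inv_mem (T_zpow_mem_H2 k)) (mul_mem (inv_mem (lZ_two_mul_mem_H2 _)) hmem)
  exact key _ g hg rfl

/-- **`Γ₀(2)` is generated by `T`, `l(2)` and `-1`.** -/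
theorem closure_eq_Gamma0_two :
    Subgroup.closure ({ModularGroup.T, lZ 2, -1} : Set SL(2, ℤ)) = Gamma0 2 := by
  apply le_antisymm
  · rw [Subgroup.closure_le]
    rintro g (rfl | rfl | rfl)
    · exact T_mem_Gamma0 2
    · exact lZ_mem_Gamma0 (by norm_num)
    · exact neg_one_mem_Gamma0 2
  · intro g hg
    rw [Gamma0_mem, ZMod.intCast_zmod_eq_zero_iff_dvd] at hg
    exact mem_H2_of_even g (by exact_mod_cast hg)

/-- induction principle for `Γ₀(2)` along the generators `T`, `l(2)`, `-1` -/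
theorem Gamma0_two_induction {P : SL(2, ℤ) → Prop} (hT : P ModularGroup.T) (hL : P (lZ 2))
    (hneg : P (-1)) (hone : P 1) (hmul : ∀ g h, P g → P h → P (g * h))
    (hinv : ∀ g, P g → P g⁻¹) : ∀ g ∈ Gamma0 2, P g := by
  intro g hg
  rw [← closure_eq_Gamma0_two] at hg
  induction hg using Subgroup.closure_induction with
  | mem x hx =>
    rcases hx with rfl | rfl | rfl
    · exact hT
    · exact hL
    · exact hneg
  | one => exact hone
  | mul x y _ _ hx hy => exact hmul x y hx hy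
  | inv x _ hx => exact hinv x hx

end Fermat.Agent.LR.Gamma0TwoGen
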