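/-
Program M (S41), node D2, bypass route, even levels (helper9): existence of a *good level* above an
arbitrary `N` prime to the odd prime `q`, i.e. a multiple `m` of `N`, prime to `q`, with
`2 ^ (e + 2) ∣ m` and `q ^ (2 ^ e * Φo) ≡ 1 (mod m)` for some odd `Φo` — verbatim the hypotheses of
`CSPClaimJEven.Gam_le_jFix_of_good` (Claim J at even levels, helper21).  Mathlib only.
-/
import Mathlib

set_option autoImplicit false

namespace Fermat.Agent.LR.GoodLevel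

/-- `q ^ (2 ^ e) ≡ 1 (mod 2 ^ (e + 2))` for odd `q` and `e ≥ 1` (the exponent of `(ℤ/2^k)ˣ` is
`2 ^ (k - 2)`). -/
theorem two_pow_dvd_pow_two_pow_sub_one {q : ℕ} (hq : Odd q) (e : ℕ) (he : 1 ≤ e) :
    ((2 : ℤ) ^ (e + 2)) ∣ (q : ℤ) ^ (2 ^ e) - 1 := by
  induction e, he using Nat.le_induction with
  | base =>
    obtain ⟨k, rfl⟩ := hq
    have h2 : (2 : ℤ) ∣ (k : ℤ) * ((k : ℤ) + 1) := (Int.even_mul_succ_self (k : ℤ)).two_dvd
    obtain ⟨t, ht⟩ := h2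
    refine ⟨t, ?_⟩
    push_cast
    linear_combination 4 * ht
  | succ e _ ih =>
    obtain ⟨t, ht⟩ := ih
    have hodd : Odd ((q : ℤ) ^ (2 ^ e)) := by
      apply Odd.pow
      exact_mod_cast hq
    have heven : (2 : ℤ) ∣ (q : ℤ) ^ (2 ^ e) + 1 := by
      have : Even ((q : ℤ) ^ (2 ^ e) + 1) := hodd.add_one
      exact this.two_dvd
    obtain ⟨s, hs⟩ := heven
    refine ⟨t * s, ?_⟩
    have e1 : (q : ℤ) ^ (2 ^ (e + 1)) = ((q : ℤ) ^ (2 ^ e)) ^ 2 := by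
      rw [← pow_mul, pow_succ]
    rw [e1]
    have e2 : ((q : ℤ) ^ (2 ^ e)) ^ 2 - 1 = ((q : ℤ) ^ (2 ^ e) - 1) * ((q : ℤ) ^ (2 ^ e) + 1) := by
      ring
    rw [e2, ht, hs]
    ring

/-- the same with an arbitrary multiple of `2 ^ e` in the exponent -/
theorem two_pow_dvd_pow_sub_one_of_dvd {q : ℕ} (hq : Odd q) (e : ℕ) (he : 1 ≤ e) {k : ℕ}
    (hk : 2 ^ e ∣ k) : ((2 : ℤ) ^ (e + 2)) ∣ (q : ℤ) ^ k - 1 := by
  obtain ⟨j, rfl⟩ := hk
  have h := sub_dvd_pow_sub_pow ((q : ℤ) ^ (2 ^ e)) 1 j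
  rw [one_pow, ← pow_mul] at h
  exact (two_pow_dvd_pow_two_pow_sub_one hq e he).trans h

/-- **Existence of a good level.** For `N ≠ 0` and an odd prime `q ∤ N` there is a multiple `m` of
`N`, prime to `q`, and `e`, `Φo` with `Φo` odd, `2 ^ (e + 2) ∣ m` and `m ∣ q ^ (2 ^ e * Φo) - 1`. -/
theorem exists_good_level (N q : ℕ) (hN : N ≠ 0) (hq : q.Prime) (hq2 : q ≠ 2) (hqN : ¬ q ∣ N) :
    ∃ m e Φo : ℕ, m ≠ 0 ∧ N ∣ m ∧ Nat.Coprime m q ∧ Odd Φo ∧ 2 ^ (e + 2) ∣ m ∧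
      (m : ℤ) ∣ (q : ℤ) ^ (2 ^ e * Φo) - 1 := by
  have hqodd : Odd q := hq.odd_of_ne_two hq2
  obtain ⟨ν, N', hN'odd, hNeq⟩ := Nat.exists_eq_two_pow_mul_odd hN
  have hN'0 : N' ≠ 0 := by
    rintro rfl
    simp at hN'odd
  have hφ0 : Nat.totient N' ≠ 0 := by
    have := Nat.totient_pos.mpr (Nat.pos_of_ne_zero hN'0)
    omega
  obtain ⟨a, w, hwodd, hφeq⟩ := Nat.exists_eq_two_pow_mul_odd hφ0
  set e : ℕ := max ν a + 1 with he
  have he1 : 1 ≤ e := by omega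
  have hνe : ν ≤ e + 2 := by
    have := le_max_left ν a
    omega
  have hae : a ≤ e := by
    have := le_max_right ν a
    omega
  -- `q` is prime to `N'`
  have hqN' : Nat.Coprime q N' := by
    rw [Nat.Prime.coprime_iff_not_dvd hq]
    intro h
    exact hqN (by rw [hNeq]; exact Dvd.dvd.mul_left h _)
  have hq2' : Nat.Coprime q 2 := by
    rw [Nat.Prime.coprime_iff_not_dvd hq]
    intro h
    exact hq2 ((Nat.prime_dvd_prime_iff_eq hq Nat.prime_two).mp h)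
  refine ⟨2 ^ (e + 2) * N', e, w, ?_, ?_, ?_, hwodd, Dvd.intro _ rfl, ?_⟩
  · exact Nat.mul_ne_zero (by positivity) hN'0
  · rw [hNeq]
    exact Nat.mul_dvd_mul (pow_dvd_pow 2 hνe) dvd_rfl
  · apply Nat.Coprime.mul_left
    · exact (Nat.Coprime.pow_right _ hq2').symm
    · exact hqN'.symm
  · -- divisibility
    have h2 : ((2 : ℤ) ^ (e + 2)) ∣ (q : ℤ) ^ (2 ^ e * w) - 1 :=
      two_pow_dvd_pow_sub_one_of_dvd hqodd e he1 (Dvd.intro _ rfl)
    have h3 : (N' : ℤ) ∣ (q : ℤ) ^ (2 ^ e * w) - 1 := by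
      have hφdvd : Nat.totient N' ∣ 2 ^ e * w := by
        rw [hφeq]
        exact Nat.mul_dvd_mul (pow_dvd_pow 2 hae) dvd_rfl
      obtain ⟨j, hj⟩ := hφdvd
      have h4 : q ^ Nat.totient N' ≡ 1 [MOD N'] := Nat.ModEq.pow_totient hqN'
      have h5 : (N' : ℤ) ∣ (q : ℤ) ^ Nat.totient N' - 1 := by
        have := (Nat.modEq_iff_dvd.mp h4.symm)
        push_cast at this
        exact this
      have h6 := sub_dvd_pow_sub_pow ((q : ℤ) ^ Nat.totient N') 1 j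
      rw [one_pow, ← pow_mul, ← hj] at h6
      exact h5.trans h6
    have hcop : IsCoprime ((2 : ℤ) ^ (e + 2)) (N' : ℤ) := by
      apply IsCoprime.pow_left
      have : Nat.Coprime 2 N' := Nat.coprime_two_left.mpr hN'odd
      exact_mod_cast Nat.isCoprime_iff_coprime.mpr this
    have := hcop.mul_dvd h2 h3
    push_cast
    exact this

end Fermat.Agent.LR.GoodLevel
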