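import Mathlib
import Fermat.Agent.LR.CongEis

/-!
# Program M (S41): conjugation-invariant homomorphisms are Eisenstein (node D3')

Let `x : Γ₀(N) → M` be a homomorphism, `N ∣ m`, such that the restriction of `x` to `Γ(m)` is
invariant under conjugation by all of `SL(2, ℤ)`.  Then `T_l x = (l + 1) • x` for every prime
`l ∤ N` with `l ≡ 1 mod m` (`M` without `4`-torsion).  This contains node D3 (`LR/CongEis`: the case
`x|Γ(m) = 0`) and, together with the centrality statement (Cen) for `SL(2, ℤ[1/q])`, replaces the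
congruence subgroup property in node I.

* `kel`, `kel_mul`, `sum_kel_mul` : the generic cocycle computation for a coset system.
* `heckeTransfer_eq_smul_of_invariant` : the statement for `Jac.heckeTransfer`.
-/

set_option autoImplicit false

namespace Fermat.Agent.LR.HeckeInv

open Matrix.SpecialLinearGroup CongruenceSubgroup ModularForm Fermat.Agent.Jac
open Fermat.Agent.LR.CongEis
open scoped MatrixGroups OnePoint
open P2MW.S_ModularForm_heckeT_slash_eq_self_of_mem_Gamma0.ModularForm.HeckeSlashInvariance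

section Generic

variable {Γ G : Type*} [Group Γ] [Group G] {emb : Γ →* G} {ι : Type*}
  {M : Type*} [AddCommGroup M]

/-- The defect `c_i(g) u_{σ i} g⁻¹ u_i⁻¹` of the cocycle of a coset system against a family
`u`. -/
noncomputable def kel (D : CosetReps emb ι) (u : ι → Γ) (g : Γ) (i : ι) : Γ :=
  D.coc g i * u (D.next g i) * g⁻¹ * (u i)⁻¹

theorem kel_mul (D : CosetReps emb ι) (u : ι → Γ) (g h : Γ) (i : ι) :
    kel D u (g * h) i = kel D u g i *
      ((u i * g * (u (D.next g i))⁻¹) * kel D u h (D.next g i) *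
        (u i * g * (u (D.next g i))⁻¹)⁻¹) := by
  unfold kel
  rw [D.coc_mul, D.next_mul]
  group

theorem coc_eq_kel (D : CosetReps emb ι) (u : ι → Γ) (g : Γ) (i : ι) :
    D.coc g i = kel D u g i * u i * g * (u (D.next g i))⁻¹ := by
  unfold kel
  group

/-- The sum of the values of a conjugation invariant "partial homomorphism" `ψ` on the defects is
additive. -/
theorem sum_kel_mul [Fintype ι] (D : CosetReps emb ι) (u : ι → Γ) (K : Subgroup Γ) [K.Normal] (ψ : Γ → M)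
    (hmul : ∀ a b, a ∈ K → b ∈ K → ψ (a * b) = ψ a + ψ b)
    (hinv : ∀ g a, a ∈ K → ψ (g * a * g⁻¹) = ψ a)
    (hk : ∀ g i, kel D u g i ∈ K) (g h : Γ) :
    ∑ i, ψ (kel D u (g * h) i) = ∑ i, ψ (kel D u g i) + ∑ i, ψ (kel D u h i) := by
  have h1 : ∀ i, ψ (kel D u (g * h) i) = ψ (kel D u g i) + ψ (kel D u h (D.next g i)) := by
    intro i
    rw [kel_mul, hmul _ _ (hk g i)
      (Subgroup.Normal.conj_mem inferInstance _ (hk h _) _), hinv _ _ (hk h _)]
  simp only [h1, Finset.sum_add_distrib]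
  congr 1
  exact Equiv.sum_comp (D.nextEquiv g) (fun i => ψ (kel D u h i))

end Generic

section Concrete

/-- `SL(2, ℤ)` as `Γ₀(1)`. -/
def toG1 : SL(2, ℤ) →* Gamma0 1 where
  toFun g := ⟨g, by rw [Gamma0_mem]; exact Subsingleton.elim _ _⟩
  map_one' := rfl
  map_mul' _ _ := rfl

@[simp] theorem coe_toG1 (g : SL(2, ℤ)) : ((toG1 g : Gamma0 1) : SL(2, ℤ)) = g := rfl

theorem toG1_coe (g : Gamma0 1) : toG1 (g : SL(2, ℤ)) = g := rfl

variable (N : ℕ)

/-- the inclusion `Γ₀(N) → Γ₀(1)` -/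
def inc : Gamma0 N →* Gamma0 1 := toG1.comp (Gamma0 N).subtype

@[simp] theorem coe_inc (γ : Gamma0 N) : ((inc N γ : Gamma0 1) : SL(2, ℤ)) = γ := rfl

theorem not_dvd_one {l : ℕ} (hl : l.Prime) : ¬ l ∣ 1 := fun h => hl.one_lt.ne' (Nat.dvd_one.mp h)

/-- The cocycles of the coset systems of `T_l` for `Γ₀(N)` and for `SL(2, ℤ)` agree. -/
theorem coc_next_inc {l : ℕ} (hl : l.Prime) (hlN : ¬ l ∣ N) (γ : Gamma0 N)
    (i : OnePoint (ZMod l)) :
    (TReps N hl hlN).next γ i = (TReps 1 hl (not_dvd_one hl)).next (inc N γ) i ∧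
      inc N ((TReps N hl hlN).coc γ i) = (TReps 1 hl (not_dvd_one hl)).coc (inc N γ) i := by
  have h := (TReps N hl hlN).rel γ i
  exact (TReps 1 hl (not_dvd_one hl)).eq_of_rel (γ := inc N γ)
    (γ' := inc N ((TReps N hl hlN).coc γ i)) (i := i) (j := (TReps N hl hlN).next γ i) h

/-- the principal congruence subgroup of level `m` inside `Γ₀(1) = SL(2, ℤ)` -/
def Km (m : ℕ) : Subgroup (Gamma0 1) := (Gamma m).comap (Gamma0 1).subtype

instance Km_normal (m : ℕ) : (Km m).Normal := (Gamma_normal m).comap _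

theorem mem_Km {m : ℕ} {h : Gamma0 1} : h ∈ Km m ↔ (h : SL(2, ℤ)) ∈ Gamma m := Iff.rfl

variable {N}

theorem Gamma_le_Gamma0_of_dvd {m : ℕ} (hNm : N ∣ m) : Gamma m ≤ Gamma0 N := by
  intro g hg
  rw [Gamma_mem] at hg
  rw [Gamma0_mem]
  have h := hg.2.2.1
  have h1 : (m : ℤ) ∣ g 1 0 := (ZMod.intCast_zmod_eq_zero_iff_dvd _ _).mp h
  exact (ZMod.intCast_zmod_eq_zero_iff_dvd _ _).mpr ((Int.natCast_dvd_natCast.mpr hNm).trans h1)

variable {M : Type*} [AddCommGroup M]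

open Classical in
/-- `x` extended by zero to `SL(2, ℤ) = Γ₀(1)` -/
noncomputable def xt (x : Additive (Gamma0 N) →+ M) (h : Gamma0 1) : M :=
  if hh : (h : SL(2, ℤ)) ∈ Gamma0 N then x (Additive.ofMul ⟨h, hh⟩) else 0

theorem xt_of_mem (x : Additive (Gamma0 N) →+ M) {h : Gamma0 1}
    (hh : (h : SL(2, ℤ)) ∈ Gamma0 N) : xt x h = x (Additive.ofMul ⟨h, hh⟩) := by
  unfold xt
  rw [dif_pos hh]

@[simp] theorem xt_inc (x : Additive (Gamma0 N) →+ M) (γ : Gamma0 N) :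
    xt x (inc N γ) = x (Additive.ofMul γ) := by
  rw [xt_of_mem x (h := inc N γ) γ.2]
  rfl

theorem xt_mul (x : Additive (Gamma0 N) →+ M) {a b : Gamma0 1}
    (ha : (a : SL(2, ℤ)) ∈ Gamma0 N) (hb : (b : SL(2, ℤ)) ∈ Gamma0 N) :
    xt x (a * b) = xt x a + xt x b := by
  have hab : ((a * b : Gamma0 1) : SL(2, ℤ)) ∈ Gamma0 N := (Gamma0 N).mul_mem ha hb
  rw [xt_of_mem x hab, xt_of_mem x ha, xt_of_mem x hb, ← map_add]
  rfl

theorem xt_inv (x : Additive (Gamma0 N) →+ M) {a : Gamma0 1}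
    (ha : (a : SL(2, ℤ)) ∈ Gamma0 N) : xt x a⁻¹ = - xt x a := by
  have ha' : ((a⁻¹ : Gamma0 1) : SL(2, ℤ)) ∈ Gamma0 N := (Gamma0 N).inv_mem ha
  rw [xt_of_mem x ha', xt_of_mem x ha, ← map_neg]
  rfl

theorem xt_one (x : Additive (Gamma0 N) →+ M) : xt x 1 = 0 := by
  have h1 : ((1 : Gamma0 1) : SL(2, ℤ)) ∈ Gamma0 N := (Gamma0 N).one_mem
  rw [xt_of_mem x h1]
  exact map_zero x

theorem inc_uN [NeZero N] (t : ℤ) : inc N (uN N t) = uN 1 t := rfl

theorem uN_add (K : ℕ) [NeZero K] (s t : ℤ) : uN K (s + t) = uN K s * uN K t := by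
  apply Subtype.ext
  apply Subtype.ext
  ext i j
  fin_cases i <;> fin_cases j <;>
    simp [uN, mkSL, Matrix.mul_apply, Fin.sum_univ_two, add_comm]

theorem uN_zero (K : ℕ) [NeZero K] : uN K 0 = 1 := by
  apply Subtype.ext
  apply Subtype.ext
  ext i j
  fin_cases i <;> fin_cases j <;> simp [uN, mkSL]

theorem uN_neg (K : ℕ) [NeZero K] (t : ℤ) : uN K (-t) = (uN K t)⁻¹ := by
  rw [eq_inv_iff_mul_eq_one, ← uN_add, neg_add_cancel, uN_zero]

theorem toG1_T : toG1 ModularGroup.T = uN 1 1 := by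
  apply Subtype.ext
  apply Subtype.ext
  ext i j
  fin_cases i <;> fin_cases j <;> simp [uN, mkSL, ModularGroup.T]

section Kappa

variable (N) [NeZero N] {l : ℕ} (hl : l.Prime)

/-- the unipotent representatives `u(t_i)` in `SL(2, ℤ)` -/
def uu (i : OnePoint (ZMod l)) : Gamma0 1 := uN 1 (tOf i)

/-- the defect function `κ` on `SL(2, ℤ)` -/
noncomputable def kappa (x : Additive (Gamma0 N) →+ M) (g : SL(2, ℤ)) : M :=
  haveI : NeZero l := ⟨hl.ne_zero⟩
  ∑ i, xt x (kel (TReps 1 hl (not_dvd_one hl)) uu (toG1 g) i)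

variable {N}

theorem kel_mem_Km (m : ℕ) (hlm : ((l : ℕ) : ZMod m) = 1) (g : Gamma0 1)
    (i : OnePoint (ZMod l)) : kel (TReps 1 hl (not_dvd_one hl)) uu g i ∈ Km m :=
  coc_mul_mem_Gamma 1 hl (not_dvd_one hl) m hlm g i

variable {m : ℕ} (hNm : N ∣ m) (hlm : ((l : ℕ) : ZMod m) = 1)
  (x : Additive (Gamma0 N) →+ M)
  (hinv : ∀ (g : SL(2, ℤ)) (γ γ' : Gamma0 N), (γ : SL(2, ℤ)) ∈ Gamma m →
    (γ' : SL(2, ℤ)) = g * γ * g⁻¹ → x (Additive.ofMul γ') = x (Additive.ofMul γ))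

include hNm hinv in
theorem xt_conj (g a : Gamma0 1) (ha : a ∈ Km m) : xt x (g * a * g⁻¹) = xt x a := by
  have ha0 : (a : SL(2, ℤ)) ∈ Gamma0 N := Gamma_le_Gamma0_of_dvd hNm ha
  have hc : g * a * g⁻¹ ∈ Km m := Subgroup.Normal.conj_mem inferInstance a ha g
  have hc0 : ((g * a * g⁻¹ : Gamma0 1) : SL(2, ℤ)) ∈ Gamma0 N := Gamma_le_Gamma0_of_dvd hNm hc
  rw [xt_of_mem x hc0, xt_of_mem x ha0]
  exact hinv (g : SL(2, ℤ)) ⟨a, ha0⟩ ⟨_, hc0⟩ ha rfl

include hNm hlm hinv in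
theorem kappa_mul (g h : SL(2, ℤ)) :
    kappa N hl x (g * h) = kappa N hl x g + kappa N hl x h := by
  haveI : NeZero l := ⟨hl.ne_zero⟩
  unfold kappa
  rw [map_mul]
  exact sum_kel_mul (TReps 1 hl (not_dvd_one hl)) uu (Km m) (xt x)
    (fun a b ha hb => xt_mul x (Gamma_le_Gamma0_of_dvd hNm ha) (Gamma_le_Gamma0_of_dvd hNm hb))
    (fun g a ha => xt_conj hNm x hinv g a ha)
    (fun g i => kel_mem_Km hl m hlm g i) (toG1 g) (toG1 h)

end Kappa

section CocT

variable {l : ℕ} (hl : l.Prime)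

/-- an integral relation between the representatives gives the relation in `GL(2, ℝ)` -/
theorem rel_of_repZ (g c : Gamma0 1) (i j : OnePoint (ZMod l))
    (h : repZ i * ((g : SL(2, ℤ)) : Matrix (Fin 2) (Fin 2) ℤ) =
      ((c : SL(2, ℤ)) : Matrix (Fin 2) (Fin 2) ℤ) * repZ j) :
    (TReps 1 hl (not_dvd_one hl)).rep i * embG 1 g =
      embG 1 c * (TReps 1 hl (not_dvd_one hl)).rep j := by
  apply Units.ext
  simp only [TReps_rep, embG_apply, Units.val_mul, val_heckeRep hl.ne_zero, val_mapGL_eq_map]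
  have h' := congrArg (fun A : Matrix (Fin 2) (Fin 2) ℤ => A.map (Int.castRingHom ℝ)) h
  simp only [Matrix.map_mul] at h'
  exact h'

theorem next_coc_T_infty :
    (TReps 1 hl (not_dvd_one hl)).next (uN 1 1) (∞ : OnePoint (ZMod l)) = ∞ ∧
      (TReps 1 hl (not_dvd_one hl)).coc (uN 1 1) (∞ : OnePoint (ZMod l)) = uN 1 (l : ℤ) := by
  have h := (TReps 1 hl (not_dvd_one hl)).eq_of_rel (γ := uN 1 1) (γ' := uN 1 (l : ℤ))
    (i := (∞ : OnePoint (ZMod l))) (j := (∞ : OnePoint (ZMod l)))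
    (rel_of_repZ hl _ _ _ _ (by
      ext a b
      fin_cases a <;> fin_cases b <;> simp [repZ, uN, mkSL, Matrix.mul_apply, Fin.sum_univ_two]))
  exact ⟨h.1.symm, h.2.symm⟩

theorem next_coc_T_coe_lt (j : ZMod l) (hj : j.val + 1 < l) :
    (TReps 1 hl (not_dvd_one hl)).next (uN 1 1) ((j : ZMod l) : OnePoint (ZMod l)) =
        ((j + 1 : ZMod l) : OnePoint (ZMod l)) ∧
      (TReps 1 hl (not_dvd_one hl)).coc (uN 1 1) ((j : ZMod l) : OnePoint (ZMod l)) = 1 := by
  haveI : Fact (1 < l) := ⟨hl.one_lt⟩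
  have hv : (j + 1 : ZMod l).val = j.val + 1 := by
    rw [ZMod.val_add_of_lt (by rw [ZMod.val_one]; exact hj), ZMod.val_one]
  have hv' : ((j + 1 : ZMod l).cast : ℤ) = 1 + (j.cast : ℤ) := by
    rw [← ZMod.natCast_val, ← ZMod.natCast_val, hv]
    push_cast
    ring
  have h := (TReps 1 hl (not_dvd_one hl)).eq_of_rel (γ := uN 1 1) (γ' := 1)
    (i := ((j : ZMod l) : OnePoint (ZMod l))) (j := ((j + 1 : ZMod l) : OnePoint (ZMod l)))
    (rel_of_repZ hl _ _ _ _ (by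
      ext a b
      fin_cases a <;> fin_cases b <;>
        simp [repZ, uN, mkSL, Matrix.mul_apply, Fin.sum_univ_two, hv']))
  exact ⟨h.1.symm, h.2.symm⟩

theorem next_coc_T_coe_eq (j : ZMod l) (hj : j.val + 1 = l) :
    (TReps 1 hl (not_dvd_one hl)).next (uN 1 1) ((j : ZMod l) : OnePoint (ZMod l)) =
        ((0 : ZMod l) : OnePoint (ZMod l)) ∧
      (TReps 1 hl (not_dvd_one hl)).coc (uN 1 1) ((j : ZMod l) : OnePoint (ZMod l)) = uN 1 1 := by
  haveI : NeZero l := ⟨hl.ne_zero⟩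
  have hj' : 1 + (j.cast : ℤ) = (l : ℤ) := by
    rw [← ZMod.natCast_val]
    have : ((j.val + 1 : ℕ) : ℤ) = (l : ℤ) := by rw [hj]
    push_cast at this
    linarith
  have h := (TReps 1 hl (not_dvd_one hl)).eq_of_rel (γ := uN 1 1) (γ' := uN 1 1)
    (i := ((j : ZMod l) : OnePoint (ZMod l))) (j := ((0 : ZMod l) : OnePoint (ZMod l)))
    (rel_of_repZ hl _ _ _ _ (by
      ext a b
      fin_cases a <;> fin_cases b <;>
        simp [repZ, uN, mkSL, Matrix.mul_apply, Fin.sum_univ_two, hj']))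
  exact ⟨h.1.symm, h.2.symm⟩

theorem kel_T_infty :
    kel (TReps 1 hl (not_dvd_one hl)) uu (uN 1 1) (∞ : OnePoint (ZMod l)) =
      uN 1 ((l : ℤ) - 1) := by
  unfold kel
  rw [(next_coc_T_infty hl).1, (next_coc_T_infty hl).2]
  have h0 : uu (∞ : OnePoint (ZMod l)) = uN 1 0 := rfl
  rw [h0, uN_zero, ← uN_neg, mul_one, inv_one, mul_one, ← uN_add]
  congr 1

theorem kel_T_coe_lt (j : ZMod l) (hj : j.val + 1 < l) :
    kel (TReps 1 hl (not_dvd_one hl)) uu (uN 1 1) ((j : ZMod l) : OnePoint (ZMod l)) = 1 := by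
  haveI : Fact (1 < l) := ⟨hl.one_lt⟩
  unfold kel
  rw [(next_coc_T_coe_lt hl j hj).1, (next_coc_T_coe_lt hl j hj).2]
  have h0 : uu ((j : ZMod l) : OnePoint (ZMod l)) = uN 1 (j.val : ℤ) := rfl
  have h1 : uu ((j + 1 : ZMod l) : OnePoint (ZMod l)) = uN 1 ((j + 1 : ZMod l).val : ℤ) := rfl
  have hv : (j + 1 : ZMod l).val = j.val + 1 := by
    rw [ZMod.val_add_of_lt (by rw [ZMod.val_one]; exact hj), ZMod.val_one]
  rw [h0, h1, hv, ← uN_neg, ← uN_neg, one_mul, ← uN_add, ← uN_add, ← uN_zero 1]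
  congr 1
  push_cast
  ring

theorem kel_T_coe_eq (j : ZMod l) (hj : j.val + 1 = l) :
    kel (TReps 1 hl (not_dvd_one hl)) uu (uN 1 1) ((j : ZMod l) : OnePoint (ZMod l)) =
      uN 1 (1 - (l : ℤ)) := by
  haveI : NeZero l := ⟨hl.ne_zero⟩
  unfold kel
  rw [(next_coc_T_coe_eq hl j hj).1, (next_coc_T_coe_eq hl j hj).2]
  have h0 : uu ((j : ZMod l) : OnePoint (ZMod l)) = uN 1 (j.val : ℤ) := rfl
  have h1 : uu ((0 : ZMod l) : OnePoint (ZMod l)) = uN 1 ((0 : ZMod l).val : ℤ) := rfl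
  rw [h0, h1, ZMod.val_zero, ← uN_neg, ← uN_neg, ← uN_add, ← uN_add, ← uN_add]
  congr 1
  have : ((j.val + 1 : ℕ) : ℤ) = (l : ℤ) := by rw [hj]
  push_cast at this ⊢
  linarith

end CocT

section Main

variable {N : ℕ} [NeZero N] {l : ℕ} (hl : l.Prime) {M : Type*} [AddCommGroup M]
  (x : Additive (Gamma0 N) →+ M)

theorem xt_uN (t : ℤ) : xt x (uN 1 t) = x (Additive.ofMul (uN N t)) := by
  rw [← inc_uN (N := N) t, xt_inc]

/-- `κ(T) = 0`: only two defects are non-trivial and they cancel. -/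
theorem kappa_T : kappa N hl x ModularGroup.T = 0 := by
  haveI : NeZero l := ⟨hl.ne_zero⟩
  unfold kappa
  rw [toG1_T]
  have hsum : ∑ i : OnePoint (ZMod l), xt x (kel (TReps 1 hl (not_dvd_one hl)) uu (uN 1 1) i) =
      xt x (kel (TReps 1 hl (not_dvd_one hl)) uu (uN 1 1) (∞ : OnePoint (ZMod l))) +
        ∑ j : ZMod l, xt x (kel (TReps 1 hl (not_dvd_one hl)) uu (uN 1 1)
          ((j : ZMod l) : OnePoint (ZMod l))) :=
    Fintype.sum_option _
  rw [hsum, kel_T_infty]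
  have hl1 : l - 1 < l := Nat.sub_lt hl.pos Nat.one_pos
  have hj0 : ((l - 1 : ℕ) : ZMod l).val + 1 = l := by
    rw [ZMod.val_natCast_of_lt hl1]
    exact Nat.sub_add_cancel hl.pos
  rw [Finset.sum_eq_single (((l - 1 : ℕ) : ZMod l))]
  · rw [kel_T_coe_eq hl _ hj0, xt_uN, xt_uN, ← map_add, ← ofMul_mul, ← uN_add]
    have : ((l : ℤ) - 1 + (1 - (l : ℤ))) = 0 := by ring
    rw [this, uN_zero]
    exact map_zero x
  · intro j _ hj
    have hlt : j.val + 1 < l := by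
      have h1 : j.val < l := ZMod.val_lt j
      rcases Nat.lt_or_ge (j.val + 1) l with h | h
      · exact h
      · exfalso
        apply hj
        have h2 : j.val = l - 1 := by omega
        rw [← h2, ZMod.natCast_zmod_val]
    rw [kel_T_coe_lt hl j hlt, xt_one]
  · intro h
    exact absurd (Finset.mem_univ _) h

variable {m : ℕ} (hNm : N ∣ m) (hlm : ((l : ℕ) : ZMod m) = 1)
  (hM : ∀ y : M, (4 : ℕ) • y = 0 → y = 0)
  (hinv : ∀ (g : SL(2, ℤ)) (γ γ' : Gamma0 N), (γ : SL(2, ℤ)) ∈ Gamma m →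
    (γ' : SL(2, ℤ)) = g * γ * g⁻¹ → x (Additive.ofMul γ') = x (Additive.ofMul γ))

include hNm hlm hinv in
theorem kappa_one : kappa N hl x 1 = 0 := by
  have h := kappa_mul hl hNm hlm x hinv 1 1
  rw [mul_one] at h
  exact left_eq_add.mp h

include hNm hlm hinv in
theorem kappa_inv (g : SL(2, ℤ)) : kappa N hl x g⁻¹ = - kappa N hl x g := by
  have h := kappa_mul hl hNm hlm x hinv g g⁻¹
  rw [mul_inv_cancel, kappa_one hl x hNm hlm hinv] at h
  exact eq_neg_of_add_eq_zero_right h.symm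

theorem S_pow_four : ModularGroup.S * ModularGroup.S * (ModularGroup.S * ModularGroup.S) = 1 := by
  apply Subtype.ext
  ext i j
  fin_cases i <;> fin_cases j <;> simp [ModularGroup.S, Matrix.mul_apply, Fin.sum_univ_two]

include hNm hlm hM hinv in
theorem kappa_S : kappa N hl x ModularGroup.S = 0 := by
  apply hM
  have h := kappa_one hl x hNm hlm hinv
  rw [← S_pow_four, kappa_mul hl hNm hlm x hinv, kappa_mul hl hNm hlm x hinv] at h
  rw [← h]
  simp only [show (4 : ℕ) = 2 + 2 from rfl, add_smul, two_smul]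

include hNm hlm hM hinv in
/-- The defect function vanishes identically. -/
theorem kappa_eq_zero (g : SL(2, ℤ)) : kappa N hl x g = 0 := by
  have hg : g ∈ Subgroup.closure ({ModularGroup.S, ModularGroup.T} : Set SL(2, ℤ)) := by
    rw [SpecialLinearGroup.SL2Z_generators]
    exact Subgroup.mem_top g
  induction hg using Subgroup.closure_induction with
  | mem y hy =>
    rcases hy with rfl | rfl
    · exact kappa_S hl x hNm hlm hM hinv
    · exact kappa_T hl x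
  | one => exact kappa_one hl x hNm hlm hinv
  | mul a b _ _ ha hb => rw [kappa_mul hl hNm hlm x hinv, ha, hb, add_zero]
  | inv a _ ha => rw [kappa_inv hl x hNm hlm hinv, ha, neg_zero]

theorem uu_mem (i : OnePoint (ZMod l)) : ((uu i : Gamma0 1) : SL(2, ℤ)) ∈ Gamma0 N :=
  (uN N (tOf i)).2

include hNm hlm hM hinv in
/-- **Node D3'.** A homomorphism `x : Γ₀(N) → M` whose restriction to `Γ(m)` (`N ∣ m`) is invariant
under conjugation by `SL(2, ℤ)` is an eigenvector of `T_l` with eigenvalue `l + 1`, for every prime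
`l ∤ N` with `l ≡ 1 mod m`. -/
theorem transfer_eq_smul_of_invariant [NeZero l] (hlN : ¬ l ∣ N) :
    (TReps N hl hlN).transfer x = (l + 1) • x := by
  refine AddMonoidHom.ext fun γ' => ?_
  obtain ⟨γ, rfl⟩ := Additive.ofMul.surjective γ'
  rw [CosetReps.transfer_apply]
  set D1 := TReps 1 hl (not_dvd_one hl) with hD1
  have hterm : ∀ i : OnePoint (ZMod l),
      x (Additive.ofMul ((TReps N hl hlN).coc γ i)) =
        xt x (kel D1 uu (inc N γ) i) + xt x (uu i) + x (Additive.ofMul γ) -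
          xt x (uu (D1.next (inc N γ) i)) := by
    intro i
    have hk : ((kel D1 uu (inc N γ) i : Gamma0 1) : SL(2, ℤ)) ∈ Gamma0 N :=
      Gamma_le_Gamma0_of_dvd hNm (kel_mem_Km hl m hlm (inc N γ) i)
    rw [← xt_inc x ((TReps N hl hlN).coc γ i), (coc_next_inc N hl hlN γ i).2,
      coc_eq_kel D1 uu (inc N γ) i,
      xt_mul x ((Gamma0 N).mul_mem ((Gamma0 N).mul_mem hk (uu_mem i)) γ.2)
        ((Gamma0 N).inv_mem (uu_mem _)),
      xt_mul x ((Gamma0 N).mul_mem hk (uu_mem i)) γ.2, xt_mul x hk (uu_mem i),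
      xt_inv x (uu_mem _), xt_inc]
    abel
  simp only [hterm, Finset.sum_sub_distrib, Finset.sum_add_distrib, Finset.sum_const,
    Finset.card_univ, AddMonoidHom.coe_smul, Pi.smul_apply]
  have h1 : ∑ i, xt x (uu (D1.next (inc N γ) i)) = ∑ i, xt x (uu i) :=
    Equiv.sum_comp (D1.nextEquiv (inc N γ)) (fun i => xt x (uu i))
  have h2 : ∑ i, xt x (kel D1 uu (inc N γ) i) = 0 := by
    have := kappa_eq_zero hl x hNm hlm hM hinv (γ : SL(2, ℤ))
    unfold kappa at this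
    exact this
  rw [h1, h2]
  have hc : Fintype.card (OnePoint (ZMod l)) = l + 1 := by
    change Fintype.card (Option (ZMod l)) = l + 1
    rw [Fintype.card_option, ZMod.card]
  rw [hc]
  abel

end Main

/-- **Node D3'** for `Jac.heckeTransfer`. -/
theorem heckeTransfer_eq_smul_of_invariant (N : ℕ) [NeZero N] {m : ℕ} (hNm : N ∣ m)
    (l : Nat.Primes) (hlN : ¬ (l : ℕ) ∣ N) (hlm : ((l : ℕ) : ZMod m) = 1)
    {M : Type*} [AddCommGroup M] (hM : ∀ y : M, (4 : ℕ) • y = 0 → y = 0)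
    (x : Additive (Gamma0 N) →+ M)
    (hinv : ∀ (g : SL(2, ℤ)) (γ γ' : Gamma0 N), (γ : SL(2, ℤ)) ∈ Gamma m →
      (γ' : SL(2, ℤ)) = g * γ * g⁻¹ → x (Additive.ofMul γ') = x (Additive.ofMul γ)) :
    heckeTransfer N l M x = ((l : ℕ) + 1) • x := by
  haveI : NeZero (l : ℕ) := ⟨l.2.ne_zero⟩
  rw [heckeTransfer_of_not_dvd M hlN]
  exact transfer_eq_smul_of_invariant l.2 x hNm hlm hM hinv hlN

end Concrete

end Fermat.Agent.LR.HeckeInv
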