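import Mathlib
import Fermat.Agent.LR.HeckeInv
import Fermat.Agent.LR.Gamma0TwoGen

/-!
# Program M (S41): node D3' with invariance under a subgroup (even levels)

`LR/HeckeInv` proves `T_l x = (l + 1) • x` for a homomorphism `x : Γ₀(N) → M` whose restriction to
`Γ(m)` is invariant under conjugation by all of `SL(2, ℤ)`.  Here the invariance is only required
for a set of generators:

* `heckeTransfer_eq_smul_of_lZ_two_invariant` : `2 ∣ N`, invariance under the lower unipotent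
  `l(2)` only (`Γ₀(2) = ⟨T, l(2), -1⟩` and `T, -1 ∈ Γ₀(N)`; `LR/Gamma0TwoGen`).
* `heckeTransfer_eq_smul_of_lZ_invariant` : invariance under `l(1)` only (`SL(2, ℤ) = ⟨T, l(1)⟩`).

The invariance predicate is `InvAt m x g`; the set of such `g` is a subgroup containing `Γ₀(N)`.
-/

set_option autoImplicit false

namespace Fermat.Agent.LR.HeckeInvTwo

open Matrix.SpecialLinearGroup CongruenceSubgroup ModularForm Fermat.Agent.Jac
open Fermat.Agent.LR.CongEis Fermat.Agent.LR.Gamma0TwoGen Fermat.Agent.LR.HeckeInv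
open scoped MatrixGroups OnePoint
open P2MW.S_ModularForm_heckeT_slash_eq_self_of_mem_Gamma0.ModularForm.HeckeSlashInvariance

section Generic

variable {Γ G : Type*} [Group Γ] [Group G] {emb : Γ →* G} {ι : Type*}
  {M : Type*} [AddCommGroup M]

/-- The sum of the values of a "partial homomorphism" `ψ` on the defects is additive in `g ∈ Δ`,
if `ψ` is invariant under conjugation by a subgroup `Δ` containing the `u i`. -/
theorem sum_kel_mul_of_mem [Fintype ι] (D : CosetReps emb ι) (u : ι → Γ) (K : Subgroup Γ)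
    [K.Normal] (Δ : Subgroup Γ) (ψ : Γ → M)
    (hmul : ∀ a b, a ∈ K → b ∈ K → ψ (a * b) = ψ a + ψ b)
    (hinv : ∀ w ∈ Δ, ∀ a ∈ K, ψ (w * a * w⁻¹) = ψ a)
    (hk : ∀ g i, kel D u g i ∈ K) (hu : ∀ i, u i ∈ Δ) (g h : Γ) (hg : g ∈ Δ) :
    ∑ i, ψ (kel D u (g * h) i) = ∑ i, ψ (kel D u g i) + ∑ i, ψ (kel D u h i) := by
  have h1 : ∀ i, ψ (kel D u (g * h) i) = ψ (kel D u g i) + ψ (kel D u h (D.next g i)) := by
    intro i
    rw [kel_mul, hmul _ _ (hk g i)
      (Subgroup.Normal.conj_mem inferInstance _ (hk h _) _),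
      hinv _ (Δ.mul_mem (Δ.mul_mem (hu i) hg) (Δ.inv_mem (hu _))) _ (hk h _)]
  simp only [h1, Finset.sum_add_distrib]
  congr 1
  exact Equiv.sum_comp (D.nextEquiv g) (fun i => ψ (kel D u h i))

end Generic

section Inv

variable {N : ℕ} {M : Type*} [AddCommGroup M]

/-- the restriction of `x` to `Γ(m)` is invariant under conjugation by `g` -/
def InvAt (m : ℕ) (x : Additive (Gamma0 N) →+ M) (g : SL(2, ℤ)) : Prop :=
  ∀ γ γ' : Gamma0 N, (γ : SL(2, ℤ)) ∈ Gamma m → (γ' : SL(2, ℤ)) = g * γ * g⁻¹ →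
    x (Additive.ofMul γ') = x (Additive.ofMul γ)

theorem invAt_of_mem (m : ℕ) (x : Additive (Gamma0 N) →+ M) {g : SL(2, ℤ)}
    (hg : g ∈ Gamma0 N) : InvAt m x g := by
  intro γ γ' _ h
  have h' : γ' = (⟨g, hg⟩ : Gamma0 N) * γ * (⟨g, hg⟩ : Gamma0 N)⁻¹ := Subtype.ext h
  rw [h', ofMul_mul, ofMul_mul, ofMul_inv, map_add, map_add, map_neg]
  abel

theorem invAt_one (m : ℕ) (x : Additive (Gamma0 N) →+ M) : InvAt m x 1 :=
  invAt_of_mem m x (one_mem _)

theorem invAt_mul {m : ℕ} (hNm : N ∣ m) (x : Additive (Gamma0 N) →+ M) {g h : SL(2, ℤ)}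
    (hg : InvAt m x g) (hh : InvAt m x h) : InvAt m x (g * h) := by
  intro γ γ' hγ h'
  have hc : h * (γ : SL(2, ℤ)) * h⁻¹ ∈ Gamma m := (Gamma_normal m).conj_mem _ hγ h
  have hc0 : h * (γ : SL(2, ℤ)) * h⁻¹ ∈ Gamma0 N := Gamma_le_Gamma0_of_dvd hNm hc
  rw [hg ⟨_, hc0⟩ γ' hc (by rw [h']; simp only [mul_inv_rev]; group), hh γ ⟨_, hc0⟩ hγ rfl]

theorem invAt_inv {m : ℕ} (hNm : N ∣ m) (x : Additive (Gamma0 N) →+ M) {g : SL(2, ℤ)}
    (hg : InvAt m x g) : InvAt m x g⁻¹ := by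
  intro γ γ' hγ h'
  have hc : (γ' : SL(2, ℤ)) ∈ Gamma m := by
    rw [h']
    exact (Gamma_normal m).conj_mem _ hγ g⁻¹
  exact (hg γ' γ hc (by rw [h']; group)).symm

/-- the subgroup of all `g` such that `x|Γ(m)` is invariant under conjugation by `g` -/
def invSub {m : ℕ} (hNm : N ∣ m) (x : Additive (Gamma0 N) →+ M) : Subgroup SL(2, ℤ) where
  carrier := {g | InvAt m x g}
  mul_mem' hg hh := invAt_mul hNm x hg hh
  one_mem' := invAt_one m x
  inv_mem' hg := invAt_inv hNm x hg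

theorem mem_invSub {m : ℕ} (hNm : N ∣ m) (x : Additive (Gamma0 N) →+ M) {g : SL(2, ℤ)} :
    g ∈ invSub hNm x ↔ InvAt m x g := Iff.rfl

theorem Gamma0_le_invSub {m : ℕ} (hNm : N ∣ m) (x : Additive (Gamma0 N) →+ M) :
    Gamma0 N ≤ invSub hNm x := fun _ hg => invAt_of_mem m x hg

end Inv

section Kappa

variable {N : ℕ} [NeZero N] {l : ℕ} (hl : l.Prime) {M : Type*} [AddCommGroup M]
  {m : ℕ} (hNm : N ∣ m) (hlm : ((l : ℕ) : ZMod m) = 1) (x : Additive (Gamma0 N) →+ M)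

include hNm in
theorem xt_conj_of_inv (g : Gamma0 1) (hg : InvAt m x (g : SL(2, ℤ))) (a : Gamma0 1)
    (ha : a ∈ Km m) : xt x (g * a * g⁻¹) = xt x a := by
  have ha0 : (a : SL(2, ℤ)) ∈ Gamma0 N := Gamma_le_Gamma0_of_dvd hNm ha
  have hc : g * a * g⁻¹ ∈ Km m := Subgroup.Normal.conj_mem inferInstance a ha g
  have hc0 : ((g * a * g⁻¹ : Gamma0 1) : SL(2, ℤ)) ∈ Gamma0 N := Gamma_le_Gamma0_of_dvd hNm hc
  rw [xt_of_mem x hc0, xt_of_mem x ha0]
  exact hg ⟨a, ha0⟩ ⟨_, hc0⟩ ha rfl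

include hNm hlm in
/-- `κ` is additive in the first variable on the invariance subgroup. -/
theorem kappa_mul_of_inv (g h : SL(2, ℤ)) (hg : InvAt m x g) :
    kappa N hl x (g * h) = kappa N hl x g + kappa N hl x h := by
  haveI : NeZero l := ⟨hl.ne_zero⟩
  unfold kappa
  rw [map_mul]
  exact sum_kel_mul_of_mem (TReps 1 hl (not_dvd_one hl)) uu (Km m)
    ((invSub hNm x).comap (Gamma0 1).subtype) (xt x)
    (fun a b ha hb => xt_mul x (Gamma_le_Gamma0_of_dvd hNm ha) (Gamma_le_Gamma0_of_dvd hNm hb))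
    (fun w hw a ha => xt_conj_of_inv hNm x w hw a ha)
    (fun g i => kel_mem_Km hl m hlm g i)
    (fun i => invAt_of_mem m x (uN N (tOf i)).2) (toG1 g) (toG1 h) hg

include hNm hlm in
theorem kappa_one' : kappa N hl x 1 = 0 := by
  have h := kappa_mul_of_inv hl hNm hlm x 1 1 (invAt_one m x)
  rw [mul_one] at h
  exact left_eq_add.mp h

include hNm hlm in
theorem kappa_inv_of_inv (g : SL(2, ℤ)) (hg : InvAt m x g) :
    kappa N hl x g⁻¹ = - kappa N hl x g := by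
  have h := kappa_mul_of_inv hl hNm hlm x g g⁻¹ hg
  rw [mul_inv_cancel, kappa_one' hl hNm hlm x] at h
  exact eq_neg_of_add_eq_zero_right h.symm

include hNm hlm in
/-- The telescoping argument: if `κ` vanishes on `Γ₀(N)` then `T_l x = (l + 1) • x`. -/
theorem transfer_eq_smul_of_kappa [NeZero l] (hlN : ¬ l ∣ N)
    (hκ : ∀ γ : Gamma0 N, kappa N hl x (γ : SL(2, ℤ)) = 0) :
    (TReps N hl hlN).transfer x = (l + 1) • x := by
  refine AddMonoidHom.ext fun γ' => ?_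
  obtain ⟨γ, rfl⟩ := Additive.ofMul.surjective γ'
  rw [CosetReps.transfer_apply]
  set D1 := TReps 1 hl (not_dvd_one hl) with hD1
  have hterm : ∀ i : OnePoint (ZMod l),
      x (Additive.ofMul ((TReps N hl hlN).coc γ i)) =
        xt x (kel D1 uu (inc N γ) i) + xt x (uu i) + x (Additive.ofMul γ) -
          xt x (uu (D1.next (inc N γ) i)) := by
    intro i
    have hk : ((kel D1 uu (inc N γ) i : Gamma0 1) : SL(2, ℤ)) ∈ Gamma0 N :=
      Gamma_le_Gamma0_of_dvd hNm (kel_mem_Km hl m hlm (inc N γ) i)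
    rw [← xt_inc x ((TReps N hl hlN).coc γ i), (coc_next_inc N hl hlN γ i).2,
      coc_eq_kel D1 uu (inc N γ) i,
      xt_mul x ((Gamma0 N).mul_mem ((Gamma0 N).mul_mem hk (uu_mem i)) γ.2)
        ((Gamma0 N).inv_mem (uu_mem _)),
      xt_mul x ((Gamma0 N).mul_mem hk (uu_mem i)) γ.2, xt_mul x hk (uu_mem i),
      xt_inv x (uu_mem _), xt_inc]
    abel
  simp only [hterm, Finset.sum_sub_distrib, Finset.sum_add_distrib, Finset.sum_const,
    Finset.card_univ, AddMonoidHom.coe_smul, Pi.smul_apply]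
  have h1 : ∑ i, xt x (uu (D1.next (inc N γ) i)) = ∑ i, xt x (uu i) :=
    Equiv.sum_comp (D1.nextEquiv (inc N γ)) (fun i => xt x (uu i))
  have h2 : ∑ i, xt x (kel D1 uu (inc N γ) i) = 0 := by
    have := hκ γ
    unfold kappa at this
    exact this
  rw [h1, h2]
  have hc : Fintype.card (OnePoint (ZMod l)) = l + 1 := by
    change Fintype.card (Option (ZMod l)) = l + 1
    rw [Fintype.card_option, ZMod.card]
  rw [hc]
  abel

variable (hM : ∀ y : M, (4 : ℕ) • y = 0 → y = 0)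

include hNm hlm hM in
/-- `κ(w) = 0` if `w⁴ = 1` and `x|Γ(m)` is invariant under `w`. -/
theorem kappa_eq_zero_of_pow_four (w : SL(2, ℤ)) (hw : InvAt m x w)
    (hw4 : w * w * (w * w) = 1) : kappa N hl x w = 0 := by
  apply hM
  have h := kappa_one' hl hNm hlm x
  rw [← hw4, kappa_mul_of_inv hl hNm hlm x _ _ (invAt_mul hNm x hw hw),
    kappa_mul_of_inv hl hNm hlm x _ _ hw] at h
  rw [← h]
  simp only [show (4 : ℕ) = 2 + 2 from rfl, add_smul, two_smul]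

include hNm hlm hM in
/-- `κ` vanishes on `Γ₀(2)` if `x|Γ(m)` is invariant under `l(2)`. -/
theorem kappa_eq_zero_of_lZ_two (hinv : InvAt m x (lZ 2)) :
    ∀ g ∈ Gamma0 2, InvAt m x g ∧ kappa N hl x g = 0 := by
  have hT : InvAt m x ModularGroup.T := invAt_of_mem m x (T_mem_Gamma0 N)
  have hw : InvAt m x (lZ 2 * ModularGroup.T⁻¹) := invAt_mul hNm x hinv (invAt_inv hNm x hT)
  have hsq : (lZ 2 * ModularGroup.T⁻¹) * (lZ 2 * ModularGroup.T⁻¹) = (-1 : SL(2, ℤ)) := by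
    rw [← pow_two]
    exact lZ_two_mul_T_inv_sq
  have hw4 : (lZ 2 * ModularGroup.T⁻¹) * (lZ 2 * ModularGroup.T⁻¹) *
      ((lZ 2 * ModularGroup.T⁻¹) * (lZ 2 * ModularGroup.T⁻¹)) = 1 := by
    rw [hsq]
    simp
  have hκw : kappa N hl x (lZ 2 * ModularGroup.T⁻¹) = 0 :=
    kappa_eq_zero_of_pow_four hl hNm hlm x hM _ hw hw4
  have hκT : kappa N hl x ModularGroup.T = 0 := kappa_T hl x
  refine Gamma0_two_induction (P := fun g => InvAt m x g ∧ kappa N hl x g = 0)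
    ⟨hT, hκT⟩ ⟨hinv, ?_⟩ ⟨?_, ?_⟩ ⟨invAt_one m x, kappa_one' hl hNm hlm x⟩ ?_ ?_
  · have h := kappa_mul_of_inv hl hNm hlm x (lZ 2 * ModularGroup.T⁻¹) ModularGroup.T hw
    rw [inv_mul_cancel_right, hκw, hκT, add_zero] at h
    exact h
  · exact invAt_of_mem m x (neg_one_mem_Gamma0 N)
  · have h := kappa_mul_of_inv hl hNm hlm x (lZ 2 * ModularGroup.T⁻¹)
      (lZ 2 * ModularGroup.T⁻¹) hw
    rw [hsq, hκw, add_zero] at h
    exact h
  · rintro g h ⟨hg, hκg⟩ ⟨hh, hκh⟩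
    exact ⟨invAt_mul hNm x hg hh, by rw [kappa_mul_of_inv hl hNm hlm x g h hg, hκg, hκh, add_zero]⟩
  · rintro g ⟨hg, hκg⟩
    exact ⟨invAt_inv hNm x hg, by rw [kappa_inv_of_inv hl hNm hlm x g hg, hκg, neg_zero]⟩

end Kappa

/-- **Node D3', even level.** If `2 ∣ N ∣ m` and the restriction of `x : Γ₀(N) → M` to `Γ(m)` is
invariant under conjugation by the lower unipotent `l(2)`, then `T_l x = (l + 1) • x` for every
prime `l ∤ N` with `l ≡ 1 mod m`. -/
theorem heckeTransfer_eq_smul_of_lZ_two_invariant (N : ℕ) [NeZero N] (h2N : 2 ∣ N) {m : ℕ}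
    (hNm : N ∣ m) (l : Nat.Primes) (hlN : ¬ (l : ℕ) ∣ N) (hlm : ((l : ℕ) : ZMod m) = 1)
    {M : Type*} [AddCommGroup M] (hM : ∀ y : M, (4 : ℕ) • y = 0 → y = 0)
    (x : Additive (Gamma0 N) →+ M)
    (hinv : ∀ γ γ' : Gamma0 N, (γ : SL(2, ℤ)) ∈ Gamma m →
      (γ' : SL(2, ℤ)) = lZ 2 * γ * (lZ 2)⁻¹ → x (Additive.ofMul γ') = x (Additive.ofMul γ)) :
    heckeTransfer N l M x = ((l : ℕ) + 1) • x := by
  haveI : NeZero (l : ℕ) := ⟨l.2.ne_zero⟩
  rw [heckeTransfer_of_not_dvd M hlN]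
  exact transfer_eq_smul_of_kappa l.2 hNm hlm x hlN fun γ =>
    (kappa_eq_zero_of_lZ_two l.2 hNm hlm x hM hinv (γ : SL(2, ℤ))
      (Gamma0_le_of_dvd h2N γ.2)).2

/-- `S = T⁻¹ l(1) T⁻¹` -/
theorem S_eq_T_inv_mul_lZ_one :
    ModularGroup.S = ModularGroup.T⁻¹ * lZ 1 * ModularGroup.T⁻¹ := by
  have hT : (ModularGroup.T⁻¹ : SL(2, ℤ)) = ModularGroup.T ^ (-1 : ℤ) := by simp
  obtain ⟨t00, t01, t10, t11⟩ := T_zpow_apply (-1)
  rw [hT]
  apply sl_ext <;>
    simp [mul_apply2, t00, t01, t10, t11, ModularGroup.S]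

/-- **Node D3', generators version.** If `N ∣ m` and the restriction of `x : Γ₀(N) → M` to `Γ(m)`
is invariant under conjugation by the lower unipotent `l(1)`, then `T_l x = (l + 1) • x` for every
prime `l ∤ N` with `l ≡ 1 mod m`. -/
theorem heckeTransfer_eq_smul_of_lZ_invariant (N : ℕ) [NeZero N] {m : ℕ}
    (hNm : N ∣ m) (l : Nat.Primes) (hlN : ¬ (l : ℕ) ∣ N) (hlm : ((l : ℕ) : ZMod m) = 1)
    {M : Type*} [AddCommGroup M] (hM : ∀ y : M, (4 : ℕ) • y = 0 → y = 0)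
    (x : Additive (Gamma0 N) →+ M)
    (hinv : ∀ γ γ' : Gamma0 N, (γ : SL(2, ℤ)) ∈ Gamma m →
      (γ' : SL(2, ℤ)) = lZ 1 * γ * (lZ 1)⁻¹ → x (Additive.ofMul γ') = x (Additive.ofMul γ)) :
    heckeTransfer N l M x = ((l : ℕ) + 1) • x := by
  have hT : ModularGroup.T ∈ invSub hNm x := Gamma0_le_invSub hNm x (T_mem_Gamma0 N)
  have hL : lZ 1 ∈ invSub hNm x := hinv
  have hS : ModularGroup.S ∈ invSub hNm x := by
    rw [S_eq_T_inv_mul_lZ_one]
    exact mul_mem (mul_mem (inv_mem hT) hL) (inv_mem hT)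
  have htop : invSub hNm x = ⊤ := by
    rw [eq_top_iff, ← SpecialLinearGroup.SL2Z_generators, Subgroup.closure_le]
    rintro g (rfl | rfl)
    · exact hS
    · exact hT
  exact heckeTransfer_eq_smul_of_invariant N hNm l hlN hlm hM x fun g => by
    have : g ∈ invSub hNm x := by rw [htop]; exact Subgroup.mem_top g
    exact this

end Fermat.Agent.LR.HeckeInvTwo
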