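/-
Program M (S41), bypass route (#521), node I re-glue (P3) (helper15).

Input : the centrality theorem (Cen) at ONE level `m` (`N ∣ m`) in the language of `LR/SL2Ring.lean`
over `A q = ℤ[1/q]` (`cenMod (m) = ⊤`, resp. `u(2t), l(2t) ∈ cenMod (m)` for even levels), and
the Hecke lemma D3' (as the hypothesis `hD3` of `hIhara_of_inv`; plugged in `LR/IharaInvPlug.lean`).

Output: the hypothesis (I) of `S41Main.s41_of_nodes` at the level `m`.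

Steps:
* `Compat N q p x y`  : `x` parabolic and `(x, y)` compatible on `Γ₀(N q)` (the kernel pairs mod `p`);
* `exists_extension`  : the D1 amalgam extension `φ` of a compatible pair; it kills the unipotents;
* `InvAt N m x d`     : `x (d k d⁻¹) = x k` for `k ∈ Γ(m)`;
* `invAt_of_mem_cenMod`, `invAt_of_cen`, `invAt_of_cen_even` : invariance of `x` and `y` on `Γ(m)`
  under `SL(2, ℤ)`, resp. under `Γ₀(2)`;
* `hIhara_of_inv`     : the conclusion of node I from the invariance and D3'.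
-/
import Mathlib
import Fermat.Agent.LR.IharaPar
import Fermat.Agent.LR.CSPInvQ
import Fermat.Agent.LR.Gamma0TwoGen

set_option autoImplicit false
set_option linter.style.haveILetI false
set_option linter.unusedSimpArgs false
set_option linter.unusedSectionVars false

namespace Fermat.Agent.LR.IharaInv

open Matrix CongruenceSubgroup ModularCurve.Period
open Fermat.Agent.Jac Fermat.Agent.LR
open Fermat.Agent.LR.Gen Fermat.Agent.LR.Amalgam Fermat.Agent.LR.Ihara Fermat.Agent.LR.IharaGroup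
open Fermat.Agent.LR.IharaPar Fermat.Agent.LR.CongEis Fermat.Agent.LR.SL2R Fermat.Agent.LR.CSP
open scoped MatrixGroups

/-- `x` is parabolic and `(x, y)` is a compatible pair on `Γ₀(N q)` -/
def Compat (N q p : ℕ) (x y : Additive (Gamma0 N) →+ ZMod p) : Prop :=
  IsParabolicHom (Gamma0 N) x ∧
    ∀ (γ : Gamma0 (N * q)) (γ₁ γ₂ : Gamma0 N), (γ₁ : SL(2, ℤ)) = (γ : SL(2, ℤ)) →
      IsConjDelta q (γ : SL(2, ℤ)) (γ₂ : SL(2, ℤ)) →
        x (Additive.ofMul γ₁) + y (Additive.ofMul γ₂) = 0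

/-- the restriction of `x` to `Γ(m)` is invariant under conjugation by `d` -/
def InvAt (N m : ℕ) {M : Type*} [AddCommGroup M] (x : Additive (Gamma0 N) →+ M)
    (d : SL(2, ℤ)) : Prop :=
  ∀ k : SL(2, ℤ), k ∈ Gamma m → ∀ (h1 : k ∈ Gamma0 N) (h2 : d * k * d⁻¹ ∈ Gamma0 N),
    x (Additive.ofMul (⟨d * k * d⁻¹, h2⟩ : Gamma0 N)) = x (Additive.ofMul (⟨k, h1⟩ : Gamma0 N))

/-! ### The amalgam extension -/

/-- **D1 for a compatible pair**: the extension `φ` to `Γ₀(N)[1/q]`; it kills the unipotents. -/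
theorem exists_extension {N q p : ℕ} (hq : q.Prime) (hqN : ¬ q ∣ N) (hp : p.Prime) (hpq : p ≠ q)
    {x y : Additive (Gamma0 N) →+ ZMod p} (hc : Compat N q p x y) :
    ∃ φ : ↥(gamma0Loc N q) →* Multiplicative (ZMod p),
      (∀ γ : Gamma0 N, φ ⟨castSL γ, castSL_mem q γ⟩ = Multiplicative.ofAdd (x (Additive.ofMul γ))) ∧
      (∀ γ : Gamma0 N, φ ⟨conjD (q : ℚ) (Nat.cast_ne_zero.2 hq.ne_zero) (castSL γ),
        conjD_castSL_mem hq.ne_zero γ⟩ = Multiplicative.ofAdd ((-y) (Additive.ofMul γ))) ∧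
      ∀ g : ↥(gamma0Loc N q), IsUnip (g : SL(2, ℚ)) → φ g = 1 := by
  obtain ⟨hxpar, hcompat⟩ := hc
  have hq0 : (q : ℚ) ≠ 0 := Nat.cast_ne_zero.2 hq.ne_zero
  have hxy : ∀ γ η : Gamma0 N,
      castSL (γ : SL(2, ℤ)) = conjD (q : ℚ) (Nat.cast_ne_zero.2 hq.ne_zero) (castSL η) →
        x (Additive.ofMul γ) = (-y) (Additive.ofMul η) := by
    intro γ η hγη
    have hent : ∀ i j, (castSL (γ : SL(2, ℤ)) : Matrix (Fin 2) (Fin 2) ℚ) i j =
        (conjD (q : ℚ) hq0 (castSL η) : Matrix (Fin 2) (Fin 2) ℚ) i j := fun i j => by rw [hγη]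
    have e00 := hent 0 0
    have e01 := hent 0 1
    have e10 := hent 1 0
    have e11 := hent 1 1
    rw [conjD_apply] at e00 e01 e10 e11
    simp only [castSL_apply, Matrix.of_apply, Matrix.cons_val', Matrix.cons_val_zero,
      Matrix.cons_val_one, Fin.zero_eta, Fin.mk_one] at e00 e01 e10 e11
    have f00 : (η : SL(2, ℤ)) 0 0 = (γ : SL(2, ℤ)) 0 0 := by exact_mod_cast e00.symm
    have f11 : (η : SL(2, ℤ)) 1 1 = (γ : SL(2, ℤ)) 1 1 := by exact_mod_cast e11.symm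
    have f01 : (η : SL(2, ℤ)) 0 1 = (q : ℤ) * (γ : SL(2, ℤ)) 0 1 := by
      have : (((η : SL(2, ℤ)) 0 1 : ℤ) : ℚ) = (q : ℚ) * (((γ : SL(2, ℤ)) 0 1 : ℤ) : ℚ) := by
        rw [e01]; field_simp
      exact_mod_cast this
    have f10 : (q : ℤ) * (η : SL(2, ℤ)) 1 0 = (γ : SL(2, ℤ)) 1 0 := by exact_mod_cast e10.symm
    have hη := η.2
    rw [Gamma0_mem] at hη
    obtain ⟨t, ht⟩ := (ZMod.intCast_zmod_eq_zero_iff_dvd _ _).1 hη
    have hγ' : (γ : SL(2, ℤ)) ∈ Gamma0 (N * q) := by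
      rw [Gamma0_mem]
      refine (ZMod.intCast_zmod_eq_zero_iff_dvd _ _).2 ⟨t, ?_⟩
      rw [← f10, ht]; push_cast; ring
    have := hcompat ⟨(γ : SL(2, ℤ)), hγ'⟩ γ η rfl ⟨f00, f01, f10, f11⟩
    rw [AddMonoidHom.neg_apply]
    exact eq_neg_of_add_eq_zero_left this
  obtain ⟨φ, ⟨hφx, hφy⟩, -⟩ := exists_unique_extension hq hqN x (-y) hxy
  exact ⟨φ, hφx, hφy, extension_kills_unip hq hp hpq x hxpar φ hφx⟩

/-! ### Invariance on `Γ(m)` -/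

theorem Gamma_le_Gamma0_of_dvd {N m : ℕ} (hNm : N ∣ m) : Gamma m ≤ Gamma0 N := by
  intro k hk
  rw [Gamma_mem] at hk
  rw [Gamma0_mem]
  have h10 : ((k 1 0 : ℤ) : ZMod m) = 0 := hk.2.2.1
  have h1 : (m : ℤ) ∣ k 1 0 := (ZMod.intCast_zmod_eq_zero_iff_dvd _ _).1 h10
  exact (ZMod.intCast_zmod_eq_zero_iff_dvd _ _).2 (dvd_trans (by exact_mod_cast hNm) h1)

theorem conj_mem_Gamma {m : ℕ} {k : SL(2, ℤ)} (hk : k ∈ Gamma m) (d : SL(2, ℤ)) :
    d * k * d⁻¹ ∈ Gamma m :=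
  (Gamma_normal m).conj_mem k hk d

section Inv

variable {N q p m : ℕ}

/-- invariance of `x` and `y` on `Γ(m)` under `d ∈ SL(2, ℤ)`, as soon as the images of `d` in
`SL(2, ℤ[1/q])` on the two sides of the amalgam lie in `cenMod (m)` -/
theorem invAt_of_mem_cenMod (hq : q.Prime) (hqN : ¬ q ∣ N) (hp : p.Prime) (hpq : p ≠ q)
    (hNm : N ∣ m) {x y : Additive (Gamma0 N) →+ ZMod p} (hc : Compat N q p x y) (d : SL(2, ℤ)) :
    (∀ γ₁ : SL(2, A q), toQ q γ₁ = castSL d → γ₁ ∈ cenMod (Ideal.span {(m : A q)}) →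
      InvAt N m x d) ∧
    (∀ γ₂ : SL(2, A q), toQ q γ₂ = conjD (q : ℚ) (Nat.cast_ne_zero.2 hq.ne_zero) (castSL d) →
      γ₂ ∈ cenMod (Ideal.span {(m : A q)}) → InvAt N m y d) := by
  obtain ⟨φ, hφx, hφy, hφu⟩ := exists_extension hq hqN hp hpq hc
  have hq0 : (q : ℚ) ≠ 0 := Nat.cast_ne_zero.2 hq.ne_zero
  refine ⟨?_, ?_⟩
  · intro γ₁ h1 hγ₁ k hk hk0 hdk
    have hcong : IsCongOne q m (castSL k) := isCongOne_castSL hk
    have key := CSPInvQ.map_conj_eq_of_mem_cenMod hNm φ hφu hγ₁ hcong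
    have e1 : (⟨toQ q γ₁ * castSL k * (toQ q γ₁)⁻¹, CSPInvQ.mem_gamma0Loc_of_isCongOne hNm
        (CSPInvQ.isCongOne_conj (toQ_mem_gamma0Loc_one γ₁) hcong)⟩ : ↥(gamma0Loc N q)) =
        ⟨castSL ((⟨d * k * d⁻¹, hdk⟩ : Gamma0 N) : SL(2, ℤ)), castSL_mem q ⟨d * k * d⁻¹, hdk⟩⟩ := by
      apply Subtype.ext
      show toQ q γ₁ * castSL k * (toQ q γ₁)⁻¹ = castSL (d * k * d⁻¹)
      rw [h1, map_mul, map_mul, map_inv]
    have e2 : (⟨castSL k, CSPInvQ.mem_gamma0Loc_of_isCongOne hNm hcong⟩ : ↥(gamma0Loc N q)) =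
        ⟨castSL ((⟨k, hk0⟩ : Gamma0 N) : SL(2, ℤ)), castSL_mem q ⟨k, hk0⟩⟩ := rfl
    rw [e1, e2, hφx, hφx] at key
    exact Multiplicative.ofAdd.injective key
  · intro γ₂ h2 hγ₂ k hk hk0 hdk
    have hcong : IsCongOne q m (conjD (q : ℚ) hq0 (castSL k)) := isCongOne_conjD_castSL hq0 hk
    have key := CSPInvQ.map_conj_eq_of_mem_cenMod hNm φ hφu hγ₂ hcong
    have e1 : (⟨toQ q γ₂ * conjD (q : ℚ) hq0 (castSL k) * (toQ q γ₂)⁻¹,
        CSPInvQ.mem_gamma0Loc_of_isCongOne hNm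
        (CSPInvQ.isCongOne_conj (toQ_mem_gamma0Loc_one γ₂) hcong)⟩ : ↥(gamma0Loc N q)) =
        ⟨conjD (q : ℚ) hq0 (castSL ((⟨d * k * d⁻¹, hdk⟩ : Gamma0 N) : SL(2, ℤ))),
          conjD_castSL_mem hq.ne_zero ⟨d * k * d⁻¹, hdk⟩⟩ := by
      apply Subtype.ext
      show toQ q γ₂ * conjD (q : ℚ) hq0 (castSL k) * (toQ q γ₂)⁻¹ =
        conjD (q : ℚ) hq0 (castSL (d * k * d⁻¹))
      rw [h2, map_mul, map_mul, map_inv, map_mul, map_mul, map_inv]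
    have e2 : (⟨conjD (q : ℚ) hq0 (castSL k), CSPInvQ.mem_gamma0Loc_of_isCongOne hNm hcong⟩ :
        ↥(gamma0Loc N q)) =
        ⟨conjD (q : ℚ) hq0 (castSL ((⟨k, hk0⟩ : Gamma0 N) : SL(2, ℤ))),
          conjD_castSL_mem hq.ne_zero ⟨k, hk0⟩⟩ := rfl
    rw [e1, e2, hφy, hφy] at key
    have key' := Multiplicative.ofAdd.injective key
    rw [AddMonoidHom.neg_apply, AddMonoidHom.neg_apply, neg_inj] at key'
    exact key'

/-- the images of `d ∈ SL(2, ℤ)` in `SL(2, ℤ[1/q])` -/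
theorem castSL_mem_one (d : SL(2, ℤ)) : castSL d ∈ gamma0Loc 1 q := by
  rw [mem_gamma0Loc]
  refine ⟨fun i j => ?_, castSL d 1 0, ?_, by simp⟩
  · rw [castSL_apply]; exact intCast_mem_zInv q _
  · rw [castSL_apply]; exact intCast_mem_zInv q _

theorem conjD_castSL_mem_one (hq0 : (q : ℚ) ≠ 0) (d : SL(2, ℤ)) :
    conjD (q : ℚ) hq0 (castSL d) ∈ gamma0Loc 1 q := by
  have hqz : (q : ℚ) ∈ zInv q := by exact_mod_cast intCast_mem_zInv q (q : ℤ)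
  have hent : ∀ i j, (conjD (q : ℚ) hq0 (castSL d) : Matrix (Fin 2) (Fin 2) ℚ) i j ∈ zInv q := by
    intro i j
    rw [conjD_apply]
    fin_cases i <;> fin_cases j
    · simp [intCast_mem_zInv q (d 0 0)]
    · simp only [castSL_apply, Matrix.of_apply, Matrix.cons_val', Matrix.cons_val_zero,
        Matrix.cons_val_one, Fin.zero_eta, Fin.mk_one, Matrix.cons_val_fin_one]
      rw [div_eq_mul_inv]
      exact (zInv q).mul_mem (intCast_mem_zInv q _) (inv_mem_zInv q)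
    · simp only [castSL_apply, Matrix.of_apply, Matrix.cons_val', Matrix.cons_val_zero,
        Matrix.cons_val_one, Fin.zero_eta, Fin.mk_one, Matrix.cons_val_fin_one]
      exact (zInv q).mul_mem hqz (intCast_mem_zInv q _)
    · simp [intCast_mem_zInv q (d 1 1)]
  rw [mem_gamma0Loc]
  exact ⟨hent, _, hent 1 0, by simp⟩

/-- **(Cen) at level `m` ⇒ `x`, `y` are `SL(2, ℤ)`-invariant on `Γ(m)`.** -/
theorem invAt_of_cen (hq : q.Prime) (hqN : ¬ q ∣ N) (hp : p.Prime) (hpq : p ≠ q)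
    (hNm : N ∣ m) (hcen : cenMod (Ideal.span {(m : A q)}) = ⊤)
    {x y : Additive (Gamma0 N) →+ ZMod p} (hc : Compat N q p x y) (d : SL(2, ℤ)) :
    InvAt N m x d ∧ InvAt N m y d := by
  have hq0 : (q : ℚ) ≠ 0 := Nat.cast_ne_zero.2 hq.ne_zero
  obtain ⟨h1, h2⟩ := invAt_of_mem_cenMod hq hqN hp hpq hNm hc d
  obtain ⟨γ₁, hγ₁⟩ := CSPInvQ.exists_of_mem_gamma0Loc_one (castSL_mem_one (q := q) d)
  obtain ⟨γ₂, hγ₂⟩ := CSPInvQ.exists_of_mem_gamma0Loc_one (conjD_castSL_mem_one hq0 d)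
  exact ⟨h1 γ₁ hγ₁ (by rw [hcen]; exact Subgroup.mem_top _),
    h2 γ₂ hγ₂ (by rw [hcen]; exact Subgroup.mem_top _)⟩

/-! ### Formal properties of `InvAt` -/

section Formal

variable {M : Type*} [AddCommGroup M] (x : Additive (Gamma0 N) →+ M)

theorem invAt_of_mem {d : SL(2, ℤ)} (hd : d ∈ Gamma0 N) : InvAt N m x d := by
  intro k _ h1 h2
  have e : (⟨d * k * d⁻¹, h2⟩ : Gamma0 N) = ⟨d, hd⟩ * ⟨k, h1⟩ * (⟨d, hd⟩ : Gamma0 N)⁻¹ := rfl
  rw [e, ofMul_mul, ofMul_mul, ofMul_inv, map_add, map_add, map_neg]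
  abel

theorem invAt_one : InvAt N m x 1 := invAt_of_mem x (one_mem _)

theorem invAt_neg_one : InvAt N m x (-1) := by
  intro k _ h1 h2
  congr 2
  apply Subtype.ext
  show -1 * k * (-1 : SL(2, ℤ))⁻¹ = k
  have : (-1 : SL(2, ℤ))⁻¹ = -1 := by
    rw [inv_eq_iff_mul_eq_one]; simp
  rw [this]; simp

theorem invAt_mul (hNm : N ∣ m) {g h : SL(2, ℤ)} (hg : InvAt N m x g) (hh : InvAt N m x h) :
    InvAt N m x (g * h) := by
  intro k hk h1 h2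
  have hk' : h * k * h⁻¹ ∈ Gamma m := conj_mem_Gamma hk h
  have hk0 : h * k * h⁻¹ ∈ Gamma0 N := Gamma_le_Gamma0_of_dvd hNm hk'
  have e : g * h * k * (g * h)⁻¹ = g * (h * k * h⁻¹) * g⁻¹ := by group
  have h2' : g * (h * k * h⁻¹) * g⁻¹ ∈ Gamma0 N := by rw [← e]; exact h2
  have e' : (⟨g * h * k * (g * h)⁻¹, h2⟩ : Gamma0 N) = ⟨g * (h * k * h⁻¹) * g⁻¹, h2'⟩ :=
    Subtype.ext e
  rw [e', hg _ hk' hk0 h2', hh k hk h1 hk0]

theorem invAt_inv {g : SL(2, ℤ)} (hg : InvAt N m x g) : InvAt N m x g⁻¹ := by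
  intro k hk h1 h2
  have hk' : g⁻¹ * k * g⁻¹⁻¹ ∈ Gamma m := conj_mem_Gamma hk g⁻¹
  have e : g * (g⁻¹ * k * g⁻¹⁻¹) * g⁻¹ = k := by group
  have h3 : g * (g⁻¹ * k * g⁻¹⁻¹) * g⁻¹ ∈ Gamma0 N := by rw [e]; exact h1
  have := hg _ hk' h2 h3
  have e' : (⟨g * (g⁻¹ * k * g⁻¹⁻¹) * g⁻¹, h3⟩ : Gamma0 N) = ⟨k, h1⟩ := Subtype.ext e
  rw [e'] at this
  exact this.symm

end Formal

/-- **(Cen)(ii) at an even level ⇒ `x`, `y` are `Γ₀(2)`-invariant on `Γ(m)`.** -/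
theorem invAt_of_cen_even (hq : q.Prime) (hqN : ¬ q ∣ N) (hp : p.Prime) (hpq : p ≠ q)
    (hNm : N ∣ m)
    (hcen2 : ∀ t : A q, uR (2 * t) ∈ cenMod (Ideal.span {(m : A q)}) ∧
      lR (2 * t) ∈ cenMod (Ideal.span {(m : A q)}))
    {x y : Additive (Gamma0 N) →+ ZMod p} (hc : Compat N q p x y) :
    ∀ d ∈ Gamma0 2, InvAt N m x d ∧ InvAt N m y d := by
  have hq0 : (q : ℚ) ≠ 0 := Nat.cast_ne_zero.2 hq.ne_zero
  apply Gamma0TwoGen.Gamma0_two_induction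
  · exact ⟨invAt_of_mem x (Gamma0TwoGen.T_mem_Gamma0 N), invAt_of_mem y (Gamma0TwoGen.T_mem_Gamma0 N)⟩
  · obtain ⟨h1, h2⟩ := invAt_of_mem_cenMod hq hqN hp hpq hNm hc (Gamma0TwoGen.lZ 2)
    refine ⟨h1 (lR (2 * 1)) ?_ (hcen2 1).2, h2 (lR (2 * (q : A q))) ?_ (hcen2 (q : A q)).2⟩
    · have h2' : (((2 : A q) : A q) : ℚ) = 2 := rfl
      apply sl_ext <;> simp [toQ, Gamma0TwoGen.coe_lZ, h2']
    · have h2' : (((2 : A q) : A q) : ℚ) = 2 := rfl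
      apply sl_ext <;> simp [toQ, Gamma0TwoGen.coe_lZ, conjD_apply, mul_comm, h2']
  · exact ⟨invAt_neg_one x, invAt_neg_one y⟩
  · exact ⟨invAt_one x, invAt_one y⟩
  · intro g h hg hh
    exact ⟨invAt_mul x hNm hg.1 hh.1, invAt_mul y hNm hg.2 hh.2⟩
  · intro g hg
    exact ⟨invAt_inv x hg.1, invAt_inv y hg.2⟩

end Inv

/-! ### Node I from the invariance and D3' -/

section Core

variable (N q p m : ℕ) [NeZero N] [NeZero (N * q)] [Fact p.Prime]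

/-- **Node I, bypass form, abstract**: if every compatible parabolic pair `(x, y)` is invariant on
`Γ(m)` under a subgroup `Δ` of `SL(2, ℤ)`, and D3' holds for `Δ`-invariant homomorphisms, then the
conclusion of node I holds at level `m` for the degeneracy maps `A1`, `A2`. -/
theorem hIhara_of_inv_gen (Δ : Subgroup SL(2, ℤ))
    (hinv : ∀ x y : Additive (Gamma0 N) →+ ZMod p, Compat N q p x y →
      ∀ d ∈ Δ, InvAt N m x d ∧ InvAt N m y d)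
    (hD3 : ∀ l : Nat.Primes, ¬ (l : ℕ) ∣ N → (l : ℕ) ≡ 1 [MOD m] →
      ∀ x : Additive (Gamma0 N) →+ ZMod p, (∀ d ∈ Δ, InvAt N m x d) →
        heckeTransfer N l (ZMod p) x = ((l : ℕ) + 1) • x)
    (A1 A2 : Lam N →ₗ[ℤ] Lam (N * q))
    (hA1 : ∀ (a : Lam N) (γ : Gamma0 (N * q)) (γ₁ : Gamma0 N),
      (γ₁ : SL(2, ℤ)) = (γ : SL(2, ℤ)) →
      ((A1 a : Lam (N * q)) : Additive (Gamma0 (N * q)) →+ ℤ) (Additive.ofMul γ) =
        (a : Additive (Gamma0 N) →+ ℤ) (Additive.ofMul γ₁))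
    (hA2 : ∀ (b : Lam N) (γ : Gamma0 (N * q)) (γ₂ : Gamma0 N),
      IsConjDelta q (γ : SL(2, ℤ)) (γ₂ : SL(2, ℤ)) →
      ((A2 b : Lam (N * q)) : Additive (Gamma0 (N * q)) →+ ℤ) (Additive.ofMul γ) =
        (b : Additive (Gamma0 N) →+ ℤ) (Additive.ofMul γ₂)) :
    ∀ l : Nat.Primes, ¬ (l : ℕ) ∣ N → (l : ℕ) ≡ 1 [MOD m] →
      ∀ a b : Lam N, (∃ y : Lam (N * q), A1 a + A2 b = (p : ℤ) • y) →
        (∃ z : Lam N, TLam N l a - (((l : ℕ) + 1 : ℕ) : ℤ) • a = (p : ℤ) • z) ∧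
        (∃ z : Lam N, TLam N l b - (((l : ℕ) + 1 : ℕ) : ℤ) • b = (p : ℤ) • z) := by
  intro l hlN hlm a b ⟨y, hy⟩
  -- reductions mod p
  let π : ℤ →+ ZMod p := Int.castAddHom (ZMod p)
  have hcompat : Compat N q p (π.comp (a : Additive (Gamma0 N) →+ ℤ))
      (π.comp (b : Additive (Gamma0 N) →+ ℤ)) := by
    refine ⟨?_, ?_⟩
    · intro γ hγ
      show π ((a : Additive (Gamma0 N) →+ ℤ) (Additive.ofMul γ)) = 0
      rw [a.2 γ hγ, map_zero]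
    intro γ γ₁ γ₂ h1 h2
    have e1 := hA1 a γ γ₁ h1
    have e2 := hA2 b γ γ₂ h2
    have e3 := congrArg (fun c : Lam (N * q) =>
      (c : Additive (Gamma0 (N * q)) →+ ℤ) (Additive.ofMul γ)) hy
    simp only [Submodule.coe_add, AddMonoidHom.add_apply, Submodule.coe_smul,
      AddMonoidHom.coe_smul, Pi.smul_apply, smul_eq_mul] at e3
    rw [e1, e2] at e3
    show π _ + π _ = 0
    rw [← map_add, e3]
    simp [π]
  have hI := hinv _ _ hcompat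
  have key : ∀ (c : Lam N), (∀ d ∈ Δ, InvAt N m (π.comp (c : Additive (Gamma0 N) →+ ℤ)) d) →
      ∃ z : Lam N, TLam N l c - (((l : ℕ) + 1 : ℕ) : ℤ) • c = (p : ℤ) • z := by
    intro c hc
    apply exists_eq_smul_of_forall_dvd
    intro γ
    have h1 := hD3 l hlN hlm (π.comp (c : Additive (Gamma0 N) →+ ℤ)) hc
    rw [heckeTransfer_comp] at h1
    have h2 := congrArg (fun φ : Additive (Gamma0 N) →+ ZMod p => φ (Additive.ofMul γ)) h1
    simp only [AddMonoidHom.comp_apply, AddMonoidHom.coe_smul, Pi.smul_apply] at h2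
    rw [← ZMod.intCast_zmod_eq_zero_iff_dvd]
    simp only [Submodule.coe_sub, AddMonoidHom.sub_apply, Submodule.coe_smul,
      AddMonoidHom.coe_smul, Pi.smul_apply, smul_eq_mul, coe_TLam_apply]
    push_cast
    have h3 : π ((heckeTransfer N l ℤ (c : Additive (Gamma0 N) →+ ℤ)) (Additive.ofMul γ)) =
        (((heckeTransfer N l ℤ (c : Additive (Gamma0 N) →+ ℤ)) (Additive.ofMul γ) : ℤ) : ZMod p) :=
      rfl
    have h4 : π ((c : Additive (Gamma0 N) →+ ℤ) (Additive.ofMul γ)) =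
        (((c : Additive (Gamma0 N) →+ ℤ) (Additive.ofMul γ) : ℤ) : ZMod p) := rfl
    rw [h3, h4] at h2
    rw [h2]
    simp [nsmul_eq_mul]
  exact ⟨key a (fun d hd => (hI d hd).1), key b (fun d hd => (hI d hd).2)⟩

/-- **Node I, bypass form**, for the degeneracy maps of node B: hypothesis (I) of
`S41Main.s41_of_nodes` at the level `m`, from the `Δ`-invariance of the compatible pairs and D3'. -/
theorem hIhara_of_inv (hq : q.Prime) (hqN : ¬ q ∣ N) (Δ : Subgroup SL(2, ℤ))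
    (hinv : ∀ x y : Additive (Gamma0 N) →+ ZMod p, Compat N q p x y →
      ∀ d ∈ Δ, InvAt N m x d ∧ InvAt N m y d)
    (hD3 : ∀ l : Nat.Primes, ¬ (l : ℕ) ∣ N → (l : ℕ) ≡ 1 [MOD m] →
      ∀ x : Additive (Gamma0 N) →+ ZMod p, (∀ d ∈ Δ, InvAt N m x d) →
        heckeTransfer N l (ZMod p) x = ((l : ℕ) + 1) • x) :
    ∀ l : Nat.Primes, ¬ (l : ℕ) ∣ N → (l : ℕ) ≡ 1 [MOD m] →
      ∀ a b : Lam N,
        (∃ y : Lam (N * q), Deg.A1Lam N q a + (Deg.alData N q hq hqN).A2Lam b = (p : ℤ) • y) →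
        (∃ z : Lam N, TLam N l a - (((l : ℕ) + 1 : ℕ) : ℤ) • a = (p : ℤ) • z) ∧
        (∃ z : Lam N, TLam N l b - (((l : ℕ) + 1 : ℕ) : ℤ) • b = (p : ℤ) • z) := by
  haveI : NeZero q := ⟨hq.ne_zero⟩
  refine hIhara_of_inv_gen N q p m Δ hinv hD3
    (Deg.A1Lam N q) ((Deg.alData N q hq hqN).A2Lam) ?_ ?_
  · intro a γ γ₁ h
    exact Deg.A1Lam_apply_of_coe_eq a γ γ₁ h
  · intro b γ γ₂ h
    rw [Deg.alData_eq]
    exact Deg.ALData.ofBez_A2Lam_apply_of_conj (Deg.bez N q hq hqN) b γ γ₂ h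

/-- **Node I from (Cen) at level `m`** (`N ∣ m`, `cenMod (m) = ⊤`), with D3' for `Δ = ⊤` as a
hypothesis. -/
theorem hIhara_of_cen_of_D3 (hq : q.Prime) (hqN : ¬ q ∣ N) (hpq : p ≠ q) (hNm : N ∣ m)
    (hcen : cenMod (Ideal.span {(m : A q)}) = ⊤)
    (hD3 : ∀ l : Nat.Primes, ¬ (l : ℕ) ∣ N → (l : ℕ) ≡ 1 [MOD m] →
      ∀ x : Additive (Gamma0 N) →+ ZMod p, (∀ d : SL(2, ℤ), InvAt N m x d) →
        heckeTransfer N l (ZMod p) x = ((l : ℕ) + 1) • x) :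
    ∀ l : Nat.Primes, ¬ (l : ℕ) ∣ N → (l : ℕ) ≡ 1 [MOD m] →
      ∀ a b : Lam N,
        (∃ y : Lam (N * q), Deg.A1Lam N q a + (Deg.alData N q hq hqN).A2Lam b = (p : ℤ) • y) →
        (∃ z : Lam N, TLam N l a - (((l : ℕ) + 1 : ℕ) : ℤ) • a = (p : ℤ) • z) ∧
        (∃ z : Lam N, TLam N l b - (((l : ℕ) + 1 : ℕ) : ℤ) • b = (p : ℤ) • z) :=
  hIhara_of_inv N q p m hq hqN ⊤
    (fun _ _ hc d _ => invAt_of_cen hq hqN (Fact.out : p.Prime) hpq hNm hcen hc d)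
    (fun l hlN hlm x hx => hD3 l hlN hlm x (fun d => hx d (Subgroup.mem_top d)))

/-- **Node I from (Cen)(ii) at an even level `m`** (`N ∣ m`, `u(2t), l(2t) ∈ cenMod (m)`), with D3'
for `Δ = Γ₀(2)` as a hypothesis. -/
theorem hIhara_of_cen_even_of_D3 (hq : q.Prime) (hqN : ¬ q ∣ N) (hpq : p ≠ q) (hNm : N ∣ m)
    (hcen2 : ∀ t : A q, uR (2 * t) ∈ cenMod (Ideal.span {(m : A q)}) ∧
      lR (2 * t) ∈ cenMod (Ideal.span {(m : A q)}))
    (hD3 : ∀ l : Nat.Primes, ¬ (l : ℕ) ∣ N → (l : ℕ) ≡ 1 [MOD m] →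
      ∀ x : Additive (Gamma0 N) →+ ZMod p, (∀ d ∈ Gamma0 2, InvAt N m x d) →
        heckeTransfer N l (ZMod p) x = ((l : ℕ) + 1) • x) :
    ∀ l : Nat.Primes, ¬ (l : ℕ) ∣ N → (l : ℕ) ≡ 1 [MOD m] →
      ∀ a b : Lam N,
        (∃ y : Lam (N * q), Deg.A1Lam N q a + (Deg.alData N q hq hqN).A2Lam b = (p : ℤ) • y) →
        (∃ z : Lam N, TLam N l a - (((l : ℕ) + 1 : ℕ) : ℤ) • a = (p : ℤ) • z) ∧
        (∃ z : Lam N, TLam N l b - (((l : ℕ) + 1 : ℕ) : ℤ) • b = (p : ℤ) • z) :=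
  hIhara_of_inv N q p m hq hqN (Gamma0 2)
    (fun _ _ hc => invAt_of_cen_even hq hqN (Fact.out : p.Prime) hpq hNm hcen2 hc) hD3

end Core

end Fermat.Agent.LR.IharaInv
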