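/-
Program M (S41), bypass route (finding 521), piece (P5), skeleton (helper19).

Final assembly of hypothesis (I) of `S41Main.s41_of_nodes` (`hIhara`) by cases
(`q = 2` / `N` even / `N`, `q` both odd), with the three inputs which are not yet on main taken as
hypotheses, in the exact shapes announced by their owners:

* `hOdd`  = (P3) `hIhara_of_cen` (helper15): from `cenMod (span m) = ⊤`, `N ∣ m`;
* `hEven` = (P3) `hIhara_of_cen_even` (helper15): from `uR (2 t), lR (2 t) ∈ cenMod (span m)`,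
  `N ∣ m`, `2 ∣ N`;
* `hCenEven` = (P4b) `cen_even_exists` (helper9/helper21/helper17): a level `m`, multiple of `N`, with
  `uR (2 t), lR (2 t) ∈ cenMod (span m)` (`q` odd).

The two remaining (Cen) inputs are on main: `CSPCenOdd.cenMod_odd` (`q` odd, `N` odd) and
`CSPQ2.cenMod_zInv_two_eq_top` (`q = 2`).
-/
import Mathlib
import Fermat.Agent.LR.IharaPar
import Fermat.Agent.LR.CSPCenOdd
import Fermat.Agent.LR.CSPQ2

set_option autoImplicit false
set_option linter.unusedSectionVars false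
set_option linter.unusedVariables false

namespace Fermat.Agent.LR.IharaInvFinalOf

open Matrix CongruenceSubgroup
open Fermat.Agent.Jac Fermat.Agent.LR
open Fermat.Agent.LR.Gen Fermat.Agent.LR.SL2R
open scoped MatrixGroups

/-- the body of hypothesis (I) of `S41Main.s41_of_nodes` at a given level `m` -/
def IharaAt (N q p : ℕ) [NeZero N] [NeZero (N * q)] [Fact p.Prime] (hq : q.Prime)
    (hqN : ¬ q ∣ N) (m : ℕ) : Prop :=
  ∀ l : Nat.Primes, ¬ (l : ℕ) ∣ N → (l : ℕ) ≡ 1 [MOD m] →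
    ∀ a b : Lam N,
      (∃ y : Lam (N * q), Deg.A1Lam N q a + (Deg.alData N q hq hqN).A2Lam b = (p : ℤ) • y) →
      (∃ z : Lam N, TLam N l a - (((l : ℕ) + 1 : ℕ) : ℤ) • a = (p : ℤ) • z) ∧
      (∃ z : Lam N, TLam N l b - (((l : ℕ) + 1 : ℕ) : ℤ) • b = (p : ℤ) • z)

/-- **(P5), skeleton**: hypothesis (I) of `S41Main.s41_of_nodes` for all `N`, all primes `q ∤ N` and
all odd primes `p ≠ q`, from the (P3) plugs and the (P4b) level. -/
theorem hIhara_all_of (N q p : ℕ) [NeZero N] [NeZero (N * q)] [Fact p.Prime]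
    (hq : q.Prime) (hqN : ¬ q ∣ N) (hp2 : p ≠ 2) (hpq : p ≠ q)
    (hOdd : ∀ m : ℕ, 0 < m → N ∣ m →
      cenMod (Ideal.span {(m : CSP.A q)}) = ⊤ → IharaAt N q p hq hqN m)
    (hEven : ∀ m : ℕ, 0 < m → N ∣ m → 2 ∣ N →
      (∀ t : CSP.A q, uR (2 * t) ∈ cenMod (Ideal.span {(m : CSP.A q)}) ∧
        lR (2 * t) ∈ cenMod (Ideal.span {(m : CSP.A q)})) → IharaAt N q p hq hqN m)
    (hCenEven : q ≠ 2 → 2 ∣ N → ∃ m : ℕ, 0 < m ∧ N ∣ m ∧
      ∀ t : CSP.A q, uR (2 * t) ∈ cenMod (Ideal.span {(m : CSP.A q)}) ∧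
        lR (2 * t) ∈ cenMod (Ideal.span {(m : CSP.A q)})) :
    ∃ m : ℕ, 0 < m ∧ IharaAt N q p hq hqN m := by
  have hN0 : N ≠ 0 := NeZero.ne N
  have hNpos : 0 < N := Nat.pos_of_ne_zero hN0
  have hNq : Nat.Coprime N q := (Nat.Coprime.symm ((Nat.Prime.coprime_iff_not_dvd hq).2 hqN))
  by_cases h2 : q = 2
  · -- `q = 2`: `N` is odd, level `N`
    subst h2
    exact ⟨N, hNpos, hOdd N hNpos dvd_rfl (CSPQ2.cenMod_zInv_two_eq_top N hN0 hNq)⟩
  · by_cases hN2 : 2 ∣ N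
    · -- `N` even, `q` odd: the level of (P4b)
      obtain ⟨m, hm, hNm, hcen2⟩ := hCenEven h2 hN2
      exact ⟨m, hm, hEven m hm hNm hN2 hcen2⟩
    · -- `N`, `q` odd: level `N`
      have hN2' : Nat.Coprime N 2 :=
        (Nat.Coprime.symm ((Nat.Prime.coprime_iff_not_dvd Nat.prime_two).2 hN2))
      exact ⟨N, hNpos, hOdd N hNpos dvd_rfl (CSPCenOdd.cenMod_odd q hq h2 N hN0 hN2' hNq)⟩

end Fermat.Agent.LR.IharaInvFinalOf
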