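import Mathlib
import Fermat.Agent.LR.HeckeInvTwo
import Fermat.Agent.LR.IharaInv
import Fermat.Agent.LR.IharaInvFinalOf
import Fermat.Agent.LR.CSPCenEven

/-!
# Program M (S41), bypass route: D3' plugged into node I

* `hD3_top`, `hD3_even` : the Hecke lemma D3' (`LR/HeckeInv`, `LR/HeckeInvTwo`) in the shape of the
  hypothesis `hD3` of `IharaInv.hIhara_of_cen_of_D3` / `IharaInv.hIhara_of_cen_even_of_D3`.
* `hIhara_of_cen`, `hIhara_of_cen_even` : node I at a level `m` from (Cen) at the level `m`.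
* `hIhara_all` : hypothesis (I) of `S41Main.s41_of_nodes` for all `N`, all primes `q ∤ N` and all odd
  primes `p ≠ q`, unconditionally.
-/

set_option autoImplicit false

namespace Fermat.Agent.LR.HeckeInvPlug

open Matrix CongruenceSubgroup
open Fermat.Agent.Jac Fermat.Agent.LR
open Fermat.Agent.LR.Gen Fermat.Agent.LR.SL2R
open Fermat.Agent.LR.Gamma0TwoGen
open scoped MatrixGroups

/-- `ZMod p` has no `4`-torsion for an odd prime `p`. -/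
theorem zmod_no_four_torsion (p : ℕ) [Fact p.Prime] (hp2 : p ≠ 2) :
    ∀ y : ZMod p, (4 : ℕ) • y = 0 → y = 0 := by
  intro y hy
  rw [nsmul_eq_mul] at hy
  rcases mul_eq_zero.mp hy with h | h
  · exfalso
    rw [ZMod.natCast_eq_zero_iff] at h
    have hp : p.Prime := Fact.out
    have h4 : (4 : ℕ) = 2 ^ 2 := by norm_num
    rw [h4] at h
    exact hp2 ((Nat.prime_dvd_prime_iff_eq hp Nat.prime_two).mp (hp.dvd_of_dvd_pow h))
  · exact h

theorem natCast_eq_one_of_modEq {l m : ℕ} (h : l ≡ 1 [MOD m]) : ((l : ℕ) : ZMod m) = 1 := by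
  have := (ZMod.natCast_eq_natCast_iff l 1 m).mpr h
  simpa using this

/-- D3' in the shape of the hypothesis `hD3` of `IharaInv.hIhara_of_cen_of_D3`. -/
theorem hD3_top (N m p : ℕ) [NeZero N] [Fact p.Prime] (hp2 : p ≠ 2) (hNm : N ∣ m) :
    ∀ l : Nat.Primes, ¬ (l : ℕ) ∣ N → (l : ℕ) ≡ 1 [MOD m] →
      ∀ x : Additive (Gamma0 N) →+ ZMod p, (∀ d : SL(2, ℤ), IharaInv.InvAt N m x d) →
        heckeTransfer N l (ZMod p) x = ((l : ℕ) + 1) • x := by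
  intro l hlN hlm x hx
  refine HeckeInv.heckeTransfer_eq_smul_of_invariant N hNm l hlN (natCast_eq_one_of_modEq hlm)
    (zmod_no_four_torsion p hp2) x ?_
  intro g γ γ' hγ h
  have h2 : g * (γ : SL(2, ℤ)) * g⁻¹ ∈ Gamma0 N := by rw [← h]; exact γ'.2
  have e : γ' = ⟨g * (γ : SL(2, ℤ)) * g⁻¹, h2⟩ := Subtype.ext h
  rw [e]
  exact hx g (γ : SL(2, ℤ)) hγ γ.2 h2

/-- D3' in the shape of the hypothesis `hD3` of `IharaInv.hIhara_of_cen_even_of_D3`. -/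
theorem hD3_even (N m p : ℕ) [NeZero N] [Fact p.Prime] (hp2 : p ≠ 2) (hNm : N ∣ m)
    (h2N : 2 ∣ N) :
    ∀ l : Nat.Primes, ¬ (l : ℕ) ∣ N → (l : ℕ) ≡ 1 [MOD m] →
      ∀ x : Additive (Gamma0 N) →+ ZMod p, (∀ d ∈ Gamma0 2, IharaInv.InvAt N m x d) →
        heckeTransfer N l (ZMod p) x = ((l : ℕ) + 1) • x := by
  intro l hlN hlm x hx
  refine HeckeInvTwo.heckeTransfer_eq_smul_of_lZ_two_invariant N h2N hNm l hlN
    (natCast_eq_one_of_modEq hlm) (zmod_no_four_torsion p hp2) x ?_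
  intro γ γ' hγ h
  have h2 : lZ 2 * (γ : SL(2, ℤ)) * (lZ 2)⁻¹ ∈ Gamma0 N := by rw [← h]; exact γ'.2
  have e : γ' = ⟨lZ 2 * (γ : SL(2, ℤ)) * (lZ 2)⁻¹, h2⟩ := Subtype.ext h
  rw [e]
  exact hx (lZ 2) (lZ_mem_Gamma0 (by norm_num)) (γ : SL(2, ℤ)) hγ γ.2 h2

/-- **Node I from (Cen) at the level `m`** (`cenMod (m) = ⊤`). -/
theorem hIhara_of_cen (N q p : ℕ) [NeZero N] [NeZero (N * q)] [Fact p.Prime]
    (hq : q.Prime) (hqN : ¬ q ∣ N) (hp2 : p ≠ 2) (hpq : p ≠ q) (m : ℕ) (hNm : N ∣ m)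
    (hcen : cenMod (Ideal.span {(m : CSP.A q)}) = ⊤) :
    IharaInvFinalOf.IharaAt N q p hq hqN m :=
  IharaInv.hIhara_of_cen_of_D3 N q p m hq hqN hpq hNm hcen (hD3_top N m p hp2 hNm)

/-- **Node I from (Cen)(ii) at an even level `m`** (`u(2t), l(2t) ∈ cenMod (m)`, `2 ∣ N`). -/
theorem hIhara_of_cen_even (N q p : ℕ) [NeZero N] [NeZero (N * q)] [Fact p.Prime]
    (hq : q.Prime) (hqN : ¬ q ∣ N) (hp2 : p ≠ 2) (hpq : p ≠ q) (m : ℕ) (hNm : N ∣ m)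
    (h2N : 2 ∣ N)
    (hcen2 : ∀ t : CSP.A q, uR (2 * t) ∈ cenMod (Ideal.span {(m : CSP.A q)}) ∧
      lR (2 * t) ∈ cenMod (Ideal.span {(m : CSP.A q)})) :
    IharaInvFinalOf.IharaAt N q p hq hqN m :=
  IharaInv.hIhara_of_cen_even_of_D3 N q p m hq hqN hpq hNm hcen2 (hD3_even N m p hp2 hNm h2N)

/-- **Hypothesis (I) of `S41Main.s41_of_nodes`, unconditionally** (bypass route: (Cen) at one
level and the Hecke lemma D3' instead of the congruence subgroup property). -/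
theorem hIhara_all (N q p : ℕ) [NeZero N] [NeZero (N * q)] [Fact p.Prime]
    (hq : q.Prime) (hqN : ¬ q ∣ N) (hp2 : p ≠ 2) (hpq : p ≠ q) :
    ∃ m : ℕ, 0 < m ∧
      ∀ l : Nat.Primes, ¬ (l : ℕ) ∣ N → (l : ℕ) ≡ 1 [MOD m] →
        ∀ a b : Lam N,
          (∃ y : Lam (N * q), Deg.A1Lam N q a + (Deg.alData N q hq hqN).A2Lam b = (p : ℤ) • y) →
          (∃ z : Lam N, TLam N l a - (((l : ℕ) + 1 : ℕ) : ℤ) • a = (p : ℤ) • z) ∧
          (∃ z : Lam N, TLam N l b - (((l : ℕ) + 1 : ℕ) : ℤ) • b = (p : ℤ) • z) := by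
  refine IharaInvFinalOf.hIhara_all_of N q p hq hqN hp2 hpq
    (fun m _ hNm hcen => hIhara_of_cen N q p hq hqN hp2 hpq m hNm hcen)
    (fun m _ hNm h2N hcen2 => hIhara_of_cen_even N q p hq hqN hp2 hpq m hNm h2N hcen2) ?_
  intro hq2 _
  have hNq : Nat.Coprime N q := (Nat.Coprime.symm ((Nat.Prime.coprime_iff_not_dvd hq).2 hqN))
  obtain ⟨m, hm, hNm, -, -, -, hu, hl⟩ :=
    CSPCenEven.exists_level_cen_two q hq hq2 N (NeZero.ne N) hNq
  exact ⟨m, Nat.pos_of_ne_zero hm, hNm, fun t => ⟨hu t, hl t⟩⟩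

end Fermat.Agent.LR.HeckeInvPlug
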