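/-
Program M, bypass (P3 input, helper20): the amalgam extension `φ` of a compatible parabolic pair
`(x, y)` of homomorphisms `Γ₀(N) → 𝔽_p`, and conjugation invariance of `x`, `y` on `Γ(m)`
(`N ∣ m`) from the centrality statement `SL2R.cenMod (m) = ⊤` for `ℤ[1/q]`.
-/
import Mathlib
import Fermat.Agent.LR.IharaPar
import Fermat.Agent.LR.CSPInvQ

set_option autoImplicit false

namespace Fermat.Agent.LR.IharaInvCore

open Matrix CongruenceSubgroup ModularCurve.Period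
open Fermat.Agent.LR.Gen Fermat.Agent.LR.Amalgam Fermat.Agent.LR.Ihara Fermat.Agent.LR.IharaGroup
open Fermat.Agent.LR.IharaPar Fermat.Agent.LR.SL2R Fermat.Agent.LR.CSP
open scoped MatrixGroups

variable {N q p : ℕ}

/-- The amalgam extension of a compatible pair whose first component is parabolic: a character of
`Γ₀(N)[1/q]` killing all unipotent elements. -/
theorem exists_extension (hq : q.Prime) (hqN : ¬ q ∣ N) (hp : p.Prime) (hpq : p ≠ q)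
    (x y : Additive (Gamma0 N) →+ ZMod p) (hxpar : IsParabolicHom (Gamma0 N) x)
    (hcompat : ∀ (γ : Gamma0 (N * q)) (γ₁ γ₂ : Gamma0 N), (γ₁ : SL(2, ℤ)) = (γ : SL(2, ℤ)) →
      IsConjDelta q (γ : SL(2, ℤ)) (γ₂ : SL(2, ℤ)) →
        x (Additive.ofMul γ₁) + y (Additive.ofMul γ₂) = 0) :
    ∃ φ : ↥(gamma0Loc N q) →* Multiplicative (ZMod p),
      (∀ γ : Gamma0 N, φ ⟨castSL γ, castSL_mem q γ⟩ = Multiplicative.ofAdd (x (Additive.ofMul γ))) ∧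
      (∀ γ : Gamma0 N, φ ⟨conjD (q : ℚ) (Nat.cast_ne_zero.2 hq.ne_zero) (castSL γ),
        conjD_castSL_mem hq.ne_zero γ⟩ = Multiplicative.ofAdd ((-y) (Additive.ofMul γ))) ∧
      (∀ g : ↥(gamma0Loc N q), IsUnip (g : SL(2, ℚ)) → φ g = 1) := by
  have hq0 : (q : ℚ) ≠ 0 := Nat.cast_ne_zero.2 hq.ne_zero
  have hxy : ∀ γ η : Gamma0 N,
      castSL (γ : SL(2, ℤ)) = conjD (q : ℚ) (Nat.cast_ne_zero.2 hq.ne_zero) (castSL η) →
        x (Additive.ofMul γ) = (-y) (Additive.ofMul η) := by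
    intro γ η hγη
    have hent : ∀ i j, (castSL (γ : SL(2, ℤ)) : Matrix (Fin 2) (Fin 2) ℚ) i j =
        (conjD (q : ℚ) hq0 (castSL η) : Matrix (Fin 2) (Fin 2) ℚ) i j := fun i j => by rw [hγη]
    have e00 := hent 0 0
    have e01 := hent 0 1
    have e10 := hent 1 0
    have e11 := hent 1 1
    rw [conjD_apply] at e00 e01 e10 e11
    simp only [castSL_apply, Matrix.of_apply, Matrix.cons_val', Matrix.cons_val_zero,
      Matrix.cons_val_one] at e00 e01 e10 e11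
    have f00 : (η : SL(2, ℤ)) 0 0 = (γ : SL(2, ℤ)) 0 0 := by exact_mod_cast e00.symm
    have f11 : (η : SL(2, ℤ)) 1 1 = (γ : SL(2, ℤ)) 1 1 := by exact_mod_cast e11.symm
    have f01 : (η : SL(2, ℤ)) 0 1 = (q : ℤ) * (γ : SL(2, ℤ)) 0 1 := by
      have : (((η : SL(2, ℤ)) 0 1 : ℤ) : ℚ) = (q : ℚ) * (((γ : SL(2, ℤ)) 0 1 : ℤ) : ℚ) := by
        rw [e01]; field_simp
      exact_mod_cast this
    have f10 : (q : ℤ) * (η : SL(2, ℤ)) 1 0 = (γ : SL(2, ℤ)) 1 0 := by exact_mod_cast e10.symm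
    have hη := η.2
    rw [Gamma0_mem] at hη
    obtain ⟨t, ht⟩ := (ZMod.intCast_zmod_eq_zero_iff_dvd _ _).1 hη
    have hγ' : (γ : SL(2, ℤ)) ∈ Gamma0 (N * q) := by
      rw [Gamma0_mem]
      refine (ZMod.intCast_zmod_eq_zero_iff_dvd _ _).2 ⟨t, ?_⟩
      rw [← f10, ht]; push_cast; ring
    have := hcompat ⟨(γ : SL(2, ℤ)), hγ'⟩ γ η rfl ⟨f00, f01, f10, f11⟩
    rw [AddMonoidHom.neg_apply]
    exact eq_neg_of_add_eq_zero_left this
  obtain ⟨φ, ⟨hφx, hφy⟩, -⟩ := exists_unique_extension hq hqN x (-y) hxy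
  exact ⟨φ, hφx, hφy, extension_kills_unip hq hp hpq x hxpar φ hφx⟩

/-- `castSL d` has entries in `ℤ[1/q]`. -/
theorem castSL_mem_one (q : ℕ) (d : SL(2, ℤ)) : castSL d ∈ gamma0Loc 1 q :=
  ⟨fun i j => intCast_mem_zInv q _, castSL d 1 0, intCast_mem_zInv q _, by simp⟩

/-- `δ⁻¹ (castSL d) δ` has entries in `ℤ[1/q]`. -/
theorem conjD_castSL_mem_one (hq0 : (q : ℚ) ≠ 0) (d : SL(2, ℤ)) :
    conjD (q : ℚ) hq0 (castSL d) ∈ gamma0Loc 1 q := by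
  have hqz : (q : ℚ) ∈ zInv q := by exact_mod_cast intCast_mem_zInv q (q : ℤ)
  have h10 : (q : ℚ) * ((d 1 0 : ℤ) : ℚ) ∈ zInv q := (zInv q).mul_mem hqz (intCast_mem_zInv q _)
  refine ⟨fun i j => ?_, (q : ℚ) * ((d 1 0 : ℤ) : ℚ), h10, ?_⟩
  · rw [conjD_apply]
    fin_cases i <;> fin_cases j
    · exact intCast_mem_zInv q _
    · show ((d 0 1 : ℤ) : ℚ) / (q : ℚ) ∈ zInv q
      rw [div_eq_mul_inv]
      exact (zInv q).mul_mem (intCast_mem_zInv q _) (inv_mem_zInv q)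
    · exact h10
    · exact intCast_mem_zInv q _
  · rw [conjD_apply]
    simp

/-- **Invariance of `x` and `y` on `Γ(m)` under conjugation by `d ∈ SL(2, ℤ)`**, provided `castSL d`
and `δ⁻¹ (castSL d) δ` come from elements of `cenMod (m)`. -/
theorem pair_inv_of_mem_cenMod {m : ℕ} (hq : q.Prime) (hqN : ¬ q ∣ N) (hp : p.Prime) (hpq : p ≠ q)
    (hNm : N ∣ m)
    (x y : Additive (Gamma0 N) →+ ZMod p) (hxpar : IsParabolicHom (Gamma0 N) x)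
    (hcompat : ∀ (γ : Gamma0 (N * q)) (γ₁ γ₂ : Gamma0 N), (γ₁ : SL(2, ℤ)) = (γ : SL(2, ℤ)) →
      IsConjDelta q (γ : SL(2, ℤ)) (γ₂ : SL(2, ℤ)) →
        x (Additive.ofMul γ₁) + y (Additive.ofMul γ₂) = 0)
    (d : SL(2, ℤ)) (γ₁' γ₂' : SL(2, A q))
    (h1 : γ₁' ∈ cenMod (Ideal.span {(m : A q)})) (h1' : toQ q γ₁' = castSL d)
    (h2 : γ₂' ∈ cenMod (Ideal.span {(m : A q)}))
    (h2' : toQ q γ₂' = conjD (q : ℚ) (Nat.cast_ne_zero.2 hq.ne_zero) (castSL d))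
    (k k' : Gamma0 N) (hk : (k : SL(2, ℤ)) ∈ Gamma m)
    (hk' : (k' : SL(2, ℤ)) = d * (k : SL(2, ℤ)) * d⁻¹) :
    x (Additive.ofMul k') = x (Additive.ofMul k) ∧ y (Additive.ofMul k') = y (Additive.ofMul k) := by
  have hq0 : (q : ℚ) ≠ 0 := Nat.cast_ne_zero.2 hq.ne_zero
  obtain ⟨φ, hφx, hφy, hφu⟩ := exists_extension hq hqN hp hpq x y hxpar hcompat
  constructor
  · have hcong : IsCongOne q m (castSL (k : SL(2, ℤ))) := isCongOne_castSL hk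
    have := CSPInvQ.map_conj_eq_of_mem_cenMod hNm φ hφu h1 hcong
    have e1 : (⟨toQ q γ₁' * castSL (k : SL(2, ℤ)) * (toQ q γ₁')⁻¹,
        CSPInvQ.mem_gamma0Loc_of_isCongOne hNm
          (CSPInvQ.isCongOne_conj (toQ_mem_gamma0Loc_one γ₁') hcong)⟩ : ↥(gamma0Loc N q)) =
        ⟨castSL (k' : SL(2, ℤ)), castSL_mem q k'⟩ := by
      apply Subtype.ext
      show toQ q γ₁' * castSL (k : SL(2, ℤ)) * (toQ q γ₁')⁻¹ = castSL (k' : SL(2, ℤ))
      rw [h1', hk', map_mul, map_mul, map_inv]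
    have e2 : (⟨castSL (k : SL(2, ℤ)), CSPInvQ.mem_gamma0Loc_of_isCongOne hNm hcong⟩ :
        ↥(gamma0Loc N q)) = ⟨castSL (k : SL(2, ℤ)), castSL_mem q k⟩ := rfl
    rw [e1, e2, hφx, hφx] at this
    exact Multiplicative.ofAdd.injective this
  · have hcong : IsCongOne q m (conjD (q : ℚ) hq0 (castSL (k : SL(2, ℤ)))) :=
      isCongOne_conjD_castSL hq0 hk
    have := CSPInvQ.map_conj_eq_of_mem_cenMod hNm φ hφu h2 hcong
    have e1 : (⟨toQ q γ₂' * conjD (q : ℚ) hq0 (castSL (k : SL(2, ℤ))) * (toQ q γ₂')⁻¹,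
        CSPInvQ.mem_gamma0Loc_of_isCongOne hNm
          (CSPInvQ.isCongOne_conj (toQ_mem_gamma0Loc_one γ₂') hcong)⟩ : ↥(gamma0Loc N q)) =
        ⟨conjD (q : ℚ) hq0 (castSL (k' : SL(2, ℤ))), conjD_castSL_mem hq.ne_zero k'⟩ := by
      apply Subtype.ext
      show toQ q γ₂' * conjD (q : ℚ) hq0 (castSL (k : SL(2, ℤ))) * (toQ q γ₂')⁻¹ =
        conjD (q : ℚ) hq0 (castSL (k' : SL(2, ℤ)))
      rw [h2', hk', map_mul, map_mul, map_inv, map_mul, map_mul, map_inv]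
    have e2 : (⟨conjD (q : ℚ) hq0 (castSL (k : SL(2, ℤ))),
        CSPInvQ.mem_gamma0Loc_of_isCongOne hNm hcong⟩ : ↥(gamma0Loc N q)) =
        ⟨conjD (q : ℚ) hq0 (castSL (k : SL(2, ℤ))), conjD_castSL_mem hq.ne_zero k⟩ := rfl
    rw [e1, e2, hφy, hφy] at this
    have h3 := Multiplicative.ofAdd.injective this
    rw [AddMonoidHom.neg_apply, AddMonoidHom.neg_apply] at h3
    exact neg_injective h3

/-- **Invariance of `x` and `y` on `Γ(m)` under all of `SL(2, ℤ)` when `cenMod (m) = ⊤`.** -/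
theorem pair_inv_of_cen {m : ℕ} (hq : q.Prime) (hqN : ¬ q ∣ N) (hp : p.Prime) (hpq : p ≠ q)
    (hNm : N ∣ m) (hcen : cenMod (Ideal.span {(m : A q)}) = ⊤)
    (x y : Additive (Gamma0 N) →+ ZMod p) (hxpar : IsParabolicHom (Gamma0 N) x)
    (hcompat : ∀ (γ : Gamma0 (N * q)) (γ₁ γ₂ : Gamma0 N), (γ₁ : SL(2, ℤ)) = (γ : SL(2, ℤ)) →
      IsConjDelta q (γ : SL(2, ℤ)) (γ₂ : SL(2, ℤ)) →
        x (Additive.ofMul γ₁) + y (Additive.ofMul γ₂) = 0)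
    (d : SL(2, ℤ)) (k k' : Gamma0 N) (hk : (k : SL(2, ℤ)) ∈ Gamma m)
    (hk' : (k' : SL(2, ℤ)) = d * (k : SL(2, ℤ)) * d⁻¹) :
    x (Additive.ofMul k') = x (Additive.ofMul k) ∧ y (Additive.ofMul k') = y (Additive.ofMul k) := by
  have hq0 : (q : ℚ) ≠ 0 := Nat.cast_ne_zero.2 hq.ne_zero
  obtain ⟨γ₁', h1'⟩ := CSPInvQ.exists_of_mem_gamma0Loc_one (castSL_mem_one q d)
  obtain ⟨γ₂', h2'⟩ := CSPInvQ.exists_of_mem_gamma0Loc_one (conjD_castSL_mem_one hq0 d)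
  exact pair_inv_of_mem_cenMod hq hqN hp hpq hNm x y hxpar hcompat d γ₁' γ₂'
    (by rw [hcen]; exact Subgroup.mem_top _) h1' (by rw [hcen]; exact Subgroup.mem_top _) h2'
    k k' hk hk'

/-- **Even levels: invariance of `x` and `y` on `Γ(m)` under a lower unipotent `d = l(2c)`**, from
Claim J at level `m` alone (Corollary U). -/
theorem pair_inv_lower_even {m : ℕ} (hq : q.Prime) (hqN : ¬ q ∣ N) (hp : p.Prime) (hpq : p ≠ q)
    (hNm : N ∣ m)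
    (hJ : ∀ g ∈ Gam (Ideal.span {(m : A q)}),
      conjDiag (-1) g * g⁻¹ ∈ EC (Ideal.span {(m : A q)}))
    (x y : Additive (Gamma0 N) →+ ZMod p) (hxpar : IsParabolicHom (Gamma0 N) x)
    (hcompat : ∀ (γ : Gamma0 (N * q)) (γ₁ γ₂ : Gamma0 N), (γ₁ : SL(2, ℤ)) = (γ : SL(2, ℤ)) →
      IsConjDelta q (γ : SL(2, ℤ)) (γ₂ : SL(2, ℤ)) →
        x (Additive.ofMul γ₁) + y (Additive.ofMul γ₂) = 0)
    (d : SL(2, ℤ)) (c : ℤ) (hd00 : d 0 0 = 1) (hd01 : d 0 1 = 0) (hd10 : d 1 0 = 2 * c)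
    (hd11 : d 1 1 = 1)
    (k k' : Gamma0 N) (hk : (k : SL(2, ℤ)) ∈ Gamma m)
    (hk' : (k' : SL(2, ℤ)) = d * (k : SL(2, ℤ)) * d⁻¹) :
    x (Additive.ofMul k') = x (Additive.ofMul k) ∧ y (Additive.ofMul k') = y (Additive.ofMul k) := by
  have hq0 : (q : ℚ) ≠ 0 := Nat.cast_ne_zero.2 hq.ne_zero
  refine pair_inv_of_mem_cenMod hq hqN hp hpq hNm x y hxpar hcompat d
    (lR (2 * (c : A q))) (lR (2 * ((q : A q) * (c : A q))))
    (lR_two_mul_mem_cenMod hJ _) ?_ (lR_two_mul_mem_cenMod hJ _) ?_ k k' hk hk'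
  · have h2 : (((2 : A q)) : ℚ) = 2 := rfl
    ext i j
    fin_cases i <;> fin_cases j <;> simp [hd00, hd01, hd10, hd11, h2]
  · have h2 : (((2 : A q)) : ℚ) = 2 := rfl
    ext i j
    rw [conjD_apply]
    fin_cases i <;> fin_cases j <;> simp [hd00, hd01, hd10, hd11, h2]
    ring

end Fermat.Agent.LR.IharaInvCore
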