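/-
Program M (S41), bypass route (finding 521), glue between (P1) and (P5) (helper19).

* `iharaAt_of_transfer` : hypothesis (I) of `S41Main.s41_of_nodes` at a level `m`
  (`IharaInvFinalOf.IharaAt`) from the statement "both components of every compatible pair are
  eigenvectors of `T_l` with eigenvalue `l + 1`, for all primes `l ∤ N`, `l ≡ 1 mod m`"
  (the tail of `IharaPar.exists_level_par`, with a fixed level).
* `iharaAt_of_cen_of_D3` : the level-`m` statement from `cenMod (m) = ⊤` (helper20's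
  `IharaInvCore.pair_inv_of_cen`) with Lemma D3' (helper14's `HeckeInv`, full invariance form) as a
  hypothesis.
* `iharaAt_of_claimJ_of_D3` : the same from Claim J at level `m` (even levels; helper20's
  `IharaInvCore.pair_inv_lower_even` with `d = l(2)`), with the `Γ₀(2)`-form of D3' (invariance
  under `l(2)` only) as a hypothesis.
-/
import Mathlib
import Fermat.Agent.LR.IharaInvFinalOf
import Fermat.Agent.LR.IharaInvCore
import Fermat.Agent.LR.CSPCenEven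
import Fermat.Agent.LR.Gamma0TwoGen

set_option autoImplicit false
set_option linter.style.haveILetI false
set_option linter.unusedSimpArgs false
set_option linter.unusedSectionVars false
set_option linter.unusedVariables false

namespace Fermat.Agent.LR.IharaInvGlue

open Matrix CongruenceSubgroup ModularCurve.Period
open Fermat.Agent.Jac Fermat.Agent.LR
open Fermat.Agent.LR.Gen Fermat.Agent.LR.Amalgam Fermat.Agent.LR.Ihara Fermat.Agent.LR.IharaGroup
open Fermat.Agent.LR.CongEis Fermat.Agent.LR.IharaInvFinalOf Fermat.Agent.LR.SL2R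
open scoped MatrixGroups

/-- **Node I from an eigen-statement for compatible pairs**: if for every prime `l ∤ N`,
`l ≡ 1 mod m`, both components of every compatible pair (first component parabolic) are
eigenvectors of `T_l` with eigenvalue `l + 1`, then hypothesis (I) holds at level `m`. -/
theorem iharaAt_of_transfer (N q p : ℕ) [NeZero N] [NeZero (N * q)] [Fact p.Prime]
    (hq : q.Prime) (hqN : ¬ q ∣ N) (m : ℕ)
    (hT : ∀ l : Nat.Primes, ¬ (l : ℕ) ∣ N → (l : ℕ) ≡ 1 [MOD m] →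
      ∀ x y : Additive (Gamma0 N) →+ ZMod p, IsParabolicHom (Gamma0 N) x →
        (∀ (γ : Gamma0 (N * q)) (γ₁ γ₂ : Gamma0 N), (γ₁ : SL(2, ℤ)) = (γ : SL(2, ℤ)) →
          IsConjDelta q (γ : SL(2, ℤ)) (γ₂ : SL(2, ℤ)) →
            x (Additive.ofMul γ₁) + y (Additive.ofMul γ₂) = 0) →
        heckeTransfer N l (ZMod p) x = ((l : ℕ) + 1) • x ∧
          heckeTransfer N l (ZMod p) y = ((l : ℕ) + 1) • y) :
    IharaAt N q p hq hqN m := by
  intro l hlN hlm a b ⟨y, hy⟩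
  haveI : NeZero q := ⟨hq.ne_zero⟩
  -- reductions mod p
  let π : ℤ →+ ZMod p := Int.castAddHom (ZMod p)
  have hpar : IsParabolicHom (Gamma0 N) (π.comp (a : Additive (Gamma0 N) →+ ℤ)) := by
    intro γ hγ
    show π ((a : Additive (Gamma0 N) →+ ℤ) (Additive.ofMul γ)) = 0
    rw [a.2 γ hγ, map_zero]
  have hcompat : ∀ (γ : Gamma0 (N * q)) (γ₁ γ₂ : Gamma0 N), (γ₁ : SL(2, ℤ)) = (γ : SL(2, ℤ)) →
      IsConjDelta q (γ : SL(2, ℤ)) (γ₂ : SL(2, ℤ)) →
        (π.comp (a : Additive (Gamma0 N) →+ ℤ)) (Additive.ofMul γ₁) +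
          (π.comp (b : Additive (Gamma0 N) →+ ℤ)) (Additive.ofMul γ₂) = 0 := by
    intro γ γ₁ γ₂ h1 h2
    have e1 := Deg.A1Lam_apply_of_coe_eq a γ γ₁ h1
    have e2 : (((Deg.alData N q hq hqN).A2Lam b : Lam (N * q)) :
        Additive (Gamma0 (N * q)) →+ ℤ) (Additive.ofMul γ) =
        (b : Additive (Gamma0 N) →+ ℤ) (Additive.ofMul γ₂) := by
      rw [Deg.alData_eq]
      exact Deg.ALData.ofBez_A2Lam_apply_of_conj (Deg.bez N q hq hqN) b γ γ₂ h2
    have e3 := congrArg (fun c : Lam (N * q) =>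
      (c : Additive (Gamma0 (N * q)) →+ ℤ) (Additive.ofMul γ)) hy
    simp only [Submodule.coe_add, AddMonoidHom.add_apply, Submodule.coe_smul,
      AddMonoidHom.coe_smul, Pi.smul_apply, smul_eq_mul] at e3
    rw [e1, e2] at e3
    show π _ + π _ = 0
    rw [← map_add, e3]
    simp [π]
  obtain ⟨hTa, hTb⟩ := hT l hlN hlm _ _ hpar hcompat
  have key : ∀ (c : Lam N),
      heckeTransfer N l (ZMod p) (π.comp (c : Additive (Gamma0 N) →+ ℤ)) =
        ((l : ℕ) + 1) • (π.comp (c : Additive (Gamma0 N) →+ ℤ)) →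
      ∃ z : Lam N, TLam N l c - (((l : ℕ) + 1 : ℕ) : ℤ) • c = (p : ℤ) • z := by
    intro c h1
    apply exists_eq_smul_of_forall_dvd
    intro γ
    rw [heckeTransfer_comp] at h1
    have h2 := congrArg (fun φ : Additive (Gamma0 N) →+ ZMod p => φ (Additive.ofMul γ)) h1
    simp only [AddMonoidHom.comp_apply, AddMonoidHom.coe_smul, Pi.smul_apply] at h2
    rw [← ZMod.intCast_zmod_eq_zero_iff_dvd]
    simp only [Submodule.coe_sub, AddMonoidHom.sub_apply, Submodule.coe_smul,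
      AddMonoidHom.coe_smul, Pi.smul_apply, smul_eq_mul, coe_TLam_apply]
    push_cast
    have h3 : π ((heckeTransfer N l ℤ (c : Additive (Gamma0 N) →+ ℤ)) (Additive.ofMul γ)) =
        (((heckeTransfer N l ℤ (c : Additive (Gamma0 N) →+ ℤ)) (Additive.ofMul γ) : ℤ) : ZMod p) :=
      rfl
    have h4 : π ((c : Additive (Gamma0 N) →+ ℤ) (Additive.ofMul γ)) =
        (((c : Additive (Gamma0 N) →+ ℤ) (Additive.ofMul γ) : ℤ) : ZMod p) := rfl
    rw [h3, h4] at h2
    rw [h2]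
    simp [nsmul_eq_mul]
  exact ⟨key a hTa, key b hTb⟩

/-- `ZMod p`, `p` an odd prime, has no `4`-torsion -/
theorem zmod_four_nsmul {p : ℕ} [Fact p.Prime] (hp2 : p ≠ 2) (y : ZMod p) (h : (4 : ℕ) • y = 0) :
    y = 0 := by
  rw [nsmul_eq_mul] at h
  rcases mul_eq_zero.mp h with h4 | h0
  · exfalso
    have h4' : ((4 : ℕ) : ZMod p) = 0 := h4
    rw [ZMod.natCast_eq_zero_iff] at h4'
    have hp : p.Prime := Fact.out
    have h22 : (4 : ℕ) = 2 ^ 2 := by norm_num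
    rw [h22] at h4'
    have := hp.dvd_of_dvd_pow h4'
    exact hp2 ((Nat.prime_dvd_prime_iff_eq hp Nat.prime_two).mp this)
  · exact h0

/-- `l ≡ 1 mod m` in `ZMod m` form -/
theorem natCast_eq_one_of_modEq {l m : ℕ} (h : l ≡ 1 [MOD m]) : ((l : ℕ) : ZMod m) = 1 := by
  have := (ZMod.natCast_eq_natCast_iff _ _ _).mpr h
  simpa using this

section Plug

variable (N q p : ℕ) [NeZero N] [NeZero (N * q)] [Fact p.Prime]

/-- **(P3) plug, full invariance**: hypothesis (I) at a level `m` with `cenMod (m) = ⊤`, with D3' as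
a hypothesis. -/
theorem iharaAt_of_cen_of_D3 (hq : q.Prime) (hqN : ¬ q ∣ N) (hp2 : p ≠ 2) (hpq : p ≠ q)
    (m : ℕ) (hNm : N ∣ m) (hcen : cenMod (Ideal.span {(m : CSP.A q)}) = ⊤)
    (hD3 : ∀ (l : Nat.Primes) (hlN : ¬ (l : ℕ) ∣ N) (hlm : ((l : ℕ) : ZMod m) = 1)
      (x : Additive (Gamma0 N) →+ ZMod p)
      (hinv : ∀ (g : SL(2, ℤ)) (γ γ' : Gamma0 N), (γ : SL(2, ℤ)) ∈ Gamma m →
        (γ' : SL(2, ℤ)) = g * γ * g⁻¹ → x (Additive.ofMul γ') = x (Additive.ofMul γ)),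
      heckeTransfer N l (ZMod p) x = ((l : ℕ) + 1) • x) :
    IharaAt N q p hq hqN m := by
  have hp : p.Prime := Fact.out
  refine iharaAt_of_transfer N q p hq hqN m (fun l hlN hlm x y hxpar hcompat => ⟨?_, ?_⟩)
  · exact hD3 l hlN (natCast_eq_one_of_modEq hlm) x (fun g γ γ' hγ hγ' =>
      (IharaInvCore.pair_inv_of_cen hq hqN hp hpq hNm hcen x y hxpar hcompat g γ γ' hγ hγ').1)
  · exact hD3 l hlN (natCast_eq_one_of_modEq hlm) y (fun g γ γ' hγ hγ' =>
      (IharaInvCore.pair_inv_of_cen hq hqN hp hpq hNm hcen x y hxpar hcompat g γ γ' hγ hγ').2)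

/-- **(P3) plug, even levels**: hypothesis (I) at a level `m` at which Claim J holds, with the
`Γ₀(2)`-form of D3' as a hypothesis. -/
theorem iharaAt_of_claimJ_of_D3 (hq : q.Prime) (hqN : ¬ q ∣ N) (hp2 : p ≠ 2) (hpq : p ≠ q)
    (m : ℕ) (hNm : N ∣ m)
    (hJ : ∀ g ∈ Gam (Ideal.span {(m : CSP.A q)}),
      conjDiag (-1) g * g⁻¹ ∈ EC (Ideal.span {(m : CSP.A q)}))
    (hD3 : ∀ (l : Nat.Primes) (hlN : ¬ (l : ℕ) ∣ N) (hlm : ((l : ℕ) : ZMod m) = 1)
      (x : Additive (Gamma0 N) →+ ZMod p)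
      (hinv : ∀ (γ γ' : Gamma0 N), (γ : SL(2, ℤ)) ∈ Gamma m →
        (γ' : SL(2, ℤ)) = Gamma0TwoGen.lZ 2 * γ * (Gamma0TwoGen.lZ 2)⁻¹ →
          x (Additive.ofMul γ') = x (Additive.ofMul γ)),
      heckeTransfer N l (ZMod p) x = ((l : ℕ) + 1) • x) :
    IharaAt N q p hq hqN m := by
  have hp : p.Prime := Fact.out
  have hl : ∀ (x y : Additive (Gamma0 N) →+ ZMod p), IsParabolicHom (Gamma0 N) x →
      (∀ (γ : Gamma0 (N * q)) (γ₁ γ₂ : Gamma0 N), (γ₁ : SL(2, ℤ)) = (γ : SL(2, ℤ)) →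
        IsConjDelta q (γ : SL(2, ℤ)) (γ₂ : SL(2, ℤ)) →
          x (Additive.ofMul γ₁) + y (Additive.ofMul γ₂) = 0) →
      ∀ (γ γ' : Gamma0 N), (γ : SL(2, ℤ)) ∈ Gamma m →
        (γ' : SL(2, ℤ)) = Gamma0TwoGen.lZ 2 * γ * (Gamma0TwoGen.lZ 2)⁻¹ →
        x (Additive.ofMul γ') = x (Additive.ofMul γ) ∧
          y (Additive.ofMul γ') = y (Additive.ofMul γ) := by
    intro x y hxpar hcompat γ γ' hγ hγ'
    exact IharaInvCore.pair_inv_lower_even hq hqN hp hpq hNm hJ x y hxpar hcompat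
      (Gamma0TwoGen.lZ 2) 1 (by simp [Gamma0TwoGen.lZ]) (by simp [Gamma0TwoGen.lZ])
      (by simp [Gamma0TwoGen.lZ]) (by simp [Gamma0TwoGen.lZ]) γ γ' hγ hγ'
  refine iharaAt_of_transfer N q p hq hqN m (fun l hlN hlm x y hxpar hcompat => ⟨?_, ?_⟩)
  · exact hD3 l hlN (natCast_eq_one_of_modEq hlm) x (fun γ γ' hγ hγ' =>
      (hl x y hxpar hcompat γ γ' hγ hγ').1)
  · exact hD3 l hlN (natCast_eq_one_of_modEq hlm) y (fun γ γ' hγ hγ' =>
      (hl x y hxpar hcompat γ γ' hγ hγ').2)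

end Plug

end Fermat.Agent.LR.IharaInvGlue
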