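/-
Program M (S41), bypass route (finding 521), piece (P5) (helper19): **hypothesis (I) of
`S41Main.s41_of_nodes`, unconditionally**, for every level `N`, every prime `q ∤ N` and every odd
prime `p ≠ q`.

Inputs (all on main):
* Lemma D3' (helper14): `HeckeInv.heckeTransfer_eq_smul_of_invariant` (invariance under
  `SL(2, ℤ)`), `HeckeInvTwo.heckeTransfer_eq_smul_of_lZ_two_invariant` (`2 ∣ N`, invariance under
  `l(2)`);
* invariance of compatible pairs from (Cen) (helper20): `IharaInvCore`, through `IharaInvGlue`;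
* (Cen) at one level: `CSPCenOdd.cenMod_odd` (`q`, `N` odd; helper1/helper20),
  `CSPQ2.cenMod_zInv_two_eq_top` (`q = 2`), `CSPCenEven.exists_level_cen_two` (`N` even, `q` odd;
  helper21).
-/
import Mathlib
import Fermat.Agent.LR.IharaInvFinalOf
import Fermat.Agent.LR.IharaInvGlue
import Fermat.Agent.LR.HeckeInv
import Fermat.Agent.LR.HeckeInvTwo
import Fermat.Agent.LR.CSPCenEven

set_option autoImplicit false
set_option linter.unusedSectionVars false
set_option linter.unusedVariables false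

namespace Fermat.Agent.LR.IharaInvFinal

open Matrix CongruenceSubgroup
open Fermat.Agent.Jac Fermat.Agent.LR
open Fermat.Agent.LR.Gen Fermat.Agent.LR.SL2R
open Fermat.Agent.LR.IharaInvFinalOf Fermat.Agent.LR.IharaInvGlue
open scoped MatrixGroups

/-- hypothesis (I) at a level `m` with `cenMod (m) = ⊤` -/
theorem iharaAt_of_cen (N q p : ℕ) [NeZero N] [NeZero (N * q)] [Fact p.Prime]
    (hq : q.Prime) (hqN : ¬ q ∣ N) (hp2 : p ≠ 2) (hpq : p ≠ q) (m : ℕ) (hNm : N ∣ m)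
    (hcen : cenMod (Ideal.span {(m : CSP.A q)}) = ⊤) : IharaAt N q p hq hqN m :=
  iharaAt_of_cen_of_D3 N q p hq hqN hp2 hpq m hNm hcen (fun l hlN hlm x hinv =>
    HeckeInv.heckeTransfer_eq_smul_of_invariant N hNm l hlN hlm (zmod_four_nsmul hp2) x hinv)

/-- hypothesis (I) at a level `m`, multiple of the even level `N`, at which Claim J holds -/
theorem iharaAt_of_claimJ (N q p : ℕ) [NeZero N] [NeZero (N * q)] [Fact p.Prime]
    (hq : q.Prime) (hqN : ¬ q ∣ N) (hp2 : p ≠ 2) (hpq : p ≠ q) (m : ℕ) (hNm : N ∣ m)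
    (h2N : 2 ∣ N)
    (hJ : ∀ g ∈ Gam (Ideal.span {(m : CSP.A q)}),
      conjDiag (-1) g * g⁻¹ ∈ EC (Ideal.span {(m : CSP.A q)})) : IharaAt N q p hq hqN m :=
  iharaAt_of_claimJ_of_D3 N q p hq hqN hp2 hpq m hNm hJ (fun l hlN hlm x hinv =>
    HeckeInvTwo.heckeTransfer_eq_smul_of_lZ_two_invariant N h2N hNm l hlN hlm
      (zmod_four_nsmul hp2) x hinv)

/-- **Node I, final form (bypass route)**: hypothesis (I) of `S41Main.s41_of_nodes`
(same conclusion as `IharaPar.exists_level_of_cspPar`), unconditionally. -/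
theorem hIhara_all (N q p : ℕ) [NeZero N] [NeZero (N * q)] [Fact p.Prime]
    (hq : q.Prime) (hqN : ¬ q ∣ N) (hp2 : p ≠ 2) (hpq : p ≠ q) :
    ∃ m : ℕ, 0 < m ∧ ∀ l : Nat.Primes, ¬ (l : ℕ) ∣ N → (l : ℕ) ≡ 1 [MOD m] →
      ∀ a b : Lam N,
        (∃ y : Lam (N * q), Deg.A1Lam N q a + (Deg.alData N q hq hqN).A2Lam b = (p : ℤ) • y) →
        (∃ z : Lam N, TLam N l a - (((l : ℕ) + 1 : ℕ) : ℤ) • a = (p : ℤ) • z) ∧
        (∃ z : Lam N, TLam N l b - (((l : ℕ) + 1 : ℕ) : ℤ) • b = (p : ℤ) • z) := by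
  have hN0 : N ≠ 0 := NeZero.ne N
  have hNpos : 0 < N := Nat.pos_of_ne_zero hN0
  have hNq : Nat.Coprime N q := (Nat.Coprime.symm ((Nat.Prime.coprime_iff_not_dvd hq).2 hqN))
  by_cases h2 : q = 2
  · -- `q = 2`: `N` is odd, level `N`
    subst h2
    exact ⟨N, hNpos, iharaAt_of_cen N 2 p hq hqN hp2 hpq N dvd_rfl
      (CSPQ2.cenMod_zInv_two_eq_top N hN0 hNq)⟩
  · by_cases hN2 : 2 ∣ N
    · -- `N` even, `q` odd: a good level above `N`
      obtain ⟨m, hm, hNm, -, -, hJ, -, -⟩ := CSPCenEven.exists_level_cen_two q hq h2 N hN0 hNq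
      exact ⟨m, Nat.pos_of_ne_zero hm, iharaAt_of_claimJ N q p hq hqN hp2 hpq m hNm hN2 hJ⟩
    · -- `N`, `q` odd: level `N`
      have hN2' : Nat.Coprime N 2 :=
        (Nat.Coprime.symm ((Nat.Prime.coprime_iff_not_dvd Nat.prime_two).2 hN2))
      exact ⟨N, hNpos, iharaAt_of_cen N q p hq hqN hp2 hpq N dvd_rfl
        (CSPCenOdd.cenMod_odd q hq h2 N hN0 hN2' hNq)⟩

end Fermat.Agent.LR.IharaInvFinal
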