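/-
Program M (S41), bypass route (#521), node I re-glue, final plug (helper15): `LR/IharaInv.lean`
(invariance of the compatible pairs from (Cen) at one level) + `LR/HeckeInv.lean` (helper14's D3':
conjugation-invariant homomorphisms are Eisenstein) ⇒ hypothesis (I) of `S41Main.s41_of_nodes` at
the level `m`, for `cenMod (m) = ⊤` (`N` odd, or `q = 2`).
-/
import Mathlib
import Fermat.Agent.LR.IharaInv
import Fermat.Agent.LR.HeckeInv

set_option autoImplicit false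
set_option linter.style.haveILetI false
set_option linter.unusedSectionVars false

namespace Fermat.Agent.LR.IharaInvPlug

open Matrix CongruenceSubgroup ModularCurve.Period
open Fermat.Agent.Jac Fermat.Agent.LR
open Fermat.Agent.LR.Gen Fermat.Agent.LR.SL2R Fermat.Agent.LR.CSP Fermat.Agent.LR.IharaInv
open scoped MatrixGroups

/-- `ZMod p` has no `4`-torsion for `p` an odd prime -/
theorem four_nsmul_eq_zero {p : ℕ} [Fact p.Prime] (hp2 : p ≠ 2) (y : ZMod p)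
    (h : (4 : ℕ) • y = 0) : y = 0 := by
  have hp : p.Prime := Fact.out
  rw [nsmul_eq_mul] at h
  rcases mul_eq_zero.mp h with h4 | hy
  · exfalso
    have h4' : ((4 : ℕ) : ZMod p) = 0 := by exact_mod_cast h4
    rw [ZMod.natCast_eq_zero_iff] at h4'
    have h22 : p ∣ 2 * 2 := by norm_num; exact h4'
    rcases (Nat.Prime.dvd_mul hp).mp h22 with h2 | h2
    · exact hp2 ((Nat.prime_dvd_prime_iff_eq hp Nat.prime_two).mp h2)
    · exact hp2 ((Nat.prime_dvd_prime_iff_eq hp Nat.prime_two).mp h2)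
  · exact hy

/-- conversion of `InvAt` into the invariance hypothesis of `HeckeInv` -/
theorem hinv_of_invAt {N m : ℕ} {M : Type*} [AddCommGroup M] (x : Additive (Gamma0 N) →+ M)
    {d : SL(2, ℤ)} (h : InvAt N m x d) (γ γ' : Gamma0 N) (hγ : (γ : SL(2, ℤ)) ∈ Gamma m)
    (hγ' : (γ' : SL(2, ℤ)) = d * γ * d⁻¹) : x (Additive.ofMul γ') = x (Additive.ofMul γ) := by
  have h2 : d * (γ : SL(2, ℤ)) * d⁻¹ ∈ Gamma0 N := by rw [← hγ']; exact γ'.2
  have e : γ' = ⟨d * (γ : SL(2, ℤ)) * d⁻¹, h2⟩ := Subtype.ext hγ'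
  rw [e]
  exact h γ hγ γ.2 h2

/-- **D3' in the shape consumed by `IharaInv.hIhara_of_cen_of_D3`** -/
theorem hD3_top (N : ℕ) [NeZero N] {p m : ℕ} [Fact p.Prime] (hp2 : p ≠ 2) (hNm : N ∣ m) :
    ∀ l : Nat.Primes, ¬ (l : ℕ) ∣ N → (l : ℕ) ≡ 1 [MOD m] →
      ∀ x : Additive (Gamma0 N) →+ ZMod p, (∀ d : SL(2, ℤ), InvAt N m x d) →
        heckeTransfer N l (ZMod p) x = ((l : ℕ) + 1) • x := by
  intro l hlN hlm x hx
  have hlm' : (((l : ℕ) : ℕ) : ZMod m) = 1 := by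
    have := (ZMod.natCast_eq_natCast_iff _ _ _).mpr hlm
    simpa using this
  exact HeckeInv.heckeTransfer_eq_smul_of_invariant N hNm l hlN hlm'
    (four_nsmul_eq_zero hp2) x (fun g γ γ' hγ hγ' => hinv_of_invAt x (hx g) γ γ' hγ hγ')

/-- **Node I from (Cen) at one level** (`N ∣ m`, `cenMod (m) = ⊤`): hypothesis (I) of
`S41Main.s41_of_nodes` at the level `m`. -/
theorem hIhara_of_cen (N q p : ℕ) [NeZero N] [NeZero (N * q)] [Fact p.Prime]
    (hq : q.Prime) (hqN : ¬ q ∣ N) (hp2 : p ≠ 2) (hpq : p ≠ q) (m : ℕ) (_hm : 0 < m)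
    (hNm : N ∣ m) (hcen : cenMod (Ideal.span {(m : A q)}) = ⊤) :
    ∀ l : Nat.Primes, ¬ (l : ℕ) ∣ N → (l : ℕ) ≡ 1 [MOD m] →
      ∀ a b : Lam N,
        (∃ y : Lam (N * q), Deg.A1Lam N q a + (Deg.alData N q hq hqN).A2Lam b = (p : ℤ) • y) →
        (∃ z : Lam N, TLam N l a - (((l : ℕ) + 1 : ℕ) : ℤ) • a = (p : ℤ) • z) ∧
        (∃ z : Lam N, TLam N l b - (((l : ℕ) + 1 : ℕ) : ℤ) • b = (p : ℤ) • z) :=
  hIhara_of_cen_of_D3 N q p m hq hqN hpq hNm hcen (hD3_top N hp2 hNm)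

end Fermat.Agent.LR.IharaInvPlug
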