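/-
Program M (S41), node C1 part (I) (helper8): permutation-module lemmas.
For a permutation `σ` of order two (resp. three) of a type `E` and an abelian group `A`:
`range (σ - 1) = ker (1 + σ)` (resp. `ker (1 + σ + σ²)`) on `E → A`, integrally, up to the
obvious condition at the fixed points (automatic for `A = ℤ`); orthogonality of `ker (1 + σ)` and
the `σ`-invariants for the standard pairing on `E → ℤ`, `E` finite.
Mathlib only.
-/
import Mathlib

set_option autoImplicit false

namespace Fermat.Agent.LR.PermModule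

variable {E : Type*} {A : Type*} [AddCommGroup A]

/-- **`ker (1 + σ) ⊆ range (σ - 1)` for an involution** (values vanishing at the fixed points). -/
theorem exists_primitive_two (σ : Equiv.Perm E) (hσ : ∀ x, σ (σ x) = x) (f : E → A)
    (hrel : ∀ x, f x + f (σ x) = 0) (hfix : ∀ x, σ x = x → f x = 0) :
    ∃ h : E → A, ∀ x, f x = h (σ x) - h x := by
  classical
  let _ : LinearOrder E := linearOrderOfSTO (WellOrderingRel (α := E))
  refine ⟨fun z => if σ z < z then f (σ z) else 0, fun x => ?_⟩
  simp only [hσ x]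
  by_cases h1 : σ x = x
  · rw [h1, hfix x h1]; simp
  · by_cases h2 : x < σ x
    · rw [if_pos h2, if_neg (not_lt.mpr h2.le)]; simp
    · have h3 : σ x < x := lt_of_le_of_ne (not_lt.mp h2) h1
      rw [if_neg h2, if_pos h3]
      have := hrel x
      rw [zero_sub]
      exact eq_neg_of_add_eq_zero_left this

/-- converse: `range (σ - 1) ⊆ ker (1 + σ)` for an involution. -/
theorem rel_two_of_primitive (σ : Equiv.Perm E) (hσ : ∀ x, σ (σ x) = x) (h : E → A) (x : E) :
    (h (σ x) - h x) + (h (σ (σ x)) - h (σ x)) = 0 := by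
  rw [hσ x]; abel

/-- **`ker (1 + σ + σ²) ⊆ range (σ - 1)` for a permutation of order three** (values vanishing at
the fixed points). -/
theorem exists_primitive_three (σ : Equiv.Perm E) (hσ : ∀ x, σ (σ (σ x)) = x) (f : E → A)
    (hrel : ∀ x, f x + f (σ x) + f (σ (σ x)) = 0) (hfix : ∀ x, σ x = x → f x = 0) :
    ∃ h : E → A, ∀ x, f x = h (σ x) - h x := by
  classical
  let _ : LinearOrder E := linearOrderOfSTO (WellOrderingRel (α := E))
  -- `h` vanishes at the orbit maximum `m`, `h (σ m) = f m`, `h (σ² m) = f m + f (σ m)`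
  let h : E → A := fun w =>
    if σ w = w then 0
    else if σ w < w ∧ σ (σ w) < w then 0
    else if w < σ (σ w) ∧ σ w < σ (σ w) then f (σ (σ w))
    else f (σ w) + f (σ (σ w))
  have hh : ∀ w, h w =
      if σ w = w then 0
      else if σ w < w ∧ σ (σ w) < w then 0
      else if w < σ (σ w) ∧ σ w < σ (σ w) then f (σ (σ w))
      else f (σ w) + f (σ (σ w)) := fun _ => rfl
  refine ⟨h, fun x => ?_⟩
  by_cases h1 : σ x = x
  · rw [hh x, hh (σ x), h1, if_pos h1, hfix x h1]; simp
  · set y := σ x with hy
    set z := σ y with hz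
    have hzx : σ z = x := hσ x
    have hxy : y ≠ x := h1
    have hyz : z ≠ y := by
      intro hc
      apply h1
      have : σ (σ y) = σ y := by rw [← hz, hc, ← hz, hc]
      have h4 : σ y = y := σ.injective this
      exact σ.injective h4
    have hzx' : x ≠ z := by
      intro hc
      apply hyz
      have : σ z = σ y := by rw [hzx, ← hz]; exact hc
      exact σ.injective this
    have hr := hrel x
    rw [← hy, ← hz] at hr
    rw [hh y, hh x, ← hy, ← hz, hzx, if_neg hyz, if_neg hxy]
    have key : f x = -(f y + f z) := eq_neg_of_add_eq_zero_left (by rw [← add_assoc]; exact hr)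
    rcases lt_trichotomy x y with hxy1 | hxy1 | hxy1
    · have nyx : ¬ y < x := not_lt.mpr hxy1.le
      rcases lt_trichotomy y z with hyz1 | hyz1 | hyz1
      · -- x < y < z : z is the maximum; x = σ z, y = σ² z
        have nzy : ¬ z < y := not_lt.mpr hyz1.le
        have hxz : x < z := hxy1.trans hyz1
        simp only [nzy, nyx, hxz, hyz1, false_and, and_self, if_false, if_true]
        abel
      · exact absurd hyz1.symm hyz
      · -- x < y, z < y : y is the maximum; z = σ y, x = σ² y
        have nyz : ¬ y < z := not_lt.mpr hyz1.le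
        simp only [hyz1, hxy1, nyx, nyz, and_self, false_and, and_false, if_false, if_true]
        rw [zero_sub, neg_add]
        rw [key, neg_add]
    · exact absurd hxy1.symm hxy
    · have nxy : ¬ x < y := not_lt.mpr hxy1.le
      rcases lt_trichotomy x z with hxz1 | hxz1 | hxz1
      · -- y < x < z : z is the maximum; x = σ z, y = σ x = σ² z
        have nzx : ¬ z < x := not_lt.mpr hxz1.le
        have hyz1 : y < z := hxy1.trans hxz1
        have nzy : ¬ z < y := not_lt.mpr hyz1.le
        simp only [nzy, nzx, hxz1, hyz1, hxy1, false_and, and_false, and_self, if_false, if_true]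
        abel
      · exact absurd hxz1 hzx'
      · -- y < x, z < x : x is the maximum; y = σ x, z = σ² x
        simp only [nxy, hxy1, hxz1, and_false, and_self, if_false, if_true]
        simp

/-- converse for order three. -/
theorem rel_three_of_primitive (σ : Equiv.Perm E) (hσ : ∀ x, σ (σ (σ x)) = x) (h : E → A)
    (x : E) :
    (h (σ x) - h x) + (h (σ (σ x)) - h (σ x)) + (h (σ (σ (σ x))) - h (σ (σ x))) = 0 := by
  rw [hσ x]; abel

/-! ### The case `A = ℤ`: the fixed-point condition is automatic -/

theorem exists_primitive_two_int (σ : Equiv.Perm E) (hσ : ∀ x, σ (σ x) = x) (f : E → ℤ)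
    (hrel : ∀ x, f x + f (σ x) = 0) : ∃ h : E → ℤ, ∀ x, f x = h (σ x) - h x :=
  exists_primitive_two σ hσ f hrel fun x hx => by
    have := hrel x
    rw [hx] at this
    omega

theorem exists_primitive_three_int (σ : Equiv.Perm E) (hσ : ∀ x, σ (σ (σ x)) = x) (f : E → ℤ)
    (hrel : ∀ x, f x + f (σ x) + f (σ (σ x)) = 0) : ∃ h : E → ℤ, ∀ x, f x = h (σ x) - h x :=
  exists_primitive_three σ hσ f hrel fun x hx => by
    have := hrel x
    rw [hx, hx] at this
    omega

/-- `ker (1 + σ) = range (σ - 1)` on `E → ℤ` for an involution. -/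
theorem rel_two_iff_exists_primitive (σ : Equiv.Perm E) (hσ : ∀ x, σ (σ x) = x) (f : E → ℤ) :
    (∀ x, f x + f (σ x) = 0) ↔ ∃ h : E → ℤ, ∀ x, f x = h (σ x) - h x := by
  refine ⟨exists_primitive_two_int σ hσ f, ?_⟩
  rintro ⟨h, hh⟩ x
  rw [hh x, hh (σ x)]
  exact rel_two_of_primitive σ hσ h x

/-- `ker (1 + σ + σ²) = range (σ - 1)` on `E → ℤ` for a permutation of order three. -/
theorem rel_three_iff_exists_primitive (σ : Equiv.Perm E) (hσ : ∀ x, σ (σ (σ x)) = x)
    (f : E → ℤ) :
    (∀ x, f x + f (σ x) + f (σ (σ x)) = 0) ↔ ∃ h : E → ℤ, ∀ x, f x = h (σ x) - h x := by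
  refine ⟨exists_primitive_three_int σ hσ f, ?_⟩
  rintro ⟨h, hh⟩ x
  rw [hh x, hh (σ x), hh (σ (σ x))]
  exact rel_three_of_primitive σ hσ h x

/-! ### Orthogonality for the standard pairing on `E → ℤ`, `E` finite -/

section Pairing

variable [Fintype E]

/-- the standard pairing on `E → ℤ`. -/
def pair (f g : E → ℤ) : ℤ := ∑ x, f x * g x

theorem pair_comm (f g : E → ℤ) : pair f g = pair g f := by
  unfold pair; exact Finset.sum_congr rfl fun x _ => mul_comm _ _

theorem pair_add_left (f f' g : E → ℤ) : pair (f + f') g = pair f g + pair f' g := by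
  unfold pair; rw [← Finset.sum_add_distrib]
  exact Finset.sum_congr rfl fun x _ => by simp [add_mul]

theorem pair_add_right (f g g' : E → ℤ) : pair f (g + g') = pair f g + pair f g' := by
  rw [pair_comm, pair_add_left, pair_comm g f, pair_comm g' f]

theorem pair_sub_right (f g g' : E → ℤ) : pair f (g - g') = pair f g - pair f g' := by
  unfold pair; rw [← Finset.sum_sub_distrib]
  exact Finset.sum_congr rfl fun x _ => by simp [mul_sub]

theorem pair_smul_left (c : ℤ) (f g : E → ℤ) : pair (c • f) g = c * pair f g := by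
  unfold pair; rw [Finset.mul_sum]
  exact Finset.sum_congr rfl fun x _ => by simp [mul_assoc]

/-- invariance of the pairing under a permutation. -/
theorem pair_comp_perm (σ : Equiv.Perm E) (f g : E → ℤ) :
    pair (fun x => f (σ x)) (fun x => g (σ x)) = pair f g := by
  unfold pair
  exact Equiv.sum_comp σ fun x => f x * g x

/-- adjointness: `⟨f ∘ σ, g⟩ = ⟨f, g ∘ σ⁻¹⟩`. -/
theorem pair_comp_perm_left (σ : Equiv.Perm E) (f g : E → ℤ) :
    pair (fun x => f (σ x)) g = pair f (fun x => g (σ.symm x)) := by
  rw [← pair_comp_perm σ f (fun x => g (σ.symm x))]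
  simp

/-- `ker (1 + σ) ⟂ (σ-invariants)`. -/
theorem pair_eq_zero_of_rel_two (σ : Equiv.Perm E) (m v : E → ℤ)
    (hm : ∀ x, m x + m (σ x) = 0) (hv : ∀ x, v (σ x) = v x) : pair m v = 0 := by
  have h1 : pair (fun x => m (σ x)) (fun x => v (σ x)) = pair m v := pair_comp_perm σ m v
  have h2 : pair (fun x => m (σ x)) (fun x => v (σ x)) = - pair m v := by
    unfold pair
    rw [← Finset.sum_neg_distrib]
    refine Finset.sum_congr rfl fun x _ => ?_
    have := hm x
    beta_reduce
    rw [hv x, eq_neg_of_add_eq_zero_right this]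
    ring
  omega

/-- `ker (1 + σ + σ²) ⟂ (σ-invariants)`. -/
theorem pair_eq_zero_of_rel_three (σ : Equiv.Perm E) (m v : E → ℤ)
    (hm : ∀ x, m x + m (σ x) + m (σ (σ x)) = 0) (hv : ∀ x, v (σ x) = v x) : pair m v = 0 := by
  have h1 : pair (fun x => m (σ x)) (fun x => v (σ x)) = pair m v := pair_comp_perm σ m v
  have h2 : pair (fun x => m (σ (σ x))) (fun x => v (σ (σ x))) = pair m v := by
    have := pair_comp_perm σ (fun x => m (σ x)) (fun x => v (σ x))
    rw [this, h1]
  have h3 : pair m v + pair (fun x => m (σ x)) (fun x => v (σ x)) +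
      pair (fun x => m (σ (σ x))) (fun x => v (σ (σ x))) = 0 := by
    unfold pair
    rw [← Finset.sum_add_distrib, ← Finset.sum_add_distrib]
    refine Finset.sum_eq_zero fun x _ => ?_
    beta_reduce
    rw [hv (σ x), hv x]
    have := hm x
    linear_combination (v x) * this
  omega

/-- the value `⟨m, α⟩` only depends on `(σ - 1) α` when `m ∈ ker (1 + σ)` (order two). -/
theorem pair_eq_of_primitive_two (σ : Equiv.Perm E) (m α α' : E → ℤ)
    (hm : ∀ x, m x + m (σ x) = 0) (h : ∀ x, α (σ x) - α x = α' (σ x) - α' x) :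
    pair m α = pair m α' := by
  have : pair m (α - α') = 0 :=
    pair_eq_zero_of_rel_two σ m (α - α') hm fun x => by
      have := h x
      simp only [Pi.sub_apply]
      omega
  rw [pair_sub_right] at this
  omega

/-- the value `⟨m, β⟩` only depends on `(σ - 1) β` when `m ∈ ker (1 + σ + σ²)` (order three). -/
theorem pair_eq_of_primitive_three (σ : Equiv.Perm E) (m β β' : E → ℤ)
    (hm : ∀ x, m x + m (σ x) + m (σ (σ x)) = 0) (h : ∀ x, β (σ x) - β x = β' (σ x) - β' x) :
    pair m β = pair m β' := by
  have : pair m (β - β') = 0 :=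
    pair_eq_zero_of_rel_three σ m (β - β') hm fun x => by
      have := h x
      simp only [Pi.sub_apply]
      omega
  rw [pair_sub_right] at this
  omega

end Pairing

end Fermat.Agent.LR.PermModule
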