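import Mathlib
import Fermat.Agent.Eis.PSL2Free
import Fermat.Agent.Eis.Shapiro
import Fermat.Agent.Eis.CocycleUP
import Fermat.Agent.LR.PermModule

/-!
# Program M (S41), node C1: integral Poincaré duality in the `(S, U)`-model — the model

`Γ ≤ SL(2,ℤ)` with `-1 ∈ Γ`, `E := SL(2,ℤ) ⧸ Γ` (left cosets, as in `Eis/Shapiro`), functions
`E → ℤ` with the action `(g • f) x = f (g⁻¹ • x)` (the convention of `Shapiro.IsCocycle`).

* `cob Γ v` : the coboundary `g ↦ g • v - v`; `exists_cob_of_res_eq_zero` : a cocycle whose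
  restriction to `Γ` vanishes is a coboundary (injectivity half of Shapiro);
* `dS f = S • f - f`, `dU f = U • f - f`; every cocycle has `c S = dS α`, `c U = dU β`
  (`exists_primitives`);
* `Z1 Γ` : modular symbols `ker (1 + S) ∩ ker (1 + U + U²)`; `symCocycle hneg m` : the cocycle
  with values `m` at `S` and at `U` (hence `0` at `T`); `symHomAux` : its restriction to `Γ`;
* `kron hneg m ψ = ⟨m, α - β⟩` : the Kronecker pairing `Z1 × Hom(Γ, ℤ) → ℤ` (`kron_eq`: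
  independence of all choices), bilinear;
* `inter hneg m m' = kron m (symHomAux m')` : the intersection form on `Z1`;
  `six_mul_inter : 6 * inter m m' = ⟨m, m' + 2 U m'⟩`; `inter_skew`, `inter_self`.
-/

set_option autoImplicit false

namespace Fermat.Agent.LR.PD

open Matrix Matrix.SpecialLinearGroup ModularGroup
open Fermat.Agent.Eis.PSL2Free Fermat.Agent.Eis.Shapiro Fermat.Agent.Eis.CocycleUP
open Fermat.Agent.LR.PermModule
open scoped MatrixGroups

/-- the coset space `SL(2,ℤ) ⧸ Γ` -/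
abbrev Cos (Γ : Subgroup SL(2, ℤ)) : Type := SL(2, ℤ) ⧸ Γ

variable {Γ : Subgroup SL(2, ℤ)}

/-! ### Coboundaries -/

section Cob

variable {A : Type*} [AddCommGroup A]

/-- the coboundary of `v`: `g ↦ g • v - v`. -/
def cob (Γ : Subgroup SL(2, ℤ)) (v : Cos Γ → A) : SL(2, ℤ) → Cos Γ → A :=
  fun g x => v (g⁻¹ • x) - v x

theorem cob_apply (v : Cos Γ → A) (g : SL(2, ℤ)) (x : Cos Γ) :
    cob Γ v g x = v (g⁻¹ • x) - v x := rfl

theorem isCocycle_cob (v : Cos Γ → A) : IsCocycle Γ (cob Γ v) := by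
  intro g h x
  simp only [cob_apply, _root_.mul_inv_rev, mul_smul]
  abel

theorem res_cob (v : Cos Γ → A) : res Γ (cob Γ v) (isCocycle_cob v) = 0 := by
  ext γ
  change v (((Additive.toMul γ : Γ) : SL(2, ℤ))⁻¹ • _) - v _ = 0
  rw [coe_inv_smul_one, sub_self]

theorem cob_add (v w : Cos Γ → A) (g : SL(2, ℤ)) (x : Cos Γ) :
    cob Γ (v + w) g x = cob Γ v g x + cob Γ w g x := by
  simp only [cob_apply, Pi.add_apply]
  abel

/-- at a fixed point a coboundary vanishes -/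
theorem cob_apply_of_smul_eq (v : Cos Γ → A) {g : SL(2, ℤ)} {x : Cos Γ} (hx : g • x = x) :
    cob Γ v g x = 0 := by
  rw [cob_apply, inv_smul_eq_iff.mpr hx.symm, sub_self]

/-- **Shapiro, injectivity**: a cocycle whose restriction to `Γ` vanishes is a coboundary. -/
theorem exists_cob_of_res_eq_zero {c : SL(2, ℤ) → Cos Γ → A} (hc : IsCocycle Γ c)
    (h : res Γ c hc = 0) : ∃ v : Cos Γ → A, c = cob Γ v := by
  have hΓ : ∀ γ : Γ, c (γ : SL(2, ℤ)) ((1 : SL(2, ℤ)) : Cos Γ) = 0 := fun γ => by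
    have := DFunLike.congr_fun h (Additive.ofMul γ)
    simpa using this
  let v : Cos Γ → A := fun x => c (sec Γ x)⁻¹ ((1 : SL(2, ℤ)) : Cos Γ)
  have key : ∀ g : SL(2, ℤ), c g⁻¹ ((1 : SL(2, ℤ)) : Cos Γ) = v (g : Cos Γ) := by
    intro g
    have hmem : (sec Γ (g : Cos Γ))⁻¹ * g ∈ Γ := by
      rw [← QuotientGroup.eq, mk_sec]
    set γ : Γ := ⟨(sec Γ (g : Cos Γ))⁻¹ * g, hmem⟩ with hγ
    have hg : g⁻¹ = ((γ⁻¹ : Γ) : SL(2, ℤ)) * (sec Γ (g : Cos Γ))⁻¹ := by
      rw [hγ]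
      simp only [InvMemClass.coe_inv, _root_.mul_inv_rev, inv_inv]
      group
    rw [hg, hc, hΓ, zero_add, coe_inv_smul_one]
  refine ⟨v, ?_⟩
  funext g x
  induction x using QuotientGroup.induction_on with
  | H a =>
    have h1 := hc a⁻¹ g ((1 : SL(2, ℤ)) : Cos Γ)
    rw [inv_inv] at h1
    have h2 : a • ((1 : SL(2, ℤ)) : Cos Γ) = (a : Cos Γ) := by
      change ((a * 1 : SL(2, ℤ)) : Cos Γ) = _
      rw [mul_one]
    rw [h2] at h1
    have h3 : c (a⁻¹ * g) ((1 : SL(2, ℤ)) : Cos Γ) = v (g⁻¹ • (a : Cos Γ)) := by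
      have := key (g⁻¹ * a)
      rw [_root_.mul_inv_rev, inv_inv] at this
      rw [this]
      rfl
    rw [cob_apply, ← h3, ← key a, h1]
    abel

/-- two cocycles with the same restriction to `Γ` differ by a coboundary. -/
theorem exists_cob_of_res_eq {c c' : SL(2, ℤ) → Cos Γ → A} (hc : IsCocycle Γ c)
    (hc' : IsCocycle Γ c') (h : res Γ c hc = res Γ c' hc') :
    ∃ v : Cos Γ → A, ∀ g x, c g x = c' g x + cob Γ v g x := by
  obtain ⟨v, hv⟩ := exists_cob_of_res_eq_zero (hc.sub hc') (by rw [res_sub Γ hc hc', h, sub_self])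
  refine ⟨v, fun g x => ?_⟩
  have := congrFun (congrFun hv g) x
  rw [← this]
  abel

end Cob

/-! ### The operators `S - 1`, `U - 1` -/

/-- `(S - 1) f` -/
def dS (f : Cos Γ → ℤ) : Cos Γ → ℤ := fun x => f (S • x) - f x

/-- `(U - 1) f`, with `(U f) x = f (U⁻¹ • x) = f (U • U • x)` -/
def dU (f : Cos Γ → ℤ) : Cos Γ → ℤ := fun x => f (U • U • x) - f x

theorem dS_apply (f : Cos Γ → ℤ) (x : Cos Γ) : dS f x = f (S • x) - f x := rfl

theorem dU_apply (f : Cos Γ → ℤ) (x : Cos Γ) : dU f x = f (U • U • x) - f x := rfl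

theorem cob_S (hneg : (-1 : SL(2, ℤ)) ∈ Γ) (v : Cos Γ → ℤ) : cob Γ v S = dS v := by
  funext x
  rw [cob_apply, S_inv_smul hneg, dS_apply]

theorem cob_U (hneg : (-1 : SL(2, ℤ)) ∈ Γ) (v : Cos Γ → ℤ) : cob Γ v U = dU v := by
  funext x
  rw [cob_apply, U_inv_smul hneg, dU_apply]

theorem dS_add (f g : Cos Γ → ℤ) : dS (f + g) = dS f + dS g := by
  funext x; simp only [dS_apply, Pi.add_apply]; ring

theorem dU_add (f g : Cos Γ → ℤ) : dU (f + g) = dU f + dU g := by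
  funext x; simp only [dU_apply, Pi.add_apply]; ring

/-- the permutation `x ↦ S • x` of `E` -/
def permS (Γ : Subgroup SL(2, ℤ)) : Equiv.Perm (Cos Γ) := MulAction.toPerm (S : SL(2, ℤ))

/-- the permutation `x ↦ U • U • x = U⁻¹ • x` of `E` -/
def permU (Γ : Subgroup SL(2, ℤ)) : Equiv.Perm (Cos Γ) := MulAction.toPerm (U * U : SL(2, ℤ))

@[simp] theorem permS_apply (x : Cos Γ) : permS Γ x = S • x := rfl

@[simp] theorem permU_apply (x : Cos Γ) : permU Γ x = U • U • x := by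
  change (U * U) • x = _
  rw [mul_smul]

theorem permS_sq (hneg : (-1 : SL(2, ℤ)) ∈ Γ) (x : Cos Γ) : permS Γ (permS Γ x) = x := by
  simp only [permS_apply]
  exact S_smul_S_smul hneg x

theorem permU_cube (hneg : (-1 : SL(2, ℤ)) ∈ Γ) (x : Cos Γ) :
    permU Γ (permU Γ (permU Γ x)) = x := by
  simp only [permU_apply]
  rw [U_smul_U_smul_U_smul hneg, U_smul_U_smul_U_smul hneg]

/-- `-1 ∈ Γ` is killed by every `ℤ`-valued character. -/
theorem hom_neg_one (hneg : (-1 : SL(2, ℤ)) ∈ Γ) (ψ : Additive Γ →+ ℤ) :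
    ψ (Additive.ofMul (⟨-1, hneg⟩ : Γ)) = 0 := by
  have h2 : (⟨-1, hneg⟩ : Γ) * ⟨-1, hneg⟩ = 1 := by
    apply Subtype.ext
    simp
  have := congrArg ψ (congrArg Additive.ofMul h2)
  rw [ofMul_mul, map_add, ofMul_one, map_zero] at this
  omega

/-- every cocycle with `ℤ`-coefficients vanishes at `-1`. -/
theorem cocycle_neg_one (hneg : (-1 : SL(2, ℤ)) ∈ Γ) {c : SL(2, ℤ) → Cos Γ → ℤ}
    (hc : IsCocycle Γ c) : c (-1) = 0 := by
  funext x
  have h := hc (-1) (-1) x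
  have e : ((-1 : SL(2, ℤ)) * (-1)) = 1 := by simp
  rw [e, hc.map_one, inv_smul_eq_iff.mpr (neg_one_smul hneg x).symm] at h
  simp only [Pi.zero_apply]
  omega

/-- **primitives**: the values of a cocycle at `S`, `U` are `(S - 1) α`, `(U - 1) β`. -/
theorem exists_primitives (hneg : (-1 : SL(2, ℤ)) ∈ Γ) {c : SL(2, ℤ) → Cos Γ → ℤ}
    (hc : IsCocycle Γ c) : ∃ α β : Cos Γ → ℤ, c S = dS α ∧ c U = dU β := by
  have h1 := cocycle_neg_one hneg hc
  obtain ⟨α, hα⟩ := exists_primitive_two_int (permS Γ) (permS_sq hneg) (c S)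
    (fun x => rel_S hneg hc h1 x)
  obtain ⟨β, hβ⟩ := exists_primitive_three_int (permU Γ) (permU_cube hneg) (c U) (fun x => by
    have := rel_U hneg hc h1 x
    simp only [permU_apply]
    rw [U_smul_U_smul_U_smul hneg]
    omega)
  exact ⟨α, β, funext fun x => by rw [hα x]; rfl, funext fun x => by
    rw [hβ x, permU_apply]; rfl⟩

/-! ### Modular symbols -/

/-- modular symbols: `ker (1 + S) ∩ ker (1 + U + U²)` in `E → ℤ`. -/
def Z1 (Γ : Subgroup SL(2, ℤ)) : Submodule ℤ (Cos Γ → ℤ) where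
  carrier := {m | (∀ x, m x + m (S • x) = 0) ∧ (∀ x, m x + m (U • x) + m (U • U • x) = 0)}
  zero_mem' := ⟨fun _ => by simp, fun _ => by simp⟩
  add_mem' := by
    rintro m m' ⟨h1, h2⟩ ⟨h1', h2'⟩
    refine ⟨fun x => ?_, fun x => ?_⟩
    · have := h1 x; have := h1' x
      simp only [Pi.add_apply]; omega
    · have := h2 x; have := h2' x
      simp only [Pi.add_apply]; omega
  smul_mem' := by
    rintro n m ⟨h1, h2⟩
    refine ⟨fun x => ?_, fun x => ?_⟩
    · have := h1 x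
      simp only [Pi.smul_apply, smul_eq_mul]
      linear_combination n * this
    · have := h2 x
      simp only [Pi.smul_apply, smul_eq_mul]
      linear_combination n * this

theorem mem_Z1 {m : Cos Γ → ℤ} : m ∈ Z1 Γ ↔
    (∀ x, m x + m (S • x) = 0) ∧ (∀ x, m x + m (U • x) + m (U • U • x) = 0) := Iff.rfl

theorem Z1_relS (m : Z1 Γ) (x : Cos Γ) : (m : Cos Γ → ℤ) x + (m : Cos Γ → ℤ) (S • x) = 0 :=
  m.2.1 x

theorem Z1_relU (m : Z1 Γ) (x : Cos Γ) :
    (m : Cos Γ → ℤ) x + (m : Cos Γ → ℤ) (U • x) + (m : Cos Γ → ℤ) (U • U • x) = 0 := m.2.2 x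

theorem Z1_relS' (m : Z1 Γ) (x : Cos Γ) :
    (m : Cos Γ → ℤ) x + (m : Cos Γ → ℤ) (permS Γ x) = 0 := m.2.1 x

theorem Z1_relU' (hneg : (-1 : SL(2, ℤ)) ∈ Γ) (m : Z1 Γ) (x : Cos Γ) :
    (m : Cos Γ → ℤ) x + (m : Cos Γ → ℤ) (permU Γ x) +
      (m : Cos Γ → ℤ) (permU Γ (permU Γ x)) = 0 := by
  have := m.2.2 x
  simp only [permU_apply]
  rw [U_smul_U_smul_U_smul hneg]
  omega

/-- the cocycle with values `m` at `S` and at `U`. -/
noncomputable def symCocycle (hneg : (-1 : SL(2, ℤ)) ∈ Γ) (m : Z1 Γ) :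
    SL(2, ℤ) → Cos Γ → ℤ :=
  (exists_cocycle_of_pair hneg (m : Cos Γ → ℤ) (m : Cos Γ → ℤ) m.2.1 m.2.2).choose

theorem isCocycle_symCocycle (hneg : (-1 : SL(2, ℤ)) ∈ Γ) (m : Z1 Γ) :
    IsCocycle Γ (symCocycle hneg m) :=
  (exists_cocycle_of_pair hneg (m : Cos Γ → ℤ) (m : Cos Γ → ℤ) m.2.1 m.2.2).choose_spec.1

@[simp] theorem symCocycle_S (hneg : (-1 : SL(2, ℤ)) ∈ Γ) (m : Z1 Γ) :
    symCocycle hneg m S = m :=
  (exists_cocycle_of_pair hneg (m : Cos Γ → ℤ) (m : Cos Γ → ℤ) m.2.1 m.2.2).choose_spec.2.1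

@[simp] theorem symCocycle_U (hneg : (-1 : SL(2, ℤ)) ∈ Γ) (m : Z1 Γ) :
    symCocycle hneg m U = m :=
  (exists_cocycle_of_pair hneg (m : Cos Γ → ℤ) (m : Cos Γ → ℤ) m.2.1 m.2.2).choose_spec.2.2

/-- a cocycle is determined by its values at `S` and `U`. -/
theorem cocycle_ext {A : Type*} [AddCommGroup A] {c c' : SL(2, ℤ) → Cos Γ → A}
    (hc : IsCocycle Γ c) (hc' : IsCocycle Γ c') (hS : c S = c' S) (hU : c U = c' U) : c = c' :=
  hc.eq_of_eqOn_closure hc' closure_S_U (by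
    rintro g (rfl | rfl)
    · exact hS
    · exact hU)

/-- the value at `T = S⁻¹ U` of a cocycle. -/
theorem cocycle_T {A : Type*} [AddCommGroup A] {c : SL(2, ℤ) → Cos Γ → A}
    (hc : IsCocycle Γ c) (x : Cos Γ) : c T x = c U (S • x) - c S (S • x) := by
  rw [T_eq, hc, hc.map_inv, inv_inv]
  abel

theorem symCocycle_T (hneg : (-1 : SL(2, ℤ)) ∈ Γ) (m : Z1 Γ) : symCocycle hneg m T = 0 := by
  funext x
  rw [cocycle_T (isCocycle_symCocycle hneg m), symCocycle_S, symCocycle_U, sub_self]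
  rfl

theorem symCocycle_add (hneg : (-1 : SL(2, ℤ)) ∈ Γ) (m m' : Z1 Γ) :
    symCocycle hneg (m + m') = fun g x => symCocycle hneg m g x + symCocycle hneg m' g x :=
  cocycle_ext (isCocycle_symCocycle hneg _)
    ((isCocycle_symCocycle hneg m).add (isCocycle_symCocycle hneg m'))
    (by rw [symCocycle_S]; funext x; simp) (by rw [symCocycle_U]; funext x; simp)

theorem symCocycle_smul (hneg : (-1 : SL(2, ℤ)) ∈ Γ) (n : ℤ) (m : Z1 Γ) :
    symCocycle hneg (n • m) = fun g x => n • symCocycle hneg m g x :=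
  cocycle_ext (isCocycle_symCocycle hneg _) ((isCocycle_symCocycle hneg m).zsmul n)
    (by rw [symCocycle_S]; funext x; simp) (by rw [symCocycle_U]; funext x; simp)

/-- `Δ` : the character of `Γ` attached to a modular symbol (as a plain character; it is
parabolic, see `LR/PDPerfect`). -/
noncomputable def symHomAux (hneg : (-1 : SL(2, ℤ)) ∈ Γ) : Z1 Γ →ₗ[ℤ] (Additive Γ →+ ℤ) where
  toFun m := res Γ (symCocycle hneg m) (isCocycle_symCocycle hneg m)
  map_add' m m' := by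
    rw [res_congr Γ (isCocycle_symCocycle hneg (m + m'))
      ((isCocycle_symCocycle hneg m).add (isCocycle_symCocycle hneg m')) (symCocycle_add hneg m m')]
    rfl
  map_smul' n m := by
    rw [res_congr Γ (isCocycle_symCocycle hneg (n • m))
      ((isCocycle_symCocycle hneg m).zsmul n) (symCocycle_smul hneg n m)]
    rfl

theorem symHomAux_apply (hneg : (-1 : SL(2, ℤ)) ∈ Γ) (m : Z1 Γ) :
    symHomAux hneg m = res Γ (symCocycle hneg m) (isCocycle_symCocycle hneg m) := rfl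

/-! ### The Kronecker pairing -/

section Kron

/-- a chosen primitive of `ind ψ S` -/
noncomputable def primS (hneg : (-1 : SL(2, ℤ)) ∈ Γ) (ψ : Additive Γ →+ ℤ) : Cos Γ → ℤ :=
  (exists_primitives hneg (isCocycle_ind Γ ψ)).choose

/-- a chosen primitive of `ind ψ U` -/
noncomputable def primU (hneg : (-1 : SL(2, ℤ)) ∈ Γ) (ψ : Additive Γ →+ ℤ) : Cos Γ → ℤ :=
  (exists_primitives hneg (isCocycle_ind Γ ψ)).choose_spec.choose

theorem ind_S_eq (hneg : (-1 : SL(2, ℤ)) ∈ Γ) (ψ : Additive Γ →+ ℤ) :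
    ind Γ ψ S = dS (primS hneg ψ) :=
  (exists_primitives hneg (isCocycle_ind Γ ψ)).choose_spec.choose_spec.1

theorem ind_U_eq (hneg : (-1 : SL(2, ℤ)) ∈ Γ) (ψ : Additive Γ →+ ℤ) :
    ind Γ ψ U = dU (primU hneg ψ) :=
  (exists_primitives hneg (isCocycle_ind Γ ψ)).choose_spec.choose_spec.2

theorem exists_primitives_Z1 (hneg : (-1 : SL(2, ℤ)) ∈ Γ) (m : Z1 Γ) :
    ∃ α β : Cos Γ → ℤ, (m : Cos Γ → ℤ) = dS α ∧ (m : Cos Γ → ℤ) = dU β := by
  obtain ⟨α, β, hα, hβ⟩ := exists_primitives hneg (isCocycle_symCocycle hneg m)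
  rw [symCocycle_S] at hα
  rw [symCocycle_U] at hβ
  exact ⟨α, β, hα, hβ⟩

variable [Fintype (Cos Γ)]

/-- **The Kronecker pairing** `⟨m, α - β⟩`, `ind ψ S = (S - 1) α`, `ind ψ U = (U - 1) β`. -/
noncomputable def kron (hneg : (-1 : SL(2, ℤ)) ∈ Γ) (m : Cos Γ → ℤ) (ψ : Additive Γ →+ ℤ) : ℤ :=
  pair m (primS hneg ψ - primU hneg ψ)

theorem pair_dS_indep (m : Z1 Γ) (α α' : Cos Γ → ℤ) (h : dS α = dS α') :
    pair (m : Cos Γ → ℤ) α = pair (m : Cos Γ → ℤ) α' :=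
  pair_eq_of_primitive_two (permS Γ) _ α α' (Z1_relS' m) fun x => congrFun h x

theorem pair_dU_indep (hneg : (-1 : SL(2, ℤ)) ∈ Γ) (m : Z1 Γ) (β β' : Cos Γ → ℤ)
    (h : dU β = dU β') : pair (m : Cos Γ → ℤ) β = pair (m : Cos Γ → ℤ) β' :=
  pair_eq_of_primitive_three (permU Γ) _ β β' (Z1_relU' hneg m) fun x => by
    have := congrFun h x
    simp only [dU_apply] at this
    simpa only [permU_apply] using this

/-- **independence of all choices**: the Kronecker pairing can be computed with any cocycle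
representing the character and any primitives of its values at `S` and `U`. -/
theorem kron_eq (hneg : (-1 : SL(2, ℤ)) ∈ Γ) (m : Z1 Γ) {c : SL(2, ℤ) → Cos Γ → ℤ}
    (hc : IsCocycle Γ c) (α β : Cos Γ → ℤ) (hα : c S = dS α) (hβ : c U = dU β) :
    kron hneg (m : Cos Γ → ℤ) (res Γ c hc) = pair (m : Cos Γ → ℤ) (α - β) := by
  set ψ := res Γ c hc with hψ
  obtain ⟨v, hv⟩ := exists_cob_of_res_eq hc (isCocycle_ind Γ ψ) (by rw [res_ind])
  have h1 : dS α = dS (primS hneg ψ + v) := by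
    rw [dS_add, ← hα, ← ind_S_eq, ← cob_S hneg]
    funext x
    exact hv S x
  have h2 : dU β = dU (primU hneg ψ + v) := by
    rw [dU_add, ← hβ, ← ind_U_eq, ← cob_U hneg]
    funext x
    exact hv U x
  unfold kron
  rw [pair_sub_right, pair_sub_right, pair_dS_indep m _ _ h1, pair_dU_indep hneg m _ _ h2,
    pair_add_right, pair_add_right]
  ring

theorem kron_add_left (hneg : (-1 : SL(2, ℤ)) ∈ Γ) (m m' : Cos Γ → ℤ) (ψ : Additive Γ →+ ℤ) :
    kron hneg (m + m') ψ = kron hneg m ψ + kron hneg m' ψ := pair_add_left _ _ _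

theorem kron_smul_left (hneg : (-1 : SL(2, ℤ)) ∈ Γ) (n : ℤ) (m : Cos Γ → ℤ)
    (ψ : Additive Γ →+ ℤ) : kron hneg (n • m) ψ = n * kron hneg m ψ := pair_smul_left _ _ _

theorem kron_add_right (hneg : (-1 : SL(2, ℤ)) ∈ Γ) (m : Z1 Γ) (ψ ψ' : Additive Γ →+ ℤ) :
    kron hneg (m : Cos Γ → ℤ) (ψ + ψ') =
      kron hneg (m : Cos Γ → ℤ) ψ + kron hneg (m : Cos Γ → ℤ) ψ' := by
  have e : ψ + ψ' = res Γ _ ((isCocycle_ind Γ ψ).add (isCocycle_ind Γ ψ')) := by
    rw [res_add Γ (isCocycle_ind Γ ψ) (isCocycle_ind Γ ψ'), res_ind, res_ind]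
  rw [e, kron_eq hneg m _ (primS hneg ψ + primS hneg ψ') (primU hneg ψ + primU hneg ψ')
    (by rw [dS_add, ← ind_S_eq, ← ind_S_eq]; rfl) (by rw [dU_add, ← ind_U_eq, ← ind_U_eq]; rfl)]
  unfold kron
  rw [← pair_add_right]
  congr 1
  abel

theorem kron_zsmul_right (hneg : (-1 : SL(2, ℤ)) ∈ Γ) (m : Z1 Γ) (n : ℤ)
    (ψ : Additive Γ →+ ℤ) :
    kron hneg (m : Cos Γ → ℤ) (n • ψ) = n * kron hneg (m : Cos Γ → ℤ) ψ := by
  have e : n • ψ = res Γ _ ((isCocycle_ind Γ ψ).zsmul n) := by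
    rw [res_zsmul Γ (isCocycle_ind Γ ψ) n, res_ind]
  have hS : (fun g x => n • ind Γ ψ g x) S = dS (n • primS hneg ψ) := by
    funext x
    have := congrFun (ind_S_eq hneg ψ) x
    simp only [dS_apply, Pi.smul_apply, smul_eq_mul] at this ⊢
    rw [this]; ring
  have hU : (fun g x => n • ind Γ ψ g x) U = dU (n • primU hneg ψ) := by
    funext x
    have := congrFun (ind_U_eq hneg ψ) x
    simp only [dU_apply, Pi.smul_apply, smul_eq_mul] at this ⊢
    rw [this]; ring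
  rw [e, kron_eq hneg m _ _ _ hS hU]
  unfold kron
  rw [← smul_sub, pair_comm, pair_smul_left, pair_comm]

/-- the Kronecker pairing as a bilinear map `Z1 × Hom(Γ, ℤ) → ℤ`. -/
noncomputable def kronₗ (hneg : (-1 : SL(2, ℤ)) ∈ Γ) :
    Z1 Γ →ₗ[ℤ] (Additive Γ →+ ℤ) →ₗ[ℤ] ℤ :=
  LinearMap.mk₂ ℤ (fun m ψ => kron hneg (m : Cos Γ → ℤ) ψ)
    (fun m m' ψ => kron_add_left hneg _ _ ψ)
    (fun n m ψ => by
      simp only [smul_eq_mul]
      exact kron_smul_left hneg n _ ψ)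
    (fun m ψ ψ' => kron_add_right hneg m ψ ψ')
    (fun n m ψ => by
      simp only [smul_eq_mul]
      exact kron_zsmul_right hneg m n ψ)

@[simp] theorem kronₗ_apply (hneg : (-1 : SL(2, ℤ)) ∈ Γ) (m : Z1 Γ) (ψ : Additive Γ →+ ℤ) :
    kronₗ hneg m ψ = kron hneg (m : Cos Γ → ℤ) ψ := rfl

/-! ### The intersection form on modular symbols -/

/-- the intersection form on `Z1`. -/
noncomputable def inter (hneg : (-1 : SL(2, ℤ)) ∈ Γ) (m m' : Z1 Γ) : ℤ :=
  kron hneg (m : Cos Γ → ℤ) (symHomAux hneg m')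

theorem inter_eq (hneg : (-1 : SL(2, ℤ)) ∈ Γ) (m m' : Z1 Γ) (α β : Cos Γ → ℤ)
    (hα : (m' : Cos Γ → ℤ) = dS α) (hβ : (m' : Cos Γ → ℤ) = dU β) :
    inter hneg m m' = pair (m : Cos Γ → ℤ) (α - β) := by
  unfold inter
  rw [symHomAux_apply]
  exact kron_eq hneg m (isCocycle_symCocycle hneg m') α β (by rw [symCocycle_S, hα])
    (by rw [symCocycle_U, hβ])

/-- **the rational formula**: `6 I(m, m') = ⟨m, m' + 2 U m'⟩`. -/
theorem six_mul_inter (hneg : (-1 : SL(2, ℤ)) ∈ Γ) (m m' : Z1 Γ) :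
    6 * inter hneg m m' =
      ∑ x, (m : Cos Γ → ℤ) x * ((m' : Cos Γ → ℤ) x + 2 * (m' : Cos Γ → ℤ) (U • U • x)) := by
  obtain ⟨α, β, hα, hβ⟩ := exists_primitives_Z1 hneg m'
  rw [inter_eq hneg m m' α β hα hβ]
  have hA : pair (m : Cos Γ → ℤ) (fun x => 2 * α x + (m' : Cos Γ → ℤ) x) = 0 := by
    refine pair_eq_zero_of_rel_two (permS Γ) _ _ (Z1_relS' m) fun x => ?_
    simp only [permS_apply, hα, dS_apply, S_smul_S_smul hneg]
    ring
  have hB : pair (m : Cos Γ → ℤ)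
      (fun x => 3 * β x + 2 * (m' : Cos Γ → ℤ) x + (m' : Cos Γ → ℤ) (U • U • x)) = 0 := by
    refine pair_eq_zero_of_rel_three (permU Γ) _ _ (Z1_relU' hneg m) fun x => ?_
    simp only [permU_apply, hβ, dU_apply, U_smul_U_smul_U_smul hneg]
    ring
  have key : 6 * pair (m : Cos Γ → ℤ) (α - β) -
      ∑ x, (m : Cos Γ → ℤ) x * ((m' : Cos Γ → ℤ) x + 2 * (m' : Cos Γ → ℤ) (U • U • x)) =
      3 * pair (m : Cos Γ → ℤ) (fun x => 2 * α x + (m' : Cos Γ → ℤ) x) -
      2 * pair (m : Cos Γ → ℤ)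
        (fun x => 3 * β x + 2 * (m' : Cos Γ → ℤ) x + (m' : Cos Γ → ℤ) (U • U • x)) := by
    unfold pair
    simp only [Finset.mul_sum, ← Finset.sum_sub_distrib]
    refine Finset.sum_congr rfl fun x _ => ?_
    simp only [Pi.sub_apply]
    ring
  rw [hA, hB] at key
  linarith

/-- **the intersection form is skew-symmetric**. -/
theorem inter_skew (hneg : (-1 : SL(2, ℤ)) ∈ Γ) (m m' : Z1 Γ) :
    inter hneg m m' = - inter hneg m' m := by
  have h1 := six_mul_inter hneg m m'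
  have h2 := six_mul_inter hneg m' m
  have h3 : ∑ x, (m' : Cos Γ → ℤ) x * (m : Cos Γ → ℤ) (U • U • x) =
      ∑ x, (m' : Cos Γ → ℤ) (U • x) * (m : Cos Γ → ℤ) x := by
    rw [← Equiv.sum_comp (MulAction.toPerm (U : SL(2, ℤ)))
      (fun x => (m' : Cos Γ → ℤ) x * (m : Cos Γ → ℤ) (U • U • x))]
    refine Finset.sum_congr rfl fun x _ => ?_
    simp only [MulAction.toPerm_apply]
    rw [U_smul_U_smul_U_smul hneg]
  have h4 : 6 * inter hneg m m' + 6 * inter hneg m' m = 0 := by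
    rw [h1, h2]
    simp only [mul_add, Finset.sum_add_distrib]
    have e : ∑ x, (m' : Cos Γ → ℤ) x * (2 * (m : Cos Γ → ℤ) (U • U • x)) =
        2 * ∑ x, (m' : Cos Γ → ℤ) x * (m : Cos Γ → ℤ) (U • U • x) := by
      rw [Finset.mul_sum]
      exact Finset.sum_congr rfl fun x _ => by ring
    rw [e, h3, Finset.mul_sum, ← Finset.sum_add_distrib, ← Finset.sum_add_distrib,
      ← Finset.sum_add_distrib]
    refine Finset.sum_eq_zero fun x _ => ?_
    have := Z1_relU m' x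
    linear_combination (2 * (m : Cos Γ → ℤ) x) * this
  omega

theorem inter_self (hneg : (-1 : SL(2, ℤ)) ∈ Γ) (m : Z1 Γ) : inter hneg m m = 0 := by
  have := inter_skew hneg m m
  omega

end Kron

end Fermat.Agent.LR.PD
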