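import Mathlib
import Fermat.Agent.LR.PDModel

/-!
# Program M (S41), node C1: the Kronecker pairing `Z1 × Hom(Γ, ℤ) → ℤ` is perfect on the right

* `exists_dS_add_dU` : `ker (∑ : (E → ℤ) → ℤ) = (S - 1) V + (U - 1) V` (coinvariants of a transitive
  permutation module);
* `eq_zero_of_kron_eq_zero` : a character `ψ` with `kron m ψ = 0` for all modular symbols `m`
  vanishes;
* `exists_kron_eq` : every functional on `Z1` is `kron · ψ` for a character `ψ`.
-/

set_option autoImplicit false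

namespace Fermat.Agent.LR.PD

open Matrix Matrix.SpecialLinearGroup ModularGroup
open Fermat.Agent.Eis.PSL2Free Fermat.Agent.Eis.Shapiro Fermat.Agent.Eis.CocycleUP
open Fermat.Agent.LR.PermModule
open scoped MatrixGroups

variable {Γ : Subgroup SL(2, ℤ)}

/-! ### `(S - 1) V + (U - 1) V = ker ∑` -/

/-- the subgroup `(S - 1) V + (U - 1) V` of `E → ℤ` -/
def augSub (Γ : Subgroup SL(2, ℤ)) : AddSubgroup (Cos Γ → ℤ) where
  carrier := {f | ∃ g h : Cos Γ → ℤ, f = dS g + dU h}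
  zero_mem' := ⟨0, 0, by funext x; simp [dS_apply, dU_apply]⟩
  add_mem' := by
    rintro f f' ⟨g, h, rfl⟩ ⟨g', h', rfl⟩
    exact ⟨g + g', h + h', by rw [dS_add, dU_add]; abel⟩
  neg_mem' := by
    rintro f ⟨g, h, rfl⟩
    refine ⟨-g, -h, ?_⟩
    funext x
    simp only [Pi.neg_apply, Pi.add_apply, dS_apply, dU_apply]
    ring

theorem mem_augSub {f : Cos Γ → ℤ} : f ∈ augSub Γ ↔ ∃ g h : Cos Γ → ℤ, f = dS g + dU h := Iff.rfl

open Classical in
theorem dS_single (hneg : (-1 : SL(2, ℤ)) ∈ Γ) (y : Cos Γ) :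
    dS (Pi.single y (1 : ℤ)) = Pi.single (S • y) (1 : ℤ) - Pi.single y (1 : ℤ) := by
  funext x
  simp only [dS_apply, Pi.sub_apply, Pi.single_apply]
  have : S • x = y ↔ x = S • y := by
    constructor
    · rintro rfl; rw [S_smul_S_smul hneg]
    · rintro rfl; rw [S_smul_S_smul hneg]
  simp only [this]

open Classical in
theorem dU_single (hneg : (-1 : SL(2, ℤ)) ∈ Γ) (y : Cos Γ) :
    dU (Pi.single y (1 : ℤ)) = Pi.single (U • y) (1 : ℤ) - Pi.single y (1 : ℤ) := by
  funext x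
  simp only [dU_apply, Pi.sub_apply, Pi.single_apply]
  have : U • U • x = y ↔ x = U • y := by
    constructor
    · rintro rfl; rw [U_smul_U_smul_U_smul hneg]
    · rintro rfl; rw [U_smul_U_smul_U_smul hneg]
  simp only [this]

open Classical in
/-- `δ_{a • y} - δ_y ∈ (S - 1) V + (U - 1) V` for every `a ∈ SL(2,ℤ)`. -/
theorem single_smul_sub_single_mem (hneg : (-1 : SL(2, ℤ)) ∈ Γ) (a : SL(2, ℤ)) :
    ∀ y : Cos Γ, Pi.single (a • y) (1 : ℤ) - Pi.single y (1 : ℤ) ∈ augSub Γ := by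
  have ha : a ∈ Subgroup.closure ({S, U} : Set SL(2, ℤ)) := by
    rw [closure_S_U]; exact Subgroup.mem_top a
  induction ha using Subgroup.closure_induction with
  | mem g hg =>
    intro y
    rcases hg with rfl | hg
    · exact ⟨Pi.single y 1, 0, by
        rw [dS_single hneg]; funext x; simp [dU_apply]⟩
    · rw [Set.mem_singleton_iff] at hg
      subst hg
      exact ⟨0, Pi.single y 1, by
        rw [dU_single hneg]; funext x; simp [dS_apply]⟩
  | one =>
    intro y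
    rw [one_smul, sub_self]
    exact (augSub Γ).zero_mem
  | mul g h _ _ hg hh =>
    intro y
    have := (augSub Γ).add_mem (hg (h • y)) (hh y)
    rw [mul_smul]
    convert this using 1
    abel
  | inv g _ hg =>
    intro y
    have := (augSub Γ).neg_mem (hg (g⁻¹ • y))
    rw [smul_inv_smul] at this
    convert this using 1
    abel

variable [Fintype (Cos Γ)]

open Classical in
/-- **coinvariants**: a function with total sum zero lies in `(S - 1) V + (U - 1) V`. -/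
theorem exists_dS_add_dU (hneg : (-1 : SL(2, ℤ)) ∈ Γ) (f : Cos Γ → ℤ) (hf : ∑ x, f x = 0) :
    ∃ g h : Cos Γ → ℤ, f = dS g + dU h := by
  rw [← mem_augSub]
  set x₀ : Cos Γ := ((1 : SL(2, ℤ)) : Cos Γ) with hx₀
  have h1 : f = ∑ x, f x • (Pi.single x (1 : ℤ) - Pi.single x₀ (1 : ℤ)) := by
    funext y
    simp only [Finset.sum_apply, Pi.smul_apply, Pi.sub_apply, smul_eq_mul, mul_sub,
      Finset.sum_sub_distrib, Pi.single_apply, mul_ite, mul_one, mul_zero]
    rw [Finset.sum_ite_eq Finset.univ y f]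
    by_cases hy : y = x₀
    · simp only [hy, if_true, hf, sub_zero, Finset.mem_univ]
    · simp only [hy, if_false, Finset.sum_const_zero, sub_zero, Finset.mem_univ, if_true]
  rw [h1]
  refine (augSub Γ).sum_mem fun x _ => (augSub Γ).zsmul_mem ?_ _
  induction x using QuotientGroup.induction_on with
  | H a =>
    have := single_smul_sub_single_mem hneg a x₀
    have e : a • x₀ = (a : Cos Γ) := by
      change ((a * 1 : SL(2, ℤ)) : Cos Γ) = _
      rw [mul_one]
    rwa [e] at this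

/-! ### Linear-algebra helpers -/

/-- a functional killing `ker Φ` factors through `Φ` when the range of `Φ` is the image of a
projector. -/
theorem exists_factor {M N : Type*} [AddCommGroup M] [AddCommGroup N] (Φ : M →ₗ[ℤ] N)
    (μ : M →ₗ[ℤ] ℤ) (hker : LinearMap.ker Φ ≤ LinearMap.ker μ) (π : N →ₗ[ℤ] N)
    (hπ : ∀ n, π n ∈ LinearMap.range Φ) (hπ' : ∀ m, π (Φ m) = Φ m) :
    ∃ Λ : N →ₗ[ℤ] ℤ, ∀ m, Λ (Φ m) = μ m := by
  refine ⟨((LinearMap.ker Φ).liftQ μ hker) ∘ₗ (Φ.quotKerEquivRange.symm : _ →ₗ[ℤ] _) ∘ₗ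
    (π.codRestrict (LinearMap.range Φ) hπ), fun m => ?_⟩
  simp only [LinearMap.coe_comp, LinearEquiv.coe_coe, Function.comp_apply]
  have e : π.codRestrict (LinearMap.range Φ) hπ (Φ m) = ⟨Φ m, LinearMap.mem_range_self Φ m⟩ :=
    Subtype.ext (hπ' m)
  rw [e]
  have e2 : Φ.quotKerEquivRange.symm ⟨Φ m, LinearMap.mem_range_self Φ m⟩ =
      (LinearMap.ker Φ).mkQ m := by
    rw [LinearEquiv.symm_apply_eq]
    rfl
  rw [e2]
  rfl

/-- `(S - 1)` as a linear map -/
def dSₗ (Γ : Subgroup SL(2, ℤ)) : (Cos Γ → ℤ) →ₗ[ℤ] (Cos Γ → ℤ) where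
  toFun := dS
  map_add' := dS_add
  map_smul' n f := by
    funext x
    simp only [dS_apply, Pi.smul_apply, smul_eq_mul, RingHom.id_apply]
    ring

/-- `(U - 1)` as a linear map -/
def dUₗ (Γ : Subgroup SL(2, ℤ)) : (Cos Γ → ℤ) →ₗ[ℤ] (Cos Γ → ℤ) where
  toFun := dU
  map_add' := dU_add
  map_smul' n f := by
    funext x
    simp only [dU_apply, Pi.smul_apply, smul_eq_mul, RingHom.id_apply]
    ring

omit [Fintype (Cos Γ)] in
@[simp] theorem dSₗ_apply (f : Cos Γ → ℤ) : dSₗ Γ f = dS f := rfl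

omit [Fintype (Cos Γ)] in
@[simp] theorem dUₗ_apply (f : Cos Γ → ℤ) : dUₗ Γ f = dU f := rfl

/-- `f ↦ ⟨f, w⟩` as a linear map -/
def pairR (w : Cos Γ → ℤ) : (Cos Γ → ℤ) →ₗ[ℤ] ℤ where
  toFun f := pair f w
  map_add' f g := pair_add_left f g w
  map_smul' n f := by
    simp only [smul_eq_mul, RingHom.id_apply]
    exact pair_smul_left n f w

@[simp] theorem pairR_apply (w f : Cos Γ → ℤ) : pairR w f = pair f w := rfl

/-- the sum map -/
def sumₗ (Γ : Subgroup SL(2, ℤ)) [Fintype (Cos Γ)] : (Cos Γ → ℤ) →ₗ[ℤ] ℤ where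
  toFun f := ∑ x, f x
  map_add' f g := by simp [Finset.sum_add_distrib]
  map_smul' n f := by simp [Finset.mul_sum]

@[simp] theorem sumₗ_apply (f : Cos Γ → ℤ) : sumₗ Γ f = ∑ x, f x := rfl

theorem sum_dS (f : Cos Γ → ℤ) : ∑ x, dS f x = 0 := by
  simp only [dS_apply, Finset.sum_sub_distrib]
  rw [sub_eq_zero]
  exact Equiv.sum_comp (permS Γ) f

theorem sum_dU (f : Cos Γ → ℤ) : ∑ x, dU f x = 0 := by
  simp only [dU_apply, Finset.sum_sub_distrib]
  rw [sub_eq_zero]
  have := Equiv.sum_comp (permU Γ) f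
  simpa only [permU_apply] using this

open Classical in
/-- every functional on `E → ℤ` is a pairing. -/
theorem exists_pair_eq (Λ : (Cos Γ → ℤ) →ₗ[ℤ] ℤ) : ∃ u : Cos Γ → ℤ, ∀ f, Λ f = pair f u := by
  refine ⟨fun y => Λ (Pi.single y 1), fun f => ?_⟩
  rw [LinearMap.pi_apply_eq_sum_univ Λ f]
  unfold pair
  refine Finset.sum_congr rfl fun y _ => ?_
  rw [smul_eq_mul]
  congr 2
  funext j
  simp only [Pi.single_apply]
  by_cases h : j = y
  · subst h; simp
  · rw [if_neg h, if_neg (fun h' => h h'.symm)]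

open Classical in
/-- a function orthogonal to `(S - 1) V` is `S`-invariant. -/
theorem S_invariant_of_pair_dS (hneg : (-1 : SL(2, ℤ)) ∈ Γ) (u : Cos Γ → ℤ)
    (h : ∀ g, pair (dS g) u = 0) (y : Cos Γ) : u (S • y) = u y := by
  have := h (Pi.single y 1)
  rw [dS_single hneg] at this
  unfold pair at this
  simp only [Pi.sub_apply, Pi.single_apply, sub_mul, ite_mul, one_mul, zero_mul,
    Finset.sum_sub_distrib, Finset.sum_ite_eq', Finset.mem_univ, if_true] at this
  omega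

open Classical in
/-- a function orthogonal to `(U - 1) V` is `U`-invariant. -/
theorem U_invariant_of_pair_dU (hneg : (-1 : SL(2, ℤ)) ∈ Γ) (u : Cos Γ → ℤ)
    (h : ∀ g, pair (dU g) u = 0) (y : Cos Γ) : u (U • y) = u y := by
  have := h (Pi.single y 1)
  rw [dU_single hneg] at this
  unfold pair at this
  simp only [Pi.sub_apply, Pi.single_apply, sub_mul, ite_mul, one_mul, zero_mul,
    Finset.sum_sub_distrib, Finset.sum_ite_eq', Finset.mem_univ, if_true] at this
  omega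

omit [Fintype (Cos Γ)] in
/-- `(S - 1) g` is in `ker (1 + S)`, `(U - 1) h` is in `ker (1 + U + U²)`. -/
theorem dS_relS (hneg : (-1 : SL(2, ℤ)) ∈ Γ) (g : Cos Γ → ℤ) (x : Cos Γ) :
    dS g x + dS g (S • x) = 0 := by
  simp only [dS_apply, S_smul_S_smul hneg]
  ring

omit [Fintype (Cos Γ)] in
theorem dU_relU (hneg : (-1 : SL(2, ℤ)) ∈ Γ) (h : Cos Γ → ℤ) (x : Cos Γ) :
    dU h x + dU h (U • x) + dU h (U • U • x) = 0 := by
  simp only [dU_apply, U_smul_U_smul_U_smul hneg]
  ring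

/-! ### Right-perfectness of the Kronecker pairing -/

open Classical in
/-- **left kernel**: a function `w` orthogonal to all modular symbols is the sum of an
`S`-invariant and a `U`-invariant function. -/
theorem exists_invariants_of_orthogonal (hneg : (-1 : SL(2, ℤ)) ∈ Γ) (w : Cos Γ → ℤ)
    (hw : ∀ m : Z1 Γ, pair (m : Cos Γ → ℤ) w = 0) :
    ∃ u : Cos Γ → ℤ, (∀ y, u (U • y) = u y) ∧ (∀ y, (w - u) (S • y) = (w - u) y) := by
  set x₀ : Cos Γ := ((1 : SL(2, ℤ)) : Cos Γ) with hx₀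
  let Φ : (Cos Γ → ℤ) × (Cos Γ → ℤ) →ₗ[ℤ] (Cos Γ → ℤ) := (dSₗ Γ).coprod (dUₗ Γ)
  let μ : (Cos Γ → ℤ) × (Cos Γ → ℤ) →ₗ[ℤ] ℤ :=
    (pairR w) ∘ₗ (dSₗ Γ) ∘ₗ (LinearMap.fst ℤ _ _)
  have hΦ : ∀ g h, Φ (g, h) = dS g + dU h := fun g h => by
    simp [Φ, LinearMap.coprod_apply]
  have hμ : ∀ g h, μ (g, h) = pair (dS g) w := fun g h => rfl
  have hker : LinearMap.ker Φ ≤ LinearMap.ker μ := by
    rintro ⟨g, h⟩ hgh
    rw [LinearMap.mem_ker, hΦ] at hgh
    rw [LinearMap.mem_ker, hμ]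
    have hm : dS g ∈ Z1 Γ := by
      refine ⟨dS_relS hneg g, ?_⟩
      have e : dS g = dU (-h) := by
        have : dU (-h) = - dU h := by
          funext x; simp only [dU_apply, Pi.neg_apply]; ring
        rw [this]
        exact eq_neg_of_add_eq_zero_left hgh
      rw [e]
      exact dU_relU hneg (-h)
    exact hw ⟨dS g, hm⟩
  let π : (Cos Γ → ℤ) →ₗ[ℤ] (Cos Γ → ℤ) :=
    LinearMap.id - (LinearMap.toSpanSingleton ℤ _ (Pi.single x₀ (1 : ℤ))) ∘ₗ (sumₗ Γ)
  have hπ_apply : ∀ f, π f = f - (∑ x, f x) • Pi.single x₀ (1 : ℤ) := fun f => rfl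
  have hπ : ∀ f, π f ∈ LinearMap.range Φ := by
    intro f
    have hsum : ∑ x, (π f) x = 0 := by
      rw [hπ_apply]
      simp only [Pi.sub_apply, Pi.smul_apply, smul_eq_mul, Finset.sum_sub_distrib,
        ← Finset.mul_sum, Pi.single_apply]
      rw [Finset.sum_ite_eq' Finset.univ x₀ (fun _ => (1 : ℤ))]
      simp
    obtain ⟨g, h, hgh⟩ := exists_dS_add_dU hneg (π f) hsum
    exact ⟨(g, h), by rw [hΦ, hgh]⟩
  have hπ' : ∀ m, π (Φ m) = Φ m := by
    rintro ⟨g, h⟩
    rw [hπ_apply, hΦ]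
    have : ∑ x, (dS g + dU h) x = 0 := by
      simp only [Pi.add_apply, Finset.sum_add_distrib, sum_dS, sum_dU, add_zero]
    rw [this, zero_smul, sub_zero]
  obtain ⟨Λ, hΛ⟩ := exists_factor Φ μ hker π hπ hπ'
  obtain ⟨u, hu⟩ := exists_pair_eq Λ
  refine ⟨u, U_invariant_of_pair_dU hneg u fun h => ?_, ?_⟩
  · have := hΛ (0, h)
    rw [hΦ, hμ, hu] at this
    have e0 : dS (0 : Cos Γ → ℤ) = 0 := by funext x; simp [dS_apply]
    rw [e0, zero_add] at this
    rw [this]
    unfold pair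
    simp
  · refine S_invariant_of_pair_dS hneg (w - u) fun g => ?_
    have := hΛ (g, 0)
    rw [hΦ, hμ, hu] at this
    have e0 : dU (0 : Cos Γ → ℤ) = 0 := by funext x; simp [dU_apply]
    rw [e0, add_zero] at this
    rw [pair_sub_right, this, sub_self]

/-- **the Kronecker pairing has no right kernel**: a character orthogonal to all modular symbols
vanishes. -/
theorem eq_zero_of_kron_eq_zero (hneg : (-1 : SL(2, ℤ)) ∈ Γ) (ψ : Additive Γ →+ ℤ)
    (h : ∀ m : Z1 Γ, kron hneg (m : Cos Γ → ℤ) ψ = 0) : ψ = 0 := by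
  obtain ⟨u, hU, hS⟩ := exists_invariants_of_orthogonal hneg (primS hneg ψ - primU hneg ψ) h
  set v : Cos Γ → ℤ := primU hneg ψ + u with hv
  have hvS : dS v = dS (primS hneg ψ) := by
    funext x
    have := hS x
    simp only [Pi.sub_apply] at this
    simp only [dS_apply, hv, Pi.add_apply]
    omega
  have hvU : dU v = dU (primU hneg ψ) := by
    funext x
    simp only [dU_apply, hv, Pi.add_apply, hU]
    ring
  have hc : ind Γ ψ = cob Γ v :=
    cocycle_ext (isCocycle_ind Γ ψ) (isCocycle_cob v)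
      (by rw [cob_S hneg, hvS, ind_S_eq]) (by rw [cob_U hneg, hvU, ind_U_eq])
  rw [← res_ind Γ ψ, res_congr Γ (isCocycle_ind Γ ψ) (isCocycle_cob v) hc, res_cob]

omit [Fintype (Cos Γ)] in
/-- `Z1` is saturated in `E → ℤ`. -/
theorem mem_Z1_of_smul_mem {n : ℤ} (hn : n ≠ 0) {f : Cos Γ → ℤ} (h : n • f ∈ Z1 Γ) :
    f ∈ Z1 Γ := by
  obtain ⟨h1, h2⟩ := h
  refine ⟨fun x => ?_, fun x => ?_⟩
  · have := h1 x
    simp only [Pi.smul_apply, smul_eq_mul, ← mul_add] at this
    exact (mul_eq_zero.mp this).resolve_left hn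
  · have := h2 x
    simp only [Pi.smul_apply, smul_eq_mul, ← mul_add] at this
    exact (mul_eq_zero.mp this).resolve_left hn

/-- every functional on a saturated submodule of `E → ℤ` extends. -/
theorem exists_extension_of_saturated (N : Submodule ℤ (Cos Γ → ℤ))
    (hN : ∀ (n : ℤ), n ≠ 0 → ∀ f, n • f ∈ N → f ∈ N) (lam : N →ₗ[ℤ] ℤ) :
    ∃ lam' : (Cos Γ → ℤ) →ₗ[ℤ] ℤ, ∀ m : N, lam' m = lam m := by
  have : Module.IsTorsionFree ℤ ((Cos Γ → ℤ) ⧸ N) := by
    refine Module.IsTorsionFree.of_smul_eq_zero fun n x hx => ?_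
    induction x using Submodule.Quotient.induction_on with
    | H f =>
      by_cases hn : n = 0
      · exact Or.inl hn
      · right
        rw [← Submodule.Quotient.mk_smul, Submodule.Quotient.mk_eq_zero] at hx
        exact (Submodule.Quotient.mk_eq_zero N).mpr (hN n hn f hx)
  have : Module.Free ℤ ((Cos Γ → ℤ) ⧸ N) := Module.free_of_finite_type_torsion_free'
  obtain ⟨s, hs⟩ := Module.projective_lifting_property N.mkQ LinearMap.id
    (Submodule.mkQ_surjective N)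
  let π : (Cos Γ → ℤ) →ₗ[ℤ] (Cos Γ → ℤ) := LinearMap.id - s ∘ₗ N.mkQ
  have hπ : ∀ f, π f ∈ N := by
    intro f
    rw [← Submodule.Quotient.mk_eq_zero N]
    have := LinearMap.congr_fun hs (N.mkQ f)
    simp only [LinearMap.coe_comp, Function.comp_apply, LinearMap.id_coe, id_eq] at this
    simp only [π, LinearMap.sub_apply, LinearMap.id_coe, id_eq, LinearMap.coe_comp,
      Function.comp_apply, Submodule.Quotient.mk_sub]
    rw [sub_eq_zero]
    exact this.symm
  refine ⟨lam ∘ₗ π.codRestrict N hπ, fun m => ?_⟩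
  simp only [LinearMap.coe_comp, Function.comp_apply]
  congr 1
  apply Subtype.ext
  simp only [LinearMap.codRestrict_apply, π, LinearMap.sub_apply, LinearMap.id_coe, id_eq,
    LinearMap.coe_comp, Function.comp_apply]
  have : N.mkQ (m : Cos Γ → ℤ) = 0 := (Submodule.Quotient.mk_eq_zero N).mpr m.2
  rw [this, map_zero, sub_zero]

/-- **the Kronecker pairing is onto the dual of `Z1`**: every functional on the modular symbols
is `kron · ψ` for a character `ψ` of `Γ`; moreover `ψ` is the restriction of a cocycle with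
values `(S - 1) w` at `S` and `0` at `U`. -/
theorem exists_kron_eq (hneg : (-1 : SL(2, ℤ)) ∈ Γ) (lam : Z1 Γ →ₗ[ℤ] ℤ) :
    ∃ (w : Cos Γ → ℤ) (c : SL(2, ℤ) → Cos Γ → ℤ) (hc : IsCocycle Γ c),
      c S = dS w ∧ c U = 0 ∧ (∀ m : Z1 Γ, pair (m : Cos Γ → ℤ) w = lam m) ∧
      ∀ m : Z1 Γ, kron hneg (m : Cos Γ → ℤ) (res Γ c hc) = lam m := by
  obtain ⟨lam', hlam'⟩ := exists_extension_of_saturated (Z1 Γ)
    (fun n hn f h => mem_Z1_of_smul_mem hn h) lam
  obtain ⟨w, hw⟩ := exists_pair_eq lam'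
  obtain ⟨c, hc, hcS, hcU⟩ := exists_cocycle_of_pair hneg (dS w) (0 : Cos Γ → ℤ)
    (dS_relS hneg w) (fun x => by simp)
  refine ⟨w, c, hc, hcS, hcU, fun m => by rw [← hw, hlam'], fun m => ?_⟩
  rw [kron_eq hneg m hc w 0 hcS (by rw [hcU]; funext x; simp [dU_apply]), sub_zero, ← hw, hlam']

end Fermat.Agent.LR.PD
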