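/-
Program M (S41), node C1 (helper8): permutation modules, general orbits.
For a permutation `σ` of a type `E` with `σ ^ M = 1` (`M > 0`) and `f : E → ℤ` whose sums
`∑_{i<M} f (σ^i z)` over the (multi-)orbits vanish, `f = g ∘ σ - g` for some `g : E → ℤ`
(`range (σ - 1)` is the orthogonal complement of the `σ`-invariants, integrally).
Mathlib only.
-/
import Mathlib

set_option autoImplicit false

namespace Fermat.Agent.LR.PermOrbit

open Finset

/-- a `d`-periodic sequence is `d * M`-periodic. -/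
theorem periodic_mul (a : ℕ → ℤ) (d : ℕ) (ha : ∀ i, a (i + d) = a i) (M i : ℕ) :
    a (i + d * M) = a i := by
  induction M with
  | zero => simp
  | succ M ih => rw [Nat.mul_succ, ← add_assoc, ha, ih]

/-- sum of a `d`-periodic sequence over `d * M` terms. -/
theorem sum_range_mul_of_periodic (a : ℕ → ℤ) (d : ℕ) (ha : ∀ i, a (i + d) = a i) (M : ℕ) :
    ∑ i ∈ range (d * M), a i = M * ∑ i ∈ range d, a i := by
  induction M with
  | zero => simp
  | succ M ih =>
    rw [Nat.mul_succ, sum_range_add, ih]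
    have : ∑ x ∈ range d, a (d * M + x) = ∑ x ∈ range d, a x :=
      sum_congr rfl fun x _ => by rw [add_comm]; exact periodic_mul a d ha M x
    rw [this]; push_cast; ring

/-- if a sequence is both `d`- and `M`-periodic (`M > 0`) and sums to zero over `M` terms, it sums
to zero over `d` terms. -/
theorem sum_range_eq_zero_of_periodic (a : ℕ → ℤ) (d M : ℕ) (hM : 0 < M)
    (had : ∀ i, a (i + d) = a i) (haM : ∀ i, a (i + M) = a i)
    (h0 : ∑ i ∈ range M, a i = 0) : ∑ i ∈ range d, a i = 0 := by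
  have h1 := sum_range_mul_of_periodic a d had M
  have h2 := sum_range_mul_of_periodic a M haM d
  rw [mul_comm M d, h1, h0, mul_zero] at h2
  have hM' : (M : ℤ) ≠ 0 := by exact_mod_cast hM.ne'
  exact (mul_eq_zero.mp h2).resolve_left hM'

variable {E : Type*}

/-- **path independence**: partial orbit sums only depend on the end point. -/
theorem sum_eq_of_pow_eq (σ : Equiv.Perm E) (f : E → ℤ) (M : ℕ) (hM : 0 < M) (hσ : σ ^ M = 1)
    (h0 : ∀ z, ∑ i ∈ range M, f ((σ ^ i) z) = 0) (r : E) (a b : ℕ)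
    (hab : (σ ^ a) r = (σ ^ b) r) :
    ∑ i ∈ range a, f ((σ ^ i) r) = ∑ i ∈ range b, f ((σ ^ i) r) := by
  wlog hle : a ≤ b generalizing a b
  · exact (this b a hab.symm (le_of_not_ge hle)).symm
  obtain ⟨d, rfl⟩ := Nat.exists_eq_add_of_le hle
  set z := (σ ^ a) r with hz
  have hdz : (σ ^ d) z = z := by
    rw [hz, ← Equiv.Perm.mul_apply, ← pow_add, add_comm d a]; exact hab.symm
  have hper_d : ∀ i, f ((σ ^ (i + d)) z) = f ((σ ^ i) z) := fun i => by
    rw [pow_add, Equiv.Perm.mul_apply, hdz]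
  have hper_M : ∀ i, f ((σ ^ (i + M)) z) = f ((σ ^ i) z) := fun i => by
    rw [pow_add, hσ, mul_one]
  have hsum := sum_range_eq_zero_of_periodic (fun i => f ((σ ^ i) z)) d M hM hper_d hper_M (h0 z)
  rw [sum_range_add]
  have : ∑ x ∈ range d, f ((σ ^ (a + x)) r) = ∑ i ∈ range d, f ((σ ^ i) z) :=
    sum_congr rfl fun x _ => by
      rw [hz, ← Equiv.Perm.mul_apply, ← pow_add, add_comm x a]
  rw [this, hsum, add_zero]

/-- **`(σ-invariants)^⊥ ⊆ range (σ - 1)`**, in orbit-sum form. -/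
theorem exists_primitive (σ : Equiv.Perm E) (f : E → ℤ) (M : ℕ) (hM : 0 < M) (hσ : σ ^ M = 1)
    (h0 : ∀ z, ∑ i ∈ range M, f ((σ ^ i) z) = 0) :
    ∃ g : E → ℤ, ∀ x, f x = g (σ x) - g x := by
  classical
  -- orbit representatives
  let s : Setoid E := Equiv.Perm.SameCycle.setoid σ
  let r : E → E := fun y => (Quotient.mk s y).out
  have hr : ∀ y, σ.SameCycle (r y) y := fun y => Quotient.exact (Quotient.out_eq (Quotient.mk s y))
  have hrσ : ∀ y, r (σ y) = r y := fun y => by
    have : Quotient.mk s (σ y) = Quotient.mk s y :=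
      Quotient.sound (show σ.SameCycle (σ y) y from
        (Equiv.Perm.sameCycle_apply_left).mpr (Equiv.Perm.SameCycle.refl σ y))
    show (Quotient.mk s (σ y)).out = (Quotient.mk s y).out
    rw [this]
  -- every point is a nonnegative power of its representative
  have hk : ∀ y, ∃ k : ℕ, (σ ^ k) (r y) = y := fun y => by
    obtain ⟨i, hi⟩ := hr y
    refine ⟨(i % (M : ℤ)).toNat, ?_⟩
    have hMz : (M : ℤ) ≠ 0 := by exact_mod_cast hM.ne'
    have hnn : 0 ≤ i % (M : ℤ) := Int.emod_nonneg i hMz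
    have h1 : (σ ^ (i % (M : ℤ)).toNat) = σ ^ (i % (M : ℤ)) := by
      rw [← zpow_natCast, Int.toNat_of_nonneg hnn]
    have h2 : σ ^ (i % (M : ℤ)) = σ ^ i := by
      conv_rhs => rw [← Int.emod_add_mul_ediv i M, zpow_add, zpow_mul, zpow_natCast, hσ, one_zpow,
        mul_one]
    rw [h1, h2, hi]
  let k : E → ℕ := fun y => (hk y).choose
  have hkspec : ∀ y, (σ ^ k y) (r y) = y := fun y => (hk y).choose_spec
  refine ⟨fun y => ∑ i ∈ range (k y), f ((σ ^ i) (r y)), fun x => ?_⟩
  show f x = ∑ i ∈ range (k (σ x)), f ((σ ^ i) (r (σ x))) - ∑ i ∈ range (k x), f ((σ ^ i) (r x))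
  rw [hrσ x]
  have hend : (σ ^ k (σ x)) (r x) = (σ ^ (k x + 1)) (r x) := by
    have h1 := hkspec (σ x)
    rw [hrσ x] at h1
    rw [h1, pow_succ', Equiv.Perm.mul_apply, hkspec x]
  rw [sum_eq_of_pow_eq σ f M hM hσ h0 (r x) _ _ hend, sum_range_succ, hkspec x]
  ring

/-- converse: elements of `range (σ - 1)` have vanishing orbit sums. -/
theorem sum_pow_eq_zero_of_primitive (σ : Equiv.Perm E) (g : E → ℤ) (M : ℕ) (hσ : σ ^ M = 1)
    (z : E) : ∑ i ∈ range M, (g (σ ((σ ^ i) z)) - g ((σ ^ i) z)) = 0 := by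
  have : ∀ i, g (σ ((σ ^ i) z)) = g ((σ ^ (i + 1)) z) := fun i => by
    rw [pow_succ', Equiv.Perm.mul_apply]
  simp_rw [this]
  rw [sum_range_sub (fun i => g ((σ ^ i) z)) M]
  simp [hσ]

section Fintype

variable [Fintype E]

/-- the orbit-sum hypothesis follows from orthogonality to the `σ`-invariant functions. -/
theorem orbit_sum_eq_zero_of_orthogonal (σ : Equiv.Perm E) (f : E → ℤ) (M : ℕ) (hσ : σ ^ M = 1)
    (horth : ∀ w : E → ℤ, (∀ x, w (σ x) = w x) → ∑ x, w x * f x = 0) (z : E) :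
    ∑ i ∈ range M, f ((σ ^ i) z) = 0 := by
  classical
  let w : E → ℤ := fun x => ∑ i ∈ range M, if (σ ^ i) z = x then 1 else 0
  have hw : ∀ x, w (σ x) = w x := fun x => by
    show (∑ i ∈ range M, if (σ ^ i) z = σ x then (1 : ℤ) else 0) =
      ∑ i ∈ range M, if (σ ^ i) z = x then 1 else 0
    have h1 : (∑ i ∈ range M, if (σ ^ i) z = x then (1 : ℤ) else 0) =
        ∑ i ∈ range M, if (σ ^ (i + 1)) z = σ x then (1 : ℤ) else 0 :=
      sum_congr rfl fun i _ => by
        rw [pow_succ', Equiv.Perm.mul_apply]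
        simp [σ.injective.eq_iff]
    rw [h1]
    -- shift of a sequence which is `M`-periodic
    have h3 : ∑ i ∈ range M, (if (σ ^ (i + 1)) z = σ x then (1 : ℤ) else 0) -
        ∑ i ∈ range M, (if (σ ^ i) z = σ x then (1 : ℤ) else 0) =
        (if (σ ^ M) z = σ x then (1 : ℤ) else 0) - (if (σ ^ 0) z = σ x then (1 : ℤ) else 0) := by
      rw [← sum_sub_distrib]
      exact sum_range_sub (fun i => if (σ ^ i) z = σ x then (1 : ℤ) else 0) M
    rw [hσ, pow_zero, sub_self] at h3
    linarith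
  have := horth w hw
  have h4 : ∑ x, w x * f x = ∑ i ∈ range M, f ((σ ^ i) z) := by
    show ∑ x, (∑ i ∈ range M, if (σ ^ i) z = x then (1 : ℤ) else 0) * f x = _
    simp_rw [sum_mul]
    rw [sum_comm]
    refine sum_congr rfl fun i _ => ?_
    rw [sum_eq_single ((σ ^ i) z)]
    · simp
    · intro b _ hb; simp [Ne.symm hb]
    · intro h; exact absurd (mem_univ _) h
  rw [← h4]; exact this

/-- **`range (σ - 1) = (σ-invariants)^⊥`** on `E → ℤ`, `E` finite. -/
theorem exists_primitive_of_orthogonal (σ : Equiv.Perm E) (f : E → ℤ)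
    (horth : ∀ w : E → ℤ, (∀ x, w (σ x) = w x) → ∑ x, w x * f x = 0) :
    ∃ g : E → ℤ, ∀ x, f x = g (σ x) - g x := by
  have hM : 0 < orderOf σ := orderOf_pos σ
  exact exists_primitive σ f (orderOf σ) hM (pow_orderOf_eq_one σ)
    (orbit_sum_eq_zero_of_orthogonal σ f (orderOf σ) (pow_orderOf_eq_one σ) horth)

/-- converse of the previous statement. -/
theorem orthogonal_of_primitive (σ : Equiv.Perm E) (g w : E → ℤ) (hw : ∀ x, w (σ x) = w x) :
    ∑ x, w x * (g (σ x) - g x) = 0 := by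
  have h1 : ∑ x, w x * g (σ x) = ∑ x, w (σ x) * g (σ x) :=
    sum_congr rfl fun x _ => by rw [hw x]
  have h2 : ∑ x, w (σ x) * g (σ x) = ∑ x, w x * g x := Equiv.sum_comp σ fun x => w x * g x
  simp_rw [mul_sub]
  rw [sum_sub_distrib, h1, h2, sub_self]

end Fintype

end Fermat.Agent.LR.PermOrbit
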