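/-
Program M (S41), node C1 (helper8): parabolicity criterion in the Shapiro/(S,U)-model.
For `Γ ≤ SL(2,ℤ)` with `-1 ∈ Γ`, `E = SL(2,ℤ) ⧸ Γ`:
* [P1] a character `φ : Γ → ℤ` is parabolic iff the induced cocycle satisfies
  `ind φ (T ^ k) x = 0` whenever `T ^ k • x = x`;
* [P2] a cocycle `c` with `c (T ^ k) x = 0` whenever `T ^ k • x = x` has `c T = (T - 1) v`;
* [P3] the vanishing in [P2] follows from orthogonality of `c T` to the `T`-invariant functions.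
-/
import Mathlib
import Fermat.Prelude.Def_ModularCurve_PeriodMap
import Fermat.Agent.Eis.Shapiro
import Fermat.Agent.Eis.ParClass
import Fermat.Agent.LR.PermOrbit

set_option autoImplicit false

namespace Fermat.Agent.LR.ParCrit

open Matrix ModularGroup Fermat.Agent.Eis Fermat.Agent.Eis.Shapiro
open scoped MatrixGroups

/-! ### Conjugacy classes of trace two in `SL(2,ℤ)` -/

/-- every element of trace `2` of `SL(2,ℤ)` is conjugate to a power of `T`. -/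
theorem exists_conj_T_zpow (γ : SL(2, ℤ)) (htr : γ 0 0 + γ 1 1 = 2) :
    ∃ (σ : SL(2, ℤ)) (k : ℤ), γ = σ * T ^ k * σ⁻¹ := by
  obtain ⟨x, y, hxy, h1, h2⟩ := ParClass.exists_fixed_vector γ htr
  obtain ⟨σ, hσ0, hσ1⟩ := ParClass.exists_SL_col0 x y hxy
  refine ⟨σ, (σ⁻¹ * γ * σ) 0 1, ?_⟩
  obtain ⟨i00, i01, i10, i11⟩ := ParClass.inv_entries σ
  have hdσ := ParClass.det_entries σ
  have hM := ParClass.eq_T_zpow_of_col (σ⁻¹ * γ * σ)
    (by
      rw [ParClass.conj_apply]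
      simp only [Fin.sum_univ_two, i00, i01, hσ0, hσ1]
      rw [hσ0, hσ1] at hdσ
      linear_combination (σ 1 1) * h1 - (σ 0 1) * h2 + hdσ)
    (by
      rw [ParClass.conj_apply]
      simp only [Fin.sum_univ_two, i10, i11, hσ0, hσ1]
      linear_combination (-y) * h1 + x * h2)
  rw [← hM]; group

theorem trace_conj (g a : SL(2, ℤ)) :
    ((a⁻¹ * g * a : SL(2, ℤ)) : Matrix (Fin 2) (Fin 2) ℤ).trace =
      (g : Matrix (Fin 2) (Fin 2) ℤ).trace := by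
  rw [Matrix.SpecialLinearGroup.coe_mul, Matrix.SpecialLinearGroup.coe_mul, Matrix.trace_mul_comm,
    ← Matrix.mul_assoc, ← Matrix.SpecialLinearGroup.coe_mul, mul_inv_cancel,
    Matrix.SpecialLinearGroup.coe_one, Matrix.one_mul]

theorem trace_T_pow (k : ℕ) : ((T ^ k : SL(2, ℤ)) : Matrix (Fin 2) (Fin 2) ℤ).trace = 2 := by
  have := ModularGroup.coe_T_zpow (k : ℤ)
  rw [zpow_natCast] at this
  rw [ParClass.trace_entries]
  have h0 : (T ^ k : SL(2, ℤ)) 0 0 = 1 := by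
    show (T ^ k : SL(2, ℤ)).1 0 0 = 1; rw [this]; rfl
  have h1 : (T ^ k : SL(2, ℤ)) 1 1 = 1 := by
    show (T ^ k : SL(2, ℤ)).1 1 1 = 1; rw [this]; rfl
  rw [h0, h1]; norm_num

variable {Γ : Subgroup SL(2, ℤ)}

local notation "E" => SL(2, ℤ) ⧸ Γ

/-! ### [P1] -/

theorem pow_smul_eq_of_inv (k : ℕ) {y : E} (h : (T ^ k)⁻¹ • y = y) : T ^ k • y = y := by
  conv_lhs => rw [← h]
  exact smul_inv_smul _ _

/-- value of a cocycle at a conjugate `σ T^k σ⁻¹ ∈ Γ` (at the base point). -/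
theorem cocycle_conj_T (c : SL(2, ℤ) → E → ℤ) (hc : IsCocycle Γ c) (σ g : SL(2, ℤ))
    (hmem : σ * g * σ⁻¹ ∈ Γ) :
    c (σ * g * σ⁻¹) ((1 : SL(2, ℤ)) : E) = c g (σ⁻¹ • ((1 : SL(2, ℤ)) : E)) := by
  rw [hc.map_conj]
  have h1 : σ • g⁻¹ • σ⁻¹ • ((1 : SL(2, ℤ)) : E) = ((1 : SL(2, ℤ)) : E) := by
    have hinv : (σ * g * σ⁻¹)⁻¹ ∈ Γ := Γ.inv_mem hmem
    have h' := coe_smul_one Γ ⟨(σ * g * σ⁻¹)⁻¹, hinv⟩
    have he : (σ * g * σ⁻¹)⁻¹ = σ * g⁻¹ * σ⁻¹ := by group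
    change (σ * g * σ⁻¹)⁻¹ • ((1 : SL(2, ℤ)) : E) = _ at h'
    rw [he, mul_smul, mul_smul] at h'
    exact h'
  rw [h1]; ring

/-- **[P1]** parabolicity criterion. -/
theorem isParabolicHom_iff_orbit (hneg : (-1 : SL(2, ℤ)) ∈ Γ) (φ : Additive Γ →+ ℤ) :
    ModularCurve.Period.IsParabolicHom Γ φ ↔
      ∀ (x : E) (k : ℕ), T ^ k • x = x → ind Γ φ (T ^ k) x = 0 := by
  constructor
  · intro hφ x k hx
    rw [ind_apply_of_smul_eq Γ φ hx]
    apply hφ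
    show ((((sec Γ x)⁻¹ * T ^ k * sec Γ x : SL(2, ℤ))) : Matrix (Fin 2) (Fin 2) ℤ).trace ^ 2 = 4
    rw [trace_conj, trace_T_pow]; norm_num
  · intro h
    have hc := isCocycle_ind Γ φ
    -- the trace two case
    have key : ∀ γ : Γ, (γ : SL(2, ℤ)) 0 0 + (γ : SL(2, ℤ)) 1 1 = 2 →
        φ (Additive.ofMul γ) = 0 := by
      intro γ htr
      obtain ⟨σ, k, hk⟩ := exists_conj_T_zpow (γ : SL(2, ℤ)) htr
      rw [← ind_apply_coe_one Γ φ γ]
      have hmem : σ * T ^ k * σ⁻¹ ∈ Γ := hk ▸ γ.2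
      rw [hk, cocycle_conj_T _ hc σ (T ^ k) hmem]
      set y : E := σ⁻¹ • ((1 : SL(2, ℤ)) : E) with hy
      -- `T ^ k` fixes `y`
      have hfix : (T ^ k : SL(2, ℤ)) • y = y := by
        have := coe_smul_one Γ ⟨σ * T ^ k * σ⁻¹, hmem⟩
        simp only [mul_smul] at this
        rw [hy]
        conv_rhs => rw [← this]
        simp
      rcases Int.eq_nat_or_neg k with ⟨n, rfl | rfl⟩
      · rw [zpow_natCast] at hfix ⊢
        exact h y n hfix
      · rw [_root_.zpow_neg, zpow_natCast] at hfix ⊢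
        have hfix' : T ^ n • y = y := pow_smul_eq_of_inv n hfix
        rw [hc.map_inv, hfix', h y n hfix', neg_zero]
    -- `φ (-1) = 0`
    have hneg1 : φ (Additive.ofMul (⟨-1, hneg⟩ : Γ)) = 0 := by
      have h2 : φ (Additive.ofMul (⟨-1, hneg⟩ : Γ)) + φ (Additive.ofMul (⟨-1, hneg⟩ : Γ)) = 0 := by
        rw [← map_add, ← ofMul_mul]
        have : (⟨-1, hneg⟩ : Γ) * ⟨-1, hneg⟩ = 1 := by
          apply Subtype.ext; simp
        rw [this, ofMul_one, map_zero]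
      omega
    intro γ hγ
    rw [ParClass.trace_entries] at hγ
    have h2 : (γ : SL(2, ℤ)) 0 0 + (γ : SL(2, ℤ)) 1 1 = 2 ∨
        (γ : SL(2, ℤ)) 0 0 + (γ : SL(2, ℤ)) 1 1 = -2 := by
      have : ((γ : SL(2, ℤ)) 0 0 + (γ : SL(2, ℤ)) 1 1 - 2) *
          ((γ : SL(2, ℤ)) 0 0 + (γ : SL(2, ℤ)) 1 1 + 2) = 0 := by linear_combination hγ
      rcases mul_eq_zero.mp this with h' | h'
      · left; linarith
      · right; linarith
    rcases h2 with h2 | h2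
    · exact key γ h2
    · -- `γ = (-1) * (-γ)`
      have hmem : -(γ : SL(2, ℤ)) ∈ Γ := by
        have := Γ.mul_mem hneg γ.2
        rwa [neg_one_mul] at this
      have hγ' : γ = (⟨-1, hneg⟩ : Γ) * ⟨-(γ : SL(2, ℤ)), hmem⟩ := by
        apply Subtype.ext
        simp
      rw [hγ', ofMul_mul, map_add, hneg1, zero_add]
      apply key
      show (-(γ : SL(2, ℤ))) 0 0 + (-(γ : SL(2, ℤ))) 1 1 = 2
      simp only [Matrix.SpecialLinearGroup.coe_neg, Matrix.neg_apply]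
      linarith

/-! ### [P2], [P3] -/

/-- the permutation of `E` induced by `T⁻¹`. -/
noncomputable def sigmaT : Equiv.Perm E := MulAction.toPerm (T⁻¹ : SL(2, ℤ))

theorem sigmaT_apply (x : E) : sigmaT (Γ := Γ) x = (T⁻¹ : SL(2, ℤ)) • x := rfl

theorem sigmaT_pow_apply (i : ℕ) (x : E) : ((sigmaT (Γ := Γ)) ^ i) x = (T ^ i)⁻¹ • x := by
  induction i generalizing x with
  | zero => simp
  | succ i ih =>
    rw [pow_succ, Equiv.Perm.mul_apply, ih, sigmaT_apply, pow_succ', _root_.mul_inv_rev, mul_smul]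

theorem cocycle_T_pow (c : SL(2, ℤ) → E → ℤ) (hc : IsCocycle Γ c) (k : ℕ) (x : E) :
    c (T ^ k) x = ∑ i ∈ Finset.range k, c T (((sigmaT (Γ := Γ)) ^ i) x) := by
  rw [hc.map_pow]
  exact Finset.sum_congr rfl fun i _ => by rw [sigmaT_pow_apply]

/-- **[P2]** -/
theorem exists_T_primitive [Finite E] (c : SL(2, ℤ) → E → ℤ) (hc : IsCocycle Γ c)
    (h : ∀ (x : E) (k : ℕ), T ^ k • x = x → c (T ^ k) x = 0) :
    ∃ v : E → ℤ, ∀ x, c T x = v ((T⁻¹ : SL(2, ℤ)) • x) - v x := by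
  have hM : 0 < orderOf (sigmaT (Γ := Γ)) := orderOf_pos _
  have hσ := pow_orderOf_eq_one (sigmaT (Γ := Γ))
  obtain ⟨g, hg⟩ := PermOrbit.exists_primitive (sigmaT (Γ := Γ)) (c T) _ hM hσ (fun z => by
    rw [← cocycle_T_pow c hc]
    apply h
    apply pow_smul_eq_of_inv
    rw [← sigmaT_pow_apply, hσ]; rfl)
  exact ⟨g, fun x => hg x⟩

/-- **[P3]** -/
theorem orbit_vanish_of_pair [Fintype E] (c : SL(2, ℤ) → E → ℤ) (hc : IsCocycle Γ c)
    (h : ∀ v : E → ℤ, (∀ x, v (T • x) = v x) → ∑ x, v x * c T x = 0) :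
    ∀ (x : E) (k : ℕ), T ^ k • x = x → c (T ^ k) x = 0 := by
  intro x k hx
  have hM : 0 < orderOf (sigmaT (Γ := Γ)) := orderOf_pos _
  have hσ := pow_orderOf_eq_one (sigmaT (Γ := Γ))
  have h0 := PermOrbit.orbit_sum_eq_zero_of_orthogonal (sigmaT (Γ := Γ)) (c T) _ hσ
    (fun w hw => h w fun y => by
      have := hw (T • y)
      rw [sigmaT_apply, inv_smul_smul] at this
      exact this.symm) x
  rw [cocycle_T_pow c hc]
  have hk : ((sigmaT (Γ := Γ)) ^ k) x = x := by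
    rw [sigmaT_pow_apply]
    conv_lhs => rw [← hx]
    exact inv_smul_smul _ _
  refine PermOrbit.sum_range_eq_zero_of_periodic
    (fun i => c T (((sigmaT (Γ := Γ)) ^ i) x)) k _ hM (fun i => ?_) (fun i => ?_) h0
  · show c T (((sigmaT (Γ := Γ)) ^ (i + k)) x) = _
    rw [pow_add, Equiv.Perm.mul_apply, hk]
  · show c T (((sigmaT (Γ := Γ)) ^ (i + orderOf (sigmaT (Γ := Γ)))) x) = _
    rw [pow_add, hσ, mul_one]

end Fermat.Agent.LR.ParCrit
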