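import Mathlib
import Fermat.Prelude.Def_ModularCurve_PeriodMap
import Fermat.Agent.LR.PDKron
import Fermat.Agent.LR.ParCrit

/-!
# Program M (S41), node C1: the integral Poincaré duality form on `Hom_par(Γ, ℤ)`

`Γ ≤ SL(2,ℤ)` of finite index with `-1 ∈ Γ`, `Lam Γ := parabolicHoms ℤ Γ ℤ`.

* `isParabolicHom_res_iff` : a cocycle `c` restricts to a parabolic character iff `c (T ^ k)`
  vanishes at the fixed points of `T ^ k`;
* `symHom hneg : Z1 Γ →ₗ[ℤ] Lam Γ`, `symHom_surjective`;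
* `pdForm Γ hneg : Lam Γ →ₗ[ℤ] Lam Γ →ₗ[ℤ] ℤ` with `pdForm_symHom_left`, `pdForm_symHom`,
  `six_mul_pdForm_symHom`, `pdForm_skew`, `pdForm_self`;
* `pdForm_bijective` : the form is perfect over `ℤ`.
-/

set_option autoImplicit false

namespace Fermat.Agent.LR.PD

open Matrix Matrix.SpecialLinearGroup ModularGroup
open Fermat.Agent.Eis.PSL2Free Fermat.Agent.Eis.Shapiro Fermat.Agent.Eis.CocycleUP
open Fermat.Agent.LR.PermModule Fermat.Agent.LR.ParCrit
open ModularCurve.Period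
open scoped MatrixGroups

variable {Γ : Subgroup SL(2, ℤ)}

/-! ### Parabolic characters and cocycles -/

/-- the parabolicity criterion for an arbitrary cocycle representing the character. -/
theorem isParabolicHom_res_iff (hneg : (-1 : SL(2, ℤ)) ∈ Γ) {c : SL(2, ℤ) → Cos Γ → ℤ}
    (hc : IsCocycle Γ c) :
    IsParabolicHom Γ (res Γ c hc) ↔ ∀ (x : Cos Γ) (k : ℕ), T ^ k • x = x → c (T ^ k) x = 0 := by
  obtain ⟨v, hv⟩ := exists_cob_of_res_eq hc (isCocycle_ind Γ (res Γ c hc)) (by rw [res_ind])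
  rw [isParabolicHom_iff_orbit hneg]
  refine forall_congr' fun x => forall_congr' fun k => ?_
  constructor
  · intro h hx
    rw [hv, h hx, cob_apply_of_smul_eq v hx, add_zero]
  · intro h hx
    have := h hx
    rw [hv, cob_apply_of_smul_eq v hx, add_zero] at this
    exact this

/-- a cocycle vanishing at `T` restricts to a parabolic character. -/
theorem isParabolicHom_res_of_T (hneg : (-1 : SL(2, ℤ)) ∈ Γ) {c : SL(2, ℤ) → Cos Γ → ℤ}
    (hc : IsCocycle Γ c) (hT : c T = 0) : IsParabolicHom Γ (res Γ c hc) := by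
  rw [isParabolicHom_res_iff hneg hc]
  intro x k _
  rw [hc.map_pow]
  refine Finset.sum_eq_zero fun i _ => ?_
  rw [hT]
  rfl

/-- `Δ` : modular symbols to parabolic characters. -/
noncomputable def symHom (hneg : (-1 : SL(2, ℤ)) ∈ Γ) : Z1 Γ →ₗ[ℤ] parabolicHoms ℤ Γ ℤ :=
  (symHomAux hneg).codRestrict (parabolicHoms ℤ Γ ℤ) fun m =>
    isParabolicHom_res_of_T hneg (isCocycle_symCocycle hneg m) (symCocycle_T hneg m)

@[simp] theorem coe_symHom (hneg : (-1 : SL(2, ℤ)) ∈ Γ) (m : Z1 Γ) :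
    ((symHom hneg m : parabolicHoms ℤ Γ ℤ) : Additive Γ →+ ℤ) = symHomAux hneg m := rfl

/-- a cocycle vanishing at `T` is the cocycle of a modular symbol. -/
theorem exists_Z1_of_T (hneg : (-1 : SL(2, ℤ)) ∈ Γ) {c : SL(2, ℤ) → Cos Γ → ℤ}
    (hc : IsCocycle Γ c) (hT : c T = 0) :
    ∃ m : Z1 Γ, c = symCocycle hneg m := by
  have h1 := cocycle_neg_one hneg hc
  have hSU : c U = c S := by
    funext y
    have := cocycle_T hc (S • y)
    rw [hT, S_smul_S_smul hneg] at this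
    simp only [Pi.zero_apply] at this
    omega
  have hm : c S ∈ Z1 Γ :=
    ⟨fun x => rel_S hneg hc h1 x, fun x => by rw [← hSU]; exact rel_U hneg hc h1 x⟩
  exact ⟨⟨c S, hm⟩, cocycle_ext hc (isCocycle_symCocycle hneg _) (by rw [symCocycle_S])
    (by rw [symCocycle_U, hSU])⟩

/-- **every parabolic character comes from a modular symbol.** -/
theorem symHom_surjective [Finite (Cos Γ)] (hneg : (-1 : SL(2, ℤ)) ∈ Γ) :
    Function.Surjective (symHom (Γ := Γ) hneg) := by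
  intro φ
  have hφ : IsParabolicHom Γ (φ : Additive Γ →+ ℤ) := φ.2
  have horb := (isParabolicHom_iff_orbit hneg _).mp hφ
  obtain ⟨v, hv⟩ := exists_T_primitive _ (isCocycle_ind Γ (φ : Additive Γ →+ ℤ)) horb
  have hc' : IsCocycle Γ (fun g x => ind Γ (φ : Additive Γ →+ ℤ) g x - cob Γ v g x) :=
    (isCocycle_ind Γ _).sub (isCocycle_cob v)
  have hT : (fun g x => ind Γ (φ : Additive Γ →+ ℤ) g x - cob Γ v g x) T = 0 := by
    funext x
    simp only [Pi.zero_apply]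
    rw [hv x, cob_apply, sub_self]
  obtain ⟨m, hm⟩ := exists_Z1_of_T hneg hc' hT
  refine ⟨m, Subtype.ext ?_⟩
  rw [coe_symHom, symHomAux_apply, ← res_congr Γ hc' (isCocycle_symCocycle hneg m) hm,
    res_sub Γ (isCocycle_ind Γ _) (isCocycle_cob v), res_ind, res_cob, sub_zero]

/-- explicit form: a parabolic character is the restriction of a cocycle with equal values in
`Z1` at `S` and `U` and value `0` at `T`. -/
theorem exists_symCocycle [Finite (Cos Γ)] (hneg : (-1 : SL(2, ℤ)) ∈ Γ)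
    (φ : Additive Γ →+ ℤ) (hφ : φ ∈ parabolicHoms ℤ Γ ℤ) :
    ∃ (A : SL(2, ℤ) → Cos Γ → ℤ) (hA : IsCocycle Γ A), res Γ A hA = φ ∧ A S = A U ∧
      A S ∈ Z1 Γ ∧ A T = 0 := by
  obtain ⟨m, hm⟩ := symHom_surjective hneg ⟨φ, hφ⟩
  refine ⟨symCocycle hneg m, isCocycle_symCocycle hneg m, ?_, ?_, ?_, symCocycle_T hneg m⟩
  · have := congrArg Subtype.val hm
    exact this
  · rw [symCocycle_S, symCocycle_U]
  · rw [symCocycle_S]; exact m.2

/-! ### Boundary symbols -/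

/-- for a `T`-invariant function `v`, `(S - 1) v` is a modular symbol with trivial character. -/
theorem boundary_mem_Z1 (hneg : (-1 : SL(2, ℤ)) ∈ Γ) (v : Cos Γ → ℤ)
    (hv : ∀ x, v (T • x) = v x) : dS v ∈ Z1 Γ ∧ dU v = dS v := by
  have hT : cob Γ v T = 0 := by
    funext x
    have := hv (T⁻¹ • x)
    rw [smul_inv_smul] at this
    rw [cob_apply, Pi.zero_apply]
    omega
  have hSU : dU v = dS v := by
    funext y
    have := cocycle_T (isCocycle_cob v) (S • y)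
    rw [hT, S_smul_S_smul hneg, cob_U hneg, cob_S hneg] at this
    simp only [Pi.zero_apply] at this
    omega
  exact ⟨⟨dS_relS hneg v, fun x => by rw [← hSU]; exact dU_relU hneg v x⟩, hSU⟩

theorem symHomAux_boundary (hneg : (-1 : SL(2, ℤ)) ∈ Γ) (v : Cos Γ → ℤ)
    (hv : ∀ x, v (T • x) = v x) :
    symHomAux hneg ⟨dS v, (boundary_mem_Z1 hneg v hv).1⟩ = 0 := by
  have h : symCocycle hneg ⟨dS v, (boundary_mem_Z1 hneg v hv).1⟩ = cob Γ v :=
    cocycle_ext (isCocycle_symCocycle hneg _) (isCocycle_cob v)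
      (by rw [symCocycle_S, cob_S hneg])
      (by rw [symCocycle_U, cob_U hneg]; exact (boundary_mem_Z1 hneg v hv).2.symm)
  rw [symHomAux_apply, res_congr Γ (isCocycle_symCocycle hneg _) (isCocycle_cob v) h, res_cob]

/-! ### The form on parabolic characters -/

section Form

variable [Fintype (Cos Γ)]

/-- the Kronecker pairing against parabolic characters only depends on the character of the
modular symbol. -/
theorem kron_eq_of_symHomAux_eq (hneg : (-1 : SL(2, ℤ)) ∈ Γ) (m m' : Z1 Γ)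
    (h : symHomAux hneg m = symHomAux hneg m') (ψ : parabolicHoms ℤ Γ ℤ) :
    kron hneg (m : Cos Γ → ℤ) ψ = kron hneg (m' : Cos Γ → ℤ) ψ := by
  obtain ⟨m'', rfl⟩ := symHom_surjective hneg ψ
  rw [coe_symHom]
  change inter hneg m m'' = inter hneg m' m''
  rw [inter_skew hneg m m'', inter_skew hneg m' m'']
  unfold inter
  rw [h]

/-- a chosen modular symbol of a parabolic character -/
noncomputable def msym (hneg : (-1 : SL(2, ℤ)) ∈ Γ) (φ : parabolicHoms ℤ Γ ℤ) : Z1 Γ :=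
  (symHom_surjective hneg φ).choose

theorem symHom_msym (hneg : (-1 : SL(2, ℤ)) ∈ Γ) (φ : parabolicHoms ℤ Γ ℤ) :
    symHom hneg (msym hneg φ) = φ := (symHom_surjective hneg φ).choose_spec

theorem symHomAux_msym (hneg : (-1 : SL(2, ℤ)) ∈ Γ) (φ : parabolicHoms ℤ Γ ℤ) :
    symHomAux hneg (msym hneg φ) = φ := congrArg Subtype.val (symHom_msym hneg φ)

/-- the form `(φ, ψ) ↦ kron (m_φ) ψ` as a function -/
noncomputable def pdFun (hneg : (-1 : SL(2, ℤ)) ∈ Γ) (φ ψ : parabolicHoms ℤ Γ ℤ) : ℤ :=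
  kron hneg (msym hneg φ : Cos Γ → ℤ) ψ

theorem pdFun_symHom_left (hneg : (-1 : SL(2, ℤ)) ∈ Γ) (m : Z1 Γ) (ψ : parabolicHoms ℤ Γ ℤ) :
    pdFun hneg (symHom hneg m) ψ = kron hneg (m : Cos Γ → ℤ) ψ :=
  kron_eq_of_symHomAux_eq hneg _ _ (by rw [symHomAux_msym, coe_symHom]) ψ

theorem pdFun_symHom (hneg : (-1 : SL(2, ℤ)) ∈ Γ) (m m' : Z1 Γ) :
    pdFun hneg (symHom hneg m) (symHom hneg m') = inter hneg m m' :=
  pdFun_symHom_left hneg m _

theorem pdFun_add_left (hneg : (-1 : SL(2, ℤ)) ∈ Γ) (φ φ' ψ : parabolicHoms ℤ Γ ℤ) :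
    pdFun hneg (φ + φ') ψ = pdFun hneg φ ψ + pdFun hneg φ' ψ := by
  obtain ⟨m, rfl⟩ := symHom_surjective hneg φ
  obtain ⟨m', rfl⟩ := symHom_surjective hneg φ'
  rw [← map_add, pdFun_symHom_left, pdFun_symHom_left, pdFun_symHom_left]
  exact kron_add_left hneg _ _ _

theorem pdFun_smul_left (hneg : (-1 : SL(2, ℤ)) ∈ Γ) (n : ℤ) (φ ψ : parabolicHoms ℤ Γ ℤ) :
    pdFun hneg (n • φ) ψ = n * pdFun hneg φ ψ := by
  obtain ⟨m, rfl⟩ := symHom_surjective hneg φ
  rw [← map_smul, pdFun_symHom_left, pdFun_symHom_left]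
  exact kron_smul_left hneg n _ _

theorem pdFun_add_right (hneg : (-1 : SL(2, ℤ)) ∈ Γ) (φ ψ ψ' : parabolicHoms ℤ Γ ℤ) :
    pdFun hneg φ (ψ + ψ') = pdFun hneg φ ψ + pdFun hneg φ ψ' :=
  kron_add_right hneg _ _ _

theorem pdFun_smul_right (hneg : (-1 : SL(2, ℤ)) ∈ Γ) (n : ℤ) (φ ψ : parabolicHoms ℤ Γ ℤ) :
    pdFun hneg φ (n • ψ) = n * pdFun hneg φ ψ :=
  kron_zsmul_right hneg _ n _

theorem pdFun_skew (hneg : (-1 : SL(2, ℤ)) ∈ Γ) (φ ψ : parabolicHoms ℤ Γ ℤ) :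
    pdFun hneg φ ψ = - pdFun hneg ψ φ := by
  obtain ⟨m, rfl⟩ := symHom_surjective hneg φ
  obtain ⟨m', rfl⟩ := symHom_surjective hneg ψ
  rw [pdFun_symHom, pdFun_symHom]
  exact inter_skew hneg m m'

/-- **nondegeneracy** -/
theorem eq_zero_of_pdFun_eq_zero (hneg : (-1 : SL(2, ℤ)) ∈ Γ) (φ : parabolicHoms ℤ Γ ℤ)
    (h : ∀ ψ, pdFun hneg φ ψ = 0) : φ = 0 := by
  obtain ⟨m, rfl⟩ := symHom_surjective hneg φ
  apply Subtype.ext
  rw [coe_symHom]
  refine eq_zero_of_kron_eq_zero hneg _ fun m'' => ?_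
  have := h (symHom hneg m'')
  rw [pdFun_symHom, inter_skew] at this
  unfold inter at this
  omega

/-- `⟨(S - 1) v, w⟩ = ⟨v, (S - 1) w⟩` -/
theorem pair_dS_left (hneg : (-1 : SL(2, ℤ)) ∈ Γ) (v w : Cos Γ → ℤ) :
    pair (dS v) w = pair v (dS w) := by
  unfold pair
  simp only [dS_apply, sub_mul, mul_sub, Finset.sum_sub_distrib]
  congr 1
  rw [← Equiv.sum_comp (permS Γ) (fun x => v x * w (S • x))]
  refine Finset.sum_congr rfl fun x _ => ?_
  simp only [permS_apply, S_smul_S_smul hneg]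

/-- **every functional is represented** -/
theorem exists_pdFun_eq (hneg : (-1 : SL(2, ℤ)) ∈ Γ) (lam : parabolicHoms ℤ Γ ℤ →ₗ[ℤ] ℤ) :
    ∃ ψ : parabolicHoms ℤ Γ ℤ, ∀ φ, pdFun hneg φ ψ = lam φ := by
  obtain ⟨w, c, hc, hcS, hcU, hw, hk⟩ := exists_kron_eq hneg (lam ∘ₗ symHom hneg)
  have hcT : c T = dS w := by
    funext x
    rw [cocycle_T hc, hcU, hcS]
    simp only [Pi.zero_apply, dS_apply, S_smul_S_smul hneg]
    ring
  have hpar : IsParabolicHom Γ (res Γ c hc) := by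
    rw [isParabolicHom_res_iff hneg hc]
    refine orbit_vanish_of_pair c hc fun v hv => ?_
    rw [hcT]
    change pair v (dS w) = 0
    rw [← pair_dS_left hneg]
    have := hw ⟨dS v, (boundary_mem_Z1 hneg v hv).1⟩
    rw [this, LinearMap.comp_apply]
    have h0 : symHom hneg ⟨dS v, (boundary_mem_Z1 hneg v hv).1⟩ = 0 :=
      Subtype.ext (symHomAux_boundary hneg v hv)
    rw [h0, map_zero]
  refine ⟨⟨res Γ c hc, hpar⟩, fun φ => ?_⟩
  obtain ⟨m, rfl⟩ := symHom_surjective hneg φ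
  rw [pdFun_symHom_left]
  exact hk m

end Form

/-! ### The bundled form -/

section Bundled

variable (Γ) [Γ.FiniteIndex]

/-- **the integral Poincaré duality form** on `Hom_par(Γ, ℤ)`. -/
noncomputable def pdForm (hneg : (-1 : SL(2, ℤ)) ∈ Γ) :
    parabolicHoms ℤ Γ ℤ →ₗ[ℤ] parabolicHoms ℤ Γ ℤ →ₗ[ℤ] ℤ :=
  letI : Fintype (Cos Γ) := Fintype.ofFinite _
  LinearMap.mk₂ ℤ (pdFun hneg) (pdFun_add_left hneg)
    (fun n φ ψ => by rw [smul_eq_mul]; exact pdFun_smul_left hneg n φ ψ)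
    (pdFun_add_right hneg)
    (fun n φ ψ => by rw [smul_eq_mul]; exact pdFun_smul_right hneg n φ ψ)

variable {Γ}

theorem pdForm_apply [inst : Fintype (Cos Γ)] (hneg : (-1 : SL(2, ℤ)) ∈ Γ)
    (φ ψ : parabolicHoms ℤ Γ ℤ) : pdForm Γ hneg φ ψ = pdFun hneg φ ψ := by
  have : inst = Fintype.ofFinite _ := Subsingleton.elim _ _
  subst this
  rfl

/-- `pdForm (Δ m) ψ = ⟨m, α - β⟩` for any cocycle `c` representing `ψ` and any primitives of its
values at `S`, `U`. -/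
theorem pdForm_symHom_left [Fintype (Cos Γ)] (hneg : (-1 : SL(2, ℤ)) ∈ Γ) (m : Z1 Γ)
    (ψ : parabolicHoms ℤ Γ ℤ) :
    pdForm Γ hneg (symHom hneg m) ψ = kron hneg (m : Cos Γ → ℤ) ψ := by
  rw [pdForm_apply, pdFun_symHom_left]

theorem pdForm_symHom [Fintype (Cos Γ)] (hneg : (-1 : SL(2, ℤ)) ∈ Γ) (m m' : Z1 Γ)
    (α β : Cos Γ → ℤ) (hα : (m' : Cos Γ → ℤ) = dS α) (hβ : (m' : Cos Γ → ℤ) = dU β) :
    pdForm Γ hneg (symHom hneg m) (symHom hneg m') = ∑ x, (m : Cos Γ → ℤ) x * (α x - β x) := by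
  rw [pdForm_apply, pdFun_symHom, inter_eq hneg m m' α β hα hβ]
  rfl

theorem six_mul_pdForm_symHom [Fintype (Cos Γ)] (hneg : (-1 : SL(2, ℤ)) ∈ Γ) (m m' : Z1 Γ) :
    6 * pdForm Γ hneg (symHom hneg m) (symHom hneg m') =
      ∑ x, (m : Cos Γ → ℤ) x * ((m' : Cos Γ → ℤ) x + 2 * (m' : Cos Γ → ℤ) (U • U • x)) := by
  rw [pdForm_apply, pdFun_symHom, six_mul_inter]

theorem pdForm_skew (hneg : (-1 : SL(2, ℤ)) ∈ Γ) (φ ψ : parabolicHoms ℤ Γ ℤ) :
    pdForm Γ hneg φ ψ = - pdForm Γ hneg ψ φ := by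
  let _ : Fintype (Cos Γ) := Fintype.ofFinite _
  rw [pdForm_apply, pdForm_apply]
  exact pdFun_skew hneg φ ψ

theorem pdForm_self (hneg : (-1 : SL(2, ℤ)) ∈ Γ) (φ : parabolicHoms ℤ Γ ℤ) :
    pdForm Γ hneg φ φ = 0 := by
  have := pdForm_skew hneg φ φ
  omega

/-- **Integral Poincaré duality**: the form is perfect over `ℤ`. -/
theorem pdForm_bijective (hneg : (-1 : SL(2, ℤ)) ∈ Γ) : Function.Bijective (pdForm Γ hneg) := by
  let _ : Fintype (Cos Γ) := Fintype.ofFinite _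
  constructor
  · rw [injective_iff_map_eq_zero]
    intro φ hφ
    refine eq_zero_of_pdFun_eq_zero hneg φ fun ψ => ?_
    rw [← pdForm_apply, hφ]
    rfl
  · intro lam
    obtain ⟨ψ, hψ⟩ := exists_pdFun_eq hneg lam
    refine ⟨-ψ, LinearMap.ext fun φ => ?_⟩
    rw [map_neg, LinearMap.neg_apply, ← pdForm_skew, pdForm_apply]
    exact hψ φ

end Bundled

end Fermat.Agent.LR.PD
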