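import Mathlib
import Fermat.Agent.LR.PDPerfect

/-!
# Program M (S41), node C1 (iv): restriction and corestriction are adjoint for the PD form

`Γ' ≤ Γ ≤ SL(2,ℤ)`, both of finite index and containing `-1`; `π : SL(2,ℤ) ⧸ Γ' → SL(2,ℤ) ⧸ Γ`.
Pull-back `π^*` and push-forward `π_*` (sum over the fibres) of functions are transposes for the
standard pairings and commute with the action of `SL(2,ℤ)`; on cocycles they induce restriction
`resPar` and corestriction (transfer) `corPar` of parabolic characters, and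

`pdForm Γ' (resPar φ) ψ' = pdForm Γ φ (corPar ψ')`.
-/

set_option autoImplicit false

namespace Fermat.Agent.LR.PD

open Matrix Matrix.SpecialLinearGroup ModularGroup
open Fermat.Agent.Eis.PSL2Free Fermat.Agent.Eis.Shapiro Fermat.Agent.Eis.CocycleUP
open Fermat.Agent.LR.PermModule
open ModularCurve.Period
open scoped MatrixGroups

variable {Γ Γ' : Subgroup SL(2, ℤ)}

/-- the projection `SL(2,ℤ) ⧸ Γ' → SL(2,ℤ) ⧸ Γ` -/
def proj (h : Γ' ≤ Γ) : Cos Γ' → Cos Γ := Subgroup.quotientMapOfLE h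

@[simp] theorem proj_mk (h : Γ' ≤ Γ) (g : SL(2, ℤ)) : proj h (g : Cos Γ') = (g : Cos Γ) := rfl

theorem proj_smul (h : Γ' ≤ Γ) (g : SL(2, ℤ)) (x : Cos Γ') : proj h (g • x) = g • proj h x := by
  induction x using QuotientGroup.induction_on with
  | H a => rfl

/-- pull-back of functions -/
def pull (h : Γ' ≤ Γ) (f : Cos Γ → ℤ) : Cos Γ' → ℤ := fun x => f (proj h x)

theorem pull_apply (h : Γ' ≤ Γ) (f : Cos Γ → ℤ) (x : Cos Γ') : pull h f x = f (proj h x) := rfl

theorem dS_pull (h : Γ' ≤ Γ) (f : Cos Γ → ℤ) : dS (pull h f) = pull h (dS f) := by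
  funext x
  simp only [dS_apply, pull_apply, proj_smul]

theorem dU_pull (h : Γ' ≤ Γ) (f : Cos Γ → ℤ) : dU (pull h f) = pull h (dU f) := by
  funext x
  simp only [dU_apply, pull_apply, proj_smul]

section Push

variable [Fintype (Cos Γ')]

open Classical in
/-- push-forward of functions: sum over the fibres -/
noncomputable def push (h : Γ' ≤ Γ) (f : Cos Γ' → ℤ) : Cos Γ → ℤ :=
  fun x => ∑ y ∈ Finset.univ.filter (fun y => proj h y = x), f y

open Classical in
theorem push_apply (h : Γ' ≤ Γ) (f : Cos Γ' → ℤ) (x : Cos Γ) :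
    push h f x = ∑ y ∈ Finset.univ.filter (fun y => proj h y = x), f y := rfl

theorem push_add (h : Γ' ≤ Γ) (f g : Cos Γ' → ℤ) : push h (f + g) = push h f + push h g := by
  funext x
  simp only [push_apply, Pi.add_apply, Finset.sum_add_distrib]

theorem push_sub (h : Γ' ≤ Γ) (f g : Cos Γ' → ℤ) : push h (f - g) = push h f - push h g := by
  funext x
  simp only [push_apply, Pi.sub_apply, Finset.sum_sub_distrib]

theorem push_smul (h : Γ' ≤ Γ) (n : ℤ) (f : Cos Γ' → ℤ) : push h (n • f) = n • push h f := by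
  funext x
  simp only [push_apply, Pi.smul_apply, smul_eq_mul, Finset.mul_sum]

open Classical in
/-- equivariance of the push-forward -/
theorem push_comp_smul (h : Γ' ≤ Γ) (g : SL(2, ℤ)) (f : Cos Γ' → ℤ) (x : Cos Γ) :
    push h (fun y => f (g • y)) x = push h f (g • x) := by
  simp only [push_apply]
  refine Finset.sum_bij (fun y _ => g • y) ?_ ?_ ?_ ?_
  · intro y hy
    simp only [Finset.mem_filter, Finset.mem_univ, true_and] at hy ⊢
    rw [proj_smul, hy]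
  · intro y _ y' _ hyy'
    exact smul_left_cancel g hyy'
  · intro z hz
    simp only [Finset.mem_filter, Finset.mem_univ, true_and] at hz
    refine ⟨g⁻¹ • z, ?_, smul_inv_smul g z⟩
    simp only [Finset.mem_filter, Finset.mem_univ, true_and]
    rw [proj_smul, hz, inv_smul_smul]
  · intro y _
    rfl

theorem dS_push (h : Γ' ≤ Γ) (f : Cos Γ' → ℤ) : dS (push h f) = push h (dS f) := by
  funext x
  have e : dS f = (fun y => f (S • y)) - f := rfl
  rw [e, push_sub, dS_apply, Pi.sub_apply, push_comp_smul]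

theorem dU_push (h : Γ' ≤ Γ) (f : Cos Γ' → ℤ) : dU (push h f) = push h (dU f) := by
  funext x
  have e : dU f = (fun y => f ((U * U) • y)) - f := by
    funext y
    simp only [dU_apply, Pi.sub_apply, mul_smul]
  rw [e, push_sub, dU_apply, Pi.sub_apply, push_comp_smul, mul_smul]

open Classical in
/-- `π^*` and `π_*` are transposes -/
theorem pair_pull_left [Fintype (Cos Γ)] (h : Γ' ≤ Γ) (m : Cos Γ → ℤ) (f : Cos Γ' → ℤ) :
    pair (pull h m) f = pair m (push h f) := by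
  unfold pair
  simp only [push_apply, pull_apply, Finset.mul_sum]
  rw [← Finset.sum_fiberwise Finset.univ (proj h) (fun y => m (proj h y) * f y)]
  refine Finset.sum_congr rfl fun x _ => Finset.sum_congr rfl fun y hy => ?_
  simp only [Finset.mem_filter, Finset.mem_univ, true_and] at hy
  rw [hy]

end Push

/-! ### Modular symbols -/

theorem pull_mem_Z1 (h : Γ' ≤ Γ) (m : Z1 Γ) : pull h (m : Cos Γ → ℤ) ∈ Z1 Γ' := by
  refine ⟨fun x => ?_, fun x => ?_⟩
  · simp only [pull_apply, proj_smul]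
    exact Z1_relS m _
  · simp only [pull_apply, proj_smul]
    exact Z1_relU m _

theorem push_mem_Z1 [Fintype (Cos Γ')] (h : Γ' ≤ Γ) (m : Z1 Γ') :
    push h (m : Cos Γ' → ℤ) ∈ Z1 Γ := by
  refine ⟨fun x => ?_, fun x => ?_⟩
  · rw [← push_comp_smul, ← Pi.add_apply, ← push_add]
    have : (m : Cos Γ' → ℤ) + (fun y => (m : Cos Γ' → ℤ) (S • y)) = 0 := by
      funext y; exact Z1_relS m y
    rw [this]
    simp [push_apply]
  · have e : (U : SL(2, ℤ)) • U • x = (U * U) • x := by rw [mul_smul]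
    rw [e, ← push_comp_smul, ← push_comp_smul, ← Pi.add_apply, ← Pi.add_apply, ← push_add,
      ← push_add]
    have : (m : Cos Γ' → ℤ) + (fun y => (m : Cos Γ' → ℤ) (U • y)) +
        (fun y => (m : Cos Γ' → ℤ) ((U * U) • y)) = 0 := by
      funext y
      simp only [Pi.add_apply, mul_smul]
      exact Z1_relU m y
    rw [this]
    simp [push_apply]

/-- pull-back of modular symbols -/
def pullZ (h : Γ' ≤ Γ) : Z1 Γ →ₗ[ℤ] Z1 Γ' where
  toFun m := ⟨pull h m, pull_mem_Z1 h m⟩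
  map_add' _ _ := rfl
  map_smul' _ _ := rfl

/-- push-forward of modular symbols -/
noncomputable def pushZ [Fintype (Cos Γ')] (h : Γ' ≤ Γ) : Z1 Γ' →ₗ[ℤ] Z1 Γ where
  toFun m := ⟨push h m, push_mem_Z1 h m⟩
  map_add' _ _ := Subtype.ext (push_add h _ _)
  map_smul' n _ := Subtype.ext (push_smul h n _)

@[simp] theorem coe_pullZ (h : Γ' ≤ Γ) (m : Z1 Γ) :
    ((pullZ h m : Z1 Γ') : Cos Γ' → ℤ) = pull h m := rfl

@[simp] theorem coe_pushZ [Fintype (Cos Γ')] (h : Γ' ≤ Γ) (m : Z1 Γ') :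
    ((pushZ h m : Z1 Γ) : Cos Γ → ℤ) = push h m := rfl

/-! ### Cocycles -/

theorem isCocycle_pull (h : Γ' ≤ Γ) {c : SL(2, ℤ) → Cos Γ → ℤ} (hc : IsCocycle Γ c) :
    IsCocycle Γ' (fun g => pull h (c g)) := by
  intro g g' x
  simp only [pull_apply, proj_smul]
  exact hc g g' _

theorem isCocycle_push [Fintype (Cos Γ')] (h : Γ' ≤ Γ) {c : SL(2, ℤ) → Cos Γ' → ℤ}
    (hc : IsCocycle Γ' c) : IsCocycle Γ (fun g => push h (c g)) := by
  intro g g' x
  have e : c (g * g') = c g + fun y => c g' (g⁻¹ • y) := by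
    funext y
    exact hc g g' y
  simp only
  rw [e, push_add, Pi.add_apply, push_comp_smul]

theorem push_cob [Fintype (Cos Γ')] (h : Γ' ≤ Γ) (v : Cos Γ' → ℤ) (g : SL(2, ℤ)) :
    push h (cob Γ' v g) = cob Γ (push h v) g := by
  funext x
  have e : cob Γ' v g = (fun y => v (g⁻¹ • y)) - v := rfl
  rw [e, push_sub, Pi.sub_apply, push_comp_smul]
  rfl

/-! ### Restriction of characters -/

/-- restriction of characters -/
def resHom (h : Γ' ≤ Γ) : (Additive Γ →+ ℤ) →+ (Additive Γ' →+ ℤ) where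
  toFun φ := φ.comp (MonoidHom.toAdditive (Subgroup.inclusion h))
  map_zero' := rfl
  map_add' _ _ := rfl

theorem resHom_apply (h : Γ' ≤ Γ) (φ : Additive Γ →+ ℤ) (γ : Γ') :
    resHom h φ (Additive.ofMul γ) = φ (Additive.ofMul (Subgroup.inclusion h γ)) := rfl

/-- the restriction to `Γ'` of the pull-back of a cocycle -/
theorem res_pull (h : Γ' ≤ Γ) {c : SL(2, ℤ) → Cos Γ → ℤ} (hc : IsCocycle Γ c) :
    res Γ' (fun g => pull h (c g)) (isCocycle_pull h hc) = resHom h (res Γ c hc) := rfl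

theorem symCocycle_pullZ (h : Γ' ≤ Γ) (hneg : (-1 : SL(2, ℤ)) ∈ Γ) (hneg' : (-1 : SL(2, ℤ)) ∈ Γ')
    (m : Z1 Γ) :
    symCocycle hneg' (pullZ h m) = fun g => pull h (symCocycle hneg m g) :=
  cocycle_ext (isCocycle_symCocycle hneg' _) (isCocycle_pull h (isCocycle_symCocycle hneg m))
    (by
      rw [symCocycle_S, symCocycle_S, coe_pullZ])
    (by
      rw [symCocycle_U, symCocycle_U, coe_pullZ])

/-- `Δ ∘ π^* = res ∘ Δ` -/
theorem symHomAux_pullZ (h : Γ' ≤ Γ) (hneg : (-1 : SL(2, ℤ)) ∈ Γ) (hneg' : (-1 : SL(2, ℤ)) ∈ Γ')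
    (m : Z1 Γ) : symHomAux hneg' (pullZ h m) = resHom h (symHomAux hneg m) := by
  rw [symHomAux_apply, symHomAux_apply, ← res_pull h (isCocycle_symCocycle hneg m)]
  exact res_congr Γ' _ _ (symCocycle_pullZ h hneg hneg' m)

theorem isParabolicHom_resHom (h : Γ' ≤ Γ) {φ : Additive Γ →+ ℤ} (hφ : IsParabolicHom Γ φ) :
    IsParabolicHom Γ' (resHom h φ) :=
  fun γ hγ => hφ (Subgroup.inclusion h γ) hγ

/-- **restriction** of parabolic characters -/
def resPar (h : Γ' ≤ Γ) : parabolicHoms ℤ Γ ℤ →ₗ[ℤ] parabolicHoms ℤ Γ' ℤ where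
  toFun φ := ⟨resHom h φ, isParabolicHom_resHom h φ.2⟩
  map_add' _ _ := rfl
  map_smul' _ _ := rfl

@[simp] theorem coe_resPar (h : Γ' ≤ Γ) (φ : parabolicHoms ℤ Γ ℤ) :
    ((resPar h φ : parabolicHoms ℤ Γ' ℤ) : Additive Γ' →+ ℤ) = resHom h φ := rfl

theorem resPar_apply (h : Γ' ≤ Γ) (φ : parabolicHoms ℤ Γ ℤ) (γ : Γ') :
    (resPar h φ : Additive Γ' →+ ℤ) (Additive.ofMul γ) =
      (φ : Additive Γ →+ ℤ) (Additive.ofMul (Subgroup.inclusion h γ)) := rfl

theorem resPar_symHom (h : Γ' ≤ Γ) (hneg : (-1 : SL(2, ℤ)) ∈ Γ) (hneg' : (-1 : SL(2, ℤ)) ∈ Γ')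
    (m : Z1 Γ) : resPar h (symHom hneg m) = symHom hneg' (pullZ h m) :=
  Subtype.ext (symHomAux_pullZ h hneg hneg' m).symm

/-! ### Corestriction (transfer) of characters -/

section Cor

variable [Fintype (Cos Γ')]

/-- corestriction (transfer) of characters: push forward the induced cocycle. -/
noncomputable def corHom (h : Γ' ≤ Γ) : (Additive Γ' →+ ℤ) →+ (Additive Γ →+ ℤ) where
  toFun ψ := res Γ (fun g => push h (ind Γ' ψ g)) (isCocycle_push h (isCocycle_ind Γ' ψ))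
  map_zero' := by
    ext γ
    change push h (ind Γ' (0 : Additive Γ' →+ ℤ) _) _ = 0
    rw [push_apply]
    exact Finset.sum_eq_zero fun y _ => rfl
  map_add' ψ ψ' := by
    ext γ
    change push h (ind Γ' (ψ + ψ') _) _ = push h (ind Γ' ψ _) _ + push h (ind Γ' ψ' _) _
    have e : ∀ g, ind Γ' (ψ + ψ') g = ind Γ' ψ g + ind Γ' ψ' g := fun g => rfl
    rw [e, push_add]
    rfl

open Classical in
/-- the transfer formula: `cor ψ γ = ∑_{y ↦ 1} ψ ((sec y)⁻¹ γ sec (γ⁻¹ y))`. -/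
theorem corHom_apply (h : Γ' ≤ Γ) (ψ : Additive Γ' →+ ℤ) (γ : Γ) :
    corHom h ψ (Additive.ofMul γ) =
      ∑ y ∈ Finset.univ.filter (fun y => proj h y = ((1 : SL(2, ℤ)) : Cos Γ)),
        ψ (Additive.ofMul (gam Γ' (γ : SL(2, ℤ)) y)) := rfl

/-- the restriction to `Γ` of the push-forward of ANY cocycle representing `ψ` is `cor ψ`. -/
theorem res_push (h : Γ' ≤ Γ) {c : SL(2, ℤ) → Cos Γ' → ℤ} (hc : IsCocycle Γ' c) :
    res Γ (fun g => push h (c g)) (isCocycle_push h hc) = corHom h (res Γ' c hc) := by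
  obtain ⟨v, hv⟩ := exists_cob_of_res_eq hc (isCocycle_ind Γ' (res Γ' c hc)) (by rw [res_ind])
  have e : (fun g => push h (c g)) =
      fun g x => push h (ind Γ' (res Γ' c hc) g) x + cob Γ (push h v) g x := by
    funext g
    have e1 : c g = ind Γ' (res Γ' c hc) g + cob Γ' v g := by
      funext x
      exact hv g x
    rw [e1, push_add, push_cob]
    rfl
  rw [res_congr Γ (isCocycle_push h hc)
    ((isCocycle_push h (isCocycle_ind Γ' _)).add (isCocycle_cob _)) e,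
    res_add Γ (isCocycle_push h (isCocycle_ind Γ' _)) (isCocycle_cob _), res_cob, add_zero]
  rfl

theorem symCocycle_pushZ (h : Γ' ≤ Γ) (hneg : (-1 : SL(2, ℤ)) ∈ Γ) (hneg' : (-1 : SL(2, ℤ)) ∈ Γ')
    (m' : Z1 Γ') :
    symCocycle hneg (pushZ h m') = fun g => push h (symCocycle hneg' m' g) :=
  cocycle_ext (isCocycle_symCocycle hneg _) (isCocycle_push h (isCocycle_symCocycle hneg' m'))
    (by
      rw [symCocycle_S, symCocycle_S, coe_pushZ])
    (by
      rw [symCocycle_U, symCocycle_U, coe_pushZ])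

/-- `Δ ∘ π_* = cor ∘ Δ` -/
theorem symHomAux_pushZ (h : Γ' ≤ Γ) (hneg : (-1 : SL(2, ℤ)) ∈ Γ) (hneg' : (-1 : SL(2, ℤ)) ∈ Γ')
    (m' : Z1 Γ') : symHomAux hneg (pushZ h m') = corHom h (symHomAux hneg' m') := by
  rw [symHomAux_apply, symHomAux_apply, ← res_push h (isCocycle_symCocycle hneg' m')]
  exact res_congr Γ _ _ (symCocycle_pushZ h hneg hneg' m')

/-- the corestriction of a parabolic character is parabolic. -/
theorem corHom_mem (h : Γ' ≤ Γ) (hneg' : (-1 : SL(2, ℤ)) ∈ Γ') (ψ : parabolicHoms ℤ Γ' ℤ) :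
    corHom h (ψ : Additive Γ' →+ ℤ) ∈ parabolicHoms ℤ Γ ℤ := by
  obtain ⟨m', rfl⟩ := symHom_surjective hneg' ψ
  rw [coe_symHom, ← symHomAux_pushZ h (h hneg') hneg']
  exact (symHom (h hneg') (pushZ h m')).2

/-- corestriction of parabolic characters, for a given `Fintype` structure. -/
noncomputable def corParAux (h : Γ' ≤ Γ) (hneg' : (-1 : SL(2, ℤ)) ∈ Γ') :
    parabolicHoms ℤ Γ' ℤ →ₗ[ℤ] parabolicHoms ℤ Γ ℤ where
  toFun ψ := ⟨corHom h ψ, corHom_mem h hneg' ψ⟩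
  map_add' _ _ := Subtype.ext (map_add (corHom h) _ _)
  map_smul' n _ := Subtype.ext (map_zsmul (corHom h) n _)

theorem corParAux_symHom (h : Γ' ≤ Γ) (hneg : (-1 : SL(2, ℤ)) ∈ Γ) (hneg' : (-1 : SL(2, ℤ)) ∈ Γ')
    (m' : Z1 Γ') : corParAux h hneg' (symHom hneg' m') = symHom hneg (pushZ h m') :=
  Subtype.ext (symHomAux_pushZ h hneg hneg' m').symm

end Cor

/-! ### The bundled corestriction and the adjunction formula -/

section Bundled

/-- **corestriction** (transfer) of parabolic characters -/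
noncomputable def corPar [Γ'.FiniteIndex] (h : Γ' ≤ Γ) (hneg' : (-1 : SL(2, ℤ)) ∈ Γ') :
    parabolicHoms ℤ Γ' ℤ →ₗ[ℤ] parabolicHoms ℤ Γ ℤ :=
  letI : Fintype (Cos Γ') := Fintype.ofFinite _
  corParAux h hneg'

theorem corPar_eq [Γ'.FiniteIndex] [inst : Fintype (Cos Γ')] (h : Γ' ≤ Γ)
    (hneg' : (-1 : SL(2, ℤ)) ∈ Γ') : corPar h hneg' = corParAux h hneg' := by
  have : inst = Fintype.ofFinite _ := Subsingleton.elim _ _
  subst this
  rfl

theorem coe_corPar [Γ'.FiniteIndex] [Fintype (Cos Γ')] (h : Γ' ≤ Γ)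
    (hneg' : (-1 : SL(2, ℤ)) ∈ Γ') (ψ : parabolicHoms ℤ Γ' ℤ) :
    ((corPar h hneg' ψ : parabolicHoms ℤ Γ ℤ) : Additive Γ →+ ℤ) = corHom h ψ := by
  rw [corPar_eq]
  rfl

theorem corPar_symHom [Γ'.FiniteIndex] [Fintype (Cos Γ')] (h : Γ' ≤ Γ)
    (hneg : (-1 : SL(2, ℤ)) ∈ Γ) (hneg' : (-1 : SL(2, ℤ)) ∈ Γ') (m' : Z1 Γ') :
    corPar h hneg' (symHom hneg' m') = symHom hneg (pushZ h m') := by
  rw [corPar_eq]
  exact corParAux_symHom h hneg hneg' m'

/-- **restriction and corestriction are adjoint for the Poincaré duality forms.** -/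
theorem pdForm_res_cor [Γ.FiniteIndex] [Γ'.FiniteIndex] (h : Γ' ≤ Γ)
    (hneg : (-1 : SL(2, ℤ)) ∈ Γ) (hneg' : (-1 : SL(2, ℤ)) ∈ Γ')
    (φ : parabolicHoms ℤ Γ ℤ) (ψ' : parabolicHoms ℤ Γ' ℤ) :
    pdForm Γ' hneg' (resPar h φ) ψ' = pdForm Γ hneg φ (corPar h hneg' ψ') := by
  let _ : Fintype (Cos Γ) := Fintype.ofFinite _
  let _ : Fintype (Cos Γ') := Fintype.ofFinite _
  obtain ⟨m, rfl⟩ := symHom_surjective hneg φ
  obtain ⟨m', rfl⟩ := symHom_surjective hneg' ψ'
  obtain ⟨α', β', hα', hβ'⟩ := exists_primitives_Z1 hneg' m'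
  rw [resPar_symHom h hneg hneg', corPar_symHom h hneg hneg',
    pdForm_symHom hneg' (pullZ h m) m' α' β' hα' hβ',
    pdForm_symHom hneg m (pushZ h m') (push h α') (push h β')
      (by rw [coe_pushZ, dS_push, ← hα']) (by rw [coe_pushZ, dU_push, ← hβ'])]
  have := pair_pull_left h (m : Cos Γ → ℤ) (α' - β')
  rw [push_sub] at this
  exact this

/-- the transposed adjunction formula. -/
theorem pdForm_cor_res [Γ.FiniteIndex] [Γ'.FiniteIndex] (h : Γ' ≤ Γ)
    (hneg : (-1 : SL(2, ℤ)) ∈ Γ) (hneg' : (-1 : SL(2, ℤ)) ∈ Γ')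
    (ψ' : parabolicHoms ℤ Γ' ℤ) (φ : parabolicHoms ℤ Γ ℤ) :
    pdForm Γ hneg (corPar h hneg' ψ') φ = pdForm Γ' hneg' ψ' (resPar h φ) := by
  rw [pdForm_skew hneg, ← pdForm_res_cor h hneg hneg', ← pdForm_skew hneg']

end Bundled

end Fermat.Agent.LR.PD
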