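import Mathlib
import Fermat.Agent.LR.PDResCor
import Fermat.Agent.LR.DegIndep
import Fermat.Agent.LR.DegLam

/-!
# Program M (S41), nodes B/C glue: `hadj1` for the levels `N`, `N q`

For `Γ' = Γ₀(N q) ≤ Γ = Γ₀(N)` (`q` prime, `q ∤ N`), node B's restriction `Deg.A1Lam` and
corestriction `Deg.B1Lam` are node C's `resPar` and `corPar`, hence they are adjoint for the
Poincaré duality forms:

`pdForm (Γ₀(N q)) (A1Lam x) y = pdForm (Γ₀(N)) x (B1Lam y)`.
-/

set_option autoImplicit false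

namespace Fermat.Agent.LR.PD

open Matrix Matrix.SpecialLinearGroup ModularGroup CongruenceSubgroup
open Fermat.Agent.Eis.PSL2Free Fermat.Agent.Eis.Shapiro Fermat.Agent.Eis.CocycleUP
open Fermat.Agent.LR.PermModule Fermat.Agent.Jac
open ModularCurve.Period
open scoped MatrixGroups

theorem negOne_mem_Gamma0 (M : ℕ) : (-1 : SL(2, ℤ)) ∈ Gamma0 M := by
  rw [Gamma0_mem]
  simp

section Fibre

variable {Γ Γ' : Subgroup SL(2, ℤ)}

/-- a coset of `Γ'` over the base point of `SL(2,ℤ) ⧸ Γ` has its section in `Γ`. -/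
theorem sec_mem_of_proj_eq (h : Γ' ≤ Γ) {y : Cos Γ'}
    (hy : proj h y = ((1 : SL(2, ℤ)) : Cos Γ)) : sec Γ' y ∈ Γ := by
  have h1 : proj h ((sec Γ' y : SL(2, ℤ)) : Cos Γ') = ((1 : SL(2, ℤ)) : Cos Γ) := by
    rw [mk_sec, hy]
  rw [proj_mk] at h1
  have h2 := QuotientGroup.eq.mp h1.symm
  rw [inv_one, one_mul] at h2
  exact h2

theorem proj_smul_of_mem (h : Γ' ≤ Γ) (γ : Γ) {y : Cos Γ'}
    (hy : proj h y = ((1 : SL(2, ℤ)) : Cos Γ)) :
    proj h ((γ : SL(2, ℤ)) • y) = ((1 : SL(2, ℤ)) : Cos Γ) := by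
  rw [proj_smul, hy, coe_smul_one]

end Fibre

section Gamma0

variable (N q : ℕ) [NeZero N] [NeZero (N * q)] (hq : q.Prime) (hqN : ¬ q ∣ N)

omit [NeZero (N * q)] in
/-- node B's restriction is `resPar`. -/
theorem A1Lam_eq_resPar : Deg.A1Lam N q = resPar (Deg.gamma0_mul_le N q) := by
  refine LinearMap.ext fun x => Subtype.ext ?_
  rw [Deg.coe_A1Lam, Deg.A1_eq_comp, coe_resPar]
  rfl

omit [NeZero (N * q)] in
open Classical in
/-- the fibre over the base point is in bijection with `P¹(𝔽_q)`. -/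
theorem card_fibre_Gamma0 [Fintype (Cos (Gamma0 (N * q)))] (hq : q.Prime) (hqN : ¬ q ∣ N) :
    Fintype.card {y : Cos (Gamma0 (N * q)) //
      proj (Deg.gamma0_mul_le N q) y = ((1 : SL(2, ℤ)) : Cos (Gamma0 N))} = q + 1 := by
  have : NeZero q := ⟨hq.ne_zero⟩
  rw [← RepsDecomp.card_onePoint_zmod q]
  symm
  let f : OnePoint (ZMod q) → {y : Cos (Gamma0 (N * q)) //
      proj (Deg.gamma0_mul_le N q) y = ((1 : SL(2, ℤ)) : Cos (Gamma0 N))} := fun x =>
    ⟨((((Deg.sx N q hq hqN x : Gamma0 N) : SL(2, ℤ))⁻¹ : SL(2, ℤ)) : Cos (Gamma0 (N * q))), by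
      rw [proj_mk]
      refine QuotientGroup.eq.mpr ?_
      rw [inv_inv]
      exact (Gamma0 N).mul_mem (Deg.sx N q hq hqN x).2 (Gamma0 N).one_mem⟩
  refine Fintype.card_of_bijective (f := f) ⟨?_, ?_⟩
  · intro x x' hxx'
    have h1 := congrArg Subtype.val hxx'
    have h2 := QuotientGroup.eq.mp h1
    rw [inv_inv] at h2
    -- `sx x * (sx x')⁻¹ ∈ Γ₀(N q)`
    refine (Deg.corFam_distinct N q hq hqN).2 x x' ⟨_, h2⟩ ?_
    rw [Deg.corFam_rep, Deg.corFam_rep]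
    have e : Deg.sx N q hq hqN x =
        Deg.inclHom N q ⟨_, h2⟩ * Deg.sx N q hq hqN x' := by
      apply Subtype.ext
      rw [Subgroup.coe_mul, Deg.coe_inclHom]
      simp
    conv_lhs => rw [e]
    rw [map_mul, Deg.embG_inclHom]
  · rintro ⟨y, hy⟩
    have hmem := sec_mem_of_proj_eq (Deg.gamma0_mul_le N q) hy
    obtain ⟨x, γ', hx⟩ := Deg.exists_eq_mul_sx N q hq hqN (⟨sec _ y, hmem⟩ : Gamma0 N)⁻¹
    refine ⟨x, Subtype.ext ?_⟩
    change ((((Deg.sx N q hq hqN x : Gamma0 N) : SL(2, ℤ))⁻¹ : SL(2, ℤ)) :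
      Cos (Gamma0 (N * q))) = y
    conv_rhs => rw [← mk_sec (Gamma0 (N * q)) y]
    refine QuotientGroup.eq.mpr ?_
    rw [inv_inv]
    have h1 := congrArg (fun g : Gamma0 N => ((g : SL(2, ℤ)))) hx
    simp only [InvMemClass.coe_inv, Subgroup.coe_mul, Deg.coe_inclHom] at h1
    -- `(sec y)⁻¹ = γ' * sx x`, so `sx x * sec y = γ'⁻¹`
    have h2 : ((Deg.sx N q hq hqN x : Gamma0 N) : SL(2, ℤ)) * sec (Gamma0 (N * q)) y =
        ((γ'⁻¹ : Gamma0 (N * q)) : SL(2, ℤ)) := by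
      have h3 : sec (Gamma0 (N * q)) y =
          ((γ' : SL(2, ℤ)) * ((Deg.sx N q hq hqN x : Gamma0 N) : SL(2, ℤ)))⁻¹ := by
        rw [← h1, inv_inv]
      rw [InvMemClass.coe_inv, h3]
      group
    rw [h2]
    exact (γ'⁻¹).2

/-- node B's corestriction is the transfer `corHom`. -/
theorem B1_eq_corHom [Fintype (Cos (Gamma0 (N * q)))]
    (ψ : Additive (Gamma0 (N * q)) →+ ℤ) :
    Deg.B1 N q hq hqN ℤ ψ = corHom (Deg.gamma0_mul_le N q) ψ := by
  classical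
  refine AddMonoidHom.ext fun γ => ?_
  obtain ⟨γ, rfl⟩ : ∃ γ' : Gamma0 N, Additive.ofMul γ' = γ := ⟨Additive.toMul γ, rfl⟩
  set h := Deg.gamma0_mul_le N q with hh
  set ι := {y : Cos (Gamma0 (N * q)) // proj h y = ((1 : SL(2, ℤ)) : Cos (Gamma0 N))} with hι
  have hcard : Fintype.card ι = q + 1 := by
    convert card_fibre_Gamma0 N q hq hqN
  let t : ι → Gamma0 N := fun y => ⟨sec (Gamma0 (N * q)) y.1, sec_mem_of_proj_eq h y.2⟩
  let σ : ι → ι := fun y => ⟨(γ : SL(2, ℤ)) • y.1, proj_smul_of_mem h γ y.2⟩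
  let c : ι → Gamma0 (N * q) := fun y => gam (Gamma0 (N * q)) (γ : SL(2, ℤ)) ((γ : SL(2, ℤ)) • y.1)
  have key := Deg.B1_apply_of_left_reps N q hq hqN (M := ℤ) hcard t
    (fun i j hij => by
      apply Subtype.ext
      rw [← mk_sec (Gamma0 (N * q)) i.1, ← mk_sec (Gamma0 (N * q)) j.1]
      exact QuotientGroup.eq.mpr hij)
    γ c σ
    (fun i => by
      apply Subtype.ext
      simp only [Subgroup.coe_mul, Deg.coe_inclHom, t, σ, c, coe_gam, inv_smul_smul]
      group) ψ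
  rw [key, corHom_apply]
  -- reindex the fibre by `y ↦ γ • y`
  rw [Finset.sum_subtype (Finset.univ.filter
    (fun y => proj h y = ((1 : SL(2, ℤ)) : Cos (Gamma0 N))))
    (p := fun y => proj h y = ((1 : SL(2, ℤ)) : Cos (Gamma0 N))) (fun y => by simp)
    (fun y => ψ (Additive.ofMul (gam (Gamma0 (N * q)) (γ : SL(2, ℤ)) y)))]
  have hσ : Function.Bijective σ := by
    refine Finite.injective_iff_bijective.mp ?_
    intro i j hij
    have := congrArg Subtype.val hij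
    exact Subtype.ext (smul_left_cancel _ this)
  exact hσ.sum_comp (fun y : ι => ψ (Additive.ofMul (gam (Gamma0 (N * q)) (γ : SL(2, ℤ)) y.1)))

/-- node B's corestriction is `corPar`. -/
theorem B1Lam_eq_corPar :
    Deg.B1Lam N q hq hqN = corPar (Deg.gamma0_mul_le N q) (negOne_mem_Gamma0 (N * q)) := by
  let _ : Fintype (Cos (Gamma0 (N * q))) := Fintype.ofFinite _
  refine LinearMap.ext fun y => Subtype.ext ?_
  rw [Deg.coe_B1Lam, coe_corPar, B1_eq_corHom]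

/-- **`hadj1`**: restriction and corestriction between the levels `N` and `N q` are adjoint for the
Poincaré duality forms. -/
theorem pdForm_A1Lam_B1Lam (x : Lam N) (y : Lam (N * q)) :
    pdForm (Gamma0 (N * q)) (negOne_mem_Gamma0 (N * q)) (Deg.A1Lam N q x) y =
      pdForm (Gamma0 N) (negOne_mem_Gamma0 N) x (Deg.B1Lam N q hq hqN y) := by
  rw [A1Lam_eq_resPar, B1Lam_eq_corPar]
  exact pdForm_res_cor (Deg.gamma0_mul_le N q) _ _ x y

end Gamma0

end Fermat.Agent.LR.PD
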