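import Mathlib
import Fermat.Agent.LR.CuspInvInt
import Fermat.Agent.LR.PDModel

/-!
# Program M, node C2 (H7): the intersection form on modular symbols is invariant under matched
isomorphisms

`inter hneg m m'` is helper17's intersection form on `Z1 Γ` (`LR/PDModel`).  If `c : Γ₁ ≃* Γ₂`
is `Matched` and the characters of `m₁, m₁'` are the pull-backs through `c` of the characters
of `m₂, m₂'`, then `inter m₁ m₁' = inter m₂ m₂'`.
-/

set_option autoImplicit false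

namespace Fermat.Agent.LR.PDInv

open Matrix Matrix.SpecialLinearGroup ModularGroup
open Fermat.Agent.Eis.PSL2Free Fermat.Agent.Eis.Shapiro Fermat.Agent.Eis.CocycleUP
open Fermat.Agent.LR.CuspSum Fermat.Agent.LR.CuspInv Fermat.Agent.LR.PD
open scoped MatrixGroups

variable {Γ₁ Γ₂ : Subgroup SL(2, ℤ)}

theorem inter_eq_of_matched (hneg₁ : (-1 : SL(2, ℤ)) ∈ Γ₁) (hneg₂ : (-1 : SL(2, ℤ)) ∈ Γ₂)
    [Fintype (Cos Γ₁)] [Fintype (Cos Γ₂)] (c : Γ₁ ≃* Γ₂) (hc : Matched c)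
    (m₁ m₁' : Z1 Γ₁) (m₂ m₂' : Z1 Γ₂)
    (h : ∀ γ : Γ₁, symHomAux hneg₁ m₁ (Additive.ofMul γ) =
      symHomAux hneg₂ m₂ (Additive.ofMul (c γ)))
    (h' : ∀ γ : Γ₁, symHomAux hneg₁ m₁' (Additive.ofMul γ) =
      symHomAux hneg₂ m₂' (Additive.ofMul (c γ))) :
    inter hneg₁ m₁ m₁' = inter hneg₂ m₂ m₂' := by
  have e₁ := six_mul_inter hneg₁ m₁ m₁'
  have e₂ := six_mul_inter hneg₂ m₂ m₂'
  have key := sixForm_eq_of_matched hneg₁ hneg₂ c hc
    (isCocycle_symCocycle hneg₁ m₁) (isCocycle_symCocycle hneg₁ m₁')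
    (isCocycle_symCocycle hneg₂ m₂) (isCocycle_symCocycle hneg₂ m₂')
    (by rw [symCocycle_S, symCocycle_U]) (by rw [symCocycle_S, symCocycle_U])
    (by rw [symCocycle_S, symCocycle_U]) (by rw [symCocycle_S, symCocycle_U])
    (by rw [symCocycle_S]; exact Z1_relS m₁) (by rw [symCocycle_S]; exact Z1_relS m₁')
    (by rw [symCocycle_S]; exact Z1_relS m₂) (by rw [symCocycle_S]; exact Z1_relS m₂')
    (by rw [symCocycle_S]; exact Z1_relU m₁') (by rw [symCocycle_S]; exact Z1_relU m₂')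
    (fun γ => h γ) (fun γ => h' γ)
  unfold sixForm at key
  rw [symCocycle_S, symCocycle_S, symCocycle_S, symCocycle_S] at key
  have : 6 * inter hneg₁ m₁ m₁' = 6 * inter hneg₂ m₂ m₂' := by rw [e₁, e₂, key]
  linarith

end Fermat.Agent.LR.PDInv
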