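/-
Program M (S41), node C2, second seat (helper27): positive parabolic elements of `SL(2,ℤ)`,
primitive parabolic elements of a subgroup `Γ`, systems of representatives of the `Γ`-conjugacy
classes of primitive positive parabolic elements ("cusp systems"), and their construction from a
decomposition of `SL(2,ℤ) ⧸ Γ` into `⟨T⟩`-orbits.
Mathlib + Eis/ParClass + LR/TOrbitSysDef only.
-/
import Mathlib
import Fermat.Agent.Eis.ParClass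
import Fermat.Agent.LR.TOrbitSysDef

set_option autoImplicit false
set_option linter.unusedSimpArgs false

namespace Fermat.Agent.LR.ParSys

open Matrix ModularGroup
open scoped MatrixGroups
open Fermat.Agent.Eis.ParClass (det_entries inv_entries conj_apply eq_T_zpow_of_col
  exists_fixed_vector exists_SL_col0)

/-! ### Definitions -/

/-- Positive parabolic elements of `SL(2,ℤ)`: `γ ≠ 1`, trace `2`, `γ₀₁ ≥ 0 ≥ γ₁₀`
(i.e. `γ = g⁻¹ T^n g` with `n > 0`). -/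
def PosPar (γ : SL(2, ℤ)) : Prop :=
  γ ≠ 1 ∧ γ 0 0 + γ 1 1 = 2 ∧ 0 ≤ γ 0 1 ∧ γ 1 0 ≤ 0

/-- Primitive positive parabolic elements of `Γ`. -/
def Prim (Γ : Subgroup SL(2, ℤ)) (γ : SL(2, ℤ)) : Prop :=
  γ ∈ Γ ∧ PosPar γ ∧ ∀ γ' ∈ Γ, PosPar γ' → ∀ n : ℕ, γ = γ' ^ n → n = 1

/-- A system of representatives of the `Γ`-conjugacy classes of primitive positive parabolic
elements (one per cusp). -/
structure CuspSys (Γ : Subgroup SL(2, ℤ)) (J : Type*) where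
  /-- the representatives -/
  γ : J → SL(2, ℤ)
  prim : ∀ j, Prim Γ (γ j)
  complete : ∀ β, Prim Γ β → ∃! j, ∃ x ∈ Γ, β = x * γ j * x⁻¹

/-! ### Conjugates of powers of `T` -/
theorem T_zpow_entries (n : ℤ) :
    (T ^ n : SL(2, ℤ)) 0 0 = 1 ∧ (T ^ n : SL(2, ℤ)) 0 1 = n ∧ (T ^ n : SL(2, ℤ)) 1 0 = 0 ∧
      (T ^ n : SL(2, ℤ)) 1 1 = 1 := by
  rw [coe_T_zpow]
  simp

/-- entries of `g⁻¹ T^n g` -/
theorem conj_T_zpow_entries (g : SL(2, ℤ)) (n : ℤ) :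
    (g⁻¹ * T ^ n * g) 0 0 = 1 + n * (g 1 0 * g 1 1) ∧
    (g⁻¹ * T ^ n * g) 0 1 = n * (g 1 1) ^ 2 ∧
    (g⁻¹ * T ^ n * g) 1 0 = - (n * (g 1 0) ^ 2) ∧
    (g⁻¹ * T ^ n * g) 1 1 = 1 - n * (g 1 0 * g 1 1) := by
  obtain ⟨i00, i01, i10, i11⟩ := inv_entries g
  obtain ⟨t00, t01, t10, t11⟩ := T_zpow_entries n
  have hdet := det_entries g
  refine ⟨?_, ?_, ?_, ?_⟩ <;>
    rw [conj_apply] <;>
    simp only [Fin.sum_univ_two, i00, i01, i10, i11, t00, t01, t10, t11] <;>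
    first | ring1 | linear_combination hdet

theorem row_ne_zero (g : SL(2, ℤ)) : ¬ (g 1 0 = 0 ∧ g 1 1 = 0) := by
  rintro ⟨h0, h1⟩
  have hdet := det_entries g
  rw [h0, h1] at hdet
  simp at hdet

theorem posPar_conj_T_zpow_iff (g : SL(2, ℤ)) (n : ℤ) : PosPar (g⁻¹ * T ^ n * g) ↔ 0 < n := by
  obtain ⟨e00, e01, e10, e11⟩ := conj_T_zpow_entries g n
  have hrow := row_ne_zero g
  constructor
  · rintro ⟨hne, -, h01, h10⟩
    rw [e01] at h01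
    rw [e10] at h10
    by_contra hn
    rw [not_lt] at hn
    rcases hn.lt_or_eq with hn | hn
    · apply hrow
      constructor
      · by_contra hc
        have : 0 < (g 1 0) ^ 2 := by positivity
        nlinarith
      · by_contra hd
        have : 0 < (g 1 1) ^ 2 := by positivity
        nlinarith
    · apply hne
      rw [hn]
      simp
  · intro hn
    refine ⟨?_, ?_, ?_, ?_⟩
    · intro h1
      apply hrow
      have h01 : (g⁻¹ * T ^ n * g) 0 1 = 0 := by rw [h1]; simp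
      have h10 : (g⁻¹ * T ^ n * g) 1 0 = 0 := by rw [h1]; simp
      rw [e01] at h01
      rw [e10] at h10
      constructor
      · have : n * (g 1 0) ^ 2 = 0 := by linarith
        rcases mul_eq_zero.mp this with h | h
        · omega
        · exact pow_eq_zero_iff (two_ne_zero) |>.mp h
      · rcases mul_eq_zero.mp h01 with h | h
        · omega
        · exact pow_eq_zero_iff (two_ne_zero) |>.mp h
    · rw [e00, e11]; ring
    · rw [e01]; positivity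
    · rw [e10]
      have : 0 ≤ n * (g 1 0) ^ 2 := by positivity
      linarith

theorem exists_conj_T_zpow (β : SL(2, ℤ)) (htr : β 0 0 + β 1 1 = 2) :
    ∃ (g : SL(2, ℤ)) (n : ℤ), β = g⁻¹ * T ^ n * g := by
  obtain ⟨x, y, hxy, h1, h2⟩ := exists_fixed_vector β htr
  obtain ⟨σ, hσ0, hσ1⟩ := exists_SL_col0 x y hxy
  obtain ⟨i00, i01, i10, i11⟩ := inv_entries σ
  have hdet := det_entries σ
  have hM := eq_T_zpow_of_col (σ⁻¹ * β * σ)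
    (by
      rw [conj_apply]
      simp only [Fin.sum_univ_two, i00, i01, i10, i11, hσ0, hσ1]
      rw [hσ0, hσ1] at hdet
      linear_combination (σ 1 1) * h1 - (σ 0 1) * h2 + hdet)
    (by
      rw [conj_apply]
      simp only [Fin.sum_univ_two, i00, i01, i10, i11, hσ0, hσ1]
      linear_combination (-y) * h1 + x * h2)
  refine ⟨σ⁻¹, (σ⁻¹ * β * σ) 0 1, ?_⟩
  rw [← hM]
  group

theorem PosPar.exists_conj {β : SL(2, ℤ)} (h : PosPar β) :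
    ∃ (g : SL(2, ℤ)) (n : ℕ), 0 < n ∧ β = g⁻¹ * T ^ n * g := by
  obtain ⟨g, n, rfl⟩ := exists_conj_T_zpow β h.2.1
  have hn := (posPar_conj_T_zpow_iff g n).mp h
  lift n to ℕ using hn.le
  refine ⟨g, n, by exact_mod_cast hn, ?_⟩
  rw [zpow_natCast]

/-- an upper triangular element of `SL(2,ℤ)` is `± T^k` -/
theorem eq_T_zpow_or_neg_of_lower (u : SL(2, ℤ)) (h10 : u 1 0 = 0) :
    (u 0 0 = 1 ∧ u 1 1 = 1 ∧ u = T ^ (u 0 1)) ∨ (u 0 0 = -1 ∧ u 1 1 = -1 ∧ u = -T ^ (-u 0 1)) := by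
  have hdet := det_entries u
  rw [h10, mul_zero, sub_zero] at hdet
  rcases Int.mul_eq_one_iff_eq_one_or_neg_one.mp hdet with ⟨h0, h1⟩ | ⟨h0, h1⟩
  · exact Or.inl ⟨h0, h1, eq_T_zpow_of_col u h0 h10⟩
  · refine Or.inr ⟨h0, h1, ?_⟩
    have h := eq_T_zpow_of_col (-u) (by simp [h0]) (by simp [h10])
    have h' : (-u) 0 1 = - u 0 1 := by simp
    rw [h'] at h
    rw [← h, neg_neg]

/-- rigidity: `h⁻¹ T^m h = g⁻¹ T^n g`, `n ≠ 0` ⇒ `m = n` and `h = ± T^k g`. -/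
theorem conj_T_zpow_eq_imp (g h : SL(2, ℤ)) (m n : ℤ) (hn : n ≠ 0)
    (e : h⁻¹ * T ^ m * h = g⁻¹ * T ^ n * g) :
    m = n ∧ ∃ k : ℤ, h = T ^ k * g ∨ h = -(T ^ k * g) := by
  set u : SL(2, ℤ) := h * g⁻¹ with hu
  have hcomm : T ^ m * u = u * T ^ n := by
    have : T ^ m * h = h * (g⁻¹ * T ^ n * g) := by rw [← e]; group
    rw [hu]
    calc T ^ m * (h * g⁻¹) = (T ^ m * h) * g⁻¹ := by group
      _ = h * (g⁻¹ * T ^ n * g) * g⁻¹ := by rw [this]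
      _ = h * g⁻¹ * T ^ n := by group
  obtain ⟨tm00, tm01, tm10, tm11⟩ := T_zpow_entries m
  obtain ⟨tn00, tn01, tn10, tn11⟩ := T_zpow_entries n
  have h11 : (T ^ m * u) 1 1 = (u * T ^ n) 1 1 := by rw [hcomm]
  have h01 : (T ^ m * u) 0 1 = (u * T ^ n) 0 1 := by rw [hcomm]
  simp only [Matrix.SpecialLinearGroup.coe_mul, Matrix.mul_apply, Fin.sum_univ_two,
    tm00, tm01, tm10, tm11, tn00, tn01, tn10, tn11] at h11 h01
  have hu10 : u 1 0 = 0 := by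
    have : u 1 0 * n = 0 := by linarith
    exact (mul_eq_zero.mp this).resolve_right hn
  have hh : h = u * g := by rw [hu]; group
  rcases eq_T_zpow_or_neg_of_lower u hu10 with ⟨h0, h1, hk⟩ | ⟨h0, h1, hk⟩
  · refine ⟨?_, u 0 1, Or.inl ?_⟩
    · rw [h0, h1] at h01; linarith
    · rw [hh]; rw [← hk]
  · refine ⟨?_, -u 0 1, Or.inr ?_⟩
    · rw [h0, h1] at h01; linarith
    · rw [hh]
      conv_lhs => rw [hk]
      rw [neg_mul]

/-! ### general group lemmas -/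

theorem conj_inv_zpow {G : Type*} [Group G] (g a : G) (n : ℤ) :
    (g⁻¹ * a * g) ^ n = g⁻¹ * a ^ n * g := by
  have := conj_zpow (a := g⁻¹) (b := a) (i := n)
  rwa [inv_inv] at this

theorem conj_inv_pow {G : Type*} [Group G] (g a : G) (n : ℕ) :
    (g⁻¹ * a * g) ^ n = g⁻¹ * a ^ n * g := by
  have := conj_pow (a := g⁻¹) (b := a) (i := n)
  rwa [inv_inv] at this

theorem conj_T_add (g : SL(2, ℤ)) (a b : ℤ) :
    g⁻¹ * T ^ (a + b) * g = (g⁻¹ * T ^ a * g) * (g⁻¹ * T ^ b * g) := by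
  rw [_root_.zpow_add]; group

theorem conj_neg (x a : SL(2, ℤ)) : (-x)⁻¹ * a * (-x) = x⁻¹ * a * x := by
  rw [inv_neg, neg_mul, mul_neg, neg_mul, neg_neg]

theorem neg_mem_iff {Γ : Subgroup SL(2, ℤ)} (hneg : -1 ∈ Γ) (a : SL(2, ℤ)) :
    -a ∈ Γ ↔ a ∈ Γ := by
  have h : ∀ b : SL(2, ℤ), b ∈ Γ → -b ∈ Γ := by
    intro b hb
    have : -b = -1 * b := by rw [neg_mul, one_mul]
    rw [this]
    exact Γ.mul_mem hneg hb
  constructor
  · intro ha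
    have := h _ ha
    rwa [neg_neg] at this
  · exact h a

variable {Γ : Subgroup SL(2, ℤ)} {J : Type*}

namespace TOrbitSys

variable (S : TOrbitSys Γ J)

/-- the coset representatives `T^{-i} g_j` -/
def rep (p : Σ j, Fin (S.w j)) : SL(2, ℤ) := (T⁻¹) ^ (p.2 : ℕ) * S.g p.1

theorem rep_def (p : Σ j, Fin (S.w j)) : S.rep p = T ^ (-(p.2 : ℕ) : ℤ) * S.g p.1 := by
  rw [rep, _root_.zpow_neg, zpow_natCast, inv_pow]

theorem exists_rep (g : SL(2, ℤ)) : ∃ p : Σ j, Fin (S.w j), ∃ y ∈ Γ, g = S.rep p * y := by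
  obtain ⟨p, hp⟩ := S.bij.2 (g : SL(2, ℤ) ⧸ Γ)
  refine ⟨p, (S.rep p)⁻¹ * g, ?_, by group⟩
  exact QuotientGroup.eq.mp hp

theorem rep_inj (p p' : Σ j, Fin (S.w j)) (h : (S.rep p)⁻¹ * S.rep p' ∈ Γ) : p = p' :=
  S.bij.1 (QuotientGroup.eq.mpr h)

/-- the candidate cusp generators -/
def gam (j : J) : SL(2, ℤ) := (S.g j)⁻¹ * T ^ (S.w j) * S.g j

theorem gam_zpow (j : J) (q : ℤ) :
    (S.gam j) ^ q = (S.g j)⁻¹ * T ^ ((S.w j : ℤ) * q) * S.g j := by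
  rw [gam, conj_inv_zpow, _root_.zpow_mul, zpow_natCast]

theorem conj_mem_of_dvd (j : J) (n : ℤ) (h : (S.w j : ℤ) ∣ n) :
    (S.g j)⁻¹ * T ^ n * S.g j ∈ Γ := by
  obtain ⟨q, rfl⟩ := h
  rw [← gam_zpow]
  exact Γ.zpow_mem (S.mem j) q

theorem conj_mem_iff (j : J) (n : ℤ) :
    (S.g j)⁻¹ * T ^ n * S.g j ∈ Γ ↔ (S.w j : ℤ) ∣ n := by
  refine ⟨fun hmem => ?_, S.conj_mem_of_dvd j n⟩
  have hw : (0 : ℤ) < S.w j := by exact_mod_cast S.w_pos j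
  set r := n % (S.w j : ℤ) with hr
  have hr0 : 0 ≤ r := Int.emod_nonneg _ hw.ne'
  have hrw : r < S.w j := Int.emod_lt_of_pos _ hw
  by_contra hdvd
  have hrne : r ≠ 0 := fun h => hdvd (Int.dvd_of_emod_eq_zero h)
  -- i = w - r
  obtain ⟨i, hi⟩ : ∃ i : ℕ, (i : ℤ) = S.w j - r := ⟨(S.w j - r).toNat, by omega⟩
  have hilt : i < S.w j := by omega
  have hipos : 0 < i := by omega
  have key : (S.rep ⟨j, ⟨0, S.w_pos j⟩⟩)⁻¹ * S.rep ⟨j, ⟨i, hilt⟩⟩ ∈ Γ := by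
    rw [rep_def, rep_def]
    simp only [CharP.cast_eq_zero, neg_zero, zpow_zero, one_mul]
    have hsplit : (-(i : ℤ)) = n + (S.w j : ℤ) * (-(n / (S.w j : ℤ)) - 1) := by
      have := Int.emod_add_mul_ediv n (S.w j : ℤ)
      rw [hi]
      linarith
    rw [← mul_assoc, hsplit, conj_T_add]
    exact Γ.mul_mem hmem (S.conj_mem_of_dvd j _ (dvd_mul_right _ _))
  have := S.rep_inj _ _ key
  simp only [Sigma.mk.injEq, heq_eq_eq, true_and, Fin.mk.injEq] at this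
  omega

/-- every conjugate `g⁻¹ T^n g` is a `Γ`-conjugate of `g_j⁻¹ T^n g_j` for the `j` with
`g Γ` in the `⟨T⟩`-orbit of `g_j Γ`. -/
theorem exists_conj_eq (g : SL(2, ℤ)) :
    ∃ j, ∃ y ∈ Γ, ∀ n : ℤ, g⁻¹ * T ^ n * g = y⁻¹ * ((S.g j)⁻¹ * T ^ n * S.g j) * y := by
  obtain ⟨p, y, hy, rfl⟩ := S.exists_rep g
  refine ⟨p.1, y, hy, fun n => ?_⟩
  rw [rep_def]
  group

theorem exists_rep_of_T_zpow (j : J) (k : ℤ) :
    ∃ i : Fin (S.w j), (S.rep ⟨j, i⟩)⁻¹ * (T ^ k * S.g j) ∈ Γ := by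
  have hw : (0 : ℤ) < S.w j := by exact_mod_cast S.w_pos j
  have hr0 : 0 ≤ (-k) % (S.w j : ℤ) := Int.emod_nonneg _ hw.ne'
  have hrw : (-k) % (S.w j : ℤ) < S.w j := Int.emod_lt_of_pos _ hw
  obtain ⟨i, hi⟩ : ∃ i : ℕ, (i : ℤ) = (-k) % (S.w j : ℤ) := ⟨((-k) % (S.w j : ℤ)).toNat, by omega⟩
  refine ⟨⟨i, by omega⟩, ?_⟩
  rw [rep_def]
  have : (T ^ (-((i : ℕ) : ℤ)) * S.g j)⁻¹ * (T ^ k * S.g j) =
      (S.g j)⁻¹ * T ^ ((i : ℤ) + k) * S.g j := by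
    rw [_root_.zpow_add]; group
  simp only
  rw [this]
  apply S.conj_mem_of_dvd
  rw [hi]
  have := Int.emod_add_mul_ediv (-k) (S.w j : ℤ)
  exact ⟨-((-k) / (S.w j : ℤ)), by linarith⟩

theorem posPar_gam (j : J) : PosPar (S.gam j) := by
  rw [gam, ← zpow_natCast]
  exact (posPar_conj_T_zpow_iff _ _).mpr (by exact_mod_cast S.w_pos j)

theorem prim_gam (j : J) : Prim Γ (S.gam j) := by
  refine ⟨S.mem j, S.posPar_gam j, ?_⟩
  intro γ' hγ' hpos n hn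
  obtain ⟨h, m, hm, rfl⟩ := hpos.exists_conj
  rw [conj_inv_pow, ← pow_mul, gam, ← zpow_natCast, ← zpow_natCast T (m * n)] at hn
  have hw : ((S.w j : ℕ) : ℤ) ≠ 0 := by exact_mod_cast (S.w_pos j).ne'
  obtain ⟨hmn, k, hk⟩ := conj_T_zpow_eq_imp (S.g j) h ((m * n : ℕ) : ℤ) (S.w j) hw hn.symm
  -- `γ' = g_j⁻¹ T^m g_j`
  have hγ'' : h⁻¹ * T ^ m * h = (S.g j)⁻¹ * T ^ (m : ℤ) * S.g j := by
    rcases hk with hk | hk
    · rw [hk, ← zpow_natCast]; group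
    · rw [hk, conj_neg, ← zpow_natCast]; group
  rw [hγ'', conj_mem_iff] at hγ'
  have hmn' : m * n = S.w j := by exact_mod_cast hmn
  have hdvd : S.w j ∣ m := by exact_mod_cast hγ'
  have hmw : m = S.w j := Nat.dvd_antisymm ⟨n, hmn'.symm⟩ hdvd
  rw [hmw] at hmn'
  exact Nat.eq_of_mul_eq_mul_left (S.w_pos j) (by rw [hmn', mul_one])

theorem exists_conj_gam {β : SL(2, ℤ)} (hβ : Prim Γ β) : ∃ j, ∃ x ∈ Γ, β = x * S.gam j * x⁻¹ := by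
  obtain ⟨hβΓ, hβpos, hβprim⟩ := hβ
  obtain ⟨g, n, hn, rfl⟩ := hβpos.exists_conj
  obtain ⟨j, y, hy, hconj⟩ := S.exists_conj_eq g
  rw [← zpow_natCast, hconj] at hβΓ
  have h1 : (S.g j)⁻¹ * T ^ (n : ℤ) * S.g j ∈ Γ := by
    have := Γ.mul_mem (Γ.mul_mem hy hβΓ) (Γ.inv_mem hy)
    convert this using 1
    group
  rw [conj_mem_iff] at h1
  obtain ⟨q, hq⟩ : S.w j ∣ n := by exact_mod_cast h1
  have h2 : g⁻¹ * T ^ n * g = (y⁻¹ * S.gam j * y) ^ q := by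
    rw [← zpow_natCast, hconj, conj_inv_pow, ← zpow_natCast (S.gam j), gam_zpow, hq]
    push_cast
    rfl
  have hq1 : q = 1 := by
    refine hβprim (y⁻¹ * S.gam j * y) (Γ.mul_mem (Γ.mul_mem (Γ.inv_mem hy) (S.mem j)) hy) ?_ q h2
    have : y⁻¹ * S.gam j * y = (S.g j * y)⁻¹ * T ^ ((S.w j : ℕ) : ℤ) * (S.g j * y) := by
      rw [gam, zpow_natCast]; group
    rw [this]
    exact (posPar_conj_T_zpow_iff _ _).mpr (by exact_mod_cast S.w_pos j)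
  refine ⟨j, y⁻¹, Γ.inv_mem hy, ?_⟩
  rw [h2, hq1, pow_one, inv_inv]

theorem eq_of_conj_gam (hneg : -1 ∈ Γ) {j j' : J} {x x' : SL(2, ℤ)} (hx : x ∈ Γ) (hx' : x' ∈ Γ)
    (e : x * S.gam j * x⁻¹ = x' * S.gam j' * x'⁻¹) : j = j' := by
  have hw : ((S.w j : ℕ) : ℤ) ≠ 0 := by exact_mod_cast (S.w_pos j).ne'
  have e' : (S.g j' * x'⁻¹)⁻¹ * T ^ ((S.w j' : ℕ) : ℤ) * (S.g j' * x'⁻¹) =
      (S.g j * x⁻¹)⁻¹ * T ^ ((S.w j : ℕ) : ℤ) * (S.g j * x⁻¹) := by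
    have h1 : (S.g j' * x'⁻¹)⁻¹ * T ^ ((S.w j' : ℕ) : ℤ) * (S.g j' * x'⁻¹) =
        x' * S.gam j' * x'⁻¹ := by rw [gam, zpow_natCast]; group
    have h2 : (S.g j * x⁻¹)⁻¹ * T ^ ((S.w j : ℕ) : ℤ) * (S.g j * x⁻¹) =
        x * S.gam j * x⁻¹ := by rw [gam, zpow_natCast]; group
    rw [h1, h2, e]
  obtain ⟨-, k, hk⟩ := conj_T_zpow_eq_imp _ _ _ _ hw e'
  obtain ⟨i, hi⟩ := S.exists_rep_of_T_zpow j k
  have hz : x⁻¹ * x' ∈ Γ := Γ.mul_mem (Γ.inv_mem hx) hx'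
  have key : (S.rep ⟨j, i⟩)⁻¹ * S.rep ⟨j', ⟨0, S.w_pos j'⟩⟩ ∈ Γ := by
    have hrep0 : S.rep ⟨j', ⟨0, S.w_pos j'⟩⟩ = S.g j' := by simp [rep]
    rw [hrep0]
    rcases hk with hk | hk
    · have : S.g j' = T ^ k * S.g j * (x⁻¹ * x') := by
        calc S.g j' = (S.g j' * x'⁻¹) * x' := by group
          _ = T ^ k * (S.g j * x⁻¹) * x' := by rw [hk]
          _ = _ := by group
      rw [this, ← mul_assoc]
      exact Γ.mul_mem hi hz
    · have : S.g j' = -(T ^ k * S.g j * (x⁻¹ * x')) := by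
        calc S.g j' = (S.g j' * x'⁻¹) * x' := by group
          _ = -(T ^ k * (S.g j * x⁻¹)) * x' := by rw [hk]
          _ = _ := by rw [neg_mul]; congr 1; group
      rw [this, mul_neg, neg_mem_iff hneg, ← mul_assoc]
      exact Γ.mul_mem hi hz
  have := S.rep_inj _ _ key
  exact (Sigma.mk.inj_iff.mp this).1

/-- **(P2)** a `⟨T⟩`-orbit system gives a cusp system. -/
noncomputable def toCuspSys (hneg : -1 ∈ Γ) : CuspSys Γ J where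
  γ j := (S.g j)⁻¹ * T ^ (S.w j) * S.g j
  prim := S.prim_gam
  complete β hβ := by
    obtain ⟨j, x, hx, hj⟩ := S.exists_conj_gam hβ
    refine ⟨j, ⟨x, hx, hj⟩, ?_⟩
    rintro j' ⟨x', hx', hj'⟩
    exact (S.eq_of_conj_gam hneg hx hx' (hj.symm.trans hj')).symm

@[simp] theorem toCuspSys_γ (hneg : -1 ∈ Γ) (j : J) :
    (S.toCuspSys hneg).γ j = (S.g j)⁻¹ * T ^ (S.w j) * S.g j := rfl

end TOrbitSys

/-! ### Uniqueness of cusp systems -/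

namespace CuspSys

/-- the index of the class of a primitive element -/
noncomputable def idx {J : Type*} (C : CuspSys Γ J) {β : SL(2, ℤ)} (hβ : Prim Γ β) : J :=
  (C.complete β hβ).choose

theorem idx_spec {J : Type*} (C : CuspSys Γ J) {β : SL(2, ℤ)} (hβ : Prim Γ β) :
    ∃ x ∈ Γ, β = x * C.γ (C.idx hβ) * x⁻¹ :=
  (C.complete β hβ).choose_spec.1

theorem idx_unique {J : Type*} (C : CuspSys Γ J) {β : SL(2, ℤ)} (hβ : Prim Γ β) (j : J)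
    (h : ∃ x ∈ Γ, β = x * C.γ j * x⁻¹) : j = C.idx hβ :=
  (C.complete β hβ).choose_spec.2 j h

theorem conj_symm_aux {G : Type*} [Group G] {a b x : G} (h : a = x * b * x⁻¹) :
    b = x⁻¹ * a * x⁻¹⁻¹ := by
  rw [h]; group

theorem idx_idx {K K' : Type*} (D : CuspSys Γ K) (D' : CuspSys Γ K') (j : K) :
    D.idx (D'.prim (D'.idx (D.prim j))) = j := by
  symm
  apply D.idx_unique
  obtain ⟨x, hx, hj⟩ := D'.idx_spec (D.prim j)
  exact ⟨x⁻¹, Γ.inv_mem hx, conj_symm_aux hj⟩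

/-- **(P3)** two cusp systems of the same group differ by a bijection of the index sets and
`Γ`-conjugations. -/
theorem exists_equiv {J J' : Type*} (C : CuspSys Γ J) (C' : CuspSys Γ J') :
    ∃ σ : J ≃ J', ∀ j, ∃ x ∈ Γ, C'.γ (σ j) = x * C.γ j * x⁻¹ := by
  refine ⟨⟨fun j => C'.idx (C.prim j), fun j' => C.idx (C'.prim j'), fun j => idx_idx C C' j,
    fun j' => idx_idx C' C j'⟩, fun j => ?_⟩
  obtain ⟨x, hx, hj⟩ := C'.idx_spec (C.prim j)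
  exact ⟨x⁻¹, Γ.inv_mem hx, conj_symm_aux hj⟩

end CuspSys

/-! ### Transport along an isomorphism preserving positive parabolic elements -/

section Transport

variable {Γ₁ Γ₂ : Subgroup SL(2, ℤ)}

theorem prim_map (c : ↥Γ₁ ≃* ↥Γ₂)
    (hc : ∀ γ : Γ₁, PosPar ((c γ : Γ₂) : SL(2, ℤ)) ↔ PosPar (γ : SL(2, ℤ))) (γ : Γ₁)
    (h : Prim Γ₁ (γ : SL(2, ℤ))) : Prim Γ₂ ((c γ : Γ₂) : SL(2, ℤ)) := by
  refine ⟨(c γ).2, (hc γ).mpr h.2.1, ?_⟩
  intro γ' hγ' hpos n hn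
  have hpos' : PosPar ((c.symm ⟨γ', hγ'⟩ : Γ₁) : SL(2, ℤ)) := by
    rw [← hc]; simpa using hpos
  refine h.2.2 _ (c.symm ⟨γ', hγ'⟩).2 hpos' n ?_
  have : c γ = (⟨γ', hγ'⟩ : Γ₂) ^ n := Subtype.ext (by simpa using hn)
  have h2 : γ = (c.symm ⟨γ', hγ'⟩) ^ n := by
    rw [← map_pow, ← this, MulEquiv.symm_apply_apply]
  have := congrArg (Subtype.val) h2
  simpa using this

theorem posPar_symm (c : ↥Γ₁ ≃* ↥Γ₂)
    (hc : ∀ γ : Γ₁, PosPar ((c γ : Γ₂) : SL(2, ℤ)) ↔ PosPar (γ : SL(2, ℤ))) (γ : Γ₂) :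
    PosPar ((c.symm γ : Γ₁) : SL(2, ℤ)) ↔ PosPar (γ : SL(2, ℤ)) := by
  rw [← hc]; simp

/-- **(P4)** transport of a cusp system along an isomorphism preserving positive parabolic
elements. -/
noncomputable def CuspSys.map {J : Type*} (C : CuspSys Γ₁ J) (c : ↥Γ₁ ≃* ↥Γ₂)
    (hc : ∀ γ : Γ₁, PosPar ((c γ : Γ₂) : SL(2, ℤ)) ↔ PosPar (γ : SL(2, ℤ))) : CuspSys Γ₂ J where
  γ j := ((c ⟨C.γ j, (C.prim j).1⟩ : Γ₂) : SL(2, ℤ))
  prim j := prim_map c hc ⟨C.γ j, (C.prim j).1⟩ (C.prim j)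
  complete β hβ := by
    have hβ' : Prim Γ₁ ((c.symm ⟨β, hβ.1⟩ : Γ₁) : SL(2, ℤ)) := by
      have := prim_map c.symm (posPar_symm c hc) ⟨β, hβ.1⟩ hβ
      exact this
    obtain ⟨j, ⟨x, hx, hj⟩, huniq⟩ := C.complete _ hβ'
    refine ⟨j, ⟨((c ⟨x, hx⟩ : Γ₂) : SL(2, ℤ)), (c ⟨x, hx⟩).2, ?_⟩, ?_⟩
    · have h1 : c.symm ⟨β, hβ.1⟩ = ⟨x, hx⟩ * ⟨C.γ j, (C.prim j).1⟩ * ⟨x, hx⟩⁻¹ :=
        Subtype.ext (by simpa using hj)
      have h2 : (⟨β, hβ.1⟩ : Γ₂) = c ⟨x, hx⟩ * c ⟨C.γ j, (C.prim j).1⟩ * (c ⟨x, hx⟩)⁻¹ := by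
        rw [← map_inv, ← map_mul, ← map_mul, ← h1, MulEquiv.apply_symm_apply]
      have := congrArg Subtype.val h2
      simpa using this
    · rintro j' ⟨x', hx', hj'⟩
      apply huniq
      refine ⟨((c.symm ⟨x', hx'⟩ : Γ₁) : SL(2, ℤ)), (c.symm ⟨x', hx'⟩).2, ?_⟩
      have h1 : (⟨β, hβ.1⟩ : Γ₂) =
          ⟨x', hx'⟩ * c ⟨C.γ j', (C.prim j').1⟩ * (⟨x', hx'⟩ : Γ₂)⁻¹ :=
        Subtype.ext (by simpa using hj')
      have h2 : c.symm ⟨β, hβ.1⟩ =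
          c.symm ⟨x', hx'⟩ * ⟨C.γ j', (C.prim j').1⟩ * (c.symm ⟨x', hx'⟩)⁻¹ := by
        rw [h1, map_mul, map_mul, map_inv, MulEquiv.symm_apply_apply]
      have := congrArg Subtype.val h2
      simpa using this

@[simp] theorem CuspSys.map_γ {J : Type*} (C : CuspSys Γ₁ J) (c : ↥Γ₁ ≃* ↥Γ₂)
    (hc : ∀ γ : Γ₁, PosPar ((c γ : Γ₂) : SL(2, ℤ)) ↔ PosPar (γ : SL(2, ℤ))) (j : J) :
    (C.map c hc).γ j = ((c ⟨C.γ j, (C.prim j).1⟩ : Γ₂) : SL(2, ℤ)) := rfl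

end Transport

end Fermat.Agent.LR.ParSys
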