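/-
Program M (S41), node C2, second seat (helper27), part (P1): every finite index subgroup `Γ` of
`SL(2,ℤ)` has a decomposition of `SL(2,ℤ) ⧸ Γ` into `⟨T⟩`-orbits (`TOrbitSys`), indexed by a
finite type.  Also: positive parabolic elements are stable under `SL(2,ℤ)`-conjugation.
Mathlib + LR/ParSys only.
-/
import Mathlib
import Fermat.Agent.LR.ParSys

set_option autoImplicit false
set_option linter.style.haveILetI false

namespace Fermat.Agent.LR.ParSys

open Matrix ModularGroup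
open scoped MatrixGroups

section Orbit

variable (Γ : Subgroup SL(2, ℤ))

/-- the `⟨T⟩`-orbit relation on `SL(2,ℤ) ⧸ Γ` -/
def tOrbitSetoid : Setoid (SL(2, ℤ) ⧸ Γ) where
  r x y := ∃ k : ℤ, (T ^ k : SL(2, ℤ)) • x = y
  iseqv := {
    refl := fun x => ⟨0, by simp⟩
    symm := by
      rintro x y ⟨k, rfl⟩
      exact ⟨-k, by rw [← mul_smul, ← _root_.zpow_add]; simp⟩
    trans := by
      rintro x y z ⟨k, rfl⟩ ⟨l, rfl⟩
      exact ⟨l + k, by rw [← mul_smul, ← _root_.zpow_add]⟩ }

/-- the set of `⟨T⟩`-orbits -/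
abbrev TOrbits : Type := Quotient (tOrbitSetoid Γ)

variable {Γ}

/-- base point of an orbit -/
noncomputable def basePt (j : TOrbits Γ) : SL(2, ℤ) ⧸ Γ := Quotient.out j

/-- a lift of the base point -/
noncomputable def baseLift (j : TOrbits Γ) : SL(2, ℤ) := Quotient.out (basePt j)

theorem coe_baseLift (j : TOrbits Γ) : ((baseLift j : SL(2, ℤ)) : SL(2, ℤ) ⧸ Γ) = basePt j :=
  Quotient.out_eq _

theorem mk_basePt (j : TOrbits Γ) : (Quotient.mk (tOrbitSetoid Γ) (basePt j)) = j :=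
  Quotient.out_eq _

theorem coe_mul_eq_smul (g h : SL(2, ℤ)) :
    ((g * h : SL(2, ℤ)) : SL(2, ℤ) ⧸ Γ) = g • ((h : SL(2, ℤ)) : SL(2, ℤ) ⧸ Γ) := rfl

theorem inv_pow_smul_eq (i : ℕ) (x : SL(2, ℤ) ⧸ Γ) :
    ((T⁻¹ : SL(2, ℤ)) ^ i) • x = (T ^ (-(i : ℤ)) : SL(2, ℤ)) • x := by
  rw [_root_.zpow_neg, zpow_natCast, inv_pow]

variable [Γ.FiniteIndex]

theorem period_pos (x : SL(2, ℤ) ⧸ Γ) : 0 < MulAction.period (T : SL(2, ℤ)) x := by
  haveI : Finite (SL(2, ℤ) ⧸ Γ) := Subgroup.finite_quotient_of_finiteIndex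
  exact Function.minimalPeriod_pos_of_mem_periodicPts
    ((MulAction.injective (T : SL(2, ℤ))).mem_periodicPts x)

/-- **(P1)** the canonical `⟨T⟩`-orbit system of a finite index subgroup. -/
noncomputable def tOrbitSys : TOrbitSys Γ (TOrbits Γ) where
  g := baseLift
  w j := MulAction.period (T : SL(2, ℤ)) (basePt j)
  w_pos j := period_pos _
  mem j := by
    rw [mul_assoc, ← QuotientGroup.eq, coe_mul_eq_smul, coe_baseLift, MulAction.pow_period_smul]
  bij := by
    constructor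
    · rintro ⟨j, i⟩ ⟨j', i'⟩ h
      simp only [coe_mul_eq_smul, coe_baseLift, inv_pow_smul_eq] at h
      -- same orbit
      have hjj : j = j' := by
        rw [← mk_basePt j, ← mk_basePt j']
        apply Quotient.sound
        refine ⟨(i' : ℤ) + -(i : ℤ), ?_⟩
        rw [_root_.zpow_add, mul_smul, h, ← mul_smul, ← _root_.zpow_add]
        simp
      subst hjj
      have h2 : (T ^ ((i' : ℤ) - (i : ℤ)) : SL(2, ℤ)) • basePt j = basePt j := by
        have : (i' : ℤ) - (i : ℤ) = (i' : ℤ) + -(i : ℤ) := by ring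
        rw [this, _root_.zpow_add, mul_smul, h, ← mul_smul, ← _root_.zpow_add]
        simp
      rw [MulAction.zpow_smul_eq_iff_period_dvd] at h2
      have hi := i.2
      have hi' := i'.2
      have : (i : ℕ) = (i' : ℕ) := by
        obtain ⟨q, hq⟩ := h2
        have hq0 : q = 0 := by
          by_contra hne
          have hw : (0 : ℤ) < MulAction.period (T : SL(2, ℤ)) (basePt j) := by
            exact_mod_cast period_pos (basePt j)
          rcases lt_or_gt_of_ne hne with hlt | hgt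
          · have : q ≤ -1 := by omega
            nlinarith
          · have : 1 ≤ q := by omega
            nlinarith
        rw [hq0, mul_zero] at hq
        omega
      have hii : i = i' := Fin.ext this
      rw [hii]
    · intro x
      obtain ⟨k, hk⟩ : ∃ k : ℤ, (T ^ k : SL(2, ℤ)) • basePt (Quotient.mk (tOrbitSetoid Γ) x) = x :=
        Quotient.exact (mk_basePt (Quotient.mk (tOrbitSetoid Γ) x))
      set j := Quotient.mk (tOrbitSetoid Γ) x with hj
      have hw : (0 : ℤ) < MulAction.period (T : SL(2, ℤ)) (basePt j) := by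
        exact_mod_cast period_pos (basePt j)
      have hr0 := Int.emod_nonneg (-k) hw.ne'
      have hrw := Int.emod_lt_of_pos (-k) hw
      obtain ⟨i, hi⟩ : ∃ i : ℕ, (i : ℤ) = (-k) % (MulAction.period (T : SL(2, ℤ)) (basePt j) : ℤ) :=
        ⟨((-k) % (MulAction.period (T : SL(2, ℤ)) (basePt j) : ℤ)).toNat, by omega⟩
      refine ⟨⟨j, ⟨i, by omega⟩⟩, ?_⟩
      simp only [coe_mul_eq_smul, coe_baseLift, inv_pow_smul_eq]
      rw [← hk]
      have hdvd : (MulAction.period (T : SL(2, ℤ)) (basePt j) : ℤ) ∣ (i : ℤ) + k := by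
        rw [hi]
        have := Int.emod_add_mul_ediv (-k) (MulAction.period (T : SL(2, ℤ)) (basePt j) : ℤ)
        exact ⟨-((-k) / (MulAction.period (T : SL(2, ℤ)) (basePt j) : ℤ)), by linarith⟩
      have h3 := MulAction.zpow_smul_eq_iff_period_dvd.mpr hdvd
      conv_lhs => rw [← h3, ← mul_smul, ← _root_.zpow_add]
      congr 2
      ring

/-- **(P1)**, existence form. -/
theorem exists_tOrbitSys (Γ : Subgroup SL(2, ℤ)) [Γ.FiniteIndex] :
    ∃ (J : Type) (_ : Fintype J), Nonempty (TOrbitSys Γ J) := by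
  haveI : Finite (SL(2, ℤ) ⧸ Γ) := Subgroup.finite_quotient_of_finiteIndex
  haveI : Finite (TOrbits Γ) := Quotient.finite _
  exact ⟨TOrbits Γ, Fintype.ofFinite _, ⟨tOrbitSys⟩⟩

end Orbit

/-! ### Conjugation invariance of `PosPar` -/

theorem PosPar.conj {γ : SL(2, ℤ)} (h : PosPar γ) (x : SL(2, ℤ)) : PosPar (x * γ * x⁻¹) := by
  obtain ⟨g, n, hn, rfl⟩ := h.exists_conj
  have : x * (g⁻¹ * T ^ n * g) * x⁻¹ = (g * x⁻¹)⁻¹ * T ^ ((n : ℕ) : ℤ) * (g * x⁻¹) := by
    rw [zpow_natCast]; group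
  rw [this]
  exact (posPar_conj_T_zpow_iff _ _).mpr (by exact_mod_cast hn)

theorem posPar_conj_iff (x γ : SL(2, ℤ)) : PosPar (x * γ * x⁻¹) ↔ PosPar γ := by
  refine ⟨fun h => ?_, fun h => h.conj x⟩
  have := h.conj x⁻¹
  convert this using 1
  group

end Fermat.Agent.LR.ParSys
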