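/-
Program M (S41), node C2, second seat (helper27): an isomorphism `c : Γ₁ ≃* Γ₂` of finite index
subgroups of `SL(2,ℤ)` (both containing `-1`) which preserves positive parabolic elements matches
the cusp generators of `T`-orbit systems up to conjugacy (`CuspInv.Matched c`).
Imports LR/CuspInv + LR/ParSysOrbit (NOT LR/TOrbitSysExists).
-/
import Mathlib
import Fermat.Agent.LR.CuspInv
import Fermat.Agent.LR.ParSysOrbit

set_option autoImplicit false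

namespace Fermat.Agent.LR.ParSys

open Matrix ModularGroup
open scoped MatrixGroups
open Fermat.Agent.LR.CuspInv

variable {Γ₁ Γ₂ : Subgroup SL(2, ℤ)}

/-- an isomorphism preserving positive parabolic elements matches the cusp generators. -/
theorem matched_of_posPar [Γ₁.FiniteIndex] [Γ₂.FiniteIndex] (hneg₁ : (-1 : SL(2, ℤ)) ∈ Γ₁)
    (hneg₂ : (-1 : SL(2, ℤ)) ∈ Γ₂) (c : Γ₁ ≃* Γ₂)
    (hc : ∀ γ : Γ₁, PosPar ((c γ : Γ₂) : SL(2, ℤ)) ↔ PosPar (γ : SL(2, ℤ))) : Matched c := by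
  obtain ⟨J₁, hJ₁, ⟨D₁⟩⟩ := exists_tOrbitSys Γ₁
  obtain ⟨J₂, hJ₂, ⟨D₂⟩⟩ := exists_tOrbitSys Γ₂
  obtain ⟨σ, hσ⟩ := ((D₁.toCuspSys hneg₁).map c hc).exists_equiv (D₂.toCuspSys hneg₂)
  refine ⟨J₁, J₂, hJ₁, hJ₂, D₁, D₂, σ, fun j => ?_⟩
  obtain ⟨x, hx, hj⟩ := hσ j
  refine ⟨⟨x, hx⟩, Subtype.ext ?_⟩
  exact hj

end Fermat.Agent.LR.ParSys
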