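/-
Program M (S41), node C2, second seat (helper27): the Atkin–Lehner automorphism `ALQ.wq β` of
`Γ₀(N q)` (conjugation by `W = [q x, 1; N q z, q]`, `det W = q > 0`) preserves positive parabolic
elements, hence is `CuspInv.Matched`.
Imports LR/AtkinLehnerQ + LR/ParSysMatched.
-/
import Mathlib
import Fermat.Agent.LR.AtkinLehnerQ
import Fermat.Agent.LR.ParSysMatched

set_option autoImplicit false

namespace Fermat.Agent.LR.ParSys

open Matrix ModularGroup CongruenceSubgroup
open scoped MatrixGroups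
open Fermat.Agent.Jac Fermat.Agent.LR.ALQ

/-- the arithmetic behind: conjugation by a matrix of positive determinant preserves positive
parabolic elements (Atkin–Lehner case). -/
theorem al_ineq (N q : ℤ) (hN : 0 < N) (hq : 0 < q) (a b c' d x z : ℤ) (htr : a + d = 2)
    (hdet : a * d - b * (N * q * c') = 1) (hb : 0 ≤ b) (hc : c' ≤ 0) :
    0 ≤ -(x * a) - N * c' + q * x ^ 2 * b + x * d ∧
      z * a + q * c' - N * z ^ 2 * b - z * d ≤ 0 := by
  obtain rfl : d = 2 - a := by linarith
  have hsq : -(b * (N * q * c')) = (1 - a) ^ 2 := by linear_combination hdet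
  constructor
  · rcases hb.eq_or_lt with hb0 | hbpos
    · rw [← hb0] at hsq ⊢
      have ha : a = 1 := by
        have : (1 - a) ^ 2 = 0 := by rw [← hsq]; ring
        have := pow_eq_zero_iff (two_ne_zero) |>.mp this
        linarith
      rw [ha]
      have : 0 ≤ N * (-c') := mul_nonneg hN.le (by linarith)
      nlinarith
    · have key : q * b * (-(x * a) - N * c' + q * x ^ 2 * b + x * (2 - a)) =
          (1 - a + q * b * x) ^ 2 := by linear_combination hsq
      by_contra hneg
      rw [not_le] at hneg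
      have h1 := mul_neg_of_pos_of_neg (mul_pos hq hbpos) hneg
      rw [key] at h1
      exact absurd h1 (not_lt.mpr (sq_nonneg _))
  · rcases hc.eq_or_lt with hc0 | hcneg
    · rw [hc0] at hsq ⊢
      have ha : a = 1 := by
        have : (1 - a) ^ 2 = 0 := by rw [← hsq]; ring
        have := pow_eq_zero_iff (two_ne_zero) |>.mp this
        linarith
      rw [ha]
      have : 0 ≤ N * z ^ 2 * b := mul_nonneg (mul_nonneg hN.le (sq_nonneg _)) hb
      nlinarith
    · have key : N * q * c' * (z * a + q * c' - N * z ^ 2 * b - z * (2 - a)) =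
          N * (q * c' + (a - 1) * z) ^ 2 := by linear_combination (N * z ^ 2) * hsq
      by_contra hpos
      rw [not_le] at hpos
      have hneg : N * q * c' < 0 := mul_neg_of_pos_of_neg (mul_pos hN hq) hcneg
      have h1 := mul_neg_of_neg_of_pos hneg hpos
      rw [key] at h1
      exact absurd h1 (not_lt.mpr (mul_nonneg hN.le (sq_nonneg _)))

variable {N q : ℕ} [NeZero N] [NeZero q] (β : Bez N q)

theorem posPar_wq {γ : Gamma0 (N * q)} (h : PosPar (γ : SL(2, ℤ))) :
    PosPar ((wq β γ : Gamma0 (N * q)) : SL(2, ℤ)) := by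
  obtain ⟨hne, htr, h01, h10⟩ := h
  have hN : (0 : ℤ) < N := by exact_mod_cast Nat.pos_of_ne_zero (NeZero.ne N)
  have hq : (0 : ℤ) < q := by exact_mod_cast Nat.pos_of_ne_zero (NeZero.ne q)
  have hc := c_eq γ
  have hdet := det_eq' γ
  have hc' : cq γ ≤ 0 := by
    rw [hc] at h10
    by_contra hpos
    rw [not_le] at hpos
    have := mul_pos (mul_pos hN hq) hpos
    linarith
  obtain ⟨e1, e2⟩ := al_ineq N q hN hq _ _ _ _ β.x β.z htr hdet h01 hc'
  refine ⟨?_, ?_, ?_, ?_⟩
  · intro h1
    apply hne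
    have : wq β γ = 1 := Subtype.ext h1
    have h2 : γ = 1 := (wq β).injective (by rw [this, map_one])
    rw [h2]; rfl
  · have := trace_wq β γ
    rw [Matrix.trace_fin_two, Matrix.trace_fin_two] at this
    rw [this]; exact htr
  · show 0 ≤ (alSL β γ) 0 1
    rw [alSL_zero_one]
    linarith
  · show (alSL β γ) 1 0 ≤ 0
    rw [alSL_one_zero]
    have := mul_nonneg (mul_pos hN hq).le (by linarith :
      0 ≤ -(β.z * (γ : SL(2, ℤ)) 0 0 + q * cq γ - N * β.z ^ 2 * (γ : SL(2, ℤ)) 0 1
        - β.z * (γ : SL(2, ℤ)) 1 1))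
    linarith

theorem posPar_wq_iff (γ : Gamma0 (N * q)) :
    PosPar ((wq β γ : Gamma0 (N * q)) : SL(2, ℤ)) ↔ PosPar (γ : SL(2, ℤ)) := by
  refine ⟨fun h => ?_, posPar_wq β⟩
  have h2 := posPar_wq β h
  rw [wq_wq] at h2
  have h3 : ((gam1 β * γ * (gam1 β)⁻¹ : Gamma0 (N * q)) : SL(2, ℤ)) =
      (gam1 β : SL(2, ℤ)) * (γ : SL(2, ℤ)) * (gam1 β : SL(2, ℤ))⁻¹ := by
    simp
  rw [h3, posPar_conj_iff] at h2
  exact h2

/-- the Atkin–Lehner automorphism matches the cusp generators. -/
theorem matched_wq : CuspInv.Matched (wq β) :=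
  matched_of_posPar (Fermat.Agent.Eis.ParClass.neg_one_mem_Gamma0 (N * q))
    (Fermat.Agent.Eis.ParClass.neg_one_mem_Gamma0 (N * q)) (wq β) (posPar_wq_iff β)

end Fermat.Agent.LR.ParSys
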