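import Mathlib
import Fermat.Agent.LR.PDInvInter
import Fermat.Agent.LR.PDPerfect
import Fermat.Agent.LR.ParSysAL
import Fermat.Agent.LR.DegMain

/-!
# Program M, node C2 (final): conjugation invariance of the integral Poincaré duality form

* `pdForm_eq_of_matched` : for `c : Γ₁ ≃* Γ₂` matching cusp generators (`CuspInv.Matched`, e.g. any
  isomorphism preserving positive parabolic elements, `ParSys.matched_of_posPar`), the PD forms
  correspond: `pdForm Γ₁ (φ ∘ c) (ψ ∘ c) = pdForm Γ₂ φ ψ`;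
* `pdForm_wLam` : the Atkin–Lehner operator `w = (· ∘ wq)` on `Λ(N q)` is an isometry;
* `hadj2_of_hadj1` : adjointness of `(A2L, B2L)` from adjointness of `(A1L, B1L)`;
* `hself_of_hadj1` : self-adjointness of `TLam N l` (`l ∤ N`) from adjointness of `(A1L, B1L)`
  at level `(N, l)`.
-/

set_option autoImplicit false
set_option linter.style.haveILetI false

namespace Fermat.Agent.LR.PDInv

open Matrix Matrix.SpecialLinearGroup ModularGroup CongruenceSubgroup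
open Fermat.Agent.Eis.PSL2Free Fermat.Agent.Eis.Shapiro Fermat.Agent.Eis.CocycleUP
open Fermat.Agent.LR.CuspSum Fermat.Agent.LR.CuspInv Fermat.Agent.LR.PD
open Fermat.Agent.Jac Fermat.Agent.LR.Deg Fermat.Agent.LR.DegMain
open ModularCurve.Period
open scoped MatrixGroups

/-! ### The general invariance theorem -/

theorem pdForm_eq_of_matched {Γ₁ Γ₂ : Subgroup SL(2, ℤ)} [Γ₁.FiniteIndex] [Γ₂.FiniteIndex]
    (hneg₁ : (-1 : SL(2, ℤ)) ∈ Γ₁) (hneg₂ : (-1 : SL(2, ℤ)) ∈ Γ₂)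
    (c : Γ₁ ≃* Γ₂) (hc : Matched c)
    (φ₁ ψ₁ : parabolicHoms ℤ Γ₁ ℤ) (φ₂ ψ₂ : parabolicHoms ℤ Γ₂ ℤ)
    (hφ : ∀ γ : Γ₁, (φ₁ : Additive Γ₁ →+ ℤ) (Additive.ofMul γ) =
      (φ₂ : Additive Γ₂ →+ ℤ) (Additive.ofMul (c γ)))
    (hψ : ∀ γ : Γ₁, (ψ₁ : Additive Γ₁ →+ ℤ) (Additive.ofMul γ) =
      (ψ₂ : Additive Γ₂ →+ ℤ) (Additive.ofMul (c γ))) :
    pdForm Γ₁ hneg₁ φ₁ ψ₁ = pdForm Γ₂ hneg₂ φ₂ ψ₂ := by
  have : Finite (Cos Γ₁) := Subgroup.finite_quotient_of_finiteIndex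
  have : Finite (Cos Γ₂) := Subgroup.finite_quotient_of_finiteIndex
  letI : Fintype (Cos Γ₁) := Fintype.ofFinite _
  letI : Fintype (Cos Γ₂) := Fintype.ofFinite _
  obtain ⟨m₁, rfl⟩ := symHom_surjective hneg₁ φ₁
  obtain ⟨m₁', rfl⟩ := symHom_surjective hneg₁ ψ₁
  obtain ⟨m₂, rfl⟩ := symHom_surjective hneg₂ φ₂
  obtain ⟨m₂', rfl⟩ := symHom_surjective hneg₂ ψ₂
  rw [pdForm_apply, pdForm_apply, pdFun_symHom, pdFun_symHom]
  refine inter_eq_of_matched hneg₁ hneg₂ c hc m₁ m₁' m₂ m₂' (fun γ => ?_) (fun γ => ?_)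
  · have := hφ γ
    rwa [coe_symHom, coe_symHom] at this
  · have := hψ γ
    rwa [coe_symHom, coe_symHom] at this

/-! ### The Atkin–Lehner operator is an isometry -/

section AL

variable {N q : ℕ} [NeZero N] [NeZero q] [NeZero (N * q)] (β : ALQ.Bez N q)

theorem pdForm_wLam (y y' : Lam (N * q)) :
    pdForm (Gamma0 (N * q)) (Fermat.Agent.Eis.ParClass.neg_one_mem_Gamma0 (N * q))
        (ALQ.wLam β y) (ALQ.wLam β y') =
      pdForm (Gamma0 (N * q)) (Fermat.Agent.Eis.ParClass.neg_one_mem_Gamma0 (N * q)) y y' :=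
  pdForm_eq_of_matched _ _ (ALQ.wq β) (Fermat.Agent.LR.ParSys.matched_wq β) _ _ _ _
    (fun γ => by rw [ALQ.coe_wLam_apply, ALQ.wHom_apply])
    (fun γ => by rw [ALQ.coe_wLam_apply, ALQ.wHom_apply])

/-- `w` is self-adjoint. -/
theorem pdForm_wLam_left (y y' : Lam (N * q)) :
    pdForm (Gamma0 (N * q)) (Fermat.Agent.Eis.ParClass.neg_one_mem_Gamma0 (N * q))
        (ALQ.wLam β y) y' =
      pdForm (Gamma0 (N * q)) (Fermat.Agent.Eis.ParClass.neg_one_mem_Gamma0 (N * q))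
        y (ALQ.wLam β y') := by
  conv_lhs => rw [← ALQ.wLam_wLam β y']
  exact pdForm_wLam β y (ALQ.wLam β y')

end AL

/-! ### Adjointness of the second degeneracy pair and self-adjointness of `T_l` -/

section Adj

variable (N q : ℕ) [NeZero N] [NeZero (N * q)] (hq : q.Prime) (hqN : ¬ q ∣ N)

/-- notation: the PD form at level `M`. -/
noncomputable abbrev pdLam (M : ℕ) [NeZero M] : Lam M →ₗ[ℤ] Lam M →ₗ[ℤ] ℤ :=
  pdForm (Gamma0 M) (Fermat.Agent.Eis.ParClass.neg_one_mem_Gamma0 M)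

theorem A2L_eq_wLam (x : Lam N) :
    A2L N q hq hqN x =
      (haveI : NeZero q := ⟨hq.ne_zero⟩; ALQ.wLam (bez N q hq hqN) (A1L N q x)) := by
  haveI : NeZero q := ⟨hq.ne_zero⟩
  apply Subtype.ext
  rw [ALQ.coe_wLam_apply, A2L_eq, ALData.coe_A2Lam, ALData.A2_apply', alData_eq,
    ALData.ofBez_wOp]
  rfl

theorem B2L_eq_wLam (y : Lam (N * q)) :
    B2L N q hq hqN y =
      (haveI : NeZero q := ⟨hq.ne_zero⟩; B1L N q hq hqN (ALQ.wLam (bez N q hq hqN) y)) := by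
  haveI : NeZero q := ⟨hq.ne_zero⟩
  apply Subtype.ext
  rw [B2L_eq, ALData.coe_B2Lam, ALData.B2_apply', alData_eq, ALData.ofBez_wOp, B1L_eq,
    coe_B1Lam, ALQ.coe_wLam_apply]

/-- **hadj₂** from **hadj₁**. -/
theorem hadj2_of_hadj1
    (hadj1 : ∀ (x : Lam N) (y : Lam (N * q)),
      pdLam (N * q) (A1L N q x) y = pdLam N x (B1L N q hq hqN y))
    (x : Lam N) (y : Lam (N * q)) :
    pdLam (N * q) (A2L N q hq hqN x) y = pdLam N x (B2L N q hq hqN y) := by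
  haveI : NeZero q := ⟨hq.ne_zero⟩
  rw [A2L_eq_wLam, B2L_eq_wLam, ← hadj1]
  exact pdForm_wLam_left (bez N q hq hqN) (A1L N q x) y

/-- **hself** at level `N` for `T_q`, `q ∤ N`, from **hadj₁** at level `(N, q)`. -/
theorem hself_of_hadj1
    (hadj1 : ∀ (x : Lam N) (y : Lam (N * q)),
      pdLam (N * q) (A1L N q x) y = pdLam N x (B1L N q hq hqN y))
    (x y : Lam N) :
    pdLam N (TLam N ⟨q, hq⟩ x) y = pdLam N x (TLam N ⟨q, hq⟩ y) := by
  have hadj2 := hadj2_of_hadj1 N q hq hqN hadj1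
  have h1 : pdLam N (TLam N ⟨q, hq⟩ x) y = - pdLam N y (B1L N q hq hqN (A2L N q hq hqN x)) := by
    rw [B1L_A2L]
    exact pdForm_skew _ _ _
  have h2 : pdLam N x (TLam N ⟨q, hq⟩ y) = pdLam N x (B2L N q hq hqN (A1L N q y)) := by
    rw [B2L_A1L]
  rw [h1, h2, ← hadj1, ← hadj2]
  exact (pdForm_skew (Fermat.Agent.Eis.ParClass.neg_one_mem_Gamma0 (N * q))
    (A2L N q hq hqN x) (A1L N q y)).symm

end Adj

end Fermat.Agent.LR.PDInv
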