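import Mathlib
import Fermat.Agent.LR.PDGamma0Adj
import Fermat.Agent.LR.PDInvariance
import Fermat.Agent.LR.DegMain

/-!
# Program M (S41), node C: the final export

The Poincaré duality bundle needed by `S41Main.s41_of_nodes` for node B's maps `DegMain.A1L`, ...:
`IN = pdForm (Γ₀(N))`, `INq = pdForm (Γ₀(N q))` (both perfect), `hadj1` (`PDGamma0Adj`), `hadj2` and
the self-adjointness of `T_l`, `l ∤ N` (`PDInvariance`).
-/

set_option autoImplicit false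

namespace Fermat.Agent.LR.NodeC

open Fermat.Agent.Jac CongruenceSubgroup Fermat.Agent.LR.PD Fermat.Agent.LR.PDInv
open scoped MatrixGroups

theorem hadj1 (N q : ℕ) [NeZero N] [NeZero (N * q)] (hq : q.Prime) (hqN : ¬ q ∣ N)
    (x : Lam N) (y : Lam (N * q)) :
    pdLam (N * q) (DegMain.A1L N q x) y = pdLam N x (DegMain.B1L N q hq hqN y) :=
  pdForm_A1Lam_B1Lam N q hq hqN x y

theorem node_C (N q : ℕ) [NeZero N] [NeZero (N * q)] (hq : q.Prime) (hqN : ¬ q ∣ N) :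
    ∃ (IN : Lam N →ₗ[ℤ] Lam N →ₗ[ℤ] ℤ) (INq : Lam (N * q) →ₗ[ℤ] Lam (N * q) →ₗ[ℤ] ℤ),
      Function.Surjective IN ∧ Function.Bijective INq ∧
      (∀ x y, INq (DegMain.A1L N q x) y = IN x (DegMain.B1L N q hq hqN y)) ∧
      (∀ x y, INq (DegMain.A2L N q hq hqN x) y = IN x (DegMain.B2L N q hq hqN y)) ∧
      (∀ l : Nat.Primes, ¬ (l : ℕ) ∣ N → ∀ x y, IN (TLam N l x) y = IN x (TLam N l y)) := by
  refine ⟨pdLam N, pdLam (N * q), (pdForm_bijective _).2, pdForm_bijective _,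
    hadj1 N q hq hqN, hadj2_of_hadj1 N q hq hqN (hadj1 N q hq hqN), fun l hl x y => ?_⟩
  have : NeZero (N * (l : ℕ)) := ⟨(Nat.mul_pos (NeZero.pos N) l.2.pos).ne'⟩
  exact hself_of_hadj1 N l l.2 hl (hadj1 N l l.2 hl) x y

end Fermat.Agent.LR.NodeC
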