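import Fermat.Agent.LR.NonEis
import Fermat.Agent.LR.TwistCountPlug

/-!
# Program M, node E: the non-Eisenstein prime, unconditionally

`exists_prime`: in the hypotheses of S41 (an elliptic curve `E / ℚ` with integral model `W`, `E[p]`
irreducible, `p` odd, an eigenform `f` of level `N` congruent to `E` modulo `𝔪 ∣ p`), every modulus
`m ≥ 1` and every finite set `T` admit a prime `l ∉ T`, `l ≡ 1 mod m`, of good reduction, `l ∤ N`,
`l ≠ p`, with `p ∤ l + 1 - a_l(W)`.  This is `NonEis.exists_prime_of_frobLink` with the Frobenius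
link of node E2 (`TwistPlug.frobLink`) plugged in; no hypothesis beyond those of S41 remains.
-/

set_option autoImplicit false

open WeierstrassCurve WeierstrassCurve.Affine WeierstrassCurve.Affine.Point
open scoped WeierstrassCurve.Affine

namespace Fermat.Agent.LR.NonEis

local notation "Zbar" => integralClosure ℤ ℂ

/-- **Node E, final export**: the non-Eisenstein prime in the hypotheses of S41. -/
theorem exists_prime (E : WeierstrassCurve ℚ) [E.IsElliptic]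
    {W : WeierstrassCurve ℤ} (hW : W.IsIntegralModelOf E) {p N : ℕ}
    (hp : p.Prime) (hp2 : p ≠ 2) (hN : 0 < N)
    (hirr : GaloisRepIsIrreducible (K := AlgebraicClosure ℚ) ℚ E p)
    (f : CuspForm (CongruenceSubgroup.Gamma0 N) 2) (𝔪 : Ideal Zbar)
    (hf : f.IsNormalizedEigenform) (hmax : 𝔪.IsMaximal) (hpm : (p : Zbar) ∈ 𝔪)
    (hcong : ∀ ℓ : ℕ, ℓ.Prime → W.IsGoodPrimeFor ℓ → ¬ ℓ ∣ N → ℓ ≠ p →
      ∃ a : Zbar, (a : ℂ) = ModularFormClass.qCoeff f ℓ ∧
        a - ((W.apOfModel ℓ : ℤ) : Zbar) ∈ 𝔪)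
    (m : ℕ) (hm : 0 < m) (T : Finset ℕ) :
    ∃ l : ℕ, l.Prime ∧ l ∉ T ∧ l ≡ 1 [MOD m] ∧ W.IsGoodPrimeFor l ∧ ¬ l ∣ N ∧ l ≠ p ∧
      ¬ (p : ℤ) ∣ (l : ℤ) + 1 - W.apOfModel l :=
  exists_prime_of_frobLink E hW (Fermat.Agent.LR.TwistPlug.frobLink W hp) hp hp2 hN hirr
    f 𝔪 hf hmax hpm hcong m hm T

end Fermat.Agent.LR.NonEis
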