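import Fermat.Agent.LR.NonEisCore
import Fermat.Agent.S13.DFinal
import Fermat.Agent.S29

/-!
# Program M, node E (glue), final hypothesis form: no cardinality hypothesis, S29 plugged in

* `eq_one_of_forall_exists_fixed_le` : `EigenOne.eq_one_of_forall_exists_fixed` for
  `finrank V ≤ 2` (in dimension `≤ 1` an endomorphism fixing a nonzero vector is the identity);
* `finite_Vp`, `finrank_Vp_le_two` : from `S13.torsion_finite_card_le`;
* `exists_prime_of_link` : the non-Eisenstein prime, from `FrobLink W p` (node E2), irreducibility of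
  `Vp W p` (node E0 transfers it from `E`), `W.Δ ≠ 0`, and the S41 hypotheses on `f`, `𝔪`.
-/

set_option autoImplicit false
set_option linter.style.haveILetI false

open WeierstrassCurve WeierstrassCurve.Affine WeierstrassCurve.Affine.Point Polynomial
open scoped WeierstrassCurve.Affine

namespace Fermat.Agent.LR.NonEis

local notation "Qb" => AlgebraicClosure ℚ
local notation "GQ" => (AlgebraicClosure ℚ ≃ₐ[ℚ] AlgebraicClosure ℚ)
local notation "Zbar" => integralClosure ℤ ℂ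

/-- **GT2 in dimension `≤ 2`.** -/
theorem eq_one_of_forall_exists_fixed_le {F V : Type*} [Field F] [AddCommGroup V] [Module F V]
    [FiniteDimensional F V] (hV : Module.finrank F V ≤ 2)
    {G : Type*} [Group G] (ρ : G →* Module.End F V)
    (hirr : ∀ N : Submodule F V, (∀ g : G, ∀ x ∈ N, ρ g x ∈ N) → N = ⊥ ∨ N = ⊤)
    (H : Subgroup G) [hH : H.Normal] (hfix : ∀ h ∈ H, ∃ v : V, v ≠ 0 ∧ ρ h v = v) :
    ∀ h ∈ H, ρ h = 1 := by
  rcases Nat.lt_or_ge (Module.finrank F V) 2 with hlt | hge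
  · -- dimension `≤ 1`
    have h1 : Module.finrank F V ≤ 1 := by omega
    obtain ⟨v₀, hv₀⟩ := finrank_le_one_iff.mp h1
    intro h hh
    obtain ⟨v, hv, hfv⟩ := hfix h hh
    obtain ⟨a, ha⟩ := hv₀ v
    have ha0 : a ≠ 0 := by
      rintro rfl
      rw [zero_smul] at ha
      exact hv ha.symm
    ext w
    obtain ⟨c, hc⟩ := hv₀ w
    have hw : w = (c * a⁻¹) • v := by
      rw [← ha, smul_smul, mul_assoc, inv_mul_cancel₀ ha0, mul_one, hc]
    rw [Module.End.one_apply, hw, map_smul, hfv]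
  · exact Fermat.Agent.LR.EigenOne.eq_one_of_forall_exists_fixed (le_antisymm hV hge) ρ hirr H hfix

section Main

variable (W : WeierstrassCurve ℤ) {p N : ℕ}

/-- `Vp W p` is finite of cardinality `≤ p ^ 2` (odd `p`). -/
theorem finite_card_Vp_le (hp : p.Prime) (hp2 : p ≠ 2) :
    Finite (Vp W p) ∧ Nat.card (Vp W p) ≤ p ^ 2 := by
  have hodd : Odd p := hp.odd_of_ne_two hp2
  have hpF : ((p : ℕ) : Qb) ≠ 0 := Nat.cast_ne_zero.mpr hp.ne_zero
  exact Fermat.Agent.S13.torsion_finite_card_le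
    (Fermat.Agent.S13.torsionIffΨSq ((WQ W)⁄Qb)) hodd hpF

theorem finite_Vp (hp : p.Prime) (hp2 : p ≠ 2) : Finite (Vp W p) :=
  (finite_card_Vp_le W hp hp2).1

theorem finrank_Vp_le_two [Fact p.Prime] (hp2 : p ≠ 2) :
    Module.finrank (ZMod p) (Vp W p) ≤ 2 := by
  have hp : p.Prime := Fact.out
  obtain ⟨hfin, hcard⟩ := finite_card_Vp_le W hp hp2
  have h := Module.natCard_eq_pow_finrank (K := ZMod p) (V := Vp W p)
  rw [h, Nat.card_zmod] at hcard
  exact (Nat.pow_le_pow_iff_right hp.one_lt).mp hcard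

open Fermat.Agent.Pseudo.Cyclo in
/-- `rhoV_commute` without the cardinality hypothesis. -/
theorem rhoV_commute_le (hlink : FrobLink W p)
    (hirr : GaloisRepIsIrreducible (K := Qb) ℚ (WQ W) p)
    {m : ℕ} [NeZero m] {T : Finset ℕ} (hN : 0 < N) (hp : p.Prime) (hp2 : p ≠ 2) (hΔ : W.Δ ≠ 0)
    (hne : ∀ l : ℕ, l.Prime → l ∉ T → l ≡ 1 [MOD m] → W.IsGoodPrimeFor l → ¬ l ∣ N → l ≠ p →
      (p : ℤ) ∣ (l : ℤ) + 1 - W.apOfModel l)
    (σ τ : GQ) : rhoV W p σ * rhoV W p τ = rhoV W p τ * rhoV W p σ := by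
  haveI : Fact p.Prime := ⟨hp⟩
  have hV : Module.finrank (ZMod p) (Vp W p) ≤ 2 := finrank_Vp_le_two W hp2
  haveI : Finite (Vp W p) := finite_Vp W hp hp2
  haveI : FiniteDimensional (ZMod p) (Vp W p) := Module.Finite.of_finite
  have hirr' : ∀ M : Submodule (ZMod p) (Vp W p),
      (∀ g : GQ, ∀ x ∈ M, rhoV W p g x ∈ M) → M = ⊥ ∨ M = ⊤ :=
    fun M hM => hirr.2 M fun g x hx => hM g x hx
  have htriv := eq_one_of_forall_exists_fixed_le hV (rhoV W p) hirr' (cycloN m).ker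
    (fun h hh => exists_fixed_of_cycloN_eq_one W hlink hN hp hΔ hne h (MonoidHom.mem_ker.mp hh))
  have hcomm : σ * τ * σ⁻¹ * τ⁻¹ ∈ (cycloN m).ker := by
    rw [MonoidHom.mem_ker, map_mul, map_mul, map_mul, map_inv, map_inv, mul_inv_cancel_comm,
      mul_inv_cancel]
  have h1 := htriv _ hcomm
  have h2 : σ * τ = (σ * τ * σ⁻¹ * τ⁻¹) * (τ * σ) := by group
  rw [← map_mul, h2, map_mul, h1, one_mul, map_mul]

/-- Node E in hypothesis form, without cardinality hypothesis, for an arbitrary residual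
representation attached to `f`. -/
theorem exists_prime_of_exports_le (hlink : FrobLink W p)
    (hirr : GaloisRepIsIrreducible (K := Qb) ℚ (WQ W) p)
    (hN : 0 < N) (hp : p.Prime) (hp2 : p ≠ 2) (hΔ : W.Δ ≠ 0)
    (f : CuspForm (CongruenceSubgroup.Gamma0 N) 2) (𝔪 : Ideal Zbar) [hmax : 𝔪.IsMaximal]
    (hpm : (p : Zbar) ∈ 𝔪)
    (hcong : ∀ ℓ : ℕ, ℓ.Prime → W.IsGoodPrimeFor ℓ → ¬ ℓ ∣ N → ℓ ≠ p →
      ∃ a : Zbar, (a : ℂ) = ModularFormClass.qCoeff f ℓ ∧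
        a - ((W.apOfModel ℓ : ℤ) : Zbar) ∈ 𝔪)
    {κ : Type} [Field κ] (ψ : Zbar →+* κ) (hψ : ∀ a : Zbar, ψ a = 0 ↔ a ∈ 𝔪)
    (ρ : ResidualGaloisRep κ) (hρ : ρ.IsAttachedTo f ψ)
    (m : ℕ) (hm : 0 < m) (T : Finset ℕ) :
    ∃ l : ℕ, l.Prime ∧ l ∉ T ∧ l ≡ 1 [MOD m] ∧ W.IsGoodPrimeFor l ∧ ¬ l ∣ N ∧ l ≠ p ∧
      ¬ (p : ℤ) ∣ (l : ℤ) + 1 - W.apOfModel l := by
  by_contra hcon
  push Not at hcon
  haveI : NeZero m := ⟨hm.ne'⟩
  haveI : Fact p.Prime := ⟨hp⟩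
  haveI : Finite (Vp W p) := finite_Vp W hp hp2
  have hcomm := rhoV_commute_le W hlink hirr (m := m) (T := T) hN hp hp2 hΔ hcon
  obtain ⟨⟨v₁, hv₁0, hv₁⟩, ⟨v₂, hv₂0, hv₂⟩⟩ :=
    exists_fixed_antifixed_complexConjugation W hlink hN hp hΔ f 𝔪 hpm hcong ψ hψ ρ hρ
  let Lp : Submodule (ZMod p) (Vp W p) := LinearMap.ker (rhoV W p complexConjugation - 1)
  have hmem : ∀ x : Vp W p, x ∈ Lp ↔ rhoV W p complexConjugation x = x := fun x => by
    rw [LinearMap.mem_ker, LinearMap.sub_apply, Module.End.one_apply, sub_eq_zero]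
  have hstab : IsGaloisStable ℚ Lp := by
    intro σ x hx
    rw [hmem] at hx ⊢
    have h1 : rhoV W p complexConjugation (rhoV W p σ x) =
        rhoV W p σ (rhoV W p complexConjugation x) := by
      rw [← Module.End.mul_apply, ← Module.End.mul_apply, hcomm complexConjugation σ]
    change rhoV W p complexConjugation (rhoV W p σ x) = rhoV W p σ x
    rw [h1, hx]
  rcases hirr.2 Lp hstab with hbot | htop
  · have : v₁ ∈ Lp := (hmem v₁).mpr hv₁
    rw [hbot, Submodule.mem_bot] at this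
    exact hv₁0 this
  · have : v₂ ∈ Lp := by rw [htop]; exact Submodule.mem_top
    rw [hmem, hv₂] at this
    have h2 : (2 : ZMod p) • v₂ = 0 := by
      rw [two_smul]
      nth_rewrite 1 [← this]
      exact neg_add_cancel v₂
    rcases smul_eq_zero.mp h2 with h | h
    · have h2' : ((2 : ℕ) : ZMod p) = 0 := by exact_mod_cast h
      rw [ZMod.natCast_eq_zero_iff] at h2'
      exact hp2 ((Nat.prime_dvd_prime_iff_eq hp Nat.prime_two).mp h2')
    · exact hv₂0 h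

/-- **Node E, S29 plugged in.**  From the Frobenius link (node E2), irreducibility of `Vp W p`
(node E0 transfers it from `E`), `W.Δ ≠ 0` and the hypotheses of S41 on `f`, `𝔪`. -/
theorem exists_prime_of_link (hlink : FrobLink W p)
    (hirr : GaloisRepIsIrreducible (K := Qb) ℚ (WQ W) p)
    (hN : 0 < N) (hp : p.Prime) (hp2 : p ≠ 2) (hΔ : W.Δ ≠ 0)
    (f : CuspForm (CongruenceSubgroup.Gamma0 N) 2) (𝔪 : Ideal Zbar)
    (hf : f.IsNormalizedEigenform) (hmax : 𝔪.IsMaximal) (hpm : (p : Zbar) ∈ 𝔪)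
    (hcong : ∀ ℓ : ℕ, ℓ.Prime → W.IsGoodPrimeFor ℓ → ¬ ℓ ∣ N → ℓ ≠ p →
      ∃ a : Zbar, (a : ℂ) = ModularFormClass.qCoeff f ℓ ∧
        a - ((W.apOfModel ℓ : ℤ) : Zbar) ∈ 𝔪)
    (m : ℕ) (hm : 0 < m) (T : Finset ℕ) :
    ∃ l : ℕ, l.Prime ∧ l ∉ T ∧ l ≡ 1 [MOD m] ∧ W.IsGoodPrimeFor l ∧ ¬ l ∣ N ∧ l ≠ p ∧
      ¬ (p : ℤ) ∣ (l : ℤ) + 1 - W.apOfModel l := by
  letI : Field (Zbar ⧸ 𝔪) := Ideal.Quotient.field 𝔪
  have hpκ : ((p : ℕ) : Zbar ⧸ 𝔪) = 0 := by
    rw [← map_natCast (Ideal.Quotient.mk 𝔪), Ideal.Quotient.eq_zero_iff_mem]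
    exact hpm
  haveI : CharP (Zbar ⧸ 𝔪) p := by
    have h := CharP.ringChar_of_prime_eq_zero hp hpκ
    rw [← h]
    exact ringChar.charP _
  obtain ⟨ρ, hρ, -⟩ := Fermat.Agent.S29.result hf hp (Ideal.Quotient.mk 𝔪)
  exact exists_prime_of_exports_le W hlink hirr hN hp hp2 hΔ f 𝔪 hpm hcong
    (Ideal.Quotient.mk 𝔪) (fun a => Ideal.Quotient.eq_zero_iff_mem) ρ hρ m hm T

end Main

end Fermat.Agent.LR.NonEis
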