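import Mathlib
import Fermat.Agent.LR.PDInvariance
import Fermat.Agent.LR.PDGamma0Adj

/-!
# Program M (S41), node C: final export

The integral Poincaré duality forms `pdForm (Gamma0 N)`, `pdForm (Gamma0 (N q))` (helper17,
`LR/PDPerfect`) together with the degeneracy maps `A1L, A2L, B1L, B2L` of node B (`LR/DegMain`)
satisfy every hypothesis on `IN`, `INq` of `S41Main.s41_of_nodes`:

* `hadj1` : `(A1L, B1L)` adjoint  (helper17, `LR/PDGamma0Adj`: restriction/corestriction);
* `hadj2` : `(A2L, B2L)` adjoint  (helper26, `LR/PDInvariance`: the Atkin–Lehner operator is an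
  isometry);
* `hself` : `TLam N l` is self-adjoint for every prime `l ∤ N` (`hadj1` at the pair of levels
  `(N, l)` + Atkin–Lehner isometry at level `N l` + skew-symmetry);
* `node_C` : the bundle, literally the statement `stub_C` of the dry run of `S41.lean`.
-/

set_option autoImplicit false

namespace Fermat.Agent.LR.PDNodeC

open CongruenceSubgroup
open Fermat.Agent.Jac Fermat.Agent.LR.PD Fermat.Agent.LR.PDInv
open scoped MatrixGroups

variable (N q : ℕ) [NeZero N] [NeZero (N * q)] (hq : q.Prime) (hqN : ¬ q ∣ N)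

/-- the PD form at level `M` is perfect. -/
theorem pdLam_bijective (M : ℕ) [NeZero M] : Function.Bijective (pdLam M) :=
  pdForm_bijective _

/-- **hadj₁** in `DegMain`'s notation. -/
theorem hadj1 (x : Lam N) (y : Lam (N * q)) :
    pdLam (N * q) (DegMain.A1L N q x) y = pdLam N x (DegMain.B1L N q hq hqN y) :=
  pdForm_A1Lam_B1Lam N q hq hqN x y

/-- **hadj₂**. -/
theorem hadj2 (x : Lam N) (y : Lam (N * q)) :
    pdLam (N * q) (DegMain.A2L N q hq hqN x) y = pdLam N x (DegMain.B2L N q hq hqN y) :=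
  hadj2_of_hadj1 N q hq hqN (hadj1 N q hq hqN) x y

include hqN in
/-- **hself**: `T_q` (`q ∤ N`) is self-adjoint for the PD form at level `N`. -/
theorem hself (x y : Lam N) :
    pdLam N (TLam N ⟨q, hq⟩ x) y = pdLam N x (TLam N ⟨q, hq⟩ y) :=
  hself_of_hadj1 N q hq hqN (hadj1 N q hq hqN) x y

omit [NeZero (N * q)] in
/-- **hselfN**: every `T_l`, `l ∤ N`, is self-adjoint for the PD form at level `N`. -/
theorem hselfN (l : Nat.Primes) (hl : ¬ (l : ℕ) ∣ N) (x y : Lam N) :
    pdLam N (TLam N l x) y = pdLam N x (TLam N l y) := by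
  have : NeZero (N * (l : ℕ)) := ⟨Nat.mul_ne_zero (NeZero.ne N) l.2.ne_zero⟩
  exact hself N (l : ℕ) l.2 hl x y

/-- **Node C** : the Poincaré duality bundle of `S41Main.s41_of_nodes` for the maps of node B. -/
theorem node_C :
    ∃ (IN : Lam N →ₗ[ℤ] Lam N →ₗ[ℤ] ℤ) (INq : Lam (N * q) →ₗ[ℤ] Lam (N * q) →ₗ[ℤ] ℤ),
      Function.Surjective IN ∧ Function.Bijective INq ∧
      (∀ x y, INq (DegMain.A1L N q x) y = IN x (DegMain.B1L N q hq hqN y)) ∧
      (∀ x y, INq (DegMain.A2L N q hq hqN x) y = IN x (DegMain.B2L N q hq hqN y)) ∧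
      (∀ l : Nat.Primes, ¬ (l : ℕ) ∣ N → ∀ x y, IN (TLam N l x) y = IN x (TLam N l y)) :=
  ⟨pdLam N, pdLam (N * q), (pdLam_bijective N).surjective, pdLam_bijective (N * q),
    hadj1 N q hq hqN, hadj2 N q hq hqN, fun l hl x y => hselfN N l hl x y⟩

end Fermat.Agent.LR.PDNodeC
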