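import Mathlib.Algebra.Polynomial.Roots
import Mathlib.Algebra.Polynomial.FieldDivision
import Mathlib.Tactic.ComputeDegree
import Mathlib.Tactic.LinearCombination

/-!
# Program M, node E2c: quadratics and an endomorphism fixing the coefficients

For a field `k`, a ring endomorphism `φ` of `k` and a monic quadratic `Y² + bY - c` with
`φ`-fixed coefficients and a root in `k`: the number of `φ`-fixed roots plus the number of roots
sent to the conjugate root `-y - b` is `2`.
-/

set_option autoImplicit false

namespace Fermat.Agent.LR.TwistQ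

open Polynomial

variable {k : Type*} [Field k]

/-- A ring endomorphism fixing the coefficients of `Y² + bY - c` fixes or conjugates each root. -/
theorem frob_root (φ : k →+* k) {b c y : k} (hb : φ b = b) (hc : φ c = c)
    (hy : y ^ 2 + b * y = c) : φ y = y ∨ φ y = -y - b := by
  have h1 : φ y ^ 2 + b * φ y = c := by
    have := congrArg φ hy
    rwa [map_add, map_mul, map_pow, hb, hc] at this
  have h2 : (φ y - y) * (φ y - (-y - b)) = 0 := by linear_combination h1 - hy
  rcases mul_eq_zero.mp h2 with h | h
  · exact Or.inl (sub_eq_zero.mp h)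
  · exact Or.inr (sub_eq_zero.mp h)

theorem quad_ne_zero (b c : k) : (X ^ 2 + C b * X - C c : k[X]) ≠ 0 := by
  have hm : (X ^ 2 + C b * X - C c : k[X]).Monic := by monicity!
  exact hm.ne_zero

variable [DecidableEq k]

/-- the finset of roots of `Y² + bY - c`. -/
noncomputable def quadRoots (b c : k) : Finset k :=
  (X ^ 2 + C b * X - C c : k[X]).roots.toFinset

theorem mem_quadRoots {b c y : k} : y ∈ quadRoots b c ↔ y ^ 2 + b * y = c := by
  rw [quadRoots, Multiset.mem_toFinset, mem_roots (quad_ne_zero b c), IsRoot.def]
  simp only [eval_sub, eval_add, eval_pow, eval_X, eval_mul, eval_C]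
  exact sub_eq_zero

theorem quadRoots_eq_pair {b c y₁ : k} (h : y₁ ^ 2 + b * y₁ = c) :
    quadRoots b c = {y₁, -y₁ - b} := by
  ext y
  rw [mem_quadRoots, Finset.mem_insert, Finset.mem_singleton]
  constructor
  · intro hy
    have h2 : (y - y₁) * (y - (-y₁ - b)) = 0 := by linear_combination hy - h
    rcases mul_eq_zero.mp h2 with h' | h'
    · exact Or.inl (sub_eq_zero.mp h')
    · exact Or.inr (sub_eq_zero.mp h')
  · rintro (rfl | rfl)
    · exact h
    · linear_combination h

/-- roots counted with the double root counted twice: `#roots + #{double roots} = 2`. -/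
theorem card_quadRoots_add {b c : k} (h : ∃ y : k, y ^ 2 + b * y = c) :
    (quadRoots b c).card + ((quadRoots b c).filter (fun y => 2 * y + b = 0)).card = 2 := by
  obtain ⟨y₁, h₁⟩ := h
  rw [quadRoots_eq_pair h₁]
  by_cases hd : y₁ = -y₁ - b
  · have h2 : 2 * y₁ + b = 0 := by linear_combination hd
    rw [← hd, Finset.pair_eq_singleton, Finset.filter_singleton, if_pos h2]
    rfl
  · have h2 : ¬ (2 * y₁ + b = 0) := fun h0 => hd (by linear_combination h0)
    have h3 : ¬ (2 * (-y₁ - b) + b = 0) := fun h0 => hd (by linear_combination -h0)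
    rw [Finset.card_pair hd, Finset.filter_insert, if_neg h2, Finset.filter_singleton, if_neg h3]
    rfl

/-- **Fixed plus anti-fixed roots.** -/
theorem card_fixed_add_card_anti (φ : k →+* k) {b c : k} (hb : φ b = b) (hc : φ c = c)
    (h : ∃ y : k, y ^ 2 + b * y = c) :
    ((quadRoots b c).filter (fun y => φ y = y)).card +
      ((quadRoots b c).filter (fun y => φ y = -y - b)).card = 2 := by
  rw [← Finset.card_union_add_card_inter, ← card_quadRoots_add h]
  congr 2
  · ext y
    simp only [Finset.mem_union, Finset.mem_filter]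
    constructor
    · rintro (⟨hy, -⟩ | ⟨hy, -⟩) <;> exact hy
    · intro hy
      rcases frob_root φ hb hc (mem_quadRoots.mp hy) with h' | h'
      · exact Or.inl ⟨hy, h'⟩
      · exact Or.inr ⟨hy, h'⟩
  · ext y
    simp only [Finset.mem_inter, Finset.mem_filter]
    constructor
    · rintro ⟨⟨hy, h1⟩, -, h2⟩
      exact ⟨hy, by linear_combination h2 - h1⟩
    · rintro ⟨hy, h0⟩
      have hyy : -y - b = y := by linear_combination -h0
      have hφ : φ y = y := by
        rcases frob_root φ hb hc (mem_quadRoots.mp hy) with h' | h'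
        · exact h'
        · rw [h', hyy]
      exact ⟨⟨hy, hφ⟩, hy, by rw [hφ, hyy]⟩

end Fermat.Agent.LR.TwistQ
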