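import Mathlib.AlgebraicGeometry.EllipticCurve.Affine.Point
import Mathlib.FieldTheory.Finite.Basic
import Mathlib.GroupTheory.Perm.Cycle.Type
import Mathlib.FieldTheory.IsAlgClosed.Basic
import Mathlib.Algebra.Algebra.ZMod
import Fermat.Prelude.Def_FLTPrelim_Modularity
import Fermat.Agent.LR.TwistQ

/-!
# Program M, node E2c: the twist count

For a Weierstrass curve `W` with `Δ ≠ 0` over a finite field `F` with `q` elements and a field
`k ⊇ F` in which the relevant quadratics have roots, the points `Q` of `W(k)` with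
`Frob Q = -Q` form a finite group of order `2q + 2 - #W(F)`.
-/

set_option autoImplicit false

namespace Fermat.Agent.LR.TwistCount

open WeierstrassCurve WeierstrassCurve.Affine Polynomial
open Fermat.Agent.LR.TwistQ

variable {F : Type*} [Field F] [Fintype F] {k : Type*} [Field k] [Algebra F k]

/-- Elements of `k` fixed by the `q`-power map come from `F`. -/
theorem exists_algebraMap_eq_of_pow_card_eq {x : k} (hx : x ^ Fintype.card F = x) :
    ∃ a : F, algebraMap F k a = x := by
  classical
  have hq : 1 < Fintype.card F := Fintype.one_lt_card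
  have hf : (X ^ Fintype.card F - X : k[X]) ≠ 0 := FiniteField.X_pow_card_sub_X_ne_zero k hq
  have hdeg : (X ^ Fintype.card F - X : k[X]).natDegree = Fintype.card F :=
    FiniteField.X_pow_card_sub_X_natDegree_eq k hq
  by_contra hne
  simp only [not_exists] at hne
  have hinj : Function.Injective (algebraMap F k) := (algebraMap F k).injective
  have hsub : insert x (Finset.univ.image (algebraMap F k)) ⊆
      (X ^ Fintype.card F - X : k[X]).roots.toFinset := by
    intro z hz
    rw [Multiset.mem_toFinset, mem_roots hf, IsRoot.def, eval_sub, eval_pow, eval_X, sub_eq_zero]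
    rcases Finset.mem_insert.mp hz with rfl | hz
    · exact hx
    · obtain ⟨a, -, rfl⟩ := Finset.mem_image.mp hz
      rw [← map_pow, FiniteField.pow_card]
  have h1 := Finset.card_le_card hsub
  have hx' : x ∉ Finset.univ.image (algebraMap F k) := by
    intro hx'
    obtain ⟨a, -, ha⟩ := Finset.mem_image.mp hx'
    exact hne a ha
  rw [Finset.card_insert_of_notMem hx', Finset.card_image_of_injective _ hinj,
    Finset.card_univ] at h1
  have h2 : (X ^ Fintype.card F - X : k[X]).roots.toFinset.card ≤ Fintype.card F :=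
    (Multiset.toFinset_card_le _).trans ((card_roots' _).trans hdeg.le)
  omega

/-! ### The fibres of the `x`-coordinate over `F` -/

/-- the coefficient `a₁ a + a₃` of the quadratic in `y` over `x = a`. -/
def bOf (W : WeierstrassCurve F) (a : F) : F := W.a₁ * a + W.a₃

/-- the constant term `a³ + a₂ a² + a₄ a + a₆` of the quadratic in `y` over `x = a`. -/
def cOf (W : WeierstrassCurve F) (a : F) : F := a ^ 3 + W.a₂ * a ^ 2 + W.a₄ * a + W.a₆

omit [Fintype F] in
theorem equation_iff_quad (W : WeierstrassCurve F) (a y : F) :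
    W.toAffine.Equation a y ↔ y ^ 2 + bOf W a * y = cOf W a := by
  rw [Affine.equation_iff, bOf, cOf]
  constructor <;> intro h <;> linear_combination h

omit [Fintype F] in
theorem equation_algebraMap_iff (W : WeierstrassCurve F) (a : F) (y : k) :
    (W.toAffine⁄k).Equation (algebraMap F k a) y ↔
      y ^ 2 + algebraMap F k (bOf W a) * y = algebraMap F k (cOf W a) := by
  rw [Affine.equation_iff, bOf, cOf]
  simp only [baseChange_a₁, baseChange_a₂, baseChange_a₃, baseChange_a₄, baseChange_a₆, map_add,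
    map_mul, map_pow]
  constructor <;> intro h <;> linear_combination h

omit [Fintype F] in
theorem negY_algebraMap (W : WeierstrassCurve F) (a : F) (y : k) :
    (W.toAffine⁄k).negY (algebraMap F k a) y = -y - algebraMap F k (bOf W a) := by
  rw [Affine.negY, bOf]
  simp only [baseChange_a₁, baseChange_a₃, map_add, map_mul]
  ring

omit [Fintype F] in
theorem Δ_baseChange_ne_zero (W : WeierstrassCurve F) (hΔ : W.Δ ≠ 0) : (W.toAffine⁄k).Δ ≠ 0 := by
  have : (W.toAffine⁄k).Δ = algebraMap F k W.Δ := WeierstrassCurve.map_Δ W (algebraMap F k)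
  rw [this]
  exact (map_ne_zero_iff _ (algebraMap F k).injective).mpr hΔ

/-! ### Frobenius on points -/

variable [DecidableEq k]

/-- The `q`-power Frobenius endomorphism of the group of `k`-points of a curve over `F`. -/
noncomputable def frobPt (W : WeierstrassCurve F) :
    (W.toAffine⁄k).Point →+ (W.toAffine⁄k).Point :=
  Point.map (W' := W.toAffine) (FiniteField.frobeniusAlgHom F k)

/-- the `q`-power Frobenius of `k` as a ring homomorphism. -/
noncomputable def frobK (F k : Type*) [Field F] [Fintype F] [Field k] [Algebra F k] : k →+* k :=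
  (FiniteField.frobeniusAlgHom F k : k →+* k)

omit [DecidableEq k] in
theorem frobK_apply (y : k) : frobK F k y = y ^ Fintype.card F := rfl

omit [DecidableEq k] in
theorem frobK_algebraMap (a : F) : frobK F k (algebraMap F k a) = algebraMap F k a := by
  rw [frobK_apply, ← map_pow, FiniteField.pow_card]

theorem frobPt_zero (W : WeierstrassCurve F) : frobPt (k := k) W 0 = 0 := rfl

theorem frobPt_some_eq_neg_iff (W : WeierstrassCurve F) {x y : k}
    (h : (W.toAffine⁄k).Nonsingular x y) :
    frobPt W (Point.some x y h) = -Point.some x y h ↔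
      x ^ Fintype.card F = x ∧ y ^ Fintype.card F = (W.toAffine⁄k).negY x y := by
  rw [Point.neg_some, frobPt, Point.map_some, Point.some.injEq]
  rfl

/-- the roots of the fibre quadratic over `a` fixed by Frobenius. -/
noncomputable def fixedRoots (W : WeierstrassCurve F) (k : Type*) [Field k] [Algebra F k]
    [DecidableEq k] (a : F) : Finset k :=
  (quadRoots (algebraMap F k (bOf W a)) (algebraMap F k (cOf W a))).filter
    (fun y => frobK F k y = y)

/-- the roots of the fibre quadratic over `a` sent to the conjugate root by Frobenius. -/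
noncomputable def antiRoots (W : WeierstrassCurve F) (k : Type*) [Field k] [Algebra F k]
    [DecidableEq k] (a : F) : Finset k :=
  (quadRoots (algebraMap F k (bOf W a)) (algebraMap F k (cOf W a))).filter
    (fun y => frobK F k y = -y - algebraMap F k (bOf W a))

theorem mem_fixedRoots {W : WeierstrassCurve F} {a : F} {y : k} :
    y ∈ fixedRoots W k a ↔
      y ^ 2 + algebraMap F k (bOf W a) * y = algebraMap F k (cOf W a) ∧
        y ^ Fintype.card F = y := by
  rw [fixedRoots, Finset.mem_filter, mem_quadRoots, frobK_apply]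

theorem mem_antiRoots {W : WeierstrassCurve F} {a : F} {y : k} :
    y ∈ antiRoots W k a ↔
      y ^ 2 + algebraMap F k (bOf W a) * y = algebraMap F k (cOf W a) ∧
        y ^ Fintype.card F = -y - algebraMap F k (bOf W a) := by
  rw [antiRoots, Finset.mem_filter, mem_quadRoots, frobK_apply]

theorem card_fixedRoots_add_card_antiRoots (W : WeierstrassCurve F) (a : F)
    (h : ∃ y : k, y ^ 2 + algebraMap F k (bOf W a) * y = algebraMap F k (cOf W a)) :
    (fixedRoots W k a).card + (antiRoots W k a).card = 2 :=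
  card_fixed_add_card_anti (frobK F k) (frobK_algebraMap _) (frobK_algebraMap _) h

/-! ### The two parametrisations -/

/-- The anti-fixed points, parametrised by pairs `(a, y)` with `a ∈ F` and `y` an anti-fixed root
of the fibre quadratic. -/
noncomputable def antiMap (W : WeierstrassCurve F) (hΔ : W.Δ ≠ 0) :
    Option ↥((Finset.univ : Finset F).sigma (antiRoots W k)) →
      {Q : (W.toAffine⁄k).Point // frobPt W Q = -Q}
  | none => ⟨0, rfl⟩
  | some z =>
    have hz := (mem_antiRoots (W := W) (a := z.1.1) (y := z.1.2)).mp (Finset.mem_sigma.mp z.2).2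
    have hns : (W.toAffine⁄k).Nonsingular (algebraMap F k z.1.1) z.1.2 :=
      (equation_iff_nonsingular_of_Δ_ne_zero (Δ_baseChange_ne_zero W hΔ)).mp
        ((equation_algebraMap_iff W _ _).mpr hz.1)
    ⟨Point.some _ _ hns, (frobPt_some_eq_neg_iff W hns).mpr
      ⟨by rw [← map_pow, FiniteField.pow_card], by rw [negY_algebraMap]; exact hz.2⟩⟩

theorem antiMap_bijective (W : WeierstrassCurve F) (hΔ : W.Δ ≠ 0) :
    Function.Bijective (antiMap (k := k) W hΔ) := by
  constructor
  · rintro (_ | ⟨⟨⟨a, y⟩, hz⟩⟩) (_ | ⟨⟨⟨a', y'⟩, hz'⟩⟩) h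
    · rfl
    · exact absurd (congrArg Subtype.val h).symm (Point.some_ne_zero _)
    · exact absurd (congrArg Subtype.val h) (Point.some_ne_zero _)
    · have h' := congrArg Subtype.val h
      simp only [antiMap, Point.some.injEq] at h'
      obtain ⟨h1, h2⟩ := h'
      have := (algebraMap F k).injective h1
      subst this
      subst h2
      rfl
  · rintro ⟨Q, hQ⟩
    rcases Q with _ | ⟨x, y, h⟩
    · exact ⟨none, rfl⟩
    · obtain ⟨hx, hy⟩ := (frobPt_some_eq_neg_iff W h).mp hQ
      obtain ⟨a, rfl⟩ := exists_algebraMap_eq_of_pow_card_eq (F := F) hx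
      have hmem : (⟨a, y⟩ : Σ _ : F, k) ∈ (Finset.univ : Finset F).sigma (antiRoots W k) := by
        rw [Finset.mem_sigma]
        refine ⟨Finset.mem_univ _, mem_antiRoots.mpr ⟨(equation_algebraMap_iff W a y).mp h.1, ?_⟩⟩
        rw [hy, negY_algebraMap]
      exact ⟨some ⟨⟨a, y⟩, hmem⟩, rfl⟩

/-- The `F`-points, mapped to pairs `(a, y)` with `a ∈ F` and `y` a Frobenius-fixed root of the
fibre quadratic. -/
noncomputable def fixedMap (W : WeierstrassCurve F) (k : Type*) [Field k] [Algebra F k]
    [DecidableEq k] :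
    W.toAffine.Point → Option ↥((Finset.univ : Finset F).sigma (fixedRoots W k))
  | .zero => none
  | .some a y h => some ⟨⟨a, algebraMap F k y⟩, Finset.mem_sigma.mpr ⟨Finset.mem_univ _,
      mem_fixedRoots.mpr ⟨by
        have := (equation_iff_quad W a y).mp h.1
        rw [← map_pow, ← map_mul, ← map_add, this], by rw [← map_pow, FiniteField.pow_card]⟩⟩⟩

theorem fixedMap_bijective (W : WeierstrassCurve F) (hΔ : W.Δ ≠ 0) :
    Function.Bijective (fixedMap W k) := by
  constructor
  · rintro (_ | ⟨a, y, h⟩) (_ | ⟨a', y', h'⟩) hh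
    · rfl
    · simp [fixedMap] at hh
    · simp [fixedMap] at hh
    · simp only [fixedMap, Option.some.injEq, Subtype.mk.injEq, Sigma.mk.injEq, heq_eq_eq] at hh
      obtain ⟨h1, h2⟩ := hh
      subst h1
      have := (algebraMap F k).injective h2
      subst this
      rfl
  · rintro (_ | ⟨⟨⟨a, y⟩, hz⟩⟩)
    · exact ⟨.zero, rfl⟩
    · obtain ⟨h1, h2⟩ := mem_fixedRoots.mp (Finset.mem_sigma.mp hz).2
      obtain ⟨y0, rfl⟩ := exists_algebraMap_eq_of_pow_card_eq (F := F) h2
      have heq : W.toAffine.Equation a y0 := by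
        rw [equation_iff_quad]
        apply (algebraMap F k).injective
        rw [map_add, map_mul, map_pow]
        exact h1
      exact ⟨.some a y0 ((equation_iff_nonsingular_of_Δ_ne_zero hΔ).mp heq), rfl⟩

/-! ### The count -/

theorem finite_antifixed (W : WeierstrassCurve F) (hΔ : W.Δ ≠ 0) :
    Finite {Q : (W.toAffine⁄k).Point // frobPt W Q = -Q} :=
  Finite.of_surjective _ (antiMap_bijective (k := k) W hΔ).2

theorem card_antifixed (W : WeierstrassCurve F) (hΔ : W.Δ ≠ 0) :
    Nat.card {Q : (W.toAffine⁄k).Point // frobPt W Q = -Q} =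
      (∑ a : F, (antiRoots W k a).card) + 1 := by
  rw [← Nat.card_congr (Equiv.ofBijective _ (antiMap_bijective (k := k) W hΔ)),
    Nat.card_eq_fintype_card, Fintype.card_option, Fintype.card_coe, Finset.card_sigma]

theorem card_points (W : WeierstrassCurve F) (hΔ : W.Δ ≠ 0) (k : Type*) [Field k] [Algebra F k]
    [DecidableEq k] :
    Nat.card W.toAffine.Point = (∑ a : F, (fixedRoots W k a).card) + 1 := by
  rw [Nat.card_congr (Equiv.ofBijective _ (fixedMap_bijective (k := k) W hΔ)),
    Nat.card_eq_fintype_card, Fintype.card_option, Fintype.card_coe, Finset.card_sigma]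

/-- **The twist count.** -/
theorem card_antifixed_add_card (W : WeierstrassCurve F) (hΔ : W.Δ ≠ 0)
    (hquad : ∀ b c : F, ∃ y : k, y ^ 2 + algebraMap F k b * y = algebraMap F k c) :
    Nat.card {Q : (W.toAffine⁄k).Point // frobPt W Q = -Q} + Nat.card W.toAffine.Point
      = 2 * Fintype.card F + 2 := by
  rw [card_antifixed W hΔ, card_points W hΔ k]
  have hsum : (∑ a : F, (fixedRoots W k a).card) + ∑ a : F, (antiRoots W k a).card =
      2 * Fintype.card F := by
    rw [← Finset.sum_add_distrib,
      Finset.sum_congr rfl (fun a _ => card_fixedRoots_add_card_antiRoots W a (hquad _ _)),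
      Finset.sum_const, Finset.card_univ, smul_eq_mul, mul_comm]
  omega

/-! ### Anti-fixed torsion points -/

/-- the subgroup of anti-fixed points `ker (Frob + 1)`. -/
noncomputable def antiKer (W : WeierstrassCurve F) (k : Type*) [Field k] [Algebra F k]
    [DecidableEq k] : AddSubgroup (W.toAffine⁄k).Point :=
  (frobPt (k := k) W + AddMonoidHom.id _).ker

theorem mem_antiKer {W : WeierstrassCurve F} {Q : (W.toAffine⁄k).Point} :
    Q ∈ antiKer W k ↔ frobPt W Q = -Q := by
  rw [antiKer, AddMonoidHom.mem_ker, AddMonoidHom.add_apply, AddMonoidHom.id_apply,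
    add_eq_zero_iff_eq_neg]

theorem card_antiKer (W : WeierstrassCurve F) :
    Nat.card (antiKer W k) = Nat.card {Q : (W.toAffine⁄k).Point // frobPt W Q = -Q} :=
  Nat.card_congr (Equiv.subtypeEquivRight fun _ => mem_antiKer)

theorem finite_antiKer (W : WeierstrassCurve F) (hΔ : W.Δ ≠ 0) : Finite (antiKer W k) :=
  haveI := finite_antifixed (k := k) W hΔ
  Finite.of_equiv _ (Equiv.subtypeEquivRight fun _ => mem_antiKer (W := W) (k := k)).symm

/-- `#ker (Frob + 1) = q + 1 + a`, where `a` is the trace of Frobenius. -/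
theorem card_antiKer_eq (W : WeierstrassCurve F) (hΔ : W.Δ ≠ 0)
    (hquad : ∀ b c : F, ∃ y : k, y ^ 2 + algebraMap F k b * y = algebraMap F k c) :
    (Nat.card (antiKer W k) : ℤ) = (Fintype.card F : ℤ) + 1 + W.traceOfFrobenius := by
  have h := card_antifixed_add_card (k := k) W hΔ hquad
  rw [card_antiKer, WeierstrassCurve.traceOfFrobenius, WeierstrassCurve.card,
    Nat.card_eq_fintype_card (α := F)]
  omega

/-- **Anti-fixed torsion** (curve in base-change form): if `p ∣ q + 1 + a` there is an affine point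
of `W(k)` killed by `p` on which Frobenius acts as `-1`. -/
theorem exists_antifixed_torsion_baseChange (W : WeierstrassCurve F) (hΔ : W.Δ ≠ 0)
    (hquad : ∀ b c : F, ∃ y : k, y ^ 2 + algebraMap F k b * y = algebraMap F k c)
    {p : ℕ} (hp : p.Prime)
    (hdvd : (p : ℤ) ∣ (Fintype.card F : ℤ) + 1 + W.traceOfFrobenius) :
    ∃ (x y : k) (h : (W.toAffine⁄k).Nonsingular x y),
      p • Point.some x y h = 0 ∧ x ^ Fintype.card F = x ∧
        y ^ Fintype.card F = (W.toAffine⁄k).negY x y := by
  have : Fact p.Prime := ⟨hp⟩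
  have := finite_antiKer (k := k) W hΔ
  have hdvd' : p ∣ Nat.card (antiKer W k) := by
    rw [← card_antiKer_eq W hΔ hquad] at hdvd
    exact Int.natCast_dvd_natCast.mp hdvd
  obtain ⟨g, hg⟩ := exists_prime_addOrderOf_dvd_card' p hdvd'
  have hpg : p • g = 0 := by rw [← hg]; exact addOrderOf_nsmul_eq_zero g
  have hg0 : g ≠ 0 := by
    rintro rfl
    rw [addOrderOf_zero] at hg
    exact hp.one_lt.ne hg
  obtain ⟨Q, hQ⟩ := g
  rcases Q with _ | ⟨x, y, h⟩
  · exact absurd rfl hg0
  · refine ⟨x, y, h, ?_, (frobPt_some_eq_neg_iff W h).mp (mem_antiKer.mp hQ)⟩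
    simpa using congrArg Subtype.val hpg

/-- **Anti-fixed torsion**, for a curve `Wk` over `k` given as the base change of `Wl`. -/
theorem exists_antifixed_torsion (Wl : WeierstrassCurve F) (hΔ : Wl.Δ ≠ 0)
    (Wk : WeierstrassCurve k) (hk : Wk = Wl.map (algebraMap F k))
    (hquad : ∀ b c : F, ∃ y : k, y ^ 2 + algebraMap F k b * y = algebraMap F k c)
    {p : ℕ} (hp : p.Prime)
    (hdvd : (p : ℤ) ∣ (Fintype.card F : ℤ) + 1 + Wl.traceOfFrobenius) :
    ∃ (x y : k) (h : Wk.toAffine.Nonsingular x y),
      p • Point.some x y h = 0 ∧ x ^ Fintype.card F = x ∧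
        y ^ Fintype.card F = Wk.toAffine.negY x y := by
  subst hk
  exact exists_antifixed_torsion_baseChange Wl hΔ hquad hp hdvd

/-! ### Fixed torsion points (the same count for `ker (Frob - 1)`) -/

theorem frobPt_some_eq_iff (W : WeierstrassCurve F) {x y : k}
    (h : (W.toAffine⁄k).Nonsingular x y) :
    frobPt W (Point.some x y h) = Point.some x y h ↔
      x ^ Fintype.card F = x ∧ y ^ Fintype.card F = y := by
  rw [frobPt, Point.map_some, Point.some.injEq]
  rfl

/-- The fixed points, parametrised by pairs `(a, y)` with `a ∈ F` and `y` a fixed root of the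
fibre quadratic. -/
noncomputable def fixMap (W : WeierstrassCurve F) (hΔ : W.Δ ≠ 0) :
    Option ↥((Finset.univ : Finset F).sigma (fixedRoots W k)) →
      {Q : (W.toAffine⁄k).Point // frobPt W Q = Q}
  | none => ⟨0, rfl⟩
  | some z =>
    have hz := (mem_fixedRoots (W := W) (a := z.1.1) (y := z.1.2)).mp (Finset.mem_sigma.mp z.2).2
    have hns : (W.toAffine⁄k).Nonsingular (algebraMap F k z.1.1) z.1.2 :=
      (equation_iff_nonsingular_of_Δ_ne_zero (Δ_baseChange_ne_zero W hΔ)).mp
        ((equation_algebraMap_iff W _ _).mpr hz.1)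
    ⟨Point.some _ _ hns, (frobPt_some_eq_iff W hns).mpr
      ⟨by rw [← map_pow, FiniteField.pow_card], hz.2⟩⟩

theorem fixMap_bijective (W : WeierstrassCurve F) (hΔ : W.Δ ≠ 0) :
    Function.Bijective (fixMap (k := k) W hΔ) := by
  constructor
  · rintro (_ | ⟨⟨⟨a, y⟩, hz⟩⟩) (_ | ⟨⟨⟨a', y'⟩, hz'⟩⟩) h
    · rfl
    · exact absurd (congrArg Subtype.val h).symm (Point.some_ne_zero _)
    · exact absurd (congrArg Subtype.val h) (Point.some_ne_zero _)
    · have h' := congrArg Subtype.val h
      simp only [fixMap, Point.some.injEq] at h'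
      obtain ⟨h1, h2⟩ := h'
      have := (algebraMap F k).injective h1
      subst this
      subst h2
      rfl
  · rintro ⟨Q, hQ⟩
    rcases Q with _ | ⟨x, y, h⟩
    · exact ⟨none, rfl⟩
    · obtain ⟨hx, hy⟩ := (frobPt_some_eq_iff W h).mp hQ
      obtain ⟨a, rfl⟩ := exists_algebraMap_eq_of_pow_card_eq (F := F) hx
      have hmem : (⟨a, y⟩ : Σ _ : F, k) ∈ (Finset.univ : Finset F).sigma (fixedRoots W k) := by
        rw [Finset.mem_sigma]
        exact ⟨Finset.mem_univ _, mem_fixedRoots.mpr ⟨(equation_algebraMap_iff W a y).mp h.1, hy⟩⟩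
      exact ⟨some ⟨⟨a, y⟩, hmem⟩, rfl⟩

/-- the subgroup of fixed points `ker (Frob - 1)`. -/
noncomputable def fixKer (W : WeierstrassCurve F) (k : Type*) [Field k] [Algebra F k]
    [DecidableEq k] : AddSubgroup (W.toAffine⁄k).Point :=
  (frobPt (k := k) W - AddMonoidHom.id _).ker

theorem mem_fixKer {W : WeierstrassCurve F} {Q : (W.toAffine⁄k).Point} :
    Q ∈ fixKer W k ↔ frobPt W Q = Q := by
  rw [fixKer, AddMonoidHom.mem_ker, AddMonoidHom.sub_apply, AddMonoidHom.id_apply, sub_eq_zero]

theorem finite_fixKer (W : WeierstrassCurve F) (hΔ : W.Δ ≠ 0) : Finite (fixKer W k) :=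
  haveI : Finite {Q : (W.toAffine⁄k).Point // frobPt W Q = Q} :=
    Finite.of_surjective _ (fixMap_bijective (k := k) W hΔ).2
  Finite.of_equiv _ (Equiv.subtypeEquivRight fun _ => mem_fixKer (W := W) (k := k)).symm

/-- `#ker (Frob - 1) = #W(F)`. -/
theorem card_fixKer (W : WeierstrassCurve F) (hΔ : W.Δ ≠ 0) :
    Nat.card (fixKer W k) = Nat.card W.toAffine.Point := by
  rw [Nat.card_congr (Equiv.subtypeEquivRight fun _ => mem_fixKer (W := W) (k := k)),
    ← Nat.card_congr (Equiv.ofBijective _ (fixMap_bijective (k := k) W hΔ)),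
    Nat.card_congr (Equiv.ofBijective _ (fixedMap_bijective (k := k) W hΔ))]

/-- `#ker (Frob - 1) = q + 1 - a`. -/
theorem card_fixKer_eq (W : WeierstrassCurve F) (hΔ : W.Δ ≠ 0) :
    (Nat.card (fixKer W k) : ℤ) = (Fintype.card F : ℤ) + 1 - W.traceOfFrobenius := by
  rw [card_fixKer W hΔ, WeierstrassCurve.traceOfFrobenius, WeierstrassCurve.card,
    Nat.card_eq_fintype_card (α := F)]
  ring

/-- **Fixed torsion** (curve in base-change form): if `p ∣ q + 1 - a` there is an affine point of
`W(k)` killed by `p` and fixed by Frobenius. -/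
theorem exists_fixed_torsion_baseChange (W : WeierstrassCurve F) (hΔ : W.Δ ≠ 0)
    {p : ℕ} (hp : p.Prime)
    (hdvd : (p : ℤ) ∣ (Fintype.card F : ℤ) + 1 - W.traceOfFrobenius) :
    ∃ (x y : k) (h : (W.toAffine⁄k).Nonsingular x y),
      p • Point.some x y h = 0 ∧ x ^ Fintype.card F = x ∧ y ^ Fintype.card F = y := by
  have : Fact p.Prime := ⟨hp⟩
  have := finite_fixKer (k := k) W hΔ
  have hdvd' : p ∣ Nat.card (fixKer W k) := by
    rw [← card_fixKer_eq (k := k) W hΔ] at hdvd
    exact Int.natCast_dvd_natCast.mp hdvd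
  obtain ⟨g, hg⟩ := exists_prime_addOrderOf_dvd_card' p hdvd'
  have hpg : p • g = 0 := by rw [← hg]; exact addOrderOf_nsmul_eq_zero g
  have hg0 : g ≠ 0 := by
    rintro rfl
    rw [addOrderOf_zero] at hg
    exact hp.one_lt.ne hg
  obtain ⟨Q, hQ⟩ := g
  rcases Q with _ | ⟨x, y, h⟩
  · exact absurd rfl hg0
  · refine ⟨x, y, h, ?_, (frobPt_some_eq_iff W h).mp (mem_fixKer.mp hQ)⟩
    simpa using congrArg Subtype.val hpg

/-- **Fixed torsion**, for a curve `Wk` over `k` given as the base change of `Wl`. -/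
theorem exists_fixed_torsion (Wl : WeierstrassCurve F) (hΔ : Wl.Δ ≠ 0)
    (Wk : WeierstrassCurve k) (hk : Wk = Wl.map (algebraMap F k))
    {p : ℕ} (hp : p.Prime)
    (hdvd : (p : ℤ) ∣ (Fintype.card F : ℤ) + 1 - Wl.traceOfFrobenius) :
    ∃ (x y : k) (h : Wk.toAffine.Nonsingular x y),
      p • Point.some x y h = 0 ∧ x ^ Fintype.card F = x ∧ y ^ Fintype.card F = y := by
  subst hk
  exact exists_fixed_torsion_baseChange Wl hΔ hp hdvd

/-! ### The integral-model form -/

/-- **Anti-fixed torsion, consumer form**: `W` an integral Weierstrass model with good reduction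
at `l`, `K` a field of characteristic `l` in which monic quadratics have roots.  If
`p ∣ l + 1 + a_l` then the reduction of `W` to `K` has an affine point killed by `p` whose
Frobenius conjugate `(x ^ l, y ^ l)` is its negative `(x, negY x y)`. -/
theorem exists_antifixed_torsion_int (W : WeierstrassCurve ℤ) {l : ℕ} [Fact l.Prime]
    (hgood : W.IsGoodPrimeFor l) {K : Type*} [Field K] [CharP K l] [DecidableEq K]
    (hquad : ∀ b c : K, ∃ y : K, y ^ 2 + b * y = c)
    {p : ℕ} (hp : p.Prime) (hdvd : (p : ℤ) ∣ (l : ℤ) + 1 + W.apOfModel l) :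
    ∃ (x y : K) (h : (W.map (Int.castRingHom K)).toAffine.Nonsingular x y),
      p • Point.some x y h = 0 ∧ x ^ l = x ∧
        y ^ l = (W.map (Int.castRingHom K)).toAffine.negY x y := by
  let _ : Algebra (ZMod l) K := ZMod.algebra K l
  have hΔ : (W.reductionMod l).Δ ≠ 0 := by
    rw [WeierstrassCurve.reductionMod, WeierstrassCurve.map_Δ]
    intro h0
    exact hgood ((ZMod.intCast_zmod_eq_zero_iff_dvd _ _).mp h0)
  have hk : W.map (Int.castRingHom K) = (W.reductionMod l).map (algebraMap (ZMod l) K) := by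
    rw [WeierstrassCurve.reductionMod, WeierstrassCurve.map_map]
    congr 1
    exact RingHom.ext_int _ _
  have hcard : Fintype.card (ZMod l) = l := ZMod.card l
  have hdvd' : (p : ℤ) ∣ (Fintype.card (ZMod l) : ℤ) + 1 +
      (W.reductionMod l).traceOfFrobenius := by
    rw [hcard]
    exact hdvd
  obtain ⟨x, y, h, h1, h2, h3⟩ := exists_antifixed_torsion (W.reductionMod l) hΔ
    (W.map (Int.castRingHom K)) hk (fun b c => hquad _ _) hp hdvd'
  rw [hcard] at h2 h3
  exact ⟨x, y, h, h1, h2, h3⟩

/-- **Fixed torsion, consumer form**: `W` an integral Weierstrass model with good reduction at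
`l`, `K` a field of characteristic `l`.  If `p ∣ l + 1 - a_l` then the reduction of `W` to `K` has
an affine point killed by `p` with `(x ^ l, y ^ l) = (x, y)`. -/
theorem exists_fixed_torsion_int (W : WeierstrassCurve ℤ) {l : ℕ} [Fact l.Prime]
    (hgood : W.IsGoodPrimeFor l) {K : Type*} [Field K] [CharP K l] [DecidableEq K]
    {p : ℕ} (hp : p.Prime) (hdvd : (p : ℤ) ∣ (l : ℤ) + 1 - W.apOfModel l) :
    ∃ (x y : K) (h : (W.map (Int.castRingHom K)).toAffine.Nonsingular x y),
      p • Point.some x y h = 0 ∧ x ^ l = x ∧ y ^ l = y := by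
  let _ : Algebra (ZMod l) K := ZMod.algebra K l
  have hΔ : (W.reductionMod l).Δ ≠ 0 := by
    rw [WeierstrassCurve.reductionMod, WeierstrassCurve.map_Δ]
    intro h0
    exact hgood ((ZMod.intCast_zmod_eq_zero_iff_dvd _ _).mp h0)
  have hk : W.map (Int.castRingHom K) = (W.reductionMod l).map (algebraMap (ZMod l) K) := by
    rw [WeierstrassCurve.reductionMod, WeierstrassCurve.map_map]
    congr 1
    exact RingHom.ext_int _ _
  have hcard : Fintype.card (ZMod l) = l := ZMod.card l
  have hdvd' : (p : ℤ) ∣ (Fintype.card (ZMod l) : ℤ) + 1 -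
      (W.reductionMod l).traceOfFrobenius := by
    rw [hcard]
    exact hdvd
  obtain ⟨x, y, h, h1, h2, h3⟩ := exists_fixed_torsion (W.reductionMod l) hΔ
    (W.map (Int.castRingHom K)) hk hp hdvd'
  rw [hcard] at h2 h3
  exact ⟨x, y, h, h1, h2, h3⟩

/-- `exists_antifixed_torsion_int` with the curve over `K` as a free parameter. -/
theorem exists_antifixed_torsion_int' (W : WeierstrassCurve ℤ) {l : ℕ} [Fact l.Prime]
    (hgood : W.IsGoodPrimeFor l) {K : Type*} [Field K] [CharP K l] [DecidableEq K]
    (Wk : WeierstrassCurve K) (hk : Wk = W.map (Int.castRingHom K))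
    (hquad : ∀ b c : K, ∃ y : K, y ^ 2 + b * y = c)
    {p : ℕ} (hp : p.Prime) (hdvd : (p : ℤ) ∣ (l : ℤ) + 1 + W.apOfModel l) :
    ∃ (x y : K) (h : Wk.toAffine.Nonsingular x y),
      p • Point.some x y h = 0 ∧ x ^ l = x ∧ y ^ l = Wk.toAffine.negY x y := by
  subst hk
  exact exists_antifixed_torsion_int W hgood hquad hp hdvd

/-- `exists_fixed_torsion_int` with the curve over `K` as a free parameter. -/
theorem exists_fixed_torsion_int' (W : WeierstrassCurve ℤ) {l : ℕ} [Fact l.Prime]
    (hgood : W.IsGoodPrimeFor l) {K : Type*} [Field K] [CharP K l] [DecidableEq K]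
    (Wk : WeierstrassCurve K) (hk : Wk = W.map (Int.castRingHom K))
    {p : ℕ} (hp : p.Prime) (hdvd : (p : ℤ) ∣ (l : ℤ) + 1 - W.apOfModel l) :
    ∃ (x y : K) (h : Wk.toAffine.Nonsingular x y),
      p • Point.some x y h = 0 ∧ x ^ l = x ∧ y ^ l = y := by
  subst hk
  exact exists_fixed_torsion_int W hgood hp hdvd

/-- `exists_antifixed_torsion_int` for an algebraically closed field. -/
theorem exists_antifixed_torsion_int_of_isAlgClosed (W : WeierstrassCurve ℤ) {l : ℕ}
    [Fact l.Prime] (hgood : W.IsGoodPrimeFor l) {K : Type*} [Field K] [CharP K l] [DecidableEq K]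
    [IsAlgClosed K]
    {p : ℕ} (hp : p.Prime) (hdvd : (p : ℤ) ∣ (l : ℤ) + 1 + W.apOfModel l) :
    ∃ (x y : K) (h : (W.map (Int.castRingHom K)).toAffine.Nonsingular x y),
      p • Point.some x y h = 0 ∧ x ^ l = x ∧
        y ^ l = (W.map (Int.castRingHom K)).toAffine.negY x y := by
  refine exists_antifixed_torsion_int W hgood (fun b c => ?_) hp hdvd
  have hdeg : (X ^ 2 + C b * X - C c : K[X]).degree ≠ 0 := by
    have : (X ^ 2 + C b * X - C c : K[X]).degree = 2 := by
      compute_degree!
    rw [this]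
    norm_num
  obtain ⟨y, hy⟩ := IsAlgClosed.exists_root _ hdeg
  refine ⟨y, ?_⟩
  simp only [IsRoot.def, eval_sub, eval_add, eval_pow, eval_X, eval_mul, eval_C] at hy
  linear_combination hy

end Fermat.Agent.LR.TwistCount
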