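import Fermat.Agent.LR.RedFrobFix
import Fermat.Agent.LR.TwistCount

/-!
# Program M, node E2: the two Frobenius links (final exports)

`W` an integral Weierstrass model, `l` a good prime, `p ≠ l` a prime, `A` a valuation subring of
`ℚ̄` over `l`, `φ` a Frobenius element at `A`, `V = E[p](ℚ̄)` for `E = W_ℚ`.

* `exists_fixed` (in `LR/RedFrobFix.lean`) : `p ∣ l + 1 - a_l → ∃ P : V, P ≠ 0 ∧ φ • P = P`;
* `exists_antifixed` (here) : `p ∣ l + 1 + a_l → ∃ P : V, P ≠ 0 ∧ φ • P = -P`
  (the twist count `LR/TwistCount.lean` in the special fibre, then lifting and injectivity of the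
  reduction on `p`-torsion, `LR/RedFrobCore.lean`);
* `countAnti_of_dvd` : the twist count in the shape `CountAnti`.

These are exactly the two fields of `Fermat.Agent.LR.NonEis.FrobLink W p`.
-/

set_option autoImplicit false

open WeierstrassCurve WeierstrassCurve.Affine IsLocalRing Polynomial

namespace Fermat.Agent.LR.RedFrob

/-- The twist count in the shape `CountAnti`. -/
theorem countAnti_of_dvd (W : WeierstrassCurve ℤ) {l p : ℕ} (hl : l.Prime) (hp : p.Prime)
    (hgood : W.IsGoodPrimeFor l) (hdvd : (p : ℤ) ∣ (l : ℤ) + 1 + W.apOfModel l) :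
    CountAnti W l p := by
  intro k _ _ _ hquad
  have : Fact l.Prime := ⟨hl⟩
  exact Fermat.Agent.LR.TwistCount.exists_antifixed_torsion_int W hgood hquad hp hdvd

section Link

local notation "Qb" => AlgebraicClosure ℚ

variable [DecidableEq Qb]

/-- **The `anti` field of `FrobLink`.** -/
theorem exists_antifixed (W : WeierstrassCurve ℤ) {l p : ℕ} (hl : l.Prime) (hp : p.Prime)
    (hlp : l ≠ p) (hgood : W.IsGoodPrimeFor l) (A : ValuationSubring Qb)
    (hA : A.LiesOverPrime l) (φ : Qb ≃ₐ[ℚ] Qb) (hφ : A.IsFrobeniusAt φ l)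
    (hdvd : (p : ℤ) ∣ (l : ℤ) + 1 + W.apOfModel l) :
    ∃ P : Submodule.torsionBy ℤ ((W.map (Int.castRingHom ℚ))⁄Qb).Point p,
      P ≠ 0 ∧ φ • P = -P :=
  exists_antifixed_of_count W hl hp hlp hgood A hA φ hφ (countAnti_of_dvd W hl hp hgood hdvd)

end Link

end Fermat.Agent.LR.RedFrob
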