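import Fermat.Agent.LR.RedFrobPlug

/-!
# Program M, node E2 (the fixed link, unconditional)

`countFix_of_dvd` : if `p ∣ l + 1 - a_l(W) = #W(𝔽_l)` there is a point of order `p` in `W(𝔽_l)`
(Cauchy); its image in any field `k` of characteristic `l` is a nonzero `p`-torsion point with
`𝔽_l`-rational coordinates (torsion is tested by `ΨSq_p`, which commutes with base change).

`exists_fixed` : the `fix` field of `FrobLink`: for a Frobenius element `φ` at a place of `ℚ̄` over
a good prime `l ≠ p`, `p ∣ l + 1 - a_l` gives a nonzero `φ`-fixed point of `E[p](ℚ̄)`.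
-/

set_option autoImplicit false

open WeierstrassCurve WeierstrassCurve.Affine IsLocalRing Polynomial

namespace Fermat.Agent.LR.RedFrob

/-- The fixed-point count: Cauchy in `W(𝔽_l)`, then base change to `k`. -/
theorem countFix_of_dvd (W : WeierstrassCurve ℤ) {l p : ℕ} (hl : l.Prime) (hp : p.Prime)
    (hdvd : (p : ℤ) ∣ (l : ℤ) + 1 - W.apOfModel l) : CountFix W l p := by
  intro k _ _ _ _
  have : Fact l.Prime := ⟨hl⟩
  have : Fact p.Prime := ⟨hp⟩
  set Wl : WeierstrassCurve (ZMod l) := W.reductionMod l with hWl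
  -- `p` divides the number of points over `𝔽_l`
  have hcard : p ∣ Nat.card Wl.toAffine.Point := by
    have h1 : (l : ℤ) + 1 - W.apOfModel l = (Nat.card Wl.toAffine.Point : ℤ) := by
      rw [WeierstrassCurve.apOfModel, WeierstrassCurve.traceOfFrobenius, WeierstrassCurve.card,
        Nat.card_zmod]
      ring
    rw [h1] at hdvd
    exact_mod_cast hdvd
  obtain ⟨Q, hQ⟩ := exists_prime_addOrderOf_dvd_card' p hcard
  have hpQ : p • Q = 0 := by rw [← hQ]; exact addOrderOf_nsmul_eq_zero Q
  have hQ0 : Q ≠ 0 := by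
    rintro rfl
    rw [addOrderOf_zero] at hQ
    exact hp.one_lt.ne hQ
  rcases Q with _ | ⟨x0, y0, h0⟩
  · exact absurd rfl hQ0
  -- the prime field inside `k`
  set f : ZMod l →+* k := ZMod.castHom (dvd_refl l) k with hf
  have hK : Wl.map f = W.map (Int.castRingHom k) := by
    rw [hWl, WeierstrassCurve.reductionMod, WeierstrassCurve.map_map]
    exact congrArg _ (RingHom.ext_int _ _)
  have hns : (W.map (Int.castRingHom k)).toAffine.Nonsingular (f x0) (f y0) := by
    rw [← hK]
    exact (WeierstrassCurve.Affine.map_nonsingular (W := Wl.toAffine) f.injective x0 y0).mpr h0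
  refine ⟨f x0, f y0, hns, ?_, ?_, ?_⟩
  · have hΨ : (Wl.ΨSq (p : ℤ)).eval x0 = 0 := by
      rw [Fermat.Agent.S13.AddSub.eval_ΨSq_eq_zero_iff _
        (Fermat.Agent.S13.addSubIdentities_of_star _) h0 (p : ℤ), natCast_zsmul]
      exact hpQ
    rw [← natCast_zsmul, ← Fermat.Agent.S13.AddSub.eval_ΨSq_eq_zero_iff _
      (Fermat.Agent.S13.addSubIdentities_of_star _) hns (p : ℤ), ← hK]
    have := eval_ΨSq_map Wl f (p : ℤ) x0
    rw [hΨ, map_zero] at this
    exact this
  · rw [← map_pow, ZMod.pow_card]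
  · rw [← map_pow, ZMod.pow_card]

section Link

local notation "Qb" => AlgebraicClosure ℚ

variable [DecidableEq Qb]

/-- **The `fix` field of `FrobLink`.** -/
theorem exists_fixed (W : WeierstrassCurve ℤ) {l p : ℕ} (hl : l.Prime) (hp : p.Prime)
    (hlp : l ≠ p) (hgood : W.IsGoodPrimeFor l) (A : ValuationSubring Qb)
    (hA : A.LiesOverPrime l) (φ : Qb ≃ₐ[ℚ] Qb) (hφ : A.IsFrobeniusAt φ l)
    (hdvd : (p : ℤ) ∣ (l : ℤ) + 1 - W.apOfModel l) :
    ∃ P : Submodule.torsionBy ℤ ((W.map (Int.castRingHom ℚ))⁄Qb).Point p, P ≠ 0 ∧ φ • P = P :=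
  exists_fixed_of_count W hl hp hlp hgood A hA φ hφ (countFix_of_dvd W hl hp hdvd)

end Link

end Fermat.Agent.LR.RedFrob
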