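/-
Program M (statement S41, level raising), node F-TOP: the frozen conclusion of S41 from the
exports of all the nodes, taken as explicit hypotheses in their owners' shapes.

* node A (helper7)  : `LR/AbstractGen.exists_new_class_gen` is USED (no hypothesis).
* node Y (eigenclass of `f` in `Lam N / p`)                : hypothesis `hY`.
* node B (degeneracy maps on `Lam`)                         : data `A1 A2 B1 B2` + hypotheses.
* node C (Poincare duality pairings)                        : data `IN INq` + hypotheses.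
* node I (Ihara = D1 + D2 + D3, uniform level `m`)          : hypothesis `hIhara`.
* node E (non-Eisenstein from the irreducibility of `E[p]`) : hypothesis `hNonEis`.
* node F-INTERFACE (eigenform from a kernel class)          : hypothesis `hF`.
-/
import Fermat.Statements.S41
import Fermat.Agent.LR.AbstractGen
import Fermat.Agent.Jac.LamSpan

set_option autoImplicit false
set_option linter.style.haveILetI false

namespace Fermat.Agent.LR.S41Main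

open WeierstrassCurve CongruenceSubgroup Fermat.Agent.Jac
open scoped MatrixGroups

/-- the frozen conclusion of S41 -/
def Conclusion (W : WeierstrassCurve ℤ) (p N q' : ℕ) : Prop :=
  ∃ (g : CuspForm (Gamma0 (N * q')) 2) (𝔪' : Ideal (integralClosure ℤ ℂ)),
      g.IsNormalizedEigenform ∧ 𝔪'.IsMaximal ∧ (p : integralClosure ℤ ℂ) ∈ 𝔪' ∧
      (∀ ℓ : ℕ, ℓ.Prime → W.IsGoodPrimeFor ℓ → ¬ ℓ ∣ N * q' → ℓ ≠ p →
        ∃ a : integralClosure ℤ ℂ, (a : ℂ) = ModularFormClass.qCoeff g ℓ ∧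
          a - ((W.apOfModel ℓ : ℤ) : integralClosure ℤ ℂ) ∈ 𝔪') ∧
      g.IsNewAt q'

/-- the lattice `Λ = Hom_par(Γ₀(N), ℤ)` is free -/
theorem free_Lam (N : ℕ) [NeZero N] : Module.Free ℤ (Lam N) := by
  haveI := finite_Lam N
  haveI : Module.IsTorsionFree ℤ (Lam N) := by
    refine ⟨fun n hn x y hxy => ?_⟩
    have hn0 : n ≠ 0 := hn.ne_zero
    apply Subtype.ext
    refine AddMonoidHom.ext fun γ => ?_
    have h := congrArg (fun φ : Lam N => (φ : Additive (Gamma0 N) →+ ℤ) γ) hxy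
    simp only [Submodule.coe_smul_of_tower, AddMonoidHom.smul_apply, smul_eq_mul] at h
    exact mul_left_cancel₀ hn0 h
  exact Module.free_of_finite_type_torsion_free'

/-- the "good" primes of S41: the index set of the Hecke operators used in the argument -/
def Good (W : WeierstrassCurve ℤ) (p M : ℕ) (l : Nat.Primes) : Prop :=
  W.IsGoodPrimeFor l ∧ ¬ (l : ℕ) ∣ M ∧ (l : ℕ) ≠ p

theorem s41_of_nodes
    {W : WeierstrassCurve ℤ} {p N q' : ℕ} [NeZero N] [NeZero (N * q')]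
    (hp : p.Prime) (hq' : q'.Prime)
    (f : CuspForm (CongruenceSubgroup.Gamma0 N) 2) (𝔪 : Ideal (integralClosure ℤ ℂ))
    (hmax : 𝔪.IsMaximal)
    (hcong : ∀ ℓ : ℕ, ℓ.Prime → W.IsGoodPrimeFor ℓ → ¬ ℓ ∣ N → ℓ ≠ p →
      ∃ a : integralClosure ℤ ℂ, (a : ℂ) = ModularFormClass.qCoeff f ℓ ∧
        a - ((W.apOfModel ℓ : ℤ) : integralClosure ℤ ℂ) ∈ 𝔪)
    (hLR : ∃ a : integralClosure ℤ ℂ, (a : ℂ) = ModularFormClass.qCoeff f q' ∧
      a ^ 2 - ((q' : integralClosure ℤ ℂ) + 1) ^ 2 ∈ 𝔪)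
    -- commutativity of the Hecke operators on the two lattices
    (hcommN : ∀ l l', Commute (TLam N l) (TLam N l'))
    (hcommNq : ∀ l l', Commute (TLam (N * q') l) (TLam (N * q') l'))
    -- node Y : eigenclasses of `f` modulo `p` in `Lam N`
    (hY : ∀ (S : Set Nat.Primes) (c : Nat.Primes → ℤ),
      (∀ l ∈ S, ∃ a : integralClosure ℤ ℂ, (a : ℂ) = ModularFormClass.qCoeff f l ∧
        a - ((c l : ℤ) : integralClosure ℤ ℂ) ∈ 𝔪) →
      ∃ y : Lam N, (¬ ∃ z : Lam N, y = (p : ℤ) • z) ∧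
        ∀ l ∈ S, ∃ z : Lam N, TLam N l y - c l • y = (p : ℤ) • z)
    -- node B : degeneracy maps
    (A1 A2 : Lam N →ₗ[ℤ] Lam (N * q')) (B1 B2 : Lam (N * q') →ₗ[ℤ] Lam N)
    (hB1A1 : ∀ x, B1 (A1 x) = ((q' : ℤ) + 1) • x) (hB2A2 : ∀ x, B2 (A2 x) = ((q' : ℤ) + 1) • x)
    (hB1A2 : ∀ x, B1 (A2 x) = TLam N ⟨q', hq'⟩ x) (hB2A1 : ∀ x, B2 (A1 x) = TLam N ⟨q', hq'⟩ x)
    (hA1T : ∀ l : Nat.Primes, ¬ (l : ℕ) ∣ N * q' → ∀ x, A1 (TLam N l x) = TLam (N * q') l (A1 x))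
    (hA2T : ∀ l : Nat.Primes, ¬ (l : ℕ) ∣ N * q' → ∀ x, A2 (TLam N l x) = TLam (N * q') l (A2 x))
    -- `P` = the set of primes for which `B1`, `B2` are known to be equivariant (node B) and for
    -- which node F-INTERFACE wants `ker B1 ⊓ ker B2` to be stable: `fun l => ¬ l ∣ N * q'` or
    -- `fun l => l ≠ q'`
    (P : Nat.Primes → Prop) (hP : ∀ l : Nat.Primes, ¬ (l : ℕ) ∣ N * q' → P l)
    (hB1T : ∀ l : Nat.Primes, P l → ∀ x, B1 (TLam (N * q') l x) = TLam N l (B1 x))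
    (hB2T : ∀ l : Nat.Primes, P l → ∀ x, B2 (TLam (N * q') l x) = TLam N l (B2 x))
    (hUsq : ∀ x, B1 x = 0 → B2 x = 0 →
      TLam (N * q') ⟨q', hq'⟩ (TLam (N * q') ⟨q', hq'⟩ x) = x)
    -- node C : Poincare duality pairings
    (IN : Lam N →ₗ[ℤ] Lam N →ₗ[ℤ] ℤ) (INq : Lam (N * q') →ₗ[ℤ] Lam (N * q') →ₗ[ℤ] ℤ)
    (hIN : Function.Surjective IN) (hINq : Function.Bijective INq)
    (hadj1 : ∀ x y, INq (A1 x) y = IN x (B1 y)) (hadj2 : ∀ x y, INq (A2 x) y = IN x (B2 y))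
    (hselfN : ∀ l : Nat.Primes, ¬ (l : ℕ) ∣ N → ∀ x y, IN (TLam N l x) y = IN x (TLam N l y))
    -- node I (D1 + D2 + D3) : Ihara, uniform level (shape of `Ihara.exists_level`)
    (hIhara : ∃ m : ℕ, 0 < m ∧ ∀ l : Nat.Primes, ¬ (l : ℕ) ∣ N → (l : ℕ) ≡ 1 [MOD m] →
      ∀ a b : Lam N, (∃ y : Lam (N * q'), A1 a + A2 b = (p : ℤ) • y) →
        (∃ z : Lam N, TLam N l a - ((((l : ℕ) + 1 : ℕ) : ℤ)) • a = (p : ℤ) • z) ∧
        (∃ z : Lam N, TLam N l b - ((((l : ℕ) + 1 : ℕ) : ℤ)) • b = (p : ℤ) • z))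
    -- node E : non-Eisenstein (shape of `NonEis.exists_prime_not_eisenstein`)
    (hNonEis : ∀ (m : ℕ), 0 < m → ∀ T : Finset ℕ, ∃ l : ℕ, l.Prime ∧ l ∉ T ∧ l ≡ 1 [MOD m] ∧
      W.IsGoodPrimeFor l ∧ ¬ l ∣ N ∧ l ≠ p ∧ ¬ (p : ℤ) ∣ ((l : ℤ) + 1 - W.apOfModel l))
    -- node F-INTERFACE (shape of `S41Of.s41_of_kernel_class`)
    (hF : ∀ (Kj : Submodule ℤ (Lam (N * q'))),
      (∀ l : Nat.Primes, P l → ∀ x ∈ Kj, TLam (N * q') l x ∈ Kj) →
      (∀ x ∈ Kj, TLam (N * q') ⟨q', hq'⟩ (TLam (N * q') ⟨q', hq'⟩ x) = x) →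
      ∀ g : Lam (N * q'), g ∈ Kj → (¬ ∃ y : Lam (N * q'), g = (p : ℤ) • y) →
      (∀ l : Nat.Primes, W.IsGoodPrimeFor l → ¬ (l : ℕ) ∣ N * q' → (l : ℕ) ≠ p →
        ∃ y ∈ Kj, TLam (N * q') l g - (W.apOfModel l) • g = (p : ℤ) • y) →
      Conclusion W p N q') :
    Conclusion W p N q' := by
  classical
  haveI : Fact p.Prime := ⟨hp⟩
  haveI := finite_Lam N
  haveI := free_Lam N
  -- the two facts about divisibility by `N * q'`
  have hdvd : ∀ l : Nat.Primes, ¬ (l : ℕ) ∣ N * q' → ¬ (l : ℕ) ∣ N ∧ (l : ℕ) ≠ q' := by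
    intro l hl
    refine ⟨fun h => hl (Dvd.dvd.mul_right h q'), fun h => hl ?_⟩
    rw [h]
    exact Dvd.intro_left N rfl
  -- the sign `ε`
  obtain ⟨aq, haq, haq2⟩ := hLR
  have hfac : (aq - (((q' : ℤ) + 1 : ℤ) : integralClosure ℤ ℂ)) *
      (aq + (((q' : ℤ) + 1 : ℤ) : integralClosure ℤ ℂ)) ∈ 𝔪 := by
    have e : (aq - (((q' : ℤ) + 1 : ℤ) : integralClosure ℤ ℂ)) *
        (aq + (((q' : ℤ) + 1 : ℤ) : integralClosure ℤ ℂ)) =
        aq ^ 2 - ((q' : integralClosure ℤ ℂ) + 1) ^ 2 := by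
      push_cast
      ring
    rw [e]
    exact haq2
  obtain ⟨ε, hε, hεq⟩ : ∃ ε : ℤ, (ε = 1 ∨ ε = -1) ∧
      aq - ((ε * ((q' : ℤ) + 1) : ℤ) : integralClosure ℤ ℂ) ∈ 𝔪 := by
    rcases hmax.isPrime.mem_or_mem hfac with h | h
    · exact ⟨1, Or.inl rfl, by simpa using h⟩
    · refine ⟨-1, Or.inr rfl, ?_⟩
      have e : aq - (((-1 : ℤ) * ((q' : ℤ) + 1) : ℤ) : integralClosure ℤ ℂ) =
          aq + (((q' : ℤ) + 1 : ℤ) : integralClosure ℤ ℂ) := by
        push_cast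
        ring
      rw [e]
      exact h
  -- the eigenclass `y`
  set qP : Nat.Primes := ⟨q', hq'⟩ with hqP
  obtain ⟨y, hy0, hyS⟩ := hY ({l | Good W p (N * q') l} ∪ {qP})
    (fun l => if l = qP then ε * ((q' : ℤ) + 1) else W.apOfModel l) (by
      intro l hl
      by_cases hlq : l = qP
      · rw [if_pos hlq, hlq]
        exact ⟨aq, haq, hεq⟩
      · rw [if_neg hlq]
        rcases hl with hl | hl
        · exact hcong l l.2 hl.1 (hdvd l hl.2.1).1 hl.2.2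
        · exact absurd hl hlq)
  -- the index type
  let ι : Type := {l : Nat.Primes // Good W p (N * q') l}
  have hne : ∀ l : ι, (l.1 : Nat.Primes) ≠ qP := by
    intro l h
    have := (hdvd l.1 l.2.2.1).2
    rw [h] at this
    exact this rfl
  -- Ihara
  have ihara : ∃ (l₀ : ι) (c : ℤ), ¬ (p : ℤ) ∣ W.apOfModel l₀.1 - c ∧ ∀ x y : Lam N,
      (∃ w : Lam (N * q'), A1 x + A2 y = (p : ℤ) • w) →
        (∃ z : Lam N, TLam N l₀.1 x - c • x = (p : ℤ) • z) ∧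
          ∃ z : Lam N, TLam N l₀.1 y - c • y = (p : ℤ) • z := by
    obtain ⟨m, hm, hI⟩ := hIhara
    obtain ⟨l, hl, hlT, hlm, hlgood, hlN, hlp, hlE⟩ := hNonEis m hm {q'}
    have hlq : l ≠ q' := fun h => hlT (by rw [h]; exact Finset.mem_singleton_self _)
    have hlNq : ¬ l ∣ N * q' := by
      intro h
      rcases (Nat.Prime.dvd_mul hl).mp h with h | h
      · exact hlN h
      · exact hlq ((Nat.prime_dvd_prime_iff_eq hl hq').mp h)
    refine ⟨⟨⟨l, hl⟩, hlgood, hlNq, hlp⟩, (((l + 1 : ℕ) : ℤ)), ?_, fun x y hxy => ?_⟩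
    · intro hdiv
      apply hlE
      have e : (l : ℤ) + 1 - W.apOfModel l = -(W.apOfModel l - ((l + 1 : ℕ) : ℤ)) := by
        push_cast
        ring
      rw [e]
      exact (dvd_neg).mpr hdiv
    · exact hI ⟨l, hl⟩ hlN hlm x y hxy
  -- the abstract lemma
  obtain ⟨g, hg1, hg2, hgp, hgl⟩ := AbstractGen.exists_new_class_gen (ι := ι) p
    (fun l => TLam N l.1) (fun l => TLam (N * q') l.1)
    (fun l l' => hcommN l.1 l'.1) (fun l l' => hcommNq l.1 l'.1)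
    A1 A2 B1 B2
    (fun l x => hA1T l.1 l.2.2.1 x) (fun l x => hA2T l.1 l.2.2.1 x)
    (fun l x => hB1T l.1 (hP l.1 l.2.2.1) x) (fun l x => hB2T l.1 (hP l.1 l.2.2.1) x)
    (q' : ℤ) IN INq hIN hINq hadj1 hadj2
    (fun l a b => hselfN l.1 (hdvd l.1 l.2.2.1).1 a b)
    hB1A1 hB2A2 (fun l => W.apOfModel l.1) ihara ε hε
    (by
      have hq := hyS qP (Or.inr rfl)
      rw [if_pos rfl] at hq
      refine ⟨y, hy0, fun l => ?_, ?_, ?_⟩
      · have := hyS l.1 (Or.inl l.2)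
        rwa [if_neg (hne l)] at this
      · rw [hB1A2]; exact hq
      · rw [hB2A1]; exact hq)
  -- the eigenform
  refine hF (LinearMap.ker B1 ⊓ LinearMap.ker B2) ?_ ?_ g
    (Submodule.mem_inf.mpr ⟨LinearMap.mem_ker.mpr hg1, LinearMap.mem_ker.mpr hg2⟩) hgp ?_
  · intro l hl x hx
    obtain ⟨hx1, hx2⟩ := Submodule.mem_inf.mp hx
    rw [LinearMap.mem_ker] at hx1 hx2
    rw [Submodule.mem_inf]
    refine ⟨?_, ?_⟩
    · rw [LinearMap.mem_ker, hB1T l hl, hx1, map_zero]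
    · rw [LinearMap.mem_ker, hB2T l hl, hx2, map_zero]
  · intro x hx
    obtain ⟨hx1, hx2⟩ := Submodule.mem_inf.mp hx
    exact hUsq x (LinearMap.mem_ker.mp hx1) (LinearMap.mem_ker.mp hx2)
  · intro l hlgood hlNq hlp
    obtain ⟨w, hw1, hw2, hw⟩ := hgl ⟨l, hlgood, hlNq, hlp⟩
    exact ⟨w, Submodule.mem_inf.mpr ⟨LinearMap.mem_ker.mpr hw1, LinearMap.mem_ker.mpr hw2⟩, hw⟩

end Fermat.Agent.LR.S41Main
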