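/-
Program M (statement S41, level raising), node F-TOP, variant for ROUTE H (finding 508):
the frozen conclusion of S41 from the exports of all the nodes, where the Ihara input is a
PRODUCT `r = ∏ (T_{l_i} - c_i)` of linear factors in good Hecke operators (instead of a single
`T_l - (l+1)`) which kills every kernel pair modulo `p`, with `p ∤ a_{l_i} - c_i` for every factor.

* `s41_of_nodes_list` : the general list form, on top of `AbstractPoly.exists_new_class_list`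
  (helper7).  All the other hypotheses are identical to `S41Main.s41_of_nodes`.
* `s41_of_nodes_H`    : the route-H shapes:
    `hIharaH`   : for every prime `l ∤ N q'` there is a level `m` such that for every prime
                  `l' ≡ 1 [MOD m]`, `l' ∤ N`, the operator `(T_{l'} - (l'+1)) (T_l² - (l+1)²)` kills
                  the kernel pairs modulo `p`;
    `hNonEisPM` : a good prime `l ∤ N q'`, `l ≠ p` with `p ∤ l+1-a_l` and `p ∤ l+1+a_l`;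
    `hNonEis`   : as in `S41Main.s41_of_nodes`.
-/
import Fermat.Agent.LR.S41Main
import Fermat.Agent.LR.AbstractPoly

set_option autoImplicit false
set_option linter.style.haveILetI false

namespace Fermat.Agent.LR.S41MainH

open WeierstrassCurve CongruenceSubgroup Fermat.Agent.Jac Fermat.Agent.LR.S41Main
open Fermat.Agent.LR.AbstractPoly
open scoped MatrixGroups

section ListOp

variable {ι κ : Type*} {L₀ : Type*} [AddCommGroup L₀]

/-- `listOp` along a reindexing of the operators. -/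
theorem listOp_map (f : ι → κ) (T : κ → Module.End ℤ L₀) (ls : List (ι × ℤ)) :
    listOp (fun i => T (f i)) ls = listOp T (ls.map fun lc => (f lc.1, lc.2)) := by
  induction ls with
  | nil => rfl
  | cons lc ls ih => rw [List.map_cons, listOp_cons, listOp_cons, ih]

end ListOp

/-- **S41 from the nodes, list form of the Ihara input.** -/
theorem s41_of_nodes_list
    {W : WeierstrassCurve ℤ} {p N q' : ℕ} [NeZero N] [NeZero (N * q')]
    (hp : p.Prime) (hq' : q'.Prime)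
    (f : CuspForm (CongruenceSubgroup.Gamma0 N) 2) (𝔪 : Ideal (integralClosure ℤ ℂ))
    (hmax : 𝔪.IsMaximal)
    (hcong : ∀ ℓ : ℕ, ℓ.Prime → W.IsGoodPrimeFor ℓ → ¬ ℓ ∣ N → ℓ ≠ p →
      ∃ a : integralClosure ℤ ℂ, (a : ℂ) = ModularFormClass.qCoeff f ℓ ∧
        a - ((W.apOfModel ℓ : ℤ) : integralClosure ℤ ℂ) ∈ 𝔪)
    (hLR : ∃ a : integralClosure ℤ ℂ, (a : ℂ) = ModularFormClass.qCoeff f q' ∧
      a ^ 2 - ((q' : integralClosure ℤ ℂ) + 1) ^ 2 ∈ 𝔪)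
    (hcommN : ∀ l l', Commute (TLam N l) (TLam N l'))
    (hcommNq : ∀ l l', Commute (TLam (N * q') l) (TLam (N * q') l'))
    (hY : ∀ (S : Set Nat.Primes) (c : Nat.Primes → ℤ),
      (∀ l ∈ S, ∃ a : integralClosure ℤ ℂ, (a : ℂ) = ModularFormClass.qCoeff f l ∧
        a - ((c l : ℤ) : integralClosure ℤ ℂ) ∈ 𝔪) →
      ∃ y : Lam N, (¬ ∃ z : Lam N, y = (p : ℤ) • z) ∧
        ∀ l ∈ S, ∃ z : Lam N, TLam N l y - c l • y = (p : ℤ) • z)
    (A1 A2 : Lam N →ₗ[ℤ] Lam (N * q')) (B1 B2 : Lam (N * q') →ₗ[ℤ] Lam N)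
    (hB1A1 : ∀ x, B1 (A1 x) = ((q' : ℤ) + 1) • x) (hB2A2 : ∀ x, B2 (A2 x) = ((q' : ℤ) + 1) • x)
    (hB1A2 : ∀ x, B1 (A2 x) = TLam N ⟨q', hq'⟩ x) (hB2A1 : ∀ x, B2 (A1 x) = TLam N ⟨q', hq'⟩ x)
    (hA1T : ∀ l : Nat.Primes, ¬ (l : ℕ) ∣ N * q' → ∀ x, A1 (TLam N l x) = TLam (N * q') l (A1 x))
    (hA2T : ∀ l : Nat.Primes, ¬ (l : ℕ) ∣ N * q' → ∀ x, A2 (TLam N l x) = TLam (N * q') l (A2 x))
    (P : Nat.Primes → Prop) (hP : ∀ l : Nat.Primes, ¬ (l : ℕ) ∣ N * q' → P l)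
    (hB1T : ∀ l : Nat.Primes, P l → ∀ x, B1 (TLam (N * q') l x) = TLam N l (B1 x))
    (hB2T : ∀ l : Nat.Primes, P l → ∀ x, B2 (TLam (N * q') l x) = TLam N l (B2 x))
    (hUsq : ∀ x, B1 x = 0 → B2 x = 0 →
      TLam (N * q') ⟨q', hq'⟩ (TLam (N * q') ⟨q', hq'⟩ x) = x)
    (IN : Lam N →ₗ[ℤ] Lam N →ₗ[ℤ] ℤ) (INq : Lam (N * q') →ₗ[ℤ] Lam (N * q') →ₗ[ℤ] ℤ)
    (hIN : Function.Surjective IN) (hINq : Function.Bijective INq)
    (hadj1 : ∀ x y, INq (A1 x) y = IN x (B1 y)) (hadj2 : ∀ x y, INq (A2 x) y = IN x (B2 y))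
    (hselfN : ∀ l : Nat.Primes, ¬ (l : ℕ) ∣ N → ∀ x y, IN (TLam N l x) y = IN x (TLam N l y))
    -- node I + node E, list form: a product of linear factors in good Hecke operators, none of
    -- them in the maximal ideal of `f`, killing every kernel pair modulo `p`
    (hIharaList : ∃ ls : List (Nat.Primes × ℤ),
      (∀ lc ∈ ls, W.IsGoodPrimeFor lc.1 ∧ ¬ (lc.1 : ℕ) ∣ N * q' ∧ (lc.1 : ℕ) ≠ p ∧
        ¬ (p : ℤ) ∣ W.apOfModel lc.1 - lc.2) ∧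
      ∀ a b : Lam N, (∃ y : Lam (N * q'), A1 a + A2 b = (p : ℤ) • y) →
        (∃ z : Lam N, listOp (fun l : Nat.Primes => TLam N l) ls a = (p : ℤ) • z) ∧
        (∃ z : Lam N, listOp (fun l : Nat.Primes => TLam N l) ls b = (p : ℤ) • z))
    (hF : ∀ (Kj : Submodule ℤ (Lam (N * q'))),
      (∀ l : Nat.Primes, P l → ∀ x ∈ Kj, TLam (N * q') l x ∈ Kj) →
      (∀ x ∈ Kj, TLam (N * q') ⟨q', hq'⟩ (TLam (N * q') ⟨q', hq'⟩ x) = x) →
      ∀ g : Lam (N * q'), g ∈ Kj → (¬ ∃ y : Lam (N * q'), g = (p : ℤ) • y) →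
      (∀ l : Nat.Primes, W.IsGoodPrimeFor l → ¬ (l : ℕ) ∣ N * q' → (l : ℕ) ≠ p →
        ∃ y ∈ Kj, TLam (N * q') l g - (W.apOfModel l) • g = (p : ℤ) • y) →
      Conclusion W p N q') :
    Conclusion W p N q' := by
  classical
  haveI : Fact p.Prime := ⟨hp⟩
  haveI := finite_Lam N
  haveI := free_Lam N
  have hdvd : ∀ l : Nat.Primes, ¬ (l : ℕ) ∣ N * q' → ¬ (l : ℕ) ∣ N ∧ (l : ℕ) ≠ q' := by
    intro l hl
    refine ⟨fun h => hl (Dvd.dvd.mul_right h q'), fun h => hl ?_⟩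
    rw [h]
    exact Dvd.intro_left N rfl
  -- the sign `ε`
  obtain ⟨aq, haq, haq2⟩ := hLR
  have hfac : (aq - (((q' : ℤ) + 1 : ℤ) : integralClosure ℤ ℂ)) *
      (aq + (((q' : ℤ) + 1 : ℤ) : integralClosure ℤ ℂ)) ∈ 𝔪 := by
    have e : (aq - (((q' : ℤ) + 1 : ℤ) : integralClosure ℤ ℂ)) *
        (aq + (((q' : ℤ) + 1 : ℤ) : integralClosure ℤ ℂ)) =
        aq ^ 2 - ((q' : integralClosure ℤ ℂ) + 1) ^ 2 := by
      push_cast
      ring
    rw [e]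
    exact haq2
  obtain ⟨ε, hε, hεq⟩ : ∃ ε : ℤ, (ε = 1 ∨ ε = -1) ∧
      aq - ((ε * ((q' : ℤ) + 1) : ℤ) : integralClosure ℤ ℂ) ∈ 𝔪 := by
    rcases hmax.isPrime.mem_or_mem hfac with h | h
    · exact ⟨1, Or.inl rfl, by simpa using h⟩
    · refine ⟨-1, Or.inr rfl, ?_⟩
      have e : aq - (((-1 : ℤ) * ((q' : ℤ) + 1) : ℤ) : integralClosure ℤ ℂ) =
          aq + (((q' : ℤ) + 1 : ℤ) : integralClosure ℤ ℂ) := by
        push_cast
        ring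
      rw [e]
      exact h
  -- the eigenclass `y`
  set qP : Nat.Primes := ⟨q', hq'⟩ with hqP
  obtain ⟨y, hy0, hyS⟩ := hY ({l | Good W p (N * q') l} ∪ {qP})
    (fun l => if l = qP then ε * ((q' : ℤ) + 1) else W.apOfModel l) (by
      intro l hl
      by_cases hlq : l = qP
      · rw [if_pos hlq, hlq]
        exact ⟨aq, haq, hεq⟩
      · rw [if_neg hlq]
        rcases hl with hl | hl
        · exact hcong l l.2 hl.1 (hdvd l hl.2.1).1 hl.2.2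
        · exact absurd hl hlq)
  -- the index type
  let ι : Type := {l : Nat.Primes // Good W p (N * q') l}
  have hne : ∀ l : ι, (l.1 : Nat.Primes) ≠ qP := by
    intro l h
    have := (hdvd l.1 l.2.2.1).2
    rw [h] at this
    exact this rfl
  -- Ihara, list form over `ι`
  have ihara : ∃ ls : List (ι × ℤ), (∀ lc ∈ ls, ¬ (p : ℤ) ∣ W.apOfModel lc.1.1 - lc.2) ∧
      ∀ x y : Lam N, (∃ w : Lam (N * q'), A1 x + A2 y = (p : ℤ) • w) →
        (∃ z : Lam N, listOp (fun l : ι => TLam N l.1) ls x = (p : ℤ) • z) ∧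
          ∃ z : Lam N, listOp (fun l : ι => TLam N l.1) ls y = (p : ℤ) • z := by
    obtain ⟨ls, hls, hI⟩ := hIharaList
    let ls' : List (ι × ℤ) := ls.attach.map fun e =>
      (⟨e.1.1, (hls e.1 e.2).1, (hls e.1 e.2).2.1, (hls e.1 e.2).2.2.1⟩, e.1.2)
    have hmap : (ls'.map fun lc => ((lc.1.1 : Nat.Primes), lc.2)) = ls := by
      show ((ls.attach.map _).map _) = ls
      rw [List.map_map]
      conv_rhs => rw [← List.attach_map_subtype_val ls]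
      rfl
    refine ⟨ls', ?_, fun x y hxy => ?_⟩
    · intro lc hlc
      obtain ⟨e, -, rfl⟩ := List.mem_map.mp hlc
      exact (hls e.1 e.2).2.2.2
    · have hop : listOp (fun l : ι => TLam N l.1) ls' =
          listOp (fun l : Nat.Primes => TLam N l) ls := by
        rw [listOp_map (fun l : ι => (l.1 : Nat.Primes)) (fun l : Nat.Primes => TLam N l) ls', hmap]
      rw [hop]
      exact hI x y hxy
  -- the abstract lemma
  obtain ⟨g, hg1, hg2, hgp, hgl⟩ := exists_new_class_list (ι := ι) p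
    (fun l => TLam N l.1) (fun l => TLam (N * q') l.1)
    (fun l l' => hcommN l.1 l'.1) (fun l l' => hcommNq l.1 l'.1)
    A1 A2 B1 B2
    (fun l x => hA1T l.1 l.2.2.1 x) (fun l x => hA2T l.1 l.2.2.1 x)
    (fun l x => hB1T l.1 (hP l.1 l.2.2.1) x) (fun l x => hB2T l.1 (hP l.1 l.2.2.1) x)
    (q' : ℤ) IN INq hIN hINq hadj1 hadj2
    (fun l a b => hselfN l.1 (hdvd l.1 l.2.2.1).1 a b)
    hB1A1 hB2A2 (fun l => W.apOfModel l.1) ihara ε hε
    (by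
      have hq := hyS qP (Or.inr rfl)
      rw [if_pos rfl] at hq
      refine ⟨y, hy0, fun l => ?_, ?_, ?_⟩
      · have := hyS l.1 (Or.inl l.2)
        rwa [if_neg (hne l)] at this
      · rw [hB1A2]; exact hq
      · rw [hB2A1]; exact hq)
  -- the eigenform
  refine hF (LinearMap.ker B1 ⊓ LinearMap.ker B2) ?_ ?_ g
    (Submodule.mem_inf.mpr ⟨LinearMap.mem_ker.mpr hg1, LinearMap.mem_ker.mpr hg2⟩) hgp ?_
  · intro l hl x hx
    obtain ⟨hx1, hx2⟩ := Submodule.mem_inf.mp hx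
    rw [LinearMap.mem_ker] at hx1 hx2
    rw [Submodule.mem_inf]
    refine ⟨?_, ?_⟩
    · rw [LinearMap.mem_ker, hB1T l hl, hx1, map_zero]
    · rw [LinearMap.mem_ker, hB2T l hl, hx2, map_zero]
  · intro x hx
    obtain ⟨hx1, hx2⟩ := Submodule.mem_inf.mp hx
    exact hUsq x (LinearMap.mem_ker.mp hx1) (LinearMap.mem_ker.mp hx2)
  · intro l hlgood hlNq hlp
    obtain ⟨w, hw1, hw2, hw⟩ := hgl ⟨l, hlgood, hlNq, hlp⟩
    exact ⟨w, Submodule.mem_inf.mpr ⟨LinearMap.mem_ker.mpr hw1, LinearMap.mem_ker.mpr hw2⟩, hw⟩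

section RouteH

variable {L₀ : Type*} [AddCommGroup L₀]

/-- the three-factor operator of route H, evaluated: `(T' - c') (T - c) (T + c) = (T' - c') (T² - c²)`. -/
theorem three_factor_apply (T T' : Module.End ℤ L₀) (c c' : ℤ) (x : L₀) :
    (T' - (c' : Module.End ℤ L₀)) ((T - (c : Module.End ℤ L₀)) ((T + (c : Module.End ℤ L₀)) x)) =
      T' (T (T x) - (c ^ 2) • x) - c' • (T (T x) - (c ^ 2) • x) := by
  have h1 : (T - (c : Module.End ℤ L₀)) ((T + (c : Module.End ℤ L₀)) x) =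
      T (T x) - (c ^ 2) • x := by
    simp only [LinearMap.sub_apply, LinearMap.add_apply, Module.End.intCast_apply, map_add,
      map_zsmul]
    module
  rw [h1, LinearMap.sub_apply, Module.End.intCast_apply]

end RouteH

/-- **S41 from the nodes, route H** (finding 508): the Ihara input is
`(T_{l'} - (l'+1)) (T_l² - (l+1)²)` for an arbitrary prime `l ∤ N q'` and every prime
`l' ≡ 1 [MOD m(l)]`; the non-Eisenstein input has the extra `±` form. -/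
theorem s41_of_nodes_H
    {W : WeierstrassCurve ℤ} {p N q' : ℕ} [NeZero N] [NeZero (N * q')]
    (hp : p.Prime) (hq' : q'.Prime)
    (f : CuspForm (CongruenceSubgroup.Gamma0 N) 2) (𝔪 : Ideal (integralClosure ℤ ℂ))
    (hmax : 𝔪.IsMaximal)
    (hcong : ∀ ℓ : ℕ, ℓ.Prime → W.IsGoodPrimeFor ℓ → ¬ ℓ ∣ N → ℓ ≠ p →
      ∃ a : integralClosure ℤ ℂ, (a : ℂ) = ModularFormClass.qCoeff f ℓ ∧
        a - ((W.apOfModel ℓ : ℤ) : integralClosure ℤ ℂ) ∈ 𝔪)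
    (hLR : ∃ a : integralClosure ℤ ℂ, (a : ℂ) = ModularFormClass.qCoeff f q' ∧
      a ^ 2 - ((q' : integralClosure ℤ ℂ) + 1) ^ 2 ∈ 𝔪)
    (hcommN : ∀ l l', Commute (TLam N l) (TLam N l'))
    (hcommNq : ∀ l l', Commute (TLam (N * q') l) (TLam (N * q') l'))
    (hY : ∀ (S : Set Nat.Primes) (c : Nat.Primes → ℤ),
      (∀ l ∈ S, ∃ a : integralClosure ℤ ℂ, (a : ℂ) = ModularFormClass.qCoeff f l ∧
        a - ((c l : ℤ) : integralClosure ℤ ℂ) ∈ 𝔪) →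
      ∃ y : Lam N, (¬ ∃ z : Lam N, y = (p : ℤ) • z) ∧
        ∀ l ∈ S, ∃ z : Lam N, TLam N l y - c l • y = (p : ℤ) • z)
    (A1 A2 : Lam N →ₗ[ℤ] Lam (N * q')) (B1 B2 : Lam (N * q') →ₗ[ℤ] Lam N)
    (hB1A1 : ∀ x, B1 (A1 x) = ((q' : ℤ) + 1) • x) (hB2A2 : ∀ x, B2 (A2 x) = ((q' : ℤ) + 1) • x)
    (hB1A2 : ∀ x, B1 (A2 x) = TLam N ⟨q', hq'⟩ x) (hB2A1 : ∀ x, B2 (A1 x) = TLam N ⟨q', hq'⟩ x)
    (hA1T : ∀ l : Nat.Primes, ¬ (l : ℕ) ∣ N * q' → ∀ x, A1 (TLam N l x) = TLam (N * q') l (A1 x))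
    (hA2T : ∀ l : Nat.Primes, ¬ (l : ℕ) ∣ N * q' → ∀ x, A2 (TLam N l x) = TLam (N * q') l (A2 x))
    (P : Nat.Primes → Prop) (hP : ∀ l : Nat.Primes, ¬ (l : ℕ) ∣ N * q' → P l)
    (hB1T : ∀ l : Nat.Primes, P l → ∀ x, B1 (TLam (N * q') l x) = TLam N l (B1 x))
    (hB2T : ∀ l : Nat.Primes, P l → ∀ x, B2 (TLam (N * q') l x) = TLam N l (B2 x))
    (hUsq : ∀ x, B1 x = 0 → B2 x = 0 →
      TLam (N * q') ⟨q', hq'⟩ (TLam (N * q') ⟨q', hq'⟩ x) = x)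
    (IN : Lam N →ₗ[ℤ] Lam N →ₗ[ℤ] ℤ) (INq : Lam (N * q') →ₗ[ℤ] Lam (N * q') →ₗ[ℤ] ℤ)
    (hIN : Function.Surjective IN) (hINq : Function.Bijective INq)
    (hadj1 : ∀ x y, INq (A1 x) y = IN x (B1 y)) (hadj2 : ∀ x y, INq (A2 x) y = IN x (B2 y))
    (hselfN : ∀ l : Nat.Primes, ¬ (l : ℕ) ∣ N → ∀ x y, IN (TLam N l x) y = IN x (TLam N l y))
    -- node I' (route H): `(T_{l'} - (l'+1)) (T_l² - (l+1)²)` kills the kernel pairs modulo `p`
    (hIharaH : ∀ l : Nat.Primes, ¬ (l : ℕ) ∣ N * q' → ∃ m : ℕ, 0 < m ∧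
      ∀ l' : Nat.Primes, ¬ (l' : ℕ) ∣ N → (l' : ℕ) ≡ 1 [MOD m] →
      ∀ a b : Lam N, (∃ y : Lam (N * q'), A1 a + A2 b = (p : ℤ) • y) →
        (∃ z : Lam N,
          TLam N l' (TLam N l (TLam N l a) - ((((l : ℕ) + 1 : ℕ) : ℤ) ^ 2) • a) -
            ((((l' : ℕ) + 1 : ℕ) : ℤ)) •
              (TLam N l (TLam N l a) - ((((l : ℕ) + 1 : ℕ) : ℤ) ^ 2) • a) = (p : ℤ) • z) ∧
        (∃ z : Lam N,
          TLam N l' (TLam N l (TLam N l b) - ((((l : ℕ) + 1 : ℕ) : ℤ) ^ 2) • b) -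
            ((((l' : ℕ) + 1 : ℕ) : ℤ)) •
              (TLam N l (TLam N l b) - ((((l : ℕ) + 1 : ℕ) : ℤ) ^ 2) • b) = (p : ℤ) • z))
    -- node E± (route H)
    (hNonEisPM : ∀ T : Finset ℕ, ∃ l : ℕ, l.Prime ∧ l ∉ T ∧
      W.IsGoodPrimeFor l ∧ ¬ l ∣ N ∧ l ≠ p ∧ ¬ (p : ℤ) ∣ ((l : ℤ) + 1 - W.apOfModel l) ∧
      ¬ (p : ℤ) ∣ ((l : ℤ) + 1 + W.apOfModel l))
    -- node E (as in `S41Main.s41_of_nodes`)
    (hNonEis : ∀ (m : ℕ), 0 < m → ∀ T : Finset ℕ, ∃ l : ℕ, l.Prime ∧ l ∉ T ∧ l ≡ 1 [MOD m] ∧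
      W.IsGoodPrimeFor l ∧ ¬ l ∣ N ∧ l ≠ p ∧ ¬ (p : ℤ) ∣ ((l : ℤ) + 1 - W.apOfModel l))
    (hF : ∀ (Kj : Submodule ℤ (Lam (N * q'))),
      (∀ l : Nat.Primes, P l → ∀ x ∈ Kj, TLam (N * q') l x ∈ Kj) →
      (∀ x ∈ Kj, TLam (N * q') ⟨q', hq'⟩ (TLam (N * q') ⟨q', hq'⟩ x) = x) →
      ∀ g : Lam (N * q'), g ∈ Kj → (¬ ∃ y : Lam (N * q'), g = (p : ℤ) • y) →
      (∀ l : Nat.Primes, W.IsGoodPrimeFor l → ¬ (l : ℕ) ∣ N * q' → (l : ℕ) ≠ p →
        ∃ y ∈ Kj, TLam (N * q') l g - (W.apOfModel l) • g = (p : ℤ) • y) →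
      Conclusion W p N q') :
    Conclusion W p N q' := by
  have hNq : ∀ l : ℕ, l.Prime → l ∉ ({q'} : Finset ℕ) → ¬ l ∣ N → ¬ l ∣ N * q' := by
    intro l hl hlT hlN h
    have hlq : l ≠ q' := fun h => hlT (by rw [h]; exact Finset.mem_singleton_self _)
    rcases (Nat.Prime.dvd_mul hl).mp h with h | h
    · exact hlN h
    · exact hlq ((Nat.prime_dvd_prime_iff_eq hl hq').mp h)
  obtain ⟨l, hl, hlT, hlgood, hlN, hlp, hlm, hlpl⟩ := hNonEisPM {q'}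
  have hlNq := hNq l hl hlT hlN
  obtain ⟨m, hm, hI⟩ := hIharaH ⟨l, hl⟩ hlNq
  obtain ⟨l', hl', hl'T, hl'm, hl'good, hl'N, hl'p, hl'E⟩ := hNonEis m hm {q'}
  have hl'Nq := hNq l' hl' hl'T hl'N
  refine s41_of_nodes_list hp hq' f 𝔪 hmax hcong hLR hcommN hcommNq hY A1 A2 B1 B2
    hB1A1 hB2A2 hB1A2 hB2A1 hA1T hA2T P hP hB1T hB2T hUsq IN INq hIN hINq hadj1 hadj2 hselfN
    ⟨[((⟨l', hl'⟩ : Nat.Primes), (((l' + 1 : ℕ) : ℤ))), ((⟨l, hl⟩ : Nat.Primes), (((l + 1 : ℕ) : ℤ))),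
      ((⟨l, hl⟩ : Nat.Primes), -(((l + 1 : ℕ) : ℤ)))], ?_, fun a b hab => ?_⟩ hF
  · intro lc hlc
    simp only [List.mem_cons, List.mem_nil_iff, or_false] at hlc
    rcases hlc with rfl | rfl | rfl
    · refine ⟨hl'good, hl'Nq, hl'p, fun hdiv => hl'E ?_⟩
      have e : (l' : ℤ) + 1 - W.apOfModel l' = -(W.apOfModel l' - ((l' + 1 : ℕ) : ℤ)) := by
        push_cast
        ring
      rw [e]
      exact (dvd_neg).mpr hdiv
    · refine ⟨hlgood, hlNq, hlp, fun hdiv => hlm ?_⟩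
      have e : (l : ℤ) + 1 - W.apOfModel l = -(W.apOfModel l - ((l + 1 : ℕ) : ℤ)) := by
        push_cast
        ring
      rw [e]
      exact (dvd_neg).mpr hdiv
    · refine ⟨hlgood, hlNq, hlp, fun hdiv => hlpl ?_⟩
      have e : (l : ℤ) + 1 + W.apOfModel l = W.apOfModel l - -((l + 1 : ℕ) : ℤ) := by
        push_cast
        ring
      rw [e]
      exact hdiv
  · rw [listOp_three_apply, listOp_three_apply, three_factor_apply, three_factor_apply]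
    exact hI ⟨l', hl'⟩ hl'N hl'm a b hab

end Fermat.Agent.LR.S41MainH
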