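import Mathlib
import Fermat.Agent.LR.TOrbitSysDef

/-!
# Program M, node C2 (P1): every finite-index subgroup has a `T`-orbit system
-/

set_option autoImplicit false

namespace Fermat.Agent.LR.ParSys

open Matrix ModularGroup
open scoped MatrixGroups

section

variable (Γ : Subgroup SL(2, ℤ))

/-- the map `x ↦ T⁻¹ • x` on `E = SL(2,ℤ) ⧸ Γ`. -/
def tinv : SL(2, ℤ) ⧸ Γ → SL(2, ℤ) ⧸ Γ := fun x => (T⁻¹ : SL(2, ℤ)) • x

theorem tinv_iterate (n : ℕ) (x : SL(2, ℤ) ⧸ Γ) :
    (tinv Γ)^[n] x = (T⁻¹ : SL(2, ℤ)) ^ n • x := by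
  unfold tinv
  rw [smul_iterate]

theorem tinv_injective : Function.Injective (tinv Γ) := MulAction.injective _

theorem tinv_mem_periodicPts [Finite (SL(2, ℤ) ⧸ Γ)] (x : SL(2, ℤ) ⧸ Γ) :
    x ∈ Function.periodicPts (tinv Γ) :=
  (tinv_injective Γ).mem_periodicPts x

/-- the forward-orbit relation of `tinv` (an equivalence relation on a finite set). -/
def orbSetoid [Finite (SL(2, ℤ) ⧸ Γ)] : Setoid (SL(2, ℤ) ⧸ Γ) where
  r x y := ∃ n : ℕ, (tinv Γ)^[n] x = y
  iseqv := by
    refine ⟨fun x => ⟨0, rfl⟩, ?_, ?_⟩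
    · rintro x y ⟨n, rfl⟩
      -- go around the cycle
      have hper := Function.isPeriodicPt_minimalPeriod (tinv Γ) x
      have hpos := Function.minimalPeriod_pos_of_mem_periodicPts (tinv_mem_periodicPts Γ x)
      set p := Function.minimalPeriod (tinv Γ) x with hp
      refine ⟨n * p - n, ?_⟩
      rw [← Function.iterate_add_apply]
      have h1 : n * p - n + n = p * n := by
        have : n ≤ n * p := Nat.le_mul_of_pos_right n hpos
        rw [Nat.sub_add_cancel this, mul_comm]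
      rw [h1]
      exact (hper.mul_const n)
    · rintro x y z ⟨n, rfl⟩ ⟨m, rfl⟩
      exact ⟨m + n, Function.iterate_add_apply _ m n x⟩

end

/-- **(P1)** every finite-index subgroup has a `T`-orbit system. -/
theorem exists_tOrbitSys (Γ : Subgroup SL(2, ℤ)) [Γ.FiniteIndex] :
    ∃ (J : Type) (_ : Fintype J), Nonempty (TOrbitSys Γ J) := by
  classical
  have : Finite (SL(2, ℤ) ⧸ Γ) := Subgroup.finite_quotient_of_finiteIndex
  let s := orbSetoid Γ
  let J := Quotient s
  have : Finite J := Quotient.finite s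
  let rep : J → SL(2, ℤ) ⧸ Γ := fun j => Quotient.out j
  let g : J → SL(2, ℤ) := fun j => Quotient.out (rep j)
  have hg : ∀ j, ((g j : SL(2, ℤ)) : SL(2, ℤ) ⧸ Γ) = rep j := fun j => QuotientGroup.out_eq' (rep j)
  let w : J → ℕ := fun j => Function.minimalPeriod (tinv Γ) (rep j)
  have hw : ∀ j, 0 < w j := fun j =>
    Function.minimalPeriod_pos_of_mem_periodicPts (tinv_mem_periodicPts Γ (rep j))
  have hfix : ∀ j, (T⁻¹ : SL(2, ℤ)) ^ (w j) • rep j = rep j := by
    intro j
    rw [← tinv_iterate]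
    exact Function.isPeriodicPt_minimalPeriod (tinv Γ) (rep j)
  have hmap : ∀ (j : J) (i : ℕ), (((T⁻¹ : SL(2, ℤ)) ^ i * g j : SL(2, ℤ)) : SL(2, ℤ) ⧸ Γ) =
      (tinv Γ)^[i] (rep j) := by
    intro j i
    rw [tinv_iterate, ← hg j]
    rfl
  refine ⟨J, Fintype.ofFinite J, ⟨⟨g, w, hw, ?_, ?_⟩⟩⟩
  · intro j
    have h1 : (T : SL(2, ℤ)) ^ (w j) • rep j = rep j := by
      conv_lhs => rw [← hfix j]
      rw [← mul_smul, inv_pow, mul_inv_cancel, one_smul]
    rw [← hg j] at h1
    change (((T : SL(2, ℤ)) ^ w j * g j : SL(2, ℤ)) : SL(2, ℤ) ⧸ Γ) = _ at h1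
    rw [eq_comm, QuotientGroup.eq] at h1
    rwa [mul_assoc]
  · constructor
    · rintro ⟨j, i⟩ ⟨j', i'⟩ h
      simp only at h
      rw [hmap, hmap] at h
      have hjj : j = j' := by
        have h1 : s.r (rep j) (rep j') := by
          have a : s.r (rep j) ((tinv Γ)^[i] (rep j)) := ⟨i, rfl⟩
          have b : s.r (rep j') ((tinv Γ)^[i'] (rep j')) := ⟨i', rfl⟩
          rw [← h] at b
          exact s.iseqv.trans a (s.iseqv.symm b)
        have h2 : (⟦rep j⟧ : Quotient s) = ⟦rep j'⟧ := Quotient.sound h1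
        rwa [Quotient.out_eq, Quotient.out_eq] at h2
      subst hjj
      have hii : (i : ℕ) = (i' : ℕ) :=
        (Function.iterate_eq_iterate_iff_of_lt_minimalPeriod i.2 i'.2).1 h
      have : i = i' := Fin.ext hii
      rw [this]
    · intro y
      let j : J := ⟦y⟧
      have h1 : s.r (rep j) y := Quotient.exact (Quotient.out_eq j)
      obtain ⟨n, hn⟩ := h1
      refine ⟨⟨j, ⟨n % w j, Nat.mod_lt _ (hw j)⟩⟩, ?_⟩
      simp only
      rw [hmap, Function.iterate_mod_minimalPeriod_eq, hn]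

end Fermat.Agent.LR.ParSys
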