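import Mathlib
import Fermat.Agent.LR.ClaimJTC

/-!
# Program M, node D2 (X2 = P4b): torus centrality and (Cen) at the levels `4 ∣ m`, `q` odd

* `torusStab I t g` : the subgroup of the `k : ℤ` with `diag(t ^ k, 1) g diag(t ^ k, 1)⁻¹ ≡ g` modulo
  `EC I`; `one_mem_of_forall_prime` : a subgroup of `ℤ` containing a positive integer and, for each
  prime `l`, an element prime to `l`, contains `1`;
* `conjDiag_sq_mul_inv_mem_EC` : **torus centrality** (helper1's TC, finding #502) for `A q = ℤ[1/q]`,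
  `q` an odd prime, at every level `m` prime to `q` with `4 ∣ m`: conjugation by `diag(q, q⁻¹)` is
  trivial on `Γ(m)` modulo `EC`;
* `cen_even` : Claim J and (Cen)(ii) (`u(2x)`, `l(2y)` centralise `Γ(m)` modulo `EC`) at these levels.
-/

set_option autoImplicit false

namespace Fermat.Agent.LR.CSPEven

open Matrix
open Fermat.Agent.LR.Gen Fermat.Agent.LR.SL2R Fermat.Agent.LR.CSP
open scoped MatrixGroups commutatorElement

section engine

variable {R : Type*} [CommRing R]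

/-- the exponents `k` such that conjugation by `diag(t ^ k, 1)` fixes `g` modulo `EC I` -/
def torusStab (I : Ideal R) (t : Rˣ) (g : SL(2, R)) : AddSubgroup ℤ where
  carrier := {k | conjDiag (t ^ k) g * g⁻¹ ∈ EC I}
  zero_mem' := by
    show conjDiag (t ^ (0 : ℤ)) g * g⁻¹ ∈ EC I
    rw [zpow_zero, conjDiag_one, mul_inv_cancel]
    exact one_mem _
  add_mem' := by
    intro a b ha hb
    show conjDiag (t ^ (a + b)) g * g⁻¹ ∈ EC I
    rw [_root_.zpow_add, conjDiag_mul]
    have e : conjDiag (t ^ a) (conjDiag (t ^ b) g) * g⁻¹ =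
        conjDiag (t ^ a) (conjDiag (t ^ b) g * g⁻¹) * (conjDiag (t ^ a) g * g⁻¹) := by
      rw [map_mul, map_inv]
      group
    rw [e]
    exact mul_mem (conjDiag_mem_EC _ hb) ha
  neg_mem' := by
    intro a ha
    show conjDiag (t ^ (-a)) g * g⁻¹ ∈ EC I
    have e : conjDiag (t ^ (-a)) g * g⁻¹ =
        conjDiag (t ^ (-a)) ((conjDiag (t ^ a) g * g⁻¹)⁻¹) := by
      rw [map_inv, map_mul, map_inv, ← conjDiag_mul, ← _root_.zpow_add, neg_add_cancel, zpow_zero,
        conjDiag_one]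
      group
    rw [e]
    exact conjDiag_mem_EC _ (inv_mem ha)

theorem mem_torusStab {I : Ideal R} {t : Rˣ} {g : SL(2, R)} {k : ℤ} :
    k ∈ torusStab I t g ↔ conjDiag (t ^ k) g * g⁻¹ ∈ EC I := Iff.rfl

/-- the stabiliser only depends on the class modulo `EC I` -/
theorem mem_torusStab_of_mul {I : Ideal R} {t : Rˣ} {g x : SL(2, R)} (hx : x ∈ EC I) {k : ℤ}
    (h : k ∈ torusStab I t (x * g)) : k ∈ torusStab I t g :=
  conjDiag_mul_inv_mem_EC_of_mul _ hx h

/-- a subgroup of `ℤ` containing a positive integer and, for every prime `l`, an element prime to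
`l`, contains `1`. -/
theorem one_mem_of_forall_prime (H : AddSubgroup ℤ) :
    ∀ e : ℕ, e ≠ 0 → (e : ℤ) ∈ H →
      (∀ l : ℕ, l.Prime → ∃ k : ℤ, k ∈ H ∧ ¬ (l : ℤ) ∣ k) → (1 : ℤ) ∈ H := by
  intro e
  induction e using Nat.strong_induction_on with
  | _ e ih =>
    intro he heH hl
    by_cases h1 : e = 1
    · subst h1
      simpa using heH
    · have hlp : (Nat.minFac e).Prime := Nat.minFac_prime h1
      obtain ⟨k, hk, hlk⟩ := hl _ hlp
      have hdH : ((Int.gcd (e : ℤ) k : ℕ) : ℤ) ∈ H := by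
        rw [Int.gcd_eq_gcd_ab]
        refine H.add_mem ?_ ?_
        · rw [mul_comm]
          exact H.zsmul_mem heH _
        · rw [mul_comm]
          exact H.zsmul_mem hk _
      have hd0 : Int.gcd (e : ℤ) k ≠ 0 := by
        intro h0
        rw [Int.gcd_eq_zero_iff] at h0
        exact he (by exact_mod_cast h0.1)
      have hdvd : Int.gcd (e : ℤ) k ∣ e := by
        have := Int.gcd_dvd_left (e : ℤ) k
        exact_mod_cast this
      have hdlt : Int.gcd (e : ℤ) k < e := by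
        refine lt_of_le_of_ne (Nat.le_of_dvd (Nat.pos_of_ne_zero he) hdvd) ?_
        intro heq
        apply hlk
        have h2 : ((Int.gcd (e : ℤ) k : ℕ) : ℤ) ∣ k := Int.gcd_dvd_right (e : ℤ) k
        rw [heq] at h2
        exact (Int.natCast_dvd_natCast.mpr (Nat.minFac_dvd e)).trans h2
      exact ih _ hdlt hd0 hdH hl

/-- conjugation by `diag(t², 1)` is conjugation by `diag(t, t⁻¹)`. -/
theorem conjDiag_sq_eq (t : Rˣ) (g : SL(2, R)) : conjDiag (t ^ 2) g = hR t * g * (hR t)⁻¹ := by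
  have ht : (t : R) * ((t⁻¹ : Rˣ) : R) = 1 := by simp
  apply sl_ext
  · simp only [conjDiag_apply, SL2R.mul_apply', inv_apply, coe_hR, Matrix.of_apply,
      Matrix.cons_val', Matrix.cons_val_zero, Matrix.cons_val_one, Matrix.cons_val_fin_one]
    linear_combination (-(g 0 0)) * ht
  · simp only [conjDiag_apply, SL2R.mul_apply', inv_apply, coe_hR, Matrix.of_apply,
      Matrix.cons_val', Matrix.cons_val_zero, Matrix.cons_val_one, Matrix.cons_val_fin_one,
      Units.val_pow_eq_pow_val]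
    ring
  · simp only [conjDiag_apply, SL2R.mul_apply', inv_apply, coe_hR, Matrix.of_apply,
      Matrix.cons_val', Matrix.cons_val_zero, Matrix.cons_val_one, Matrix.cons_val_fin_one,
      Units.val_pow_eq_pow_val, ← inv_pow]
    ring
  · simp only [conjDiag_apply, SL2R.mul_apply', inv_apply, coe_hR, Matrix.of_apply,
      Matrix.cons_val', Matrix.cons_val_zero, Matrix.cons_val_one, Matrix.cons_val_fin_one]
    linear_combination (-(g 1 1)) * ht

end engine

/-! ### Torus centrality over `ℤ[1/q]` at the levels `4 ∣ m` -/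

section TC

variable {q : ℕ}

/-- the per-prime step: for every prime `l` the stabiliser of the class of `g` under the powers of
`diag(q², 1)` contains an exponent prime to `l`. -/
theorem exists_mem_torusStab_not_dvd (hq : q.Prime) {m : ℕ} (hm : m ≠ 0)
    (hqm : Nat.Coprime q m) (h4 : 4 ∣ m) {g : SL(2, A q)}
    (hg : g ∈ Gam (Ideal.span {(m : A q)})) {l : ℕ} (hl : l.Prime) :
    ∃ k : ℤ, k ∈ torusStab (Ideal.span {(m : A q)}) ((qU hq.ne_zero) ^ 2) g ∧ ¬ (l : ℤ) ∣ k := by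
  have hq0 : q ≠ 0 := hq.ne_zero
  -- Step 0 at the prime `l`
  obtain ⟨y, hy, hstep⟩ : ∃ y ∈ Ideal.span {(m : A q)},
      ∀ hql : Nat.Coprime q l, ¬ l ∣ m → red hq0 hql ((lR y * g) 1 0) ≠ 0 := by
    by_cases h : ¬ l ∣ m ∧ Nat.Coprime q l
    · obtain ⟨y, hy, hne⟩ := exists_lR_mul_red_ne_zero hq0 hl h.2 h.1 g
      exact ⟨y, hy, fun _ _ => hne⟩
    · exact ⟨0, Ideal.zero_mem _, fun h2 h1 => absurd ⟨h1, h2⟩ h⟩
  have hlE : lR y ∈ EC (Ideal.span {(m : A q)}) := E_le_EC _ (lR_mem_E hy)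
  suffices h : ∃ k : ℤ, k ∈ torusStab (Ideal.span {(m : A q)}) ((qU hq0) ^ 2) (lR y * g) ∧
      ¬ (l : ℤ) ∣ k by
    obtain ⟨k, hk, hlk⟩ := h
    exact ⟨k, mem_torusStab_of_mul hlE hk, hlk⟩
  set g₀ := lR y * g with hg₀
  have hg₀mem : g₀ ∈ Gam (Ideal.span {(m : A q)}) := mul_mem (lR_mem_Gam hy) hg
  by_cases hc0 : g₀ 1 0 = 0
  · -- upper triangular: `a` is a unit, `k = 1`
    refine ⟨1, ?_, ?_⟩
    · rw [mem_torusStab, zpow_one]
      have hdet := det_eq g₀
      rw [hc0, mul_zero, sub_zero] at hdet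
      refine E_le_EC _ (conjDiag_mul_inv_mem_E hg₀mem
        (((((qU hq0) ^ 2 : (A q)ˣ) : A q) - 1) * g₀ 1 1) _ ?_)
      linear_combination (-((((qU hq0) ^ 2 : (A q)ˣ) : A q) - 1)) * hdet
    · intro h
      have h1 : l ∣ 1 := by exact_mod_cast h
      exact hl.one_lt.ne' (Nat.dvd_one.mp h1)
  · obtain ⟨u, C, hCne, hqC, hc⟩ := exists_unit_mul_natCast hq (g₀ 1 0) hc0
    have hqM : Nat.Coprime q (m * C) := Nat.Coprime.mul_right hqm hqC
    have hMne : m * C ≠ 0 := Nat.mul_ne_zero hm hCne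
    obtain ⟨n₀, hn₀⟩ := ZMod.intCast_surjective (red hq0 hqM (g₀ 0 0))
    have hn₀mem : (n₀ : A q) - g₀ 0 0 ∈ Ideal.span {((m * C : ℕ) : A q)} := by
      rw [← red_eq_zero_iff hq0 hqM, map_sub, red_intCast, hn₀, sub_self]
    obtain ⟨hcop, hmod⟩ := isCoprime_of_sub_mem hq0 hqm hqC hg₀mem hc n₀ hn₀mem
    obtain ⟨r₁, r₂, j, -, -, -, -, hrmod, hlj, hdvd⟩ := exists_two_primes q (m * C) n₀ l 0 hq0
      hMne hcop hl
      (by
        intro hlMC
        by_cases hlm : l ∣ m
        · exact hmod.of_dvd (by exact_mod_cast hlm)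
        · exfalso
          have hlC : l ∣ C := by
            rcases (Nat.Prime.dvd_mul hl).mp hlMC with h | h
            · exact absurd h hlm
            · exact h
          by_cases hql : q = l
          · subst hql
            have := Nat.Coprime.eq_one_of_dvd hqC hlC
            exact hq.one_lt.ne' this
          · have hql' : Nat.Coprime q l := (Nat.coprime_primes hq hl).mpr hql
            exact not_dvd_of_red_ne_zero hq0 hql' hc (hstep hql' hlm) hlC)
      (fun _ => ⟨Dvd.dvd.mul_right h4 C, hmod.of_dvd (by exact_mod_cast h4)⟩)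
    have hrmem : ((((r₁ * r₂ : ℕ) : ℤ)) : A q) - g₀ 0 0 ∈
        Ideal.span {((m * C : ℕ) : A q)} := by
      have e : ((((r₁ * r₂ : ℕ) : ℤ)) : A q) - g₀ 0 0 =
          (((((r₁ * r₂ : ℕ) : ℤ)) - n₀ : ℤ) : A q) + ((n₀ : A q) - g₀ 0 0) := by
        push_cast
        ring
      rw [e]
      refine add_mem (intCast_mem_span_of_dvd ?_) hn₀mem
      exact hrmod.symm.dvd
    obtain ⟨x, hx, hxa⟩ := exists_add_mul_eq hc (((r₁ * r₂ : ℕ)) : ℤ) hrmem
    have hxE : uR x ∈ EC (Ideal.span {(m : A q)}) := E_le_EC _ (uR_mem_E hx)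
    refine ⟨(j : ℤ), mem_torusStab_of_mul hxE ?_, ?_⟩
    · have hg'mem : uR x * g₀ ∈ Gam (Ideal.span {(m : A q)}) :=
        mul_mem (uR_mem_Gam hx) hg₀mem
      obtain ⟨t, ht⟩ := hdvd
      rw [mem_torusStab, zpow_natCast]
      refine E_le_EC _ (conjDiag_mul_inv_mem_E hg'mem (t : A q) _ ?_)
      rw [uR_mul_apply_zero_zero, hxa, Units.val_pow_eq_pow_val, Units.val_pow_eq_pow_val, coe_qU,
        ← pow_mul]
      have hpos : 1 ≤ q ^ (2 * j) := Nat.one_le_pow _ _ (Nat.pos_of_ne_zero hq0)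
      have e : ((q ^ (2 * j) : ℕ) : A q) = 1 + ((r₁ * r₂ * t : ℕ) : A q) := by
        rw [← ht]
        have : q ^ (2 * j) = 1 + (q ^ (2 * j) - 1) := by omega
        conv_lhs => rw [this]
        push_cast
        ring
      push_cast at e ⊢
      exact e
    · intro h
      exact hlj (by exact_mod_cast h)

/-- **Torus centrality** at the levels `4 ∣ m` (`q` any prime not dividing `m`). -/
theorem conjDiag_sq_mul_inv_mem_EC (hq : q.Prime) {m : ℕ} (hm : m ≠ 0)
    (hqm : Nat.Coprime q m) (h4 : 4 ∣ m) :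
    ∀ g ∈ Gam (Ideal.span {(m : A q)}),
      conjDiag ((qU hq.ne_zero) ^ 2) g * g⁻¹ ∈ EC (Ideal.span {(m : A q)}) := by
  intro g hg
  have hq0 : q ≠ 0 := hq.ne_zero
  have h1 : (1 : ℤ) ∈ torusStab (Ideal.span {(m : A q)}) ((qU hq0) ^ 2) g := by
    refine one_mem_of_forall_prime _ (Nat.totient m)
      (Nat.totient_pos.mpr (Nat.pos_of_ne_zero hm)).ne' ?_
      (fun l hl => exists_mem_torusStab_not_dvd hq hm hqm h4 hg hl)
    rw [mem_torusStab, zpow_natCast, ← pow_mul, mul_comm, pow_mul, conjDiag_sq_eq]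
    have hdvd : (m : ℤ) ∣ (q : ℤ) ^ Nat.totient m - 1 := by
      have h1 : q ^ Nat.totient m ≡ 1 [MOD m] := Nat.ModEq.pow_totient hqm
      have h3 := Nat.modEq_iff_dvd.mp h1.symm
      push_cast at h3
      exact h3
    have hh : hR ((qU hq0) ^ Nat.totient m) ∈ Gam (Ideal.span {(m : A q)}) :=
      hR_qU_pow_mem_Gam hq0 hdvd
    exact commutator_le_EC _ (Subgroup.commutator_mem_commutator hh hg)
  rw [mem_torusStab, zpow_one] at h1
  exact h1

/-- **Claim J and (Cen)(ii) at the levels `4 ∣ m`** (`q` an odd prime not dividing `m`). -/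
theorem cen_even (hq : q.Prime) (hq2 : q ≠ 2) {m : ℕ} (hm : m ≠ 0) (hqm : Nat.Coprime q m)
    (h4 : 4 ∣ m) :
    (∀ g ∈ Gam (Ideal.span {(m : A q)}),
      conjDiag (-1) g * g⁻¹ ∈ EC (Ideal.span {(m : A q)})) ∧
    ∀ x : A q, uR (2 * x) ∈ cenMod (Ideal.span {(m : A q)}) ∧
      lR (2 * x) ∈ cenMod (Ideal.span {(m : A q)}) := by
  have hJ := conjDiag_neg_one_mul_inv_mem_EC hq hq2 hm hqm (Or.inr h4)
    (conjDiag_sq_mul_inv_mem_EC hq hm hqm h4)
  exact ⟨hJ, fun x => ⟨uR_two_mul_mem_cenMod hJ x, lR_two_mul_mem_cenMod hJ x⟩⟩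

end TC

end Fermat.Agent.LR.CSPEven
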