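import Mathlib.GroupTheory.Transfer

/-!
# Program M, node D2: the transfer finishing lemma

Generic group theory (Mathlib only).  `H ≤ G` of finite index, `φ : H →* A` with `A` commutative.

* `transfer_eq_one_of_forall_conj_pow` : if `φ` kills every conjugate of a power of `u` lying in
  `H`, then the transfer of `φ` kills `u`;
* `transfer_eq_one_of_closure` : hence the transfer is trivial if such elements generate `G`;
* `transfer_eq_pow_index` : if `φ (g₀⁻¹ k ^ n g₀) = φ k ^ n`-style invariance holds for `k`, the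
  transfer of `φ` at `k` is `c ^ [G : H]`;
* `eq_one_of_invariant` : the finishing lemma: an invariant value `c` with `c ^ p = 1`,
  `p` prime to the index, and trivial transfer is `1`.
-/

set_option autoImplicit false

namespace Fermat.Agent.LR.TransferFinish

open MonoidHom Subgroup MulAction

variable {G : Type*} [Group G] {H : Subgroup G} {A : Type*} [CommGroup A] (φ : H →* A)

/-- If `φ` kills every `G`-conjugate of a power of `u` that lies in `H`, the transfer of `φ`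
kills `u`. -/
theorem transfer_eq_one_of_forall_conj_pow [H.FiniteIndex] (u : G)
    (hu : ∀ (n : ℕ) (g₀ : G) (h : g₀⁻¹ * u ^ n * g₀ ∈ H), φ ⟨g₀⁻¹ * u ^ n * g₀, h⟩ = 1) :
    transfer φ u = 1 := by
  classical
  let _ := H.fintypeQuotientOfFiniteIndex
  rw [transfer_eq_prod_quotient_orbitRel_zpowers_quot]
  exact Finset.prod_eq_one fun q _ => hu _ _ _

/-- If the elements all of whose conjugate-powers in `H` are killed by `φ` generate `G`, the
transfer of `φ` is trivial. -/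
theorem transfer_eq_one_of_closure [H.FiniteIndex] (S : Set G) (hS : Subgroup.closure S = ⊤)
    (hφ : ∀ u ∈ S, ∀ (n : ℕ) (g₀ : G) (h : g₀⁻¹ * u ^ n * g₀ ∈ H),
      φ ⟨g₀⁻¹ * u ^ n * g₀, h⟩ = 1) :
    transfer φ = 1 := by
  have hle : Subgroup.closure S ≤ (transfer φ).ker := by
    rw [Subgroup.closure_le]
    intro u hu
    exact MonoidHom.mem_ker.mpr (transfer_eq_one_of_forall_conj_pow φ u (hφ u hu))
  ext g
  have : g ∈ (transfer φ).ker := hle (hS ▸ Subgroup.mem_top g)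
  simpa using MonoidHom.mem_ker.mp this

/-- If every conjugate of `k ^ n` lying in `H` has `φ`-value `c ^ n`, the transfer of `φ` at `k`
is `c ^ [G : H]`. -/
theorem transfer_eq_pow_index [H.FiniteIndex] (k : G) (c : A)
    (hk : ∀ (n : ℕ) (g₀ : G) (h : g₀⁻¹ * k ^ n * g₀ ∈ H), φ ⟨g₀⁻¹ * k ^ n * g₀, h⟩ = c ^ n) :
    transfer φ k = c ^ H.index := by
  classical
  let _ := H.fintypeQuotientOfFiniteIndex
  rw [transfer_eq_prod_quotient_orbitRel_zpowers_quot,
    Finset.prod_congr rfl (fun q _ => hk _ _ _), Finset.prod_pow_eq_pow_sum,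
    ← index_eq_sum_minimalPeriod H k]

/-- On a normal subgroup `K ≤ H` of `G` on which `φ` is invariant under `G`-conjugation, the
transfer of `φ` is the `[G : H]`-th power of `φ`. -/
theorem transfer_eq_pow_index_of_normal [H.FiniteIndex] (K : Subgroup G) [K.Normal]
    (hKH : K ≤ H)
    (hinv : ∀ (g₀ k : G) (hk : k ∈ K) (h' : g₀⁻¹ * k * g₀ ∈ H),
      φ ⟨g₀⁻¹ * k * g₀, h'⟩ = φ ⟨k, hKH hk⟩)
    {k : G} (hk : k ∈ K) : transfer φ k = φ ⟨k, hKH hk⟩ ^ H.index := by
  refine transfer_eq_pow_index φ k _ fun n g₀ h => ?_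
  have hkn : k ^ n ∈ K := K.pow_mem hk n
  rw [hinv g₀ (k ^ n) hkn h, ← map_pow]
  rfl

/-- **The transfer finishing lemma.**  `K ≤ H ≤ G`, `K` normal in `G`, `H` of finite index prime
to `p`; `φ : H →* A` with `A` of exponent `p`, `φ|K` invariant under `G`-conjugation, and the
transfer of `φ` to `G` trivial.  Then `φ` kills `K`. -/
theorem eq_one_of_normal_invariant [H.FiniteIndex] (K : Subgroup G) [K.Normal] (hKH : K ≤ H)
    (hinv : ∀ (g₀ k : G) (hk : k ∈ K) (h' : g₀⁻¹ * k * g₀ ∈ H),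
      φ ⟨g₀⁻¹ * k * g₀, h'⟩ = φ ⟨k, hKH hk⟩)
    (htr : transfer φ = 1) {p : ℕ} (hp : p.Coprime H.index) (hpow : ∀ a : A, a ^ p = 1)
    {k : G} (hk : k ∈ K) : φ ⟨k, hKH hk⟩ = 1 := by
  have h1 : φ ⟨k, hKH hk⟩ ^ H.index = 1 := by
    rw [← transfer_eq_pow_index_of_normal φ K hKH hinv hk, htr, MonoidHom.one_apply]
  have h2 : φ ⟨k, hKH hk⟩ ^ p = 1 := hpow _
  have h3 := pow_gcd_eq_one.mpr ⟨h2, h1⟩
  rwa [Nat.Coprime.gcd_eq_one hp, pow_one] at h3

/-- The finishing lemma with the triviality of the transfer coming from a generating set of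
elements whose conjugate-powers in `H` are killed by `φ` (e.g. the unipotent elements). -/
theorem eq_one_of_normal_invariant_of_closure [H.FiniteIndex] (K : Subgroup G) [K.Normal]
    (hKH : K ≤ H)
    (hinv : ∀ (g₀ k : G) (hk : k ∈ K) (h' : g₀⁻¹ * k * g₀ ∈ H),
      φ ⟨g₀⁻¹ * k * g₀, h'⟩ = φ ⟨k, hKH hk⟩)
    (S : Set G) (hS : Subgroup.closure S = ⊤)
    (hφS : ∀ u ∈ S, ∀ (n : ℕ) (g₀ : G) (h : g₀⁻¹ * u ^ n * g₀ ∈ H),
      φ ⟨g₀⁻¹ * u ^ n * g₀, h⟩ = 1)
    {p : ℕ} (hp : p.Coprime H.index) (hpow : ∀ a : A, a ^ p = 1)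
    {k : G} (hk : k ∈ K) : φ ⟨k, hKH hk⟩ = 1 :=
  eq_one_of_normal_invariant φ K hKH hinv (transfer_eq_one_of_closure φ S hS hφS) hp hpow hk

end Fermat.Agent.LR.TransferFinish
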