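/-
Program M (S41), bypass route (finding 521, Lemma D3'), abstract half (helper27).

`D` is a coset system (`Jac.CosetReps`) for a group `Γ` (in the application `Γ = SL₂(ℤ)` or
`Γ₀(2)`), `D'` the coset system with the same representatives for a subgroup `f : Γ' → Γ`
(`Γ' = Γ₀(N)`).  For `u : ι → Γ` put `kap D u g i = u_i⁻¹ · c_i(g) · u_{s_g i} · g⁻¹`.

* `kap_mul` : the cocycle identity `kap (g h) i = kap g i · (g · kap h (s_g i) · g⁻¹)`.
* `transfer_eq_sum_kap` : `(transfer x)(g) = ∑ i, x (kap g i) + card ι • x g` (telescoping).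
* `sum_kap_mul`, `kappaHom` : if `ψ` is additive and conjugation invariant on a normal subgroup
  `K` containing all `kap g i`, then `κ(g) = ∑ i, ψ (kap g i)` is a homomorphism.
* `transfer_eq_card_smul_of_invariant` : **abstract D3'**: if moreover `κ` vanishes on a
  generating set of `Γ` (and the invariance is known for the generators), then
  `transfer x = card ι • x` on `Γ'`.
-/
import Mathlib
import Fermat.Agent.Jac.Transfer

set_option autoImplicit false

namespace Fermat.Agent.LR.TransferKappa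

open Fermat.Agent.Jac

variable {Γ Γ' G : Type*} [Group Γ] [Group Γ'] [Group G] {emb : Γ →* G} {emb' : Γ' →* G}
  {ι : Type*}

/-! ### Two coset systems with the same representatives -/

section Compare

variable (D : CosetReps emb ι) (D' : CosetReps emb' ι) (f : Γ' →* Γ)
  (hemb : ∀ g, emb' g = emb (f g)) (hrep : ∀ i, D'.rep i = D.rep i)

include hemb hrep in
theorem rel_map (g : Γ') (i : ι) :
    D.rep i * emb (f g) = emb (f (D'.coc g i)) * D.rep (D'.next g i) := by
  rw [← hrep, ← hemb, D'.rel g i, hemb, hrep]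

include hemb hrep in
theorem next_map (g : Γ') (i : ι) : D.next (f g) i = D'.next g i :=
  D.next_eq_of_rel (rel_map D D' f hemb hrep g i)

include hemb hrep in
theorem coc_map (g : Γ') (i : ι) : D.coc (f g) i = f (D'.coc g i) :=
  D.coc_eq_of_rel (rel_map D D' f hemb hrep g i)

end Compare

/-! ### The correction elements -/

/-- `kap D u g i = u_i⁻¹ · c_i(g) · u_{s_g i} · g⁻¹` -/
noncomputable def kap (D : CosetReps emb ι) (u : ι → Γ) (g : Γ) (i : ι) : Γ :=
  (u i)⁻¹ * D.coc g i * u (D.next g i) * g⁻¹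

theorem coc_eq_kap (D : CosetReps emb ι) (u : ι → Γ) (g : Γ) (i : ι) :
    D.coc g i = u i * kap D u g i * g * (u (D.next g i))⁻¹ := by
  unfold kap
  group

/-- the cocycle identity -/
theorem kap_mul (D : CosetReps emb ι) (u : ι → Γ) (g h : Γ) (i : ι) :
    kap D u (g * h) i = kap D u g i * (g * kap D u h (D.next g i) * g⁻¹) := by
  unfold kap
  rw [D.coc_mul, D.next_mul]
  group

theorem kap_map (D : CosetReps emb ι) (D' : CosetReps emb' ι) (f : Γ' →* Γ)
    (hemb : ∀ g, emb' g = emb (f g)) (hrep : ∀ i, D'.rep i = D.rep i) (u' : ι → Γ')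
    (g : Γ') (i : ι) :
    f (kap D' u' g i) = kap D (fun j => f (u' j)) (f g) i := by
  unfold kap
  rw [coc_map D D' f hemb hrep, next_map D D' f hemb hrep]
  simp only [map_mul, map_inv]

variable [Fintype ι] {M : Type*} [AddCommGroup M]

/-- telescoping: the transfer in terms of the correction elements -/
theorem transfer_eq_sum_kap (D : CosetReps emb ι) (u : ι → Γ) (x : Additive Γ →+ M) (g : Γ) :
    D.transfer x (Additive.ofMul g) =
      ∑ i, x (Additive.ofMul (kap D u g i)) + Fintype.card ι • x (Additive.ofMul g) := by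
  rw [CosetReps.transfer_apply]
  have h : ∀ i, x (Additive.ofMul (D.coc g i)) =
      x (Additive.ofMul (u i)) + x (Additive.ofMul (kap D u g i)) + x (Additive.ofMul g) -
        x (Additive.ofMul (u (D.next g i))) := by
    intro i
    conv_lhs => rw [coc_eq_kap D u g i]
    simp only [ofMul_mul, ofMul_inv, map_add, map_neg]
    abel
  simp only [h, Finset.sum_sub_distrib, Finset.sum_add_distrib, Finset.sum_const,
    Finset.card_univ]
  have h1 : ∑ i, x (Additive.ofMul (u (D.next g i))) = ∑ i, x (Additive.ofMul (u i)) :=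
    Equiv.sum_comp (D.nextEquiv g) (fun i => x (Additive.ofMul (u i)))
  rw [h1]
  abel

/-- additivity of `κ(g) = ∑ i, ψ (kap g i)` -/
theorem sum_kap_mul (D : CosetReps emb ι) (u : ι → Γ) (K : Subgroup Γ) (ψ : Γ → M)
    (hmul : ∀ a b, a ∈ K → b ∈ K → ψ (a * b) = ψ a + ψ b)
    (hconj : ∀ g k, k ∈ K → ψ (g * k * g⁻¹) = ψ k)
    (hKn : ∀ g k, k ∈ K → g * k * g⁻¹ ∈ K)
    (hK : ∀ g i, kap D u g i ∈ K) (g h : Γ) :
    ∑ i, ψ (kap D u (g * h) i) = ∑ i, ψ (kap D u g i) + ∑ i, ψ (kap D u h i) := by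
  have h1 : ∀ i, ψ (kap D u (g * h) i) = ψ (kap D u g i) + ψ (kap D u h (D.next g i)) := by
    intro i
    rw [kap_mul, hmul _ _ (hK g i) (hKn g _ (hK h _)), hconj g _ (hK h _)]
  simp only [h1, Finset.sum_add_distrib]
  congr 1
  exact Equiv.sum_comp (D.nextEquiv g) (fun i => ψ (kap D u h i))

/-- `κ` as a homomorphism -/
noncomputable def kappaHom (D : CosetReps emb ι) (u : ι → Γ) (K : Subgroup Γ) (ψ : Γ → M)
    (hmul : ∀ a b, a ∈ K → b ∈ K → ψ (a * b) = ψ a + ψ b)
    (hconj : ∀ g k, k ∈ K → ψ (g * k * g⁻¹) = ψ k)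
    (hKn : ∀ g k, k ∈ K → g * k * g⁻¹ ∈ K)
    (hK : ∀ g i, kap D u g i ∈ K) : Additive Γ →+ M :=
  AddMonoidHom.mk' (fun g => ∑ i, ψ (kap D u (Additive.toMul g) i))
    (fun g h => sum_kap_mul D u K ψ hmul hconj hKn hK (Additive.toMul g) (Additive.toMul h))

theorem kappaHom_apply (D : CosetReps emb ι) (u : ι → Γ) (K : Subgroup Γ) (ψ : Γ → M)
    (hmul : ∀ a b, a ∈ K → b ∈ K → ψ (a * b) = ψ a + ψ b)
    (hconj : ∀ g k, k ∈ K → ψ (g * k * g⁻¹) = ψ k)
    (hKn : ∀ g k, k ∈ K → g * k * g⁻¹ ∈ K)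
    (hK : ∀ g i, kap D u g i ∈ K) (g : Γ) :
    kappaHom D u K ψ hmul hconj hKn hK (Additive.ofMul g) = ∑ i, ψ (kap D u g i) := rfl

omit [AddCommGroup M] in
/-- invariance under a generating set implies invariance under the whole group -/
theorem conj_invariant_of_generators (K : Subgroup Γ) (hKn : ∀ g k, k ∈ K → g * k * g⁻¹ ∈ K)
    (ψ : Γ → M) (S : Set Γ) (hS : Subgroup.closure S = ⊤)
    (hinvS : ∀ s ∈ S, ∀ k ∈ K, ψ (s * k * s⁻¹) = ψ k) :
    ∀ g k, k ∈ K → ψ (g * k * g⁻¹) = ψ k := by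
  intro g
  have hg : g ∈ Subgroup.closure S := by rw [hS]; exact Subgroup.mem_top g
  induction hg using Subgroup.closure_induction with
  | mem s hs => exact hinvS s hs
  | one => intro k _; simp
  | mul a b _ _ iha ihb =>
    intro k hk
    have e : a * b * k * (a * b)⁻¹ = a * (b * k * b⁻¹) * a⁻¹ := by group
    rw [e, iha _ (hKn b k hk), ihb k hk]
  | inv a _ iha =>
    intro k hk
    have h1 := iha (a⁻¹ * k * a⁻¹⁻¹) (hKn a⁻¹ k hk)
    have e : a * (a⁻¹ * k * a⁻¹⁻¹) * a⁻¹ = k := by group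
    rw [e] at h1
    exact h1.symm

/-- **Abstract D3'.** `D` a coset system for the big group `Γ`, `D'` the coset system with the
same representatives for a subgroup `f : Γ' → Γ`; `K` a normal subgroup of `Γ`;
`x : Γ' → M` a homomorphism, `ψ : Γ → M` a function agreeing with `x` on `K`, additive on `K` and
invariant under conjugation by a generating set `S` of `Γ`; if the correction elements `kap` all lie
in `K` and `κ = ∑ ψ ∘ kap` vanishes on `S`, then the transfer of `x` is `card ι • x`. -/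
theorem transfer_eq_card_smul_of_invariant (D : CosetReps emb ι) (D' : CosetReps emb' ι)
    (f : Γ' →* Γ) (hemb : ∀ g, emb' g = emb (f g)) (hrep : ∀ i, D'.rep i = D.rep i)
    (u' : ι → Γ') (K : Subgroup Γ) (hKn : ∀ g k, k ∈ K → g * k * g⁻¹ ∈ K)
    (x : Additive Γ' →+ M) (ψ : Γ → M)
    (hψ : ∀ k' : Γ', f k' ∈ K → ψ (f k') = x (Additive.ofMul k'))
    (hmul : ∀ a b, a ∈ K → b ∈ K → ψ (a * b) = ψ a + ψ b)
    (S : Set Γ) (hS : Subgroup.closure S = ⊤)
    (hinvS : ∀ s ∈ S, ∀ k ∈ K, ψ (s * k * s⁻¹) = ψ k)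
    (hK : ∀ g i, kap D (fun j => f (u' j)) g i ∈ K)
    (hκS : ∀ s ∈ S, ∑ i, ψ (kap D (fun j => f (u' j)) s i) = 0) :
    D'.transfer x = Fintype.card ι • x := by
  have hconj := conj_invariant_of_generators K hKn ψ S hS hinvS
  have hκ : ∀ g : Γ, ∑ i, ψ (kap D (fun j => f (u' j)) g i) = 0 := by
    intro g
    have hg : g ∈ Subgroup.closure S := by rw [hS]; exact Subgroup.mem_top g
    induction hg using Subgroup.closure_induction with
    | mem s hs => exact hκS s hs
    | one =>
      have := sum_kap_mul D (fun j => f (u' j)) K ψ hmul hconj hKn hK 1 1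
      rw [mul_one] at this
      exact add_eq_left.mp this.symm
    | mul a b _ _ iha ihb =>
      rw [sum_kap_mul D (fun j => f (u' j)) K ψ hmul hconj hKn hK a b, iha, ihb, add_zero]
    | inv a _ iha =>
      have h1 := sum_kap_mul D (fun j => f (u' j)) K ψ hmul hconj hKn hK a a⁻¹
      have h2 := sum_kap_mul D (fun j => f (u' j)) K ψ hmul hconj hKn hK 1 1
      rw [mul_one] at h2
      have h3 : ∑ i, ψ (kap D (fun j => f (u' j)) 1 i) = 0 := add_eq_left.mp h2.symm
      rw [mul_inv_cancel, h3, iha, zero_add] at h1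
      exact h1.symm
  refine AddMonoidHom.ext fun γ => ?_
  obtain ⟨g, rfl⟩ := Additive.ofMul.surjective γ
  rw [transfer_eq_sum_kap D' u' x g]
  have h1 : ∀ i, x (Additive.ofMul (kap D' u' g i)) = ψ (kap D (fun j => f (u' j)) (f g) i) := by
    intro i
    rw [← kap_map D D' f hemb hrep u' g i]
    have hmem : f (kap D' u' g i) ∈ K := by
      rw [kap_map D D' f hemb hrep u' g i]
      exact hK _ _
    rw [hψ _ hmem]
  simp only [h1, hκ (f g), zero_add, AddMonoidHom.coe_smul, Pi.smul_apply]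

end Fermat.Agent.LR.TransferKappa
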